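import Mathlib
import Fermat.Agent.S18.Endgame
import Fermat.Agent.S18.ChartGens

/-
S34 (long shot, blueprint findings 202), abstract core of package B5: THE KUMMER STEP.

Setting (the currency of `S18.Endgame`): `W` a noetherian UFD (a discrete valuation ring in the
application) with prime element `π` and fraction field `L` of characteristic zero, `F ⊇ L(j)` a
finite extension (`j` transcendental), `s` a prime invertible in `W`, `ζ ∈ W` a primitive `s`-th
root of unity.  `w ∈ F` is congruent to `1` modulo `π` in the integral closure of the Gauss ring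
`W[j]_(π)` (at level `N = q M` this closure is the intersection of the two Gauss valuation rings).

LOCAL DATA: at every maximal ideal `𝔫 ∋ π` of each of the two chart rings (the integral closures
of `W[j]` and of `W[1/j]` in `F`) there is `g ∈ F`, `g ≡ 1` modulo `π` (Gauss ring), such that
`w * g ^ s` is integral at `𝔫`, i.e. `d * (w * g ^ s)` is integral over the chart for some `d ∉ 𝔫`.

CONCLUSION (`kummer_step`): `w = a * h ^ s` with `a ≠ 0` integral over `W` (a constant).

Proof: if `w` is not an `s`-th power, `Y = F[T]/(T ^ s - w)` is a field; on each chart the set of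
`r` with `r * eps(u) ∈ (integral over the chart) + π * (Gauss integral)` is an ideal which contains
`π` and `d ^ (s - 1)` for the local datum `(g, d)` at `𝔫` (because `d * u * g` is integral and
`eps(u * g) - eps(u) ∈ π * (Gauss integral)`), hence is the unit ideal (`chart_lift`); so the sheet
idempotent lifts to both charts and `S18.Endgame.endgame` applies.
-/

set_option autoImplicit false
set_option linter.unusedSectionVars false

namespace Fermat.Agent.S34.KummerStep

open Polynomial Fermat.Agent.S18 Fermat.Agent.S18.Endgame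

section Transfer

variable {W F Y : Type*} [CommRing W] [Field F] [Algebra W F] [Field Y] [Algebra W Y]
  [Algebra F Y] [IsScalarTower W F Y]

theorem comp_ev (j : F) : (algebraMap F Y).comp (ev W j) = ev W (algebraMap F Y j) := by
  apply Polynomial.ringHom_ext
  · intro a
    rw [RingHom.comp_apply, ev_C, ev_C, ← IsScalarTower.algebraMap_apply]
  · rw [RingHom.comp_apply, ev_X, ev_X]

theorem isInt_map {j y : F} (h : IsInt W j y) : IsInt W (algebraMap F Y j) (algebraMap F Y y) := by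
  have := RingHom.IsIntegralElem.map h (algebraMap F Y)
  rwa [comp_ev] at this

theorem inC_map [IsDomain W] {π : W} {j c : F} (h : InC π j c) :
    InC π (algebraMap F Y j) (algebraMap F Y c) := by
  obtain ⟨p, hp, hpc⟩ := h
  refine ⟨p, hp, ?_⟩
  have := isInt_map (Y := Y) hpc
  rwa [map_mul, ← aeval_algebraMap_apply] at this

end Transfer

section ChartLift

theorem pow_pred_mul {R : Type*} [CommRing R] {s : ℕ} (hs : 0 < s) (a b : R) :
    a ^ (s - 1) * (a * b) = a ^ s * b := by
  obtain ⟨m, rfl⟩ : ∃ m, s = m + 1 := ⟨s - 1, by omega⟩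
  rw [Nat.add_sub_cancel, pow_succ]; ring

variable {W F Y : Type*} [CommRing W] [IsDomain W] [Field F] [Algebra W F] [Field Y] [Algebra W Y]
  [Algebra F Y] [IsScalarTower W F Y]

/-- **Local-to-global lift of the sheet idempotent on one chart** (`x₀ = j` or `x₀ = 1/j`): if at
every maximal ideal `𝔫 ∋ π` of the chart ring some `g ≡ 1` modulo `π` makes `w * g ^ s` integral
at `𝔫`, then `eps(u) = (1/s) ∑ uⁱ` is congruent modulo `π` times a Gauss-integral element to an
element integral over the chart. -/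
theorem chart_lift {π : W} (hπ : Prime π) (x₀ : F) {s : ℕ} (hs : s.Prime) (sW : W) (w : F) (u : Y)
    (hu : u ^ s = algebraMap F Y w)
    (hw : ∃ c : F, InC π x₀ c ∧ w - 1 = algebraMap W F π * c)
    (hloc : ∀ 𝔫 : Ideal (integralClosure (Algebra.adjoin W {x₀}) F), 𝔫.IsMaximal →
      (∀ r : integralClosure (Algebra.adjoin W {x₀}) F, (r : F) = algebraMap W F π → r ∈ 𝔫) →
      ∃ g : F, (∃ c : F, InC π x₀ c ∧ g - 1 = algebraMap W F π * c) ∧
        ∃ d : integralClosure (Algebra.adjoin W {x₀}) F, d ∉ 𝔫 ∧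
          IsIntegral (Algebra.adjoin W {x₀}) ((d : F) * (w * g ^ s))) :
    ∃ e : Y, IsInt W (algebraMap F Y x₀) e ∧ ∃ d : Y, InC π (algebraMap F Y x₀) d ∧
      e - algebraMap W Y sW * ∑ i ∈ Finset.range s, u ^ i = algebraMap W Y π * d := by
  classical
  set x : Y := algebraMap F Y x₀ with hx
  set E : Y := algebraMap W Y sW * ∑ i ∈ Finset.range s, u ^ i with hE
  have hπY : ∀ a : W, algebraMap F Y (algebraMap W F a) = algebraMap W Y a := fun a =>
    (IsScalarTower.algebraMap_apply W F Y a).symm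
  -- `w`, `u`, `E` are Gauss integral
  have hwC : InC π x (algebraMap F Y w) := by
    obtain ⟨c, hc, hwc⟩ := hw
    have h1 : algebraMap F Y w = 1 + algebraMap W Y π * algebraMap F Y c := by
      rw [← hπY, ← map_mul, ← hwc, ← map_one (algebraMap F Y), ← map_add]
      congr 1; ring
    rw [h1]
    exact (InC.one hπ).add hπ ((InC.const hπ π).mul hπ (inC_map hc))
  have huC : InC π x u := InC.of_pow hs.pos (by rw [hu]; exact hwC)
  have hEC : InC π x E :=
    (InC.const hπ sW).mul hπ (InC.sum hπ _ _ fun i _ => huC.pow hπ i)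
  -- the chart ring and its map to `Y`
  let B := integralClosure (Algebra.adjoin W {x₀}) F
  let ρ : B →+* Y := (algebraMap F Y).comp (B.val : B →+* F)
  have hB : ∀ r : B, IsIntegral (Algebra.adjoin W {x₀}) (r : F) := fun r => r.2
  have hρ : ∀ r : B, IsInt W x (ρ r) := fun r =>
    (isInt_iff_isIntegral_adjoin x₀ (algebraMap F Y (r : F))).mpr
      (IsIntegral.algebraMap (A := F) (hB r))
  have hρint : ∀ z : F, IsIntegral (Algebra.adjoin W {x₀}) z → IsInt W x (algebraMap F Y z) :=
    fun z hz => (isInt_iff_isIntegral_adjoin x₀ _).mpr (IsIntegral.algebraMap hz)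
  -- the conductor ideal
  let I : Ideal B :=
    { carrier := {r | ∃ e, IsInt W x e ∧ ∃ d, InC π x d ∧ ρ r * E - e = algebraMap W Y π * d}
      zero_mem' := ⟨0, IsInt.zero, 0, InC.zero hπ, by simp⟩
      add_mem' := by
        rintro r₁ r₂ ⟨e₁, he₁, d₁, hd₁, h₁⟩ ⟨e₂, he₂, d₂, hd₂, h₂⟩
        refine ⟨e₁ + e₂, he₁.add he₂, d₁ + d₂, hd₁.add hπ hd₂, ?_⟩
        rw [map_add]; linear_combination h₁ + h₂
      smul_mem' := by
        rintro a r ⟨e, he, d, hd, h⟩
        refine ⟨ρ a * e, (hρ a).mul he, ρ a * d, (InC.of_isInt hπ (hρ a)).mul hπ hd, ?_⟩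
        rw [smul_eq_mul, map_mul]; linear_combination ρ a * h }
  have hImem : ∀ r : B, r ∈ I ↔
      ∃ e, IsInt W x e ∧ ∃ d, InC π x d ∧ ρ r * E - e = algebraMap W Y π * d := fun r => Iff.rfl
  have hItop : I = ⊤ := by
    by_contra hne
    obtain ⟨𝔫, h𝔫, hI𝔫⟩ := Ideal.exists_le_maximal I hne
    have hπ𝔫 : ∀ r : B, (r : F) = algebraMap W F π → r ∈ 𝔫 := by
      intro r hr
      apply hI𝔫
      refine (hImem r).mpr ⟨0, IsInt.zero, E, hEC, ?_⟩
      have : ρ r = algebraMap W Y π := by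
        show algebraMap F Y (r : F) = _
        rw [hr, hπY]
      rw [this, sub_zero]
    obtain ⟨g, ⟨c, hc, hgc⟩, d, hd𝔫, hdint⟩ := hloc 𝔫 h𝔫 hπ𝔫
    apply hd𝔫
    refine h𝔫.isPrime.mem_of_pow_mem (s - 1) (hI𝔫 ?_)
    -- `d ^ (s - 1) ∈ I`
    set G : Y := algebraMap F Y g with hG
    set Cc : Y := algebraMap F Y c with hCc
    have hCcC : InC π x Cc := inC_map hc
    have hG1 : G - 1 = algebraMap W Y π * Cc := by
      rw [hG, hCc, ← hπY, ← map_mul, ← hgc, map_sub, map_one]
    have hGC : InC π x G := by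
      have : G = 1 + algebraMap W Y π * Cc := by linear_combination hG1
      rw [this]
      exact (InC.one hπ).add hπ ((InC.const hπ π).mul hπ hCcC)
    set t : Y := u * G with ht
    have hρd : ρ d = algebraMap F Y (d : F) := rfl
    have hdt : IsInt W x (ρ d * t) := by
      refine IsInt.of_pow hs.pos ?_
      have h1 : (ρ d * t) ^ s =
          algebraMap F Y ((d : F) ^ (s - 1) * ((d : F) * (w * g ^ s))) := by
        rw [ht, mul_pow, mul_pow, hu, hρd, hG, ← map_pow, ← map_pow, ← map_mul, ← map_mul]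
        congr 1
        exact (pow_pred_mul hs.pos _ _).symm
      rw [h1]
      exact hρint _ (((hB d).pow (s - 1)).mul hdint)
    refine (hImem _).mpr ⟨algebraMap W Y sW *
        ∑ i ∈ Finset.range s, ρ d ^ (s - 1 - i) * (ρ d * t) ^ i, ?_,
      -(ρ d ^ (s - 1) * (algebraMap W Y sW *
        ∑ i ∈ Finset.range s, u ^ i * (∑ k ∈ Finset.range i, G ^ k) * Cc)), ?_, ?_⟩
    · exact (IsInt.const sW).mul (IsInt.sum _ _ fun i _ => ((hρ d).pow _).mul (hdt.pow i))
    · refine InC.neg (((InC.of_isInt hπ (hρ d)).pow hπ _).mul hπ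
        ((InC.const hπ sW).mul hπ (InC.sum hπ _ _ fun i _ => ?_)))
      exact ((huC.pow hπ i).mul hπ (InC.sum hπ _ _ fun k _ => hGC.pow hπ k)).mul hπ hCcC
    · have hsum1 : ∑ i ∈ Finset.range s, ρ d ^ (s - 1 - i) * (ρ d * t) ^ i =
          ρ d ^ (s - 1) * ∑ i ∈ Finset.range s, t ^ i := by
        rw [Finset.mul_sum]
        refine Finset.sum_congr rfl fun i hi => ?_
        have hi' : i < s := Finset.mem_range.mp hi
        have hpow : ρ d ^ (s - 1 - i) * ρ d ^ i = ρ d ^ (s - 1) := by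
          rw [← pow_add]; congr 1; omega
        rw [mul_pow]; linear_combination t ^ i * hpow
      have hsum2 : ∑ i ∈ Finset.range s, t ^ i - ∑ i ∈ Finset.range s, u ^ i =
          algebraMap W Y π *
            ∑ i ∈ Finset.range s, u ^ i * (∑ k ∈ Finset.range i, G ^ k) * Cc := by
        rw [← Finset.sum_sub_distrib, Finset.mul_sum]
        refine Finset.sum_congr rfl fun i _ => ?_
        have hgeo : (∑ k ∈ Finset.range i, G ^ k) * (G - 1) = G ^ i - 1 := geom_sum_mul G i
        rw [ht, mul_pow]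
        linear_combination (-(u ^ i)) * hgeo + u ^ i * (∑ k ∈ Finset.range i, G ^ k) * hG1
      rw [map_pow, hsum1]
      linear_combination (-(ρ d ^ (s - 1)) * algebraMap W Y sW) * hsum2
  have h1 : (1 : B) ∈ I := by rw [hItop]; trivial
  obtain ⟨e, he, d, hd, h⟩ := (hImem 1).mp h1
  refine ⟨e, he, -d, hd.neg, ?_⟩
  rw [map_one, one_mul] at h
  linear_combination -h

end ChartLift

section Gens

variable {W F Y : Type*} [CommRing W] [Field F] [Algebra W F] [Field Y] [Algebra W Y]
  [Algebra F Y] [IsScalarTower W F Y]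

/-- Generators of the chart (polynomial currency) give `Module.Finite` (the shape of the
hypothesis `hfin` of `S18.Endgame.endgame`). -/
theorem finite_of_gens (j : F)
    (h : ∃ (n : ℕ) (b : Fin n → Y), (∀ i, IsInt W (algebraMap F Y j) (b i)) ∧
      ∀ y, IsInt W (algebraMap F Y j) y →
        ∃ p : Fin n → W[X], y = ∑ i, aeval (algebraMap F Y j) (p i) * b i) :
    Module.Finite (Algebra.adjoin W {j}) (integralClosure (Algebra.adjoin W {j}) Y) := by
  classical
  obtain ⟨n, b, hb, hspan⟩ := h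
  let b' : Fin n → integralClosure (Algebra.adjoin W {j}) Y :=
    fun i => ⟨b i, (isInt_iff_isIntegral_adjoin j _).mp (hb i)⟩
  refine ⟨⟨Finset.univ.image b', ?_⟩⟩
  rw [Finset.coe_image, Finset.coe_univ, Set.image_univ, eq_top_iff]
  rintro ⟨y, hy⟩ -
  obtain ⟨p, hp⟩ := hspan y ((isInt_iff_isIntegral_adjoin j y).mpr hy)
  rw [Submodule.mem_span_range_iff_exists_fun]
  refine ⟨fun i => ⟨aeval j (p i), aeval_mem_adjoin_singleton W j⟩, Subtype.ext ?_⟩
  rw [AddSubmonoidClass.coe_finsetSum]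
  show ∑ i, ((⟨aeval j (p i), aeval_mem_adjoin_singleton W j⟩ : Algebra.adjoin W {j}) •
    (b' i : Y)) = y
  rw [hp]
  refine Finset.sum_congr rfl fun i _ => ?_
  rw [Algebra.smul_def, aeval_algebraMap_apply]
  rfl

end Gens

section GaussOne

variable {W F : Type*} [CommRing W] [IsDomain W] [Field F] [Algebra W F]

/-- `g ≡ 1` modulo `π` times the integral closure of the Gauss ring `W[j]_(π)` in `F`
(the shape of the hypothesis `hw` of `S18.Endgame.endgame`): some `p(j)`, `p ∉ π W[X]`, carries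
`(g - 1) / π` into the integral closure of `W[j]`. -/
def GaussOne (π : W) (j g : F) : Prop :=
  ∃ p : W[X], ¬ C π ∣ p ∧ ∃ ω : F, IsIntegral (Algebra.adjoin W {j}) ω ∧
    aeval j p * (g - 1) = algebraMap W F π * ω

theorem GaussOne.inC {π : W} {j g : F} (hπF : algebraMap W F π ≠ 0) (h : GaussOne π j g) :
    ∃ c : F, InC π j c ∧ g - 1 = algebraMap W F π * c := by
  obtain ⟨p, hp, ω, hω, h⟩ := h
  refine ⟨(g - 1) / algebraMap W F π, ⟨p, hp, ?_⟩, by field_simp⟩
  have h1 : aeval j p * ((g - 1) / algebraMap W F π) = ω := by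
    rw [← mul_div_assoc, h, mul_div_cancel_left₀ _ hπF]
  rw [h1]
  exact (isInt_iff_isIntegral_adjoin (Y := F) j ω).mpr hω

theorem gaussOne_of_inC {π : W} {j g : F} (h : ∃ c : F, InC π j c ∧ g - 1 = algebraMap W F π * c) :
    GaussOne π j g := by
  obtain ⟨c, ⟨p, hp, hpc⟩, hc⟩ := h
  refine ⟨p, hp, aeval j p * c, (isInt_iff_isIntegral_adjoin (Y := F) j _).mp hpc, ?_⟩
  rw [hc]; ring

end GaussOne

section Main

variable {W L F : Type*} [CommRing W] [IsDomain W] [IsNoetherianRing W]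
  [UniqueFactorizationMonoid W] [Field L] [Algebra W L] [IsFractionRing W L] [CharZero L]
  [Field F] [Algebra L F] [Algebra W F] [IsScalarTower W L F]

/-- **The Kummer step, abstract form.**  `w ≡ 1` modulo `π` on the Gauss ring, and at every
maximal ideal `𝔫 ∋ π` of both chart rings `w * g ^ s` is integral at `𝔫` for some `g ≡ 1` modulo
`π`.  Then `w = a * h ^ s` with `a ≠ 0` integral over `W`. -/
theorem kummer_step (π : W) (hπ : Prime π) (j : F) (hj : Transcendental L j)
    [FiniteDimensional (IntermediateField.adjoin L {j}) F]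
    (s : ℕ) (hs : s.Prime) (hsW : IsUnit (s : W)) (ζ : W) (hζ : IsPrimitiveRoot ζ s) (w : F)
    (hw : GaussOne π j w)
    (hloc₁ : ∀ 𝔫 : Ideal (integralClosure (Algebra.adjoin W {j}) F), 𝔫.IsMaximal →
      (∀ r : integralClosure (Algebra.adjoin W {j}) F, (r : F) = algebraMap W F π → r ∈ 𝔫) →
      ∃ g : F, GaussOne π j g ∧ ∃ d : integralClosure (Algebra.adjoin W {j}) F, d ∉ 𝔫 ∧
        IsIntegral (Algebra.adjoin W {j}) ((d : F) * (w * g ^ s)))
    (hloc₂ : ∀ 𝔫 : Ideal (integralClosure (Algebra.adjoin W {j⁻¹}) F), 𝔫.IsMaximal →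
      (∀ r : integralClosure (Algebra.adjoin W {j⁻¹}) F, (r : F) = algebraMap W F π → r ∈ 𝔫) →
      ∃ g : F, GaussOne π j g ∧ ∃ d : integralClosure (Algebra.adjoin W {j⁻¹}) F, d ∉ 𝔫 ∧
        IsIntegral (Algebra.adjoin W {j⁻¹}) ((d : F) * (w * g ^ s))) :
    ∃ a h : F, a ≠ 0 ∧ IsIntegral W a ∧ w = a * h ^ s := by
  classical
  by_cases hpow : ∃ h : F, h ^ s = w
  · obtain ⟨h, rfl⟩ := hpow
    exact ⟨1, h, one_ne_zero, isIntegral_one, (one_mul _).symm⟩
  have hpow' : ∀ b : F, b ^ s ≠ w := fun b hb => hpow ⟨b, hb⟩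
  -- basic facts
  have hWF : Function.Injective (algebraMap W F) := by
    rw [IsScalarTower.algebraMap_eq W L F]
    exact (algebraMap L F).injective.comp (IsFractionRing.injective W L)
  have hπF : algebraMap W F π ≠ 0 := by
    rw [Ne, ← map_zero (algebraMap W F)]
    exact fun h => hπ.ne_zero (hWF h)
  have hjW : Transcendental W j := by
    intro ⟨p, hp0, hp⟩
    refine hj ⟨p.map (algebraMap W L),
      (Polynomial.map_ne_zero_iff (IsFractionRing.injective W L)).mpr hp0, ?_⟩
    rw [aeval_map_algebraMap]; exact hp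
  have hj0 : j ≠ 0 := ne_zero_of_transcendental hjW
  -- the Kummer extension
  have hirr : Irreducible (X ^ s - C w : F[X]) := X_pow_sub_C_irreducible_of_prime hs hpow'
  have : Fact (Irreducible (X ^ s - C w : F[X])) := ⟨hirr⟩
  have hne : (X ^ s - C w : F[X]) ≠ 0 := hirr.ne_zero
  let pb : PowerBasis F (AdjoinRoot (X ^ s - C w : F[X])) := AdjoinRoot.powerBasis hne
  have hdim : pb.dim = s := by
    rw [AdjoinRoot.powerBasis_dim, natDegree_X_pow_sub_C]
  have hgen : pb.gen ^ s = algebraMap F (AdjoinRoot (X ^ s - C w : F[X])) w := by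
    rw [AdjoinRoot.powerBasis_gen]
    have h0 := AdjoinRoot.eval₂_root (X ^ s - C w : F[X])
    rw [eval₂_sub, eval₂_pow, eval₂_X, eval₂_C, sub_eq_zero] at h0
    rw [h0]; rfl
  have : FiniteDimensional F (AdjoinRoot (X ^ s - C w : F[X])) := pb.finite
  obtain ⟨sW, hsW'⟩ := hsW.exists_right_inv
  have hsY : ((s : AdjoinRoot (X ^ s - C w : F[X])))⁻¹ =
      algebraMap W (AdjoinRoot (X ^ s - C w : F[X])) sW := by
    have h1 : ((s : AdjoinRoot (X ^ s - C w : F[X]))) *
        algebraMap W (AdjoinRoot (X ^ s - C w : F[X])) sW = 1 := by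
      have := congrArg (algebraMap W (AdjoinRoot (X ^ s - C w : F[X]))) hsW'
      rwa [map_mul, map_natCast, map_one] at this
    exact inv_eq_of_mul_eq_one_right h1
  -- `w ≡ 1` in both chart currencies
  obtain ⟨c, hc, hwc⟩ := hw.inC hπF
  -- the two chart lifts
  obtain ⟨e₁, he₁, d₁, hd₁, h₁⟩ := chart_lift (Y := AdjoinRoot (X ^ s - C w : F[X])) hπ j hs sW w
    pb.gen hgen ⟨c, hc, hwc⟩ (fun 𝔫 h𝔫 hπ𝔫 => by
      obtain ⟨g, hg, d, hd, hint⟩ := hloc₁ 𝔫 h𝔫 hπ𝔫
      exact ⟨g, hg.inC hπF, d, hd, hint⟩)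
  obtain ⟨e₂, he₂, d₂, hd₂, h₂⟩ := chart_lift (Y := AdjoinRoot (X ^ s - C w : F[X])) hπ j⁻¹ hs sW w
    pb.gen hgen ⟨c, hc.to_inv hj0, hwc⟩ (fun 𝔫 h𝔫 hπ𝔫 => by
      obtain ⟨g, hg, d, hd, hint⟩ := hloc₂ 𝔫 h𝔫 hπ𝔫
      obtain ⟨c', hc', hgc'⟩ := hg.inC hπF
      exact ⟨g, ⟨c', hc'.to_inv hj0, hgc'⟩, d, hd, hint⟩)
  -- finiteness of the first chart
  have hfin : Module.Finite (Algebra.adjoin W {j})
      (integralClosure (Algebra.adjoin W {j}) (AdjoinRoot (X ^ s - C w : F[X]))) := by
    apply finite_of_gens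
    obtain ⟨n, b, hb, hspan⟩ := ChartGens.exists_gens_chart (W := W) (L := L) (F := F)
      (Y := AdjoinRoot (X ^ s - C w : F[X]))
      (algebraMap W (AdjoinRoot (X ^ s - C w : F[X])))
      (fun a => by
        rw [← IsScalarTower.algebraMap_apply W L F, ← IsScalarTower.algebraMap_apply W F])
      j hj
    have hev : (eval₂RingHom (algebraMap W (AdjoinRoot (X ^ s - C w : F[X])))
        (algebraMap F (AdjoinRoot (X ^ s - C w : F[X])) j)) =
        ev W (algebraMap F (AdjoinRoot (X ^ s - C w : F[X])) j) := by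
      apply Polynomial.ringHom_ext
      · intro a; rw [coe_eval₂RingHom, eval₂_C, ev_C]
      · rw [coe_eval₂RingHom, eval₂_X, ev_X]
    rw [hev] at hb hspan
    exact ⟨n, b, hb, hspan⟩
  -- the endgame
  refine endgame π hπ j hjW s hs ⟨⟨(s : W), sW, hsW', by rw [mul_comm]; exact hsW'⟩, rfl⟩ ζ hζ w pb
    hdim hgen ?_ hfin e₁ e₂ ((isInt_iff_isIntegral_adjoin j e₁).mp he₁)
    ((isInt_iff_isIntegral_adjoin j⁻¹ e₂).mp he₂) ?_ ?_
  · exact gaussOne_of_inC ⟨c, hc, hwc⟩
  · obtain ⟨p, hp, hpd⟩ := hd₁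
    refine ⟨p, hp, -(aeval (algebraMap F (AdjoinRoot (X ^ s - C w : F[X])) j) p * d₁),
      (isInt_iff_isIntegral_adjoin j _).mp hpd.neg, ?_⟩
    rw [smul_eq_aeval_mul, Algebra.smul_def, hsY]
    linear_combination (-(aeval (algebraMap F (AdjoinRoot (X ^ s - C w : F[X])) j) p)) * h₁
  · obtain ⟨p, hp, hpd⟩ := hd₂
    refine ⟨p, hp, -(aeval (algebraMap F (AdjoinRoot (X ^ s - C w : F[X])) j⁻¹) p * d₂),
      (isInt_iff_isIntegral_adjoin j⁻¹ _).mp hpd.neg, ?_⟩
    rw [smul_eq_aeval_mul, Algebra.smul_def, hsY]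
    linear_combination (-(aeval (algebraMap F (AdjoinRoot (X ^ s - C w : F[X])) j⁻¹) p)) * h₂

end Main

end Fermat.Agent.S34.KummerStep
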