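import Mathlib
import Fermat.Agent.S18.Endgame
import Fermat.Agent.S34.KummerStep

/-
S34 (wave 6, blueprint findings 202), glue for package B5: CHANGE OF CHART FOR THE LOCAL DATA.

The abstract Kummer step `KummerStep.kummer_step` asks for a local datum `(g, d)` at every maximal
ideal `𝔫 ∋ π` of BOTH chart rings, the integral closures `B₁` of `W[j]` and `B₂` of `W[j⁻¹]` in
`F`.  A maximal ideal `𝔫` of `B₂` which does not contain `j⁻¹` is a point of the first chart as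
well: `𝔫' = {b ∈ B₁ | j⁻¹ ^ D * b ∈ 𝔫 for some D}` is a proper ideal of `B₁` containing `π`, and a
local datum at any maximal ideal above `𝔫'` transports to `𝔫` (multiply the denominator by a
power of `j⁻¹`).  Hence the second chart only has to be treated at the maximal ideals containing
`j⁻¹` (the cusps):

* `exists_of_chart₁` : the transport of one local datum (any property `P` of `g`, any `z g`);
* `hloc₂_of_hloc₁`   : the `hloc₂` clause of `kummer_step` at `𝔫 ∌ j⁻¹` from the `hloc₁` clause;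
* `kummer_step_cusp`  : `kummer_step` with `hloc₂` required only at the maximal ideals `∋ j⁻¹`.

The transport only uses that `W` is a domain.
-/

set_option autoImplicit false
set_option linter.unusedSectionVars false

namespace Fermat.Agent.S34.ChartTransfer

open Polynomial Fermat.Agent.S18 Fermat.Agent.S18.Endgame Fermat.Agent.S34.KummerStep

section Transport

variable {W F : Type*} [CommRing W] [IsDomain W] [Field F] [Algebra W F]

/-- change of chart, subalgebra form: integral over `W[j]` ⟹ `j⁻¹ ^ D * y` integral over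
`W[j⁻¹]` for some `D` -/
theorem exists_inv_pow_mul_isIntegral {j : F} (hj0 : j ≠ 0) {y : F}
    (hy : IsIntegral (Algebra.adjoin W {j}) y) :
    ∃ D : ℕ, IsIntegral (Algebra.adjoin W {j⁻¹}) (j⁻¹ ^ D * y) := by
  have h1 : IsInt W j y := (isInt_iff_isIntegral_adjoin (Y := F) j y).mpr hy
  obtain ⟨D, hD⟩ := isInt_inv_pow_mul_of_isInt hj0 h1
  exact ⟨D, (isInt_iff_isIntegral_adjoin (Y := F) j⁻¹ _).mp hD⟩

/-- `j⁻¹` is integral over `W[j⁻¹]` -/
theorem isIntegral_inv_self (j : F) : IsIntegral (Algebra.adjoin W {j⁻¹}) (j⁻¹ : F) :=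
  (isInt_iff_isIntegral_adjoin (Y := F) j⁻¹ _).mp IsInt.self

/-- monotonicity of the exponent in the change of chart -/
theorem isIntegral_inv_pow_mul_of_le {j : F} {y : F} {D D' : ℕ} (h : D ≤ D')
    (hy : IsIntegral (Algebra.adjoin W {j⁻¹}) (j⁻¹ ^ D * y)) :
    IsIntegral (Algebra.adjoin W {j⁻¹}) (j⁻¹ ^ D' * y) := by
  have e : j⁻¹ ^ D' * y = j⁻¹ ^ (D' - D) * (j⁻¹ ^ D * y) := by
    rw [← mul_assoc, ← pow_add, Nat.sub_add_cancel h]
  rw [e]
  exact ((isIntegral_inv_self (W := W) j).pow _).mul hy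

/-- The ideal of the first chart ring attached to an ideal `𝔫` of the second chart ring:
`b` with `j⁻¹ ^ D * b ∈ 𝔫` for some `D`. -/
def pullIdeal {j : F} (hj0 : j ≠ 0) (𝔫 : Ideal (integralClosure (Algebra.adjoin W {j⁻¹}) F)) :
    Ideal (integralClosure (Algebra.adjoin W {j}) F) where
  carrier := {b | ∃ D : ℕ, ∃ x : integralClosure (Algebra.adjoin W {j⁻¹}) F,
    (x : F) = j⁻¹ ^ D * (b : F) ∧ x ∈ 𝔫}
  zero_mem' := ⟨0, 0, by simp, 𝔫.zero_mem⟩
  add_mem' := by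
    rintro a b ⟨D₁, x₁, hx₁, hx₁𝔫⟩ ⟨D₂, x₂, hx₂, hx₂𝔫⟩
    let t : integralClosure (Algebra.adjoin W {j⁻¹}) F := ⟨j⁻¹, isIntegral_inv_self j⟩
    refine ⟨D₁ + D₂, t ^ D₂ * x₁ + t ^ D₁ * x₂, ?_,
      𝔫.add_mem (𝔫.mul_mem_left _ hx₁𝔫) (𝔫.mul_mem_left _ hx₂𝔫)⟩
    push_cast
    rw [hx₁, hx₂]
    show j⁻¹ ^ D₂ * (j⁻¹ ^ D₁ * (a : F)) + j⁻¹ ^ D₁ * (j⁻¹ ^ D₂ * (b : F)) = _
    rw [pow_add]; ring
  smul_mem' := by
    rintro r b ⟨D, x, hx, hx𝔫⟩
    obtain ⟨E, hE⟩ := exists_inv_pow_mul_isIntegral hj0 r.2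
    refine ⟨E + D, ⟨j⁻¹ ^ E * (r : F), hE⟩ * x, ?_, 𝔫.mul_mem_left _ hx𝔫⟩
    push_cast
    rw [hx, smul_eq_mul]
    push_cast
    rw [pow_add]; ring

theorem mem_pullIdeal {j : F} (hj0 : j ≠ 0)
    (𝔫 : Ideal (integralClosure (Algebra.adjoin W {j⁻¹}) F))
    (b : integralClosure (Algebra.adjoin W {j}) F) :
    b ∈ pullIdeal hj0 𝔫 ↔ ∃ D : ℕ, ∃ x : integralClosure (Algebra.adjoin W {j⁻¹}) F,
      (x : F) = j⁻¹ ^ D * (b : F) ∧ x ∈ 𝔫 := Iff.rfl

/-- `pullIdeal` of a prime ideal not containing `j⁻¹` is proper. -/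
theorem pullIdeal_ne_top {j : F} (hj0 : j ≠ 0)
    (𝔫 : Ideal (integralClosure (Algebra.adjoin W {j⁻¹}) F)) [𝔫.IsPrime]
    (hj : ∀ r : integralClosure (Algebra.adjoin W {j⁻¹}) F, (r : F) = j⁻¹ → r ∉ 𝔫) :
    pullIdeal hj0 𝔫 ≠ ⊤ := by
  intro htop
  have h1 : (1 : integralClosure (Algebra.adjoin W {j}) F) ∈ pullIdeal hj0 𝔫 := by
    rw [htop]; exact Submodule.mem_top
  obtain ⟨D, x, hx, hx𝔫⟩ := h1
  let t : integralClosure (Algebra.adjoin W {j⁻¹}) F := ⟨j⁻¹, isIntegral_inv_self j⟩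
  have hxt : x = t ^ D := by
    apply Subtype.ext
    rw [hx]
    push_cast
    simp [t]
  rw [hxt] at hx𝔫
  exact hj t rfl (Ideal.IsPrime.mem_of_pow_mem inferInstance D hx𝔫)

/-- **Transport of a local datum** from the first chart to the second chart at a maximal ideal
`𝔫 ∌ j⁻¹`.  `π` is any element of `W` lying in `𝔫`; `P` is any property of the local function
`g` and `z g` any element of `F` attached to it (in the Kummer step: `P = GaussOne π j`,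
`z g = w * g ^ s`). -/
theorem exists_of_chart₁ (π : W) {j : F} (hj0 : j ≠ 0) (P : F → Prop) (z : F → F)
    (hloc₁ : ∀ 𝔫 : Ideal (integralClosure (Algebra.adjoin W {j}) F), 𝔫.IsMaximal →
      (∀ r : integralClosure (Algebra.adjoin W {j}) F, (r : F) = algebraMap W F π → r ∈ 𝔫) →
      ∃ g : F, P g ∧ ∃ d : integralClosure (Algebra.adjoin W {j}) F, d ∉ 𝔫 ∧
        IsIntegral (Algebra.adjoin W {j}) ((d : F) * z g))
    (𝔫 : Ideal (integralClosure (Algebra.adjoin W {j⁻¹}) F)) (h𝔫 : 𝔫.IsMaximal)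
    (hπ : ∀ r : integralClosure (Algebra.adjoin W {j⁻¹}) F, (r : F) = algebraMap W F π → r ∈ 𝔫)
    (hj : ∀ r : integralClosure (Algebra.adjoin W {j⁻¹}) F, (r : F) = j⁻¹ → r ∉ 𝔫) :
    ∃ g : F, P g ∧ ∃ d : integralClosure (Algebra.adjoin W {j⁻¹}) F, d ∉ 𝔫 ∧
      IsIntegral (Algebra.adjoin W {j⁻¹}) ((d : F) * z g) := by
  have : 𝔫.IsPrime := h𝔫.isPrime
  obtain ⟨𝔫', h𝔫', hle⟩ := Ideal.exists_le_maximal _ (pullIdeal_ne_top hj0 𝔫 hj)
  have hπ' : ∀ r : integralClosure (Algebra.adjoin W {j}) F,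
      (r : F) = algebraMap W F π → r ∈ 𝔫' := by
    intro r hr
    apply hle
    have hint : IsIntegral (Algebra.adjoin W {j⁻¹}) (algebraMap W F π) := by
      have := (IsInt.const (W := W) (x := (j⁻¹ : F)) π)
      exact (isInt_iff_isIntegral_adjoin (Y := F) j⁻¹ _).mp this
    exact ⟨0, ⟨algebraMap W F π, hint⟩, by rw [pow_zero, one_mul, hr], hπ _ rfl⟩
  obtain ⟨g, hg, d', hd', hint'⟩ := hloc₁ 𝔫' h𝔫' hπ'
  obtain ⟨D₁, hD₁⟩ := exists_inv_pow_mul_isIntegral hj0 d'.2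
  obtain ⟨D₂, hD₂⟩ := exists_inv_pow_mul_isIntegral hj0 hint'
  have hD₁' := isIntegral_inv_pow_mul_of_le (Nat.le_add_right D₁ D₂) hD₁
  have hD₂' := isIntegral_inv_pow_mul_of_le (Nat.le_add_left D₂ D₁) hD₂
  refine ⟨g, hg, ⟨j⁻¹ ^ (D₁ + D₂) * (d' : F), hD₁'⟩, ?_, ?_⟩
  · intro hmem
    exact hd' (hle ⟨D₁ + D₂, _, rfl, hmem⟩)
  · show IsIntegral (Algebra.adjoin W {j⁻¹}) (j⁻¹ ^ (D₁ + D₂) * (d' : F) * z g)
    rw [mul_assoc]
    exact hD₂'

end Transport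

section Kummer

variable {W L F : Type*} [CommRing W] [IsDomain W] [IsNoetherianRing W]
  [UniqueFactorizationMonoid W] [Field L] [Algebra W L] [IsFractionRing W L] [CharZero L]
  [Field F] [Algebra L F] [Algebra W F] [IsScalarTower W L F]

/-- The `hloc₂` clause of `KummerStep.kummer_step` at a maximal ideal not containing `j⁻¹`
follows from the `hloc₁` clause. -/
theorem hloc₂_of_hloc₁ (π : W) {j : F} (hj0 : j ≠ 0) (s : ℕ) (w : F)
    (hloc₁ : ∀ 𝔫 : Ideal (integralClosure (Algebra.adjoin W {j}) F), 𝔫.IsMaximal →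
      (∀ r : integralClosure (Algebra.adjoin W {j}) F, (r : F) = algebraMap W F π → r ∈ 𝔫) →
      ∃ g : F, GaussOne π j g ∧ ∃ d : integralClosure (Algebra.adjoin W {j}) F, d ∉ 𝔫 ∧
        IsIntegral (Algebra.adjoin W {j}) ((d : F) * (w * g ^ s)))
    (𝔫 : Ideal (integralClosure (Algebra.adjoin W {j⁻¹}) F)) (h𝔫 : 𝔫.IsMaximal)
    (hπ : ∀ r : integralClosure (Algebra.adjoin W {j⁻¹}) F, (r : F) = algebraMap W F π → r ∈ 𝔫)
    (hj : ∀ r : integralClosure (Algebra.adjoin W {j⁻¹}) F, (r : F) = j⁻¹ → r ∉ 𝔫) :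
    ∃ g : F, GaussOne π j g ∧ ∃ d : integralClosure (Algebra.adjoin W {j⁻¹}) F, d ∉ 𝔫 ∧
      IsIntegral (Algebra.adjoin W {j⁻¹}) ((d : F) * (w * g ^ s)) :=
  exists_of_chart₁ π hj0 (GaussOne π j) (fun g => w * g ^ s) hloc₁ 𝔫 h𝔫 hπ hj

/-- **The Kummer step with the second chart only at the cusps.**  Same statement as
`KummerStep.kummer_step`, but the local datum on the chart `W[j⁻¹]` is only required at the
maximal ideals containing `j⁻¹` (and `π`). -/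
theorem kummer_step_cusp (π : W) (hπ : Prime π) (j : F) (hj : Transcendental L j)
    [FiniteDimensional (IntermediateField.adjoin L {j}) F]
    (s : ℕ) (hs : s.Prime) (hsW : IsUnit (s : W)) (ζ : W) (hζ : IsPrimitiveRoot ζ s) (w : F)
    (hw : GaussOne π j w)
    (hloc₁ : ∀ 𝔫 : Ideal (integralClosure (Algebra.adjoin W {j}) F), 𝔫.IsMaximal →
      (∀ r : integralClosure (Algebra.adjoin W {j}) F, (r : F) = algebraMap W F π → r ∈ 𝔫) →
      ∃ g : F, GaussOne π j g ∧ ∃ d : integralClosure (Algebra.adjoin W {j}) F, d ∉ 𝔫 ∧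
        IsIntegral (Algebra.adjoin W {j}) ((d : F) * (w * g ^ s)))
    (hloc₂ : ∀ 𝔫 : Ideal (integralClosure (Algebra.adjoin W {j⁻¹}) F), 𝔫.IsMaximal →
      (∀ r : integralClosure (Algebra.adjoin W {j⁻¹}) F, (r : F) = algebraMap W F π → r ∈ 𝔫) →
      (∀ r : integralClosure (Algebra.adjoin W {j⁻¹}) F, (r : F) = j⁻¹ → r ∈ 𝔫) →
      ∃ g : F, GaussOne π j g ∧ ∃ d : integralClosure (Algebra.adjoin W {j⁻¹}) F, d ∉ 𝔫 ∧
        IsIntegral (Algebra.adjoin W {j⁻¹}) ((d : F) * (w * g ^ s))) :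
    ∃ a h : F, a ≠ 0 ∧ IsIntegral W a ∧ w = a * h ^ s := by
  have hj0 : j ≠ 0 := by
    rintro rfl
    exact hj ⟨X, X_ne_zero, by simp⟩
  refine kummer_step π hπ j hj s hs hsW ζ hζ w hw hloc₁ ?_
  intro 𝔫 h𝔫 hπ𝔫
  by_cases hcusp : ∀ r : integralClosure (Algebra.adjoin W {j⁻¹}) F, (r : F) = j⁻¹ → r ∈ 𝔫
  · exact hloc₂ 𝔫 h𝔫 hπ𝔫 hcusp
  · have hj𝔫 : ∀ r : integralClosure (Algebra.adjoin W {j⁻¹}) F, (r : F) = j⁻¹ → r ∉ 𝔫 := by
      intro r hr hmem
      apply hcusp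
      intro r' hr'
      have : r' = r := Subtype.ext (hr'.trans hr.symm)
      rw [this]; exact hmem
    exact hloc₂_of_hloc₁ π hj0 s w hloc₁ 𝔫 h𝔫 hπ𝔫 hj𝔫

end Kummer

end Fermat.Agent.S34.ChartTransfer
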