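import Mathlib
import Fermat.Agent.S18.Finish
import Fermat.Agent.S24.CoeffBC

/-!
# S34 (wave 6), obligation (O2) of the GCore contract: the constants are algebraically closed
in the function field

* `exists_const_of_isAlgebraic`: an element of `L((q))` algebraic over the field `L` is a
  constant (any field `L`; coefficient extension to an algebraic closure).
* `hconst_FF`: every element of `S24.FF L N` algebraic over `L` is a constant.
-/

set_option autoImplicit false

namespace Fermat.Agent.S34.ConstClosed

open ModularCurve

/-- An element of `L((q))` algebraic over `L` is a constant. -/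
theorem exists_const_of_isAlgebraic {L : Type*} [Field L] (x : LaurentSeries L)
    (hx : IsAlgebraic L x) : ∃ a : L, algebraMap L (LaurentSeries L) a = x := by
  have h1 : IsAlgebraic (AlgebraicClosure L)
      (coeffMap (algebraMap L (AlgebraicClosure L)) x) :=
    Fermat.Agent.S18.Finish.isAlgebraic_map (algebraMap L (AlgebraicClosure L))
      (coeffMap (algebraMap L (AlgebraicClosure L)))
      (fun a => Fermat.Agent.S24.CoeffBC.coeffMap_algebraMap' _ a) hx
  obtain ⟨c, hc⟩ := Fermat.Agent.S18.Finish.mem_range_of_isAlgebraic h1
  have hcoeff : ∀ k : ℤ, k ≠ 0 → x.coeff k = 0 := by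
    intro k hk
    have h2 : (algebraMap (AlgebraicClosure L) (LaurentSeries (AlgebraicClosure L)) c).coeff k =
        (coeffMap (algebraMap L (AlgebraicClosure L)) x).coeff k := by rw [hc]
    rw [algebraMap_laurentSeries_eq_single, HahnSeries.coeff_single_of_ne hk,
      coeffMap_coeff] at h2
    exact (map_eq_zero (algebraMap L (AlgebraicClosure L))).mp h2.symm
  refine ⟨x.coeff 0, ?_⟩
  rw [algebraMap_laurentSeries_eq_single]
  ext k
  by_cases hk : k = 0
  · subst hk
    rw [HahnSeries.coeff_single_same]
  · rw [HahnSeries.coeff_single_of_ne hk, hcoeff k hk]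

/-- **(O2)**: the constant field `L` is algebraically closed in the function field
`S24.FF L N` of `X₀(N)` over `L`. -/
theorem hconst_FF {L : Type*} [Field L] [Algebra ℚ L] (N : ℕ) (c : Fermat.Agent.S24.FF L N)
    (hc : IsAlgebraic L c) : ∃ a : L, algebraMap L (Fermat.Agent.S24.FF L N) a = c := by
  have h1 : IsAlgebraic L (algebraMap (Fermat.Agent.S24.FF L N) (LaurentSeries L) c) :=
    hc.algebraMap
  obtain ⟨a, ha⟩ := exists_const_of_isAlgebraic _ h1
  exact ⟨a, Subtype.ext ha⟩

end Fermat.Agent.S34.ConstClosed
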