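/-
S34 (wave 6), package GL (helper10): Galois-stable DVR levels.

The S18/S37 "levels" are subfields `L = ℚ(μ_n (ℓ ∤ n), S) ⊆ ℚ̄` with `W = A ∩ L` a discrete
valuation ring.  For S34 the inertia elements `τ` and a Frobenius lift `σ` at `A` must act on
`L`, on `W` and on its residue field.  This file provides

* `IsStable ι` : every automorphism of `ℚ̄` restricts to the level `(L, ι)`;
* `exists_stable_level`, `exists_stable_pair` : Galois-stable levels exist (two-stage form: the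
  base level is `ℚ(μ_n (ℓ ∤ n))`, which is fixed pointwise by the inertia group);
* `mem_comap_iff_of_mem_decomposition` : a restricted decomposition element preserves
  `W = A.comap ι` (so that the `S37.LevelChange` transport lemmas apply with `L₀ = L`);
* `resMap_of_mem_inertia`, `resMap_of_isFrobeniusAt` : the induced map on the residue field of
  `W` is the identity for inertia elements and `x ↦ x ^ ℓ` for Frobenius lifts;
* `inertia_fix_root`, `inertia_fix_cyclo`, `restrict_fix_base` : inertia fixes the roots of unity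
  of order prime to `ℓ`, hence the base level.
-/
import Mathlib
import Fermat.Agent.S37.LevelChange
import Fermat.Agent.S37.GaloisValue
import Fermat.Agent.S54.Frob

set_option autoImplicit false

noncomputable section

namespace Fermat.Agent.S34.GalLevel

open Fermat.Agent.S18 Fermat.Agent.S37.LevelChange Fermat.Agent.S37.GaloisValue Polynomial

local notation "Qb" => AlgebraicClosure ℚ

/-! ### Conjugate closure of a finite set -/

/-- All conjugates of the elements of a finite set. -/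
def conj (S : Finset Qb) : Finset Qb :=
  S.biUnion fun a => (Polynomial.rootSet_finite (minpoly ℚ a) Qb).toFinset

theorem mem_conj {S : Finset Qb} {x : Qb} :
    x ∈ conj S ↔ ∃ a ∈ S, x ∈ (minpoly ℚ a).rootSet Qb := by
  simp only [conj, Finset.mem_biUnion, Set.Finite.mem_toFinset]

theorem subset_conj (S : Finset Qb) : S ⊆ conj S := by
  intro a ha
  refine mem_conj.mpr ⟨a, ha, ?_⟩
  have hint : IsIntegral ℚ a := (AlgebraicClosure.isAlgebraic ℚ).isIntegral.isIntegral a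
  rw [Polynomial.mem_rootSet]
  exact ⟨minpoly.ne_zero hint, minpoly.aeval ℚ a⟩

theorem map_mem_conj {S : Finset Qb} (σ : Qb ≃ₐ[ℚ] Qb) {x : Qb} (hx : x ∈ conj S) :
    σ x ∈ conj S := by
  obtain ⟨a, ha, hxa⟩ := mem_conj.mp hx
  refine mem_conj.mpr ⟨a, ha, ?_⟩
  rw [Polynomial.mem_rootSet] at hxa ⊢
  refine ⟨hxa.1, ?_⟩
  have h := Polynomial.aeval_algHom_apply (σ : Qb →ₐ[ℚ] Qb) x (minpoly ℚ a)
  rw [hxa.2, map_zero] at h
  exact h

/-! ### Stability of the base fields -/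

theorem map_mem_rootSet (ℓ : ℕ) (σ : Qb ≃ₐ[ℚ] Qb) {x : Qb} (hx : x ∈ BaseDVR.rootSet ℓ) :
    σ x ∈ BaseDVR.rootSet ℓ := by
  obtain ⟨n, hn, hxn⟩ := hx
  exact ⟨n, hn, by rw [← map_pow, hxn, map_one]⟩

/-- A base field generated by a stable set is stable. -/
theorem map_mem_baseField (ℓ : ℕ) (T : Set Qb) (σ : Qb ≃ₐ[ℚ] Qb) (hT : ∀ x ∈ T, σ x ∈ T)
    {x : Qb} (hx : x ∈ BaseDVR.baseField ℓ T) : σ x ∈ BaseDVR.baseField ℓ T := by
  have hle : BaseDVR.baseField ℓ T ≤
      (BaseDVR.baseField ℓ T).comap (σ : Qb →ₐ[ℚ] Qb) := by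
    rw [BaseDVR.baseField, IntermediateField.adjoin_le_iff]
    rintro y (hy | hy)
    · exact IntermediateField.subset_adjoin ℚ _ (Or.inl (map_mem_rootSet ℓ σ hy))
    · exact IntermediateField.subset_adjoin ℚ _ (Or.inr (hT y hy))
  exact hle hx

/-- The restriction of an automorphism of `ℚ̄` to a stable intermediate field. -/
def restrict (E : IntermediateField ℚ Qb) (σ : Qb ≃ₐ[ℚ] Qb) (h : ∀ x ∈ E, σ x ∈ E)
    (h' : ∀ x ∈ E, σ.symm x ∈ E) : E ≃+* E where
  toFun x := ⟨σ x, h x x.2⟩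
  invFun x := ⟨σ.symm x, h' x x.2⟩
  left_inv x := Subtype.ext (σ.symm_apply_apply x)
  right_inv x := Subtype.ext (σ.apply_symm_apply x)
  map_mul' x y := Subtype.ext (map_mul σ (x : Qb) (y : Qb))
  map_add' x y := Subtype.ext (map_add σ (x : Qb) (y : Qb))

theorem coe_restrict (E : IntermediateField ℚ Qb) (σ : Qb ≃ₐ[ℚ] Qb) (h : ∀ x ∈ E, σ x ∈ E)
    (h' : ∀ x ∈ E, σ.symm x ∈ E) (x : E) : ((restrict E σ h h' x : E) : Qb) = σ x := rfl

/-- **Galois stability of a level**: every automorphism of `ℚ̄` restricts to `L`. -/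
def IsStable {L : Type*} [Field L] (ι : L →+* Qb) : Prop :=
  ∀ σ : Qb ≃ₐ[ℚ] Qb, ∃ s : L ≃+* L, ∀ c : L, ι (s c) = σ (ι c)

theorem isStable_baseField (ℓ : ℕ) (T : Set Qb) (hT : ∀ (σ : Qb ≃ₐ[ℚ] Qb), ∀ x ∈ T, σ x ∈ T) :
    IsStable (algebraMap ↥(BaseDVR.baseField ℓ T) Qb) := by
  intro σ
  exact ⟨restrict _ σ (fun x hx => map_mem_baseField ℓ T σ (hT σ) hx)
    (fun x hx => map_mem_baseField ℓ T σ.symm (hT σ.symm) hx), fun c => rfl⟩

/-- The restriction is unique. -/
theorem IsStable.unique {L : Type*} [Field L] (ι : L →+* Qb) {σ : Qb ≃ₐ[ℚ] Qb}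
    {s s' : L ≃+* L} (hs : ∀ c, ι (s c) = σ (ι c)) (hs' : ∀ c, ι (s' c) = σ (ι c)) : s = s' := by
  ext c
  apply ι.injective
  rw [hs, hs']

/-! ### Monotonicity of `IsLevel` in the finite set -/

theorem isLevel_mono {A : ValuationSubring Qb} {ℓ : ℕ} {S S' : Finset Qb} {L : Type} [Field L]
    {ι : L →+* Qb} (h : IsLevel A ℓ S ι) (hS : S' ⊆ S) : IsLevel A ℓ S' ι :=
  ⟨fun a ha => h.1 a (hS ha), h.2⟩

/-! ### Decomposition, inertia and Frobenius on a stable level -/

section Act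

variable (A : ValuationSubring Qb) {L : Type*} [Field L] (ι : L →+* Qb)

/-- Two elements of `W = A ∩ L` whose difference is small in `A` have the same residue. -/
theorem residue_eq_of_valuation_lt_one (a b : ↥(A.comap ι))
    (h : A.valuation (ι (a : L) - ι (b : L)) < 1) :
    IsLocalRing.residue ↥(A.comap ι) a = IsLocalRing.residue ↥(A.comap ι) b := by
  rw [← sub_eq_zero, ← map_sub, IsLocalRing.residue_eq_zero_iff, IsLocalRing.mem_maximalIdeal,
    mem_nonunits_iff]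
  intro hu
  obtain ⟨v, hv⟩ := hu.exists_right_inv
  have hv' : (ι (a : L) - ι (b : L)) * ι (v : L) = 1 := by
    have := congrArg (fun x : ↥(A.comap ι) => ι (x : L)) hv
    simpa using this
  have h1 : A.valuation (ι (v : L)) ≤ 1 := (A.valuation_le_one_iff _).mpr v.2
  have h2 := congrArg A.valuation hv'
  rw [map_mul, map_one] at h2
  have h3 : A.valuation (ι (a : L) - ι (b : L)) * A.valuation (ι (v : L)) < 1 := by
    calc A.valuation (ι (a : L) - ι (b : L)) * A.valuation (ι (v : L))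
        ≤ A.valuation (ι (a : L) - ι (b : L)) * 1 := by gcongr
      _ < 1 := by rw [mul_one]; exact h
  rw [h2] at h3
  exact lt_irrefl _ h3

variable {σ : Qb ≃ₐ[ℚ] Qb} (s : L ≃+* L) (hs : ∀ c : L, ι (s c) = σ (ι c))

include hs

/-- A restricted decomposition element preserves `W = A ∩ L`. -/
theorem mem_comap_iff_of_mem_decomposition (hσ : σ ∈ A.decompositionSubgroup ℚ) (c : L) :
    c ∈ A.comap ι ↔ (s : L →+* L) c ∈ A.comap ι := by
  rw [ValuationSubring.mem_comap, ValuationSubring.mem_comap]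
  show ι c ∈ A ↔ ι (s c) ∈ A
  rw [hs]
  exact (mem_decompositionSubgroup_iff A σ).mp hσ (ι c)

/-- The inverse restriction lies over the inverse automorphism. -/
theorem symm_spec (c : L) : ι (s.symm c) = σ.symm (ι c) := by
  apply σ.injective
  rw [← hs, s.apply_symm_apply, σ.apply_symm_apply]

/-- **Inertia acts trivially on the residue field of `W`.** -/
theorem resMap_of_mem_inertia (hσ : σ ∈ A.inertiaSubgroupIn ℚ)
    (x : IsLocalRing.ResidueField ↥(A.comap ι)) :
    resMap (s : L →+* L) (A.comap ι) (A.comap ι)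
      (mem_comap_iff_of_mem_decomposition A ι s hs (mem_decompositionSubgroup_of_mem_inertia hσ))
      x = x := by
  obtain ⟨c, rfl⟩ := IsLocalRing.residue_surjective x
  rw [resMap_residue]
  apply residue_eq_of_valuation_lt_one
  rw [coe_incl]
  show A.valuation (ι (s (c : L)) - ι (c : L)) < 1
  rw [hs]
  exact valuation_sub_lt_one_of_mem_inertia hσ c.2

/-- **A Frobenius lift induces `x ↦ x ^ ℓ` on the residue field of `W`.** -/
theorem resMap_of_isFrobeniusAt {ℓ : ℕ} (hσ : A.IsFrobeniusAt σ ℓ)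
    (x : IsLocalRing.ResidueField ↥(A.comap ι)) :
    resMap (s : L →+* L) (A.comap ι) (A.comap ι)
      (mem_comap_iff_of_mem_decomposition A ι s hs hσ.mem_decompositionSubgroup) x = x ^ ℓ := by
  obtain ⟨c, rfl⟩ := IsLocalRing.residue_surjective x
  rw [resMap_residue, ← map_pow]
  apply residue_eq_of_valuation_lt_one
  rw [coe_incl]
  show A.valuation (ι (s (c : L)) - ι ((c : L) ^ ℓ)) < 1
  rw [hs, map_pow]
  exact IsFrobeniusAt.valuation_sub_pow_lt_one hσ c.2

end Act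

/-! ### Inertia fixes the roots of unity of order prime to `ℓ` -/

section Inertia

variable (A : ValuationSubring Qb) {ℓ : ℕ}

/-- An `n`-th root of unity (`ℓ ∤ n`) with residue `1` is `1`. -/
theorem eq_one_of_residue_eq_one (hℓ : ℓ.Prime) (hA : A.LiesOverPrime ℓ) {n : ℕ} (hn : ¬ ℓ ∣ n)
    (η : ↥A) (hη : η ^ n = 1) (hres : IsLocalRing.residue ↥A η = 1) : η = 1 := by
  by_contra hne
  have hsum : (∑ i ∈ Finset.range n, η ^ i) * (η - 1) = 0 := by
    rw [geom_sum_mul, hη, sub_self]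
  have h0 : ∑ i ∈ Finset.range n, η ^ i = 0 :=
    (mul_eq_zero.mp hsum).resolve_right (sub_ne_zero.mpr hne)
  have h1 := congrArg (IsLocalRing.residue ↥A) h0
  rw [map_sum, map_zero] at h1
  have h2 : ∑ i ∈ Finset.range n, IsLocalRing.residue ↥A (η ^ i) =
      (n : IsLocalRing.ResidueField ↥A) := by
    rw [Finset.sum_congr rfl (fun i _ => by rw [map_pow, hres, one_pow]), Finset.sum_const,
      Finset.card_range, nsmul_eq_mul, mul_one]
  rw [h2] at h1
  have := BaseDVR.charP_residueField A hℓ hA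
  exact hn ((CharP.cast_eq_zero_iff (IsLocalRing.ResidueField ↥A) ℓ n).mp h1)

/-- Inertia fixes the roots of unity of order prime to `ℓ`. -/
theorem inertia_fix_root (hℓ : ℓ.Prime) (hA : A.LiesOverPrime ℓ) {σ : Qb ≃ₐ[ℚ] Qb}
    (hσ : σ ∈ A.inertiaSubgroupIn ℚ) {ζ : Qb} (hζ : ζ ∈ BaseDVR.rootSet ℓ) : σ ζ = ζ := by
  obtain ⟨n, hn, hζn⟩ := hζ
  have hn0 : n ≠ 0 := fun h => hn (h ▸ dvd_zero ℓ)
  have hζA : ζ ∈ A := BaseDVR.mem_of_pow_eq_one A hn0 hζn
  have hζ0 : ζ ≠ 0 := by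
    rintro rfl
    rw [zero_pow hn0] at hζn
    exact zero_ne_one hζn
  have hσζA : σ ζ ∈ A :=
    map_mem_of_mem_decompositionSubgroup A (mem_decompositionSubgroup_of_mem_inertia hσ) hζA
  have hinv : ζ⁻¹ = ζ ^ (n - 1) := by
    apply inv_eq_of_mul_eq_one_right
    rw [← pow_succ', Nat.sub_add_cancel (Nat.pos_of_ne_zero hn0), hζn]
  have hinvA : ζ⁻¹ ∈ A := by
    rw [hinv]
    exact A.pow_mem hζA _
  let η : ↥A := ⟨σ ζ * ζ⁻¹, A.mul_mem _ _ hσζA hinvA⟩
  have hηn : η ^ n = 1 := by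
    apply Subtype.ext
    show (σ ζ * ζ⁻¹) ^ n = 1
    rw [mul_pow, ← map_pow, inv_pow, hζn, map_one, inv_one, mul_one]
  have hres : IsLocalRing.residue ↥A η = 1 := by
    rw [← sub_eq_zero, ← map_one (IsLocalRing.residue ↥A), ← map_sub,
      IsLocalRing.residue_eq_zero_iff, A.valuation_lt_one_iff]
    show A.valuation (σ ζ * ζ⁻¹ - 1) < 1
    have h1 : σ ζ * ζ⁻¹ - 1 = (σ ζ - ζ) * ζ⁻¹ := by
      rw [sub_mul, mul_inv_cancel₀ hζ0]
    rw [h1, map_mul]
    have h2 : A.valuation (σ ζ - ζ) < 1 := valuation_sub_lt_one_of_mem_inertia hσ hζA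
    have h3 : A.valuation ζ⁻¹ ≤ 1 := (A.valuation_le_one_iff _).mpr hinvA
    calc A.valuation (σ ζ - ζ) * A.valuation ζ⁻¹ ≤ A.valuation (σ ζ - ζ) * 1 := by gcongr
      _ < 1 := by rw [mul_one]; exact h2
  have hη1 : η = 1 := eq_one_of_residue_eq_one A hℓ hA hn η hηn hres
  have h4 : σ ζ * ζ⁻¹ = 1 := congrArg Subtype.val hη1
  have h5 := congrArg (· * ζ) h4
  simp only [one_mul] at h5
  rw [mul_assoc, inv_mul_cancel₀ hζ0, mul_one] at h5
  exact h5

/-- Inertia fixes the field `ℚ(μ_n : ℓ ∤ n)` pointwise. -/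
theorem inertia_fix_baseField_empty (hℓ : ℓ.Prime) (hA : A.LiesOverPrime ℓ) {σ : Qb ≃ₐ[ℚ] Qb}
    (hσ : σ ∈ A.inertiaSubgroupIn ℚ) {x : Qb}
    (hx : x ∈ BaseDVR.baseField ℓ ((∅ : Finset Qb) : Set Qb)) : σ x = x := by
  rw [BaseDVR.baseField] at hx
  induction hx using IntermediateField.adjoin_induction with
  | mem y hy =>
    rcases hy with hy | hy
    · exact inertia_fix_root A hℓ hA hσ hy
    · simp at hy
  | algebraMap r => exact σ.commutes r
  | add y z _ _ hy hz => rw [map_add, hy, hz]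
  | inv y _ hy => rw [map_inv₀, hy]
  | mul y z _ _ hy hz => rw [map_mul, hy, hz]

end Inertia

/-! ### Existence of Galois-stable levels -/

section Exists

variable (A : ValuationSubring Qb) {ℓ : ℕ}

/-- A Galois-stable level containing a given finite set. -/
theorem exists_stable_level (hℓ : ℓ.Prime) (hA : A.LiesOverPrime ℓ) (S : Finset Qb) :
    ∃ (L : Type) (_ : Field L) (_ : Algebra ℚ L) (ι : L →+* Qb),
      IsLevel A ℓ S ι ∧ IsStable ι :=
  ⟨↥(BaseDVR.baseField ℓ ((conj S : Finset Qb) : Set Qb)), inferInstance, inferInstance,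
    algebraMap _ Qb, isLevel_mono (isLevel_baseField A hℓ hA (conj S)) (subset_conj S),
    isStable_baseField ℓ _ fun σ _ hx => Finset.mem_coe.mpr (map_mem_conj σ (Finset.mem_coe.mp hx))⟩

/-- **Two-stage Galois-stable levels.**  The base level `L₀ = ℚ(μ_n : ℓ ∤ n)` is Galois-stable
and fixed pointwise by the inertia group of `A`; for every finite set `S` there is a
Galois-stable level `L ⊇ S` over it. -/
theorem exists_stable_pair (hℓ : ℓ.Prime) (hA : A.LiesOverPrime ℓ) :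
    ∃ (L₀ : Type) (_ : Field L₀) (_ : Algebra ℚ L₀) (ι₀ : L₀ →+* Qb),
      IsLevel A ℓ ∅ ι₀ ∧ IsStable ι₀ ∧
      (∀ σ : Qb ≃ₐ[ℚ] Qb, σ ∈ A.inertiaSubgroupIn ℚ → ∀ c : L₀, σ (ι₀ c) = ι₀ c) ∧
      ∀ S : Finset Qb, ∃ (L : Type) (_ : Field L) (_ : Algebra ℚ L) (ι : L →+* Qb)
        (τ : L₀ →+* L), (∀ c, ι (τ c) = ι₀ c) ∧ IsLevel A ℓ S ι ∧ IsStable ι := by
  classical
  refine ⟨↥(BaseDVR.baseField ℓ ((∅ : Finset Qb) : Set Qb)), inferInstance, inferInstance,
    algebraMap _ Qb, isLevel_baseField A hℓ hA ∅,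
    isStable_baseField ℓ _ (fun σ x hx => by simp at hx),
    fun σ hσ c => inertia_fix_baseField_empty A hℓ hA hσ c.2, fun S => ?_⟩
  have hle : BaseDVR.baseField ℓ ((∅ : Finset Qb) : Set Qb) ≤
      BaseDVR.baseField ℓ ((conj S : Finset Qb) : Set Qb) :=
    BaseDVR.baseField_mono ℓ (by intro a ha; simp at ha)
  exact ⟨↥(BaseDVR.baseField ℓ ((conj S : Finset Qb) : Set Qb)), inferInstance, inferInstance,
    algebraMap _ Qb, (IntermediateField.inclusion hle).toRingHom, fun c => rfl,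
    isLevel_mono (isLevel_baseField A hℓ hA (conj S)) (subset_conj S),
    isStable_baseField ℓ _ fun σ _ hx => Finset.mem_coe.mpr (map_mem_conj σ (Finset.mem_coe.mp hx))⟩

/-- A restriction of an inertia element fixes the base level pointwise. -/
theorem restrict_fix_base {L₀ L : Type*} [Field L₀] [Field L] (ι₀ : L₀ →+* Qb) (ι : L →+* Qb)
    (τ : L₀ →+* L) (hτ : ∀ c, ι (τ c) = ι₀ c) {σ : Qb ≃ₐ[ℚ] Qb}
    (hfix : ∀ c : L₀, σ (ι₀ c) = ι₀ c) (s : L ≃+* L) (hs : ∀ c : L, ι (s c) = σ (ι c))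
    (c : L₀) : s (τ c) = τ c := by
  apply ι.injective
  rw [hs, hτ, hfix]

/-- A restriction to `L` and a restriction to `L₀` of the same automorphism are compatible. -/
theorem restrict_comm_base {L₀ L : Type*} [Field L₀] [Field L] (ι₀ : L₀ →+* Qb) (ι : L →+* Qb)
    (τ : L₀ →+* L) (hτ : ∀ c, ι (τ c) = ι₀ c) {σ : Qb ≃ₐ[ℚ] Qb}
    (s₀ : L₀ ≃+* L₀) (hs₀ : ∀ c : L₀, ι₀ (s₀ c) = σ (ι₀ c))
    (s : L ≃+* L) (hs : ∀ c : L, ι (s c) = σ (ι c)) (c : L₀) : s (τ c) = τ (s₀ c) := by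
  apply ι.injective
  rw [hs, hτ, hτ, hs₀]

/-- Frobenius lifts exist at `A` (re-export of `S54.exists_isFrobeniusAt_of_liesOverPrime`). -/
theorem exists_frobenius (hℓ : ℓ.Prime) (hA : A.LiesOverPrime ℓ) :
    ∃ σ : Qb ≃ₐ[ℚ] Qb, A.IsFrobeniusAt σ ℓ :=
  Fermat.Agent.S54.exists_isFrobeniusAt_of_liesOverPrime ℓ hℓ A hA

end Exists

end Fermat.Agent.S34.GalLevel
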