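/-
S34 (wave 6), package CA (helper10): the coefficient action of a ring automorphism of the
constant field on the function fields `FF L N`.

For `s : L ≃+* L` the automorphism `act N s : FF L N ≃+* FF L N` acts on `q`-expansions
coefficientwise.  It is the ring automorphism underlying the prelude's
`arithmeticGalois (modularFunctionFieldFull N) (ratEquiv s)` (so that the prelude/S37 actions on
places and divisors apply) and agrees with `S24.CoeffBC.bc s` (so that the transports of
`S37.LevelChange` apply).  We prove: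

* `act_algebraMap`, `act_jBC`, `act_of_coe_coeffEmb` : semilinearity; rational series are fixed;
* `act_alpha`, `act_beta`, `act_atkinLehner` : compatibility with the degeneracy maps and with
  any Atkin–Lehner automorphism;
* `act_bc_of_fix`, `act_bc_comm` : compatibility with a change of level `L₀ → L`;
* `mem_contentRing_act`, `red_act`, `isIntegralElem_evF_act`, `isIntegralElem_evFinf_act` :
  Gauss-integrality, reduction and chart-integrality;
* `red_act_of_mem_inertia`, `red_act_of_isFrobeniusAt` : the reduction formulas at a level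
  `(L, ι)` of `ℚ̄` for restrictions of inertia elements and of Frobenius lifts.
-/
import Mathlib
import Fermat.Agent.S37.AtkinLehner
import Fermat.Agent.S37.LevelChange
import Fermat.Agent.S34.GalLevel

set_option autoImplicit false

noncomputable section

namespace Fermat.Agent.S34.CoeffAut

open ModularCurve AlgebraicCurve Fermat.Agent.S18 Fermat.Agent.S18.Gauss Fermat.Agent.S24
  Fermat.Agent.S37.LevelChange Fermat.Agent.S37.AtkinLehner Fermat.Agent.S37.GaloisValue

local notation "Qb" => AlgebraicClosure ℚ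

section Basic

variable {L : Type*} [Field L] [Algebra ℚ L]

/-- A ring automorphism of a field of characteristic zero, as a `ℚ`-algebra automorphism. -/
def ratEquiv (s : L ≃+* L) : L ≃ₐ[ℚ] L :=
  AlgEquiv.ofRingEquiv (f := s) (fun r => by rw [eq_ratCast, map_ratCast])

@[simp] theorem ratEquiv_apply (s : L ≃+* L) (c : L) : ratEquiv s c = s c := rfl

theorem coe_ratEquiv (s : L ≃+* L) : ((ratEquiv s : L ≃ₐ[ℚ] L) : L →+* L) = (s : L →+* L) := rfl

/-- The coefficientwise action of `s` on the function field of level `N`. -/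
def act (N : ℕ) (s : L ≃+* L) : FF L N ≃+* FF L N :=
  arithmeticRingAut (modularFunctionFieldFull N) (ratEquiv s)

/-- The same action as a semilinear automorphism (prelude currency). -/
def semi (N : ℕ) (s : L ≃+* L) : SemilinearAut L (FF L N) :=
  arithmeticGalois (modularFunctionFieldFull N) (ratEquiv s)

theorem coe_act (N : ℕ) (s : L ≃+* L) (x : FF L N) :
    ((act N s x : FF L N) : LaurentSeries L) = coeffMap (s : L →+* L) (x : LaurentSeries L) :=
  rfl

theorem semi_smul (N : ℕ) (s : L ≃+* L) (x : FF L N) : semi N s • x = act N s x := rfl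

theorem toRingAut_semi (N : ℕ) (s : L ≃+* L) : SemilinearAut.toRingAut (semi N s) = act N s :=
  rfl

theorem baseAut_semi (N : ℕ) (s : L ≃+* L) : SemilinearAut.baseAut (semi N s) = s := by
  ext c; rfl

theorem act_eq_bc (N : ℕ) (s : L ≃+* L) (x : FF L N) :
    act N s x = CoeffBC.bc (s : L →+* L) (modularFunctionFieldFull N) x := rfl

theorem act_algebraMap (N : ℕ) (s : L ≃+* L) (a : L) :
    act N s (algebraMap L (FF L N) a) = algebraMap L (FF L N) (s a) :=
  arithmeticRingAut_algebraMap (modularFunctionFieldFull N) (ratEquiv s) a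

theorem act_symm_apply (N : ℕ) (s : L ≃+* L) (x : FF L N) :
    (act N s).symm x = act N s.symm x := by
  apply (act N s).injective
  rw [RingEquiv.apply_symm_apply]
  apply Subtype.ext
  rw [coe_act, coe_act, coeffMap_coeffMap]
  have h : ((s : L →+* L).comp (s.symm : L →+* L)) = RingHom.id L :=
    RingHom.ext fun a => s.apply_symm_apply a
  rw [coeffMap_congr h, coeffMap_id]

theorem act_mul (N : ℕ) (s t : L ≃+* L) (x : FF L N) :
    act N s (act N t x) = act N (t.trans s) x := by
  apply Subtype.ext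
  rw [coe_act, coe_act, coe_act, coeffMap_coeffMap]
  exact coeffMap_congr (RingHom.ext fun _ => rfl) _

/-- Series with rational coefficients are fixed. -/
theorem act_of_coe_coeffEmb (N : ℕ) (s : L ≃+* L) (x : FF L N) (y : LaurentSeries ℚ)
    (hx : (x : LaurentSeries L) = coeffEmb L y) : act N s x = x := by
  apply Subtype.ext
  rw [coe_act, hx]
  exact CoeffBC.coeffMap_coeffEmb' (s : L →+* L) y

theorem act_jBC (N : ℕ) [NeZero N] (s : L ≃+* L) : act N s (jBC L N) = jBC L N :=
  act_of_coe_coeffEmb N s _ _ (coe_jBC L N)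

/-- The series `j(q^d)` are fixed. -/
theorem act_of_coe_jser (N : ℕ) (s : L ≃+* L) (x : FF L N) (d : ℕ)
    (hx : (x : LaurentSeries L) = jser L d) : act N s x = x := by
  by_cases hd : d = 0
  · apply Subtype.ext
    rw [coe_act, hx, jser, dif_pos hd, map_zero]
  · have : NeZero d := ⟨hd⟩
    exact act_of_coe_coeffEmb N s x _ (hx.trans (jser_eq L d))

variable (N ℓ : ℕ) [NeZero N] [NeZero ℓ]

/-- The action commutes with the degeneracy map `α` (inclusion). -/
theorem act_alpha (s : L ≃+* L) (x : FF L N) :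
    act (N * ℓ) s (heckeAlphaBar L N ℓ x) = heckeAlphaBar L N ℓ (act N s x) := by
  apply Subtype.ext
  rw [coe_act, coe_heckeAlphaBar, coe_heckeAlphaBar, coe_act]

omit [NeZero N] in
/-- The action commutes with the degeneracy map `β` (`q ↦ q ^ ℓ`). -/
theorem act_beta (s : L ≃+* L) (x : FF L N) :
    act (N * ℓ) s (heckeBetaBar L N ℓ x) = heckeBetaBar L N ℓ (act N s x) := by
  apply Subtype.ext
  rw [coe_act, coe_heckeBetaBar, coe_heckeBetaBar, coe_act]
  exact Fermat.Agent.S28.coeffMap_qExpand (s : L →+* L) ℓ _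

/-- **The action commutes with every Atkin–Lehner automorphism** (an `L`-algebra automorphism
exchanging `α` and `β`). -/
theorem act_atkinLehner (hℓ : ℓ.Prime) (s : L ≃+* L) (w : FF L (N * ℓ) ≃ₐ[L] FF L (N * ℓ))
    (hα : (w : FF L (N * ℓ) →ₐ[L] FF L (N * ℓ)).comp (heckeAlphaBar L N ℓ) = heckeBetaBar L N ℓ)
    (hβ : (w : FF L (N * ℓ) →ₐ[L] FF L (N * ℓ)).comp (heckeBetaBar L N ℓ) = heckeAlphaBar L N ℓ)
    (x : FF L (N * ℓ)) : act (N * ℓ) s (w x) = w (act (N * ℓ) s x) := by
  have hN : N ≠ 0 := NeZero.ne N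
  let ψ₁ : FF L (N * ℓ) →+* FF L (N * ℓ) :=
    ((act (N * ℓ) s : FF L (N * ℓ) ≃+* FF L (N * ℓ)) : FF L (N * ℓ) →+* FF L (N * ℓ)).comp
      ((w : FF L (N * ℓ) →ₐ[L] FF L (N * ℓ)) : FF L (N * ℓ) →+* FF L (N * ℓ))
  let ψ₂ : FF L (N * ℓ) →+* FF L (N * ℓ) :=
    ((w : FF L (N * ℓ) →ₐ[L] FF L (N * ℓ)) : FF L (N * ℓ) →+* FF L (N * ℓ)).comp
      ((act (N * ℓ) s : FF L (N * ℓ) ≃+* FF L (N * ℓ)) : FF L (N * ℓ) →+* FF L (N * ℓ))
  have h₁ : ∀ y, ψ₁ y = act (N * ℓ) s (w y) := fun y => rfl
  have h₂ : ∀ y, ψ₂ y = w (act (N * ℓ) s y) := fun y => rfl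
  let E : IntermediateField L (FF L (N * ℓ)) :=
    (RingHom.eqLocusField ψ₁ ψ₂).toIntermediateField (fun a => by
      show ψ₁ (algebraMap L _ a) = ψ₂ (algebraMap L _ a)
      rw [h₁, h₂, AlgEquiv.commutes, act_algebraMap, AlgEquiv.commutes])
  have hE : E = ⊤ := by
    apply eq_top_of_jser_mem
    intro d hd y hy
    show ψ₁ y = ψ₂ y
    rw [h₁, h₂, act_of_coe_jser (N * ℓ) s y d hy]
    by_cases hld : ℓ ∣ d
    · obtain ⟨c, rfl⟩ := hld
      have hc : c ∣ N := by
        rw [mul_comm N ℓ] at hd
        exact Nat.dvd_of_mul_dvd_mul_left hℓ.pos hd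
      have hc0 : c ≠ 0 := fun h => hN (by rw [h] at hc; exact Nat.eq_zero_of_zero_dvd hc)
      have : NeZero c := ⟨hc0⟩
      let y' : FF L N := ⟨jser L c, jser_mem L N c hN hc⟩
      have hy' : y = heckeBetaBar L N ℓ y' := by
        apply Subtype.ext
        rw [hy, coe_heckeBetaBar]
        show jser L (ℓ * c) = qExpand L ℓ (jser L c)
        rw [jser_eq, jser_eq, coeffEmb, ← Fermat.Agent.S28.coeffMap_qExpand, qExpand_qExpand]
      have hw : w y = heckeAlphaBar L N ℓ y' := by
        rw [hy']
        exact AlgHom.congr_fun hβ y'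
      rw [hw, act_alpha, act_of_coe_jser N s y' c rfl]
    · have hc : d ∣ N := (Nat.Coprime.dvd_of_dvd_mul_right
        ((Nat.Prime.coprime_iff_not_dvd hℓ).mpr hld).symm hd)
      let y' : FF L N := ⟨jser L d, jser_mem L N d hN hc⟩
      have hy' : y = heckeAlphaBar L N ℓ y' := by
        apply Subtype.ext
        rw [hy, coe_heckeAlphaBar]
      have hw : w y = heckeBetaBar L N ℓ y' := by
        rw [hy']
        exact AlgHom.congr_fun hα y'
      rw [hw, act_beta, act_of_coe_jser N s y' d rfl]
  have hx : x ∈ E := by rw [hE]; exact IntermediateField.mem_top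
  exact hx

end Basic

/-! ### Change of level -/

section LevelChange

variable {L₀ L : Type*} [Field L₀] [Field L] [Algebra ℚ L₀] [Algebra ℚ L] (τ : L₀ →+* L)
  (N : ℕ)

/-- If `s` fixes the image of the base level, the action fixes the transported functions. -/
theorem act_bc_of_fix (s : L ≃+* L) (hfix : ∀ c : L₀, s (τ c) = τ c) (x : FF L₀ N) :
    act N s (CoeffBC.bc τ (modularFunctionFieldFull N) x) =
      CoeffBC.bc τ (modularFunctionFieldFull N) x := by
  apply Subtype.ext
  rw [coe_act, CoeffBC.coe_bc, coeffMap_coeffMap]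
  exact coeffMap_congr (RingHom.ext fun c => hfix c) _

/-- Compatible automorphisms of the two levels commute with the transport. -/
theorem act_bc_comm (s₀ : L₀ ≃+* L₀) (s : L ≃+* L) (h : ∀ c : L₀, s (τ c) = τ (s₀ c))
    (x : FF L₀ N) :
    act N s (CoeffBC.bc τ (modularFunctionFieldFull N) x) =
      CoeffBC.bc τ (modularFunctionFieldFull N) (act N s₀ x) := by
  apply Subtype.ext
  rw [coe_act, CoeffBC.coe_bc, CoeffBC.coe_bc, coe_act, coeffMap_coeffMap, coeffMap_coeffMap]
  exact coeffMap_congr (RingHom.ext fun c => h c) _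

end LevelChange

/-! ### Gauss valuation, reduction, chart integrality -/

section Gauss

variable {L : Type*} [Field L] [Algebra ℚ L] (W : ValuationSubring L) (N : ℕ)
  (s : L ≃+* L) (hW : ∀ c : L, c ∈ W ↔ (s : L →+* L) c ∈ W)

include hW

theorem mem_contentRing_act {x : FF L N} (hx : (x : LaurentSeries L) ∈ contentRing W) :
    ((act N s x : FF L N) : LaurentSeries L) ∈ contentRing W :=
  mem_contentRing_bc (s : L →+* L) N W W hW hx

/-- The reduction of `act s x` is the reduction of `x` with coefficients moved by the induced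
map of the residue field. -/
theorem red_act {x : FF L N} (hx : (x : LaurentSeries L) ∈ contentRing W) :
    red W ⟨_, mem_contentRing_act W N s hW hx⟩ =
      coeffMap (resMap (s : L →+* L) W W hW) (red W ⟨x, hx⟩) :=
  red_bc (s : L →+* L) N W W hW hx

variable [NeZero N]

theorem isIntegralElem_evF_act {x : FF L N} (hx : (evF W N).IsIntegralElem x) :
    (evF W N).IsIntegralElem (act N s x) :=
  isIntegralElem_evF_bc (s : L →+* L) N W W hW hx

theorem isIntegralElem_evFinf_act {x : FF L N} (hx : (evFinf W N).IsIntegralElem x) :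
    (evFinf W N).IsIntegralElem (act N s x) :=
  isIntegralElem_evFinf_bc (s : L →+* L) N W W hW hx

theorem isIntegralElem_cusp_act {x : FF L N} {m : ℕ}
    (hx : (evFinf W N).IsIntegralElem ((1 - 1728 * (jBC L N)⁻¹) ^ m * x)) :
    (evFinf W N).IsIntegralElem ((1 - 1728 * (jBC L N)⁻¹) ^ m * act N s x) :=
  isIntegralElem_cusp_bc (s : L →+* L) N W W hW hx

end Gauss

/-! ### Levels of `ℚ̄`: inertia and Frobenius -/

section Level

variable (A : ValuationSubring Qb) {L : Type*} [Field L] [Algebra ℚ L] (ι : L →+* Qb) (N : ℕ)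
  {σ : Qb ≃ₐ[ℚ] Qb} (s : L ≃+* L) (hs : ∀ c : L, ι (s c) = σ (ι c))

include hs

omit [Algebra ℚ L] in
/-- The inverse restriction preserves `W` as well. -/
theorem symm_mem_comap_iff (hσ : σ ∈ A.decompositionSubgroup ℚ) (c : L) :
    c ∈ A.comap ι ↔ (s.symm : L →+* L) c ∈ A.comap ι := by
  have h := GalLevel.mem_comap_iff_of_mem_decomposition A ι s hs hσ (s.symm c)
  have e : (s : L →+* L) (s.symm c) = c := s.apply_symm_apply c
  rw [e] at h
  exact h.symm

/-- Gauss-integrality is invariant under a restricted decomposition element. -/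
theorem mem_contentRing_act_iff (hσ : σ ∈ A.decompositionSubgroup ℚ) (x : FF L N) :
    ((act N s x : FF L N) : LaurentSeries L) ∈ contentRing (A.comap ι) ↔
      (x : LaurentSeries L) ∈ contentRing (A.comap ι) := by
  constructor
  · intro h
    have h2 := mem_contentRing_act (A.comap ι) N s.symm (symm_mem_comap_iff A ι s hs hσ) h
    rwa [← act_symm_apply, RingEquiv.symm_apply_apply] at h2
  · exact mem_contentRing_act (A.comap ι) N s
      (GalLevel.mem_comap_iff_of_mem_decomposition A ι s hs hσ)

/-- **Inertia does not change reductions.** -/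
theorem red_act_of_mem_inertia (hσ : σ ∈ A.inertiaSubgroupIn ℚ) {x : FF L N}
    (hx : (x : LaurentSeries L) ∈ contentRing (A.comap ι)) :
    red (A.comap ι) ⟨_, mem_contentRing_act (A.comap ι) N s
      (GalLevel.mem_comap_iff_of_mem_decomposition A ι s hs
        (mem_decompositionSubgroup_of_mem_inertia hσ)) hx⟩ = red (A.comap ι) ⟨x, hx⟩ := by
  rw [red_act (A.comap ι) N s (GalLevel.mem_comap_iff_of_mem_decomposition A ι s hs
    (mem_decompositionSubgroup_of_mem_inertia hσ)) hx]
  have h : resMap (s : L →+* L) (A.comap ι) (A.comap ι)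
      (GalLevel.mem_comap_iff_of_mem_decomposition A ι s hs
        (mem_decompositionSubgroup_of_mem_inertia hσ)) = RingHom.id _ :=
    RingHom.ext fun y => GalLevel.resMap_of_mem_inertia A ι s hs hσ y
  rw [coeffMap_congr h, coeffMap_id]

/-- **A Frobenius lift acts on reductions by the coefficientwise `ℓ`-th power map**: for any
ring endomorphism `φ` of the residue field with `φ y = y ^ ℓ`. -/
theorem red_act_of_isFrobeniusAt {ℓ : ℕ} (hσ : A.IsFrobeniusAt σ ℓ)
    (φ : IsLocalRing.ResidueField ↥(A.comap ι) →+* IsLocalRing.ResidueField ↥(A.comap ι))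
    (hφ : ∀ y, φ y = y ^ ℓ) {x : FF L N}
    (hx : (x : LaurentSeries L) ∈ contentRing (A.comap ι)) :
    red (A.comap ι) ⟨_, mem_contentRing_act (A.comap ι) N s
      (GalLevel.mem_comap_iff_of_mem_decomposition A ι s hs hσ.mem_decompositionSubgroup) hx⟩ =
      coeffMap φ (red (A.comap ι) ⟨x, hx⟩) := by
  rw [red_act (A.comap ι) N s
    (GalLevel.mem_comap_iff_of_mem_decomposition A ι s hs hσ.mem_decompositionSubgroup) hx]
  have h : resMap (s : L →+* L) (A.comap ι) (A.comap ι)
      (GalLevel.mem_comap_iff_of_mem_decomposition A ι s hs hσ.mem_decompositionSubgroup) = φ :=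
    RingHom.ext fun y => by rw [GalLevel.resMap_of_isFrobeniusAt A ι s hs hσ y, hφ]
  rw [coeffMap_congr h]

end Level

end Fermat.Agent.S34.CoeffAut
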