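/-
S34 (wave 6), package FA (helper10): the Frobenius congruence and the inertia congruence for the
coefficient action, at a level `(L, ι)` of `ℚ̄` with `W = A.comap ι`.

* `resMap_symm_left`, `resMap_symm_right` : the maps induced on the residue field by a restricted
  decomposition element and by its inverse are mutually inverse;
* `red_beta_eq_pow` : **Kronecker congruence in ring-hom form**: for a Frobenius lift `σ` at `A`
  with restriction `s`, and `b` Gauss-integral of level `M`,
  `red (β b) = red (act s⁻¹ b) ^ ℓ`   (`β` = `heckeBetaBar`, `q ↦ q ^ ℓ`);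
* `red_qExpand_eq_pow` : the same on the level of `q`-expansions: `V_ℓ (red b) = red (s⁻¹ b) ^ ℓ`;
* `exists_eq_add_mul_of_mem_inertia` : a restricted inertia element is trivial modulo a
  uniformiser on `W`;
* `exists_act_eq_add` : a restricted inertia element moves a Gauss-integral function by a
  Gauss-small function (`TrivMod` for the `q`-expansion Gauss valuation ring).
-/
import Mathlib
import Fermat.Agent.S37.Kronecker
import Fermat.Agent.S34.CoeffAut

set_option autoImplicit false

noncomputable section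

namespace Fermat.Agent.S34.FrobAct

open ModularCurve AlgebraicCurve Fermat.Agent.S18 Fermat.Agent.S18.Gauss Fermat.Agent.S24
  Fermat.Agent.S37.LevelChange Fermat.Agent.S37.GaloisValue Fermat.Agent.S34.CoeffAut

local notation "Qb" => AlgebraicClosure ℚ

section ResMap

variable {L : Type*} [Field L] (W : ValuationSubring L) (s : L ≃+* L)
  (hW : ∀ c : L, c ∈ W ↔ (s : L →+* L) c ∈ W) (hW' : ∀ c : L, c ∈ W ↔ (s.symm : L →+* L) c ∈ W)

theorem resMap_symm_right (x : IsLocalRing.ResidueField ↥W) :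
    resMap (s : L →+* L) W W hW (resMap (s.symm : L →+* L) W W hW' x) = x := by
  obtain ⟨c, rfl⟩ := IsLocalRing.residue_surjective x
  rw [resMap_residue, resMap_residue]
  congr 1
  apply Subtype.ext
  show s (s.symm (c : L)) = (c : L)
  exact s.apply_symm_apply _

theorem resMap_symm_left (x : IsLocalRing.ResidueField ↥W) :
    resMap (s.symm : L →+* L) W W hW' (resMap (s : L →+* L) W W hW x) = x := by
  obtain ⟨c, rfl⟩ := IsLocalRing.residue_surjective x
  rw [resMap_residue, resMap_residue]
  congr 1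
  apply Subtype.ext
  show s.symm (s (c : L)) = (c : L)
  exact s.symm_apply_apply _

end ResMap

section Frobenius

variable (A : ValuationSubring Qb) {L : Type*} [Field L] [Algebra ℚ L] (ι : L →+* Qb)
  {σ : Qb ≃ₐ[ℚ] Qb} (s : L ≃+* L) (hs : ∀ c : L, ι (s c) = σ (ι c))
  (ℓ : ℕ) [hℓ : Fact ℓ.Prime] [CharP (IsLocalRing.ResidueField ↥(A.comap ι)) ℓ]

include hs

omit [Algebra ℚ L] hℓ [CharP (IsLocalRing.ResidueField ↥(A.comap ι)) ℓ] in
/-- The inverse of a restricted Frobenius lift induces the inverse of the Frobenius on the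
residue field: `(resMap s⁻¹ x) ^ ℓ = x`. -/
theorem resMap_symm_pow (hσ : A.IsFrobeniusAt σ ℓ)
    (x : IsLocalRing.ResidueField ↥(A.comap ι)) :
    (resMap (s.symm : L →+* L) (A.comap ι) (A.comap ι)
      (symm_mem_comap_iff A ι s hs hσ.mem_decompositionSubgroup) x) ^ ℓ = x := by
  rw [← GalLevel.resMap_of_isFrobeniusAt A ι s hs hσ]
  exact resMap_symm_right (A.comap ι) s _ _ x

variable (M : ℕ)

/-- **Kronecker congruence on `q`-expansions**: `V_ℓ (red b) = red (s⁻¹ b) ^ ℓ` for the
restriction `s` of a Frobenius lift. -/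
theorem red_qExpand_eq_pow [NeZero ℓ] (hσ : A.IsFrobeniusAt σ ℓ) {b : FF L M}
    (hb : (b : LaurentSeries L) ∈ contentRing (A.comap ι))
    (h2 : ((act M s.symm b : FF L M) : LaurentSeries L) ∈ contentRing (A.comap ι)) :
    qExpand (IsLocalRing.ResidueField ↥(A.comap ι)) ℓ (red (A.comap ι) ⟨(b : LaurentSeries L), hb⟩)
      = red (A.comap ι) ⟨_, h2⟩ ^ ℓ := by
  have hW' := symm_mem_comap_iff A ι s hs hσ.mem_decompositionSubgroup
  have h3 : red (A.comap ι) ⟨_, h2⟩ =
      coeffMap (resMap (s.symm : L →+* L) (A.comap ι) (A.comap ι) hW')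
        (red (A.comap ι) ⟨(b : LaurentSeries L), hb⟩) :=
    red_act (A.comap ι) M s.symm hW' hb
  rw [h3, Fermat.Agent.S37.Kronecker.pow_char_eq ℓ, coeffMap_coeffMap]
  congr 1
  conv_lhs => rw [← coeffMap_id (red (A.comap ι) ⟨(b : LaurentSeries L), hb⟩)]
  refine coeffMap_congr (RingHom.ext fun x => ?_) _
  rw [RingHom.id_apply, RingHom.comp_apply, frobenius_def]
  exact (resMap_symm_pow A ι s hs ℓ hσ x).symm

/-- **Kronecker congruence in ring-hom form**: `red (β b) = red (act s⁻¹ b) ^ ℓ` for the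
restriction `s` of a Frobenius lift at `A`, `b` Gauss-integral of level `M`. -/
theorem red_beta_eq_pow [NeZero M] [NeZero ℓ] (hσ : A.IsFrobeniusAt σ ℓ) {b : FF L M}
    (hb : (b : LaurentSeries L) ∈ contentRing (A.comap ι))
    (h1 : ((heckeBetaBar L M ℓ b : FF L (M * ℓ)) : LaurentSeries L) ∈ contentRing (A.comap ι))
    (h2 : ((act M s.symm b : FF L M) : LaurentSeries L) ∈ contentRing (A.comap ι)) :
    red (A.comap ι) ⟨_, h1⟩ = red (A.comap ι) ⟨_, h2⟩ ^ ℓ := by
  rw [← red_qExpand_eq_pow A ι s hs ℓ M hσ hb h2, ← red_qExpand (A.comap ι) ℓ hb]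
  rfl

omit hℓ hs [CharP (IsLocalRing.ResidueField ↥(A.comap ι)) ℓ] in
/-- `β` preserves Gauss-integrality. -/
theorem mem_contentRing_beta [NeZero M] [NeZero ℓ] {b : FF L M}
    (hb : (b : LaurentSeries L) ∈ contentRing (A.comap ι)) :
    ((heckeBetaBar L M ℓ b : FF L (M * ℓ)) : LaurentSeries L) ∈ contentRing (A.comap ι) := by
  rw [coe_heckeBetaBar]
  exact qExpand_mem_contentRing (A.comap ι) ℓ hb

omit hℓ in
/-- The inverse restriction of a decomposition element preserves Gauss-integrality. -/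
theorem mem_contentRing_act_symm (hσ : σ ∈ A.decompositionSubgroup ℚ) {b : FF L M}
    (hb : (b : LaurentSeries L) ∈ contentRing (A.comap ι)) :
    ((act M s.symm b : FF L M) : LaurentSeries L) ∈ contentRing (A.comap ι) :=
  mem_contentRing_act (A.comap ι) M s.symm (symm_mem_comap_iff A ι s hs hσ) hb

end Frobenius

section Inertia

variable (A : ValuationSubring Qb) {L : Type*} [Field L] [Algebra ℚ L] (ι : L →+* Qb)
  {σ : Qb ≃ₐ[ℚ] Qb} (s : L ≃+* L) (hs : ∀ c : L, ι (s c) = σ (ι c))

include hs

omit [Algebra ℚ L] in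
/-- A restricted inertia element is trivial on `W` modulo a uniformiser. -/
theorem exists_eq_add_mul_of_mem_inertia [IsDiscreteValuationRing ↥(A.comap ι)]
    (hσ : σ ∈ A.inertiaSubgroupIn ℚ) {ϖ : ↥(A.comap ι)} (hϖ : Irreducible ϖ) (c : L)
    (hc : c ∈ A.comap ι) : ∃ d : L, d ∈ A.comap ι ∧ s c = c + (ϖ : L) * d := by
  have hW := GalLevel.mem_comap_iff_of_mem_decomposition A ι s hs
    (mem_decompositionSubgroup_of_mem_inertia hσ)
  have h1 := GalLevel.resMap_of_mem_inertia A ι s hs hσ (IsLocalRing.residue _ ⟨c, hc⟩)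
  rw [resMap_residue, ← sub_eq_zero, ← map_sub, IsLocalRing.residue_eq_zero_iff,
    hϖ.maximalIdeal_eq, Ideal.mem_span_singleton'] at h1
  obtain ⟨d, hd⟩ := h1
  refine ⟨(d : L), d.2, ?_⟩
  have h2 : (d : L) * (ϖ : L) = s c - c := congrArg Subtype.val hd
  linear_combination (-1 : L) * h2

/-- **`TrivMod` for the `q`-expansion Gauss valuation ring**: a restricted inertia element moves
a Gauss-integral function by a Gauss-integral function with zero reduction. -/
theorem exists_act_eq_add (N : ℕ) (hσ : σ ∈ A.inertiaSubgroupIn ℚ) {x : FF L N}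
    (hx : (x : LaurentSeries L) ∈ contentRing (A.comap ι)) :
    ∃ m : FF L N, ∃ hm : (m : LaurentSeries L) ∈ contentRing (A.comap ι),
      red (A.comap ι) ⟨_, hm⟩ = 0 ∧ act N s x = x + m := by
  have hW := GalLevel.mem_comap_iff_of_mem_decomposition A ι s hs
    (mem_decompositionSubgroup_of_mem_inertia hσ)
  have h1 := mem_contentRing_act (A.comap ι) N s hW hx
  have hm : ((act N s x - x : FF L N) : LaurentSeries L) ∈ contentRing (A.comap ι) := by
    have : ((act N s x - x : FF L N) : LaurentSeries L) =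
        ((act N s x : FF L N) : LaurentSeries L) - (x : LaurentSeries L) := rfl
    rw [this]
    exact (contentRing (A.comap ι)).sub_mem h1 hx
  refine ⟨act N s x - x, hm, ?_, by ring⟩
  have h2 := red_act_of_mem_inertia A ι N s hs hσ hx
  have h3 : (⟨_, hm⟩ : contentRing (A.comap ι)) = ⟨_, h1⟩ - ⟨_, hx⟩ := rfl
  rw [h3, map_sub, h2, sub_self]

end Inertia

end Fermat.Agent.S34.FrobAct
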