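/-
S34 (wave 6, long shot), obligation (O3) of the B5 contract (findings 214) and the `GaussOne` half
of (O4), in RAW currency (no definition of the two Gauss valuation rings is needed).

Level currency: `L` a field with `[Algebra ℚ L]`, `W : ValuationSubring L` a discrete valuation
ring with uniformiser `ϖ`, `s : L ≃+* L` an automorphism preserving `W` and acting trivially
modulo `ϖ` (the restriction of an inertia element: `GalLevel.mem_comap_iff_of_mem_decomposition`
and `FrobAct.exists_eq_add_mul_of_mem_inertia`), ANY level `N` (the residue characteristic may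
divide `N`).

* `coe_mem_fracInt` : every element of `FF L N` has its `q`-expansion in `S18.Gauss.fracInt W`;
* `dd N s f := act N s (act N s f) * f / (act N s f) ^ 2` : the double difference `(τ - 1)² f`,
  multiplicative (`dd_mul`, `dd_inv`, `dd_pow`, `dd_div`) and commuting with every automorphism
  commuting with the coefficient action (`dd_comm`; e.g. Atkin–Lehner by `CoeffAut.act_atkinLehner`);
* `dd_raw` : `dd N s f = 1 + ϖ * m` with the `q`-expansion of `m` in `contentRing W`;
* `dd_both` : moreover the `q`-expansion of `w m` is in `contentRing W` for every `L`-algebra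
  automorphism `w` commuting with the coefficient action;
* `gaussOne_dd` : hence `GaussOne π j (dd N s f)` for EVERY `f ≠ 0`, given that the elements
  integral at both Gauss valuations are Gauss-integral (`InC`);
* `dd_both_level`, `gaussOne_dd_level` : the same at a level `(L, ι)` of `ℚ̄` for the restriction
  `s` of an inertia element of `A` and an Atkin–Lehner automorphism `w` of `FF L (M * ℓ)`.
-/
import Mathlib
import Fermat.Agent.S18.GaussDegree
import Fermat.Agent.S34.DoubleDiffSeries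
import Fermat.Agent.S34.CoeffAut
import Fermat.Agent.S34.FrobAct
import Fermat.Agent.S34.KummerStep

set_option autoImplicit false

noncomputable section

namespace Fermat.Agent.S34.DDGauss

open ModularCurve Fermat.Agent.S18 Fermat.Agent.S18.Gauss Fermat.Agent.S24
  Fermat.Agent.S34.CoeffAut Fermat.Agent.S34.DoubleDiffSeries Fermat.Agent.S34.KummerStep

variable {L : Type*} [Field L] [Algebra ℚ L]

/-! ### `FF L N ⊆ fracInt W` at every level -/

/-- the intermediate field of the elements of `FF L N` whose `q`-expansion is a quotient of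
`W`-integral series -/
def fracField (W : ValuationSubring L) (N : ℕ) : IntermediateField L (FF L N) where
  carrier := {x | (x : LaurentSeries L) ∈ fracInt W}
  mul_mem' := fun {a b} ha hb => by
    show ((a * b : FF L N) : LaurentSeries L) ∈ fracInt W
    exact mul_mem ha hb
  one_mem' := by
    show ((1 : FF L N) : LaurentSeries L) ∈ fracInt W
    exact one_mem _
  add_mem' := fun {a b} ha hb => by
    show ((a + b : FF L N) : LaurentSeries L) ∈ fracInt W
    exact add_mem ha hb
  zero_mem' := by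
    show ((0 : FF L N) : LaurentSeries L) ∈ fracInt W
    exact zero_mem _
  algebraMap_mem' := fun c => by
    show ((algebraMap L (FF L N) c : FF L N) : LaurentSeries L) ∈ fracInt W
    have h : ((algebraMap L (FF L N) c : FF L N) : LaurentSeries L) = HahnSeries.C c := by
      show algebraMap L (LaurentSeries L) c = HahnSeries.C c
      rw [algebraMap_laurentSeries_eq_single]
      rfl
    rw [h]
    exact C_mem_fracInt W c
  inv_mem' := fun a ha => by
    show ((a⁻¹ : FF L N) : LaurentSeries L) ∈ fracInt W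
    exact inv_mem ha

theorem mem_fracField (W : ValuationSubring L) (N : ℕ) (x : FF L N) :
    x ∈ fracField W N ↔ (x : LaurentSeries L) ∈ fracInt W := Iff.rfl

/-- **Every element of `FF L N` is a quotient of `W`-integral series** (any level `N`). -/
theorem coe_mem_fracInt (W : ValuationSubring L) (N : ℕ) (x : FF L N) :
    (x : LaurentSeries L) ∈ fracInt W := by
  have h : fracField W N = ⊤ := by
    apply Fermat.Agent.S37.AtkinLehner.eq_top_of_jser_mem
    intro d _ y hy
    rw [mem_fracField, hy]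
    by_cases hd : d = 0
    · rw [Fermat.Agent.S37.AtkinLehner.jser, dif_pos hd]
      exact zero_mem _
    · have hd' : NeZero d := ⟨hd⟩
      rw [Fermat.Agent.S37.AtkinLehner.jser_eq, coeffEmb, coeffMap_qExpand]
      have h1 : coeffMap (algebraMap ℚ L) jq = jqModC L := coeffEmb_jq L
      rw [h1]
      exact contentRing_le_fracInt W (jqd_mem_contentRing W d)
  have hx : x ∈ fracField W N := by rw [h]; exact IntermediateField.mem_top
  exact hx

/-! ### The double difference -/

/-- the double difference `(τ - 1)² f = τ²f · f / (τ f)²` for the coefficient action of `s` -/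
def dd (N : ℕ) (s : L ≃+* L) (f : FF L N) : FF L N :=
  act N s (act N s f) * f / (act N s f) ^ 2

theorem dd_def (N : ℕ) (s : L ≃+* L) (f : FF L N) :
    dd N s f = act N s (act N s f) * f / (act N s f) ^ 2 := rfl

theorem dd_one (N : ℕ) (s : L ≃+* L) : dd N s (1 : FF L N) = 1 := by
  rw [dd_def, map_one, map_one]
  simp

theorem dd_mul (N : ℕ) (s : L ≃+* L) (f g : FF L N) : dd N s (f * g) = dd N s f * dd N s g := by
  simp only [dd_def, map_mul]
  rw [mul_pow, mul_mul_mul_comm, mul_div_mul_comm]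

theorem dd_inv (N : ℕ) (s : L ≃+* L) (f : FF L N) : dd N s f⁻¹ = (dd N s f)⁻¹ := by
  simp only [dd_def, map_inv₀]
  rw [inv_pow, ← mul_inv, ← inv_div_inv, inv_inv, inv_inv, inv_div]

theorem dd_div (N : ℕ) (s : L ≃+* L) (f g : FF L N) : dd N s (f / g) = dd N s f / dd N s g := by
  rw [div_eq_mul_inv, dd_mul, dd_inv, div_eq_mul_inv]

theorem dd_pow (N : ℕ) (s : L ≃+* L) (f : FF L N) (n : ℕ) : dd N s (f ^ n) = dd N s f ^ n := by
  induction n with
  | zero => rw [pow_zero, pow_zero, dd_one]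
  | succ n ih => rw [pow_succ, pow_succ, dd_mul, ih]

theorem dd_ne_zero (N : ℕ) (s : L ≃+* L) {f : FF L N} (hf : f ≠ 0) : dd N s f ≠ 0 := by
  have h1 : act N s f ≠ 0 := (map_ne_zero_iff _ (act N s).injective).mpr hf
  have h2 : act N s (act N s f) ≠ 0 := (map_ne_zero_iff _ (act N s).injective).mpr h1
  rw [dd_def]
  exact div_ne_zero (mul_ne_zero h2 hf) (pow_ne_zero _ h1)

/-- the double difference of a constant is a constant -/
theorem dd_algebraMap (N : ℕ) (s : L ≃+* L) (a : L) :
    dd N s (algebraMap L (FF L N) a) = algebraMap L (FF L N) (s (s a) * a / s a ^ 2) := by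
  rw [dd_def, act_algebraMap, act_algebraMap, map_div₀, map_mul, map_pow]

/-- the double difference commutes with every ring automorphism commuting with the coefficient
action -/
theorem dd_comm (N : ℕ) (s : L ≃+* L) (w : FF L N ≃+* FF L N)
    (hw : ∀ x : FF L N, act N s (w x) = w (act N s x)) (f : FF L N) :
    w (dd N s f) = dd N s (w f) := by
  rw [dd_def, dd_def, map_div₀, map_mul, map_pow, hw, hw]

/-- the `w` times the double difference, for the twisted Kummer datum: `dd f * (dd h)⁻¹ ^ n` is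
the double difference of `f / h ^ n` -/
theorem dd_mul_inv_pow (N : ℕ) (s : L ≃+* L) (f h : FF L N) (n : ℕ) :
    dd N s f * (dd N s h)⁻¹ ^ n = dd N s (f / h ^ n) := by
  rw [dd_div, dd_pow, inv_pow, div_eq_mul_inv]

/-! ### The double difference is `≡ 1` modulo `ϖ` at the `q`-expansion Gauss valuation -/

variable (W : ValuationSubring L) [IsDiscreteValuationRing W]

theorem coe_dd (N : ℕ) (s : L ≃+* L) (f : FF L N) :
    ((dd N s f : FF L N) : LaurentSeries L) =
      coeffEquiv s (coeffEquiv s (f : LaurentSeries L)) * (f : LaurentSeries L) /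
        (coeffEquiv s (f : LaurentSeries L)) ^ 2 := rfl

/-- **(O3), raw form at the `q`-expansion valuation**: `(τ - 1)² f = 1 + ϖ m` with `m` of
`W`-integral `q`-expansion. -/
theorem dd_raw (ϖ : W) (hϖ : Irreducible ϖ) (N : ℕ) (s : L ≃+* L)
    (hsW : ∀ c : L, c ∈ W ↔ s c ∈ W)
    (hsI : ∀ c : L, c ∈ W → ∃ d : L, d ∈ W ∧ s c = c + (ϖ : L) * d)
    {f : FF L N} (hf : f ≠ 0) :
    ∃ m : FF L N, (m : LaurentSeries L) ∈ contentRing W ∧
      dd N s f = 1 + algebraMap L (FF L N) (ϖ : L) * m := by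
  have hf0 : (f : LaurentSeries L) ≠ 0 := fun h => hf (Subtype.ext h)
  obtain ⟨⟨m₁, hm₁, e₁⟩, -⟩ := doubleDiff_series W ϖ hϖ s hsW hsI (coe_mem_fracInt W N f) hf0
  have hϖ0 : (ϖ : L) ≠ 0 := fun h => hϖ.ne_zero (Subtype.ext h)
  have hϖF : algebraMap L (FF L N) (ϖ : L) ≠ 0 := (map_ne_zero _).mpr hϖ0
  have hcoe : ((algebraMap L (FF L N) (ϖ : L) : FF L N) : LaurentSeries L) =
      HahnSeries.C (ϖ : L) := by
    show algebraMap L (LaurentSeries L) (ϖ : L) = HahnSeries.C (ϖ : L)
    rw [algebraMap_laurentSeries_eq_single]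
    rfl
  have hC0 : HahnSeries.C (ϖ : L) ≠ (0 : LaurentSeries L) := by
    rw [← hcoe]
    exact fun h => hϖF (Subtype.ext h)
  refine ⟨(dd N s f - 1) / algebraMap L (FF L N) (ϖ : L), ?_, ?_⟩
  · have h2 : (((dd N s f - 1) / algebraMap L (FF L N) (ϖ : L) : FF L N) : LaurentSeries L) =
        (((dd N s f : FF L N) : LaurentSeries L) - 1) / HahnSeries.C (ϖ : L) := by
      rw [← hcoe]
      rfl
    rw [h2, coe_dd, e₁, add_sub_cancel_left, mul_div_cancel_left₀ _ hC0]
    exact hm₁
  · rw [mul_div_cancel₀ _ hϖF]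
    ring

/-- **(O3), raw form at both Gauss valuations**: `(τ - 1)² f = 1 + ϖ m` with `m` and `w m` of
`W`-integral `q`-expansion, for every `L`-algebra automorphism `w` commuting with the coefficient
action (Atkin–Lehner: `CoeffAut.act_atkinLehner`). -/
theorem dd_both (ϖ : W) (hϖ : Irreducible ϖ) (N : ℕ) (s : L ≃+* L)
    (hsW : ∀ c : L, c ∈ W ↔ s c ∈ W)
    (hsI : ∀ c : L, c ∈ W → ∃ d : L, d ∈ W ∧ s c = c + (ϖ : L) * d)
    (w : FF L N ≃ₐ[L] FF L N) (hw : ∀ x : FF L N, act N s (w x) = w (act N s x))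
    {f : FF L N} (hf : f ≠ 0) :
    ∃ m : FF L N, (m : LaurentSeries L) ∈ contentRing W ∧
      ((w m : FF L N) : LaurentSeries L) ∈ contentRing W ∧
      dd N s f = 1 + algebraMap L (FF L N) (ϖ : L) * m := by
  obtain ⟨m, hm, e⟩ := dd_raw W ϖ hϖ N s hsW hsI hf
  have hwf : w f ≠ 0 := (map_ne_zero_iff _ w.injective).mpr hf
  obtain ⟨m', hm', e'⟩ := dd_raw W ϖ hϖ N s hsW hsI hwf
  have hϖ0 : (ϖ : L) ≠ 0 := fun h => hϖ.ne_zero (Subtype.ext h)
  have hϖF : algebraMap L (FF L N) (ϖ : L) ≠ 0 := (map_ne_zero _).mpr hϖ0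
  refine ⟨m, hm, ?_, e⟩
  have h1 : w (dd N s f) = dd N s (w f) :=
    dd_comm N s (w : FF L N ≃+* FF L N) hw f
  have h2 : w (dd N s f) = 1 + algebraMap L (FF L N) (ϖ : L) * w m := by
    rw [e, map_add, map_one, map_mul, AlgEquiv.commutes]
  have h3 : w m = m' := by
    have h4 : algebraMap L (FF L N) (ϖ : L) * w m = algebraMap L (FF L N) (ϖ : L) * m' := by
      have := h2.symm.trans (h1.trans e')
      exact add_left_cancel this
    exact mul_left_cancel₀ hϖF h4
  rw [h3]
  exact hm'

/-- **(O3) and the `GaussOne` half of (O4)**: the double difference of EVERY nonzero function is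
`≡ 1` modulo `π` in the Gauss ring, provided the elements integral at both Gauss valuations are
Gauss-integral (`hV`; the `(V3a)` direction of the two-valuation theorem). -/
theorem gaussOne_dd (ϖ : W) (hϖ : Irreducible ϖ) (N : ℕ) (s : L ≃+* L)
    (hsW : ∀ c : L, c ∈ W ↔ s c ∈ W)
    (hsI : ∀ c : L, c ∈ W → ∃ d : L, d ∈ W ∧ s c = c + (ϖ : L) * d)
    (w : FF L N ≃ₐ[L] FF L N) (hw : ∀ x : FF L N, act N s (w x) = w (act N s x))
    (j : FF L N)
    (hV : ∀ x : FF L N, (x : LaurentSeries L) ∈ contentRing W →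
      ((w x : FF L N) : LaurentSeries L) ∈ contentRing W → Endgame.InC ϖ j x)
    {f : FF L N} (hf : f ≠ 0) : GaussOne ϖ j (dd N s f) := by
  obtain ⟨m, hm, hwm, e⟩ := dd_both W ϖ hϖ N s hsW hsI w hw hf
  refine gaussOne_of_inC ⟨m, hV m hm hwm, ?_⟩
  rw [e, add_sub_cancel_left]
  rfl

/-! ### At a level of `ℚ̄`, for the restriction of an inertia element -/

section Level

local notation "Qb" => AlgebraicClosure ℚ

variable (A : ValuationSubring Qb) (ι : L →+* Qb) {σ : Qb ≃ₐ[ℚ] Qb} (s : L ≃+* L)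
  (hs : ∀ c : L, ι (s c) = σ (ι c))

include hs

/-- `dd_raw` for the restriction `s` of an inertia element `σ` of `A` (any level `N`). -/
theorem dd_raw_level [IsDiscreteValuationRing ↥(A.comap ι)]
    (hσ : σ ∈ A.inertiaSubgroupIn ℚ) {ϖ : ↥(A.comap ι)} (hϖ : Irreducible ϖ) (N : ℕ)
    {f : FF L N} (hf : f ≠ 0) :
    ∃ m : FF L N, (m : LaurentSeries L) ∈ contentRing (A.comap ι) ∧
      dd N s f = 1 + algebraMap L (FF L N) (ϖ : L) * m :=
  dd_raw (A.comap ι) ϖ hϖ N s
    (GalLevel.mem_comap_iff_of_mem_decomposition A ι s hs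
      (Fermat.Agent.S37.GaloisValue.mem_decompositionSubgroup_of_mem_inertia hσ))
    (FrobAct.exists_eq_add_mul_of_mem_inertia A ι s hs hσ hϖ) hf

/-- `dd_both` for the restriction `s` of an inertia element `σ` of `A` and an Atkin–Lehner
automorphism `w` of `FF L (M * ℓ)`. -/
theorem dd_both_level [IsDiscreteValuationRing ↥(A.comap ι)]
    (hσ : σ ∈ A.inertiaSubgroupIn ℚ) {ϖ : ↥(A.comap ι)} (hϖ : Irreducible ϖ)
    (M ℓ : ℕ) [NeZero M] [NeZero ℓ] (hℓ : ℓ.Prime) (w : FF L (M * ℓ) ≃ₐ[L] FF L (M * ℓ))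
    (hα : (w : FF L (M * ℓ) →ₐ[L] FF L (M * ℓ)).comp (heckeAlphaBar L M ℓ) = heckeBetaBar L M ℓ)
    (hβ : (w : FF L (M * ℓ) →ₐ[L] FF L (M * ℓ)).comp (heckeBetaBar L M ℓ) = heckeAlphaBar L M ℓ)
    {f : FF L (M * ℓ)} (hf : f ≠ 0) :
    ∃ m : FF L (M * ℓ), (m : LaurentSeries L) ∈ contentRing (A.comap ι) ∧
      ((w m : FF L (M * ℓ)) : LaurentSeries L) ∈ contentRing (A.comap ι) ∧
      dd (M * ℓ) s f = 1 + algebraMap L (FF L (M * ℓ)) (ϖ : L) * m :=
  dd_both (A.comap ι) ϖ hϖ (M * ℓ) s
    (GalLevel.mem_comap_iff_of_mem_decomposition A ι s hs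
      (Fermat.Agent.S37.GaloisValue.mem_decompositionSubgroup_of_mem_inertia hσ))
    (FrobAct.exists_eq_add_mul_of_mem_inertia A ι s hs hσ hϖ) w
    (fun x => act_atkinLehner M ℓ hℓ s w hα hβ x) hf

/-- **(O3) at a level**: `GaussOne ϖ j ((τ - 1)² f)` for every `f ≠ 0` of `FF L (M * ℓ)`, `τ` the
restriction of an inertia element, given the `(V3a)` direction `hV` of the two-valuation
theorem for the Atkin–Lehner automorphism `w`. -/
theorem gaussOne_dd_level [IsDiscreteValuationRing ↥(A.comap ι)]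
    (hσ : σ ∈ A.inertiaSubgroupIn ℚ) {ϖ : ↥(A.comap ι)} (hϖ : Irreducible ϖ)
    (M ℓ : ℕ) [NeZero M] [NeZero ℓ] (hℓ : ℓ.Prime) (w : FF L (M * ℓ) ≃ₐ[L] FF L (M * ℓ))
    (hα : (w : FF L (M * ℓ) →ₐ[L] FF L (M * ℓ)).comp (heckeAlphaBar L M ℓ) = heckeBetaBar L M ℓ)
    (hβ : (w : FF L (M * ℓ) →ₐ[L] FF L (M * ℓ)).comp (heckeBetaBar L M ℓ) = heckeAlphaBar L M ℓ)
    (j : FF L (M * ℓ))
    (hV : ∀ x : FF L (M * ℓ), (x : LaurentSeries L) ∈ contentRing (A.comap ι) →
      ((w x : FF L (M * ℓ)) : LaurentSeries L) ∈ contentRing (A.comap ι) → Endgame.InC ϖ j x)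
    {f : FF L (M * ℓ)} (hf : f ≠ 0) : GaussOne ϖ j (dd (M * ℓ) s f) :=
  gaussOne_dd (A.comap ι) ϖ hϖ (M * ℓ) s
    (GalLevel.mem_comap_iff_of_mem_decomposition A ι s hs
      (Fermat.Agent.S37.GaloisValue.mem_decompositionSubgroup_of_mem_inertia hσ))
    (FrobAct.exists_eq_add_mul_of_mem_inertia A ι s hs hσ hϖ) w
    (fun x => act_atkinLehner M ℓ hℓ s w hα hβ x) j hV hf

end Level

end Fermat.Agent.S34.DDGauss
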