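import Mathlib
import Fermat.Prelude.Def_ModularCurve_ArithmeticGalois
import Fermat.Prelude.Def_FLTPrelim_Ramification

/-!
# S34, top reduction: the unipotence statement (G) on `J₀(N)(ℚ̄)` from its divisor form

For a semilinear automorphism `g` of a function field `F / K` and a divisor `D`, put
`dd g D = g • g • D - 2 • (g • D) + D` (the "double difference" `(g - 1)² D`).

* `GaloisDD N τ m` : the divisor statement — for every divisor `D` of `F_N / ℚ̄` such that
  `m • D` is principal, `(τ - 1)² D` is principal;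
* `smul_smul_sub_two_smul_add_eq_zero` : the divisor statement gives
  `τ • τ • x - 2 • (τ • x) + x = 0` for every class `x` of `J₀(N)(ℚ̄)` killed by `m`;
* `GStmt N q`, `gStmt_of_galoisDD` : the statement (G) consumed by the S34 assembly, in the
  two equivalent spellings `(τ - 1)² x = 0` and `τ x + τ⁻¹ x = 2 x`.
-/

set_option autoImplicit false
set_option linter.unusedSectionVars false

noncomputable section

namespace Fermat.Agent.S34.GTop

open ModularCurve AlgebraicCurve

local notation "Qb" => AlgebraicClosure ℚ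

section General

variable {K F : Type*} [Field K] [Field F] [Algebra K F]

/-- The double difference `(g - 1)² D` of a divisor. -/
def dd (g : SemilinearAut K F) (D : Divisor K F) : Divisor K F :=
  g • g • D - 2 • (g • D) + D

theorem dd_add (g : SemilinearAut K F) (D E : Divisor K F) : dd g (D + E) = dd g D + dd g E := by
  unfold dd
  rw [smul_add, smul_add, smul_add]
  abel

theorem dd_nsmul (g : SemilinearAut K F) (m : ℕ) (D : Divisor K F) :
    dd g (m • D) = m • dd g D := by
  unfold dd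
  have h1 : g • (m • D) = m • (g • D) := (DistribSMul.toAddMonoidHom (Divisor K F) g).map_nsmul m D
  have h2 : g • (m • (g • D)) = m • (g • g • D) :=
    (DistribSMul.toAddMonoidHom (Divisor K F) g).map_nsmul m (g • D)
  rw [h1, h2, nsmul_add, nsmul_sub, smul_comm m 2 (g • D)]

theorem dd_single (g : SemilinearAut K F) (P : Place K F) (n : ℤ) :
    dd g (Finsupp.single P n) =
      Finsupp.single (g • g • P) n - 2 • Finsupp.single (g • P) n + Finsupp.single P n := by
  unfold dd
  rw [SemilinearAut.smul_single, SemilinearAut.smul_single]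

theorem dd_mem_principal_of_mem (g : SemilinearAut K F) {D : Divisor K F}
    (hD : D ∈ Divisor.principal (K := K) (F := F)) :
    dd g D ∈ Divisor.principal (K := K) (F := F) := by
  unfold dd
  have h1 := SemilinearAut.smul_mem_principal g hD
  have h2 := SemilinearAut.smul_mem_principal g h1
  exact (Divisor.principal (K := K) (F := F)).add_mem
    ((Divisor.principal (K := K) (F := F)).sub_mem h2
      ((Divisor.principal (K := K) (F := F)).nsmul_mem h1 2)) hD

/-- The class of `(g - 1)² D` is `g • g • x - 2 • (g • x) + x`. -/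
theorem pic0_dd (g : SemilinearAut K F) (D : Divisor.degZero (K := K) (F := F)) :
    ∃ E : Divisor.degZero (K := K) (F := F), (E : Divisor K F) = dd g (D : Divisor K F) ∧
      g • g • Pic0.mk D - 2 • (g • Pic0.mk D) + Pic0.mk D = Pic0.mk E := by
  refine ⟨SemilinearAut.degZeroSMulHom g (SemilinearAut.degZeroSMulHom g D)
    - 2 • SemilinearAut.degZeroSMulHom g D + D, ?_, ?_⟩
  · rw [AddMemClass.coe_add, AddSubgroupClass.coe_sub, AddSubgroupClass.coe_nsmul,
      SemilinearAut.coe_degZeroSMulHom, SemilinearAut.coe_degZeroSMulHom]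
    rfl
  · rw [SemilinearAut.pic0_smul_mk, SemilinearAut.pic0_smul_mk]
    rfl

/-- If `(g - 1)² D` is principal for every divisor `D` with `m • D` principal, then
`(g - 1)²` kills the `m`-torsion of `Pic⁰`. -/
theorem pic0_dd_eq_zero (g : SemilinearAut K F) (m : ℕ)
    (h : ∀ D : Divisor K F, m • D ∈ Divisor.principal (K := K) (F := F) →
      dd g D ∈ Divisor.principal (K := K) (F := F))
    (x : Pic0 K F) (hx : m • x = 0) : g • g • x - 2 • (g • x) + x = 0 := by
  obtain ⟨D, rfl⟩ := Pic0.mk_surjective x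
  have h1 : Pic0.mk (m • D) = 0 := hx
  have h2 : (m • D : Divisor.degZero (K := K) (F := F)) ∈
      (Divisor.principal (K := K) (F := F)).addSubgroupOf (Divisor.degZero (K := K) (F := F)) :=
    (QuotientAddGroup.eq_zero_iff _).mp h1
  rw [AddSubgroup.mem_addSubgroupOf, AddSubgroupClass.coe_nsmul] at h2
  obtain ⟨E, hE, hcls⟩ := pic0_dd g D
  rw [hcls]
  refine (QuotientAddGroup.eq_zero_iff _).mpr (AddSubgroup.mem_addSubgroupOf.mpr ?_)
  rw [hE]
  exact h (D : Divisor K F) h2

end General

section Modular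

variable (N : ℕ) [NeZero N]

/-- **The divisor form of (G)** for the Galois element `τ` and the integer `m`: for every divisor
`D` of `F_N / ℚ̄` with `m • D` principal, the double difference `(τ - 1)² D` is principal. -/
def GaloisDD (τ : Qb ≃ₐ[ℚ] Qb) (m : ℕ) : Prop :=
  ∀ D : Divisor Qb (modularFunctionFieldBar N),
    m • D ∈ Divisor.principal (K := Qb) (F := modularFunctionFieldBar N) →
    dd (arithmeticGalois (modularFunctionFieldFull N) τ) D ∈
      Divisor.principal (K := Qb) (F := modularFunctionFieldBar N)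

variable {N}

/-- The divisor form gives `(τ - 1)² x = 0` on the `m`-torsion of `J₀(N)(ℚ̄)`. -/
theorem smul_smul_sub_two_smul_add_eq_zero {τ : Qb ≃ₐ[ℚ] Qb} {m : ℕ} (h : GaloisDD N τ m)
    {x : JZero N} (hx : m • x = 0) : τ • τ • x - 2 • (τ • x) + x = 0 := by
  rw [galois_smul_pic0_def, galois_smul_pic0_def]
  exact pic0_dd_eq_zero (arithmeticGalois (modularFunctionFieldFull N) τ) m h x hx

/-- The same in the form `τ x + τ⁻¹ x = 2 x`. -/
theorem smul_add_inv_smul_eq {τ : Qb ≃ₐ[ℚ] Qb} {m : ℕ} (h : GaloisDD N τ m)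
    {x : JZero N} (hx : m • x = 0) : τ • x + τ⁻¹ • x = 2 • x := by
  have hy : m • (τ⁻¹ • x) = 0 := by
    have e : m • (τ⁻¹ • x) = τ⁻¹ • (m • x) :=
      ((DistribSMul.toAddMonoidHom (JZero N) τ⁻¹).map_nsmul m x).symm
    rw [e, hx]
    exact (DistribSMul.toAddMonoidHom (JZero N) τ⁻¹).map_zero
  have h1 := smul_smul_sub_two_smul_add_eq_zero h hy
  rw [smul_inv_smul] at h1
  have h2 : τ • x + τ⁻¹ • x = (τ • x - 2 • x + τ⁻¹ • x) + 2 • x := by abel
  rw [h2, h1, zero_add]

variable (N)

/-- **Statement (G)** at the prime `q`: for every place `A` of `ℚ̄` over `q`, every `τ` in the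
inertia group of `A` and every class `x` of `J₀(N)(ℚ̄)` killed by an integer prime to `q`:
`(τ - 1)² x = 0`. -/
def GStmt (q : ℕ) : Prop :=
  ∀ A : ValuationSubring Qb, A.LiesOverPrime q → ∀ τ ∈ A.inertiaSubgroupIn ℚ,
    ∀ (m : ℕ), ¬ q ∣ m → ∀ x : JZero N, m • x = 0 → τ • τ • x - 2 • (τ • x) + x = 0

/-- (G) from its divisor form. -/
theorem gStmt_of_galoisDD (q : ℕ)
    (h : ∀ A : ValuationSubring Qb, A.LiesOverPrime q → ∀ τ ∈ A.inertiaSubgroupIn ℚ,
      ∀ m : ℕ, ¬ q ∣ m → GaloisDD N τ m) : GStmt N q :=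
  fun A hA τ hτ m hm _ hx => smul_smul_sub_two_smul_add_eq_zero (h A hA τ hτ m hm) hx

/-- (G) in the form `τ x + τ⁻¹ x = 2 x`. -/
theorem GStmt.smul_add_inv_smul {q : ℕ} (h : GStmt N q) (A : ValuationSubring Qb)
    (hA : A.LiesOverPrime q) {τ : Qb ≃ₐ[ℚ] Qb} (hτ : τ ∈ A.inertiaSubgroupIn ℚ)
    {m : ℕ} (hm : ¬ q ∣ m) {x : JZero N} (hx : m • x = 0) : τ • x + τ⁻¹ • x = 2 • x := by
  have hy : m • (τ⁻¹ • x) = 0 := by
    have e : m • (τ⁻¹ • x) = τ⁻¹ • (m • x) :=
      ((DistribSMul.toAddMonoidHom (JZero N) τ⁻¹).map_nsmul m x).symm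
    rw [e, hx]
    exact (DistribSMul.toAddMonoidHom (JZero N) τ⁻¹).map_zero
  have h1 := h A hA τ hτ m hm (τ⁻¹ • x) hy
  rw [smul_inv_smul] at h1
  have h2 : τ • x + τ⁻¹ • x = (τ • x - 2 • x + τ⁻¹ • x) + 2 • x := by abel
  rw [h2, h1, zero_add]

end Modular

end Fermat.Agent.S34.GTop
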