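import Mathlib
import Fermat.Agent.S34.GTop
import Fermat.Agent.S37.LevelDesc
import Fermat.Agent.S37.LevelChange

/-!
# S34, descent `ℚ̄ → level L`: the divisor form of (G) from a statement at a discrete level

The divisor form `GTop.GaloisDD N τ (p ^ n)` of (G) is a statement about divisors of
`F_N / ℚ̄`.  `DvrCoreG N p q A τ` is the same statement with all the data defined at a
Galois-stable discrete level `(L, ι)` (`LevelChange.IsLevel`: `W = A ∩ L` is a discrete
valuation ring with algebraically closed residue field of characteristic `q`, `L` contains the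
roots of unity of order prime to `q`):

* the function `f` with `div f = p ^ n • D` is the base change of `fL ∈ F_{N,L}`;
* every point of the support of `D` is `L`-rational in the three-clause form of
  `S37.RatPlace.exists_rational_level` (`RatAtLevel`).

`galoisDD_of_dvrCoreG` : `DvrCoreG` and the existence of Galois-stable levels containing any
finite set give `GaloisDD N τ (p ^ n)` for all `n`.
-/

set_option autoImplicit false
set_option linter.unusedSectionVars false

noncomputable section

namespace Fermat.Agent.S34.GDescent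

open ModularCurve AlgebraicCurve Fermat.Agent.S37 Fermat.Agent.S37.GaloisValue
open Fermat.Agent.S34.GTop

local notation "Qb" => AlgebraicClosure ℚ

/-- **Rationality of a place of `F_N / ℚ̄` at the level `(L, ι)`** (the three clauses of
`S37.RatPlace.exists_rational_level`): values of functions of `F_{N,L}` regular at `P` lie in
`L`, there is a uniformiser in `F_{N,L}`, and `P` is the unique place of `F_N / ℚ̄` with its
restriction to `F_{N,L}`. -/
def RatAtLevel (N : ℕ) [NeZero N] {L : Type} [Field L] [Algebra ℚ L] (ι : L →+* Qb)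
    (P : Place Qb (modularFunctionFieldBar N)) : Prop :=
  (∀ g : S24.FF L N,
      S24.CoeffBC.bc ι (modularFunctionFieldFull N) g ∈ P.toValuationSubring →
      ∃ c : L, IsValueAt P (S24.CoeffBC.bc ι (modularFunctionFieldFull N) g) (ι c)) ∧
  (∃ t : S24.FF L N, P.ord (S24.CoeffBC.bc ι (modularFunctionFieldFull N) t) = 1) ∧
  (∀ P' : Place Qb (modularFunctionFieldBar N),
      (∀ g : S24.FF L N,
        S24.CoeffBC.bc ι (modularFunctionFieldFull N) g ∈ P'.toValuationSubring ↔
        S24.CoeffBC.bc ι (modularFunctionFieldFull N) g ∈ P.toValuationSubring) →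
      P' = P)

/-- **The DVR-level core of (G).**  Given a divisor `D` of `F_N / ℚ̄` and a function `f` with
`div f = p ^ n • D`, there is a finite set `S₀ ⊆ ℚ̄` such that over every Galois-stable level
`(L, ι)` containing `S₀` at which `f` is defined and the support of `D` is rational, the double
difference `(τ - 1)² D` is principal. -/
def DvrCoreG (N : ℕ) [NeZero N] (p q : ℕ) (A : ValuationSubring Qb) (τ : Qb ≃ₐ[ℚ] Qb) : Prop :=
  ∀ (n : ℕ) (D : Divisor Qb (modularFunctionFieldBar N)) (f : modularFunctionFieldBar N),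
    f ≠ 0 → (∀ P : Place Qb (modularFunctionFieldBar N), P.ord f = (p : ℤ) ^ n * D P) →
    ∃ S₀ : Finset Qb, ∀ (L : Type) [Field L] [Algebra ℚ L] (ι : L →+* Qb),
      LevelChange.IsLevel A q S₀ ι →
      (∀ σ : Qb ≃ₐ[ℚ] Qb, ∃ s : L ≃+* L, ∀ c : L, ι (s c) = σ (ι c)) →
      ∀ fL : S24.FF L N, S24.CoeffBC.bc ι (modularFunctionFieldFull N) fL = f →
      (∀ P : Place Qb (modularFunctionFieldBar N), D P ≠ 0 → RatAtLevel N ι P) →
      dd (arithmeticGalois (modularFunctionFieldFull N) τ) D ∈
        Divisor.principal (K := Qb) (F := modularFunctionFieldBar N)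

/-- A level containing `S` is a level containing any subset of `S`. -/
theorem isLevel_mono {A : ValuationSubring Qb} {ℓ : ℕ} {S T : Finset Qb} (hTS : T ⊆ S)
    {L : Type} [Field L] {ι : L →+* Qb} (h : LevelChange.IsLevel A ℓ S ι) :
    LevelChange.IsLevel A ℓ T ι :=
  ⟨fun a ha => h.1 a (hTS ha), h.2⟩

/-- **Descent.**  The DVR-level core and the existence of Galois-stable levels give the divisor
form of (G) over `ℚ̄`. -/
theorem galoisDD_of_dvrCoreG (N : ℕ) [NeZero N] {p q : ℕ} {A : ValuationSubring Qb}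
    {τ : Qb ≃ₐ[ℚ] Qb}
    (hlev : ∀ S : Finset Qb, ∃ (L : Type) (_ : Field L) (_ : Algebra ℚ L) (ι : L →+* Qb),
      LevelChange.IsLevel A q S ι ∧
      ∀ σ : Qb ≃ₐ[ℚ] Qb, ∃ s : L ≃+* L, ∀ c : L, ι (s c) = σ (ι c))
    (h : DvrCoreG N p q A τ) (n : ℕ) : GaloisDD N τ (p ^ n) := by
  classical
  intro D hD
  obtain ⟨f, hf, hfD⟩ := hD
  have hfD' : ∀ P : Place Qb (modularFunctionFieldBar N), P.ord f = (p : ℤ) ^ n * D P := by
    intro P
    rw [← hfD P, Finsupp.smul_apply, nsmul_eq_mul]
    push_cast
    rfl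
  obtain ⟨S₀, hS₀⟩ := h n D f hf hfD'
  obtain ⟨S₁, hS₁⟩ := LevelDesc.eventually_exists_bc N f
  obtain ⟨S₂, hS₂⟩ := RatPlace.exists_rational_level_finset N D.support
  obtain ⟨L, _, _, ι, hL, hst⟩ := hlev (S₀ ∪ S₁ ∪ S₂)
  have h0 : S₀ ⊆ S₀ ∪ S₁ ∪ S₂ := fun a ha =>
    Finset.mem_union_left _ (Finset.mem_union_left _ ha)
  have h1 : ∀ a ∈ S₁, ∃ b : L, ι b = a := fun a ha =>
    hL.1 a (Finset.mem_union_left _ (Finset.mem_union_right _ ha))
  have h2 : ∀ a ∈ S₂, ∃ b : L, ι b = a := fun a ha =>
    hL.1 a (Finset.mem_union_right _ ha)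
  obtain ⟨fL, hfL⟩ := hS₁ L ι h1
  exact hS₀ L ι (isLevel_mono h0 hL) hst fL hfL
    (fun P hP => hS₂ L ι h2 P (Finsupp.mem_support_iff.mpr hP))

end Fermat.Agent.S34.GDescent
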