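import Mathlib
import Fermat.Agent.S34.GDescent

/-!
# S34, descent glue: Galois transport of level data

At a Galois-stable level `(L, ι)` (every `σ ∈ Gal(ℚ̄/ℚ)` restricts to an automorphism `s` of
`L`, `ι ∘ s = σ ∘ ι`):

* `bc_bc_eq_smul` : the coefficientwise action of `s` on `F_{N,L}` is the restriction of the
  arithmetic Galois action of `σ` on `F_N / ℚ̄`;
* `ratAtLevel_smul` : rationality of a place at the level is Galois-stable, with the value
  transport `isValueAt_smul_bc`, the uniformiser transport `ord_smul_bc` and membership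
  `bc_mem_smul_iff`;
* `dd_apply`, `ratAtLevel_of_dd_ne_zero` : the double difference `dd τ D` of a divisor with
  rational support has rational support.
-/

set_option autoImplicit false
set_option linter.unusedSectionVars false

noncomputable section

namespace Fermat.Agent.S34.GRat

open ModularCurve AlgebraicCurve Fermat.Agent.S37 Fermat.Agent.S37.GaloisValue
open Fermat.Agent.S34.GTop Fermat.Agent.S34.GDescent

local notation "Qb" => AlgebraicClosure ℚ

variable (N : ℕ) [NeZero N] {L : Type} [Field L] [Algebra ℚ L] (ι : L →+* Qb)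

/-- **(R1)** The coefficientwise action of `s` on `F_{N,L}` is the restriction of the arithmetic
Galois action of `σ`. -/
theorem bc_bc_eq_smul (σ : Qb ≃ₐ[ℚ] Qb) (s : L →+* L) (hs : ∀ c : L, ι (s c) = σ (ι c))
    (x : S24.FF L N) :
    S24.CoeffBC.bc ι (modularFunctionFieldFull N)
        (S24.CoeffBC.bc s (modularFunctionFieldFull N) x) =
      arithmeticGalois (modularFunctionFieldFull N) σ •
        S24.CoeffBC.bc ι (modularFunctionFieldFull N) x := by
  apply Subtype.ext
  rw [S24.CoeffBC.coe_bc, S24.CoeffBC.coe_bc, coe_arithmeticGalois_smul, S24.CoeffBC.coe_bc,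
    coeffMap_coeffMap, coeffMap_coeffMap]
  exact coeffMap_congr (RingHom.ext fun c => hs c) _

/-- the inverse of a lift of `σ` is a lift of `σ⁻¹` -/
theorem symm_lift {σ : Qb ≃ₐ[ℚ] Qb} {s : L ≃+* L} (hs : ∀ c : L, ι (s c) = σ (ι c)) (c : L) :
    ι (s.symm c) = σ.symm (ι c) := by
  have h := hs (s.symm c)
  rw [RingEquiv.apply_symm_apply] at h
  rw [h, AlgEquiv.symm_apply_apply]

/-- `σ⁻¹ (bc x) = bc (s⁻¹ x)`. -/
theorem inv_smul_bc (σ : Qb ≃ₐ[ℚ] Qb) (s : L ≃+* L) (hs : ∀ c : L, ι (s c) = σ (ι c))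
    (x : S24.FF L N) :
    (arithmeticGalois (modularFunctionFieldFull N) σ)⁻¹ •
        S24.CoeffBC.bc ι (modularFunctionFieldFull N) x =
      S24.CoeffBC.bc ι (modularFunctionFieldFull N)
        (S24.CoeffBC.bc (s.symm : L →+* L) (modularFunctionFieldFull N) x) := by
  rw [← map_inv]
  exact (bc_bc_eq_smul N ι σ⁻¹ (s.symm : L →+* L) (fun c => symm_lift ι hs c) x).symm

/-- `bc (s (s⁻¹ x)) = bc x` in the form used below. -/
theorem smul_bc_symm (σ : Qb ≃ₐ[ℚ] Qb) (s : L ≃+* L) (hs : ∀ c : L, ι (s c) = σ (ι c))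
    (x : S24.FF L N) :
    arithmeticGalois (modularFunctionFieldFull N) σ •
        S24.CoeffBC.bc ι (modularFunctionFieldFull N)
          (S24.CoeffBC.bc (s.symm : L →+* L) (modularFunctionFieldFull N) x) =
      S24.CoeffBC.bc ι (modularFunctionFieldFull N) x := by
  rw [← inv_smul_bc N ι σ s hs, smul_inv_smul]

/-- Membership of `bc (s x)` in the valuation ring of the translated place. -/
theorem bc_mem_smul_iff (σ : Qb ≃ₐ[ℚ] Qb) (s : L ≃+* L) (hs : ∀ c : L, ι (s c) = σ (ι c))
    (P : Place Qb (modularFunctionFieldBar N)) (x : S24.FF L N) :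
    S24.CoeffBC.bc ι (modularFunctionFieldFull N)
        (S24.CoeffBC.bc (s : L →+* L) (modularFunctionFieldFull N) x) ∈
      (arithmeticGalois (modularFunctionFieldFull N) σ • P).toValuationSubring ↔
    S24.CoeffBC.bc ι (modularFunctionFieldFull N) x ∈ P.toValuationSubring := by
  rw [bc_bc_eq_smul N ι σ (s : L →+* L) hs]
  exact smul_mem_smul_place_iff _ P _

/-- Membership of `bc x` in the valuation ring of the translated place. -/
theorem bc_mem_smul_iff' (σ : Qb ≃ₐ[ℚ] Qb) (s : L ≃+* L) (hs : ∀ c : L, ι (s c) = σ (ι c))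
    (P : Place Qb (modularFunctionFieldBar N)) (x : S24.FF L N) :
    S24.CoeffBC.bc ι (modularFunctionFieldFull N) x ∈
      (arithmeticGalois (modularFunctionFieldFull N) σ • P).toValuationSubring ↔
    S24.CoeffBC.bc ι (modularFunctionFieldFull N)
      (S24.CoeffBC.bc (s.symm : L →+* L) (modularFunctionFieldFull N) x) ∈
        P.toValuationSubring := by
  rw [← smul_bc_symm N ι σ s hs x]
  exact smul_mem_smul_place_iff _ P _

/-- **Value transport**: `(s g)(σ P) = s (g (P))`. -/
theorem isValueAt_smul_bc (σ : Qb ≃ₐ[ℚ] Qb) (s : L ≃+* L) (hs : ∀ c : L, ι (s c) = σ (ι c))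
    {P : Place Qb (modularFunctionFieldBar N)} {x : S24.FF L N} {c : L}
    (h : IsValueAt P (S24.CoeffBC.bc ι (modularFunctionFieldFull N) x) (ι c)) :
    IsValueAt (arithmeticGalois (modularFunctionFieldFull N) σ • P)
      (S24.CoeffBC.bc ι (modularFunctionFieldFull N)
        (S24.CoeffBC.bc (s : L →+* L) (modularFunctionFieldFull N) x)) (ι (s c)) := by
  rw [bc_bc_eq_smul N ι σ (s : L →+* L) hs, hs c]
  exact isValueAt_arithmeticGalois (modularFunctionFieldFull N) h σ

/-- **Order transport**: `ord_{σ P} (s g) = ord_P g`. -/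
theorem ord_smul_bc (σ : Qb ≃ₐ[ℚ] Qb) (s : L ≃+* L) (hs : ∀ c : L, ι (s c) = σ (ι c))
    (P : Place Qb (modularFunctionFieldBar N)) (x : S24.FF L N) :
    (arithmeticGalois (modularFunctionFieldFull N) σ • P).ord
      (S24.CoeffBC.bc ι (modularFunctionFieldFull N)
        (S24.CoeffBC.bc (s : L →+* L) (modularFunctionFieldFull N) x)) =
    P.ord (S24.CoeffBC.bc ι (modularFunctionFieldFull N) x) := by
  rw [bc_bc_eq_smul N ι σ (s : L →+* L) hs]
  exact SemilinearAut.ord_smul _ P _

/-- **(R2)** Rationality at a level is stable under every `σ` that restricts to the level. -/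
theorem ratAtLevel_smul (σ : Qb ≃ₐ[ℚ] Qb) (s : L ≃+* L) (hs : ∀ c : L, ι (s c) = σ (ι c))
    {P : Place Qb (modularFunctionFieldBar N)} (hP : RatAtLevel N ι P) :
    RatAtLevel N ι (arithmeticGalois (modularFunctionFieldFull N) σ • P) := by
  obtain ⟨h1, ⟨t, ht⟩, h3⟩ := hP
  refine ⟨fun g hg => ?_, ⟨S24.CoeffBC.bc (s : L →+* L) (modularFunctionFieldFull N) t, ?_⟩,
    fun P' hP' => ?_⟩
  · obtain ⟨c, hc⟩ := h1 _ ((bc_mem_smul_iff' N ι σ s hs P g).mp hg)
    refine ⟨s c, ?_⟩
    have h := isValueAt_arithmeticGalois (modularFunctionFieldFull N) hc σ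
    rw [smul_bc_symm N ι σ s hs g, ← hs c] at h
    exact h
  · rw [ord_smul_bc N ι σ s hs P t, ht]
  · have key : (arithmeticGalois (modularFunctionFieldFull N) σ)⁻¹ • P' = P := by
      refine h3 _ fun g => ?_
      have e1 : S24.CoeffBC.bc ι (modularFunctionFieldFull N) g ∈
            ((arithmeticGalois (modularFunctionFieldFull N) σ)⁻¹ • P').toValuationSubring ↔
          S24.CoeffBC.bc ι (modularFunctionFieldFull N)
            (S24.CoeffBC.bc (s : L →+* L) (modularFunctionFieldFull N) g) ∈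
              P'.toValuationSubring := by
        have h := bc_mem_smul_iff N ι σ s hs
          ((arithmeticGalois (modularFunctionFieldFull N) σ)⁻¹ • P') g
        rw [smul_inv_smul] at h
        exact h.symm
      rw [e1, hP' _]
      exact bc_mem_smul_iff N ι σ s hs P g
    rw [← key, smul_inv_smul]

/-- The same for a level stable under all of `Gal(ℚ̄/ℚ)`. -/
theorem ratAtLevel_smul_of_stable
    (hst : ∀ σ : Qb ≃ₐ[ℚ] Qb, ∃ s : L ≃+* L, ∀ c : L, ι (s c) = σ (ι c))
    (σ : Qb ≃ₐ[ℚ] Qb) {P : Place Qb (modularFunctionFieldBar N)} (hP : RatAtLevel N ι P) :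
    RatAtLevel N ι (arithmeticGalois (modularFunctionFieldFull N) σ • P) := by
  obtain ⟨s, hs⟩ := hst σ
  exact ratAtLevel_smul N ι σ s hs hP

section DD

variable {K F : Type*} [Field K] [Field F] [Algebra K F]

/-- The coefficients of the double difference. -/
theorem dd_apply (g : SemilinearAut K F) (D : Divisor K F) (Q : Place K F) :
    dd g D Q = D (g⁻¹ • g⁻¹ • Q) - 2 * D (g⁻¹ • Q) + D Q := by
  unfold dd
  rw [Finsupp.add_apply, Finsupp.sub_apply, Finsupp.smul_apply,
    SemilinearAut.divisor_smul_apply, SemilinearAut.divisor_smul_apply,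
    SemilinearAut.divisor_smul_apply, nsmul_eq_mul]
  push_cast
  rfl

/-- A point of the support of `dd g D` is `Q = P`, `g P` or `g² P` with `P` in the support of
`D`. -/
theorem exists_of_dd_ne_zero (g : SemilinearAut K F) (D : Divisor K F) (Q : Place K F)
    (hQ : dd g D Q ≠ 0) :
    ∃ P : Place K F, D P ≠ 0 ∧ (Q = P ∨ Q = g • P ∨ Q = g • g • P) := by
  rw [dd_apply] at hQ
  by_cases h0 : D Q = 0
  · by_cases h1 : D (g⁻¹ • Q) = 0
    · by_cases h2 : D (g⁻¹ • g⁻¹ • Q) = 0
      · rw [h0, h1, h2] at hQ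
        exact absurd (by norm_num) hQ
      · exact ⟨_, h2, Or.inr (Or.inr (by rw [smul_inv_smul, smul_inv_smul]))⟩
    · exact ⟨_, h1, Or.inr (Or.inl (by rw [smul_inv_smul]))⟩
  · exact ⟨Q, h0, Or.inl rfl⟩

end DD

/-- **(R3)** At a stable level, the double difference of a divisor with rational support has
rational support. -/
theorem ratAtLevel_of_dd_ne_zero
    (hst : ∀ σ : Qb ≃ₐ[ℚ] Qb, ∃ s : L ≃+* L, ∀ c : L, ι (s c) = σ (ι c))
    (τ : Qb ≃ₐ[ℚ] Qb) (D : Divisor Qb (modularFunctionFieldBar N))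
    (hD : ∀ P : Place Qb (modularFunctionFieldBar N), D P ≠ 0 → RatAtLevel N ι P)
    (Q : Place Qb (modularFunctionFieldBar N))
    (hQ : dd (arithmeticGalois (modularFunctionFieldFull N) τ) D Q ≠ 0) :
    RatAtLevel N ι Q := by
  obtain ⟨P, hP, h | h | h⟩ := exists_of_dd_ne_zero _ D Q hQ
  · rw [h]
    exact hD P hP
  · rw [h]
    exact ratAtLevel_smul_of_stable N ι hst τ (hD P hP)
  · rw [h]
    exact ratAtLevel_smul_of_stable N ι hst τ (ratAtLevel_smul_of_stable N ι hst τ (hD P hP))

end Fermat.Agent.S34.GRat
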