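/-
S34 (wave 6), B5/B6 glue: the DVR-level core `GDescent.DvrCoreG` from a Kummer identity at the
level.

`dvrCoreG_of_level`: to prove `DvrCoreG N p q A τ` it suffices to produce, at every Galois-stable
level `(L, ι)` (containing a finite set `S₀` chosen after `n`, `D`, `f`), for the restriction `s`
of `τ` to `L`, a constant `a ≠ 0` of `L` and a function `hL ∈ F_{N,L}` with

  `s(s(fL)) * fL = a * hL ^ (p ^ n) * s(fL) ^ 2`      (i.e. `(τ - 1)² fL = a * hL ^ (p ^ n)`),

where `s` acts coefficientwise (`CoeffAut.act N s`).  Then `(τ - 1)² D = div (bc ι hL)`.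
-/
import Mathlib
import Fermat.Agent.S34.GRat
import Fermat.Agent.S34.CoeffAut
import Fermat.Agent.S29.BCUnram

set_option autoImplicit false

noncomputable section

namespace Fermat.Agent.S34.GPush

open ModularCurve AlgebraicCurve Fermat.Agent.S37 Fermat.Agent.S37.GaloisValue
open Fermat.Agent.S34.GTop Fermat.Agent.S34.GDescent

local notation "Qb" => AlgebraicClosure ℚ

section General

variable {K F : Type*} [Field K] [Field F] [Algebra K F]

/-- `ord_P (g f) = ord_{g⁻¹ P} f`. -/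
theorem ord_smul_eq_inv (g : SemilinearAut K F) (P : Place K F) (f : F) :
    P.ord (g • f) = (g⁻¹ • P).ord f := by
  have h := SemilinearAut.ord_smul g (g⁻¹ • P) f
  rwa [smul_inv_smul] at h

/-- **Divisor form of a Kummer identity for the double difference.**  If `div f = m • D`
(`m ≠ 0`) and `g(g f) * f = c * H ^ m * (g f) ^ 2` with `c` a nonzero constant, then
`(g - 1)² D = div H`. -/
theorem dd_mem_principal_of_eq (g : SemilinearAut K F) (D : Divisor K F) (f : F) (hf : f ≠ 0)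
    (m : ℕ) (hm : m ≠ 0) (hD : ∀ P : Place K F, P.ord f = (m : ℤ) * D P)
    (c : K) (H : F) (hc : ∀ P : Place K F, P.ord (algebraMap K F c) = 0)
    (hc0 : c ≠ 0)
    (hH : g • g • f * f = algebraMap K F c * H ^ m * (g • f) ^ 2) :
    dd g D ∈ Divisor.principal (K := K) (F := F) := by
  have hgf : g • f ≠ 0 := by
    intro h0
    have h1 : g⁻¹ • g • f = g⁻¹ • (0 : F) := congrArg (g⁻¹ • ·) h0
    rw [inv_smul_smul, smul_zero] at h1
    exact hf h1
  have hggf : g • g • f ≠ 0 := by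
    intro h0
    have h1 : g⁻¹ • g • g • f = g⁻¹ • (0 : F) := congrArg (g⁻¹ • ·) h0
    rw [inv_smul_smul, smul_zero] at h1
    exact hgf h1
  have hcF : algebraMap K F c ≠ 0 := by
    rw [Ne, map_eq_zero_iff _ (algebraMap K F).injective]
    exact hc0
  have hH0 : H ≠ 0 := by
    rintro rfl
    rw [zero_pow hm, mul_zero, zero_mul] at hH
    exact mul_ne_zero hggf hf hH
  refine ⟨H, hH0, fun P => ?_⟩
  have h1 := congrArg P.ord hH
  rw [P.ord_mul hggf hf, P.ord_mul (mul_ne_zero hcF (pow_ne_zero m hH0)) (pow_ne_zero 2 hgf),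
    P.ord_mul hcF (pow_ne_zero m hH0), hc P, zero_add, ← zpow_natCast H m, P.ord_zpow,
    ← zpow_natCast (g • f) 2, P.ord_zpow, ord_smul_eq_inv, ord_smul_eq_inv, ord_smul_eq_inv,
    hD, hD, hD] at h1
  rw [GRat.dd_apply]
  have hm' : (m : ℤ) ≠ 0 := by exact_mod_cast hm
  apply mul_left_cancel₀ hm'
  push_cast at h1
  linarith

end General

/-- **`DvrCoreG` from a Kummer identity at the level.** -/
theorem dvrCoreG_of_level (N : ℕ) [NeZero N] {p q : ℕ} (hp : p ≠ 0) (A : ValuationSubring Qb)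
    (τ : Qb ≃ₐ[ℚ] Qb)
    (h : ∀ (n : ℕ) (D : Divisor Qb (modularFunctionFieldBar N)) (f : modularFunctionFieldBar N),
      f ≠ 0 → (∀ P : Place Qb (modularFunctionFieldBar N), P.ord f = (p : ℤ) ^ n * D P) →
      ∃ S₀ : Finset Qb, ∀ (L : Type) [Field L] [Algebra ℚ L] (ι : L →+* Qb),
        LevelChange.IsLevel A q S₀ ι →
        (∀ σ : Qb ≃ₐ[ℚ] Qb, ∃ s : L ≃+* L, ∀ c : L, ι (s c) = σ (ι c)) →
        ∀ fL : S24.FF L N, S24.CoeffBC.bc ι (modularFunctionFieldFull N) fL = f →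
        (∀ P : Place Qb (modularFunctionFieldBar N), D P ≠ 0 → RatAtLevel N ι P) →
        ∀ s : L ≃+* L, (∀ c : L, ι (s c) = τ (ι c)) →
        ∃ (a : L) (hL : S24.FF L N), a ≠ 0 ∧
          CoeffAut.act N s (CoeffAut.act N s fL) * fL =
            algebraMap L (S24.FF L N) a * hL ^ (p ^ n) * (CoeffAut.act N s fL) ^ 2) :
    DvrCoreG N p q A τ := by
  intro n D f hf hD
  obtain ⟨S₀, hS₀⟩ := h n D f hf hD
  refine ⟨S₀, fun L _ _ ι hlev hst fL hfL hrat => ?_⟩
  obtain ⟨s, hs⟩ := hst τ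
  obtain ⟨a, hL, ha, hid⟩ := hS₀ L ι hlev hst fL hfL hrat s hs
  have hbc := congrArg (S24.CoeffBC.bc ι (modularFunctionFieldFull N)) hid
  rw [map_mul, map_mul, map_mul, map_pow, map_pow, CoeffAut.act_eq_bc, CoeffAut.act_eq_bc,
    GRat.bc_bc_eq_smul N ι τ (s : L →+* L) hs, GRat.bc_bc_eq_smul N ι τ (s : L →+* L) hs, hfL,
    S24.CoeffBC.bc_algebraMap] at hbc
  have hD' : ∀ P : Place Qb (modularFunctionFieldBar N), P.ord f = ((p ^ n : ℕ) : ℤ) * D P := by
    intro P
    rw [hD P]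
    push_cast
    rfl
  exact dd_mem_principal_of_eq (arithmeticGalois (modularFunctionFieldFull N) τ) D f hf (p ^ n)
    (pow_ne_zero n hp) hD' (ι a) _ (fun P => Fermat.Agent.S29.BCUnram.ord_const P (ι a))
    (by rw [Ne, map_eq_zero_iff _ ι.injective]; exact ha) hbc

end Fermat.Agent.S34.GPush
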