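/-
S34 (long shot), package A6 of findings #202: **local lifts of the sheet idempotent glue to a
chart lift** (partition of unity / conductor ideal).  Pure algebra on top of the S18 vocabulary
(`IsGaussInt`, `Kummer.eps`).

Setting: `D` the chart ring of the `j`-line (e.g. `W[X]` acting through `j`), `π : D` prime,
`B` a `D`-algebra integral over `D` (the chart ring of the curve: the integral closure of `D`
in the function field), `Y` a field over `B` (the Kummer extension `F(u)`, `u ^ s = w`).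

* `liftIdeal π ε` : the ideal of all `r : B` such that `r • ε` is congruent modulo `π` times a
  Gauss-integral element to an element integral over `D`;
* `exists_lift_of_local` : if `ε` is Gauss-integral and for every maximal ideal `𝔫 ∋ π` of `B`
  some `r ∉ 𝔫` lies in `liftIdeal π ε`, then `ε` itself lifts (conductor local-to-global);
* `pow_mem_liftIdeal` : the Kummer computation: if `h ≡ 1` modulo `π`·(Gauss-integral) and
  `d • (u * h)` is integral over `D`, then `d ^ s ∈ liftIdeal π (eps s u)`;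
* `local_lift_inv` : **A6**, with the local datum given by `h = g⁻¹`;
* `exists_inv_one_add_sub_one` : `(1 + π z)⁻¹ - 1 ∈ π`·(Gauss-integral) for `z` Gauss-integral;
* `local_lift` : **A6**, with the local datum given by `g = 1 + π z`;
* `local_lift_of_unit` : **A6**, with the local datum `w = ε g ^ s`, `d • ε` integral.
-/
import Mathlib
import Fermat.Agent.S18.Chart
import Fermat.Agent.S18.Kummer

set_option autoImplicit false

namespace Fermat.Agent.S34.LocalLift

open Fermat.Agent.S18 Fermat.Agent.S18.Chart Polynomial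

section Conductor

variable {D B Y : Type*} [CommRing D] [CommRing B] [Field Y] [Algebra D B] [Algebra D Y]
  [Algebra B Y] [IsScalarTower D B Y]

theorem isIntegral_algebraMap_of_isIntegral [Algebra.IsIntegral D B] (a : B) :
    IsIntegral D (algebraMap B Y a) :=
  (Algebra.IsIntegral.isIntegral (R := D) a).map (IsScalarTower.toAlgHom D B Y)

theorem isIntegral_smul_of_isIntegral [Algebra.IsIntegral D B] (a : B) {y : Y}
    (hy : IsIntegral D y) : IsIntegral D (a • y) := by
  rw [Algebra.smul_def]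
  exact (isIntegral_algebraMap_of_isIntegral a).mul hy

theorem gaussInt_smul_of_isIntegral [Algebra.IsIntegral D B] (π : D) (hπ : Prime π) (a : B)
    {y : Y} (hy : IsGaussInt D π y) : IsGaussInt D π (a • y) := by
  rw [Algebra.smul_def]
  exact gaussInt_mul π hπ
    (gaussInt_of_isIntegral π hπ.not_isUnit (isIntegral_algebraMap_of_isIntegral a)) hy

variable (B) in
/-- The ideal of all `r : B` such that `r • ε` lifts modulo `π` to an element integral
over `D`. -/
def liftIdeal [Algebra.IsIntegral D B] (π : D) (hπ : Prime π) (ε : Y) : Ideal B where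
  carrier := {r | ∃ e : Y, IsIntegral D e ∧ ∃ c : Y, IsGaussInt D π c ∧ e - r • ε = π • c}
  zero_mem' := ⟨0, isIntegral_zero, 0, gaussInt_zero π hπ.not_isUnit, by simp⟩
  add_mem' := by
    rintro r₁ r₂ ⟨e₁, he₁, c₁, hc₁, h₁⟩ ⟨e₂, he₂, c₂, hc₂, h₂⟩
    refine ⟨e₁ + e₂, he₁.add he₂, c₁ + c₂, gaussInt_add π hπ hc₁ hc₂, ?_⟩
    rw [add_smul, smul_add, ← h₁, ← h₂]
    ring
  smul_mem' := by
    rintro a r ⟨e, he, c, hc, h⟩
    refine ⟨a • e, isIntegral_smul_of_isIntegral a he, a • c,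
      gaussInt_smul_of_isIntegral π hπ a hc, ?_⟩
    rw [smul_eq_mul, mul_smul, ← smul_sub, h, smul_comm]

theorem mem_liftIdeal [Algebra.IsIntegral D B] (π : D) (hπ : Prime π) (ε : Y) (r : B) :
    r ∈ liftIdeal B π hπ ε ↔
      ∃ e : Y, IsIntegral D e ∧ ∃ c : Y, IsGaussInt D π c ∧ e - r • ε = π • c :=
  Iff.rfl

theorem algebraMap_mem_liftIdeal [Algebra.IsIntegral D B] (π : D) (hπ : Prime π) {ε : Y}
    (hε : IsGaussInt D π ε) : algebraMap D B π ∈ liftIdeal B π hπ ε := by
  refine ⟨0, isIntegral_zero, -ε, gaussInt_neg π hε, ?_⟩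
  rw [algebraMap_smul, smul_neg, zero_sub]

/-- **Conductor local-to-global**: if for every maximal ideal `𝔫 ∋ π` of `B` some multiple
`r • ε`, `r ∉ 𝔫`, lifts, then `ε` lifts. -/
theorem exists_lift_of_local [Algebra.IsIntegral D B] (π : D) (hπ : Prime π) {ε : Y}
    (hε : IsGaussInt D π ε)
    (hloc : ∀ 𝔫 : Ideal B, 𝔫.IsMaximal → algebraMap D B π ∈ 𝔫 →
      ∃ r : B, r ∉ 𝔫 ∧ r ∈ liftIdeal B π hπ ε) :
    ∃ e : Y, IsIntegral D e ∧ ∃ c : Y, IsGaussInt D π c ∧ e - ε = π • c := by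
  have htop : liftIdeal B π hπ ε = ⊤ := by
    by_contra hne
    obtain ⟨𝔫, h𝔫, hle⟩ := Ideal.exists_le_maximal _ hne
    obtain ⟨r, hr, hrI⟩ := hloc 𝔫 h𝔫 (hle (algebraMap_mem_liftIdeal π hπ hε))
    exact hr (hle hrI)
  have h1 : (1 : B) ∈ liftIdeal B π hπ ε := by rw [htop]; trivial
  obtain ⟨e, he, c, hc, h⟩ := h1
  exact ⟨e, he, c, hc, by rwa [one_smul] at h⟩

end Conductor

section GaussSum

variable {D Y : Type*} [CommRing D] [CommRing Y] [Algebra D Y]

theorem gaussInt_sum {ι : Type*} (π : D) (hπ : Prime π) (S : Finset ι) (f : ι → Y)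
    (hf : ∀ i ∈ S, IsGaussInt D π (f i)) : IsGaussInt D π (∑ i ∈ S, f i) := by
  classical
  induction S using Finset.induction_on with
  | empty => simpa using gaussInt_zero (Y := Y) π hπ.not_isUnit
  | insert a S ha ih =>
    rw [Finset.sum_insert ha]
    exact gaussInt_add π hπ (hf a (Finset.mem_insert_self a S))
      (ih fun i hi => hf i (Finset.mem_insert_of_mem hi))

theorem gaussInt_one (π : D) (hπ : Prime π) : IsGaussInt D π (1 : Y) :=
  gaussInt_of_isIntegral π hπ.not_isUnit isIntegral_one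

theorem gaussInt_one_add (π : D) (hπ : Prime π) {z : Y} (hz : IsGaussInt D π z) :
    IsGaussInt D π (1 + π • z) :=
  gaussInt_add π hπ (gaussInt_one π hπ) (gaussInt_smul π π hz)

/-- `h = 1 + π z` ⇒ `h ^ i - 1 ∈ π`·(Gauss-integral). -/
theorem exists_pow_sub_one (π : D) (hπ : Prime π) {h z : Y} (hz : IsGaussInt D π z)
    (hh : h = 1 + π • z) (i : ℕ) : ∃ c : Y, IsGaussInt D π c ∧ h ^ i - 1 = π • c := by
  have hG : IsGaussInt D π h := hh ▸ gaussInt_one_add π hπ hz
  refine ⟨z * ∑ k ∈ Finset.range i, h ^ k,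
    gaussInt_mul π hπ hz (gaussInt_sum π hπ _ _ fun k _ => gaussInt_pow π hπ hG k), ?_⟩
  rw [← mul_geom_sum, hh, add_sub_cancel_left, smul_mul_assoc]

end GaussSum

section Kummer

variable {D B Y : Type*} [CommRing D] [CommRing B] [Field Y] [Algebra D B] [Algebra D Y]
  [Algebra B Y] [IsScalarTower D B Y] [Algebra.IsIntegral D B]

/-- **The Kummer computation.**  If `h ≡ 1` modulo `π`·(Gauss-integral) and `d • (u * h)` is
integral over `D`, then `d ^ s • eps s u` lifts: `d ^ s • eps s (u * h)` is integral and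
congruent to it. -/
theorem pow_mem_liftIdeal (π : D) (hπ : Prime π) (s : ℕ) (hs : IsIntegral D ((s : Y)⁻¹))
    {u h z : Y} (hu : IsGaussInt D π u) (hz : IsGaussInt D π z) (hh : h = 1 + π • z)
    (d : B) (hd : IsIntegral D (d • (u * h))) :
    d ^ s ∈ liftIdeal B π hπ (Kummer.eps s u) := by
  choose c hc hci using fun i : ℕ => exists_pow_sub_one π hπ hz hh i
  have hsG : IsGaussInt D π ((s : Y)⁻¹) := gaussInt_of_isIntegral π hπ.not_isUnit hs
  refine ⟨d ^ s • Kummer.eps s (u * h), ?_,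
    d ^ s • ((s : Y)⁻¹ * ∑ i ∈ Finset.range s, u ^ i * c i), ?_, ?_⟩
  · -- integrality
    unfold Kummer.eps
    rw [← mul_smul_comm, Finset.smul_sum]
    refine hs.mul (IsIntegral.sum _ fun i hi => ?_)
    have hi' : i < s := Finset.mem_range.mp hi
    have : d ^ s • (u * h) ^ i = d ^ (s - i) • (d • (u * h)) ^ i := by
      rw [_root_.smul_pow, smul_smul, ← pow_add, Nat.sub_add_cancel hi'.le]
    rw [this]
    exact isIntegral_smul_of_isIntegral _ (hd.pow i)
  · exact gaussInt_smul_of_isIntegral π hπ _ (gaussInt_mul π hπ hsG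
      (gaussInt_sum π hπ _ _ fun i _ => gaussInt_mul π hπ (gaussInt_pow π hπ hu i) (hc i)))
  · unfold Kummer.eps
    rw [← smul_sub, ← mul_sub, ← Finset.sum_sub_distrib, smul_comm π (d ^ s)]
    congr 1
    rw [← mul_smul_comm, Finset.smul_sum]
    congr 1
    refine Finset.sum_congr rfl fun i _ => ?_
    rw [← mul_smul_comm, ← hci i]
    ring

/-- **A6 (local lift ⇒ chart lift), inverse form.**  `u` Gauss-integral; for every maximal
ideal `𝔫 ∋ π` of the chart ring `B` there are `d ∈ B ∖ 𝔫` and `h = 1 + π z` (`z` Gauss-integral;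
in the application `h = g⁻¹` for the local generator `g`) with `d • (u * h)` integral over `D`.
Then the sheet idempotent `eps s u` is congruent modulo `π`·(Gauss-integral) to an element
integral over `D`. -/
theorem local_lift_inv (π : D) (hπ : Prime π) (s : ℕ) (hs : IsIntegral D ((s : Y)⁻¹))
    {u : Y} (hu : IsGaussInt D π u)
    (hloc : ∀ 𝔫 : Ideal B, 𝔫.IsMaximal → algebraMap D B π ∈ 𝔫 →
      ∃ (d : B) (h z : Y), d ∉ 𝔫 ∧ IsGaussInt D π z ∧ h = 1 + π • z ∧
        IsIntegral D (d • (u * h))) :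
    ∃ e : Y, IsIntegral D e ∧ ∃ c : Y, IsGaussInt D π c ∧ e - Kummer.eps s u = π • c := by
  have hε : IsGaussInt D π (Kummer.eps s u) :=
    gaussInt_mul π hπ (gaussInt_of_isIntegral π hπ.not_isUnit hs)
      (gaussInt_sum π hπ _ _ fun i _ => gaussInt_pow π hπ hu i)
  refine exists_lift_of_local (B := B) π hπ hε fun 𝔫 h𝔫 hπ𝔫 => ?_
  obtain ⟨d, h, z, hd, hz, hh, hint⟩ := hloc 𝔫 h𝔫 hπ𝔫
  exact ⟨d ^ s, fun hmem => hd (h𝔫.isPrime.mem_of_pow_mem s hmem),
    pow_mem_liftIdeal π hπ s hs hu hz hh d hint⟩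

end Kummer

section Inverse

variable {D Y : Type*} [CommRing D] [Field Y] [Algebra D Y]

/-- For `x` integral over `D` and `s ∉ (π)`, the element `s + π x` divides (in the integral
closure) some `c₀ ∈ D ∖ (π)`. -/
theorem exists_mul_eq_of_isIntegral_add (π s : D) (hπ : Prime π) (hs : ¬ π ∣ s) {x : Y}
    (hx : IsIntegral D x) :
    ∃ c₀ : D, ¬ π ∣ c₀ ∧ ∃ r : Y, IsIntegral D r ∧
      (algebraMap D Y s + π • x) * r = algebraMap D Y c₀ := by
  obtain ⟨Q, hQm, hQ⟩ := hx
  have hQ' : aeval x Q = 0 := by rwa [aeval_def]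
  have hS : aeval (algebraMap D Y π * x) (scaleRoots Q π) = 0 := scaleRoots_aeval_eq_zero hQ'
  obtain ⟨U, hU⟩ := X_sub_C_dvd_sub_C_eval (p := scaleRoots Q π) (a := -s)
  have hπx : IsIntegral D (algebraMap D Y π * x) := by
    rw [← Algebra.smul_def]
    exact IsIntegral.smul π ⟨Q, hQm, hQ⟩
  refine ⟨(scaleRoots Q π).eval (-s), ?_, -aeval (algebraMap D Y π * x) U, ?_, ?_⟩
  · intro hdvd
    have hc : (scaleRoots Q π).eval (-s) =
        ∑ i ∈ Finset.range (Q.natDegree + 1), (scaleRoots Q π).coeff i * (-s) ^ i := by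
      rw [eval_eq_sum_range, natDegree_scaleRoots]
    rw [Finset.sum_range_succ] at hc
    have h1 : π ∣ ∑ i ∈ Finset.range Q.natDegree, (scaleRoots Q π).coeff i * (-s) ^ i :=
      Finset.dvd_sum fun i hi => by
        rw [coeff_scaleRoots]
        exact Dvd.dvd.mul_right (Dvd.dvd.mul_left
          (dvd_pow_self π (Nat.sub_ne_zero_of_lt (Finset.mem_range.mp hi))) _) _
    have h2 : π ∣ (scaleRoots Q π).coeff Q.natDegree * (-s) ^ Q.natDegree :=
      (dvd_add_right h1).mp (hc ▸ hdvd)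
    rw [coeff_scaleRoots, Nat.sub_self, pow_zero, mul_one, hQm.coeff_natDegree, one_mul] at h2
    exact hs (dvd_neg.mp (hπ.dvd_of_dvd_pow h2))
  · refine IsIntegral.neg ?_
    rw [aeval_eq_sum_range]
    exact IsIntegral.sum _ fun i _ => IsIntegral.smul _ (hπx.pow i)
  · have h3 := congrArg (aeval (algebraMap D Y π * x)) hU
    rw [map_sub, hS, aeval_C, map_mul, map_sub, aeval_X, aeval_C, map_neg] at h3
    rw [Algebra.smul_def]
    linear_combination h3

/-- `(1 + π z)⁻¹ ≡ 1` modulo `π`·(Gauss-integral), for `z` Gauss-integral. -/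
theorem exists_inv_one_add_sub_one (π : D) (hπ : Prime π) {z : Y} (hz : IsGaussInt D π z) :
    ∃ c : Y, IsGaussInt D π c ∧ (1 + π • z)⁻¹ - 1 = π • c := by
  by_cases hy : 1 + π • z = 0
  · refine ⟨z, hz, ?_⟩
    rw [hy, inv_zero, zero_sub]
    linear_combination -hy
  · obtain ⟨s, hs, hi⟩ := hz
    obtain ⟨c₀, hc₀, r, hr, hmul⟩ := exists_mul_eq_of_isIntegral_add π s hπ hs hi
    have hsy : algebraMap D Y s + π • s • z = s • (1 + π • z) := by
      rw [smul_add, smul_comm π s z, Algebra.smul_def s (1 : Y), mul_one]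
    rw [hsy] at hmul
    have hinv : IsGaussInt D π ((1 + π • z)⁻¹) := by
      refine ⟨c₀, hc₀, ?_⟩
      have : c₀ • (1 + π • z)⁻¹ = s • r := by
        rw [Algebra.smul_def, ← hmul, smul_mul_assoc, Algebra.smul_def s r,
          Algebra.smul_def s ((1 + π • z) * r)]
        field_simp
      rw [this]
      exact IsIntegral.smul s hr
    refine ⟨-(z * (1 + π • z)⁻¹), gaussInt_neg π (gaussInt_mul π hπ ⟨s, hs, hi⟩ hinv), ?_⟩
    rw [smul_neg, ← smul_mul_assoc]
    field_simp
    ring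

end Inverse

section KummerForms

variable {D B Y : Type*} [CommRing D] [CommRing B] [Field Y] [Algebra D B] [Algebra D Y]
  [Algebra B Y] [IsScalarTower D B Y] [Algebra.IsIntegral D B]

/-- **A6 (local lift ⇒ chart lift)**, as in findings #202: for every maximal ideal `𝔫 ∋ π` of
the chart ring `B` there are `g = 1 + π z` (`z` Gauss-integral) and `d ∈ B ∖ 𝔫` with
`d • (u / g)` integral over `D`.  Then the sheet idempotent `eps s u` is congruent modulo
`π`·(Gauss-integral) to an element integral over `D`. -/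
theorem local_lift (π : D) (hπ : Prime π) (s : ℕ) (hs : IsIntegral D ((s : Y)⁻¹))
    {u : Y} (hu : IsGaussInt D π u)
    (hloc : ∀ 𝔫 : Ideal B, 𝔫.IsMaximal → algebraMap D B π ∈ 𝔫 →
      ∃ (d : B) (g z : Y), d ∉ 𝔫 ∧ IsGaussInt D π z ∧ g = 1 + π • z ∧
        IsIntegral D (d • (u * g⁻¹))) :
    ∃ e : Y, IsIntegral D e ∧ ∃ c : Y, IsGaussInt D π c ∧ e - Kummer.eps s u = π • c := by
  refine local_lift_inv (B := B) π hπ s hs hu fun 𝔫 h𝔫 hπ𝔫 => ?_
  obtain ⟨d, g, z, hd, hz, hg, hint⟩ := hloc 𝔫 h𝔫 hπ𝔫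
  obtain ⟨c, hc, hgc⟩ := exists_inv_one_add_sub_one π hπ hz
  exact ⟨d, g⁻¹, c, hd, hc, by rw [hg]; linear_combination hgc, hint⟩

/-- **A6, unit form**: `u ^ s = w`, and for every maximal ideal `𝔫 ∋ π` of the chart ring `B`
there are `g = 1 + π z` (`z` Gauss-integral) and `d ∈ B ∖ 𝔫` with `d • (w / g ^ s)` integral
over `D` (i.e. `w = ε g ^ s` with `ε` regular at `𝔫`). -/
theorem local_lift_of_unit (π : D) (hπ : Prime π) (s : ℕ) (hs0 : s ≠ 0)
    (hs : IsIntegral D ((s : Y)⁻¹)) {u w : Y} (huw : u ^ s = w) (hu : IsGaussInt D π u)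
    (hloc : ∀ 𝔫 : Ideal B, 𝔫.IsMaximal → algebraMap D B π ∈ 𝔫 →
      ∃ (d : B) (g z : Y), d ∉ 𝔫 ∧ IsGaussInt D π z ∧ g = 1 + π • z ∧
        IsIntegral D (d • (w * (g ^ s)⁻¹))) :
    ∃ e : Y, IsIntegral D e ∧ ∃ c : Y, IsGaussInt D π c ∧ e - Kummer.eps s u = π • c := by
  refine local_lift (B := B) π hπ s hs hu fun 𝔫 h𝔫 hπ𝔫 => ?_
  obtain ⟨d, g, z, hd, hz, hg, hint⟩ := hloc 𝔫 h𝔫 hπ𝔫
  refine ⟨d, g, z, hd, hz, hg, IsIntegral.of_pow (Nat.pos_of_ne_zero hs0) ?_⟩
  have : (d • (u * g⁻¹)) ^ s = d ^ (s - 1) • (d • (w * (g ^ s)⁻¹)) := by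
    rw [_root_.smul_pow, mul_pow, huw, inv_pow, smul_smul, ← pow_succ,
      Nat.sub_add_cancel (Nat.pos_of_ne_zero hs0)]
  rw [this]
  exact isIntegral_smul_of_isIntegral _ hint

end KummerForms

end Fermat.Agent.S34.LocalLift
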