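import Mathlib
import Fermat.Agent.S34.KummerStep
import Fermat.Agent.S34.LocalLift

/-
S34 (blueprint findings 202), abstract core of package B5, second part: THE INDUCTION.

Setting as in `KummerStep.kummer_step` (currency of `S18.Endgame`): `W` a noetherian UFD with
prime element `π` and fraction field `L` of characteristic zero, `F ⊇ L(j)` finite, `s` a prime
invertible in `W`, `ζ ∈ W` a primitive `s`-th root of unity.

* `Cong π x a b` : `a - b ∈ π C`, `C` the integral closure of the Gauss ring `W[x]_(π)` in `F`;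
  calculus, `inC_inv_of_cong_one`, `cong_inv_one` (the elements `≡ 1` form a group).
* `LiftAt π x₀ 𝔫 ε` : `ε` is congruent modulo `π C` to an element integral at the ideal `𝔫` of
  the chart ring; closed under ring operations; `chart_lift_of_liftAt` (conductor ideal).
* `const_of_liftable` : a locally liftable idempotent modulo `π` is congruent to a constant
  (connectedness of the special fibre; `S18.Endgame.exists_common_lift` with `Y = F`).
* `root_const` : `y ^ s ≡ 1` and `y` locally liftable imply `y ≡` constant (Kummer projectors).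
* `kummer_descent` : `w ≡ 1`, and at every maximal ideal `𝔫 ∋ π` of both chart rings some
  `g ≡ 1` makes `w * g ^ (s ^ n)` integral at `𝔫`; then `w = a * h ^ (s ^ n)`, `a ∈ W` nonzero.
* `hram_of_val`, `hroot_of_isAlgClosed`, `isUnit_of_not_dvd_dvr` : the auxiliary hypotheses of
  `kummer_descent` from a valuation with `v π = 1`, an algebraically closed residue field, a
  discrete valuation ring.
-/

set_option autoImplicit false
set_option linter.unusedSectionVars false

namespace Fermat.Agent.S34.KummerInd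

open Polynomial Fermat.Agent.S18 Fermat.Agent.S18.Endgame Fermat.Agent.S34.KummerStep

section CongCalc

variable {W F : Type*} [CommRing W] [IsDomain W] [Field F] [Algebra W F]

/-- congruence modulo `π` times the integral closure of the Gauss ring `W[x]_(π)` -/
def Cong (π : W) (x a b : F) : Prop := ∃ c : F, InC π x c ∧ a - b = algebraMap W F π * c

namespace Cong

variable {π : W} {x a b c a' b' : F}

theorem refl (hπ : Prime π) (a : F) : Cong π x a a := ⟨0, InC.zero hπ, by simp⟩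

theorem symm (h : Cong π x a b) : Cong π x b a := by
  obtain ⟨c, hc, h⟩ := h
  exact ⟨-c, hc.neg, by linear_combination -h⟩

theorem trans (hπ : Prime π) (h1 : Cong π x a b) (h2 : Cong π x b c) : Cong π x a c := by
  obtain ⟨c1, hc1, h1⟩ := h1
  obtain ⟨c2, hc2, h2⟩ := h2
  exact ⟨c1 + c2, hc1.add hπ hc2, by linear_combination h1 + h2⟩

theorem add (hπ : Prime π) (h1 : Cong π x a a') (h2 : Cong π x b b') :
    Cong π x (a + b) (a' + b') := by
  obtain ⟨c1, hc1, h1⟩ := h1
  obtain ⟨c2, hc2, h2⟩ := h2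
  exact ⟨c1 + c2, hc1.add hπ hc2, by linear_combination h1 + h2⟩

theorem mul (hπ : Prime π) (ha : InC π x a) (hb' : InC π x b') (h1 : Cong π x a a')
    (h2 : Cong π x b b') : Cong π x (a * b) (a' * b') := by
  obtain ⟨c1, hc1, h1⟩ := h1
  obtain ⟨c2, hc2, h2⟩ := h2
  exact ⟨a * c2 + c1 * b', (ha.mul hπ hc2).add hπ (hc1.mul hπ hb'),
    by linear_combination a * h2 + b' * h1⟩

theorem mul_left (hπ : Prime π) (hc : InC π x c) (h : Cong π x a b) :
    Cong π x (c * a) (c * b) := by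
  obtain ⟨c1, hc1, h1⟩ := h
  exact ⟨c * c1, hc.mul hπ hc1, by linear_combination c * h1⟩

theorem inC_right (hπ : Prime π) (ha : InC π x a) (h : Cong π x a b) : InC π x b := by
  obtain ⟨c, hc, h⟩ := h
  have : b = a - algebraMap W F π * c := by linear_combination -h
  rw [this]
  exact ha.sub hπ ((InC.const hπ π).mul hπ hc)

theorem inC_left (hπ : Prime π) (hb : InC π x b) (h : Cong π x a b) : InC π x a :=
  inC_right hπ hb h.symm

theorem pow (hπ : Prime π) (ha : InC π x a) (h : Cong π x a b) (n : ℕ) :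
    Cong π x (a ^ n) (b ^ n) := by
  have hb : InC π x b := inC_right hπ ha h
  induction n with
  | zero => rw [pow_zero, pow_zero]; exact refl hπ 1
  | succ n ih =>
    rw [pow_succ, pow_succ]
    exact mul hπ (ha.pow hπ n) hb ih h

theorem sum (hπ : Prime π) {ι : Type*} (s : Finset ι) (f g : ι → F)
    (h : ∀ i ∈ s, Cong π x (f i) (g i)) : Cong π x (∑ i ∈ s, f i) (∑ i ∈ s, g i) := by
  classical
  induction s using Finset.induction_on with
  | empty => rw [Finset.sum_empty, Finset.sum_empty]; exact refl hπ 0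
  | insert a s ha ih =>
    rw [Finset.sum_insert ha, Finset.sum_insert ha]
    exact add hπ (h a (Finset.mem_insert_self a s))
      (ih fun i hi => h i (Finset.mem_insert_of_mem hi))

theorem to_inv (hx : x ≠ 0) (h : Cong π x a b) : Cong π x⁻¹ a b := by
  obtain ⟨c, hc, h⟩ := h
  exact ⟨c, hc.to_inv hx, h⟩

theorem of_inv (hx : x ≠ 0) (h : Cong π x⁻¹ a b) : Cong π x a b := by
  obtain ⟨c, hc, h⟩ := h
  exact ⟨c, hc.of_inv hx, h⟩

end Cong

theorem gaussOne_iff_cong {π : W} {j g : F} (hπF : algebraMap W F π ≠ 0) :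
    GaussOne π j g ↔ Cong π j g 1 :=
  ⟨fun h => h.inC hπF, fun h => gaussOne_of_inC h⟩

/-- `(1 + π c)⁻¹` is Gauss integral for `c` Gauss integral. -/
theorem inC_inv_of_cong_one {π : W} (hπ : Prime π) {x g : F} (h : Cong π x g 1) :
    InC π x g⁻¹ := by
  by_cases hg : g = 0
  · rw [hg, inv_zero]; exact InC.zero hπ
  obtain ⟨c, ⟨p, hp, hpc⟩, hgc⟩ := h
  let _ : Algebra W[X] F := (ev W x).toAlgebra
  have hCπ : Prime (C π : W[X]) := prime_C_iff.mpr hπ
  have hb : IsIntegral W[X] (aeval x p * c) := hpc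
  obtain ⟨c₀, hc₀, r, hr, hmul⟩ :=
    LocalLift.exists_mul_eq_of_isIntegral_add (C π : W[X]) p hCπ hp hb
  have h1 : algebraMap W[X] F p = aeval x p := rfl
  have h2 : (C π : W[X]) • (aeval x p * c) = algebraMap W F π * (aeval x p * c) := by
    rw [Algebra.smul_def]
    show ev W x (C π) * _ = _
    rw [ev_C]
  have h3 : algebraMap W[X] F c₀ = aeval x c₀ := rfl
  rw [h1, h2, h3] at hmul
  refine ⟨c₀, hc₀, ?_⟩
  have h4 : aeval x c₀ * g⁻¹ = aeval x p * r := by
    have hg' : g = 1 + algebraMap W F π * c := by linear_combination hgc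
    rw [← hmul, hg']
    have hne : (1 + algebraMap W F π * c) ≠ 0 := by rw [← hg']; exact hg
    field_simp
  rw [h4]
  exact (IsInt.ev p).mul hr

theorem cong_inv_one {π : W} (hπ : Prime π) {x g : F} (hg : g ≠ 0) (h : Cong π x g 1) :
    Cong π x g⁻¹ 1 := by
  have hinv := inC_inv_of_cong_one hπ h
  obtain ⟨c, hc, hgc⟩ := h
  refine ⟨-(g⁻¹ * c), (hinv.mul hπ hc).neg, ?_⟩
  have : g⁻¹ - 1 = -(g⁻¹ * (g - 1)) := by field_simp; ring
  rw [this, hgc]; ring

end CongCalc


section LiftAt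

variable {W F : Type*} [CommRing W] [IsDomain W] [Field F] [Algebra W F]

/-- `ε` is congruent modulo `π` (Gauss ring) to an element which is integral at the ideal `𝔫` of
the chart ring (the integral closure of `W[x₀]` in `F`). -/
def LiftAt (π : W) (x₀ : F) (𝔫 : Ideal (integralClosure (Algebra.adjoin W {x₀}) F)) (ε : F) :
    Prop :=
  ∃ ε' : F, Cong π x₀ ε ε' ∧ ∃ d : integralClosure (Algebra.adjoin W {x₀}) F, d ∉ 𝔫 ∧
    IsIntegral (Algebra.adjoin W {x₀}) ((d : F) * ε')

theorem isInt_coe (x₀ : F) (r : integralClosure (Algebra.adjoin W {x₀}) F) :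
    IsInt W x₀ (r : F) :=
  (isInt_iff_isIntegral_adjoin (Y := F) x₀ (r : F)).mpr r.2

theorem isInt_of_isIntegral_adjoin (x₀ : F) {z : F} (h : IsIntegral (Algebra.adjoin W {x₀}) z) :
    IsInt W x₀ z :=
  (isInt_iff_isIntegral_adjoin (Y := F) x₀ z).mpr h

theorem isIntegral_adjoin_of_isInt (x₀ : F) {z : F} (h : IsInt W x₀ z) :
    IsIntegral (Algebra.adjoin W {x₀}) z :=
  (isInt_iff_isIntegral_adjoin (Y := F) x₀ z).mp h

namespace LiftAt

variable {π : W} {x₀ : F} {𝔫 : Ideal (integralClosure (Algebra.adjoin W {x₀}) F)} {ε ε₁ ε₂ : F}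

theorem const (hπ : Prime π) (h𝔫 : 𝔫 ≠ ⊤) (a : W) : LiftAt π x₀ 𝔫 (algebraMap W F a) := by
  refine ⟨algebraMap W F a, Cong.refl hπ _, 1, fun h => h𝔫 ((Ideal.eq_top_iff_one 𝔫).mpr h), ?_⟩
  rw [OneMemClass.coe_one, one_mul]
  exact isIntegral_adjoin_of_isInt x₀ (IsInt.const a)

theorem add (hπ : Prime π) (h𝔫 : 𝔫.IsPrime) (h1 : LiftAt π x₀ 𝔫 ε₁) (h2 : LiftAt π x₀ 𝔫 ε₂) :
    LiftAt π x₀ 𝔫 (ε₁ + ε₂) := by
  obtain ⟨e1, hc1, d1, hd1, hi1⟩ := h1
  obtain ⟨e2, hc2, d2, hd2, hi2⟩ := h2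
  refine ⟨e1 + e2, hc1.add hπ hc2, d1 * d2, fun h => ?_, ?_⟩
  · rcases h𝔫.mem_or_mem h with h | h
    exacts [hd1 h, hd2 h]
  · have : ((d1 * d2 : integralClosure (Algebra.adjoin W {x₀}) F) : F) * (e1 + e2) =
        (d2 : F) * ((d1 : F) * e1) + (d1 : F) * ((d2 : F) * e2) := by
      rw [MulMemClass.coe_mul]; ring
    rw [this]
    exact (d2.2.mul hi1).add (d1.2.mul hi2)

theorem mul (hπ : Prime π) (h𝔫 : 𝔫.IsPrime) (hε₁ : InC π x₀ ε₁) (hε₂ : InC π x₀ ε₂)
    (h1 : LiftAt π x₀ 𝔫 ε₁) (h2 : LiftAt π x₀ 𝔫 ε₂) : LiftAt π x₀ 𝔫 (ε₁ * ε₂) := by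
  obtain ⟨e1, hc1, d1, hd1, hi1⟩ := h1
  obtain ⟨e2, hc2, d2, hd2, hi2⟩ := h2
  refine ⟨e1 * e2, Cong.mul hπ hε₁ (Cong.inC_right hπ hε₂ hc2) hc1 hc2, d1 * d2, fun h => ?_, ?_⟩
  · rcases h𝔫.mem_or_mem h with h | h
    exacts [hd1 h, hd2 h]
  · have : ((d1 * d2 : integralClosure (Algebra.adjoin W {x₀}) F) : F) * (e1 * e2) =
        ((d1 : F) * e1) * ((d2 : F) * e2) := by
      rw [MulMemClass.coe_mul]; ring
    rw [this]
    exact hi1.mul hi2

theorem pow (hπ : Prime π) (h𝔫 : 𝔫.IsPrime) (hε : InC π x₀ ε) (h : LiftAt π x₀ 𝔫 ε) (n : ℕ) :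
    LiftAt π x₀ 𝔫 (ε ^ n) := by
  induction n with
  | zero =>
    rw [pow_zero, ← map_one (algebraMap W F)]
    exact const hπ h𝔫.ne_top 1
  | succ n ih =>
    rw [pow_succ]
    exact mul hπ h𝔫 (hε.pow hπ n) hε ih h

theorem sum (hπ : Prime π) (h𝔫 : 𝔫.IsPrime) {ι : Type*} (s : Finset ι) (f : ι → F)
    (h : ∀ i ∈ s, LiftAt π x₀ 𝔫 (f i)) : LiftAt π x₀ 𝔫 (∑ i ∈ s, f i) := by
  classical
  induction s using Finset.induction_on with
  | empty =>
    rw [Finset.sum_empty, ← map_zero (algebraMap W F)]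
    exact const hπ h𝔫.ne_top 0
  | insert a s ha ih =>
    rw [Finset.sum_insert ha]
    exact add hπ h𝔫 (h a (Finset.mem_insert_self a s))
      (ih fun i hi => h i (Finset.mem_insert_of_mem hi))

end LiftAt

/-- **Local-to-global on one chart**: a Gauss-integral `ε` which at every maximal ideal `𝔫 ∋ π`
of the chart ring is congruent modulo `π` to an element integral at `𝔫` is congruent modulo `π`
to an element integral over the chart. -/
theorem chart_lift_of_liftAt {π : W} (hπ : Prime π) (x₀ : F) (ε : F) (hε : InC π x₀ ε)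
    (hloc : ∀ 𝔫 : Ideal (integralClosure (Algebra.adjoin W {x₀}) F), 𝔫.IsMaximal →
      (∀ r : integralClosure (Algebra.adjoin W {x₀}) F, (r : F) = algebraMap W F π → r ∈ 𝔫) →
      LiftAt π x₀ 𝔫 ε) :
    ∃ e : F, IsInt W x₀ e ∧ Cong π x₀ ε e := by
  classical
  let B := integralClosure (Algebra.adjoin W {x₀}) F
  let I : Ideal B :=
    { carrier := {r | ∃ e, IsInt W x₀ e ∧ Cong π x₀ ((r : F) * ε) e}
      zero_mem' := ⟨0, IsInt.zero, by
        rw [ZeroMemClass.coe_zero, zero_mul]; exact Cong.refl hπ 0⟩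
      add_mem' := by
        rintro r₁ r₂ ⟨e₁, he₁, h₁⟩ ⟨e₂, he₂, h₂⟩
        refine ⟨e₁ + e₂, he₁.add he₂, ?_⟩
        rw [AddMemClass.coe_add, add_mul]
        exact h₁.add hπ h₂
      smul_mem' := by
        rintro a r ⟨e, he, h⟩
        refine ⟨(a : F) * e, (isInt_coe x₀ a).mul he, ?_⟩
        rw [smul_eq_mul, MulMemClass.coe_mul, mul_assoc]
        exact Cong.mul_left hπ (InC.of_isInt hπ (isInt_coe x₀ a)) h }
  have hImem : ∀ r : B, r ∈ I ↔ ∃ e, IsInt W x₀ e ∧ Cong π x₀ ((r : F) * ε) e := fun r => Iff.rfl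
  have hItop : I = ⊤ := by
    by_contra hne
    obtain ⟨𝔫, h𝔫, hI𝔫⟩ := Ideal.exists_le_maximal I hne
    have hπ𝔫 : ∀ r : B, (r : F) = algebraMap W F π → r ∈ 𝔫 := by
      intro r hr
      apply hI𝔫
      refine (hImem r).mpr ⟨0, IsInt.zero, ε, hε, ?_⟩
      rw [hr, sub_zero]
    obtain ⟨ε', hc, d, hd, hi⟩ := hloc 𝔫 h𝔫 hπ𝔫
    apply hd
    apply hI𝔫
    exact (hImem d).mpr ⟨(d : F) * ε', isInt_of_isIntegral_adjoin x₀ hi,
      Cong.mul_left hπ (InC.of_isInt hπ (isInt_coe x₀ d)) hc⟩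
  have h1 : (1 : B) ∈ I := by rw [hItop]; trivial
  obtain ⟨e, he, h⟩ := (hImem 1).mp h1
  rw [OneMemClass.coe_one, one_mul] at h
  exact ⟨e, he, h⟩

end LiftAt


section TwoCharts

variable {W L F : Type*} [CommRing W] [IsDomain W] [IsNoetherianRing W]
  [UniqueFactorizationMonoid W] [Field L] [Algebra W L] [IsFractionRing W L] [CharZero L]
  [Field F] [Algebra L F] [Algebra W F] [IsScalarTower W L F]

theorem transcendental_W {j : F} (hj : Transcendental L j) : Transcendental W j := by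
  intro ⟨p, hp0, hp⟩
  refine hj ⟨p.map (algebraMap W L),
    (Polynomial.map_ne_zero_iff (IsFractionRing.injective W L)).mpr hp0, ?_⟩
  rw [aeval_map_algebraMap]; exact hp

theorem algebraMap_injective_WF (W L F : Type*) [CommRing W] [Field L] [Algebra W L]
    [IsFractionRing W L] [Field F] [Algebra L F] [Algebra W F] [IsScalarTower W L F] :
    Function.Injective (algebraMap W F) := by
  rw [IsScalarTower.algebraMap_eq W L F]
  exact (algebraMap L F).injective.comp (IsFractionRing.injective W L)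

/-- **Connectedness, local form.**  An idempotent `ε` modulo `π` (Gauss ring) which is locally
liftable at every maximal ideal `𝔫 ∋ π` of both chart rings is congruent modulo `π` to a
constant (an element integral over `W`). -/
theorem const_of_liftable (π : W) (hπ : Prime π) (j : F) (hj : Transcendental L j)
    [FiniteDimensional (IntermediateField.adjoin L {j}) F]
    (ε : F) (hεC : InC π j ε) (hidem : Cong π j (ε ^ 2) ε)
    (hloc₁ : ∀ 𝔫 : Ideal (integralClosure (Algebra.adjoin W {j}) F), 𝔫.IsMaximal →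
      (∀ r : integralClosure (Algebra.adjoin W {j}) F, (r : F) = algebraMap W F π → r ∈ 𝔫) →
      LiftAt π j 𝔫 ε)
    (hloc₂ : ∀ 𝔫 : Ideal (integralClosure (Algebra.adjoin W {j⁻¹}) F), 𝔫.IsMaximal →
      (∀ r : integralClosure (Algebra.adjoin W {j⁻¹}) F, (r : F) = algebraMap W F π → r ∈ 𝔫) →
      LiftAt π j⁻¹ 𝔫 ε) :
    ∃ c : F, IsIntegral W c ∧ Cong π j c ε := by
  have hjW : Transcendental W j := transcendental_W hj
  have hj0 : j ≠ 0 := ne_zero_of_transcendental hjW
  obtain ⟨e₁, he₁, h₁⟩ := chart_lift_of_liftAt hπ j ε hεC hloc₁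
  obtain ⟨e₂, he₂, h₂⟩ := chart_lift_of_liftAt hπ j⁻¹ ε (hεC.to_inv hj0) hloc₂
  obtain ⟨n, b, hb, hspan⟩ := ChartGens.exists_gens_chart (W := W) (L := L) (F := F) (Y := F)
    (algebraMap W F)
    (fun a => by
      rw [← IsScalarTower.algebraMap_apply W L F]; rfl)
    j hj
  have hev : (eval₂RingHom (algebraMap W F) (algebraMap F F j)) = ev W j := by
    apply Polynomial.ringHom_ext
    · intro a; rw [coe_eval₂RingHom, eval₂_C, ev_C]
    · rw [coe_eval₂RingHom, eval₂_X, ev_X]; rfl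
  rw [hev] at hb hspan
  obtain ⟨c, hc1, hc2, hc⟩ := exists_common_lift hπ hjW b hb
    (fun y hy => by
      obtain ⟨p, hp⟩ := hspan y hy
      exact ⟨p, hp⟩)
    ε e₁ e₂ hidem he₁ he₂ h₁ (h₂.of_inv hj0)
  exact ⟨c, isIntegral_of_isInt_of_isInt_inv hjW hc1 hc2, hc⟩

end TwoCharts


section Root

theorem geom_sum_root_eq_zero {W : Type*} [CommRing W] [IsDomain W] {ζ : W} {s : ℕ}
    (hζ : IsPrimitiveRoot ζ s) {k : ℕ} (hk0 : 0 < k) (hks : k < s) :
    ∑ i ∈ Finset.range s, (ζ ^ i) ^ k = 0 := by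
  have hne : ζ ^ k ≠ 1 := fun h => by
    have := (hζ.pow_eq_one_iff_dvd k).mp h
    exact absurd (Nat.le_of_dvd hk0 this) (by omega)
  have hpow : (ζ ^ k) ^ s = 1 := by rw [← pow_mul, mul_comm, pow_mul, hζ.pow_eq_one, one_pow]
  have hgeo := geom_sum_mul (ζ ^ k) s
  rw [hpow, sub_self] at hgeo
  have hcomm : ∑ i ∈ Finset.range s, (ζ ^ i) ^ k = ∑ i ∈ Finset.range s, (ζ ^ k) ^ i :=
    Finset.sum_congr rfl fun i _ => by rw [← pow_mul, ← pow_mul, mul_comm]
  rw [hcomm]
  rcases mul_eq_zero.mp hgeo with h | h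
  · exact h
  · exact absurd (sub_eq_zero.mp h) hne

theorem liftAt_proj {W F : Type*} [CommRing W] [IsDomain W] [Field F] [Algebra W F] {π : W}
    (hπ : Prime π) {x₀ : F} {𝔫 : Ideal (integralClosure (Algebra.adjoin W {x₀}) F)}
    (h𝔫 : 𝔫.IsPrime) {y : F} (hy : InC π x₀ y) (h : LiftAt π x₀ 𝔫 y) (sW z : W) (s : ℕ) :
    LiftAt π x₀ 𝔫 (algebraMap W F sW * ∑ k ∈ Finset.range s, (algebraMap W F z * y) ^ k) := by
  have hu : InC π x₀ (algebraMap W F z * y) := (InC.const hπ z).mul hπ hy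
  have hul : LiftAt π x₀ 𝔫 (algebraMap W F z * y) :=
    LiftAt.mul hπ h𝔫 (InC.const hπ z) hy (LiftAt.const hπ h𝔫.ne_top z) h
  refine LiftAt.mul hπ h𝔫 (InC.const hπ sW) (InC.sum hπ _ _ fun k _ => hu.pow hπ k)
    (LiftAt.const hπ h𝔫.ne_top sW) (LiftAt.sum hπ h𝔫 _ _ fun k _ => LiftAt.pow hπ h𝔫 hu hul k)

variable {W L F : Type*} [CommRing W] [IsDomain W] [IsNoetherianRing W]
  [UniqueFactorizationMonoid W] [Field L] [Algebra W L] [IsFractionRing W L] [CharZero L]
  [Field F] [Algebra L F] [Algebra W F] [IsScalarTower W L F]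

/-- **Roots of `1` modulo `π` are constant.**  If `y ^ s ≡ 1` modulo `π` (Gauss ring) and `y` is
locally liftable at every maximal ideal `𝔫 ∋ π` of both chart rings, then `y` is congruent modulo
`π` to an element integral over `W`. -/
theorem root_const (π : W) (hπ : Prime π) (j : F) (hj : Transcendental L j)
    [FiniteDimensional (IntermediateField.adjoin L {j}) F]
    (s : ℕ) (hs : s.Prime) (hsW : IsUnit (s : W)) (ζ : W) (hζ : IsPrimitiveRoot ζ s)
    (y : F) (hy : Cong π j (y ^ s) 1)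
    (hloc₁ : ∀ 𝔫 : Ideal (integralClosure (Algebra.adjoin W {j}) F), 𝔫.IsMaximal →
      (∀ r : integralClosure (Algebra.adjoin W {j}) F, (r : F) = algebraMap W F π → r ∈ 𝔫) →
      LiftAt π j 𝔫 y)
    (hloc₂ : ∀ 𝔫 : Ideal (integralClosure (Algebra.adjoin W {j⁻¹}) F), 𝔫.IsMaximal →
      (∀ r : integralClosure (Algebra.adjoin W {j⁻¹}) F, (r : F) = algebraMap W F π → r ∈ 𝔫) →
      LiftAt π j⁻¹ 𝔫 y) :
    ∃ c : F, IsIntegral W c ∧ Cong π j y c := by
  classical
  have hjW : Transcendental W j := transcendental_W hj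
  have hj0 : j ≠ 0 := ne_zero_of_transcendental hjW
  obtain ⟨sW, hsW'⟩ := hsW.exists_right_inv
  have hsF : (s : F) * algebraMap W F sW = 1 := by
    have := congrArg (algebraMap W F) hsW'
    rwa [map_mul, map_natCast, map_one] at this
  have hyC : InC π j y := InC.of_pow hs.pos (Cong.inC_left hπ (InC.one hπ) hy)
  -- the projectors
  obtain ⟨ε, hεdef⟩ : ∃ ε : ℕ → F, ∀ i, ε i =
      algebraMap W F sW * ∑ k ∈ Finset.range s, (algebraMap W F (ζ ^ i) * y) ^ k :=
    ⟨fun i => _, fun i => rfl⟩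
  have hus : ∀ i, (algebraMap W F (ζ ^ i) * y) ^ s = y ^ s := by
    intro i
    rw [mul_pow, ← map_pow, ← pow_mul, mul_comm i s, pow_mul, hζ.pow_eq_one, one_pow, map_one,
      one_mul]
  have huC : ∀ i, InC π j (algebraMap W F (ζ ^ i) * y) := fun i => (InC.const hπ _).mul hπ hyC
  have hεC : ∀ i, InC π j (ε i) := fun i => by
    rw [hεdef]
    exact (InC.const hπ sW).mul hπ (InC.sum hπ _ _ fun k _ => (huC i).pow hπ k)
  have hidem : ∀ i, Cong π j (ε i ^ 2) (ε i) := fun i => by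
    rw [hεdef]
    exact sheet_idem hπ hs.pos sW hsW' (by rw [hus]; exact hy)
  have hc : ∀ i, ∃ c : F, IsIntegral W c ∧ Cong π j c (ε i) := fun i =>
    const_of_liftable π hπ j hj (ε i) (hεC i) (hidem i)
      (fun 𝔫 h𝔫 hπ𝔫 => by
        rw [hεdef]
        exact liftAt_proj hπ h𝔫.isPrime hyC (hloc₁ 𝔫 h𝔫 hπ𝔫) sW _ s)
      (fun 𝔫 h𝔫 hπ𝔫 => by
        rw [hεdef]
        exact liftAt_proj hπ h𝔫.isPrime (hyC.to_inv hj0) (hloc₂ 𝔫 h𝔫 hπ𝔫) sW _ s)
  choose c hcI hcC using hc
  -- the projectors sum to one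
  have hA : ∑ i ∈ Finset.range s, ε i = 1 := by
    have h1 : ∀ i ∈ Finset.range s, ε i =
        ∑ k ∈ Finset.range s, algebraMap W F sW * (algebraMap W F ((ζ ^ i) ^ k) * y ^ k) := by
      intro i _
      rw [hεdef, Finset.mul_sum]
      refine Finset.sum_congr rfl fun k _ => ?_
      rw [mul_pow, ← map_pow]
    rw [Finset.sum_congr rfl h1, Finset.sum_comm]
    have h2 : ∀ k ∈ Finset.range s,
        ∑ i ∈ Finset.range s, algebraMap W F sW * (algebraMap W F ((ζ ^ i) ^ k) * y ^ k) =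
        if k = 0 then 1 else 0 := by
      intro k hk
      rw [← Finset.mul_sum, ← Finset.sum_mul, ← map_sum]
      split_ifs with hk0
      · subst hk0
        simp only [pow_zero, Finset.sum_const, Finset.card_range, nsmul_eq_mul, mul_one]
        rw [map_natCast, mul_comm]; exact hsF
      · rw [geom_sum_root_eq_zero hζ (Nat.pos_of_ne_zero hk0) (Finset.mem_range.mp hk), map_zero,
          zero_mul, mul_zero]
    rw [Finset.sum_congr rfl h2, Finset.sum_ite_eq' (Finset.range s) 0 (fun _ => (1 : F)),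
      if_pos (Finset.mem_range.mpr hs.pos)]
  -- `y * ε i ≡ ζ ^ (s - i) * ε i`
  have hB : ∀ i ∈ Finset.range s, Cong π j (y * ε i) (algebraMap W F (ζ ^ (s - i)) * ε i) := by
    intro i hi
    have hi' : i < s := Finset.mem_range.mp hi
    obtain ⟨c₀, hc₀, hyc⟩ := hy
    have hgeo := geom_sum_mul (algebraMap W F (ζ ^ i) * y) s
    rw [hus] at hgeo
    have h1 : Cong π j (algebraMap W F (ζ ^ i) * y * ε i) (ε i) := by
      refine ⟨algebraMap W F sW * c₀, (InC.const hπ sW).mul hπ hc₀, ?_⟩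
      rw [hεdef]
      linear_combination (algebraMap W F sW) * hgeo + (algebraMap W F sW) * hyc
    have h2 := Cong.mul_left hπ (InC.const hπ (x := j) (ζ ^ (s - i))) h1
    have h3 : algebraMap W F (ζ ^ (s - i)) * algebraMap W F (ζ ^ i) = 1 := by
      rw [← map_mul, ← pow_add, Nat.sub_add_cancel hi'.le, hζ.pow_eq_one, map_one]
    have h4 : algebraMap W F (ζ ^ (s - i)) * (algebraMap W F (ζ ^ i) * y * ε i) = y * ε i := by
      linear_combination (y * ε i) * h3
    rwa [h4] at h2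
  refine ⟨∑ i ∈ Finset.range s, algebraMap W F (ζ ^ (s - i)) * c i,
    IsIntegral.sum _ fun i _ => (isIntegral_algebraMap).mul (hcI i), ?_⟩
  have hy1 : y = ∑ i ∈ Finset.range s, y * ε i := by
    rw [← Finset.mul_sum, hA, mul_one]
  rw [hy1]
  refine Cong.sum hπ _ _ _ fun i hi => ?_
  exact (hB i hi).trans hπ (Cong.mul_left hπ (InC.const hπ _) (hcC i).symm)

end Root


section Main

theorem isIntegral_mul_of_pow {A F : Type*} [CommRing A] [Field F] [Algebra A F] {s : ℕ}
    (hs : 0 < s) {d z : F} (hd : IsIntegral A d) (h : IsIntegral A (d * z ^ s)) :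
    IsIntegral A (d * z) := by
  refine IsIntegral.of_pow hs ?_
  have : (d * z) ^ s = d ^ (s - 1) * (d * z ^ s) := by
    rw [mul_pow]; exact (pow_pred_mul hs d (z ^ s)).symm
  rw [this]
  exact (hd.pow _).mul h

variable {W L F : Type*} [CommRing W] [IsDomain W] [IsNoetherianRing W]
  [UniqueFactorizationMonoid W] [Field L] [Algebra W L] [IsFractionRing W L] [CharZero L]
  [Field F] [Algebra L F] [Algebra W F] [IsScalarTower W L F]

/-- constants: an element of `F` integral over `W` comes from `W` when `L` is algebraically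
closed in `F`. -/
theorem exists_const (hconst : ∀ c : F, IsAlgebraic L c → ∃ a : L, algebraMap L F a = c) {a : F}
    (ha : IsIntegral W a) : ∃ a₀ : W, algebraMap W F a₀ = a := by
  obtain ⟨l, hl⟩ := hconst a (ha.tower_top (A := L)).isAlgebraic
  have hlI : IsIntegral W l := by
    rw [← hl] at ha
    exact (isIntegral_algebraMap_iff (algebraMap L F).injective).mp ha
  obtain ⟨a₀, ha₀⟩ := IsIntegrallyClosed.isIntegral_iff.mp hlI
  exact ⟨a₀, by rw [IsScalarTower.algebraMap_apply W L F, ha₀, hl]⟩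

theorem isIntegral_adjoin_const (x₀ : F) (a : W) :
    IsIntegral (Algebra.adjoin W {x₀}) (algebraMap W F a) :=
  isIntegral_adjoin_of_isInt x₀ (IsInt.const a)

/-- **The Kummer descent (abstract induction of package B5).**

`w ≡ 1` modulo `π` on the Gauss ring; at every maximal ideal `𝔫 ∋ π` of both chart rings there is
`g ≡ 1` modulo `π` such that `w * g ^ (s ^ n)` is integral at `𝔫`.  Then `w = a * h ^ (s ^ n)`
with `a ∈ W` nonzero.

Extra hypotheses: `W` is a discrete valuation ring (`hunit`), `L` is algebraically closed in `F`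
(`hconst`), the residue field of `W` is closed under `s`-th roots (`hroot`), and `π` is unramified
in the Gauss ring (`hram`: if `π ^ k * y ^ s` is a unit of the Gauss closure then `s ∣ k`). -/
theorem kummer_descent (π : W) (hπ : Prime π) (j : F) (hj : Transcendental L j)
    [FiniteDimensional (IntermediateField.adjoin L {j}) F]
    (s : ℕ) (hs : s.Prime) (hsW : IsUnit (s : W)) (ζ : W) (hζ : IsPrimitiveRoot ζ s)
    (hunit : ∀ a : W, ¬ π ∣ a → IsUnit a)
    (hconst : ∀ c : F, IsAlgebraic L c → ∃ a : L, algebraMap L F a = c)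
    (hroot : ∀ a : W, ¬ π ∣ a → ∃ c : W, π ∣ c ^ s - a)
    (hram : ∀ (k : ℕ) (y : F), y ≠ 0 → InC π j (algebraMap W F π ^ k * y ^ s) →
      InC π j (algebraMap W F π ^ k * y ^ s)⁻¹ → s ∣ k)
    (n : ℕ) (w : F) (hw : GaussOne π j w)
    (hloc₁ : ∀ 𝔫 : Ideal (integralClosure (Algebra.adjoin W {j}) F), 𝔫.IsMaximal →
      (∀ r : integralClosure (Algebra.adjoin W {j}) F, (r : F) = algebraMap W F π → r ∈ 𝔫) →
      ∃ g : F, GaussOne π j g ∧ ∃ d : integralClosure (Algebra.adjoin W {j}) F, d ∉ 𝔫 ∧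
        IsIntegral (Algebra.adjoin W {j}) ((d : F) * (w * g ^ (s ^ n))))
    (hloc₂ : ∀ 𝔫 : Ideal (integralClosure (Algebra.adjoin W {j⁻¹}) F), 𝔫.IsMaximal →
      (∀ r : integralClosure (Algebra.adjoin W {j⁻¹}) F, (r : F) = algebraMap W F π → r ∈ 𝔫) →
      ∃ g : F, GaussOne π j g ∧ ∃ d : integralClosure (Algebra.adjoin W {j⁻¹}) F, d ∉ 𝔫 ∧
        IsIntegral (Algebra.adjoin W {j⁻¹}) ((d : F) * (w * g ^ (s ^ n)))) :
    ∃ (a : W) (h : F), a ≠ 0 ∧ w = algebraMap W F a * h ^ (s ^ n) := by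
  classical
  have hWF : Function.Injective (algebraMap W F) := algebraMap_injective_WF W L F
  have hπF : algebraMap W F π ≠ 0 := by
    rw [Ne, ← map_zero (algebraMap W F)]
    exact fun h => hπ.ne_zero (hWF h)
  have hjW : Transcendental W j := transcendental_W hj
  have hj0 : j ≠ 0 := ne_zero_of_transcendental hjW
  have hnot1 : ¬ Cong π j (1 : F) 0 := by
    rintro ⟨c, hc, h⟩
    exact not_inC_of_one_eq hπ hjW hc (by rw [← h, sub_zero])
  induction n generalizing w with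
  | zero => exact ⟨1, w, one_ne_zero, by rw [map_one, one_mul, pow_zero, pow_one]⟩
  | succ n ih =>
    have hwc : Cong π j w 1 := (gaussOne_iff_cong hπF).mp hw
    have hwC : InC π j w := Cong.inC_left hπ (InC.one hπ) hwc
    have hw0 : w ≠ 0 := by
      rintro rfl
      exact hnot1 hwc.symm
    have hgpow : ∀ (g : F) (m : ℕ), GaussOne π j g → GaussOne π j (g ^ m) := by
      intro g m hg
      have hgc : Cong π j g 1 := (gaussOne_iff_cong hπF).mp hg
      have := Cong.pow hπ (Cong.inC_left hπ (InC.one hπ) hgc) hgc m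
      rw [one_pow] at this
      exact (gaussOne_iff_cong hπF).mpr this
    -- the Kummer step
    obtain ⟨a, h, ha0, haI, hwah⟩ := kummer_step π hπ j hj s hs hsW ζ hζ w hw
      (fun 𝔫 h𝔫 hπ𝔫 => by
        obtain ⟨g, hg, d, hd, hi⟩ := hloc₁ 𝔫 h𝔫 hπ𝔫
        exact ⟨g ^ (s ^ n), hgpow g _ hg, d, hd, by rwa [← pow_mul, ← pow_succ]⟩)
      (fun 𝔫 h𝔫 hπ𝔫 => by
        obtain ⟨g, hg, d, hd, hi⟩ := hloc₂ 𝔫 h𝔫 hπ𝔫
        exact ⟨g ^ (s ^ n), hgpow g _ hg, d, hd, by rwa [← pow_mul, ← pow_succ]⟩)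
    have hh0 : h ≠ 0 := by
      rintro rfl
      rw [zero_pow hs.ne_zero, mul_zero] at hwah
      exact hw0 hwah
    -- the constant `a`
    obtain ⟨a₀, rfl⟩ := exists_const hconst haI
    have ha₀ : a₀ ≠ 0 := fun h0 => ha0 (by rw [h0, map_zero])
    obtain ⟨k, υ, hυ, rfl⟩ := WfDvdMonoid.max_power_factor ha₀ hπ.irreducible
    obtain ⟨υ₁, hυ₁⟩ := (hunit υ hυ).exists_right_inv
    have hUU : algebraMap W F υ * algebraMap W F υ₁ = 1 := by
      rw [← map_mul, hυ₁, map_one]
    have hPh : algebraMap W F π ^ k * h ^ s = algebraMap W F υ₁ * w := by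
      rw [hwah, map_mul, map_pow]
      linear_combination (-(algebraMap W F π ^ k * h ^ s)) * hUU
    obtain ⟨m, rfl⟩ : s ∣ k := by
      refine hram k h hh0 ?_ ?_
      · rw [hPh]; exact (InC.const hπ υ₁).mul hπ hwC
      · have : (algebraMap W F π ^ k * h ^ s)⁻¹ = algebraMap W F υ * w⁻¹ := by
          rw [hPh, mul_inv, inv_eq_of_mul_eq_one_left hUU]
        rw [this]
        exact (InC.const hπ υ).mul hπ (inC_inv_of_cong_one hπ hwc)
    -- the residue root
    obtain ⟨c, t, hct⟩ := hroot υ hυ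
    have hcπ : ¬ π ∣ c := by
      intro hdvd
      apply hυ
      have h1 : π ∣ c ^ s := dvd_pow hdvd hs.ne_zero
      have h2 : υ = c ^ s - π * t := by rw [← hct]; ring
      rw [h2]
      exact dvd_sub h1 (dvd_mul_right π t)
    obtain ⟨c₄, hc₄⟩ := (hunit c hcπ).exists_right_inv
    have hCC : algebraMap W F c * algebraMap W F c₄ = 1 := by
      rw [← map_mul, hc₄, map_one]
    have hCT : algebraMap W F c ^ s - algebraMap W F υ = algebraMap W F π * algebraMap W F t := by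
      rw [← map_pow, ← map_sub, hct, map_mul]
    obtain ⟨y, hydef⟩ : ∃ y : F, y = algebraMap W F c * algebraMap W F π ^ m * h := ⟨_, rfl⟩
    have hy_pow : y ^ s = algebraMap W F (c ^ s * υ₁) * w := by
      rw [hydef, mul_pow, mul_pow, ← pow_mul, mul_comm m s, mul_assoc, hPh, map_mul, map_pow]
      ring
    have hyc : Cong π j (y ^ s) 1 := by
      refine Cong.trans hπ ⟨algebraMap W F (t * υ₁) * w, (InC.const hπ _).mul hπ hwC, ?_⟩ hwc
      rw [hy_pow, map_mul, map_mul, map_pow]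
      linear_combination (algebraMap W F υ₁ * w) * hCT + w * hUU
    have hyC : InC π j y := InC.of_pow hs.pos (Cong.inC_left hπ (InC.one hπ) hyc)
    -- integrality at `𝔫` of `y * g ^ (s ^ n)`
    have hkey : ∀ (x₀ : F) (d : integralClosure (Algebra.adjoin W {x₀}) F) (g : F),
        IsIntegral (Algebra.adjoin W {x₀}) ((d : F) * (w * g ^ (s ^ (n + 1)))) →
        IsIntegral (Algebra.adjoin W {x₀}) ((d : F) * (y * g ^ (s ^ n))) := by
      intro x₀ d g hi
      refine isIntegral_mul_of_pow hs.pos d.2 ?_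
      have : (d : F) * (y * g ^ (s ^ n)) ^ s =
          algebraMap W F (c ^ s * υ₁) * ((d : F) * (w * g ^ (s ^ (n + 1)))) := by
        rw [mul_pow, hy_pow, ← pow_mul, ← pow_succ]; ring
      rw [this]
      exact (isIntegral_adjoin_const x₀ _).mul hi
    have hcongg : ∀ g : F, GaussOne π j g → Cong π j y (y * g ^ (s ^ n)) := by
      intro g hg
      have h1 : Cong π j (g ^ (s ^ n)) 1 := (gaussOne_iff_cong hπF).mp (hgpow g _ hg)
      have h2 := Cong.mul_left hπ hyC h1.symm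
      rwa [mul_one] at h2
    -- `y` is congruent to a constant
    obtain ⟨c₂, hc₂I, hc₂⟩ := root_const π hπ j hj s hs hsW ζ hζ y hyc
      (fun 𝔫 h𝔫 hπ𝔫 => by
        obtain ⟨g, hg, d, hd, hi⟩ := hloc₁ 𝔫 h𝔫 hπ𝔫
        exact ⟨y * g ^ (s ^ n), hcongg g hg, d, hd, hkey j d g hi⟩)
      (fun 𝔫 h𝔫 hπ𝔫 => by
        obtain ⟨g, hg, d, hd, hi⟩ := hloc₂ 𝔫 h𝔫 hπ𝔫
        exact ⟨y * g ^ (s ^ n), (hcongg g hg).to_inv hj0, d, hd, hkey j⁻¹ d g hi⟩)
    obtain ⟨c₂', rfl⟩ := exists_const hconst hc₂I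
    have hc₂π : ¬ π ∣ c₂' := by
      rintro ⟨q, rfl⟩
      have h1 : Cong π j (algebraMap W F (π * q)) 0 :=
        ⟨algebraMap W F q, InC.const hπ q, by rw [sub_zero, map_mul]⟩
      have h2 : Cong π j y 0 := hc₂.trans hπ h1
      have h3 := Cong.pow hπ hyC h2 s
      rw [zero_pow hs.ne_zero] at h3
      exact hnot1 (hyc.symm.trans hπ h3)
    obtain ⟨c₃, hc₃⟩ := (hunit c₂' hc₂π).exists_right_inv
    have hC23 : algebraMap W F c₂' * algebraMap W F c₃ = 1 := by
      rw [← map_mul, hc₃, map_one]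
    obtain ⟨w', hw'def⟩ : ∃ w' : F, w' = algebraMap W F c₃ * y := ⟨_, rfl⟩
    have hw'c : Cong π j w' 1 := by
      have h1 := Cong.mul_left hπ (InC.const hπ (x := j) c₃) hc₂
      rw [mul_comm (algebraMap W F c₃) (algebraMap W F c₂'), hC23, ← hw'def] at h1
      exact h1
    have hw' : GaussOne π j w' := (gaussOne_iff_cong hπF).mpr hw'c
    have hkey' : ∀ (x₀ : F) (d : integralClosure (Algebra.adjoin W {x₀}) F) (g : F),
        IsIntegral (Algebra.adjoin W {x₀}) ((d : F) * (w * g ^ (s ^ (n + 1)))) →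
        IsIntegral (Algebra.adjoin W {x₀}) ((d : F) * (w' * g ^ (s ^ n))) := by
      intro x₀ d g hi
      have : (d : F) * (w' * g ^ (s ^ n)) = algebraMap W F c₃ * ((d : F) * (y * g ^ (s ^ n))) := by
        rw [hw'def]; ring
      rw [this]
      exact (isIntegral_adjoin_const x₀ _).mul (hkey x₀ d g hi)
    -- induction hypothesis
    obtain ⟨a', h', ha', hw'eq⟩ := ih w' hw'
      (fun 𝔫 h𝔫 hπ𝔫 => by
        obtain ⟨g, hg, d, hd, hi⟩ := hloc₁ 𝔫 h𝔫 hπ𝔫
        exact ⟨g, hg, d, hd, hkey' j d g hi⟩)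
      (fun 𝔫 h𝔫 hπ𝔫 => by
        obtain ⟨g, hg, d, hd, hi⟩ := hloc₂ 𝔫 h𝔫 hπ𝔫
        exact ⟨g, hg, d, hd, hkey' j⁻¹ d g hi⟩)
    have hυ0 : υ ≠ 0 := fun h0 => hυ (h0 ▸ dvd_zero π)
    have hc₂0 : c₂' ≠ 0 := fun h0 => hc₂π (h0 ▸ dvd_zero π)
    have hc₄0 : c₄ ≠ 0 := by
      rintro rfl
      rw [mul_zero] at hc₄
      exact zero_ne_one hc₄
    refine ⟨υ * c₂' ^ s * c₄ ^ s * a' ^ s, h',
      mul_ne_zero (mul_ne_zero (mul_ne_zero hυ0 (pow_ne_zero s hc₂0)) (pow_ne_zero s hc₄0))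
        (pow_ne_zero s ha'), ?_⟩
    have e1 : y = algebraMap W F c₂' * w' := by
      rw [hw'def]; linear_combination (-y) * hC23
    have e2 : w = algebraMap W F υ * algebraMap W F c₄ ^ s * y ^ s := by
      rw [hy_pow, map_mul, map_pow]
      have e3 : (algebraMap W F c * algebraMap W F c₄) ^ s = 1 := by rw [hCC, one_pow]
      rw [mul_pow] at e3
      linear_combination (-w) * hUU - (algebraMap W F υ * algebraMap W F υ₁ * w) * e3
    rw [e2, e1, hw'eq, pow_succ, pow_mul]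
    simp only [map_mul, map_pow]
    ring

end Main


section Aux

/-- the hypothesis `hram` of `kummer_descent` from an integer valued "valuation" `v` on `F` with
`v π = 1` which is nonnegative on the Gauss-integral elements. -/
theorem hram_of_val {W F : Type*} [CommRing W] [IsDomain W] [Field F] [Algebra W F] {π : W}
    {j : F} {s : ℕ} (v : F → ℤ)
    (hvmul : ∀ a b : F, a ≠ 0 → b ≠ 0 → v (a * b) = v a + v b)
    (hvπ : v (algebraMap W F π) = 1)
    (hvC : ∀ c : F, c ≠ 0 → InC π j c → 0 ≤ v c)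
    (hπF : algebraMap W F π ≠ 0) :
    ∀ (k : ℕ) (y : F), y ≠ 0 → InC π j (algebraMap W F π ^ k * y ^ s) →
      InC π j (algebraMap W F π ^ k * y ^ s)⁻¹ → s ∣ k := by
  intro k y hy h1 h2
  have hv1 : v 1 = 0 := by
    have := hvmul 1 1 one_ne_zero one_ne_zero
    rw [mul_one] at this
    linarith
  have hvpow : ∀ (a : F), a ≠ 0 → ∀ n : ℕ, v (a ^ n) = n * v a := by
    intro a ha n
    induction n with
    | zero => rw [pow_zero, hv1, Nat.cast_zero, zero_mul]
    | succ n ih =>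
      rw [pow_succ, hvmul _ _ (pow_ne_zero n ha) ha, ih, Nat.cast_succ]; ring
  have hu0 : algebraMap W F π ^ k * y ^ s ≠ 0 :=
    mul_ne_zero (pow_ne_zero k hπF) (pow_ne_zero s hy)
  have h3 := hvC _ hu0 h1
  have h4 := hvC _ (inv_ne_zero hu0) h2
  have h5 := hvmul _ _ hu0 (inv_ne_zero hu0)
  rw [mul_inv_cancel₀ hu0, hv1] at h5
  have h6 : v (algebraMap W F π ^ k * y ^ s) = 0 := by linarith
  rw [hvmul _ _ (pow_ne_zero k hπF) (pow_ne_zero s hy), hvpow _ hπF, hvpow _ hy, hvπ,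
    mul_one] at h6
  have h7 : (s : ℤ) ∣ (k : ℤ) := ⟨-v y, by linarith⟩
  exact Int.natCast_dvd_natCast.mp h7

/-- the hypothesis `hroot` of `kummer_descent` for a local ring with principal maximal ideal and
algebraically closed residue field. -/
theorem hroot_of_isAlgClosed {W : Type*} [CommRing W] [IsLocalRing W]
    [IsAlgClosed (IsLocalRing.ResidueField W)] (π : W)
    (hmax : IsLocalRing.maximalIdeal W = Ideal.span {π}) (s : ℕ) (hs : 0 < s) (a : W) :
    ∃ c : W, π ∣ c ^ s - a := by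
  obtain ⟨z, hz⟩ := IsAlgClosed.exists_pow_nat_eq (IsLocalRing.residue W a) hs
  obtain ⟨c, rfl⟩ := IsLocalRing.residue_surjective z
  refine ⟨c, ?_⟩
  have h0 : IsLocalRing.residue W (c ^ s - a) = 0 := by rw [map_sub, map_pow, hz, sub_self]
  have h1 : c ^ s - a ∈ IsLocalRing.maximalIdeal W := (IsLocalRing.residue_eq_zero_iff _).mp h0
  rw [hmax] at h1
  exact Ideal.mem_span_singleton.mp h1

/-- the hypothesis `hunit` of `kummer_descent` for a discrete valuation ring. -/
theorem isUnit_of_not_dvd_dvr {W : Type*} [CommRing W] [IsDomain W] [IsDiscreteValuationRing W]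
    {π : W} (hπ : Irreducible π) (a : W) (h : ¬ π ∣ a) : IsUnit a := by
  by_contra hu
  have h1 : a ∈ IsLocalRing.maximalIdeal W := (IsLocalRing.mem_maximalIdeal a).mpr hu
  rw [hπ.maximalIdeal_eq] at h1
  exact h (Ideal.mem_span_singleton.mp h1)

end Aux

end Fermat.Agent.S34.KummerInd
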