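/-
S34 (long shot, wave 6, blueprint findings 202), package B5, INSTANCE ASSEMBLY (helper13).

`dvrCoreG_of_contracts`: the DVR-level core `GDescent.DvrCoreG (M * q) p q A τ` of (G)
(`q ∤ M` prime, `p ≠ q` prime, `τ` in the inertia group of `A ∣ q`) from FOUR level contracts:

* `V3aContract M q A`      : a function whose `q`-expansion and whose Atkin–Lehner transform have
                             `W`-integral `q`-expansions is Gauss-integral over `W[j]`   (B1, (V3a));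
* `RamContract M q p A`    : `π` is a uniformiser of the Gauss ring (`hram` of `kummer_descent`)
                                                                                        (B1, (V0));
* `LocContract₁ M q p A τ` : local datum at every closed point of the special fibre of the finite
                             chart (B2 + B3 + B4 + Hartogs);
* `LocContract₂ M q p A τ` : the same at the cusps of the chart `W[1/j]`.

The proof is `KummerInd.kummer_descent` (helper3) for `w = (τ - 1)² fL`, `s = p`, with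
`ChartTransfer.exists_of_chart₁` (helper8) for the non-cuspidal points of the second chart,
`DDGauss.gaussOne_dd_level` (helper20) for `w ≡ 1` and `g ≡ 1`, `ConstClosed.hconst_FF`
(helper16) for the constants, and `GPush.dvrCoreG_of_level` (helper18) for the push-up.
-/
import Mathlib
import Fermat.Agent.S34.KummerInd
import Fermat.Agent.S34.ChartTransfer
import Fermat.Agent.S34.ConstClosed
import Fermat.Agent.S34.DDGauss
import Fermat.Agent.S34.GPush
import Fermat.Agent.S18.GaussDegree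
import Fermat.Agent.S18.RamJIdeal
import Fermat.Agent.S18.TopReduction
import Fermat.Agent.S18.BaseDVR

set_option autoImplicit false
set_option linter.style.haveILetI false

noncomputable section

namespace Fermat.Agent.S34.GAsm

open Polynomial ModularCurve AlgebraicCurve Fermat.Agent.S18 Fermat.Agent.S18.Endgame
open Fermat.Agent.S34.KummerStep Fermat.Agent.S34.GDescent Fermat.Agent.S37

local notation "Qb" => AlgebraicClosure ℚ

/-! ### The four level contracts -/

/-- **(V3a)**: at every (sufficiently large, Galois-stable) level, an element of `F_{Mq,L}` whose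
`q`-expansion and whose Atkin–Lehner transform have `W`-integral `q`-expansions is integral over
the Gauss ring `W[j]_(π)` (`InC` currency of `S18.Endgame`). -/
def V3aContract (M q : ℕ) [NeZero M] [NeZero q] (A : ValuationSubring Qb) : Prop :=
  ∃ S₀ : Finset Qb, ∀ (L : Type) [Field L] [Algebra ℚ L] (ι : L →+* Qb),
    LevelChange.IsLevel A q S₀ ι → GalLevel.IsStable ι →
    ∀ ϖ : ↥(A.comap ι), Irreducible ϖ →
    ∀ w : S24.FF L (M * q) ≃ₐ[L] S24.FF L (M * q),
      (w : S24.FF L (M * q) →ₐ[L] S24.FF L (M * q)).comp (heckeAlphaBar L M q) =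
        heckeBetaBar L M q →
      (w : S24.FF L (M * q) →ₐ[L] S24.FF L (M * q)).comp (heckeBetaBar L M q) =
        heckeAlphaBar L M q →
    ∀ x : S24.FF L (M * q), (x : LaurentSeries L) ∈ Gauss.contentRing (A.comap ι) →
      ((w x : S24.FF L (M * q)) : LaurentSeries L) ∈ Gauss.contentRing (A.comap ι) →
      InC ϖ (S24.jBC L (M * q)) x

/-- **(RAM)**: `π` is a uniformiser of the Gauss ring: a Gauss unit of the form `π ^ k * y ^ p`
has `p ∣ k` (the hypothesis `hram` of `KummerInd.kummer_descent`; see `KummerInd.hram_of_val`). -/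
def RamContract (M q p : ℕ) [NeZero M] [NeZero q] (A : ValuationSubring Qb) : Prop :=
  ∃ S₀ : Finset Qb, ∀ (L : Type) [Field L] [Algebra ℚ L] (ι : L →+* Qb),
    LevelChange.IsLevel A q S₀ ι → GalLevel.IsStable ι →
    ∀ ϖ : ↥(A.comap ι), Irreducible ϖ →
    ∀ (k : ℕ) (y : S24.FF L (M * q)), y ≠ 0 →
      InC ϖ (S24.jBC L (M * q))
        (algebraMap ↥(A.comap ι) (S24.FF L (M * q)) ϖ ^ k * y ^ p) →
      InC ϖ (S24.jBC L (M * q))
        (algebraMap ↥(A.comap ι) (S24.FF L (M * q)) ϖ ^ k * y ^ p)⁻¹ → p ∣ k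

/-- **(LOC₁)**: the local datum on the finite chart.  For `div f = p ^ n • D`, at every level
where `f = bc fL` and the support of `D` is rational, and at every maximal ideal `𝔫 ∋ π` of the
chart ring `B₁` (the integral closure of `W[j]` in `F_{Mq,L}`) there is `h ≠ 0` (a local equation
at `𝔫` of the part of `D` not fixed by `τ`) such that `(τ - 1)² (fL / h ^ (p ^ n))` is integral
at `𝔫`: `d * (τ - 1)² (fL / h ^ (p ^ n)) ∈ B₁` for some `d ∈ B₁ ∖ 𝔫`. -/
def LocContract₁ (M q p : ℕ) [NeZero M] [NeZero q] (A : ValuationSubring Qb)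
    (τ : Qb ≃ₐ[ℚ] Qb) : Prop :=
  ∀ (n : ℕ) (D : Divisor Qb (modularFunctionFieldBar (M * q)))
    (f : modularFunctionFieldBar (M * q)), f ≠ 0 →
    (∀ P : Place Qb (modularFunctionFieldBar (M * q)), P.ord f = (p : ℤ) ^ n * D P) →
    ∃ S₀ : Finset Qb, ∀ (L : Type) [Field L] [Algebra ℚ L] (ι : L →+* Qb),
      LevelChange.IsLevel A q S₀ ι → GalLevel.IsStable ι →
      ∀ fL : S24.FF L (M * q),
        S24.CoeffBC.bc ι (modularFunctionFieldFull (M * q)) fL = f →
      (∀ P : Place Qb (modularFunctionFieldBar (M * q)), D P ≠ 0 → RatAtLevel (M * q) ι P) →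
      ∀ ϖ : ↥(A.comap ι), Irreducible ϖ →
      ∀ s : L ≃+* L, (∀ c : L, ι (s c) = τ (ι c)) →
      ∀ 𝔫 : Ideal (integralClosure (Algebra.adjoin ↥(A.comap ι) {S24.jBC L (M * q)})
          (S24.FF L (M * q))), 𝔫.IsMaximal →
        (∀ r : integralClosure (Algebra.adjoin ↥(A.comap ι) {S24.jBC L (M * q)})
            (S24.FF L (M * q)),
          (r : S24.FF L (M * q)) = algebraMap ↥(A.comap ι) (S24.FF L (M * q)) ϖ → r ∈ 𝔫) →
        ∃ h : S24.FF L (M * q), h ≠ 0 ∧
          ∃ d : integralClosure (Algebra.adjoin ↥(A.comap ι) {S24.jBC L (M * q)})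
              (S24.FF L (M * q)), d ∉ 𝔫 ∧
            IsIntegral (Algebra.adjoin ↥(A.comap ι) {S24.jBC L (M * q)})
              ((d : S24.FF L (M * q)) * DDGauss.dd (M * q) s (fL / h ^ (p ^ n)))

/-- **(LOC₂)**: the local datum at the cusps of the chart `W[1/j]`: the same statement for the
integral closure `B₂` of `W[1/j]`, only at the maximal ideals containing `π` and `1/j`. -/
def LocContract₂ (M q p : ℕ) [NeZero M] [NeZero q] (A : ValuationSubring Qb)
    (τ : Qb ≃ₐ[ℚ] Qb) : Prop :=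
  ∀ (n : ℕ) (D : Divisor Qb (modularFunctionFieldBar (M * q)))
    (f : modularFunctionFieldBar (M * q)), f ≠ 0 →
    (∀ P : Place Qb (modularFunctionFieldBar (M * q)), P.ord f = (p : ℤ) ^ n * D P) →
    ∃ S₀ : Finset Qb, ∀ (L : Type) [Field L] [Algebra ℚ L] (ι : L →+* Qb),
      LevelChange.IsLevel A q S₀ ι → GalLevel.IsStable ι →
      ∀ fL : S24.FF L (M * q),
        S24.CoeffBC.bc ι (modularFunctionFieldFull (M * q)) fL = f →
      (∀ P : Place Qb (modularFunctionFieldBar (M * q)), D P ≠ 0 → RatAtLevel (M * q) ι P) →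
      ∀ ϖ : ↥(A.comap ι), Irreducible ϖ →
      ∀ s : L ≃+* L, (∀ c : L, ι (s c) = τ (ι c)) →
      ∀ 𝔫 : Ideal (integralClosure (Algebra.adjoin ↥(A.comap ι) {(S24.jBC L (M * q))⁻¹})
          (S24.FF L (M * q))), 𝔫.IsMaximal →
        (∀ r : integralClosure (Algebra.adjoin ↥(A.comap ι) {(S24.jBC L (M * q))⁻¹})
            (S24.FF L (M * q)),
          (r : S24.FF L (M * q)) = algebraMap ↥(A.comap ι) (S24.FF L (M * q)) ϖ → r ∈ 𝔫) →
        (∀ r : integralClosure (Algebra.adjoin ↥(A.comap ι) {(S24.jBC L (M * q))⁻¹})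
            (S24.FF L (M * q)),
          (r : S24.FF L (M * q)) = (S24.jBC L (M * q))⁻¹ → r ∈ 𝔫) →
        ∃ h : S24.FF L (M * q), h ≠ 0 ∧
          ∃ d : integralClosure (Algebra.adjoin ↥(A.comap ι) {(S24.jBC L (M * q))⁻¹})
              (S24.FF L (M * q)), d ∉ 𝔫 ∧
            IsIntegral (Algebra.adjoin ↥(A.comap ι) {(S24.jBC L (M * q))⁻¹})
              ((d : S24.FF L (M * q)) * DDGauss.dd (M * q) s (fL / h ^ (p ^ n)))

/-! ### The Kummer descent at one level -/

section Generic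

variable {L : Type} [Field L] [Algebra ℚ L]

theorem isScalarTower_W (W : ValuationSubring L) (N : ℕ) :
    IsScalarTower ↥W L (S24.FF L N) :=
  IsScalarTower.of_algebraMap_eq (fun _ => rfl)

/-- `p` is a unit of a local ring whose residue field has characteristic `q ≠ p`. -/
theorem isUnit_natCast_of_charP {W : Type*} [CommRing W] [IsLocalRing W] {q p : ℕ}
    [CharP (IsLocalRing.ResidueField W) q] (hq : q.Prime) (hp : p.Prime) (hpq : p ≠ q) :
    IsUnit ((p : ℕ) : W) := by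
  by_contra hu
  have h1 : ((p : ℕ) : W) ∈ IsLocalRing.maximalIdeal W := (IsLocalRing.mem_maximalIdeal _).mpr hu
  have h2 : IsLocalRing.residue W ((p : ℕ) : W) = 0 := (IsLocalRing.residue_eq_zero_iff _).mpr h1
  rw [map_natCast] at h2
  have h3 : q ∣ p := (CharP.cast_eq_zero_iff (IsLocalRing.ResidueField W) q p).mp h2
  exact hpq ((Nat.prime_dvd_prime_iff_eq hq hp).mp h3).symm

set_option maxHeartbeats 1600000 in
-- the instance `Algebra ↥W (FF L N)` is found slowly (0.5 s per occurrence)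
/-- **The Kummer descent over a discrete valuation ring `W` of the coefficient field**: if every
double difference is `≡ 1` on the Gauss ring (`hG`), `π` is a uniformiser of the Gauss ring
(`hR`) and the local data exist (`h₁` on the finite chart, `h₂` at the cusps), then
`(τ - 1)² fL = a * h ^ (p ^ n)` with a nonzero constant `a`. -/
theorem exists_eq_const_mul_pow_W (ι : L →+* Qb) (W : ValuationSubring L)
    [IsDiscreteValuationRing ↥W] [IsAlgClosed (IsLocalRing.ResidueField ↥W)]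
    (N : ℕ) [NeZero N] (p : ℕ) (hp : p.Prime) (hpW : IsUnit ((p : ℕ) : ↥W))
    (ζ : ↥W) (hζ : IsPrimitiveRoot ζ p) (ϖ : ↥W) (hϖ : Irreducible ϖ) (s : L ≃+* L)
    (hG : ∀ f : S24.FF L N, f ≠ 0 → GaussOne ϖ (S24.jBC L N) (DDGauss.dd N s f))
    (hR : ∀ (k : ℕ) (y : S24.FF L N), y ≠ 0 →
      InC ϖ (S24.jBC L N) (algebraMap ↥W (S24.FF L N) ϖ ^ k * y ^ p) →
      InC ϖ (S24.jBC L N) (algebraMap ↥W (S24.FF L N) ϖ ^ k * y ^ p)⁻¹ → p ∣ k)
    (n : ℕ) (fL : S24.FF L N) (hfL : fL ≠ 0)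
    (h₁ : ∀ 𝔫 : Ideal (integralClosure (Algebra.adjoin ↥W {S24.jBC L N}) (S24.FF L N)),
        𝔫.IsMaximal →
        (∀ r : integralClosure (Algebra.adjoin ↥W {S24.jBC L N}) (S24.FF L N),
          (r : S24.FF L N) = algebraMap ↥W (S24.FF L N) ϖ → r ∈ 𝔫) →
        ∃ h : S24.FF L N, h ≠ 0 ∧
          ∃ d : integralClosure (Algebra.adjoin ↥W {S24.jBC L N}) (S24.FF L N), d ∉ 𝔫 ∧
            IsIntegral (Algebra.adjoin ↥W {S24.jBC L N})
              ((d : S24.FF L N) * DDGauss.dd N s (fL / h ^ (p ^ n))))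
    (h₂ : ∀ 𝔫 : Ideal (integralClosure (Algebra.adjoin ↥W {(S24.jBC L N)⁻¹}) (S24.FF L N)),
        𝔫.IsMaximal →
        (∀ r : integralClosure (Algebra.adjoin ↥W {(S24.jBC L N)⁻¹}) (S24.FF L N),
          (r : S24.FF L N) = algebraMap ↥W (S24.FF L N) ϖ → r ∈ 𝔫) →
        (∀ r : integralClosure (Algebra.adjoin ↥W {(S24.jBC L N)⁻¹}) (S24.FF L N),
          (r : S24.FF L N) = (S24.jBC L N)⁻¹ → r ∈ 𝔫) →
        ∃ h : S24.FF L N, h ≠ 0 ∧
          ∃ d : integralClosure (Algebra.adjoin ↥W {(S24.jBC L N)⁻¹}) (S24.FF L N), d ∉ 𝔫 ∧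
            IsIntegral (Algebra.adjoin ↥W {(S24.jBC L N)⁻¹})
              ((d : S24.FF L N) * DDGauss.dd N s (fL / h ^ (p ^ n)))) :
    ∃ (a : L) (hL : S24.FF L N), a ≠ 0 ∧
      CoeffAut.act N s (CoeffAut.act N s fL) * fL =
        algebraMap L (S24.FF L N) a * hL ^ (p ^ n) * (CoeffAut.act N s fL) ^ 2 := by
  classical
  have hϖp : Prime ϖ := hϖ.prime
  have hj : Transcendental L (S24.jBC L N) := RamJ.transcendental_jBC ι N
  have hj0 : S24.jBC L N ≠ 0 := by
    rintro h0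
    exact hj ⟨X, X_ne_zero, by rw [h0]; simp⟩
  -- the local data
  have hloc₁ : ∀ 𝔫 : Ideal (integralClosure (Algebra.adjoin ↥W {S24.jBC L N}) (S24.FF L N)),
      𝔫.IsMaximal →
      (∀ r : integralClosure (Algebra.adjoin ↥W {S24.jBC L N}) (S24.FF L N),
        (r : S24.FF L N) = algebraMap ↥W (S24.FF L N) ϖ → r ∈ 𝔫) →
      ∃ g : S24.FF L N, GaussOne ϖ (S24.jBC L N) g ∧
        ∃ d : integralClosure (Algebra.adjoin ↥W {S24.jBC L N}) (S24.FF L N), d ∉ 𝔫 ∧
          IsIntegral (Algebra.adjoin ↥W {S24.jBC L N})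
            ((d : S24.FF L N) * (DDGauss.dd N s fL * g ^ (p ^ n))) := by
    intro 𝔫 h𝔫 hπ𝔫
    obtain ⟨h, hh, d, hd, hint⟩ := h₁ 𝔫 h𝔫 hπ𝔫
    have e : DDGauss.dd N s fL * (DDGauss.dd N s h)⁻¹ ^ (p ^ n) =
        DDGauss.dd N s (fL / h ^ (p ^ n)) := DDGauss.dd_mul_inv_pow N s fL h (p ^ n)
    have hg : GaussOne ϖ (S24.jBC L N) (DDGauss.dd N s h)⁻¹ := by
      have h3 := hG _ (inv_ne_zero hh)
      rwa [DDGauss.dd_inv N s h] at h3
    refine ⟨(DDGauss.dd N s h)⁻¹, hg, d, hd, ?_⟩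
    rw [e]
    exact hint
  have hloc₂ : ∀ 𝔫 : Ideal (integralClosure (Algebra.adjoin ↥W {(S24.jBC L N)⁻¹})
        (S24.FF L N)), 𝔫.IsMaximal →
      (∀ r : integralClosure (Algebra.adjoin ↥W {(S24.jBC L N)⁻¹}) (S24.FF L N),
        (r : S24.FF L N) = algebraMap ↥W (S24.FF L N) ϖ → r ∈ 𝔫) →
      ∃ g : S24.FF L N, GaussOne ϖ (S24.jBC L N) g ∧
        ∃ d : integralClosure (Algebra.adjoin ↥W {(S24.jBC L N)⁻¹}) (S24.FF L N), d ∉ 𝔫 ∧
          IsIntegral (Algebra.adjoin ↥W {(S24.jBC L N)⁻¹})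
            ((d : S24.FF L N) * (DDGauss.dd N s fL * g ^ (p ^ n))) := by
    intro 𝔫 h𝔫 hπ𝔫
    by_cases hcusp : ∀ r : integralClosure (Algebra.adjoin ↥W {(S24.jBC L N)⁻¹}) (S24.FF L N),
        (r : S24.FF L N) = (S24.jBC L N)⁻¹ → r ∈ 𝔫
    · obtain ⟨h, hh, d, hd, hint⟩ := h₂ 𝔫 h𝔫 hπ𝔫 hcusp
      have e : DDGauss.dd N s fL * (DDGauss.dd N s h)⁻¹ ^ (p ^ n) =
          DDGauss.dd N s (fL / h ^ (p ^ n)) := DDGauss.dd_mul_inv_pow N s fL h (p ^ n)
      have hg : GaussOne ϖ (S24.jBC L N) (DDGauss.dd N s h)⁻¹ := by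
        have h3 := hG _ (inv_ne_zero hh)
        rwa [DDGauss.dd_inv N s h] at h3
      refine ⟨(DDGauss.dd N s h)⁻¹, hg, d, hd, ?_⟩
      rw [e]
      exact hint
    · have hj𝔫 : ∀ r : integralClosure (Algebra.adjoin ↥W {(S24.jBC L N)⁻¹}) (S24.FF L N),
          (r : S24.FF L N) = (S24.jBC L N)⁻¹ → r ∉ 𝔫 := by
        intro r hr hmem
        apply hcusp
        intro r' hr'
        have : r' = r := Subtype.ext (hr'.trans hr.symm)
        rw [this]
        exact hmem
      exact ChartTransfer.exists_of_chart₁ ϖ hj0 (GaussOne ϖ (S24.jBC L N))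
        (fun g => DDGauss.dd N s fL * g ^ (p ^ n)) hloc₁ 𝔫 h𝔫 hπ𝔫 hj𝔫
  -- the descent
  haveI : CharZero L := charZero_of_injective_algebraMap (algebraMap ℚ L).injective
  haveI : IsScalarTower ↥W L (S24.FF L N) := isScalarTower_W W N
  haveI : FiniteDimensional (IntermediateField.adjoin L {S24.jBC L N}) (S24.FF L N) :=
    (Gauss.finrank_FF_le (L := L) (N := N)).1
  obtain ⟨a, h, ha, hw⟩ := KummerInd.kummer_descent (L := L) ϖ hϖp (S24.jBC L N) hj p hp
    hpW ζ hζ (KummerInd.isUnit_of_not_dvd_dvr hϖ)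
    (fun c hc => ConstClosed.hconst_FF N c hc)
    (fun a _ => KummerInd.hroot_of_isAlgClosed ϖ hϖ.maximalIdeal_eq p hp.pos a)
    hR n (DDGauss.dd N s fL) (hG fL hfL) hloc₁ hloc₂
  refine ⟨(a : L), h, fun h0 => ha (Subtype.ext h0), ?_⟩
  have h1 : CoeffAut.act N s fL ≠ 0 :=
    (map_ne_zero_iff _ (CoeffAut.act N s).injective).mpr hfL
  have h2 : DDGauss.dd N s fL = algebraMap L (S24.FF L N) (a : L) * h ^ (p ^ n) := hw
  rw [DDGauss.dd_def, div_eq_iff (pow_ne_zero 2 h1)] at h2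
  exact h2

end Generic

/-! ### The assembly -/

section Assembly

variable (M q p : ℕ) [NeZero M] [NeZero q]

set_option maxHeartbeats 1600000 in
-- the instance `Algebra ↥W (FF L N)` is found slowly (0.5 s per occurrence)
/-- **The DVR-level core of (G) from the four level contracts.** -/
theorem dvrCoreG_of_contracts (hq : q.Prime) (hqM : ¬ q ∣ M) (hp : p.Prime) (hpq : p ≠ q)
    (A : ValuationSubring Qb) (τ : Qb ≃ₐ[ℚ] Qb) (hτ : τ ∈ A.inertiaSubgroupIn ℚ)
    (hV : V3aContract M q A) (hR : RamContract M q p A)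
    (h₁ : LocContract₁ M q p A τ) (h₂ : LocContract₂ M q p A τ) :
    DvrCoreG (M * q) p q A τ := by
  classical
  refine GPush.dvrCoreG_of_level (M * q) hp.ne_zero A τ ?_
  intro n D f hf hD
  obtain ⟨S₁, hS₁⟩ := hV
  obtain ⟨S₂, hS₂⟩ := hR
  obtain ⟨S₃, hS₃⟩ := h₁ n D f hf hD
  obtain ⟨S₄, hS₄⟩ := h₂ n D f hf hD
  refine ⟨S₁ ∪ S₂ ∪ (S₃ ∪ S₄), ?_⟩
  intro L _ _ ι hlev hst fL hfL hrat s hs
  have hl₁ : LevelChange.IsLevel A q S₁ ι := GalLevel.isLevel_mono hlev
    (Finset.subset_union_left.trans Finset.subset_union_left)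
  have hl₂ : LevelChange.IsLevel A q S₂ ι := GalLevel.isLevel_mono hlev
    (Finset.subset_union_right.trans Finset.subset_union_left)
  have hl₃ : LevelChange.IsLevel A q S₃ ι := GalLevel.isLevel_mono hlev
    (Finset.subset_union_left.trans Finset.subset_union_right)
  have hl₄ : LevelChange.IsLevel A q S₄ ι := GalLevel.isLevel_mono hlev
    (Finset.subset_union_right.trans Finset.subset_union_right)
  have hfL0 : fL ≠ 0 := by
    rintro rfl
    exact hf (by rw [← hfL, map_zero])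
  obtain ⟨-, hroots, hdvr, hclosed, -, hchar, -, -⟩ := hlev
  haveI := hdvr
  haveI := hclosed
  haveI := hchar
  obtain ⟨ϖ, hϖ⟩ := IsDiscreteValuationRing.exists_irreducible ↥(A.comap ι)
  -- the Atkin–Lehner involution
  obtain ⟨ι₀⟩ : Nonempty (L →+* ℂ) := by
    letI : Algebra ℚ (AlgebraicClosure ℚ) :=
      @AlgebraicClosure.instAlgebra ℚ _ ℚ _ (Algebra.id ℚ)
    exact ⟨((IsAlgClosed.lift : AlgebraicClosure ℚ →ₐ[ℚ] ℂ).toRingHom).comp ι⟩
  obtain ⟨w, hα, hβ⟩ := AtkinLehner.exists_atkinLehner_of_emb ι₀ M q hq hqM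
  -- `p` is a unit, and a primitive `p`-th root of unity lies in `W`
  have hpW : IsUnit ((p : ℕ) : ↥(A.comap ι)) := isUnit_natCast_of_charP hq hp hpq
  obtain ⟨ζL, hζL⟩ := TopReduction.exists_isPrimitiveRoot ι hroots p hp.ne_zero
    (fun h => hpq ((Nat.prime_dvd_prime_iff_eq hq hp).mp h).symm)
  have hζW : ζL ∈ A.comap ι := by
    rw [ValuationSubring.mem_comap]
    exact BaseDVR.mem_of_pow_eq_one A hp.ne_zero (by rw [← map_pow, hζL.pow_eq_one, map_one])
  have hζ : IsPrimitiveRoot (⟨ζL, hζW⟩ : ↥(A.comap ι)) p :=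
    IsPrimitiveRoot.of_map_of_injective (f := (A.comap ι).subtype) hζL Subtype.val_injective
  exact exists_eq_const_mul_pow_W ι (A.comap ι) (M * q) p hp hpW ⟨ζL, hζW⟩ hζ ϖ hϖ s
    (fun f hf' => DDGauss.gaussOne_dd_level A ι s hs hτ hϖ M q hq w hα hβ _
      (hS₁ L ι hl₁ hst ϖ hϖ w hα hβ) hf')
    (hS₂ L ι hl₂ hst ϖ hϖ) n fL hfL0
    (hS₃ L ι hl₃ hst fL hfL hrat ϖ hϖ s hs)
    (hS₄ L ι hl₄ hst fL hfL hrat ϖ hϖ s hs)

end Assembly

end Fermat.Agent.S34.GAsm
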