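/-
S34 (wave 6), package B7b: the geometric input of S30 / S31 with its Galois module EXPOSED.

`S30.GeomJac.exists_geomInput_of` returns an opaque `∃ I : GeomInput p N S`; for S34 one has to
feed a statement about `J₀(N)(ℚ̄)` (unipotency of inertia at `q ∥ N` on `p`-power torsion) to the
abstract assembly, so the same construction is repeated here with an additional conclusion: a
Galois-equivariant additive identification `e : I.X ≃+ JZero N`.  Corollaries transport statements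
about `JZero N` to `I.X` (`exists_geomInput_unip`, `exists_geomInput_transfer`).

All auxiliary lemmas are those of `S30.GeomJac` (imported read-only).
-/
import Mathlib
import Fermat.Agent.S30.GeomJac

set_option autoImplicit false

namespace Fermat.Agent.S34.GeomJacU

open ModularCurve AlgebraicCurve Fermat.Agent.S30 Fermat.Agent.S30.GeomJac

noncomputable section

/-- **The concrete geometric input for `J₀(N)(ℚ̄)`, with its underlying Galois module exposed**: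
the same construction as `S30.GeomJac.exists_geomInput_of`, together with a Galois-equivariant
additive identification of `I.X` with `J₀(N)(ℚ̄)`. -/
theorem exists_geomInput_equiv (p : ℕ) [Fact p.Prime] (N : ℕ) [NeZero N] (S : Finset ℕ)
    (hΘ : ∃ Θ : ∀ m : ℕ, S29.peHoms N (ZMod m) →+ ModularCurve.JZero N,
      (∀ m : ℕ, 0 < m → Function.Injective (Θ m)) ∧
      (∀ (m : ℕ), 0 < m → ∀ (ℓ : ℕ) [Fact ℓ.Prime] (hℓN : ¬ ℓ ∣ N)
        (χ χ' : S29.peHoms N (ZMod m)),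
        (∀ γ : S22.Gam N, (χ' : Additive (S22.Gam N) →+ ZMod m) (Additive.ofMul γ) =
          ∑ x : OnePoint (ZMod ℓ),
            (χ : Additive (S22.Gam N) →+ ZMod m) (Additive.ofMul (S22.gamT hℓN γ x))) →
        Θ m χ' = ModularCurve.heckeOperatorBar N ⟨ℓ, Fact.out⟩ (Θ m χ)) ∧
      ∀ (m d : ℕ), 0 < m → 0 < d → ∀ ψ : S29.peHoms N (ZMod (m * d)),
        Θ m (redPE N (Dvd.intro d rfl) ψ) = d • Θ (m * d) ψ)
    (hΛ : ∃ (Λ : Type) (_ : AddCommGroup Λ) (_ : Module.Free ℤ Λ) (_ : Module.Finite ℤ Λ)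
      (hecke : CuspForm.heckeAlgebra N 2 (↑S : Set ℕ) →+* Module.End ℤ Λ)
      (incl : Λ →+ (Additive (S22.Gam N) →+ ℤ)),
      Function.Injective hecke ∧ Function.Injective incl ∧ (∀ v : Λ, S29.IsPE (incl v)) ∧
      (∀ (ψ : Additive (S22.Gam N) →+ ℤ) (k : ℕ), k ≠ 0 → (∃ v : Λ, incl v = k • ψ) →
        ∃ v : Λ, incl v = ψ) ∧
      ∀ (ℓ : ℕ) [Fact ℓ.Prime] (hℓN : ¬ ℓ ∣ N) (hℓS : ℓ ∉ (↑S : Set ℕ)) (v : Λ)
        (γ : S22.Gam N),
        incl (hecke (CuspForm.heckeAlgebra.T Fact.out hℓN hℓS) v) (Additive.ofMul γ) =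
          ∑ x : OnePoint (ZMod ℓ), incl v (Additive.ofMul (S22.gamT hℓN γ x))) :
    ∃ I : GeomInput p N S, I.Compat ∧ I.FiniteTors ∧
      ∃ e : I.X ≃+ ModularCurve.JZero N, ∀ (σ : GQ) (x : I.X), e (σ • x) = σ • e x := by
  classical
  have hp : p.Prime := Fact.out
  obtain ⟨Θ, hΘinj, hΘhecke, hΘfam⟩ := hΘ
  obtain ⟨Λ, iΛ1, iΛ2, iΛ3, hecke, incl, hhecke_inj, hincl_inj, hPE, hsat, hincl_hecke⟩ := hΛ
  -- the inclusion into integral PE characters
  let inclPE : Λ →+ S29.peHoms N ℤ := incl.codRestrict (S29.peHoms N ℤ) hPE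
  have hinclPE : ∀ v : Λ, ((inclPE v : S29.peHoms N ℤ) : Additive (S22.Gam N) →+ ℤ) = incl v :=
    fun v => rfl
  let θ : ℕ → Λ →+ JZero N := fun n => (Θ (p ^ n)).comp ((modPE N (p ^ n)).comp inclPE)
  have hθ : ∀ n v, θ n v = Θ (p ^ n) (modPE N (p ^ n) (inclPE v)) := fun n v => rfl
  have hpn : ∀ n : ℕ, 0 < p ^ n := fun n => pow_pos hp.pos n
  have hnd : ∀ {q : ℕ}, q.Prime → q ≠ p → ∀ n : ℕ, ¬ q ∣ p ^ n := by
    intro q hq hqp n hdvd
    exact hqp ((Nat.prime_dvd_prime_iff_eq hq hp).mp (hq.dvd_of_dvd_pow hdvd))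
  let I : GeomInput p N S :=
    { X := JZero N
      T := fun ℓ => (heckeOperatorBar N ℓ).toAddMonoidHom
      comm := fun ℓ σ x =>
        Fermat.Agent.S29.GalHeckeComm.galois_smul_heckeOperatorBar N ℓ σ x
      stab := fun x => Fermat.Agent.S29.OpenStab.exists_finiteDimensional_fixing N x
      inertia := fun q hq hqN hqp A hA σ hσ n x hx =>
        Fermat.Agent.S29.GalES.inertia_smul_eq N hq hqN A hA hσ (hnd hq hqp n) hx
      frob := fun ℓ hℓ hℓN hℓp A hA s hs n x hx =>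
        Fermat.Agent.S29.GalES.frobenius_quadratic N hℓ hℓN A hA hs (hnd hℓ hℓp n) hx
      Λ := Λ
      hecke := hecke
      hecke_injective := hhecke_inj
      θ := θ
      θ_tors := fun n v => by
        rw [hθ, ← map_nsmul, nsmul_peHoms_eq_zero, map_zero]
      θ_ker := fun n v hv => by
        rw [hθ] at hv
        have h0 : modPE N (p ^ n) (inclPE v) = 0 :=
          hΘinj (p ^ n) (hpn n) (hv.trans (map_zero _).symm)
        obtain ⟨φ, hφ⟩ := exists_eq_nsmul_of_dvd N (p ^ n) (hpn n).ne' (incl v)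
          (fun γ => dvd_of_modPE_eq_zero N (p ^ n) (inclPE v) h0 γ)
        obtain ⟨w, hw⟩ := hsat φ (p ^ n) (hpn n).ne' ⟨v, hφ⟩
        refine ⟨w, hincl_inj ?_⟩
        rw [map_nsmul, hw, hφ]
      θ_hecke := fun n ℓ hℓ hℓN hℓS v => by
        have : Fact ℓ.Prime := ⟨hℓ⟩
        rw [hθ, hθ]
        refine hΘhecke (p ^ n) (hpn n) ℓ hℓN _ _ (fun γ => ?_)
        rw [modPE_apply, hinclPE]
        have h1 := hincl_hecke ℓ hℓN hℓS v γ
        rw [h1, Int.cast_sum]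
        rfl }
  refine ⟨I, ?_, ?_, AddEquiv.refl (JZero N), fun σ x => rfl⟩
  · intro n v
    show p • θ (n + 1) v = θ n v
    rw [hθ, hθ, theta_congr N Θ (pow_succ p n) (inclPE v),
      ← hΘfam (p ^ n) p (hpn n) hp.pos, redPE_modPE]
  · show Finite {x : JZero N // p • x = 0}
    have : NeZero p := ⟨hp.ne_zero⟩
    have : Finite (S29.Jtors N p) := Fermat.Agent.S29.KFin.finite_Jtors N p
    refine Finite.of_injective
      (fun x : {x : JZero N // p • x = 0} =>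
        (⟨x.1, Pic0.mem_torsion.mpr (by rw [natCast_zsmul]; exact x.2)⟩ : S29.Jtors N p)) ?_
    intro x y hxy
    exact Subtype.ext (congrArg (fun z : S29.Jtors N p => (z : JZero N)) hxy)


/-- Transport of the unipotency statement: if `σ` satisfies `σ²x + x = 2σx` on the `p`-power
torsion of `J₀(N)(ℚ̄)`, it does so on the `p`-power torsion of `I.X`. -/
theorem unip_of_equiv {p : ℕ} {N : ℕ} [NeZero N] {S : Finset ℕ} (I : GeomInput p N S)
    (e : I.X ≃+ ModularCurve.JZero N) (he : ∀ (σ : GQ) (x : I.X), e (σ • x) = σ • e x)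
    (σ : GQ)
    (h : ∀ (n : ℕ) (x : ModularCurve.JZero N), p ^ n • x = 0 → σ • σ • x + x = 2 • σ • x)
    (n : ℕ) (x : I.X) (hx : p ^ n • x = 0) : σ • σ • x + x = 2 • σ • x := by
  apply e.injective
  have h1 : p ^ n • e x = 0 := by rw [← map_nsmul, hx, map_zero]
  rw [map_add, map_nsmul, he, he]
  exact h n (e x) h1

/-- **Package B7b**: the geometric input of S30 / S31 for which every `σ` acting unipotently
(`σ²x + x = 2σx`) on the `p`-power torsion of `J₀(N)(ℚ̄)` acts unipotently on the `p`-power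
torsion of `I.X`. -/
theorem exists_geomInput_unip (p : ℕ) [Fact p.Prime] (N : ℕ) [NeZero N] (S : Finset ℕ)
    (hΘ : ∃ Θ : ∀ m : ℕ, S29.peHoms N (ZMod m) →+ ModularCurve.JZero N,
      (∀ m : ℕ, 0 < m → Function.Injective (Θ m)) ∧
      (∀ (m : ℕ), 0 < m → ∀ (ℓ : ℕ) [Fact ℓ.Prime] (hℓN : ¬ ℓ ∣ N)
        (χ χ' : S29.peHoms N (ZMod m)),
        (∀ γ : S22.Gam N, (χ' : Additive (S22.Gam N) →+ ZMod m) (Additive.ofMul γ) =
          ∑ x : OnePoint (ZMod ℓ),
            (χ : Additive (S22.Gam N) →+ ZMod m) (Additive.ofMul (S22.gamT hℓN γ x))) →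
        Θ m χ' = ModularCurve.heckeOperatorBar N ⟨ℓ, Fact.out⟩ (Θ m χ)) ∧
      ∀ (m d : ℕ), 0 < m → 0 < d → ∀ ψ : S29.peHoms N (ZMod (m * d)),
        Θ m (redPE N (Dvd.intro d rfl) ψ) = d • Θ (m * d) ψ)
    (hΛ : ∃ (Λ : Type) (_ : AddCommGroup Λ) (_ : Module.Free ℤ Λ) (_ : Module.Finite ℤ Λ)
      (hecke : CuspForm.heckeAlgebra N 2 (↑S : Set ℕ) →+* Module.End ℤ Λ)
      (incl : Λ →+ (Additive (S22.Gam N) →+ ℤ)),
      Function.Injective hecke ∧ Function.Injective incl ∧ (∀ v : Λ, S29.IsPE (incl v)) ∧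
      (∀ (ψ : Additive (S22.Gam N) →+ ℤ) (k : ℕ), k ≠ 0 → (∃ v : Λ, incl v = k • ψ) →
        ∃ v : Λ, incl v = ψ) ∧
      ∀ (ℓ : ℕ) [Fact ℓ.Prime] (hℓN : ¬ ℓ ∣ N) (hℓS : ℓ ∉ (↑S : Set ℕ)) (v : Λ)
        (γ : S22.Gam N),
        incl (hecke (CuspForm.heckeAlgebra.T Fact.out hℓN hℓS) v) (Additive.ofMul γ) =
          ∑ x : OnePoint (ZMod ℓ), incl v (Additive.ofMul (S22.gamT hℓN γ x))) :
    ∃ I : GeomInput p N S, I.Compat ∧ I.FiniteTors ∧
      ∀ σ : GQ,
        (∀ (n : ℕ) (x : ModularCurve.JZero N), p ^ n • x = 0 → σ • σ • x + x = 2 • σ • x) →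
        ∀ (n : ℕ) (x : I.X), p ^ n • x = 0 → σ • σ • x + x = 2 • σ • x := by
  obtain ⟨I, hc, hf, e, he⟩ := exists_geomInput_equiv p N S hΘ hΛ
  exact ⟨I, hc, hf, fun σ h n x hx => unip_of_equiv I e he σ h n x hx⟩

end

end Fermat.Agent.S34.GeomJacU
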