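import Mathlib
import Fermat.Prelude.Def_GaloisRep_LocalConditions
import Fermat.Agent.S30.Defs
import Fermat.Agent.S30.PowerSum
import Fermat.Agent.S30.AdicRed
import Fermat.Agent.S30.Sat
import Fermat.Agent.S30.S31Asm

/-!
# S34 from the abstract geometric input and unipotent inertia on `p`-power torsion

`s34_of_unip` : in a Hecke–Galois datum of level `N` away from `S`, the Galois representation has
unipotent inertia at a prime `q ≠ p` (characteristic polynomial `(X - 1) ^ 2` on inertia), given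
the abstract geometric input `GeomInput p N S` together with

  (U)  `τ • τ • x + x = 2 • τ • x` for every `τ` in an inertia group at `q` and every `x` of
       `p`-power torsion in the Galois module (i.e. `(τ - 1) ^ 2 = 0` on `p`-power torsion).

Proof.  For `τ` in inertia at `q` and `n`, weak Chebotarev gives a Frobenius lift `φ` at a good
prime `ℓ` with `τ ≡ φ ^ i` on a suitable finite level.  Eichler–Shimura on the
`p ^ (n + c)`-torsion shows that `D_i(T_ℓ, ℓ)` acts on the image of the lattice as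
`τ + ℓ ^ i τ⁻¹ = τ + τ⁻¹ = 2` (by (U) and `ℓ ^ i ≡ ε(τ) = 1`), so `D_i(T_ℓ, ℓ) - 2 ∈ p ^ n 𝕋` by
saturation, hence `tr ρ(τ) ≡ 2` modulo `𝔪 ^ n`; and `det ρ(τ) ≡ ℓ ^ i ≡ 1`.  Separatedness of `T`
gives `tr ρ(τ) = 2`, `det ρ(τ) = 1`, i.e. `charpoly (ρ τ) = (X - 1) ^ 2`.
-/

set_option autoImplicit false

open Polynomial

namespace Fermat.Agent.S34.UnipAsm

open Fermat.Agent.S30 Fermat.Agent.S30.PowerSum Fermat.Agent.S30.AdicRed CuspForm

/-! ### rank two: determinant and characteristic polynomial -/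

section RankTwo

variable {R M : Type*} [CommRing R] [Nontrivial R] [AddCommGroup M] [Module R M]
  [Module.Free R M] [Module.Finite R M]

/-- The characteristic polynomial of an endomorphism of a free module of rank two. -/
theorem charpoly_eq_of_finrank_two (h2 : Module.finrank R M = 2) (f : Module.End R M) :
    f.charpoly = X ^ 2 - C (LinearMap.trace R M f) * X + C (LinearMap.det f) := by
  classical
  let b : Module.Basis (Fin 2) R M := Module.finBasisOfFinrankEq R M h2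
  rw [← LinearMap.charpoly_toMatrix f b, Matrix.charpoly_fin_two,
    LinearMap.trace_eq_matrix_trace R b, ← LinearMap.det_toMatrix b]

/-- The determinant read off a quadratic characteristic polynomial. -/
theorem det_eq_of_charpoly (h2 : Module.finrank R M = 2) (f : Module.End R M) (a d : R)
    (hf : f.charpoly = X ^ 2 - C a * X + C d) : LinearMap.det f = d := by
  have h := charpoly_eq_of_finrank_two h2 f
  rw [hf] at h
  have h0 := congrArg (fun P : R[X] => P.coeff 0) h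
  simp [coeff_C, coeff_X_pow] at h0
  exact h0.symm

end RankTwo

/-! ### determinants modulo a power of the maximal ideal -/

section Det

variable {R M : Type*} [CommRing R] [AddCommGroup M] [Module R M]
  [Module.Free R M] [Module.Finite R M]

/-- Two endomorphisms of a finite free module that agree modulo `J • M` have determinants
congruent modulo `J`. -/
theorem det_sub_mem_of_forall_mem (J : Ideal R) (f f' : Module.End R M)
    (h : ∀ v, f v - f' v ∈ J • (⊤ : Submodule R M)) :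
    LinearMap.det f - LinearMap.det f' ∈ J := by
  classical
  let b := Module.Free.chooseBasis R M
  rw [← LinearMap.det_toMatrix b f, ← LinearMap.det_toMatrix b f']
  have hmap : (LinearMap.toMatrix b b f).map (Ideal.Quotient.mk J) =
      (LinearMap.toMatrix b b f').map (Ideal.Quotient.mk J) := by
    ext i j
    rw [Matrix.map_apply, Matrix.map_apply, LinearMap.toMatrix_apply, LinearMap.toMatrix_apply,
      Ideal.Quotient.eq, ← Finsupp.sub_apply, ← map_sub]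
    exact repr_mem_of_mem_smul_top b J (h _) i
  have hdet := congrArg Matrix.det hmap
  rw [← RingHom.mapMatrix_apply, ← RingHom.mapMatrix_apply, ← RingHom.map_det,
    ← RingHom.map_det] at hdet
  exact Ideal.Quotient.eq.mp hdet

end Det

section Adic

variable {T : Type} [CommRing T] [IsLocalRing T]

/-- Elements with the same reduction modulo `𝔪 ^ n` have congruent determinants. -/
theorem det_sub_mem_of_redHom_eq (ρ : GaloisRepAdic T) (n : ℕ)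
    {g g' : AlgebraicClosure ℚ ≃ₐ[ℚ] AlgebraicClosure ℚ} (h : redHom ρ n g = redHom ρ n g') :
    LinearMap.det (ρ.ρ g) - LinearMap.det (ρ.ρ g') ∈ IsLocalRing.maximalIdeal T ^ n :=
  det_sub_mem_of_forall_mem _ _ _ fun v => (redHom_eq_iff ρ n g g').mp h v

/-- If `g` acts on `V ⧸ 𝔪 ^ n • V` like the `i`-th power of an element `s` whose
characteristic polynomial is `X² - a X + d`, then `det ρ(g) ≡ d ^ i` modulo `𝔪 ^ n`. -/
theorem det_sub_pow_mem (ρ : GaloisRepAdic T) (n : ℕ)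
    {g s : AlgebraicClosure ℚ ≃ₐ[ℚ] AlgebraicClosure ℚ} {i : ℕ} {a d : T}
    (hs : LinearMap.charpoly (ρ.ρ s) = X ^ 2 - C a * X + C d)
    (h : redHom ρ n g = redHom ρ n s ^ i) :
    LinearMap.det (ρ.ρ g) - d ^ i ∈ IsLocalRing.maximalIdeal T ^ n := by
  rw [← map_pow] at h
  have h1 := det_sub_mem_of_redHom_eq ρ n h
  rw [map_pow, map_pow, det_eq_of_charpoly ρ.finrank_eq (ρ.ρ s) a d hs] at h1
  exact h1

end Adic

/-! ### the assembly -/

section Main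

variable {p : ℕ} {N : ℕ} [NeZero N] {S : Finset ℕ}
  {𝒪 : Type} [CommRing 𝒪] [IsDomain 𝒪] [IsDiscreteValuationRing 𝒪]
  [IsAdicComplete (IsLocalRing.maximalIdeal 𝒪) 𝒪]
  {θ : CuspForm.heckeAlgebra N 2 (↑S : Set ℕ) →+* IsLocalRing.ResidueField 𝒪}
  {T : Type} [CommRing T] [IsLocalRing T] [IsNoetherianRing T]
  [IsAdicComplete (IsLocalRing.maximalIdeal T) T] [Algebra 𝒪 T] [IsLocalHom (algebraMap 𝒪 T)]
  [Module.Finite 𝒪 T] [Module.Free 𝒪 T]

/-- The congruences `tr ρ(τ) ≡ 2` and `det ρ(τ) ≡ 1` modulo `𝔪 ^ n` for `τ` in inertia at `q`,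
with the uniform saturation of the Hecke algebra in the lattice as an explicit hypothesis. -/
theorem trace_det_congr [Fact p.Prime] (I : GeomInput p N S) (hcyc : CycPadic p)
    (hcheb : WeakCheb)
    (hsat : ∃ c : ℕ, ∀ (a : heckeAlgebra N 2 (↑S : Set ℕ)) (n : ℕ),
      (∀ v : I.Λ, ∃ w : I.Λ, I.hecke a v = p ^ (n + c) • w) →
        ∃ a' : heckeAlgebra N 2 (↑S : Set ℕ), a = p ^ n • a')
    (hp𝒪 : (p : 𝒪) ∈ IsLocalRing.maximalIdeal 𝒪) (hpS : p ∈ S)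
    (hNS : ∀ q : ℕ, q.Prime → q ∣ N → q ∈ S)
    (H : CuspForm.HeckeGaloisRepDatum N (↑S : Set ℕ) 𝒪 θ T)
    (q : ℕ) (hq : q.Prime) (hqp : q ≠ p)
    (P : ValuationSubring Qb) (hP : P.LiesOverPrime q) (τ : GQ)
    (hτ : τ ∈ P.inertiaSubgroupIn ℚ)
    (hU : ∀ (n : ℕ) (x : I.X), p ^ n • x = 0 → τ • τ • x + x = 2 • τ • x) (n : ℕ) :
    LinearMap.trace T H.ρ.V (H.ρ.ρ τ) - 2 ∈ IsLocalRing.maximalIdeal T ^ n ∧
      LinearMap.det (H.ρ.ρ τ) - 1 ∈ IsLocalRing.maximalIdeal T ^ n := by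
  have hpT : (p : T) ∈ IsLocalRing.maximalIdeal T := by
    have e : (p : T) = algebraMap 𝒪 T (p : 𝒪) := (map_natCast _ p).symm
    rw [e, IsLocalRing.mem_maximalIdeal, map_mem_nonunits_iff]
    exact (IsLocalRing.mem_maximalIdeal _).mp hp𝒪
  obtain ⟨ε, hεL, hε⟩ := hcyc
  obtain ⟨c, hc⟩ := hsat
  -- the finite level
  obtain ⟨L₁, hL₁, h₁⟩ := S31Asm.exists_level_hom I.stab (I.θ (n + c))
  obtain ⟨L₂, hL₂, h₂⟩ := S31Asm.exists_level_hom I.stab
    ((DistribSMul.toAddMonoidHom I.X τ⁻¹).comp (I.θ (n + c)))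
  obtain ⟨L₃, hL₃, h₃⟩ := hεL (n + c)
  obtain ⟨L₄, hL₄, h₄⟩ := redHom_factors H.ρ n
  have hL12 : FiniteDimensional ℚ (L₁ ⊔ L₂ : IntermediateField ℚ Qb) :=
    IntermediateField.finiteDimensional_sup L₁ L₂
  have hL123 : FiniteDimensional ℚ (L₁ ⊔ L₂ ⊔ L₃ : IntermediateField ℚ Qb) :=
    IntermediateField.finiteDimensional_sup (L₁ ⊔ L₂) L₃
  have hL : FiniteDimensional ℚ (L₁ ⊔ L₂ ⊔ L₃ ⊔ L₄ : IntermediateField ℚ Qb) :=
    IntermediateField.finiteDimensional_sup (L₁ ⊔ L₂ ⊔ L₃) L₄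
  have le₁ : L₁ ≤ L₁ ⊔ L₂ ⊔ L₃ ⊔ L₄ := le_sup_left.trans (le_sup_left.trans le_sup_left)
  have le₂ : L₂ ≤ L₁ ⊔ L₂ ⊔ L₃ ⊔ L₄ := le_sup_right.trans (le_sup_left.trans le_sup_left)
  have le₃ : L₃ ≤ L₁ ⊔ L₂ ⊔ L₃ ⊔ L₄ := le_sup_right.trans le_sup_left
  have le₄ : L₄ ≤ L₁ ⊔ L₂ ⊔ L₃ ⊔ L₄ := le_sup_right
  have hετ : ε τ = 1 := (hε q hq hqp P hP).1 τ hτ
  have htors : ∀ v : I.Λ, p ^ (n + c) • (τ⁻¹ • I.θ (n + c) v) = 0 := fun v => by
    rw [smul_comm, I.θ_tors, smul_zero]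
  -- the Chebotarev step
  obtain ⟨ℓ, A, φ, i, hℓ, hℓS, hA, hφ, hLφ⟩ := hcheb (L₁ ⊔ L₂ ⊔ L₃ ⊔ L₄) S τ
  have hℓN : ¬ ℓ ∣ N := fun hd => hℓS (hNS ℓ hℓ hd)
  have hℓp : ℓ ≠ p := fun hd => hℓS (hd ▸ hpS)
  have hℓS' : ℓ ∉ (↑S : Set ℕ) := fun hd => hℓS (Finset.mem_coe.mp hd)
  have hσ : ∀ x ∈ (L₁ ⊔ L₂ ⊔ L₃ ⊔ L₄ : IntermediateField ℚ Qb), (τ⁻¹ * φ ^ i) x = x := by
    intro x hx
    rw [AlgEquiv.mul_apply, ← hLφ x hx]
    exact τ.symm_apply_apply x
  have hmul : τ * (τ⁻¹ * φ ^ i) = φ ^ i := mul_inv_cancel_left τ (φ ^ i)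
  -- `φ ^ i` acts like `τ` on the image of `θ`
  have a1 : ∀ v : I.Λ, φ ^ i • I.θ (n + c) v = τ • I.θ (n + c) v := by
    intro v
    have e := h₁ (τ⁻¹ * φ ^ i) (fun x hx => hσ x (le₁ hx)) v
    rw [← hmul, mul_smul, e]
  -- `φ⁻¹ ^ i` acts like `τ⁻¹` on the image of `θ`
  have a2 : ∀ v : I.Λ, φ⁻¹ ^ i • I.θ (n + c) v = τ⁻¹ • I.θ (n + c) v := by
    intro v
    have e : (τ⁻¹ * φ ^ i) • (τ⁻¹ • I.θ (n + c) v) = τ⁻¹ • I.θ (n + c) v :=
      h₂ (τ⁻¹ * φ ^ i) (fun x hx => hσ x (le₂ hx)) v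
    have e' : φ ^ i • (τ⁻¹ • I.θ (n + c) v) = I.θ (n + c) v := by
      rw [← hmul, mul_smul, e, smul_inv_smul]
    rw [inv_pow, inv_smul_eq_iff, e']
  -- `ℓ ^ i ≡ 1` modulo `p ^ (n + c)`
  have hdiv : ((p ^ (n + c) : ℕ) : ℤ) ∣ (ℓ : ℤ) ^ i - 1 := by
    obtain ⟨w, hw⟩ := h₃ (τ⁻¹ * φ ^ i) (fun x hx => hσ x (le₃ hx))
    have e1 : ((ε φ : ℤ_[p]ˣ) : ℤ_[p]) = (ℓ : ℤ_[p]) := (hε ℓ hℓ hℓp A hA).2 φ hφ
    have e2 : ε (φ ^ i) = ε τ * ε (τ⁻¹ * φ ^ i) := by rw [← map_mul, hmul]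
    have e3 := congrArg (fun u : ℤ_[p]ˣ => (u : ℤ_[p])) e2
    simp only [map_pow, Units.val_pow_eq_pow_val, Units.val_mul] at e3
    rw [e1, hετ, Units.val_one, one_mul, hw] at e3
    have h1 : ((p : ℤ_[p]) ^ (n + c)) ∣ (((ℓ : ℤ) ^ i - 1 : ℤ) : ℤ_[p]) := by
      refine ⟨w, ?_⟩
      push_cast
      rw [e3]
      ring
    have h2 := (PadicInt.pow_p_dvd_int_iff (n + c) ((ℓ : ℤ) ^ i - 1)).mp h1
    exact_mod_cast h2
  -- the Hecke element `D_i(T_ℓ, ℓ) - 2` kills the image of `θ`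
  have hθ : ∀ v : I.Λ, I.θ (n + c) (I.hecke (psum (heckeAlgebra.T hℓ hℓN hℓS')
      ((ℓ : ℕ) : heckeAlgebra N 2 (↑S : Set ℕ)) i) v) = 2 • I.θ (n + c) v := by
    intro v
    rw [S31Asm.theta_hecke_psum I hℓ hℓN hℓS' hℓp hA hφ (n + c) v i, a1 v, a2 v]
    have e : (ℓ ^ i : ℕ) • (τ⁻¹ • I.θ (n + c) v) = τ⁻¹ • I.θ (n + c) v := by
      obtain ⟨k, hk⟩ := hdiv
      have e0 : ((ℓ ^ i : ℕ) : ℤ) = 1 + ((p ^ (n + c) : ℕ) : ℤ) * k := by
        rw [← hk]; push_cast; ring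
      rw [← natCast_zsmul, e0, add_smul, one_smul, mul_comm, mul_smul, natCast_zsmul,
        htors v, smul_zero, add_zero]
    rw [e]
    have hu := hU (n + c) (τ⁻¹ • I.θ (n + c) v) (htors v)
    rw [smul_inv_smul] at hu
    exact hu
  have ha : ∀ v : I.Λ, ∃ w : I.Λ,
      I.hecke (psum (heckeAlgebra.T hℓ hℓN hℓS') ((ℓ : ℕ) : heckeAlgebra N 2 (↑S : Set ℕ)) i -
        2) v = p ^ (n + c) • w := by
    intro v
    apply I.θ_ker (n + c)
    rw [map_sub, LinearMap.sub_apply, map_sub, hθ v,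
      ← Nat.cast_ofNat (R := heckeAlgebra N 2 (↑S : Set ℕ)), map_natCast,
      Module.End.natCast_apply, map_nsmul, sub_self]
  obtain ⟨a', ha'⟩ := hc _ n ha
  have hπ : H.π (psum (heckeAlgebra.T hℓ hℓN hℓS') ((ℓ : ℕ) : heckeAlgebra N 2 (↑S : Set ℕ)) i) -
      2 ∈ IsLocalRing.maximalIdeal T ^ n := by
    have e : H.π (psum (heckeAlgebra.T hℓ hℓN hℓS') ((ℓ : ℕ) : heckeAlgebra N 2 (↑S : Set ℕ)) i)
        - 2 = H.π (psum (heckeAlgebra.T hℓ hℓN hℓS')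
          ((ℓ : ℕ) : heckeAlgebra N 2 (↑S : Set ℕ)) i - 2) := by
      rw [map_sub, map_ofNat]
    rw [e, ha', map_nsmul, nsmul_eq_mul, Nat.cast_pow]
    exact Ideal.mul_mem_right _ _ (Ideal.pow_mem_pow hpT n)
  have hred : redHom H.ρ n τ = redHom H.ρ n φ ^ i := by
    have e := h₄ (τ⁻¹ * φ ^ i) (fun x hx => hσ x (le₄ hx))
    rw [← map_pow, ← hmul, map_mul, e, mul_one]
  have hchar := H.charpoly_frob ℓ hℓ hℓN hℓS' A hA φ hφ
  refine ⟨?_, ?_⟩
  · have e2 := trace_sub_psum_mem H.ρ n hchar hred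
    rw [map_psum, map_natCast]  at hπ
    have hfinal : LinearMap.trace T H.ρ.V (H.ρ.ρ τ) - 2 =
        (LinearMap.trace T H.ρ.V (H.ρ.ρ τ) -
          psum (H.π (heckeAlgebra.T hℓ hℓN hℓS')) ((ℓ : ℕ) : T) i) +
        (psum (H.π (heckeAlgebra.T hℓ hℓN hℓS')) ((ℓ : ℕ) : T) i - 2) := by ring
    rw [hfinal]
    exact Ideal.add_mem _ e2 hπ
  · have e2 := det_sub_pow_mem H.ρ n hchar hred
    have e3 : ((ℓ : ℕ) : T) ^ i - 1 ∈ IsLocalRing.maximalIdeal T ^ n := by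
      obtain ⟨k, hk⟩ := hdiv
      have e0 : ((ℓ : ℕ) : T) ^ i - 1 = (((ℓ : ℤ) ^ i - 1 : ℤ) : T) := by push_cast; ring
      rw [e0, hk]
      push_cast
      rw [pow_add, mul_assoc]
      exact Ideal.mul_mem_right _ _ (Ideal.pow_mem_pow hpT n)
    have hfinal : LinearMap.det (H.ρ.ρ τ) - 1 =
        (LinearMap.det (H.ρ.ρ τ) - ((ℓ : ℕ) : T) ^ i) + (((ℓ : ℕ) : T) ^ i - 1) := by ring
    rw [hfinal]
    exact Ideal.add_mem _ e2 e3

/-- **S34 from the abstract geometric input and unipotent inertia on `p`-power torsion.** -/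
theorem s34_of_unip [Fact p.Prime] (I : GeomInput p N S) (hcyc : CycPadic p)
    (hcheb : WeakCheb)
    (hp𝒪 : (p : 𝒪) ∈ IsLocalRing.maximalIdeal 𝒪) (hpS : p ∈ S)
    (hNS : ∀ q : ℕ, q.Prime → q ∣ N → q ∈ S)
    (H : CuspForm.HeckeGaloisRepDatum N (↑S : Set ℕ) 𝒪 θ T)
    (q : ℕ) (hq : q.Prime) (hqp : q ≠ p)
    (hU : ∀ A : ValuationSubring Qb, A.LiesOverPrime q → ∀ τ ∈ A.inertiaSubgroupIn ℚ,
      ∀ (n : ℕ) (x : I.X), p ^ n • x = 0 → τ • τ • x + x = 2 • τ • x) :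
    H.ρ.IsUnipotentOnInertiaAt q := by
  intro P hP τ hτ
  have hsat := Sat.exists_bound I.hecke I.hecke_injective p Fact.out
  have hcongr := fun n => trace_det_congr I hcyc hcheb hsat hp𝒪 hpS hNS H q hq hqp P hP τ hτ
    (hU P hP τ hτ) n
  have htr : LinearMap.trace T H.ρ.V (H.ρ.ρ τ) - 2 = 0 := by
    refine IsHausdorff.haus' (I := IsLocalRing.maximalIdeal T) _ fun n => ?_
    rw [SModEq.zero, smul_eq_mul, Ideal.mul_top]
    exact (hcongr n).1
  have hdet : LinearMap.det (H.ρ.ρ τ) - 1 = 0 := by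
    refine IsHausdorff.haus' (I := IsLocalRing.maximalIdeal T) _ fun n => ?_
    rw [SModEq.zero, smul_eq_mul, Ideal.mul_top]
    exact (hcongr n).2
  rw [charpoly_eq_of_finrank_two H.ρ.finrank_eq, sub_eq_zero.mp htr, sub_eq_zero.mp hdet]
  simp only [map_ofNat, map_one]
  ring

end Main

end Fermat.Agent.S34.UnipAsm
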