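/-
S34 (wave 6): the statement S34 from the single geometric input (G):

  (G)  for `q ∥ N`, `q ≠ p`, `τ` in an inertia group at `q` and `x ∈ J₀(N)(ℚ̄)` with `p ^ n • x = 0`:
       `τ • τ • x + x = 2 • τ • x`     (i.e. `(τ - 1) ^ 2 x = 0`).

`s34_of_G` takes (G) for the given `N`, `p`, `q` as a hypothesis and proves the conclusion of the
frozen statement S34 (`H.ρ.IsUnipotentOnInertiaAt q`), using the phase-B machinery:
`GeomJacU.exists_geomInput_unip` (geometric input with the Galois module exposed),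
`ThetaFam.exists_family`, `PerLatJ.exists_lattice`, `PadicLift.cycPadic`,
`S29.WeakCheb.exists_frobenius_pow` and `UnipAsm.s34_of_unip`.
-/
import Mathlib
import Fermat.Agent.S34.UnipAsm
import Fermat.Agent.S34.GeomJacU
import Fermat.Agent.S30.ThetaFam
import Fermat.Agent.S30.PerLatJ
import Fermat.Agent.S30.PadicLift
import Fermat.Agent.S29.WeakCheb

set_option autoImplicit false

namespace Fermat.Agent.S34.S34Of

open Fermat.Agent.S30

/-- The geometric input (G) of S34 at `(N, p, q)`: inertia at `q` is unipotent of level two on the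
`p`-power torsion of `J₀(N)(ℚ̄)`. -/
def UnipG (N p q : ℕ) : Prop :=
  ∀ A : ValuationSubring Qb, A.LiesOverPrime q → ∀ τ ∈ A.inertiaSubgroupIn ℚ,
    ∀ (n : ℕ) (x : ModularCurve.JZero N), p ^ n • x = 0 → τ • τ • x + x = 2 • τ • x

/-- **S34 from (G).** -/
theorem s34_of_G
    {𝒪 : Type} [CommRing 𝒪] [IsDomain 𝒪] [IsDiscreteValuationRing 𝒪]
    [IsAdicComplete (IsLocalRing.maximalIdeal 𝒪) 𝒪]
    {p : ℕ} (hp : p.Prime) (hp𝒪 : (p : 𝒪) ∈ IsLocalRing.maximalIdeal 𝒪)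
    {N : ℕ} [NeZero N] {S : Finset ℕ} (hpS : p ∈ S) (hNS : ∀ q : ℕ, q.Prime → q ∣ N → q ∈ S)
    {θ : CuspForm.heckeAlgebra N 2 (↑S : Set ℕ) →+* IsLocalRing.ResidueField 𝒪}
    {T : Type} [CommRing T] [IsLocalRing T] [IsNoetherianRing T]
    [IsAdicComplete (IsLocalRing.maximalIdeal T) T] [Algebra 𝒪 T] [IsLocalHom (algebraMap 𝒪 T)]
    [Module.Finite 𝒪 T] [Module.Free 𝒪 T]
    (H : CuspForm.HeckeGaloisRepDatum N (↑S : Set ℕ) 𝒪 θ T)
    (q : ℕ) (hq : q.Prime) (hqp : q ≠ p) (hG : UnipG N p q) :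
    H.ρ.IsUnipotentOnInertiaAt q := by
  have : Fact p.Prime := ⟨hp⟩
  obtain ⟨I, -, -, hT⟩ := GeomJacU.exists_geomInput_unip p N S
    (Fermat.Agent.S30.ThetaFam.exists_family N) (Fermat.Agent.S30.PerLatJ.exists_lattice N S hNS)
  exact UnipAsm.s34_of_unip I (Fermat.Agent.S30.PadicLift.cycPadic p)
    (fun L _ S' σ => Fermat.Agent.S29.WeakCheb.exists_frobenius_pow L S' σ)
    hp𝒪 hpS hNS H q hq hqp
    (fun A hA τ hτ n x hx => hT τ (fun m y hy => hG A hA τ hτ m y hy) n x hx)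

end Fermat.Agent.S34.S34Of
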