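import Mathlib
import Fermat.Agent.S34.GDescent
import Fermat.Agent.S34.S34Of

/-!
# S34: the geometric input `S34Of.UnipG N p q` from its divisor form and from the DVR-level core

* `unipG_of_galoisDD` : `UnipG N p q` from the divisor form `GTop.GaloisDD N τ (p ^ n)` for all
  inertia elements `τ` at `q`;
* `unipG_of_dvrCoreG` : `UnipG N p q` from the DVR-level core `GDescent.DvrCoreG N p q A τ` and
  the existence of Galois-stable levels.
-/

set_option autoImplicit false

namespace Fermat.Agent.S34.GUnip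

open ModularCurve AlgebraicCurve Fermat.Agent.S37
open Fermat.Agent.S34.GTop Fermat.Agent.S34.GDescent

local notation "Qb" => AlgebraicClosure ℚ

/-- (G) from its divisor form. -/
theorem unipG_of_galoisDD (N : ℕ) [NeZero N] (p q : ℕ)
    (h : ∀ A : ValuationSubring Qb, A.LiesOverPrime q → ∀ τ ∈ A.inertiaSubgroupIn ℚ,
      ∀ n : ℕ, GaloisDD N τ (p ^ n)) : S34Of.UnipG N p q := by
  intro A hA τ hτ n x hx
  have h1 : τ • τ • x - 2 • (τ • x) + x = 0 :=
    smul_smul_sub_two_smul_add_eq_zero (h A hA τ hτ n) hx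
  have h2 : τ • τ • x + x = (τ • τ • x - 2 • (τ • x) + x) + 2 • (τ • x) := by abel
  rw [h2, h1, zero_add]

/-- **(G) from the DVR-level core.** -/
theorem unipG_of_dvrCoreG (N : ℕ) [NeZero N] (p q : ℕ)
    (hlev : ∀ A : ValuationSubring Qb, A.LiesOverPrime q → ∀ S : Finset Qb,
      ∃ (L : Type) (_ : Field L) (_ : Algebra ℚ L) (ι : L →+* Qb),
        LevelChange.IsLevel A q S ι ∧
        ∀ σ : Qb ≃ₐ[ℚ] Qb, ∃ s : L ≃+* L, ∀ c : L, ι (s c) = σ (ι c))
    (h : ∀ A : ValuationSubring Qb, A.LiesOverPrime q → ∀ τ ∈ A.inertiaSubgroupIn ℚ,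
      DvrCoreG N p q A τ) : S34Of.UnipG N p q :=
  unipG_of_galoisDD N p q fun A hA τ hτ n =>
    galoisDD_of_dvrCoreG N (hlev A hA) (h A hA τ hτ) n

end Fermat.Agent.S34.GUnip
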