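import Mathlib
import Fermat.Agent.S34.GUnip
import Fermat.Agent.S34.GalLevel

/-!
# S34: `S34Of.UnipG N p q` from the DVR-level core alone

`unipG_of_core` : the geometric input (G) of S34 from `GDescent.DvrCoreG N p q A τ` for all
places `A` over `q` and all `τ` in the inertia group of `A` (Galois-stable levels exist by
`GalLevel.exists_stable_level`).
-/

set_option autoImplicit false

namespace Fermat.Agent.S34.GFinal

open Fermat.Agent.S34.GDescent

local notation "Qb" => AlgebraicClosure ℚ

/-- **(G) from the DVR-level core.** -/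
theorem unipG_of_core (N : ℕ) [NeZero N] (p q : ℕ) (hq : q.Prime)
    (h : ∀ A : ValuationSubring Qb, A.LiesOverPrime q → ∀ τ ∈ A.inertiaSubgroupIn ℚ,
      DvrCoreG N p q A τ) : S34Of.UnipG N p q :=
  GUnip.unipG_of_dvrCoreG N p q
    (fun A hA S => GalLevel.exists_stable_level A hq hA S) h

end Fermat.Agent.S34.GFinal
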