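/-
S34 (long shot, wave 6, blueprint findings 202), package B5, OUTER core (helper13):
contract vocabulary for the induction over `s`-power Kummer steps (`GCore.lean`).

`TwoGauss π j O₁ O₂`: the two Gauss valuation rings of the function field `F` of level `N = q M`
(`O₁` = `q`-expansion Gauss valuation, `O₂` = its Atkin–Lehner twist), in the `InC` currency of
`S18.Endgame` / `S34.KummerStep`:
* the integral closure of the Gauss ring `W[j]_(π)` in `F` is `O₁ ∩ O₂`   [(V3)];
* `π` is a uniformiser of both                                            [(V): `e = 1`].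
Together these give (S1): `𝔪₁ ∩ 𝔪₂ = π (O₁ ∩ O₂)` (`TwoGauss.gaussOne_of_val`).
-/
import Mathlib
import Fermat.Agent.S34.KummerStep

set_option autoImplicit false

namespace Fermat.Agent.S34.GCore

open Polynomial Fermat.Agent.S18 Fermat.Agent.S18.Endgame Fermat.Agent.S34.KummerStep

/-- **Two Gauss valuations.**  `O₁, O₂` are valuation subrings of `F`, both with uniformiser `π`,
such that the integral closure of the Gauss ring `W[j]_(π)` in `F` (the `InC π j` elements) is
`O₁ ∩ O₂`. -/
structure TwoGauss {W F : Type*} [CommRing W] [Field F] [Algebra W F] (π : W) (j : F)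
    (O₁ O₂ : ValuationSubring F) : Prop where
  /-- (V3): Gauss-integral `⟺` integral at both valuations -/
  inC_iff : ∀ z : F, InC π j z ↔ z ∈ O₁ ∧ z ∈ O₂
  /-- `π` is not a unit of `O₁` -/
  pi_lt₁ : O₁.valuation (algebraMap W F π) < 1
  /-- `π` is not a unit of `O₂` -/
  pi_lt₂ : O₂.valuation (algebraMap W F π) < 1
  /-- `π` generates the maximal ideal of `O₁` -/
  unif₁ : ∀ z : F, O₁.valuation z < 1 → O₁.valuation z ≤ O₁.valuation (algebraMap W F π)
  /-- `π` generates the maximal ideal of `O₂` -/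
  unif₂ : ∀ z : F, O₂.valuation z < 1 → O₂.valuation z ≤ O₂.valuation (algebraMap W F π)

namespace TwoGauss

variable {W F : Type*} [CommRing W] [Field F] [Algebra W F] {π : W} {j : F}
  {O₁ O₂ : ValuationSubring F}

/-- (S1): an element of positive valuation at both Gauss valuations is `π` times a Gauss-integral
element. -/
theorem exists_inC_of_val (h : TwoGauss π j O₁ O₂) (hπF : algebraMap W F π ≠ 0) {z : F}
    (h₁ : O₁.valuation z < 1) (h₂ : O₂.valuation z < 1) :
    ∃ c : F, InC π j c ∧ z = algebraMap W F π * c := by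
  refine ⟨z / algebraMap W F π, (h.inC_iff _).mpr ⟨?_, ?_⟩, by field_simp⟩
  · rw [← ValuationSubring.valuation_le_one_iff, map_div₀]
    exact div_le_one_of_le₀ (h.unif₁ z h₁) zero_le
  · rw [← ValuationSubring.valuation_le_one_iff, map_div₀]
    exact div_le_one_of_le₀ (h.unif₂ z h₂) zero_le

/-- `g ≡ 1` at both Gauss valuations gives `GaussOne π j g`. -/
theorem gaussOne_of_val [IsDomain W] (h : TwoGauss π j O₁ O₂) (hπF : algebraMap W F π ≠ 0) {g : F}
    (h₁ : O₁.valuation (g - 1) < 1) (h₂ : O₂.valuation (g - 1) < 1) : GaussOne π j g :=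
  gaussOne_of_inC (h.exists_inC_of_val hπF h₁ h₂)

/-- `GaussOne π j g` gives `g ≡ 1` at both Gauss valuations. -/
theorem val_of_gaussOne [IsDomain W] (h : TwoGauss π j O₁ O₂) (hπF : algebraMap W F π ≠ 0) {g : F}
    (hg : GaussOne π j g) : O₁.valuation (g - 1) < 1 ∧ O₂.valuation (g - 1) < 1 := by
  obtain ⟨c, hc, hgc⟩ := hg.inC hπF
  obtain ⟨hc₁, hc₂⟩ := (h.inC_iff c).mp hc
  rw [hgc, map_mul, map_mul]
  exact ⟨mul_lt_one_of_lt_of_le h.pi_lt₁ ((ValuationSubring.valuation_le_one_iff _ _).mpr hc₁),
    mul_lt_one_of_lt_of_le h.pi_lt₂ ((ValuationSubring.valuation_le_one_iff _ _).mpr hc₂)⟩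

end TwoGauss

end Fermat.Agent.S34.GCore
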