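import Mathlib

/-!
# S34, package B1 (V3), abstract core: two valuation rings above a discrete valuation ring

`K₀ ⊆ E` is a finite field extension, `O₀ ⊆ K₀` a subring which is "a discrete valuation ring
with uniformiser `ϖ`" (every nonzero element of `K₀` is `ϖ ^ n` times a unit of `O₀`), and
`V₁`, `V₂` are valuation subrings of `E` containing `O₀` in which `ϖ` is not a unit.

If there are `e₁ ≡ 1` in `V₁`, `e₁ ≡ 0` in `V₂` and `e₂ ≡ 1` in `V₂`, `e₂ ≡ 0` in `V₁`, and two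
finite families `b₁`, `b₂` of elements of `V₁ ∩ V₂` whose residues in `V₁` (resp. `V₂`) are
linearly independent over the residue field of `O₀`, with `#b₁ + #b₂ ≥ [E : K₀]`, then
`V₁ ∩ V₂` is the free `O₀`-module on the elements `e₁ b₁ i`, `e₂ b₂ i`; in particular every
element of `V₁ ∩ V₂` is integral over `O₀`.
-/

set_option autoImplicit false

namespace Fermat.Agent.S34.TwoValAbs

/-- product of an element of valuation `≤ 1` and one of valuation `< 1` -/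
theorem mul_lt_one_of_le_of_lt' {Γ : Type*} [LinearOrderedCommGroupWithZero Γ] {a b : Γ}
    (ha : a ≤ 1) (hb : b < 1) : a * b < 1 :=
  Right.mul_lt_one_of_le_of_lt ha hb

section Scale

variable {K₀ : Type*} [Field K₀] (O₀ : Subring K₀) (ϖ : K₀)

/-- Scaling: finitely many elements of `K₀`, not all zero, can be multiplied by a power of the
uniformiser so that all lie in `O₀` and one of them is a unit of `O₀`. -/
theorem exists_scale (hϖ : ϖ ∈ O₀) (hϖ0 : ϖ ≠ 0)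
    (hU : ∀ x : K₀, x ≠ 0 → ∃ (n : ℤ) (u : K₀), u ∈ O₀ ∧ u⁻¹ ∈ O₀ ∧ x = ϖ ^ n * u)
    {κ : Type*} [Fintype κ] (lam : κ → K₀) (hlam : lam ≠ 0) :
    ∃ n : ℤ, (∀ k, ϖ ^ n * lam k ∈ O₀) ∧
      ∃ k, ϖ ^ n * lam k ≠ 0 ∧ (ϖ ^ n * lam k)⁻¹ ∈ O₀ := by
  classical
  choose! e u hu hu' he using hU
  obtain ⟨k₀, hk₀⟩ : ∃ k, lam k ≠ 0 := by
    by_contra h
    push Not at h
    exact hlam (funext h)
  let s : Finset κ := Finset.univ.filter (fun k => lam k ≠ 0)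
  have hs : s.Nonempty := ⟨k₀, by simp [s, hk₀]⟩
  obtain ⟨k₁, hk₁s, hk₁min⟩ := Finset.exists_min_image s (fun k => e (lam k)) hs
  have hk₁ : lam k₁ ≠ 0 := (Finset.mem_filter.mp hk₁s).2
  have hkey : ∀ k, lam k ≠ 0 → ∃ m : ℕ, ϖ ^ (-e (lam k₁)) * lam k = ϖ ^ m * u (lam k) := by
    intro k hk
    have hle : e (lam k₁) ≤ e (lam k) := hk₁min k (by simp [s, hk])
    obtain ⟨m, hm⟩ := Int.eq_ofNat_of_zero_le (sub_nonneg.mpr hle)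
    refine ⟨m, ?_⟩
    have h := he (lam k) hk
    calc ϖ ^ (-e (lam k₁)) * lam k
        = ϖ ^ (-e (lam k₁)) * (ϖ ^ e (lam k) * u (lam k)) := by rw [← h]
      _ = ϖ ^ m * u (lam k) := by
        rw [← mul_assoc, ← zpow_add₀ hϖ0, ← zpow_natCast, ← hm]
        congr 2
        ring
  refine ⟨-e (lam k₁), fun k => ?_, k₁, mul_ne_zero (zpow_ne_zero _ hϖ0) hk₁, ?_⟩
  · by_cases hk : lam k = 0
    · rw [hk, mul_zero]
      exact zero_mem _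
    · obtain ⟨m, hm⟩ := hkey k hk
      rw [hm]
      exact mul_mem (pow_mem hϖ m) (hu _ hk)
  · have h1 : ϖ ^ (-e (lam k₁)) * lam k₁ = u (lam k₁) := by
      have h := he (lam k₁) hk₁
      calc ϖ ^ (-e (lam k₁)) * lam k₁
          = ϖ ^ (-e (lam k₁)) * (ϖ ^ e (lam k₁) * u (lam k₁)) := by rw [← h]
        _ = u (lam k₁) := by
          rw [← mul_assoc, ← zpow_add₀ hϖ0, neg_add_cancel, zpow_zero, one_mul]
    rw [h1]
    exact hu' _ hk₁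

end Scale

section Main

variable {K₀ E : Type*} [Field K₀] [Field E] [Algebra K₀ E]
  (O₀ : Subring K₀) (ϖ : K₀) (V₁ V₂ : ValuationSubring E)
  {ι₁ ι₂ : Type*} [Fintype ι₁] [Fintype ι₂]

/-- the twisted family `e₁ b₁ i`, `e₂ b₂ i` -/
def fam (e₁ e₂ : E) (b₁ : ι₁ → E) (b₂ : ι₂ → E) : ι₁ ⊕ ι₂ → E :=
  Sum.elim (fun i => e₁ * b₁ i) (fun i => e₂ * b₂ i)

omit [Fintype ι₁] [Fintype ι₂] in
theorem fam_mem₁ {e₁ e₂ : E} (he₁ : V₁.valuation (e₁ - 1) < 1) (he₂' : V₁.valuation e₂ < 1)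
    {b₁ : ι₁ → E} {b₂ : ι₂ → E} (hb₁ : ∀ i, b₁ i ∈ V₁) (hb₂' : ∀ i, b₂ i ∈ V₁) (k : ι₁ ⊕ ι₂) :
    fam e₁ e₂ b₁ b₂ k ∈ V₁ := by
  have h1 : e₁ ∈ V₁ := by
    have : e₁ = (e₁ - 1) + 1 := by ring
    rw [this]
    exact add_mem ((V₁.valuation_le_one_iff _).mp he₁.le) (one_mem _)
  rcases k with i | i
  · exact mul_mem h1 (hb₁ i)
  · exact mul_mem ((V₁.valuation_le_one_iff _).mp he₂'.le) (hb₂' i)

/-- **Key lemma**: an `O₀`-combination of the twisted family lying in both maximal ideals has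
all its coefficients divisible by the uniformiser. -/
theorem coeff_dvd_of_small
    (h₁ : ∀ x ∈ O₀, algebraMap K₀ E x ∈ V₁) (h₂ : ∀ x ∈ O₀, algebraMap K₀ E x ∈ V₂)
    {e₁ e₂ : E} (he₁ : V₁.valuation (e₁ - 1) < 1) (he₁' : V₂.valuation e₁ < 1)
    (he₂ : V₂.valuation (e₂ - 1) < 1) (he₂' : V₁.valuation e₂ < 1)
    {b₁ : ι₁ → E} (hb₁ : ∀ i, b₁ i ∈ V₁) (hb₁' : ∀ i, b₁ i ∈ V₂)
    (hind₁ : ∀ a : ι₁ → K₀, (∀ i, a i ∈ O₀) →
      V₁.valuation (∑ i, algebraMap K₀ E (a i) * b₁ i) < 1 → ∀ i, ∃ d ∈ O₀, a i = ϖ * d)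
    {b₂ : ι₂ → E} (hb₂ : ∀ i, b₂ i ∈ V₂) (hb₂' : ∀ i, b₂ i ∈ V₁)
    (hind₂ : ∀ a : ι₂ → K₀, (∀ i, a i ∈ O₀) →
      V₂.valuation (∑ i, algebraMap K₀ E (a i) * b₂ i) < 1 → ∀ i, ∃ d ∈ O₀, a i = ϖ * d)
    (a : ι₁ ⊕ ι₂ → K₀) (ha : ∀ k, a k ∈ O₀)
    (hS₁ : V₁.valuation (∑ k, algebraMap K₀ E (a k) * fam e₁ e₂ b₁ b₂ k) < 1)
    (hS₂ : V₂.valuation (∑ k, algebraMap K₀ E (a k) * fam e₁ e₂ b₁ b₂ k) < 1) :
    ∀ k, ∃ d ∈ O₀, a k = ϖ * d := by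
  have hsplit : (∑ k, algebraMap K₀ E (a k) * fam e₁ e₂ b₁ b₂ k) =
      (∑ i, algebraMap K₀ E (a (Sum.inl i)) * (e₁ * b₁ i)) +
        ∑ i, algebraMap K₀ E (a (Sum.inr i)) * (e₂ * b₂ i) := by
    rw [Fintype.sum_sum_type]
    rfl
  have one_ne : (1 : V₁.ValueGroup) ≠ 0 := one_ne_zero
  have one_ne' : (1 : V₂.ValueGroup) ≠ 0 := one_ne_zero
  -- first family
  have hA : V₁.valuation (∑ i, algebraMap K₀ E (a (Sum.inl i)) * b₁ i) < 1 := by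
    have hdecomp : (∑ i, algebraMap K₀ E (a (Sum.inl i)) * b₁ i) =
        (∑ k, algebraMap K₀ E (a k) * fam e₁ e₂ b₁ b₂ k) -
          ((∑ i, algebraMap K₀ E (a (Sum.inl i)) * ((e₁ - 1) * b₁ i)) +
            ∑ i, algebraMap K₀ E (a (Sum.inr i)) * (e₂ * b₂ i)) := by
      have h0 : (∑ i, algebraMap K₀ E (a (Sum.inl i)) * b₁ i) =
          (∑ i, algebraMap K₀ E (a (Sum.inl i)) * (e₁ * b₁ i)) -
            ∑ i, algebraMap K₀ E (a (Sum.inl i)) * ((e₁ - 1) * b₁ i) := by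
        rw [← Finset.sum_sub_distrib]
        refine Finset.sum_congr rfl fun i _ => ?_
        ring
      rw [hsplit, h0]
      ring
    rw [hdecomp]
    refine Valuation.map_sub_lt _ hS₁ (Valuation.map_add_lt _ ?_ ?_)
    · refine Valuation.map_sum_lt _ one_ne fun i _ => ?_
      rw [map_mul, map_mul]
      exact mul_lt_one_of_le_of_lt' ((V₁.valuation_le_one_iff _).mpr (h₁ _ (ha _)))
        (by
          rw [mul_comm]
          exact mul_lt_one_of_le_of_lt' ((V₁.valuation_le_one_iff _).mpr (hb₁ i)) he₁)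
    · refine Valuation.map_sum_lt _ one_ne fun i _ => ?_
      rw [map_mul, map_mul]
      exact mul_lt_one_of_le_of_lt' ((V₁.valuation_le_one_iff _).mpr (h₁ _ (ha _)))
        (by
          rw [mul_comm]
          exact mul_lt_one_of_le_of_lt' ((V₁.valuation_le_one_iff _).mpr (hb₂' i)) he₂')
  have hB : V₂.valuation (∑ i, algebraMap K₀ E (a (Sum.inr i)) * b₂ i) < 1 := by
    have hdecomp : (∑ i, algebraMap K₀ E (a (Sum.inr i)) * b₂ i) =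
        (∑ k, algebraMap K₀ E (a k) * fam e₁ e₂ b₁ b₂ k) -
          ((∑ i, algebraMap K₀ E (a (Sum.inl i)) * (e₁ * b₁ i)) +
            ∑ i, algebraMap K₀ E (a (Sum.inr i)) * ((e₂ - 1) * b₂ i)) := by
      have h0 : (∑ i, algebraMap K₀ E (a (Sum.inr i)) * b₂ i) =
          (∑ i, algebraMap K₀ E (a (Sum.inr i)) * (e₂ * b₂ i)) -
            ∑ i, algebraMap K₀ E (a (Sum.inr i)) * ((e₂ - 1) * b₂ i) := by
        rw [← Finset.sum_sub_distrib]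
        refine Finset.sum_congr rfl fun i _ => ?_
        ring
      rw [hsplit, h0]
      ring
    rw [hdecomp]
    refine Valuation.map_sub_lt _ hS₂ (Valuation.map_add_lt _ ?_ ?_)
    · refine Valuation.map_sum_lt _ one_ne' fun i _ => ?_
      rw [map_mul, map_mul]
      exact mul_lt_one_of_le_of_lt' ((V₂.valuation_le_one_iff _).mpr (h₂ _ (ha _)))
        (by
          rw [mul_comm]
          exact mul_lt_one_of_le_of_lt' ((V₂.valuation_le_one_iff _).mpr (hb₁' i)) he₁')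
    · refine Valuation.map_sum_lt _ one_ne' fun i _ => ?_
      rw [map_mul, map_mul]
      exact mul_lt_one_of_le_of_lt' ((V₂.valuation_le_one_iff _).mpr (h₂ _ (ha _)))
        (by
          rw [mul_comm]
          exact mul_lt_one_of_le_of_lt' ((V₂.valuation_le_one_iff _).mpr (hb₂ i)) he₂)
  rintro (i | i)
  · exact hind₁ (fun i => a (Sum.inl i)) (fun i => ha _) hA i
  · exact hind₂ (fun i => a (Sum.inr i)) (fun i => ha _) hB i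

end Main

section Span

variable {K₀ E : Type*} [Field K₀] [Field E] [Algebra K₀ E]
  (O₀ : Subring K₀) (ϖ : K₀) (V₁ V₂ : ValuationSubring E)
  {ι₁ ι₂ : Type*} [Fintype ι₁] [Fintype ι₂]

/-- a unit of `O₀` is not divisible by the uniformiser -/
theorem false_of_unit_dvd (h₁ : ∀ x ∈ O₀, algebraMap K₀ E x ∈ V₁)
    (hϖ₁ : V₁.valuation (algebraMap K₀ E ϖ) < 1) {a d : K₀} (ha0 : a ≠ 0) (ha' : a⁻¹ ∈ O₀)
    (hd : d ∈ O₀) (had : a = ϖ * d) : False := by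
  have hϖ0 : ϖ ≠ 0 := by
    rintro rfl
    rw [zero_mul] at had
    exact ha0 had
  have hd0 : d ≠ 0 := by
    rintro rfl
    rw [mul_zero] at had
    exact ha0 had
  have h : ϖ⁻¹ = d * a⁻¹ := by
    rw [had]
    field_simp
  have hmem : algebraMap K₀ E ϖ⁻¹ ∈ V₁ := by
    rw [h]
    exact h₁ _ (mul_mem hd ha')
  have hle := (V₁.valuation_le_one_iff _).mpr hmem
  rw [map_inv₀, map_inv₀] at hle
  have hne : V₁.valuation (algebraMap K₀ E ϖ) ≠ 0 := by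
    rw [Ne, Valuation.zero_iff, map_eq_zero]
    exact hϖ0
  have h1 : (1 : V₁.ValueGroup) ≤ V₁.valuation (algebraMap K₀ E ϖ) := by
    rwa [inv_le_one₀ (zero_lt_iff.mpr hne)] at hle
  exact absurd hϖ₁ (not_lt.mpr h1)

variable {O₀ ϖ V₁ V₂}

/-- The twisted family is linearly independent over `K₀`. -/
theorem linearIndependent_fam (hϖ : ϖ ∈ O₀) (hϖ0 : ϖ ≠ 0)
    (hU : ∀ x : K₀, x ≠ 0 → ∃ (n : ℤ) (u : K₀), u ∈ O₀ ∧ u⁻¹ ∈ O₀ ∧ x = ϖ ^ n * u)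
    (h₁ : ∀ x ∈ O₀, algebraMap K₀ E x ∈ V₁) (h₂ : ∀ x ∈ O₀, algebraMap K₀ E x ∈ V₂)
    (hϖ₁ : V₁.valuation (algebraMap K₀ E ϖ) < 1)
    {e₁ e₂ : E} (he₁ : V₁.valuation (e₁ - 1) < 1) (he₁' : V₂.valuation e₁ < 1)
    (he₂ : V₂.valuation (e₂ - 1) < 1) (he₂' : V₁.valuation e₂ < 1)
    {b₁ : ι₁ → E} (hb₁ : ∀ i, b₁ i ∈ V₁) (hb₁' : ∀ i, b₁ i ∈ V₂)
    (hind₁ : ∀ a : ι₁ → K₀, (∀ i, a i ∈ O₀) →
      V₁.valuation (∑ i, algebraMap K₀ E (a i) * b₁ i) < 1 → ∀ i, ∃ d ∈ O₀, a i = ϖ * d)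
    {b₂ : ι₂ → E} (hb₂ : ∀ i, b₂ i ∈ V₂) (hb₂' : ∀ i, b₂ i ∈ V₁)
    (hind₂ : ∀ a : ι₂ → K₀, (∀ i, a i ∈ O₀) →
      V₂.valuation (∑ i, algebraMap K₀ E (a i) * b₂ i) < 1 → ∀ i, ∃ d ∈ O₀, a i = ϖ * d) :
    LinearIndependent K₀ (fam e₁ e₂ b₁ b₂) := by
  rw [Fintype.linearIndependent_iff]
  intro g hg
  by_contra hcon
  have hg0 : g ≠ 0 := fun h0 => hcon (fun i => by rw [h0]; rfl)
  obtain ⟨n, hn, k, hk0, hk⟩ := exists_scale O₀ ϖ hϖ hϖ0 hU g hg0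
  have hsum : (∑ k, algebraMap K₀ E (ϖ ^ n * g k) * fam e₁ e₂ b₁ b₂ k) = 0 := by
    have : (∑ k, algebraMap K₀ E (ϖ ^ n * g k) * fam e₁ e₂ b₁ b₂ k) =
        algebraMap K₀ E (ϖ ^ n) * ∑ k, g k • fam e₁ e₂ b₁ b₂ k := by
      rw [Finset.mul_sum]
      refine Finset.sum_congr rfl fun k _ => ?_
      rw [map_mul, Algebra.smul_def, mul_assoc]
    rw [this, hg, mul_zero]
  have hall := coeff_dvd_of_small O₀ ϖ V₁ V₂ h₁ h₂ he₁ he₁' he₂ he₂' hb₁ hb₁' hind₁ hb₂ hb₂'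
    hind₂ (fun k => ϖ ^ n * g k) hn (by rw [hsum, map_zero]; exact zero_lt_one)
    (by rw [hsum, map_zero]; exact zero_lt_one)
  obtain ⟨d, hd, hkd⟩ := hall k
  exact false_of_unit_dvd O₀ ϖ V₁ h₁ hϖ₁ hk0 hk hd hkd

/-- **Main abstract theorem**: every element of `V₁ ∩ V₂` is an `O₀`-combination of the twisted
family. -/
theorem exists_coeff [FiniteDimensional K₀ E] (hϖ : ϖ ∈ O₀) (hϖ0 : ϖ ≠ 0)
    (hU : ∀ x : K₀, x ≠ 0 → ∃ (n : ℤ) (u : K₀), u ∈ O₀ ∧ u⁻¹ ∈ O₀ ∧ x = ϖ ^ n * u)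
    (h₁ : ∀ x ∈ O₀, algebraMap K₀ E x ∈ V₁) (h₂ : ∀ x ∈ O₀, algebraMap K₀ E x ∈ V₂)
    (hϖ₁ : V₁.valuation (algebraMap K₀ E ϖ) < 1) (hϖ₂ : V₂.valuation (algebraMap K₀ E ϖ) < 1)
    {e₁ e₂ : E} (he₁ : V₁.valuation (e₁ - 1) < 1) (he₁' : V₂.valuation e₁ < 1)
    (he₂ : V₂.valuation (e₂ - 1) < 1) (he₂' : V₁.valuation e₂ < 1)
    {b₁ : ι₁ → E} (hb₁ : ∀ i, b₁ i ∈ V₁) (hb₁' : ∀ i, b₁ i ∈ V₂)
    (hind₁ : ∀ a : ι₁ → K₀, (∀ i, a i ∈ O₀) →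
      V₁.valuation (∑ i, algebraMap K₀ E (a i) * b₁ i) < 1 → ∀ i, ∃ d ∈ O₀, a i = ϖ * d)
    {b₂ : ι₂ → E} (hb₂ : ∀ i, b₂ i ∈ V₂) (hb₂' : ∀ i, b₂ i ∈ V₁)
    (hind₂ : ∀ a : ι₂ → K₀, (∀ i, a i ∈ O₀) →
      V₂.valuation (∑ i, algebraMap K₀ E (a i) * b₂ i) < 1 → ∀ i, ∃ d ∈ O₀, a i = ϖ * d)
    (hdeg : Module.finrank K₀ E ≤ Fintype.card ι₁ + Fintype.card ι₂)
    (x : E) (hx₁ : x ∈ V₁) (hx₂ : x ∈ V₂) :
    ∃ a : ι₁ ⊕ ι₂ → K₀, (∀ k, a k ∈ O₀) ∧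
      x = ∑ k, algebraMap K₀ E (a k) * fam e₁ e₂ b₁ b₂ k := by
  have hli := linearIndependent_fam hϖ hϖ0 hU h₁ h₂ hϖ₁ he₁ he₁' he₂ he₂' hb₁ hb₁' hind₁ hb₂
    hb₂' hind₂
  have hcard : Fintype.card (ι₁ ⊕ ι₂) = Module.finrank K₀ E := by
    have h1 := hli.fintype_card_le_finrank
    rw [Fintype.card_sum] at h1 ⊢
    omega
  have hspan := hli.span_eq_top_of_card_eq_finrank' hcard
  have hxs : x ∈ Submodule.span K₀ (Set.range (fam e₁ e₂ b₁ b₂)) := by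
    rw [hspan]
    trivial
  obtain ⟨g, hg⟩ := (Submodule.mem_span_range_iff_exists_fun K₀).mp hxs
  by_cases hg0 : g = 0
  · refine ⟨0, fun k => zero_mem _, ?_⟩
    rw [← hg, hg0]
    simp
  obtain ⟨n, hn, k, hk0, hk⟩ := exists_scale O₀ ϖ hϖ hϖ0 hU g hg0
  have hsum : (∑ k, algebraMap K₀ E (ϖ ^ n * g k) * fam e₁ e₂ b₁ b₂ k) =
      algebraMap K₀ E (ϖ ^ n) * x := by
    rw [← hg, Finset.mul_sum]
    refine Finset.sum_congr rfl fun k _ => ?_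
    rw [map_mul, Algebra.smul_def, mul_assoc]
  rcases le_or_gt n 0 with hn0 | hn0
  · -- no denominators
    obtain ⟨m, hm⟩ := Int.eq_ofNat_of_zero_le (neg_nonneg.mpr hn0)
    refine ⟨g, fun k => ?_, ?_⟩
    · have : g k = ϖ ^ m * (ϖ ^ n * g k) := by
        rw [← mul_assoc, ← zpow_natCast, ← hm, ← zpow_add₀ hϖ0, neg_add_cancel, zpow_zero,
          one_mul]
      rw [this]
      exact mul_mem (pow_mem hϖ m) (hn k)
    · rw [← hg]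
      refine Finset.sum_congr rfl fun k _ => ?_
      rw [Algebra.smul_def]
  · -- a genuine denominator is impossible
    exfalso
    obtain ⟨m, hm⟩ := Int.eq_ofNat_of_zero_le (sub_nonneg.mpr (Int.add_one_le_iff.mpr hn0))
    have hpow : ϖ ^ n = ϖ * ϖ ^ m := by
      rw [← zpow_natCast, ← hm, ← zpow_one_add₀ hϖ0]
      congr 1
      ring
    have hsmall : ∀ (V : ValuationSubring E), (∀ y ∈ O₀, algebraMap K₀ E y ∈ V) →
        V.valuation (algebraMap K₀ E ϖ) < 1 → x ∈ V →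
        V.valuation (algebraMap K₀ E (ϖ ^ n) * x) < 1 := by
      intro V hV hϖV hxV
      have hre : algebraMap K₀ E (ϖ * ϖ ^ m) * x =
          (x * algebraMap K₀ E (ϖ ^ m)) * algebraMap K₀ E ϖ := by
        rw [map_mul]
        ring
      rw [hpow, hre, map_mul]
      exact mul_lt_one_of_le_of_lt'
        ((V.valuation_le_one_iff _).mpr (mul_mem hxV (hV _ (pow_mem hϖ m)))) hϖV
    have hall := coeff_dvd_of_small O₀ ϖ V₁ V₂ h₁ h₂ he₁ he₁' he₂ he₂' hb₁ hb₁' hind₁ hb₂ hb₂'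
      hind₂ (fun k => ϖ ^ n * g k) hn (by rw [hsum]; exact hsmall V₁ h₁ hϖ₁ hx₁)
      (by rw [hsum]; exact hsmall V₂ h₂ hϖ₂ hx₂)
    obtain ⟨d, hd, hkd⟩ := hall k
    exact false_of_unit_dvd O₀ ϖ V₁ h₁ hϖ₁ hk0 hk hd hkd

/-- **Integrality**: every element of `V₁ ∩ V₂` is a root of a monic polynomial over `O₀`. -/
theorem exists_monic [FiniteDimensional K₀ E] (hϖ : ϖ ∈ O₀) (hϖ0 : ϖ ≠ 0)
    (hU : ∀ x : K₀, x ≠ 0 → ∃ (n : ℤ) (u : K₀), u ∈ O₀ ∧ u⁻¹ ∈ O₀ ∧ x = ϖ ^ n * u)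
    (h₁ : ∀ x ∈ O₀, algebraMap K₀ E x ∈ V₁) (h₂ : ∀ x ∈ O₀, algebraMap K₀ E x ∈ V₂)
    (hϖ₁ : V₁.valuation (algebraMap K₀ E ϖ) < 1) (hϖ₂ : V₂.valuation (algebraMap K₀ E ϖ) < 1)
    {e₁ e₂ : E} (he₁ : V₁.valuation (e₁ - 1) < 1) (he₁' : V₂.valuation e₁ < 1)
    (he₂ : V₂.valuation (e₂ - 1) < 1) (he₂' : V₁.valuation e₂ < 1)
    {b₁ : ι₁ → E} (hb₁ : ∀ i, b₁ i ∈ V₁) (hb₁' : ∀ i, b₁ i ∈ V₂)
    (hind₁ : ∀ a : ι₁ → K₀, (∀ i, a i ∈ O₀) →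
      V₁.valuation (∑ i, algebraMap K₀ E (a i) * b₁ i) < 1 → ∀ i, ∃ d ∈ O₀, a i = ϖ * d)
    {b₂ : ι₂ → E} (hb₂ : ∀ i, b₂ i ∈ V₂) (hb₂' : ∀ i, b₂ i ∈ V₁)
    (hind₂ : ∀ a : ι₂ → K₀, (∀ i, a i ∈ O₀) →
      V₂.valuation (∑ i, algebraMap K₀ E (a i) * b₂ i) < 1 → ∀ i, ∃ d ∈ O₀, a i = ϖ * d)
    (hdeg : Module.finrank K₀ E ≤ Fintype.card ι₁ + Fintype.card ι₂)
    (x : E) (hx₁ : x ∈ V₁) (hx₂ : x ∈ V₂) :
    ∃ p : Polynomial ↥O₀, p.Monic ∧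
      p.eval₂ ((algebraMap K₀ E).comp O₀.subtype) x = 0 := by
  classical
  let _ : Algebra ↥O₀ E := ((algebraMap K₀ E).comp O₀.subtype).toAlgebra
  have halg : ∀ r : ↥O₀, algebraMap ↥O₀ E r = algebraMap K₀ E (r : K₀) := fun _ => rfl
  -- the subalgebra `V₁ ∩ V₂`
  let S : Subalgebra ↥O₀ E :=
    { carrier := {y | y ∈ V₁ ∧ y ∈ V₂}
      mul_mem' := fun ha hb => ⟨mul_mem ha.1 hb.1, mul_mem ha.2 hb.2⟩
      one_mem' := ⟨one_mem _, one_mem _⟩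
      add_mem' := fun ha hb => ⟨add_mem ha.1 hb.1, add_mem ha.2 hb.2⟩
      zero_mem' := ⟨zero_mem _, zero_mem _⟩
      algebraMap_mem' := fun r => ⟨h₁ _ r.2, h₂ _ r.2⟩ }
  have hfam₁ : ∀ k, fam e₁ e₂ b₁ b₂ k ∈ V₁ := fam_mem₁ V₁ he₁ he₂' hb₁ hb₂'
  have hfam₂ : ∀ k, fam e₁ e₂ b₁ b₂ k ∈ V₂ := by
    intro k
    have h := fam_mem₁ V₂ (e₁ := e₂) (e₂ := e₁) he₂ he₁' hb₂ hb₁' (Sum.swap k)
    rcases k with i | i
    · exact h
    · exact h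
  have hS : S.toSubmodule = Submodule.span ↥O₀ (Set.range (fam e₁ e₂ b₁ b₂)) := by
    apply le_antisymm
    · intro y hy
      obtain ⟨a, ha, hya⟩ := exists_coeff hϖ hϖ0 hU h₁ h₂ hϖ₁ hϖ₂ he₁ he₁' he₂ he₂' hb₁ hb₁'
        hind₁ hb₂ hb₂' hind₂ hdeg y hy.1 hy.2
      rw [hya]
      refine Submodule.sum_mem _ fun k _ => ?_
      have : algebraMap K₀ E (a k) * fam e₁ e₂ b₁ b₂ k =
          (⟨a k, ha k⟩ : ↥O₀) • fam e₁ e₂ b₁ b₂ k := by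
        rw [Algebra.smul_def, halg]
      rw [this]
      exact Submodule.smul_mem _ _ (Submodule.subset_span ⟨k, rfl⟩)
    · rw [Submodule.span_le]
      rintro _ ⟨k, rfl⟩
      exact ⟨hfam₁ k, hfam₂ k⟩
  have hFG : S.toSubmodule.FG := by
    rw [hS]
    exact Submodule.fg_span (Set.finite_range _)
  have hint : IsIntegral ↥O₀ x := IsIntegral.of_mem_of_fg S hFG x ⟨hx₁, hx₂⟩
  obtain ⟨p, hp, hpx⟩ := hint
  exact ⟨p, hp, hpx⟩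

end Span

section Idem

variable {E : Type*} [Field E]

theorem idem_aux (V : ValuationSubring E) (x : E) (hx : V.valuation x < 1) :
    V.valuation ((1 + x)⁻¹ - 1) < 1 ∧ V.valuation (x * (1 + x)⁻¹) < 1 := by
  have h1 : V.valuation (1 + x) = 1 := (V.valuation).map_one_add_of_lt hx
  have hne1 : (1 : E) + x ≠ 0 := by
    intro h0
    rw [h0, map_zero] at h1
    exact zero_ne_one h1
  have hval : V.valuation (x * (1 + x)⁻¹) < 1 := by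
    rw [map_mul, map_inv₀, h1, inv_one, mul_one]
    exact hx
  refine ⟨?_, hval⟩
  have e : (1 + x)⁻¹ - 1 = -(x * (1 + x)⁻¹) := by
    have h := mul_inv_cancel₀ hne1
    linear_combination h
  rw [e, Valuation.map_neg]
  exact hval

/-- From an element `c` in the maximal ideal of `V₁` whose inverse lies in the maximal ideal of
`V₂`: "orthogonal idempotents modulo the maximal ideals". -/
theorem exists_idem (V₁ V₂ : ValuationSubring E) (c : E) (hc0 : c ≠ 0)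
    (hc₁ : V₁.valuation c < 1) (hc₂ : V₂.valuation c⁻¹ < 1) :
    ∃ e₁ e₂ : E, V₁.valuation (e₁ - 1) < 1 ∧ V₂.valuation e₁ < 1 ∧
      V₂.valuation (e₂ - 1) < 1 ∧ V₁.valuation e₂ < 1 := by
  obtain ⟨ha, hb⟩ := idem_aux V₁ c hc₁
  obtain ⟨ha', hb'⟩ := idem_aux V₂ c⁻¹ hc₂
  have hfac : 1 + c = c * (1 + c⁻¹) := by
    rw [mul_add, mul_one, mul_inv_cancel₀ hc0, add_comm]
  have e1 : (1 + c)⁻¹ = c⁻¹ * (1 + c⁻¹)⁻¹ := by
    rw [hfac, mul_inv]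
  have e2 : c * (1 + c)⁻¹ = (1 + c⁻¹)⁻¹ := by
    rw [e1, ← mul_assoc, mul_inv_cancel₀ hc0, one_mul]
  refine ⟨(1 + c)⁻¹, c * (1 + c)⁻¹, ha, ?_, ?_, hb⟩
  · rw [e1]
    exact hb'
  · rw [e2]
    exact ha'

end Idem

end Fermat.Agent.S34.TwoValAbs
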