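import Mathlib
import Fermat.Agent.S18.PGGlue
import Fermat.Agent.S18.Endgame
import Fermat.Agent.S20.Comb
import Fermat.Agent.S28.TowerNewPrime
import Fermat.Agent.S37.AtkinLehner
import Fermat.Agent.S37.Kronecker
import Fermat.Agent.S34.TwoValAbs

/-!
# S34 (wave 6), package B1 / (V3): the two Gauss valuation rings at level `N = M q`

`W` is a discrete valuation ring of a field `L` of characteristic zero, with residue
characteristic `q ∤ M`; `F = S24.FF L (M * q)`; `w` is an `L`-algebra endomorphism of `F`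
exchanging the two degeneracy embeddings `α`, `β` of `S24.FF L M` (the Atkin–Lehner involution).

* `valRing W φ hφ`: the valuation ring `{x | φ x ∈ contentRing W}` of a field `F` with a ring
  homomorphism `φ : F → L((q))` landing in `fracInt W`; `valuation_lt_one_iff`.
* `coe_mem_fracInt`: `FF L N ⊆ fracInt W` at every level `N`.
* `exists_isIntegralElem_of_mem_both` (V3a): an element of `F` whose `q`-expansion and whose
  `w`-translate's `q`-expansion both lie in the content ring is Gauss-integral over `W[j]`.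
* `mem_both_of_isIntegralElem` (V3b): the converse.
* `inC_of_mem_both`, `mem_both_of_inC`, `exists_inC_sub_one`: the same in the currency of
  `S18.Endgame` (`InC π j x`).
-/

set_option autoImplicit false
set_option linter.unusedSectionVars false

noncomputable section

namespace Fermat.Agent.S34.TwoGauss

open ModularCurve Polynomial Fermat.Agent.S18 Fermat.Agent.S18.Gauss

/-! ### A total reduction map -/

section Rd

variable {L : Type*} [Field L] (W : ValuationSubring L)

open Classical in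
/-- the reduction map, extended by `0` outside the content ring -/
def rd (f : LaurentSeries L) : LaurentSeries (IsLocalRing.ResidueField W) :=
  if h : f ∈ contentRing W then red W ⟨f, h⟩ else 0

theorem rd_of_mem {f : LaurentSeries L} (h : f ∈ contentRing W) : rd W f = red W ⟨f, h⟩ := by
  unfold rd
  exact dif_pos h

theorem rd_zero : rd W 0 = 0 := by
  rw [rd_of_mem W (Subring.zero_mem (contentRing W))]
  have h : (⟨0, Subring.zero_mem (contentRing W)⟩ : contentRing W) = 0 := rfl
  rw [h, map_zero]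

theorem rd_one : rd W 1 = 1 := by
  rw [rd_of_mem W (Subring.one_mem (contentRing W))]
  have h : (⟨1, Subring.one_mem (contentRing W)⟩ : contentRing W) = 1 := rfl
  rw [h, map_one]

theorem rd_mul {f g : LaurentSeries L} (hf : f ∈ contentRing W) (hg : g ∈ contentRing W) :
    rd W (f * g) = rd W f * rd W g := by
  rw [rd_of_mem W (Subring.mul_mem _ hf hg), rd_of_mem W hf, rd_of_mem W hg, ← map_mul]
  rfl

theorem rd_add {f g : LaurentSeries L} (hf : f ∈ contentRing W) (hg : g ∈ contentRing W) :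
    rd W (f + g) = rd W f + rd W g := by
  rw [rd_of_mem W (Subring.add_mem _ hf hg), rd_of_mem W hf, rd_of_mem W hg, ← map_add]
  rfl

theorem rd_sub {f g : LaurentSeries L} (hf : f ∈ contentRing W) (hg : g ∈ contentRing W) :
    rd W (f - g) = rd W f - rd W g := by
  rw [rd_of_mem W (Subring.sub_mem _ hf hg), rd_of_mem W hf, rd_of_mem W hg, ← map_sub]
  rfl

theorem rd_pow {f : LaurentSeries L} (hf : f ∈ contentRing W) (n : ℕ) :
    rd W (f ^ n) = rd W f ^ n := by
  rw [rd_of_mem W (Subring.pow_mem _ hf n), rd_of_mem W hf, ← map_pow]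
  rfl

theorem rd_sum {ι : Type*} (s : Finset ι) (f : ι → LaurentSeries L)
    (hf : ∀ i ∈ s, f i ∈ contentRing W) : rd W (∑ i ∈ s, f i) = ∑ i ∈ s, rd W (f i) := by
  classical
  induction s using Finset.induction_on with
  | empty => rw [Finset.sum_empty, Finset.sum_empty, rd_zero]
  | insert a s ha ih =>
    rw [Finset.sum_insert ha, Finset.sum_insert ha,
      rd_add W (hf a (Finset.mem_insert_self a s))
        (sum_mem fun i hi => hf i (Finset.mem_insert_of_mem hi)),
      ih fun i hi => hf i (Finset.mem_insert_of_mem hi)]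

theorem rd_qExpand (d : ℕ) [NeZero d] {f : LaurentSeries L} (hf : f ∈ contentRing W) :
    rd W (qExpand L d f) = qExpand (IsLocalRing.ResidueField W) d (rd W f) := by
  rw [rd_of_mem W (qExpand_mem_contentRing W d hf), rd_of_mem W hf]
  exact red_qExpand W d hf

theorem rd_intCast (x : LaurentSeries ℤ) :
    rd W (coeffMap (Int.castRingHom L) x) =
      coeffMap (Int.castRingHom (IsLocalRing.ResidueField W)) x := by
  rw [rd_of_mem W (coeffMap_intCast_mem_contentRing W x)]
  exact red_coeffMap_intCast W x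

theorem rd_jq : rd W (jqModC L) = jqModC (IsLocalRing.ResidueField W) := by
  rw [rd_of_mem W (jq_mem_contentRing W)]
  exact red_jq W

theorem rd_C (c : W) :
    rd W (HahnSeries.C (c : L)) = HahnSeries.C (IsLocalRing.residue W c) := by
  rw [rd_of_mem W (C_mem_contentRing W c)]
  exact red_C W c

theorem rd_mem_kJ {c : LaurentSeries L} (hc : c ∈ IntermediateField.adjoin L {jqModC L})
    (hcW : c ∈ contentRing W) : rd W c ∈ kJ W := by
  rw [rd_of_mem W hcW]
  exact red_mem_kJ W hc hcW

theorem inv_mem_of_rd_ne_zero {f : LaurentSeries L} (hf : f ∈ contentRing W)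
    (h : rd W f ≠ 0) : f⁻¹ ∈ contentRing W :=
  inv_mem_contentRing W hf (by rwa [rd_of_mem W hf] at h)

theorem rd_eq_zero_iff [IsDiscreteValuationRing W] {ϖ : W} (hϖ : Irreducible ϖ)
    {f : LaurentSeries L} (hf : f ∈ contentRing W) :
    rd W f = 0 ↔ ∃ g ∈ contentRing W, f = HahnSeries.C ((ϖ : W) : L) * g := by
  rw [rd_of_mem W hf, red_eq_zero_iff W hϖ]
  constructor
  · rintro ⟨g, hg⟩
    exact ⟨g, g.2, hg⟩
  · rintro ⟨g, hg, h⟩
    exact ⟨⟨g, hg⟩, h⟩

end Rd

/-! ### The Gauss valuation ring pulled back along a ring homomorphism -/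

section ValRing

variable {L : Type*} [Field L] (W : ValuationSubring L) [IsDiscreteValuationRing W]
  {F : Type*} [Field F] (φ : F →+* LaurentSeries L) (hφ : ∀ x, φ x ∈ fracInt W)

/-- the valuation ring `{x | φ x ∈ contentRing W}` -/
def valRing : ValuationSubring F where
  carrier := {x | φ x ∈ contentRing W}
  mul_mem' := fun {a b} ha hb => by
    show φ (a * b) ∈ contentRing W
    rw [map_mul]
    exact mul_mem ha hb
  one_mem' := by
    show φ 1 ∈ contentRing W
    rw [map_one]
    exact one_mem _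
  add_mem' := fun {a b} ha hb => by
    show φ (a + b) ∈ contentRing W
    rw [map_add]
    exact add_mem ha hb
  zero_mem' := by
    show φ 0 ∈ contentRing W
    rw [map_zero]
    exact zero_mem _
  neg_mem' := fun {a} ha => by
    show φ (-a) ∈ contentRing W
    rw [map_neg]
    exact neg_mem ha
  mem_or_inv_mem' := fun x => by
    have h := mem_contentRing_or_inv_mem W (hφ x)
    rw [← map_inv₀] at h
    exact h

theorem mem_valRing_iff (x : F) : x ∈ valRing W φ hφ ↔ φ x ∈ contentRing W := Iff.rfl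

theorem valuation_lt_one_iff (x : F) :
    (valRing W φ hφ).valuation x < 1 ↔ φ x ∈ contentRing W ∧ rd W (φ x) = 0 := by
  constructor
  · intro hx
    have hmem : φ x ∈ contentRing W := ((valRing W φ hφ).valuation_le_one_iff x).mp hx.le
    refine ⟨hmem, ?_⟩
    by_contra hred
    have hx0 : x ≠ 0 := by
      rintro rfl
      apply hred
      rw [map_zero, rd_zero]
    have hinv' : x⁻¹ ∈ valRing W φ hφ := by
      show φ x⁻¹ ∈ contentRing W
      rw [map_inv₀]
      exact inv_mem_of_rd_ne_zero W hmem hred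
    have hle := ((valRing W φ hφ).valuation_le_one_iff x⁻¹).mpr hinv'
    have h1 : (valRing W φ hφ).valuation x⁻¹ * (valRing W φ hφ).valuation x = 1 := by
      rw [← map_mul, inv_mul_cancel₀ hx0, map_one]
    have h2 := TwoValAbs.mul_lt_one_of_le_of_lt' hle hx
    rw [h1] at h2
    exact lt_irrefl _ h2
  · rintro ⟨hmem, hred⟩
    by_contra hnot
    have hle := ((valRing W φ hφ).valuation_le_one_iff x).mpr hmem
    have h1 : (valRing W φ hφ).valuation x = 1 := le_antisymm hle (not_lt.mp hnot)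
    have hx0 : x ≠ 0 := by
      rintro rfl
      rw [map_zero] at h1
      exact zero_ne_one h1
    have hinv' : x⁻¹ ∈ valRing W φ hφ := by
      rw [← ValuationSubring.valuation_le_one_iff, map_inv₀, h1, inv_one]
    have hinv : (φ x)⁻¹ ∈ contentRing W := by
      rw [← map_inv₀]
      exact hinv'
    have h2 := rd_mul W hmem hinv
    rw [mul_inv_cancel₀ ((map_ne_zero φ).mpr hx0), rd_one, hred, zero_mul] at h2
    exact one_ne_zero h2

theorem valuation_eq_one_of {x : F} (hmem : φ x ∈ contentRing W) (hred : rd W (φ x) ≠ 0) :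
    (valRing W φ hφ).valuation x = 1 := by
  refine le_antisymm (((valRing W φ hφ).valuation_le_one_iff x).mpr hmem) (not_lt.mp ?_)
  intro hlt
  exact hred ((valuation_lt_one_iff W φ hφ x).mp hlt).2

end ValRing

/-! ### The function fields lie in `fracInt W` -/

section Frac

variable {L : Type*} [Field L] [Algebra ℚ L] (W : ValuationSubring L)

theorem jser_mem_contentRing (d : ℕ) [NeZero d] :
    Fermat.Agent.S37.AtkinLehner.jser L d ∈ contentRing W := by
  have h : Fermat.Agent.S37.AtkinLehner.jser L d = qExpand L d (jqModC L) := by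
    rw [Fermat.Agent.S37.AtkinLehner.jser_eq, coeffEmb, coeffMap_qExpand]
    congr 1
    exact coeffEmb_jq L
  rw [h]
  exact jqd_mem_contentRing W d

/-- `FF L N ⊆ fracInt W` at every level `N`. -/
theorem coe_mem_fracInt (N : ℕ) [NeZero N] (x : Fermat.Agent.S24.FF L N) :
    (x : LaurentSeries L) ∈ fracInt W := by
  let E₀ : IntermediateField L (LaurentSeries L) :=
    (fracInt W).toIntermediateField (fun c => by
      rw [Fermat.Agent.S28.Content.algebraMap_eq_C_of_field]
      exact C_mem_fracInt W c)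
  let E : IntermediateField L (Fermat.Agent.S24.FF L N) :=
    E₀.comap (IntermediateField.val (laurentBaseChange L (modularFunctionFieldFull N)))
  have hE : E = ⊤ := by
    apply Fermat.Agent.S37.AtkinLehner.eq_top_of_jser_mem
    intro d hd y hy
    have hd0 : d ≠ 0 := fun h =>
      NeZero.ne N (by rw [h] at hd; exact Nat.eq_zero_of_zero_dvd hd)
    have : NeZero d := ⟨hd0⟩
    show (y : LaurentSeries L) ∈ fracInt W
    rw [hy]
    exact contentRing_le_fracInt W (jser_mem_contentRing W d)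
  have hx : x ∈ E := by
    rw [hE]
    exact IntermediateField.mem_top
  exact hx

end Frac

/-! ### Residue computations -/

section Residue

variable {L : Type*} [Field L] (W : ValuationSubring L)
  (q : ℕ) [NeZero q] [Fact q.Prime] [CharP (IsLocalRing.ResidueField W) q]

omit [NeZero q] in
theorem frob_jq (κ : Type*) [Field κ] [CharP κ q] [NeZero q] :
    qExpand κ q (jqModC κ) = jqModC κ ^ q := by
  rw [Fermat.Agent.S37.Kronecker.pow_char_eq q, coeffMap_jqModC]

theorem order_jq (κ : Type*) [Field κ] : (jqModC κ).order = -1 := by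
  rw [← Fermat.Agent.S28.jS_eq_jqModC]
  exact Fermat.Agent.S28.NotRational.order_jS

theorem jq_ne_zero (κ : Type*) [Field κ] : jqModC κ ≠ 0 := by
  intro h
  have := order_jq κ
  rw [h, HahnSeries.order_zero] at this
  omega

omit [NeZero q] [Fact q.Prime] [CharP (IsLocalRing.ResidueField W) q] in
theorem jq_mem_kJ : jqModC (IsLocalRing.ResidueField W) ∈ kJ W :=
  IntermediateField.subset_adjoin (IsLocalRing.ResidueField W)
    {jqModC (IsLocalRing.ResidueField W)} (Set.mem_singleton _)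

theorem qExpand_mem_kJ {y : LaurentSeries (IsLocalRing.ResidueField W)} (hy : y ∈ kJ W) :
    qExpand (IsLocalRing.ResidueField W) q y ∈ kJ W := by
  have hle : kJ W ≤ (kJ W).comap (qExpandAlgHomC (IsLocalRing.ResidueField W) q) := by
    rw [IntermediateField.adjoin_le_iff]
    rintro _ rfl
    show qExpandAlgHomC (IsLocalRing.ResidueField W) q (jqModC _) ∈ kJ W
    rw [qExpandAlgHomC_apply, frob_jq]
    exact pow_mem (jq_mem_kJ W) q
  exact hle hy

theorem seriesA :
    jqModC L ^ q - qExpand L q (jqModC L) ∈ contentRing W ∧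
      rd W (jqModC L ^ q - qExpand L q (jqModC L)) = 0 := by
  refine ⟨sub_mem (pow_mem (jq_mem_contentRing W) q) (jqd_mem_contentRing W q), ?_⟩
  rw [rd_sub W (pow_mem (jq_mem_contentRing W) q) (jqd_mem_contentRing W q),
    rd_pow W (jq_mem_contentRing W), rd_qExpand W q (jq_mem_contentRing W), rd_jq, frob_jq,
    sub_self]

theorem seriesB :
    qExpand L q (jqModC L) ^ q - jqModC L ∈ contentRing W ∧
      rd W (qExpand L q (jqModC L) ^ q - jqModC L) ≠ 0 := by
  refine ⟨sub_mem (pow_mem (jqd_mem_contentRing W q) q) (jq_mem_contentRing W), ?_⟩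
  rw [rd_sub W (pow_mem (jqd_mem_contentRing W q) q) (jq_mem_contentRing W),
    rd_pow W (jqd_mem_contentRing W q), rd_qExpand W q (jq_mem_contentRing W), rd_jq, frob_jq]
  intro h0
  have h1 : (jqModC (IsLocalRing.ResidueField W) ^ q) ^ q = jqModC _ := sub_eq_zero.mp h0
  have h2 := congrArg HahnSeries.order h1
  rw [HahnSeries.order_pow, HahnSeries.order_pow, order_jq] at h2
  have hq2 : 2 ≤ q := (Fact.out : q.Prime).two_le
  simp only [nsmul_eq_mul] at h2
  have hq2' : (2 : ℤ) ≤ q := by exact_mod_cast hq2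
  nlinarith

/-- the second residue-degree input: independence of the `θ̄_i j̄^r` over `κ(j̄^q)` -/
theorem hind2_aux {n : ℕ} (θ : Fin n → LaurentSeries ℤ)
    (hli : LinearIndependent (kJ W)
      (fun i => coeffMap (Int.castRingHom (IsLocalRing.ResidueField W)) (θ i)))
    (c : Fin n × Fin q → LaurentSeries L)
    (hc : ∀ k, c k ∈ IntermediateField.adjoin L {jqModC L}) (hcW : ∀ k, c k ∈ contentRing W)
    (h0 : rd W (∑ k, qExpand L q (c k) *
      (coeffMap (Int.castRingHom L) (θ k.1) * jqModC L ^ (k.2 : ℕ))) = 0) (k : Fin n × Fin q) :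
    rd W (c k) = 0 := by
  classical
  have hΘ : ∀ i, coeffMap (Int.castRingHom L) (θ i) ∈ contentRing W := fun i =>
    coeffMap_intCast_mem_contentRing W (θ i)
  have hJ : ∀ r : ℕ, jqModC L ^ r ∈ contentRing W := fun r => pow_mem (jq_mem_contentRing W) r
  have hmem : ∀ k : Fin n × Fin q, qExpand L q (c k) *
      (coeffMap (Int.castRingHom L) (θ k.1) * jqModC L ^ (k.2 : ℕ)) ∈ contentRing W := fun k =>
    mul_mem (qExpand_mem_contentRing W q (hcW k)) (mul_mem (hΘ k.1) (hJ _))
  have h1 : ∀ k : Fin n × Fin q, rd W (qExpand L q (c k) *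
      (coeffMap (Int.castRingHom L) (θ k.1) * jqModC L ^ (k.2 : ℕ))) =
      qExpand _ q (rd W (c k)) *
        (coeffMap (Int.castRingHom (IsLocalRing.ResidueField W)) (θ k.1) *
          jqModC _ ^ (k.2 : ℕ)) := fun k => by
    rw [rd_mul W (qExpand_mem_contentRing W q (hcW k)) (mul_mem (hΘ k.1) (hJ _)),
      rd_qExpand W q (hcW k), rd_mul W (hΘ k.1) (hJ _), rd_intCast,
      rd_pow W (jq_mem_contentRing W), rd_jq]
  rw [rd_sum W _ _ (fun k _ => hmem k), Finset.sum_congr rfl (fun k _ => h1 k),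
    Fintype.sum_prod_type] at h0
  have hD : ∀ i, (∑ r : Fin q, qExpand _ q (rd W (c (i, r))) * jqModC _ ^ (r : ℕ)) ∈ kJ W :=
    fun i => sum_mem fun r _ => mul_mem (qExpand_mem_kJ W q (rd_mem_kJ W (hc _) (hcW _)))
      (pow_mem (jq_mem_kJ W) _)
  have h2 := Fintype.linearIndependent_iff.mp hli
    (fun i => (⟨∑ r : Fin q, qExpand _ q (rd W (c (i, r))) * jqModC _ ^ (r : ℕ), hD i⟩ : kJ W))
    (by
      rw [← h0]
      refine Finset.sum_congr rfl fun i _ => ?_
      show (∑ r : Fin q, qExpand _ q (rd W (c (i, r))) * jqModC _ ^ (r : ℕ)) *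
        coeffMap (Int.castRingHom (IsLocalRing.ResidueField W)) (θ i) = _
      rw [Finset.sum_mul]
      refine Finset.sum_congr rfl fun r _ => ?_
      ring)
  obtain ⟨i, r⟩ := k
  have h3 : (∑ r : Fin q, qExpand _ q (rd W (c (i, r))) * jqModC _ ^ (r : ℕ)) = 0 :=
    congrArg Subtype.val (h2 i)
  by_contra hne
  let Q : (LaurentSeries (IsLocalRing.ResidueField W))[X] :=
    ∑ r : Fin q, Polynomial.monomial (r : ℕ) (rd W (c (i, r)))
  have hQ : Q ≠ 0 := by
    intro hQ0
    apply hne
    have h4 := congrArg (fun P : (LaurentSeries (IsLocalRing.ResidueField W))[X] =>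
      P.coeff (r : ℕ)) hQ0
    simp only [Q, Polynomial.finsetSum_coeff, Polynomial.coeff_monomial,
      Polynomial.coeff_zero] at h4
    rw [Finset.sum_eq_single r] at h4
    · simpa using h4
    · intro r' _ hr'
      rw [if_neg]
      exact fun h => hr' (Fin.ext h)
    · intro h
      exact absurd (Finset.mem_univ r) h
  have hdeg : Q.natDegree < q := by
    refine lt_of_le_of_lt (Polynomial.natDegree_sum_le_of_forall_le _ _ (n := q - 1)
      (fun r _ => (Polynomial.natDegree_monomial_le _).trans (Nat.le_sub_one_of_lt r.2)))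
      (Nat.sub_lt (NeZero.pos q) one_pos)
  have hcop : IsCoprime (jqModC (IsLocalRing.ResidueField W)).order (q : ℤ) := by
    rw [order_jq]
    exact isCoprime_one_left.neg_left
  have hev := Fermat.Agent.S28.NewPrime.eval₂_ne_zero_of_order
    (qExpand (IsLocalRing.ResidueField W) q) q (fun x => ⟨x, rfl⟩)
    (jqModC (IsLocalRing.ResidueField W)) (jq_ne_zero _) hcop Q hQ hdeg
  apply hev
  rw [Polynomial.eval₂_finsetSum]
  simp only [Polynomial.eval₂_monomial]
  exact h3

end Residue

/-! ### The two `q`-expansion maps at level `M q` -/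

section Maps

variable (L : Type*) [Field L] [Algebra ℚ L] (M q : ℕ) [NeZero M] [NeZero q]

/-- the `q`-expansion map of `FF L (M * q)` -/
def phi1 : Fermat.Agent.S24.FF L (M * q) →+* LaurentSeries L :=
  algebraMap (Fermat.Agent.S24.FF L (M * q)) (LaurentSeries L)

/-- the `q`-expansion map of `FF L M` -/
def phiM : Fermat.Agent.S24.FF L M →+* LaurentSeries L :=
  algebraMap (Fermat.Agent.S24.FF L M) (LaurentSeries L)

/-- the `q`-expansion map twisted by `w` -/
def phi2 (w : Fermat.Agent.S24.FF L (M * q) →ₐ[L] Fermat.Agent.S24.FF L (M * q)) :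
    Fermat.Agent.S24.FF L (M * q) →+* LaurentSeries L :=
  (phi1 L M q).comp (w : Fermat.Agent.S24.FF L (M * q) →+* Fermat.Agent.S24.FF L (M * q))

variable {L M q}

theorem phi1_apply (x : Fermat.Agent.S24.FF L (M * q)) : phi1 L M q x = (x : LaurentSeries L) :=
  rfl

theorem phi2_apply (w : Fermat.Agent.S24.FF L (M * q) →ₐ[L] Fermat.Agent.S24.FF L (M * q))
    (x : Fermat.Agent.S24.FF L (M * q)) :
    phi2 L M q w x = ((w x : Fermat.Agent.S24.FF L (M * q)) : LaurentSeries L) := rfl

theorem phi1_alpha (b : Fermat.Agent.S24.FF L M) :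
    phi1 L M q (heckeAlphaBar L M q b) = phiM L M b :=
  coe_heckeAlphaBar M q b

theorem phi1_beta (b : Fermat.Agent.S24.FF L M) :
    phi1 L M q (heckeBetaBar L M q b) = qExpand L q (phiM L M b) :=
  coe_heckeBetaBar M q b

theorem phi1_algebraMap (c : L) :
    phi1 L M q (algebraMap L (Fermat.Agent.S24.FF L (M * q)) c) = HahnSeries.C c := by
  rw [phi1, ← IsScalarTower.algebraMap_apply,
    Fermat.Agent.S28.Content.algebraMap_eq_C_of_field]

theorem phiM_jBC : phiM L M (Fermat.Agent.S24.jBC L M) = jqModC L := coe_jBC_eq L M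

variable (w : Fermat.Agent.S24.FF L (M * q) →ₐ[L] Fermat.Agent.S24.FF L (M * q))

theorem phi2_algebraMap (c : L) :
    phi2 L M q w (algebraMap L (Fermat.Agent.S24.FF L (M * q)) c) = HahnSeries.C c := by
  show phi1 L M q (w (algebraMap L (Fermat.Agent.S24.FF L (M * q)) c)) = _
  rw [w.commutes, phi1_algebraMap]

theorem phi2_alpha (hwα : w.comp (heckeAlphaBar L M q) = heckeBetaBar L M q)
    (b : Fermat.Agent.S24.FF L M) :
    phi2 L M q w (heckeAlphaBar L M q b) = qExpand L q (phiM L M b) := by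
  have h := AlgHom.congr_fun hwα b
  rw [AlgHom.comp_apply] at h
  show phi1 L M q (w (heckeAlphaBar L M q b)) = _
  rw [h, phi1_beta]

theorem phi2_beta (hwβ : w.comp (heckeBetaBar L M q) = heckeAlphaBar L M q)
    (b : Fermat.Agent.S24.FF L M) :
    phi2 L M q w (heckeBetaBar L M q b) = phiM L M b := by
  have h := AlgHom.congr_fun hwβ b
  rw [AlgHom.comp_apply] at h
  show phi1 L M q (w (heckeBetaBar L M q b)) = _
  rw [h, phi1_alpha]

variable (L M q) in
/-- the base field `L(j)` -/
abbrev baseField : IntermediateField L (Fermat.Agent.S24.FF L (M * q)) :=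
  IntermediateField.adjoin L {Fermat.Agent.S24.jBC L (M * q)}

variable (L M q) in
/-- the `q`-expansion map of the base field -/
def psi0 : ↥(baseField L M q) →+* LaurentSeries L :=
  (phi1 L M q).comp (algebraMap ↥(baseField L M q) (Fermat.Agent.S24.FF L (M * q)))

theorem psi0_apply (c : ↥(baseField L M q)) :
    psi0 L M q c = phi1 L M q (c : Fermat.Agent.S24.FF L (M * q)) := rfl

variable (M q) in
/-- constants in the base field -/
def baseConst (c : L) : ↥(baseField L M q) :=
  ⟨algebraMap L (Fermat.Agent.S24.FF L (M * q)) c, (baseField L M q).algebraMap_mem c⟩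

theorem psi0_baseConst (c : L) : psi0 L M q (baseConst M q c) = HahnSeries.C c :=
  phi1_algebraMap (M := M) (q := q) c

theorem alpha_jBC :
    heckeAlphaBar L M q (Fermat.Agent.S24.jBC L M) = Fermat.Agent.S24.jBC L (M * q) :=
  Subtype.ext (by
    rw [coe_heckeAlphaBar, Fermat.Agent.S24.coe_jBC, Fermat.Agent.S24.coe_jBC])

theorem exists_alpha_eq (c : ↥(baseField L M q)) :
    ∃ b : Fermat.Agent.S24.FF L M,
      heckeAlphaBar L M q b = (c : Fermat.Agent.S24.FF L (M * q)) := by
  have hle : baseField L M q ≤ (heckeAlphaBar L M q).fieldRange := by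
    rw [IntermediateField.adjoin_le_iff]
    rintro _ rfl
    exact ⟨Fermat.Agent.S24.jBC L M, alpha_jBC⟩
  exact hle c.2

theorem phi2_base (hwα : w.comp (heckeAlphaBar L M q) = heckeBetaBar L M q)
    (c : ↥(baseField L M q)) :
    phi2 L M q w (c : Fermat.Agent.S24.FF L (M * q)) = qExpand L q (psi0 L M q c) := by
  obtain ⟨b, hb⟩ := exists_alpha_eq c
  rw [psi0_apply, ← hb, phi2_alpha w hwα, phi1_alpha]

theorem psi0_mem_adjoin (c : ↥(baseField L M q)) :
    psi0 L M q c ∈ IntermediateField.adjoin L {jqModC L} :=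
  coe_mem_adjoin_jq L (M * q) c

end Maps

/-! ### The two Gauss valuation rings and the main theorem -/

section Main

variable {L : Type*} [Field L] [Algebra ℚ L] (W : ValuationSubring L) [IsDiscreteValuationRing W]
  (M q : ℕ) [NeZero M] [NeZero q]
  (w : Fermat.Agent.S24.FF L (M * q) →ₐ[L] Fermat.Agent.S24.FF L (M * q))

/-- the Gauss valuation ring at the cusp `∞` -/
abbrev V1 : ValuationSubring (Fermat.Agent.S24.FF L (M * q)) :=
  valRing W (phi1 L M q) (fun x => coe_mem_fracInt W (M * q) x)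

/-- the Gauss valuation ring at the cusp `0` -/
abbrev V2 : ValuationSubring (Fermat.Agent.S24.FF L (M * q)) :=
  valRing W (phi2 L M q w) (fun x => coe_mem_fracInt W (M * q) (w x))

/-- the base ring `O₀ = L(j) ∩ contentRing W` -/
def baseRing : Subring ↥(baseField L M q) := (contentRing W).comap (psi0 L M q)

theorem mem_baseRing_iff (c : ↥(baseField L M q)) :
    c ∈ baseRing W M q ↔ psi0 L M q c ∈ contentRing W := Iff.rfl

variable [Fact q.Prime] [CharP (IsLocalRing.ResidueField W) q]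

/-- an element in the maximal ideal of `V1` whose inverse is in the maximal ideal of `V2` -/
theorem exists_witness (hwα : w.comp (heckeAlphaBar L M q) = heckeBetaBar L M q)
    (hwβ : w.comp (heckeBetaBar L M q) = heckeAlphaBar L M q) :
    ∃ c : Fermat.Agent.S24.FF L (M * q), c ≠ 0 ∧ (V1 W M q).valuation c < 1 ∧
      (V2 W M q w).valuation c⁻¹ < 1 := by
  obtain ⟨hA, hA'⟩ := seriesA W q
  obtain ⟨hB, hB'⟩ := seriesB W q
  let jM := Fermat.Agent.S24.jBC L M
  let a₀ : Fermat.Agent.S24.FF L (M * q) :=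
    heckeAlphaBar L M q jM ^ q - heckeBetaBar L M q jM
  let a₁ : Fermat.Agent.S24.FF L (M * q) :=
    heckeBetaBar L M q jM ^ q - heckeAlphaBar L M q jM
  have h1 : phi1 L M q a₀ = jqModC L ^ q - qExpand L q (jqModC L) := by
    show phi1 L M q (heckeAlphaBar L M q jM ^ q - heckeBetaBar L M q jM) = _
    rw [map_sub, map_pow, phi1_alpha, phi1_beta, phiM_jBC]
  have h2 : phi1 L M q a₁ = qExpand L q (jqModC L) ^ q - jqModC L := by
    show phi1 L M q (heckeBetaBar L M q jM ^ q - heckeAlphaBar L M q jM) = _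
    rw [map_sub, map_pow, phi1_alpha, phi1_beta, phiM_jBC]
  have h3 : phi2 L M q w a₀ = qExpand L q (jqModC L) ^ q - jqModC L := by
    show phi2 L M q w (heckeAlphaBar L M q jM ^ q - heckeBetaBar L M q jM) = _
    rw [map_sub, map_pow, phi2_alpha w hwα, phi2_beta w hwβ, phiM_jBC]
  have h4 : phi2 L M q w a₁ = jqModC L ^ q - qExpand L q (jqModC L) := by
    show phi2 L M q w (heckeBetaBar L M q jM ^ q - heckeAlphaBar L M q jM) = _
    rw [map_sub, map_pow, phi2_alpha w hwα, phi2_beta w hwβ, phiM_jBC]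
  have v1a0 : (V1 W M q).valuation a₀ < 1 :=
    (valuation_lt_one_iff W _ _ a₀).mpr (by rw [h1]; exact ⟨hA, hA'⟩)
  have v1a1 : (V1 W M q).valuation a₁ = 1 :=
    valuation_eq_one_of W _ _ (by rw [h2]; exact hB) (by rw [h2]; exact hB')
  have v2a0 : (V2 W M q w).valuation a₀ = 1 :=
    valuation_eq_one_of W _ _ (by rw [h3]; exact hB) (by rw [h3]; exact hB')
  have v2a1 : (V2 W M q w).valuation a₁ < 1 :=
    (valuation_lt_one_iff W _ _ a₁).mpr (by rw [h4]; exact ⟨hA, hA'⟩)
  have ha0 : a₀ ≠ 0 := by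
    intro h
    rw [h, map_zero] at v2a0
    exact zero_ne_one v2a0
  have ha1 : a₁ ≠ 0 := by
    intro h
    rw [h, map_zero] at v1a1
    exact zero_ne_one v1a1
  refine ⟨a₀ * a₁⁻¹, mul_ne_zero ha0 (inv_ne_zero ha1), ?_, ?_⟩
  · rw [map_mul, map_inv₀, v1a1, inv_one, mul_one]
    exact v1a0
  · rw [mul_inv, inv_inv, map_mul, map_inv₀, v2a0, inv_one, one_mul]
    exact v2a1

/-- **(V3), monic form.** An element of `V1 ∩ V2` is integral over the base ring
`O₀ = L(j) ∩ contentRing W`. -/
theorem exists_monic_of_mem_both (hqM : ¬ q ∣ M)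
    (hwα : w.comp (heckeAlphaBar L M q) = heckeBetaBar L M q)
    (hwβ : w.comp (heckeBetaBar L M q) = heckeAlphaBar L M q)
    (x : Fermat.Agent.S24.FF L (M * q)) (hx₁ : phi1 L M q x ∈ contentRing W)
    (hx₂ : phi2 L M q w x ∈ contentRing W) :
    ∃ p : Polynomial ↥(baseRing W M q), p.Monic ∧
      p.eval₂ ((algebraMap ↥(baseField L M q) (Fermat.Agent.S24.FF L (M * q))).comp
        (baseRing W M q).subtype) x = 0 := by
  classical
  have hq : q.Prime := Fact.out
  obtain ⟨π, hπ⟩ := IsDiscreteValuationRing.exists_irreducible W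
  obtain ⟨θ, hθ, hli, -, -, -⟩ := exists_orthonormal_basis W M q hqM
  obtain ⟨hfin, hle⟩ := finrank_FF_le L (M * q)
  have hΘW : ∀ i, coeffMap (Int.castRingHom L) (θ i) ∈ contentRing W := fun i =>
    coeffMap_intCast_mem_contentRing W (θ i)
  have hΘF : ∀ i, coeffMap (Int.castRingHom L) (θ i) ∈
      laurentBaseChange L (modularFunctionFieldFull M) := fun i => by
    rw [← toL_coeffMap_intCast W]
    exact (coeffMap_intCast_mem_intFull W M (hθ i)).1
  have hli' : LinearIndependent (kJ W)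
      (fun i => red W ⟨coeffMap (Int.castRingHom L) (θ i), hΘW i⟩) := by
    have hfun : (fun i => red W ⟨coeffMap (Int.castRingHom L) (θ i), hΘW i⟩) =
        fun i => coeffMap (Int.castRingHom (IsLocalRing.ResidueField W)) (θ i) :=
      funext fun i => red_coeffMap_intCast W (θ i)
    rw [hfun]
    exact hli
  let θ' : Fin (dedekindPsi M) → Fermat.Agent.S24.FF L M := fun i => ⟨_, hΘF i⟩
  have hθ' : ∀ i, phiM L M (θ' i) = coeffMap (Int.castRingHom L) (θ i) := fun i => rfl
  let b₁ : Fin (dedekindPsi M) → Fermat.Agent.S24.FF L (M * q) :=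
    fun i => heckeAlphaBar L M q (θ' i)
  let b₂ : Fin (dedekindPsi M) × Fin q → Fermat.Agent.S24.FF L (M * q) :=
    fun k => heckeBetaBar L M q (θ' k.1 * Fermat.Agent.S24.jBC L M ^ (k.2 : ℕ))
  have hb₁φ : ∀ i, phi1 L M q (b₁ i) = coeffMap (Int.castRingHom L) (θ i) := fun i => by
    show phi1 L M q (heckeAlphaBar L M q (θ' i)) = _
    rw [phi1_alpha, hθ']
  have hb₁φ' : ∀ i, phi2 L M q w (b₁ i) = qExpand L q (coeffMap (Int.castRingHom L) (θ i)) :=
    fun i => by
      show phi2 L M q w (heckeAlphaBar L M q (θ' i)) = _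
      rw [phi2_alpha w hwα, hθ']
  have hb₂φ : ∀ k, phi2 L M q w (b₂ k) =
      coeffMap (Int.castRingHom L) (θ k.1) * jqModC L ^ (k.2 : ℕ) := fun k => by
    show phi2 L M q w (heckeBetaBar L M q
      (θ' k.1 * Fermat.Agent.S24.jBC L M ^ (k.2 : ℕ))) = _
    rw [phi2_beta w hwβ, map_mul, map_pow, hθ', phiM_jBC]
  have hb₂φ' : ∀ k, phi1 L M q (b₂ k) =
      qExpand L q (coeffMap (Int.castRingHom L) (θ k.1) * jqModC L ^ (k.2 : ℕ)) := fun k => by
    show phi1 L M q (heckeBetaBar L M q
      (θ' k.1 * Fermat.Agent.S24.jBC L M ^ (k.2 : ℕ))) = _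
    rw [phi1_beta, map_mul, map_pow, hθ', phiM_jBC]
  let ϖ : ↥(baseField L M q) := baseConst M q (π : L)
  have hψϖ : psi0 L M q ϖ = HahnSeries.C ((π : W) : L) := psi0_baseConst _
  have hCπ : (HahnSeries.C ((π : W) : L) : LaurentSeries L) ≠ 0 := C_unif_ne_zero W hπ
  have hϖ0 : ϖ ≠ 0 := by
    intro h
    apply hCπ
    rw [← hψϖ, h, map_zero]
  have hϖ : ϖ ∈ baseRing W M q := by
    show psi0 L M q ϖ ∈ contentRing W
    rw [hψϖ]
    exact C_mem_contentRing W π
  have hdvd : ∀ (y : ↥(baseField L M q)) (g : LaurentSeries L), g ∈ contentRing W →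
      psi0 L M q y = HahnSeries.C ((π : W) : L) * g → ∃ d ∈ baseRing W M q, y = ϖ * d := by
    intro y g hg hyg
    refine ⟨y * ϖ⁻¹, ?_, ?_⟩
    · show psi0 L M q (y * ϖ⁻¹) ∈ contentRing W
      rw [map_mul, map_inv₀, hψϖ, hyg, mul_comm _ g, mul_assoc, mul_inv_cancel₀ hCπ, mul_one]
      exact hg
    · rw [mul_comm y, ← mul_assoc, mul_inv_cancel₀ hϖ0, one_mul]
  have hU : ∀ y : ↥(baseField L M q), y ≠ 0 → ∃ (n : ℤ) (u : ↥(baseField L M q)),
      u ∈ baseRing W M q ∧ u⁻¹ ∈ baseRing W M q ∧ y = ϖ ^ n * u := by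
    intro y hy
    have hf : psi0 L M q y ∈ fracInt W :=
      coe_mem_fracInt W (M * q) (y : Fermat.Agent.S24.FF L (M * q))
    have hf0 : psi0 L M q y ≠ 0 := (_root_.map_ne_zero _).mpr hy
    obtain ⟨n, u, hu, hured, hfu⟩ := fracInt_exists_zpow_mul_unit W hπ hf hf0
    have hϖn : ϖ ^ n ≠ 0 := zpow_ne_zero n hϖ0
    have hCn : (HahnSeries.C ((π : W) : L) : LaurentSeries L) ^ n ≠ 0 := zpow_ne_zero n hCπ
    have hval : psi0 L M q (y * (ϖ ^ n)⁻¹) = u := by
      rw [map_mul, map_inv₀, map_zpow₀, hψϖ, hfu, mul_comm _ u, mul_assoc,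
        mul_inv_cancel₀ hCn, mul_one]
    refine ⟨n, y * (ϖ ^ n)⁻¹, ?_, ?_, ?_⟩
    · show psi0 L M q (y * (ϖ ^ n)⁻¹) ∈ contentRing W
      rw [hval]
      exact hu
    · show psi0 L M q (y * (ϖ ^ n)⁻¹)⁻¹ ∈ contentRing W
      rw [map_inv₀, hval]
      exact inv_mem_contentRing W hu hured
    · rw [mul_comm y, ← mul_assoc, mul_inv_cancel₀ hϖn, one_mul]
  have h₁ : ∀ y ∈ baseRing W M q,
      algebraMap ↥(baseField L M q) (Fermat.Agent.S24.FF L (M * q)) y ∈ V1 W M q :=
    fun y hy => hy
  have h₂ : ∀ y ∈ baseRing W M q,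
      algebraMap ↥(baseField L M q) (Fermat.Agent.S24.FF L (M * q)) y ∈ V2 W M q w := by
    intro y hy
    show phi2 L M q w (y : Fermat.Agent.S24.FF L (M * q)) ∈ contentRing W
    rw [phi2_base w hwα]
    exact qExpand_mem_contentRing W q hy
  have hres : IsLocalRing.residue W π = 0 := residue_unif W hπ
  have hϖ₁ : (V1 W M q).valuation
      (algebraMap ↥(baseField L M q) (Fermat.Agent.S24.FF L (M * q)) ϖ) < 1 := by
    refine (valuation_lt_one_iff W _ _ _).mpr ?_
    have h : phi1 L M q (algebraMap ↥(baseField L M q) (Fermat.Agent.S24.FF L (M * q)) ϖ) =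
        HahnSeries.C ((π : W) : L) := hψϖ
    rw [h]
    exact ⟨C_mem_contentRing W π, by rw [rd_C, hres, map_zero]⟩
  have hϖ₂ : (V2 W M q w).valuation
      (algebraMap ↥(baseField L M q) (Fermat.Agent.S24.FF L (M * q)) ϖ) < 1 := by
    refine (valuation_lt_one_iff W _ _ _).mpr ?_
    have h : phi2 L M q w
        (algebraMap ↥(baseField L M q) (Fermat.Agent.S24.FF L (M * q)) ϖ) =
        HahnSeries.C ((π : W) : L) := by
      show phi2 L M q w (ϖ : Fermat.Agent.S24.FF L (M * q)) = _
      rw [phi2_base w hwα, hψϖ, qExpand_C]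
    rw [h]
    exact ⟨C_mem_contentRing W π, by rw [rd_C, hres, map_zero]⟩
  obtain ⟨c, hc0, hc₁, hc₂⟩ := exists_witness W M q w hwα hwβ
  obtain ⟨e₁, e₂, he₁, he₁', he₂, he₂'⟩ :=
    TwoValAbs.exists_idem (V1 W M q) (V2 W M q w) c hc0 hc₁ hc₂
  have hb₁ : ∀ i, b₁ i ∈ V1 W M q := fun i => by
    show phi1 L M q (b₁ i) ∈ contentRing W
    rw [hb₁φ]
    exact hΘW i
  have hb₁' : ∀ i, b₁ i ∈ V2 W M q w := fun i => by
    show phi2 L M q w (b₁ i) ∈ contentRing W
    rw [hb₁φ']
    exact qExpand_mem_contentRing W q (hΘW i)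
  have hb₂ : ∀ k, b₂ k ∈ V2 W M q w := fun k => by
    show phi2 L M q w (b₂ k) ∈ contentRing W
    rw [hb₂φ]
    exact mul_mem (hΘW k.1) (pow_mem (jq_mem_contentRing W) _)
  have hb₂' : ∀ k, b₂ k ∈ V1 W M q := fun k => by
    show phi1 L M q (b₂ k) ∈ contentRing W
    rw [hb₂φ']
    exact qExpand_mem_contentRing W q (mul_mem (hΘW k.1) (pow_mem (jq_mem_contentRing W) _))
  have hind₁ : ∀ a : Fin (dedekindPsi M) → ↥(baseField L M q), (∀ i, a i ∈ baseRing W M q) →
      (V1 W M q).valuation (∑ i,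
        algebraMap ↥(baseField L M q) (Fermat.Agent.S24.FF L (M * q)) (a i) * b₁ i) < 1 →
      ∀ i, ∃ d ∈ baseRing W M q, a i = ϖ * d := by
    intro a ha hval i
    obtain ⟨hmem, hred⟩ := (valuation_lt_one_iff W _ _ _).mp hval
    have hsum : phi1 L M q (∑ i,
        algebraMap ↥(baseField L M q) (Fermat.Agent.S24.FF L (M * q)) (a i) * b₁ i) =
        ∑ i, psi0 L M q (a i) * coeffMap (Int.castRingHom L) (θ i) := by
      rw [map_sum]
      refine Finset.sum_congr rfl fun i _ => ?_
      rw [map_mul, hb₁φ]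
      rfl
    rw [hsum] at hred
    have hcore := orthonormal_core W (fun i => coeffMap (Int.castRingHom L) (θ i)) hΘW hli'
      (fun i => psi0 L M q (a i)) (fun i => psi0_mem_adjoin (a i)) ha
      ((rd_of_mem W _).symm.trans hred) i
    obtain ⟨g, hg⟩ := (red_eq_zero_iff W hπ _).mp hcore
    exact hdvd (a i) g g.2 hg
  have hind₂ : ∀ a : Fin (dedekindPsi M) × Fin q → ↥(baseField L M q),
      (∀ k, a k ∈ baseRing W M q) →
      (V2 W M q w).valuation (∑ k,
        algebraMap ↥(baseField L M q) (Fermat.Agent.S24.FF L (M * q)) (a k) * b₂ k) < 1 →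
      ∀ k, ∃ d ∈ baseRing W M q, a k = ϖ * d := by
    intro a ha hval k
    obtain ⟨hmem, hred⟩ := (valuation_lt_one_iff W _ _ _).mp hval
    have hsum : phi2 L M q w (∑ k,
        algebraMap ↥(baseField L M q) (Fermat.Agent.S24.FF L (M * q)) (a k) * b₂ k) =
        ∑ k, qExpand L q (psi0 L M q (a k)) *
          (coeffMap (Int.castRingHom L) (θ k.1) * jqModC L ^ (k.2 : ℕ)) := by
      rw [map_sum]
      refine Finset.sum_congr rfl fun k _ => ?_
      rw [map_mul, hb₂φ]
      congr 1
      exact phi2_base w hwα (a k)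
    rw [hsum] at hred
    have hcore := hind2_aux W q θ hli (fun k => psi0 L M q (a k))
      (fun k => psi0_mem_adjoin (a k)) ha hred k
    obtain ⟨g, hg, hgeq⟩ := (rd_eq_zero_iff W hπ (ha k)).mp hcore
    exact hdvd (a k) g hg hgeq
  have hdeg : Module.finrank ↥(baseField L M q) (Fermat.Agent.S24.FF L (M * q)) ≤
      Fintype.card (Fin (dedekindPsi M)) + Fintype.card (Fin (dedekindPsi M) × Fin q) := by
    have h2 : dedekindPsi (M * q) = (q + 1) * dedekindPsi M := by
      rw [mul_comm M q]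
      exact Fermat.Agent.S20.Comb.dedekindPsi_mul_of_not_dvd (NeZero.ne M) hq hqM
    rw [Fintype.card_prod, Fintype.card_fin, Fintype.card_fin]
    refine hle.trans (le_of_eq ?_)
    rw [h2]
    ring
  have := hfin
  exact TwoValAbs.exists_monic hϖ hϖ0 hU h₁ h₂ hϖ₁ hϖ₂ he₁ he₁' he₂ he₂' hb₁ hb₁' hind₁ hb₂ hb₂'
    hind₂ hdeg x hx₁ hx₂

end Main

/-! ### Gauss integrality over `W[j]` -/

section Final

variable {L : Type*} [Field L] [Algebra ℚ L] (W : ValuationSubring L) [IsDiscreteValuationRing W]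
  (M q : ℕ) [NeZero M] [NeZero q]
  (w : Fermat.Agent.S24.FF L (M * q) →ₐ[L] Fermat.Agent.S24.FF L (M * q))

/-- **(V3a).** An element of `F = FF L (M q)` whose `q`-expansion and whose Atkin–Lehner
translate's `q`-expansion lie in the content ring is Gauss-integral over `W[j]`. -/
theorem exists_isIntegralElem_of_mem_both [Fact q.Prime] [CharP (IsLocalRing.ResidueField W) q]
    (hqM : ¬ q ∣ M) (hwα : w.comp (heckeAlphaBar L M q) = heckeBetaBar L M q)
    (hwβ : w.comp (heckeBetaBar L M q) = heckeAlphaBar L M q)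
    (x : Fermat.Agent.S24.FF L (M * q)) (hx₁ : (x : LaurentSeries L) ∈ contentRing W)
    (hx₂ : ((w x : Fermat.Agent.S24.FF L (M * q)) : LaurentSeries L) ∈ contentRing W) :
    ∃ S : (↥W)[X], S.map (IsLocalRing.residue W) ≠ 0 ∧
      (PGGlue.evF W (M * q)).IsIntegralElem (PGGlue.evF W (M * q) S * x) := by
  classical
  obtain ⟨p, hp, hpx⟩ := exists_monic_of_mem_both W M q w hqM hwα hwβ x hx₁ hx₂
  have hcoeff : ∀ k : ℕ, ∃ P Q : (↥W)[X], Q.map (IsLocalRing.residue W) ≠ 0 ∧
      (((p.coeff k : ↥(baseRing W M q)) : ↥(baseField L M q)) :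
        Fermat.Agent.S24.FF L (M * q)) * PGGlue.evF W (M * q) Q =
        PGGlue.evF W (M * q) P := fun k => by
    have hmem : psi0 L M q (p.coeff k : ↥(baseField L M q)) ∈ PGGlue.O0 W :=
      ⟨(p.coeff k).2, psi0_mem_adjoin _⟩
    obtain ⟨P, Q, hQ, hPQ⟩ := PGGlue.exists_quot_of_mem_O0 W hmem
    refine ⟨P, Q, hQ, Subtype.ext ?_⟩
    have h1 := PGGlue.coe_evF W (M * q) Q
    have h2 := PGGlue.coe_evF W (M * q) P
    rw [h2, ← hPQ, ← h1]
    rfl
  choose P Q hQ hPQ using hcoeff
  refine ⟨∏ k ∈ Finset.range p.natDegree, Q k, ?_, ?_⟩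
  · rw [Polynomial.map_prod]
    exact Finset.prod_ne_zero_iff.mpr fun k _ => hQ k
  · have hmonic : (p.map ((algebraMap ↥(baseField L M q) (Fermat.Agent.S24.FF L (M * q))).comp
        (baseRing W M q).subtype)).Monic := hp.map _
    have hroot : (p.map ((algebraMap ↥(baseField L M q) (Fermat.Agent.S24.FF L (M * q))).comp
        (baseRing W M q).subtype)).eval x = 0 := by
      rw [Polynomial.eval_map]
      exact hpx
    refine PGGlue.isIntegralElem_mul_of_coeff (PGGlue.evF W (M * q)) x _ hmonic hroot _ ?_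
    intro k hk
    have hk' : k ∈ Finset.range p.natDegree := by
      rw [Finset.mem_range]
      exact lt_of_lt_of_le hk (Polynomial.natDegree_map_le)
    refine ⟨P k * ∏ i ∈ (Finset.range p.natDegree).erase k, Q i, ?_⟩
    rw [Polynomial.coeff_map, ← Finset.mul_prod_erase _ _ hk', map_mul, map_mul, ← mul_assoc]
    congr 1
    exact hPQ k

/-- integral elements along a ring homomorphism into a valuation ring `valRing` lie in it -/
theorem mem_contentRing_of_isIntegralElem {F : Type*} [Field F] (φ : F →+* LaurentSeries L)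
    (hφ : ∀ x, φ x ∈ fracInt W) (ev : (↥W)[X] →+* F) (hev : ∀ P, φ (ev P) ∈ contentRing W)
    {y : F} (hy : ev.IsIntegralElem y) : φ y ∈ contentRing W := by
  obtain ⟨P, hP, hroot⟩ := hy
  refine mem_contentRing_of_monic_root W (hφ y)
    (P.map ((φ.comp ev).codRestrict (contentRing W) hev)) (hP.map _) ?_
  have hcomp : (contentRing W).subtype.comp ((φ.comp ev).codRestrict (contentRing W) hev) =
      φ.comp ev := RingHom.ext fun _ => rfl
  rw [Polynomial.eval₂_map, hcomp, ← Polynomial.hom_eval₂, hroot, map_zero]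

omit [IsDiscreteValuationRing W] in
theorem phi1_comp_evF : (phi1 L M q).comp (PGGlue.evF W (M * q)) = PGGlue.evL W :=
  PGGlue.algebraMap_comp_evF W (M * q)

omit [IsDiscreteValuationRing W] in
theorem phi2_comp_evF (hwα : w.comp (heckeAlphaBar L M q) = heckeBetaBar L M q) :
    (phi2 L M q w).comp (PGGlue.evF W (M * q)) = (qExpand L q).comp (PGGlue.evL W) := by
  apply Polynomial.ringHom_ext
  · intro a
    rw [RingHom.comp_apply, RingHom.comp_apply, PGGlue.evF_C, phi2_algebraMap, PGGlue.evL,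
      Polynomial.coe_eval₂RingHom, Polynomial.eval₂_C, constL_apply, qExpand_C]
  · rw [RingHom.comp_apply, RingHom.comp_apply, PGGlue.evF, PGGlue.evL,
      Polynomial.coe_eval₂RingHom, Polynomial.coe_eval₂RingHom, Polynomial.eval₂_X,
      Polynomial.eval₂_X, ← alpha_jBC, phi2_alpha w hwα, phiM_jBC]

omit [IsDiscreteValuationRing W] in
theorem evL_inv_mem (S : (↥W)[X]) (hS : S.map (IsLocalRing.residue W) ≠ 0) :
    PGGlue.evL W S ≠ 0 ∧ (PGGlue.evL W S)⁻¹ ∈ contentRing W := by
  have hSK : toK W (evJ W S) ≠ 0 := fun h0 => hS ((toK_evJ_eq_zero_iff W S).mp h0)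
  refine ⟨?_, ?_⟩
  · rw [PGGlue.evL_eq]
    exact fun h0 => hSK (by rw [(toL_eq_zero_iff W _).mp h0, map_zero])
  · rw [PGGlue.evL_eq]
    exact inv_mem_contentRing W (toL_mem_contentRing W _) (by rw [red_toL]; exact hSK)

/-- **(V3b).** A Gauss-integral element of `F` lies in both Gauss valuation rings. -/
theorem mem_both_of_isIntegralElem (hwα : w.comp (heckeAlphaBar L M q) = heckeBetaBar L M q)
    (x : Fermat.Agent.S24.FF L (M * q)) (S : (↥W)[X]) (hS : S.map (IsLocalRing.residue W) ≠ 0)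
    (hint : (PGGlue.evF W (M * q)).IsIntegralElem (PGGlue.evF W (M * q) S * x)) :
    (x : LaurentSeries L) ∈ contentRing W ∧
      ((w x : Fermat.Agent.S24.FF L (M * q)) : LaurentSeries L) ∈ contentRing W := by
  obtain ⟨hS0, hSinv⟩ := evL_inv_mem W S hS
  have hev1 : ∀ P, phi1 L M q (PGGlue.evF W (M * q) P) = PGGlue.evL W P := fun P =>
    congrArg (fun f : (↥W)[X] →+* LaurentSeries L => f P) (phi1_comp_evF W M q)
  have hev2 : ∀ P, phi2 L M q w (PGGlue.evF W (M * q) P) = qExpand L q (PGGlue.evL W P) :=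
    fun P => congrArg (fun f : (↥W)[X] →+* LaurentSeries L => f P) (phi2_comp_evF W M q w hwα)
  constructor
  · have h1 := mem_contentRing_of_isIntegralElem W (phi1 L M q)
      (fun y => coe_mem_fracInt W (M * q) y) (PGGlue.evF W (M * q))
      (fun P => by rw [hev1]; exact PGGlue.evL_mem_contentRing W P) hint
    rw [map_mul, hev1] at h1
    have h2 : phi1 L M q x = (PGGlue.evL W S)⁻¹ * (PGGlue.evL W S * phi1 L M q x) := by
      rw [← mul_assoc, inv_mul_cancel₀ hS0, one_mul]
    show phi1 L M q x ∈ contentRing W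
    rw [h2]
    exact mul_mem hSinv h1
  · have h1 := mem_contentRing_of_isIntegralElem W (phi2 L M q w)
      (fun y => coe_mem_fracInt W (M * q) (w y)) (PGGlue.evF W (M * q))
      (fun P => by
        rw [hev2]
        exact qExpand_mem_contentRing W q (PGGlue.evL_mem_contentRing W P)) hint
    rw [map_mul, hev2] at h1
    have hq0 : qExpand L q (PGGlue.evL W S) ≠ 0 := (_root_.map_ne_zero _).mpr hS0
    have h2 : phi2 L M q w x = (qExpand L q (PGGlue.evL W S))⁻¹ *
        (qExpand L q (PGGlue.evL W S) * phi2 L M q w x) := by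
      rw [← mul_assoc, inv_mul_cancel₀ hq0, one_mul]
    show phi2 L M q w x ∈ contentRing W
    rw [h2]
    refine mul_mem ?_ h1
    rw [← map_inv₀]
    exact qExpand_mem_contentRing W q hSinv

/-! ### The currency of `S18.Endgame` -/

section InC

variable [Algebra ↥W (Fermat.Agent.S24.FF L (M * q))]
  [IsScalarTower ↥W L (Fermat.Agent.S24.FF L (M * q))]

omit [IsDiscreteValuationRing W] [NeZero M] [NeZero q] in
theorem ev_eq_evF [NeZero (M * q)] :
    Endgame.ev ↥W (Fermat.Agent.S24.jBC L (M * q)) = PGGlue.evF W (M * q) := by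
  apply Polynomial.ringHom_ext
  · intro a
    rw [Endgame.ev_C, PGGlue.evF_C,
      IsScalarTower.algebraMap_apply ↥W L (Fermat.Agent.S24.FF L (M * q))]
    rfl
  · rw [Endgame.ev_X, PGGlue.evF, Polynomial.coe_eval₂RingHom, Polynomial.eval₂_X]

omit [Algebra ℚ L] [IsDiscreteValuationRing W] in
theorem not_C_dvd_of_map_ne_zero {π : ↥W} (hπ : ¬ IsUnit π) {S : (↥W)[X]}
    (hS : S.map (IsLocalRing.residue W) ≠ 0) : ¬ C π ∣ S := by
  rintro ⟨T, rfl⟩
  apply hS
  have h0 : IsLocalRing.residue W π = 0 := by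
    rw [IsLocalRing.residue_eq_zero_iff, IsLocalRing.mem_maximalIdeal, mem_nonunits_iff]
    exact hπ
  rw [Polynomial.map_mul, Polynomial.map_C, h0, map_zero, zero_mul]

omit [Algebra ℚ L] in
theorem map_ne_zero_of_not_C_dvd {π : ↥W} (hπ : Irreducible π) {S : (↥W)[X]}
    (hS : ¬ C π ∣ S) : S.map (IsLocalRing.residue W) ≠ 0 := by
  intro h0
  apply hS
  rw [Polynomial.C_dvd_iff_dvd_coeff]
  intro i
  have h1 : IsLocalRing.residue W (S.coeff i) = 0 := by
    rw [← Polynomial.coeff_map, h0, Polynomial.coeff_zero]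
  obtain ⟨y, hy⟩ := (residue_eq_zero_iff_unif W hπ _).mp h1
  exact ⟨y, hy⟩

/-- **(V3a)** in the currency of `S18.Endgame`. -/
theorem inC_of_mem_both [Fact q.Prime] [CharP (IsLocalRing.ResidueField W) q]
    (hqM : ¬ q ∣ M) (hwα : w.comp (heckeAlphaBar L M q) = heckeBetaBar L M q)
    (hwβ : w.comp (heckeBetaBar L M q) = heckeAlphaBar L M q) {π : ↥W} (hπ : ¬ IsUnit π)
    (x : Fermat.Agent.S24.FF L (M * q)) (hx₁ : (x : LaurentSeries L) ∈ contentRing W)
    (hx₂ : ((w x : Fermat.Agent.S24.FF L (M * q)) : LaurentSeries L) ∈ contentRing W) :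
    Endgame.InC π (Fermat.Agent.S24.jBC L (M * q)) x := by
  obtain ⟨S, hS, hint⟩ := exists_isIntegralElem_of_mem_both W M q w hqM hwα hwβ x hx₁ hx₂
  refine ⟨S, not_C_dvd_of_map_ne_zero W hπ hS, ?_⟩
  show (Endgame.ev ↥W (Fermat.Agent.S24.jBC L (M * q))).IsIntegralElem
    (Endgame.ev ↥W (Fermat.Agent.S24.jBC L (M * q)) S * x)
  rw [ev_eq_evF]
  exact hint

/-- **(V3b)** in the currency of `S18.Endgame`. -/
theorem mem_both_of_inC (hwα : w.comp (heckeAlphaBar L M q) = heckeBetaBar L M q) {π : ↥W}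
    (hπ : Irreducible π) (x : Fermat.Agent.S24.FF L (M * q))
    (h : Endgame.InC π (Fermat.Agent.S24.jBC L (M * q)) x) :
    (x : LaurentSeries L) ∈ contentRing W ∧
      ((w x : Fermat.Agent.S24.FF L (M * q)) : LaurentSeries L) ∈ contentRing W := by
  obtain ⟨S, hS, hint⟩ := h
  refine mem_both_of_isIntegralElem W M q w hwα x S
    (map_ne_zero_of_not_C_dvd W hπ hS) ?_
  have h1 : (Endgame.ev ↥W (Fermat.Agent.S24.jBC L (M * q))).IsIntegralElem
      (Endgame.ev ↥W (Fermat.Agent.S24.jBC L (M * q)) S * x) := hint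
  rw [ev_eq_evF] at h1
  exact h1

/-- **Congruence form.** An element of `F` which is `≡ 1` modulo `π` at both Gauss valuations
is `1 + π c` with `c` Gauss-integral over `W[j]` (the hypothesis `hw` of the Kummer step). -/
theorem exists_inC_sub_one [Fact q.Prime] [CharP (IsLocalRing.ResidueField W) q]
    (hqM : ¬ q ∣ M) (hwα : w.comp (heckeAlphaBar L M q) = heckeBetaBar L M q)
    (hwβ : w.comp (heckeBetaBar L M q) = heckeAlphaBar L M q) {π : ↥W} (hπ : Irreducible π)
    (x : Fermat.Agent.S24.FF L (M * q)) (g₁ g₂ : LaurentSeries L) (hg₁ : g₁ ∈ contentRing W)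
    (hg₂ : g₂ ∈ contentRing W)
    (h₁ : (x : LaurentSeries L) - 1 = HahnSeries.C ((π : W) : L) * g₁)
    (h₂ : ((w x : Fermat.Agent.S24.FF L (M * q)) : LaurentSeries L) - 1 =
      HahnSeries.C ((π : W) : L) * g₂) :
    ∃ c : Fermat.Agent.S24.FF L (M * q),
      Endgame.InC π (Fermat.Agent.S24.jBC L (M * q)) c ∧
        x - 1 = algebraMap ↥W (Fermat.Agent.S24.FF L (M * q)) π * c := by
  have hCπ : (HahnSeries.C ((π : W) : L) : LaurentSeries L) ≠ 0 := C_unif_ne_zero W hπ
  have hπF : algebraMap ↥W (Fermat.Agent.S24.FF L (M * q)) π =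
      algebraMap L (Fermat.Agent.S24.FF L (M * q)) (π : L) := by
    rw [IsScalarTower.algebraMap_apply ↥W L (Fermat.Agent.S24.FF L (M * q))]
    rfl
  have hπ0 : algebraMap L (Fermat.Agent.S24.FF L (M * q)) (π : L) ≠ 0 := by
    intro h
    apply hCπ
    rw [← phi1_algebraMap (M := M) (q := q), h, map_zero]
  have h₁' : phi1 L M q x - 1 = HahnSeries.C ((π : W) : L) * g₁ := h₁
  have h₂' : phi2 L M q w x - 1 = HahnSeries.C ((π : W) : L) * g₂ := h₂
  refine ⟨(x - 1) * (algebraMap L (Fermat.Agent.S24.FF L (M * q)) (π : L))⁻¹, ?_, ?_⟩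
  · refine inC_of_mem_both W M q w hqM hwα hwβ hπ.not_isUnit _ ?_ ?_
    · show phi1 L M q ((x - 1) * (algebraMap L (Fermat.Agent.S24.FF L (M * q)) (π : L))⁻¹) ∈
        contentRing W
      rw [map_mul, map_inv₀, map_sub, map_one, phi1_algebraMap, h₁', mul_comm _ g₁, mul_assoc,
        mul_inv_cancel₀ hCπ, mul_one]
      exact hg₁
    · show phi2 L M q w ((x - 1) * (algebraMap L (Fermat.Agent.S24.FF L (M * q)) (π : L))⁻¹) ∈
        contentRing W
      rw [map_mul, map_inv₀, map_sub, map_one, phi2_algebraMap, h₂', mul_comm _ g₂, mul_assoc,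
        mul_inv_cancel₀ hCπ, mul_one]
      exact hg₂
  · rw [hπF, mul_comm (x - 1), ← mul_assoc, mul_inv_cancel₀ hπ0, one_mul]

/-- **Congruence form**, with reductions: an element of `F` whose two reductions are `1` is
`1 + π c` with `c` Gauss-integral over `W[j]`. -/
theorem exists_inC_sub_one_of_red [Fact q.Prime] [CharP (IsLocalRing.ResidueField W) q]
    (hqM : ¬ q ∣ M) (hwα : w.comp (heckeAlphaBar L M q) = heckeBetaBar L M q)
    (hwβ : w.comp (heckeBetaBar L M q) = heckeAlphaBar L M q) {π : ↥W} (hπ : Irreducible π)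
    (x : Fermat.Agent.S24.FF L (M * q)) (hx₁ : (x : LaurentSeries L) ∈ contentRing W)
    (hr₁ : red W ⟨(x : LaurentSeries L), hx₁⟩ = 1)
    (hx₂ : ((w x : Fermat.Agent.S24.FF L (M * q)) : LaurentSeries L) ∈ contentRing W)
    (hr₂ : red W ⟨((w x : Fermat.Agent.S24.FF L (M * q)) : LaurentSeries L), hx₂⟩ = 1) :
    ∃ c : Fermat.Agent.S24.FF L (M * q),
      Endgame.InC π (Fermat.Agent.S24.jBC L (M * q)) c ∧
        x - 1 = algebraMap ↥W (Fermat.Agent.S24.FF L (M * q)) π * c := by
  have key : ∀ f : LaurentSeries L, ∀ hf : f ∈ contentRing W, red W ⟨f, hf⟩ = 1 →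
      ∃ g ∈ contentRing W, f - 1 = HahnSeries.C ((π : W) : L) * g := by
    intro f hf hred
    have h1 : rd W (f - 1) = 0 := by
      rw [rd_sub W hf (Subring.one_mem _), rd_one, rd_of_mem W hf, hred, sub_self]
    exact (rd_eq_zero_iff W hπ (Subring.sub_mem _ hf (Subring.one_mem _))).mp h1
  obtain ⟨g₁, hg₁, h₁⟩ := key _ hx₁ hr₁
  obtain ⟨g₂, hg₂, h₂⟩ := key _ hx₂ hr₂
  exact exists_inC_sub_one W M q w hqM hwα hwβ hπ x g₁ g₂ hg₁ hg₂ h₁ h₂

end InC

end Final

end Fermat.Agent.S34.TwoGauss
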