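import Mathlib
import Fermat.Agent.S34.TwoGauss
import Fermat.Agent.S34.GCoreContract

/-!
# S34 (wave 6), package B1: the `GCore.TwoGauss` structure and the ramification contract

* `valRing_pi_lt`, `valRing_unif`: a uniformiser `π` of `W` is a uniformiser of every Gauss
  valuation ring `valRing W φ hφ`.
* `valRing_ram`: if `π ^ k * y ^ s` is a unit of `valRing W φ hφ` then `s ∣ k` (the content
  valuation is `ℤ`-valued with `v(π) = 1`).
* `mem_contentRing_of_inC`: at every level `N`, a Gauss-integral element of `FF L N` has its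
  `q`-expansion in the content ring.
* `hram`: the ramification hypothesis of `KummerInd.kummer_descent`, at every level.
* `twoGauss`: the structure `GCore.TwoGauss π j (V1 W M q) (V2 W M q w)` at level `M q`.
-/

set_option autoImplicit false
set_option linter.unusedSectionVars false

noncomputable section

namespace Fermat.Agent.S34.TwoGaussInst

open ModularCurve Polynomial Fermat.Agent.S18 Fermat.Agent.S18.Gauss Fermat.Agent.S34.TwoGauss

/-! ### Generic facts on `valRing` -/

section Generic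

variable {L : Type*} [Field L] (W : ValuationSubring L) [IsDiscreteValuationRing W]
  {F : Type*} [Field F] (φ : F →+* LaurentSeries L) (hφ : ∀ x, φ x ∈ fracInt W)

theorem valRing_pi_lt {π : ↥W} (hπ : Irreducible π) {ϖF : F}
    (hϖ : φ ϖF = HahnSeries.C ((π : W) : L)) : (valRing W φ hφ).valuation ϖF < 1 := by
  refine (valuation_lt_one_iff W φ hφ ϖF).mpr ?_
  rw [hϖ]
  exact ⟨C_mem_contentRing W π, by rw [rd_C, residue_unif W hπ, map_zero]⟩

theorem valRing_unif {π : ↥W} (hπ : Irreducible π) {ϖF : F}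
    (hϖ : φ ϖF = HahnSeries.C ((π : W) : L)) (z : F)
    (hz : (valRing W φ hφ).valuation z < 1) :
    (valRing W φ hφ).valuation z ≤ (valRing W φ hφ).valuation ϖF := by
  obtain ⟨hmem, hred⟩ := (valuation_lt_one_iff W φ hφ z).mp hz
  obtain ⟨g, hg, hzg⟩ := (rd_eq_zero_iff W hπ hmem).mp hred
  have hCπ : (HahnSeries.C ((π : W) : L) : LaurentSeries L) ≠ 0 := C_unif_ne_zero W hπ
  have hϖ0 : ϖF ≠ 0 := by
    rintro rfl
    rw [map_zero] at hϖ
    exact hCπ hϖ.symm
  have hz' : z = ϖF * (z * ϖF⁻¹) := by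
    rw [mul_comm z, ← mul_assoc, mul_inv_cancel₀ hϖ0, one_mul]
  have hmem' : z * ϖF⁻¹ ∈ valRing W φ hφ := by
    show φ (z * ϖF⁻¹) ∈ contentRing W
    rw [map_mul, map_inv₀, hϖ, hzg, mul_comm _ g, mul_assoc, mul_inv_cancel₀ hCπ, mul_one]
    exact hg
  have hle : (valRing W φ hφ).valuation (z * ϖF⁻¹) ≤ 1 :=
    ((valRing W φ hφ).valuation_le_one_iff _).mpr hmem'
  calc (valRing W φ hφ).valuation z
      = (valRing W φ hφ).valuation ϖF * (valRing W φ hφ).valuation (z * ϖF⁻¹) := by
        rw [← map_mul, ← hz']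
    _ ≤ (valRing W φ hφ).valuation ϖF := mul_le_of_le_one_right' hle

omit [IsDiscreteValuationRing W] in
/-- a power of the uniformiser which is a unit of the content ring is trivial -/
theorem zpow_unif_eq_zero [IsDiscreteValuationRing W] {π : ↥W} (hπ : Irreducible π) (m : ℤ)
    (h1 : (HahnSeries.C ((π : W) : L) : LaurentSeries L) ^ m ∈ contentRing W)
    (h2 : ((HahnSeries.C ((π : W) : L) : LaurentSeries L) ^ m)⁻¹ ∈ contentRing W) : m = 0 := by
  have hCπ : (HahnSeries.C ((π : W) : L) : LaurentSeries L) ≠ 0 := C_unif_ne_zero W hπ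
  have hrd : rd W (HahnSeries.C ((π : W) : L)) = 0 := by
    rw [rd_C, residue_unif W hπ, map_zero]
  -- positive powers are not units
  have key : ∀ n : ℕ, ((HahnSeries.C ((π : W) : L) : LaurentSeries L) ^ (n + 1))⁻¹ ∈
      contentRing W → False := by
    intro n hinv
    have hmem : (HahnSeries.C ((π : W) : L) : LaurentSeries L) ^ (n + 1) ∈ contentRing W :=
      Subring.pow_mem _ (C_mem_contentRing W π) _
    have h := rd_mul W hmem hinv
    rw [mul_inv_cancel₀ (pow_ne_zero _ hCπ), rd_one, rd_pow W (C_mem_contentRing W π), hrd,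
      zero_pow (Nat.succ_ne_zero n), zero_mul] at h
    exact one_ne_zero h
  rcases lt_trichotomy m 0 with hm | hm | hm
  · exfalso
    obtain ⟨n, hn⟩ : ∃ n : ℕ, m = -((n : ℤ) + 1) := ⟨(-m).toNat - 1, by omega⟩
    apply key n
    have : ((HahnSeries.C ((π : W) : L) : LaurentSeries L) ^ (n + 1))⁻¹ =
        (HahnSeries.C ((π : W) : L) : LaurentSeries L) ^ m := by
      rw [hn, zpow_neg, ← zpow_natCast]
      push_cast
      rfl
    rw [this]
    exact h1
  · exact hm
  · exfalso
    obtain ⟨n, hn⟩ : ∃ n : ℕ, m = (n : ℤ) + 1 := ⟨m.toNat - 1, by omega⟩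
    apply key n
    have : (HahnSeries.C ((π : W) : L) : LaurentSeries L) ^ (n + 1) =
        (HahnSeries.C ((π : W) : L) : LaurentSeries L) ^ m := by
      rw [hn, ← zpow_natCast]
      push_cast
      rfl
    rw [this]
    exact h2

/-- **Ramification contract.** If `π ^ k * y ^ s` is a unit of a Gauss valuation ring then
`s ∣ k`. -/
theorem valRing_ram {π : ↥W} (hπ : Irreducible π) {ϖF : F}
    (hϖ : φ ϖF = HahnSeries.C ((π : W) : L)) (s k : ℕ) (y : F) (hy : y ≠ 0)
    (h1 : ϖF ^ k * y ^ s ∈ valRing W φ hφ) (h2 : (ϖF ^ k * y ^ s)⁻¹ ∈ valRing W φ hφ) :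
    s ∣ k := by
  have hCπ : (HahnSeries.C ((π : W) : L) : LaurentSeries L) ≠ 0 := C_unif_ne_zero W hπ
  have hf0 : φ y ≠ 0 := (_root_.map_ne_zero φ).mpr hy
  obtain ⟨n, u, hu, hured, hfu⟩ := fracInt_exists_zpow_mul_unit W hπ (hφ y) hf0
  have huinv : u⁻¹ ∈ contentRing W := inv_mem_contentRing W hu hured
  have hu0 : u ≠ 0 := by
    rintro rfl
    rw [mul_zero] at hfu
    exact hf0 hfu
  have hval : φ (ϖF ^ k * y ^ s) =
      (HahnSeries.C ((π : W) : L) : LaurentSeries L) ^ ((k : ℤ) + s * n) * u ^ s := by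
    rw [map_mul, map_pow, map_pow, hϖ, hfu, mul_pow, zpow_add₀ hCπ, zpow_natCast, zpow_mul,
      zpow_natCast, ← zpow_natCast (_ ^ n), ← zpow_mul, mul_comm n, zpow_mul, zpow_natCast,
      mul_assoc]
  have h1' : φ (ϖF ^ k * y ^ s) ∈ contentRing W := h1
  have h2' : (φ (ϖF ^ k * y ^ s))⁻¹ ∈ contentRing W := by
    rw [← map_inv₀]
    exact h2
  rw [hval] at h1' h2'
  have hus0 : u ^ s ≠ 0 := pow_ne_zero _ hu0
  have hm := zpow_unif_eq_zero W hπ ((k : ℤ) + s * n) (by
      have : (HahnSeries.C ((π : W) : L) : LaurentSeries L) ^ ((k : ℤ) + s * n) =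
          (HahnSeries.C ((π : W) : L) : LaurentSeries L) ^ ((k : ℤ) + s * n) * u ^ s *
            u⁻¹ ^ s := by
        rw [mul_assoc, ← mul_pow, mul_inv_cancel₀ hu0, one_pow, mul_one]
      rw [this]
      exact Subring.mul_mem _ h1' (Subring.pow_mem _ huinv _)) (by
      have : ((HahnSeries.C ((π : W) : L) : LaurentSeries L) ^ ((k : ℤ) + s * n))⁻¹ =
          ((HahnSeries.C ((π : W) : L) : LaurentSeries L) ^ ((k : ℤ) + s * n) * u ^ s)⁻¹ *
            u ^ s := by
        rw [mul_inv, mul_assoc, inv_mul_cancel₀ hus0, mul_one]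
      rw [this]
      exact Subring.mul_mem _ h2' (Subring.pow_mem _ hu _))
  have hdvd : (s : ℤ) ∣ (k : ℤ) := ⟨-n, by linarith⟩
  exact Int.natCast_dvd_natCast.mp hdvd

end Generic

/-! ### Every level: Gauss-integral elements have integral `q`-expansions -/

section Level

variable {L : Type*} [Field L] [Algebra ℚ L] (W : ValuationSubring L) [IsDiscreteValuationRing W]
  (N : ℕ) [NeZero N] [Algebra ↥W (Fermat.Agent.S24.FF L N)]
  [IsScalarTower ↥W L (Fermat.Agent.S24.FF L N)]

omit [IsDiscreteValuationRing W] in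
theorem ev_eq_evF' :
    Endgame.ev ↥W (Fermat.Agent.S24.jBC L N) = PGGlue.evF W N := by
  apply Polynomial.ringHom_ext
  · intro a
    rw [Endgame.ev_C, PGGlue.evF_C, IsScalarTower.algebraMap_apply ↥W L (Fermat.Agent.S24.FF L N)]
    rfl
  · rw [Endgame.ev_X, PGGlue.evF, Polynomial.coe_eval₂RingHom, Polynomial.eval₂_X]

omit [IsDiscreteValuationRing W] [NeZero N] in
theorem coe_algebraMap (a : ↥W) :
    algebraMap (Fermat.Agent.S24.FF L N) (LaurentSeries L)
      (algebraMap ↥W (Fermat.Agent.S24.FF L N) a) = HahnSeries.C ((a : W) : L) := by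
  rw [IsScalarTower.algebraMap_apply ↥W L (Fermat.Agent.S24.FF L N),
    ← IsScalarTower.algebraMap_apply L (Fermat.Agent.S24.FF L N) (LaurentSeries L),
    Fermat.Agent.S28.Content.algebraMap_eq_C_of_field]
  rfl

/-- **(H_int)**, `InC` currency, at every level `N` (`algebraMap` form). -/
theorem algebraMap_mem_contentRing_of_inC {π : ↥W} (hπ : Irreducible π)
    (x : Fermat.Agent.S24.FF L N) (h : Endgame.InC π (Fermat.Agent.S24.jBC L N) x) :
    algebraMap (Fermat.Agent.S24.FF L N) (LaurentSeries L) x ∈ contentRing W := by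
  obtain ⟨S, hS, hint⟩ := h
  have hS' := map_ne_zero_of_not_C_dvd W hπ hS
  obtain ⟨hS0, hSinv⟩ := evL_inv_mem W S hS'
  have h1 : (Endgame.ev ↥W (Fermat.Agent.S24.jBC L N)).IsIntegralElem
      (Endgame.ev ↥W (Fermat.Agent.S24.jBC L N) S * x) := hint
  rw [ev_eq_evF'] at h1
  have hev : ∀ P, algebraMap (Fermat.Agent.S24.FF L N) (LaurentSeries L) (PGGlue.evF W N P) =
      PGGlue.evL W P := fun P => PGGlue.coe_evF W N P
  have h2 := TwoGauss.mem_contentRing_of_isIntegralElem W
    (algebraMap (Fermat.Agent.S24.FF L N) (LaurentSeries L))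
    (fun y => coe_mem_fracInt W N y) (PGGlue.evF W N)
    (fun P => by rw [hev]; exact PGGlue.evL_mem_contentRing W P) h1
  rw [map_mul, hev] at h2
  have h3 : algebraMap (Fermat.Agent.S24.FF L N) (LaurentSeries L) x = (PGGlue.evL W S)⁻¹ *
      (PGGlue.evL W S * algebraMap (Fermat.Agent.S24.FF L N) (LaurentSeries L) x) := by
    rw [← mul_assoc, inv_mul_cancel₀ hS0, one_mul]
  rw [h3]
  exact mul_mem hSinv h2

/-- **(H_int)**, `InC` currency, at every level `N`. -/
theorem mem_contentRing_of_inC {π : ↥W} (hπ : Irreducible π) (x : Fermat.Agent.S24.FF L N)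
    (h : Endgame.InC π (Fermat.Agent.S24.jBC L N) x) : (x : LaurentSeries L) ∈ contentRing W :=
  algebraMap_mem_contentRing_of_inC W N hπ x h

/-- **(K-RAM)**: the ramification hypothesis `hram` of `KummerInd.kummer_descent`, at every
level `N`: if `π ^ k * y ^ s` is a unit of the Gauss closure then `s ∣ k`. -/
theorem hram {π : ↥W} (hπ : Irreducible π) (s : ℕ) (k : ℕ) (y : Fermat.Agent.S24.FF L N)
    (hy : y ≠ 0)
    (h1 : Endgame.InC π (Fermat.Agent.S24.jBC L N)
      (algebraMap ↥W (Fermat.Agent.S24.FF L N) π ^ k * y ^ s))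
    (h2 : Endgame.InC π (Fermat.Agent.S24.jBC L N)
      (algebraMap ↥W (Fermat.Agent.S24.FF L N) π ^ k * y ^ s)⁻¹) : s ∣ k := by
  have hφ : ∀ z : Fermat.Agent.S24.FF L N,
      algebraMap (Fermat.Agent.S24.FF L N) (LaurentSeries L) z ∈ fracInt W :=
    fun z => coe_mem_fracInt W N z
  have m1 : algebraMap ↥W (Fermat.Agent.S24.FF L N) π ^ k * y ^ s ∈
      valRing W (algebraMap (Fermat.Agent.S24.FF L N) (LaurentSeries L)) hφ :=
    (mem_valRing_iff W _ hφ _).mpr (algebraMap_mem_contentRing_of_inC W N hπ _ h1)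
  have m2 : (algebraMap ↥W (Fermat.Agent.S24.FF L N) π ^ k * y ^ s)⁻¹ ∈
      valRing W (algebraMap (Fermat.Agent.S24.FF L N) (LaurentSeries L)) hφ :=
    (mem_valRing_iff W _ hφ _).mpr (algebraMap_mem_contentRing_of_inC W N hπ _ h2)
  exact valRing_ram W (algebraMap (Fermat.Agent.S24.FF L N) (LaurentSeries L)) hφ hπ
    (coe_algebraMap W N π) s k y hy m1 m2

end Level

/-! ### The structure `GCore.TwoGauss` at level `M q` -/

section Inst

variable {L : Type*} [Field L] [Algebra ℚ L] (W : ValuationSubring L) [IsDiscreteValuationRing W]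
  (M q : ℕ) [NeZero M] [NeZero q]
  (w : Fermat.Agent.S24.FF L (M * q) →ₐ[L] Fermat.Agent.S24.FF L (M * q))
  [Algebra ↥W (Fermat.Agent.S24.FF L (M * q))]
  [IsScalarTower ↥W L (Fermat.Agent.S24.FF L (M * q))]

omit [IsDiscreteValuationRing W] [NeZero M] [NeZero q] in
theorem algebraMap_eq (a : ↥W) : algebraMap ↥W (Fermat.Agent.S24.FF L (M * q)) a =
    algebraMap L (Fermat.Agent.S24.FF L (M * q)) (a : L) := by
  rw [IsScalarTower.algebraMap_apply ↥W L (Fermat.Agent.S24.FF L (M * q))]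
  rfl

omit [IsDiscreteValuationRing W] in
theorem phi1_algebraMapW (a : ↥W) :
    phi1 L M q (algebraMap ↥W (Fermat.Agent.S24.FF L (M * q)) a) = HahnSeries.C ((a : W) : L) := by
  rw [algebraMap_eq, phi1_algebraMap]

omit [IsDiscreteValuationRing W] in
theorem phi2_algebraMapW (a : ↥W) :
    phi2 L M q w (algebraMap ↥W (Fermat.Agent.S24.FF L (M * q)) a) =
      HahnSeries.C ((a : W) : L) := by
  rw [algebraMap_eq, phi2_algebraMap]

/-- **(O1)** The two Gauss valuation rings `V1`, `V2` at level `M q` form a `GCore.TwoGauss`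
datum: the Gauss closure of `W[j]` is `V1 ∩ V2` and `π` is a uniformiser of both. -/
theorem twoGauss [Fact q.Prime] [CharP (IsLocalRing.ResidueField W) q] (hqM : ¬ q ∣ M)
    (hwα : w.comp (heckeAlphaBar L M q) = heckeBetaBar L M q)
    (hwβ : w.comp (heckeBetaBar L M q) = heckeAlphaBar L M q) {π : ↥W} (hπ : Irreducible π) :
    Fermat.Agent.S34.GCore.TwoGauss π (Fermat.Agent.S24.jBC L (M * q)) (V1 W M q)
      (V2 W M q w) where
  inC_iff := fun z => ⟨fun h => mem_both_of_inC W M q w hwα hπ z h,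
    fun h => inC_of_mem_both W M q w hqM hwα hwβ hπ.not_isUnit z h.1 h.2⟩
  pi_lt₁ := valRing_pi_lt W _ _ hπ (phi1_algebraMapW W M q π)
  pi_lt₂ := valRing_pi_lt W _ _ hπ (phi2_algebraMapW W M q w π)
  unif₁ := valRing_unif W _ _ hπ (phi1_algebraMapW W M q π)
  unif₂ := valRing_unif W _ _ hπ (phi2_algebraMapW W M q w π)

end Inst

end Fermat.Agent.S34.TwoGaussInst
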