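/-
S34 (long shot, wave 6), top of the B5 instance assembly (helper13).

* `v3aContract`, `ramContract` : the two B1 contracts of `GAsm` are THEOREMS
  (`TwoGauss.inC_of_mem_both`, `TwoGaussInst.hram`, helper27).
* `dvrCoreG_of_loc` : `GDescent.DvrCoreG (M * q) p q A τ` from the two local contracts
  `GAsm.LocContract₁`, `GAsm.LocContract₂` alone.
* `unipG_of_loc`    : the geometric input (G) = `S34Of.UnipG (M * q) p q` from the two local
  contracts at every place `A ∣ q` and every `τ` in its inertia group.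
* `s34_of_loc`      : the conclusion of the frozen statement S34 at level `M * q` from the same.
-/
import Mathlib
import Fermat.Agent.S34.GAsm
import Fermat.Agent.S34.TwoGaussInst
import Fermat.Agent.S34.GFinal
import Fermat.Agent.S34.S34Of

set_option autoImplicit false
set_option linter.style.haveILetI false

namespace Fermat.Agent.S34.GAsmTop

open ModularCurve AlgebraicCurve Fermat.Agent.S18 Fermat.Agent.S37
open Fermat.Agent.S34.GAsm Fermat.Agent.S34.GDescent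

local notation "Qb" => AlgebraicClosure ℚ

variable (M q p : ℕ) [NeZero M] [NeZero q]

/-- **(V3a)** holds at every level (helper27's `TwoGauss.inC_of_mem_both`). -/
theorem v3aContract (hq : q.Prime) (hqM : ¬ q ∣ M) (A : ValuationSubring Qb) :
    V3aContract M q A := by
  refine ⟨∅, ?_⟩
  intro L _ _ ι hlev _ ϖ hϖ w hα hβ x hx₁ hx₂
  obtain ⟨-, -, hdvr, -, -, hchar, -, -⟩ := hlev
  haveI := hdvr
  haveI := hchar
  haveI : Fact q.Prime := ⟨hq⟩
  haveI := isScalarTower_W (A.comap ι) (M * q)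
  exact TwoGauss.inC_of_mem_both (A.comap ι) M q
    (w : S24.FF L (M * q) →ₐ[L] S24.FF L (M * q)) hqM hα hβ hϖ.not_isUnit x hx₁ hx₂

/-- **(RAM)** holds at every level (helper27's `TwoGaussInst.hram`). -/
theorem ramContract (A : ValuationSubring Qb) : RamContract M q p A := by
  refine ⟨∅, ?_⟩
  intro L _ _ ι hlev _ ϖ hϖ k y hy h1 h2
  obtain ⟨-, -, hdvr, -, -, -, -, -⟩ := hlev
  haveI := hdvr
  haveI := isScalarTower_W (A.comap ι) (M * q)
  exact TwoGaussInst.hram (A.comap ι) (M * q) hϖ p k y hy h1 h2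

/-- **The DVR-level core of (G) from the two local contracts.** -/
theorem dvrCoreG_of_loc (hq : q.Prime) (hqM : ¬ q ∣ M) (hp : p.Prime) (hpq : p ≠ q)
    (A : ValuationSubring Qb) (τ : Qb ≃ₐ[ℚ] Qb) (hτ : τ ∈ A.inertiaSubgroupIn ℚ)
    (h₁ : LocContract₁ M q p A τ) (h₂ : LocContract₂ M q p A τ) :
    DvrCoreG (M * q) p q A τ :=
  dvrCoreG_of_contracts M q p hq hqM hp hpq A τ hτ (v3aContract M q hq hqM A)
    (ramContract M q p A) h₁ h₂

/-- **(G) from the two local contracts.** -/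
theorem unipG_of_loc (hq : q.Prime) (hqM : ¬ q ∣ M) (hp : p.Prime) (hpq : p ≠ q)
    (h₁ : ∀ A : ValuationSubring Qb, A.LiesOverPrime q → ∀ τ ∈ A.inertiaSubgroupIn ℚ,
      LocContract₁ M q p A τ)
    (h₂ : ∀ A : ValuationSubring Qb, A.LiesOverPrime q → ∀ τ ∈ A.inertiaSubgroupIn ℚ,
      LocContract₂ M q p A τ) :
    S34Of.UnipG (M * q) p q :=
  GFinal.unipG_of_core (M * q) p q hq (fun A hA τ hτ =>
    dvrCoreG_of_loc M q p hq hqM hp hpq A τ hτ (h₁ A hA τ hτ) (h₂ A hA τ hτ))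

/-- **S34 at level `M * q` from the two local contracts.** -/
theorem s34_of_loc
    {𝒪 : Type} [CommRing 𝒪] [IsDomain 𝒪] [IsDiscreteValuationRing 𝒪]
    [IsAdicComplete (IsLocalRing.maximalIdeal 𝒪) 𝒪]
    (hp : p.Prime) (hp𝒪 : (p : 𝒪) ∈ IsLocalRing.maximalIdeal 𝒪)
    {S : Finset ℕ} (hpS : p ∈ S) (hNS : ∀ q' : ℕ, q'.Prime → q' ∣ M * q → q' ∈ S)
    {θ : CuspForm.heckeAlgebra (M * q) 2 (↑S : Set ℕ) →+* IsLocalRing.ResidueField 𝒪}
    {T : Type} [CommRing T] [IsLocalRing T] [IsNoetherianRing T]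
    [IsAdicComplete (IsLocalRing.maximalIdeal T) T] [Algebra 𝒪 T] [IsLocalHom (algebraMap 𝒪 T)]
    [Module.Finite 𝒪 T] [Module.Free 𝒪 T]
    (H : CuspForm.HeckeGaloisRepDatum (M * q) (↑S : Set ℕ) 𝒪 θ T)
    (hq : q.Prime) (hqp : q ≠ p) (hqM : ¬ q ∣ M)
    (h₁ : ∀ A : ValuationSubring Qb, A.LiesOverPrime q → ∀ τ ∈ A.inertiaSubgroupIn ℚ,
      LocContract₁ M q p A τ)
    (h₂ : ∀ A : ValuationSubring Qb, A.LiesOverPrime q → ∀ τ ∈ A.inertiaSubgroupIn ℚ,
      LocContract₂ M q p A τ) :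
    H.ρ.IsUnipotentOnInertiaAt q :=
  S34Of.s34_of_G hp hp𝒪 hpS hNS H q hq hqp
    (unipG_of_loc M q p hq hqM hp (Ne.symm hqp) h₁ h₂)

end Fermat.Agent.S34.GAsmTop
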