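import Mathlib
import Fermat.Agent.S37.WChart
import Fermat.Agent.S34.CoeffAut
import Fermat.Agent.S34.FrobAct

/-!
# S34 (wave 6): the class of a point of the special fibre is stable under inertia

`(TC)` of the S34 ledger.  Three parts.

* **Ring part** (`map_mem_iff`, `locEquiv`, …): a ring automorphism `τB` of a chart ring `B` which
  is trivial modulo `π` (`τB y = y + π * z`) preserves every ideal containing `π`; for a prime
  `𝔫 ∋ π` it induces an automorphism `locEquiv` of any localisation `R` of `B` at `𝔫`, again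
  trivial modulo `π`, semilinear over the base when `τB` is, and compatible with chart maps.
* **Place part** (`pl_smul_iff`, `inClass_smul_iff`): in the `S37.WChart` currency, if the
  semilinear automorphism `g` of `F` acts on the chart through `τB` (`ψ (τB y) = g • ψ y`), its
  base automorphism preserves the valuation ring `A`, and `τB` is trivial modulo a constant of
  the maximal ideal of `A`, then `InClass A ψ 𝔫 (g • P) ↔ InClass A ψ 𝔫 P` for every ideal `𝔫`.
* **Instance glue** (`exists_act_eq_add_unif_mul`): on `FF L N`, the restriction `s` of an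
  inertia element acts trivially modulo `ϖ` on any "chart predicate" for which `(S1)`
  (`red x = 0`, `red (w x) = 0 ⊢ x = ϖ * y` with `y` in the chart) holds.
-/

set_option autoImplicit false

noncomputable section

namespace Fermat.Agent.S34.ClassStable

open AlgebraicCurve Fermat.Agent.S37.GaloisValue Fermat.Agent.S37.WChart

/-! ### Ring part -/

section Ring

variable {B : Type*} [CommRing B] (τB : B ≃+* B) (π : B)
  (hcong : ∀ y : B, ∃ z : B, τB y = y + π * z)

include hcong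

/-- The inverse of an automorphism trivial modulo `π` is trivial modulo `π`. -/
theorem symm_cong (y : B) : ∃ z : B, τB.symm y = y + π * z := by
  obtain ⟨z, hz⟩ := hcong (τB.symm y)
  rw [RingEquiv.apply_symm_apply] at hz
  exact ⟨-z, by linear_combination (-1 : B) * hz⟩

/-- An automorphism trivial modulo `π` preserves every ideal containing `π`. -/
theorem map_mem_iff (𝔫 : Ideal B) (hπ : π ∈ 𝔫) (y : B) : τB y ∈ 𝔫 ↔ y ∈ 𝔫 := by
  obtain ⟨z, hz⟩ := hcong y
  rw [hz]
  constructor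
  · intro h
    have h1 := 𝔫.sub_mem h (𝔫.mul_mem_right z hπ)
    rwa [add_sub_cancel_right] at h1
  · intro h
    exact 𝔫.add_mem h (𝔫.mul_mem_right z hπ)

theorem symm_mem_iff (𝔫 : Ideal B) (hπ : π ∈ 𝔫) (y : B) : τB.symm y ∈ 𝔫 ↔ y ∈ 𝔫 := by
  have h := map_mem_iff τB π hcong 𝔫 hπ (τB.symm y)
  rw [RingEquiv.apply_symm_apply] at h
  exact h.symm

theorem map_primeCompl (𝔫 : Ideal B) [𝔫.IsPrime] (hπ : π ∈ 𝔫) :
    Submonoid.map τB.toMonoidHom 𝔫.primeCompl = 𝔫.primeCompl := by
  ext y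
  rw [Submonoid.mem_map]
  constructor
  · rintro ⟨x, hx, rfl⟩
    exact fun h => hx ((map_mem_iff τB π hcong 𝔫 hπ x).mp h)
  · intro hy
    refine ⟨τB.symm y, fun h => hy ((symm_mem_iff τB π hcong 𝔫 hπ y).mp h), ?_⟩
    exact τB.apply_symm_apply y

variable (𝔫 : Ideal B) [𝔫.IsPrime] (hπ : π ∈ 𝔫)
  (R : Type*) [CommRing R] [Algebra B R] [IsLocalization.AtPrime R 𝔫]

/-- The automorphism of a localisation `R` of `B` at a prime `𝔫 ∋ π` induced by an automorphism
`τB` of `B` trivial modulo `π`. -/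
def locEquiv : R ≃+* R :=
  IsLocalization.ringEquivOfRingEquiv (M := 𝔫.primeCompl) R (T := 𝔫.primeCompl) R τB
    (map_primeCompl τB π hcong 𝔫 hπ)

theorem locEquiv_algebraMap (y : B) :
    locEquiv τB π hcong 𝔫 hπ R (algebraMap B R y) = algebraMap B R (τB y) :=
  IsLocalization.ringEquivOfRingEquiv_eq _ _

/-- The induced automorphism of the localisation is again trivial modulo `π`. -/
theorem locEquiv_cong (r : R) :
    ∃ z : R, locEquiv τB π hcong 𝔫 hπ R r = r + algebraMap B R π * z := by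
  obtain ⟨y, d, rfl⟩ := IsLocalization.exists_mk'_eq 𝔫.primeCompl r
  obtain ⟨z₁, hy⟩ := hcong y
  obtain ⟨z₂, hd⟩ := hcong (d : B)
  have hspec : IsLocalization.mk' R y d * algebraMap B R (d : B) = algebraMap B R y :=
    IsLocalization.mk'_spec R y d
  have happly : locEquiv τB π hcong 𝔫 hπ R (IsLocalization.mk' R y d) * algebraMap B R (τB (d : B))
      = algebraMap B R (τB y) := by
    rw [← locEquiv_algebraMap τB π hcong 𝔫 hπ R, ← locEquiv_algebraMap τB π hcong 𝔫 hπ R,
      ← map_mul, hspec]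
  have hτd : τB (d : B) ∈ 𝔫.primeCompl := fun h => d.2 ((map_mem_iff τB π hcong 𝔫 hπ _).mp h)
  have hunit : IsUnit (algebraMap B R (τB (d : B))) :=
    IsLocalization.map_units R (⟨τB (d : B), hτd⟩ : 𝔫.primeCompl)
  obtain ⟨v, huv⟩ := hunit.exists_right_inv
  rw [hd, map_add, map_mul] at happly huv
  rw [hy, map_add, map_mul] at happly
  refine ⟨(algebraMap B R z₁ - IsLocalization.mk' R y d * algebraMap B R z₂) * v, ?_⟩
  linear_combination (IsLocalization.mk' R y d - locEquiv τB π hcong 𝔫 hπ R (IsLocalization.mk' R y d)) * huv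
    + v * happly - v * hspec

/-- Semilinearity over a base ring passes to the localisation. -/
theorem locEquiv_algebraMap_base {W : Type*} [CommRing W] [Algebra W B] [Algebra W R]
    [IsScalarTower W B R] (τW : W → W)
    (hτW : ∀ w : W, τB (algebraMap W B w) = algebraMap W B (τW w)) (w : W) :
    locEquiv τB π hcong 𝔫 hπ R (algebraMap W R w) = algebraMap W R (τW w) := by
  rw [IsScalarTower.algebraMap_apply W B R, locEquiv_algebraMap, hτW,
    ← IsScalarTower.algebraMap_apply W B R]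

/-- Compatibility with chart maps: if `ψ ∘ τB = γ ∘ ψ` on `B` then `ψR ∘ locEquiv = γ ∘ ψR`. -/
theorem map_locEquiv {F : Type*} [CommRing F] (ψ : B →+* F) (ψR : R →+* F)
    (hψR : ∀ y : B, ψR (algebraMap B R y) = ψ y) (γ : F →+* F)
    (hτψ : ∀ y : B, ψ (τB y) = γ (ψ y)) (r : R) :
    ψR (locEquiv τB π hcong 𝔫 hπ R r) = γ (ψR r) := by
  have h : ψR.comp (locEquiv τB π hcong 𝔫 hπ R : R →+* R) = γ.comp ψR := by
    apply IsLocalization.ringHom_ext 𝔫.primeCompl
    ext y
    simp only [RingHom.comp_apply, RingHom.coe_coe]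
    rw [locEquiv_algebraMap, hψR, hψR, hτψ]
  exact RingHom.congr_fun h r

/-- Compatibility with chart maps, semilinear-automorphism form. -/
theorem map_locEquiv_smul {K F : Type*} [Field K] [Field F] [Algebra K F]
    (g : SemilinearAut K F) (ψ : B →+* F) (ψR : R →+* F)
    (hψR : ∀ y : B, ψR (algebraMap B R y) = ψ y)
    (hτψ : ∀ y : B, ψ (τB y) = g • ψ y) (r : R) :
    ψR (locEquiv τB π hcong 𝔫 hπ R r) = g • ψR r :=
  map_locEquiv τB π hcong 𝔫 hπ R ψ ψR hψR (SemilinearAut.toRingAut g : F →+* F) hτψ r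

end Ring

/-! ### Place part -/

section Place

variable {K F : Type*} [Field K] [Field F] [Algebra K F] (A : ValuationSubring K)
  {B : Type*} [CommRing B] (ψ : B →+* F)

theorem valuation_lt_one_iff_inv_notMem {x : K} (hx : x ≠ 0) : A.valuation x < 1 ↔ x⁻¹ ∉ A := by
  have h0 : 0 < A.valuation x := zero_lt_iff.mpr ((Valuation.ne_zero_iff _).mpr hx)
  rw [← A.valuation_le_one_iff, map_inv₀, not_le, one_lt_inv₀ h0]

/-- An automorphism of `K` preserving the valuation ring `A` preserves its maximal ideal. -/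
theorem valuation_map_lt_one_iff (e : K ≃+* K) (he : ∀ c : K, c ∈ A ↔ e c ∈ A) (c : K) :
    A.valuation (e c) < 1 ↔ A.valuation c < 1 := by
  rcases eq_or_ne c 0 with rfl | hc
  · rw [map_zero]
  · have hec : e c ≠ 0 := (map_ne_zero e).mpr hc
    rw [valuation_lt_one_iff_inv_notMem A hec, valuation_lt_one_iff_inv_notMem A hc, he c⁻¹,
      map_inv₀]

variable (g : SemilinearAut K F) (hgA : ∀ c : K, c ∈ A ↔ SemilinearAut.baseAut g c ∈ A)
  (τB : B ≃+* B) (hτψ : ∀ y : B, ψ (τB y) = g • ψ y)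

include hgA hτψ

/-- Integral points of the chart are moved to integral points. -/
theorem pl_smul {P : Place K F} (hP : Pl A ψ P) : Pl A ψ (g • P) := by
  intro y
  obtain ⟨c, hc, hv⟩ := hP (τB.symm y)
  refine ⟨SemilinearAut.baseAut g c, (hgA c).mp hc, ?_⟩
  have h := hv.smul g
  rwa [← hτψ, RingEquiv.apply_symm_apply] at h

variable (π : B) (c₀ : K) (hc₀ : A.valuation c₀ < 1) (hπ : ψ π = algebraMap K F c₀)
  (hcong : ∀ y : B, ∃ z : B, τB y = y + π * z)

include hc₀ hπ hcong

/-- One direction of `inClass_smul_iff`. -/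
theorem inClass_smul (𝔫 : Ideal B) {P : Place K F} (hP : InClass A ψ 𝔫 P) :
    InClass A ψ 𝔫 (g • P) := by
  obtain ⟨hPl, hC⟩ := hP
  refine ⟨pl_smul A ψ g hgA τB hτψ hPl, ?_⟩
  intro y
  obtain ⟨z, hz⟩ := symm_cong τB π hcong y
  obtain ⟨c, hcA, hvc⟩ := hPl y
  obtain ⟨cz, hczA, hvz⟩ := hPl z
  -- the value of `ψ (τB.symm y)` at `P`
  have hv1 : IsValueAt P (ψ (τB.symm y)) (c + c₀ * cz) := by
    rw [hz, map_add, map_mul, hπ]
    exact hvc.add ((isValueAt_algebraMap P c₀).mul hvz)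
  -- the value of `ψ y` at `g • P`
  have hv2 : IsValueAt (g • P) (ψ y) (SemilinearAut.baseAut g (c + c₀ * cz)) := by
    have h := hv1.smul g
    rwa [← hτψ, RingEquiv.apply_symm_apply] at h
  have hsmall : A.valuation (c₀ * cz) < 1 := by
    rw [map_mul]
    calc A.valuation c₀ * A.valuation cz ≤ A.valuation c₀ * 1 := by
          gcongr
          exact (A.valuation_le_one_iff cz).mpr hczA
      _ = A.valuation c₀ := mul_one _
      _ < 1 := hc₀
  have hiff : A.valuation (c + c₀ * cz) < 1 ↔ A.valuation c < 1 := by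
    constructor
    · intro h
      have e : c = (c + c₀ * cz) - c₀ * cz := by ring
      rw [e]
      exact lt_of_le_of_lt (Valuation.map_sub _ _ _) (max_lt h hsmall)
    · intro h
      exact lt_of_le_of_lt (Valuation.map_add _ _ _) (max_lt h hsmall)
  rw [hC y]
  constructor
  · rintro ⟨c', hc', hv'⟩
    obtain rfl : c' = c := hv'.unique hvc
    exact ⟨_, (valuation_map_lt_one_iff A _ hgA _).mpr (hiff.mpr hc'), hv2⟩
  · rintro ⟨c'', hc'', hv''⟩
    obtain rfl : c'' = SemilinearAut.baseAut g (c + c₀ * cz) := hv''.unique hv2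
    exact ⟨c, hiff.mp ((valuation_map_lt_one_iff A _ hgA _).mp hc''), hvc⟩

omit hc₀ hπ hcong in
/-- **Integral points of the chart are stable under `g`.** -/
theorem pl_smul_iff (P : Place K F) : Pl A ψ (g • P) ↔ Pl A ψ P := by
  refine ⟨fun h => ?_, pl_smul A ψ g hgA τB hτψ⟩
  have hgA' : ∀ c : K, c ∈ A ↔ SemilinearAut.baseAut g⁻¹ c ∈ A := by
    intro c
    rw [SemilinearAut.baseAut_inv, hgA ((SemilinearAut.baseAut g).symm c),
      RingEquiv.apply_symm_apply]
  have hτψ' : ∀ y : B, ψ (τB.symm y) = g⁻¹ • ψ y := by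
    intro y
    rw [eq_inv_smul_iff, ← hτψ, RingEquiv.apply_symm_apply]
  have h1 := pl_smul A ψ g⁻¹ hgA' τB.symm hτψ' h
  rwa [inv_smul_smul] at h1

/-- **The class of `𝔫` is stable under `g`**: `g • P` is an `A`-integral point of the chart
with centre `𝔫` iff `P` is. -/
theorem inClass_smul_iff (𝔫 : Ideal B) (P : Place K F) :
    InClass A ψ 𝔫 (g • P) ↔ InClass A ψ 𝔫 P := by
  refine ⟨fun h => ?_, inClass_smul A ψ g hgA τB hτψ π c₀ hc₀ hπ hcong 𝔫⟩
  have hgA' : ∀ c : K, c ∈ A ↔ SemilinearAut.baseAut g⁻¹ c ∈ A := by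
    intro c
    rw [SemilinearAut.baseAut_inv, hgA ((SemilinearAut.baseAut g).symm c),
      RingEquiv.apply_symm_apply]
  have hτψ' : ∀ y : B, ψ (τB.symm y) = g⁻¹ • ψ y := by
    intro y
    rw [eq_inv_smul_iff, ← hτψ, RingEquiv.apply_symm_apply]
  have h1 := inClass_smul A ψ g⁻¹ hgA' τB.symm hτψ' π c₀ hc₀ hπ
    (fun y => symm_cong τB π hcong y) 𝔫 h
  rwa [inv_smul_smul] at h1

end Place

/-! ### The arithmetic Galois action of a decomposition element -/

section Arith

open ModularCurve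

local notation "Qb" => AlgebraicClosure ℚ

variable (A : ValuationSubring Qb) (F₀ : IntermediateField ℚ (LaurentSeries ℚ))
  {B : Type*} [CommRing B] (ψ : B →+* ↥(laurentBaseChange Qb F₀))
  (τ : Qb ≃ₐ[ℚ] Qb) (hτ : τ ∈ A.decompositionSubgroup ℚ)
  (τB : B ≃+* B) (hτψ : ∀ y : B, ψ (τB y) = arithmeticGalois F₀ τ • ψ y)

include hτ hτψ

omit hτψ in
theorem mem_iff_baseAut_arith (c : Qb) :
    c ∈ A ↔ SemilinearAut.baseAut (arithmeticGalois F₀ τ) c ∈ A := by
  rw [baseAut_arithmeticGalois]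
  exact (mem_decompositionSubgroup_iff A τ).mp hτ c

/-- `Pl` is stable under the arithmetic Galois action of a decomposition element acting on the
chart. -/
theorem pl_arith_smul_iff (P : Place Qb ↥(laurentBaseChange Qb F₀)) :
    Pl A ψ (arithmeticGalois F₀ τ • P) ↔ Pl A ψ P :=
  pl_smul_iff A ψ _ (mem_iff_baseAut_arith A F₀ τ hτ) τB hτψ P

/-- **The class of `𝔫` is stable under the arithmetic Galois action** of a decomposition element
whose action on the chart is trivial modulo a constant `π` of the maximal ideal of `A`. -/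
theorem inClass_arith_smul_iff (π : B) (c₀ : Qb) (hc₀ : A.valuation c₀ < 1)
    (hπ : ψ π = algebraMap Qb ↥(laurentBaseChange Qb F₀) c₀)
    (hcong : ∀ y : B, ∃ z : B, τB y = y + π * z) (𝔫 : Ideal B)
    (P : Place Qb ↥(laurentBaseChange Qb F₀)) :
    InClass A ψ 𝔫 (arithmeticGalois F₀ τ • P) ↔ InClass A ψ 𝔫 P :=
  inClass_smul_iff A ψ _ (mem_iff_baseAut_arith A F₀ τ hτ) τB hτψ π c₀ hc₀ hπ hcong 𝔫 P

end Arith

/-! ### Instance glue: inertia is trivial modulo `ϖ` on the chart rings of level `N` -/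

section Inst

open ModularCurve Fermat.Agent.S18 Fermat.Agent.S18.Gauss Fermat.Agent.S24
  Fermat.Agent.S34.CoeffAut

local notation "Qb" => AlgebraicClosure ℚ

variable (A : ValuationSubring Qb) {L : Type*} [Field L] [Algebra ℚ L] (ι : L →+* Qb)
  {σ : Qb ≃ₐ[ℚ] Qb} (s : L ≃+* L) (hs : ∀ c : L, ι (s c) = σ (ι c))

include hs

/-- **Inertia acts trivially modulo `ϖ` on a chart ring.**  `Int` is the chart predicate
(e.g. `(evF W N).IsIntegralElem` or `(evFinf W N).IsIntegralElem`), `w` the Atkin–Lehner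
automorphism (only additivity and commutation with the coefficient action are used), and `hS1`
is `(S1)` in raw currency: an element of the chart whose reductions at both Gauss valuations
vanish is `ϖ` times an element of the chart. -/
theorem exists_act_eq_add_unif_mul (N : ℕ) (hσ : σ ∈ A.inertiaSubgroupIn ℚ)
    (w : FF L N → FF L N) (hwsub : ∀ x y : FF L N, w (x - y) = w x - w y)
    (hw : ∀ x : FF L N, act N s (w x) = w (act N s x))
    (Int : FF L N → Prop) (hsub : ∀ x y : FF L N, Int x → Int y → Int (x - y))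
    (hact : ∀ x : FF L N, Int x → Int (act N s x))
    (hc₁ : ∀ x : FF L N, Int x → (x : LaurentSeries L) ∈ contentRing (A.comap ι))
    (hc₂ : ∀ x : FF L N, Int x → ((w x : FF L N) : LaurentSeries L) ∈ contentRing (A.comap ι))
    (ϖ : L)
    (hS1 : ∀ x : FF L N, Int x →
      ∀ (hx : (x : LaurentSeries L) ∈ contentRing (A.comap ι))
        (hwx : ((w x : FF L N) : LaurentSeries L) ∈ contentRing (A.comap ι)),
        red (A.comap ι) ⟨_, hx⟩ = 0 → red (A.comap ι) ⟨_, hwx⟩ = 0 →
        ∃ y : FF L N, Int y ∧ x = algebraMap L (FF L N) ϖ * y)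
    (x : FF L N) (hx : Int x) :
    ∃ y : FF L N, Int y ∧ act N s x = x + algebraMap L (FF L N) ϖ * y := by
  obtain ⟨m, hm, hred, hmeq⟩ := FrobAct.exists_act_eq_add A ι s hs N hσ (hc₁ x hx)
  obtain rfl : m = act N s x - x := by rw [hmeq]; ring
  obtain ⟨m', hm', hred', hmeq'⟩ := FrobAct.exists_act_eq_add A ι s hs N hσ (hc₂ x hx)
  obtain rfl : m' = w (act N s x - x) := by rw [hwsub, ← hw, hmeq']; ring
  obtain ⟨y, hy, hxy⟩ := hS1 _ (hsub _ _ (hact x hx) hx) hm hm' hred hred'
  exact ⟨y, hy, by rw [← hxy]; ring⟩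

/-- The same with the chart predicate given by a ring homomorphism `B → FF L N` (an `S37`-style
chart ring `B` with injective chart map `φ`): the coefficient action restricted to `B` is trivial
modulo `ϖ`. -/
theorem exists_chart_act_eq_add (N : ℕ) (hσ : σ ∈ A.inertiaSubgroupIn ℚ)
    (w : FF L N → FF L N) (hwsub : ∀ x y : FF L N, w (x - y) = w x - w y)
    (hw : ∀ x : FF L N, act N s (w x) = w (act N s x))
    {B : Type*} [CommRing B] (φ : B →+* FF L N) (hφ : Function.Injective φ)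
    (τB : B → B) (hτB : ∀ b : B, φ (τB b) = act N s (φ b))
    (hc₁ : ∀ b : B, (φ b : LaurentSeries L) ∈ contentRing (A.comap ι))
    (hc₂ : ∀ b : B, ((w (φ b) : FF L N) : LaurentSeries L) ∈ contentRing (A.comap ι))
    (ϖB : B) (ϖ : L) (hϖ : φ ϖB = algebraMap L (FF L N) ϖ)
    (hS1 : ∀ b : B,
      ∀ (hx : (φ b : LaurentSeries L) ∈ contentRing (A.comap ι))
        (hwx : ((w (φ b) : FF L N) : LaurentSeries L) ∈ contentRing (A.comap ι)),
        red (A.comap ι) ⟨_, hx⟩ = 0 → red (A.comap ι) ⟨_, hwx⟩ = 0 →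
        ∃ b' : B, b = ϖB * b')
    (b : B) : ∃ z : B, τB b = b + ϖB * z := by
  obtain ⟨y, ⟨z, rfl⟩, hy⟩ := exists_act_eq_add_unif_mul A ι s hs N hσ w hwsub hw
    (fun x => ∃ b : B, φ b = x)
    (fun x y ⟨bx, hbx⟩ ⟨by', hby⟩ => ⟨bx - by', by rw [map_sub, hbx, hby]⟩)
    (fun x ⟨bx, hbx⟩ => ⟨τB bx, by rw [hτB, hbx]⟩)
    (fun x ⟨bx, hbx⟩ => hbx ▸ hc₁ bx)
    (fun x ⟨bx, hbx⟩ => hbx ▸ hc₂ bx)
    ϖ
    (fun x ⟨bx, hbx⟩ hx hwx h1 h2 => by
      subst hbx
      obtain ⟨b', hb'⟩ := hS1 bx hx hwx h1 h2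
      exact ⟨φ b', ⟨b', rfl⟩, by rw [hb', map_mul, hϖ]⟩)
    (φ b) ⟨b, rfl⟩
  refine ⟨z, hφ ?_⟩
  rw [hτB, hy, map_add, map_mul, hϖ]

end Inst

end Fermat.Agent.S34.ClassStable
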