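import Mathlib
import Fermat.Agent.S37.GaussPrime
import Fermat.Agent.S34.CoeffAut
import Fermat.Agent.S34.ClassStable
import Fermat.Agent.S34.GalLevel

/-!
# S34 (wave 6): the coefficient action on the chart rings

For a ring automorphism `s` of the level `L` preserving `W`, the coefficientwise action
`CoeffAut.act N s` of `FF L N` preserves the finite chart (integral closure of `W[j]`) and the
cusp chart (integral closure of `CuspBase W = W[1/j, 1/(1 - 1728/j)]`).  Hence it restricts to a
ring automorphism `τB` of every carrier `B` of these charts (`S37` currency: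
`[IsIntegralClosure B W[X] (FF L N)]`, resp. `[IsIntegralClosure B (CuspBase W) (FF L N)]`):

* `restrictEquiv` : the abstract restriction of an automorphism `σ` of `F` to a ring `B` with an
  injective map `φ : B → F` whose image is `σ`-stable, `φ (restrictEquiv … b) = σ (φ b)`;
* `actFin`, `algebraMap_actFin` : the finite carrier;
* `actCusp`, `algebraMap_actCusp` : the cusp carrier;
* `actFin_mem_iff`, `actCusp_mem_iff` : for the restriction of an inertia element, the
  automorphism preserves every ideal containing the uniformiser, given `(S1)` in raw currency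
  (through `ClassStable.exists_chart_act_eq_add`).
-/

set_option autoImplicit false

noncomputable section

namespace Fermat.Agent.S34.ChartAct

open Polynomial ModularCurve Fermat.Agent.S18 Fermat.Agent.S18.Gauss Fermat.Agent.S18.Cusp
  Fermat.Agent.S24 Fermat.Agent.S34.CoeffAut

/-! ### Restriction of an automorphism to a stable subring -/

section Abstract

variable {B F : Type*} [CommRing B] [CommRing F] (φ : B →+* F) (hφ : Function.Injective φ)
  (σ : F ≃+* F) (h : ∀ b : B, ∃ b' : B, φ b' = σ (φ b))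
  (h' : ∀ b : B, ∃ b' : B, φ b' = σ.symm (φ b))

/-- The restriction of `σ` to `B` along the injective map `φ`, when the image of `φ` is stable
under `σ` and `σ⁻¹`. -/
def restrictEquiv : B ≃+* B where
  toFun b := Classical.choose (h b)
  invFun b := Classical.choose (h' b)
  left_inv b := hφ (by
    rw [Classical.choose_spec (h' _), Classical.choose_spec (h b), RingEquiv.symm_apply_apply])
  right_inv b := hφ (by
    rw [Classical.choose_spec (h _), Classical.choose_spec (h' b), RingEquiv.apply_symm_apply])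
  map_mul' a b := hφ (by
    rw [Classical.choose_spec (h _), map_mul, map_mul, map_mul, Classical.choose_spec (h a),
      Classical.choose_spec (h b)])
  map_add' a b := hφ (by
    rw [Classical.choose_spec (h _), map_add, map_add, map_add, Classical.choose_spec (h a),
      Classical.choose_spec (h b)])

theorem map_restrictEquiv (b : B) : φ (restrictEquiv φ hφ σ h h' b) = σ (φ b) :=
  Classical.choose_spec (h b)

theorem map_restrictEquiv_symm (b : B) :
    φ ((restrictEquiv φ hφ σ h h').symm b) = σ.symm (φ b) :=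
  Classical.choose_spec (h' b)

end Abstract

/-! ### The two chart predicates are stable under the coefficient action -/

section Stable

variable {L : Type*} [Field L] [Algebra ℚ L] (W : ValuationSubring L) (N : ℕ) [NeZero N]
  (s : L ≃+* L) (hW : ∀ c : L, c ∈ W ↔ (s : L →+* L) c ∈ W)

include hW

omit [Algebra ℚ L] [NeZero N] in
/-- The inverse automorphism preserves `W` as well. -/
theorem symm_mem_iff (c : L) : c ∈ W ↔ (s.symm : L →+* L) c ∈ W := by
  have h := hW (s.symm c)
  have e : (s : L →+* L) (s.symm c) = c := s.apply_symm_apply c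
  rw [e] at h
  exact h.symm

theorem isIntegralElem_evF_act_symm {x : FF L N} (hx : (evF W N).IsIntegralElem x) :
    (evF W N).IsIntegralElem ((act N s).symm x) := by
  rw [act_symm_apply]
  exact isIntegralElem_evF_act W N s.symm (symm_mem_iff W s hW) hx

variable [IsDiscreteValuationRing W]

theorem intCusp_act {x : FF L N} (hx : Fermat.Agent.S37.GaussPrime.IntCusp W N x) :
    Fermat.Agent.S37.GaussPrime.IntCusp W N (act N s x) := by
  obtain ⟨m, hm⟩ := hx
  exact ⟨m, isIntegralElem_cusp_act W N s hW hm⟩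

theorem intCusp_act_symm {x : FF L N} (hx : Fermat.Agent.S37.GaussPrime.IntCusp W N x) :
    Fermat.Agent.S37.GaussPrime.IntCusp W N ((act N s).symm x) := by
  rw [act_symm_apply]
  exact intCusp_act W N s.symm (symm_mem_iff W s hW) hx

end Stable

/-! ### The finite carrier -/

section Fin

variable {L : Type*} [Field L] [Algebra ℚ L] (W : ValuationSubring L) (N : ℕ) [NeZero N]
  (s : L ≃+* L) (hW : ∀ c : L, c ∈ W ↔ (s : L →+* L) c ∈ W)
  [Algebra (↥W)[X] (FF L N)] (halg : algebraMap (↥W)[X] (FF L N) = evF W N)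
  (B : Type*) [CommRing B] [Algebra (↥W)[X] B] [Algebra B (FF L N)]
  [IsScalarTower (↥W)[X] B (FF L N)] [IsIntegralClosure B (↥W)[X] (FF L N)]

include halg in
/-- The image of a finite carrier is the set of elements integral over `W[j]`. -/
theorem exists_algebraMap_eq_iff_fin (x : FF L N) :
    (∃ b : B, algebraMap B (FF L N) b = x) ↔ (evF W N).IsIntegralElem x := by
  rw [← IsIntegralClosure.isIntegral_iff (R := (↥W)[X]) (A := B)]
  show (algebraMap (↥W)[X] (FF L N)).IsIntegralElem x ↔ _
  rw [halg]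

include hW halg

theorem exists_act_fin (b : B) :
    ∃ b' : B, algebraMap B (FF L N) b' = act N s (algebraMap B (FF L N) b) :=
  (exists_algebraMap_eq_iff_fin W N halg B _).mpr
    (isIntegralElem_evF_act W N s hW ((exists_algebraMap_eq_iff_fin W N halg B _).mp ⟨b, rfl⟩))

theorem exists_act_symm_fin (b : B) :
    ∃ b' : B, algebraMap B (FF L N) b' = (act N s).symm (algebraMap B (FF L N) b) :=
  (exists_algebraMap_eq_iff_fin W N halg B _).mpr
    (isIntegralElem_evF_act_symm W N s hW
      ((exists_algebraMap_eq_iff_fin W N halg B _).mp ⟨b, rfl⟩))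

/-- **The coefficient action on a finite carrier.** -/
def actFin : B ≃+* B :=
  restrictEquiv (algebraMap B (FF L N))
    (IsIntegralClosure.algebraMap_injective B (↥W)[X] (FF L N)) (act N s)
    (exists_act_fin W N s hW halg B) (exists_act_symm_fin W N s hW halg B)

theorem algebraMap_actFin (b : B) :
    algebraMap B (FF L N) (actFin W N s hW halg B b) = act N s (algebraMap B (FF L N) b) :=
  map_restrictEquiv _ _ _ _ _ b

theorem algebraMap_actFin_symm (b : B) :
    algebraMap B (FF L N) ((actFin W N s hW halg B).symm b) =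
      (act N s).symm (algebraMap B (FF L N) b) :=
  map_restrictEquiv_symm _ _ _ _ _ b

/-- The action on a finite carrier is semilinear over `W`: constants are moved by `s`. -/
theorem actFin_algebraMap_C (c : W) :
    actFin W N s hW halg B (algebraMap (↥W)[X] B (C c)) =
      algebraMap (↥W)[X] B (C (⟨s (c : L), (hW (c : L)).mp c.2⟩ : W)) := by
  apply IsIntegralClosure.algebraMap_injective B (↥W)[X] (FF L N)
  rw [algebraMap_actFin, ← IsScalarTower.algebraMap_apply, ← IsScalarTower.algebraMap_apply,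
    halg, evF_C, evF_C, act_algebraMap]

end Fin

/-! ### The cusp carrier -/

section CuspCarrier

variable {L : Type*} [Field L] [Algebra ℚ L] (W : ValuationSubring L) (N : ℕ) [NeZero N]
  [IsDiscreteValuationRing W]
  (s : L ≃+* L) (hW : ∀ c : L, c ∈ W ↔ (s : L →+* L) c ∈ W)
  [Algebra (CuspBase ↥W) (FF L N)]
  (halg : ∀ p : (↥W)[X], algebraMap (CuspBase ↥W) (FF L N)
    (algebraMap (↥W)[X] (CuspBase ↥W) p) = evFinf W N p)
  (B : Type*) [CommRing B] [Algebra (CuspBase ↥W) B] [Algebra B (FF L N)]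
  [IsScalarTower (CuspBase ↥W) B (FF L N)] [IsIntegralClosure B (CuspBase ↥W) (FF L N)]

include halg in
/-- The image of a cusp carrier is the set of elements integral over the cusp chart. -/
theorem exists_algebraMap_eq_iff_cusp (x : FF L N) :
    (∃ b : B, algebraMap B (FF L N) b = x) ↔ Fermat.Agent.S37.GaussPrime.IntCusp W N x := by
  rw [← IsIntegralClosure.isIntegral_iff (R := CuspBase ↥W) (A := B)]
  exact Fermat.Agent.S37.GaussPrime.isIntegral_cuspBase_iff W N halg x

include hW halg

theorem exists_act_cusp (b : B) :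
    ∃ b' : B, algebraMap B (FF L N) b' = act N s (algebraMap B (FF L N) b) :=
  (exists_algebraMap_eq_iff_cusp W N halg B _).mpr
    (intCusp_act W N s hW ((exists_algebraMap_eq_iff_cusp W N halg B _).mp ⟨b, rfl⟩))

theorem exists_act_symm_cusp (b : B) :
    ∃ b' : B, algebraMap B (FF L N) b' = (act N s).symm (algebraMap B (FF L N) b) :=
  (exists_algebraMap_eq_iff_cusp W N halg B _).mpr
    (intCusp_act_symm W N s hW ((exists_algebraMap_eq_iff_cusp W N halg B _).mp ⟨b, rfl⟩))

/-- **The coefficient action on a cusp carrier.** -/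
def actCusp : B ≃+* B :=
  restrictEquiv (algebraMap B (FF L N))
    (IsIntegralClosure.algebraMap_injective B (CuspBase ↥W) (FF L N)) (act N s)
    (exists_act_cusp W N s hW halg B) (exists_act_symm_cusp W N s hW halg B)

theorem algebraMap_actCusp (b : B) :
    algebraMap B (FF L N) (actCusp W N s hW halg B b) = act N s (algebraMap B (FF L N) b) :=
  map_restrictEquiv _ _ _ _ _ b

theorem algebraMap_actCusp_symm (b : B) :
    algebraMap B (FF L N) ((actCusp W N s hW halg B).symm b) =
      (act N s).symm (algebraMap B (FF L N) b) :=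
  map_restrictEquiv_symm _ _ _ _ _ b

end CuspCarrier

/-! ### The plain chart at infinity (`W[1/j]`, no localisation) -/

section Inf

variable {L : Type*} [Field L] [Algebra ℚ L] (W : ValuationSubring L) (N : ℕ) [NeZero N]
  (s : L ≃+* L) (hW : ∀ c : L, c ∈ W ↔ (s : L →+* L) c ∈ W)
  [Algebra (↥W)[X] (FF L N)] (halg : algebraMap (↥W)[X] (FF L N) = evFinf W N)
  (B : Type*) [CommRing B] [Algebra (↥W)[X] B] [Algebra B (FF L N)]
  [IsScalarTower (↥W)[X] B (FF L N)] [IsIntegralClosure B (↥W)[X] (FF L N)]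

include halg in
/-- The image of a carrier of the chart `W[1/j]` is the set of elements integral over it. -/
theorem exists_algebraMap_eq_iff_inf (x : FF L N) :
    (∃ b : B, algebraMap B (FF L N) b = x) ↔ (evFinf W N).IsIntegralElem x := by
  rw [← IsIntegralClosure.isIntegral_iff (R := (↥W)[X]) (A := B)]
  show (algebraMap (↥W)[X] (FF L N)).IsIntegralElem x ↔ _
  rw [halg]

include hW halg

theorem exists_act_inf (b : B) :
    ∃ b' : B, algebraMap B (FF L N) b' = act N s (algebraMap B (FF L N) b) :=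
  (exists_algebraMap_eq_iff_inf W N halg B _).mpr
    (isIntegralElem_evFinf_act W N s hW ((exists_algebraMap_eq_iff_inf W N halg B _).mp ⟨b, rfl⟩))

theorem exists_act_symm_inf (b : B) :
    ∃ b' : B, algebraMap B (FF L N) b' = (act N s).symm (algebraMap B (FF L N) b) := by
  refine (exists_algebraMap_eq_iff_inf W N halg B _).mpr ?_
  rw [act_symm_apply]
  exact isIntegralElem_evFinf_act W N s.symm (symm_mem_iff W s hW)
    ((exists_algebraMap_eq_iff_inf W N halg B _).mp ⟨b, rfl⟩)

/-- **The coefficient action on a carrier of the chart `W[1/j]`.** -/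
def actInf : B ≃+* B :=
  restrictEquiv (algebraMap B (FF L N))
    (IsIntegralClosure.algebraMap_injective B (↥W)[X] (FF L N)) (act N s)
    (exists_act_inf W N s hW halg B) (exists_act_symm_inf W N s hW halg B)

theorem algebraMap_actInf (b : B) :
    algebraMap B (FF L N) (actInf W N s hW halg B b) = act N s (algebraMap B (FF L N) b) :=
  map_restrictEquiv _ _ _ _ _ b

end Inf

/-! ### Inertia: the restricted action is trivial modulo the uniformiser -/

section Inertia

local notation "Qb" => AlgebraicClosure ℚ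

variable (A : ValuationSubring Qb) {L : Type*} [Field L] [Algebra ℚ L] (ι : L →+* Qb)
  {σ : Qb ≃ₐ[ℚ] Qb} (s : L ≃+* L) (hs : ∀ c : L, ι (s c) = σ (ι c))

include hs

/-- **Trivial modulo `ϖ` on any chart ring**: let `τB` be an automorphism of `B` inducing the
coefficient action of (the restriction `s` of) an inertia element through the injective chart
map `φ`, whose image is described by a predicate `Int`.  If `Int`-elements and their Atkin–Lehner
translates are Gauss-integral and `(S1)` holds for `Int` (both reductions vanish `⊢` divisible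
by `ϖ` inside `Int`), then `τB b = b + ϖB * z`. -/
theorem exists_eq_add_of_pred (N : ℕ) (hσ : σ ∈ A.inertiaSubgroupIn ℚ)
    (w : FF L N → FF L N) (hwsub : ∀ x y : FF L N, w (x - y) = w x - w y)
    (hw : ∀ x : FF L N, act N s (w x) = w (act N s x))
    {B : Type*} [CommRing B] (φ : B →+* FF L N) (hφ : Function.Injective φ)
    (Int : FF L N → Prop) (hInt : ∀ x : FF L N, (∃ b : B, φ b = x) ↔ Int x)
    (τB : B → B) (hτB : ∀ b : B, φ (τB b) = act N s (φ b))
    (hc₁ : ∀ x : FF L N, Int x → (x : LaurentSeries L) ∈ contentRing (A.comap ι))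
    (hc₂ : ∀ x : FF L N, Int x →
      ((w x : FF L N) : LaurentSeries L) ∈ contentRing (A.comap ι))
    (ϖB : B) (ϖ : L) (hϖ : φ ϖB = algebraMap L (FF L N) ϖ)
    (hS1 : ∀ x : FF L N, Int x →
      ∀ (h1 : (x : LaurentSeries L) ∈ contentRing (A.comap ι))
        (h2 : ((w x : FF L N) : LaurentSeries L) ∈ contentRing (A.comap ι)),
        red (A.comap ι) ⟨_, h1⟩ = 0 → red (A.comap ι) ⟨_, h2⟩ = 0 →
        ∃ y : FF L N, Int y ∧ x = algebraMap L (FF L N) ϖ * y)
    (b : B) : ∃ z : B, τB b = b + ϖB * z := by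
  refine ClassStable.exists_chart_act_eq_add A ι s hs N hσ w hwsub hw φ hφ τB hτB
    (fun b => hc₁ _ ((hInt _).mp ⟨b, rfl⟩)) (fun b => hc₂ _ ((hInt _).mp ⟨b, rfl⟩)) ϖB ϖ hϖ ?_ b
  intro b h1 h2 hr1 hr2
  obtain ⟨y, hy, hxy⟩ := hS1 (φ b) ((hInt _).mp ⟨b, rfl⟩) h1 h2 hr1 hr2
  obtain ⟨b', rfl⟩ := (hInt y).mpr hy
  exact ⟨b', hφ (by rw [hxy, map_mul, hϖ])⟩

/-- **`hτ𝔫` for any chart ring**: in the situation of `exists_eq_add_of_pred`, a ring
automorphism `τB` preserves every ideal containing `ϖB`. -/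
theorem mem_iff_of_pred (N : ℕ) (hσ : σ ∈ A.inertiaSubgroupIn ℚ)
    (w : FF L N → FF L N) (hwsub : ∀ x y : FF L N, w (x - y) = w x - w y)
    (hw : ∀ x : FF L N, act N s (w x) = w (act N s x))
    {B : Type*} [CommRing B] (φ : B →+* FF L N) (hφ : Function.Injective φ)
    (Int : FF L N → Prop) (hInt : ∀ x : FF L N, (∃ b : B, φ b = x) ↔ Int x)
    (τB : B ≃+* B) (hτB : ∀ b : B, φ (τB b) = act N s (φ b))
    (hc₁ : ∀ x : FF L N, Int x → (x : LaurentSeries L) ∈ contentRing (A.comap ι))
    (hc₂ : ∀ x : FF L N, Int x →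
      ((w x : FF L N) : LaurentSeries L) ∈ contentRing (A.comap ι))
    (ϖB : B) (ϖ : L) (hϖ : φ ϖB = algebraMap L (FF L N) ϖ)
    (hS1 : ∀ x : FF L N, Int x →
      ∀ (h1 : (x : LaurentSeries L) ∈ contentRing (A.comap ι))
        (h2 : ((w x : FF L N) : LaurentSeries L) ∈ contentRing (A.comap ι)),
        red (A.comap ι) ⟨_, h1⟩ = 0 → red (A.comap ι) ⟨_, h2⟩ = 0 →
        ∃ y : FF L N, Int y ∧ x = algebraMap L (FF L N) ϖ * y)
    (𝔫 : Ideal B) (h𝔫 : ϖB ∈ 𝔫) (y : B) : τB y ∈ 𝔫 ↔ y ∈ 𝔫 :=
  ClassStable.map_mem_iff τB ϖB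
    (exists_eq_add_of_pred A ι s hs N hσ w hwsub hw φ hφ Int hInt τB hτB hc₁ hc₂ ϖB ϖ hϖ hS1)
    𝔫 h𝔫 y

variable (N : ℕ) [NeZero N]

omit [Algebra ℚ L] in
/-- A restricted inertia (even decomposition) element preserves `W = A.comap ι`. -/
theorem hW_of_mem_inertia (hσ : σ ∈ A.inertiaSubgroupIn ℚ) (c : L) :
    c ∈ A.comap ι ↔ (s : L →+* L) c ∈ A.comap ι :=
  GalLevel.mem_comap_iff_of_mem_decomposition A ι s hs
    (Fermat.Agent.S37.GaloisValue.mem_decompositionSubgroup_of_mem_inertia hσ) c

/-- **`hτ𝔫` on a finite carrier** (`S37` currency), from `(S1)` in the raw shape of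
`CompInst.finite_chart_point` / `CuspS1.s1_fin` and `(H_int)` on both branches. -/
theorem actFin_mem_iff (hσ : σ ∈ A.inertiaSubgroupIn ℚ)
    (w : FF L N → FF L N) (hwsub : ∀ x y : FF L N, w (x - y) = w x - w y)
    (hw : ∀ x : FF L N, act N s (w x) = w (act N s x))
    [Algebra (↥(A.comap ι))[X] (FF L N)]
    (halg : algebraMap (↥(A.comap ι))[X] (FF L N) = evF (A.comap ι) N)
    (B : Type*) [CommRing B] [Algebra (↥(A.comap ι))[X] B] [Algebra B (FF L N)]
    [IsScalarTower (↥(A.comap ι))[X] B (FF L N)]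
    [IsIntegralClosure B (↥(A.comap ι))[X] (FF L N)]
    (hc₁ : ∀ x : FF L N, (evF (A.comap ι) N).IsIntegralElem x →
      (x : LaurentSeries L) ∈ contentRing (A.comap ι))
    (hc₂ : ∀ x : FF L N, (evF (A.comap ι) N).IsIntegralElem x →
      ((w x : FF L N) : LaurentSeries L) ∈ contentRing (A.comap ι))
    (ϖ : ↥(A.comap ι))
    (hS1 : ∀ x : FF L N, (evF (A.comap ι) N).IsIntegralElem x →
      ∀ (h1 : (x : LaurentSeries L) ∈ contentRing (A.comap ι))
        (h2 : ((w x : FF L N) : LaurentSeries L) ∈ contentRing (A.comap ι)),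
        red (A.comap ι) ⟨_, h1⟩ = 0 → red (A.comap ι) ⟨_, h2⟩ = 0 →
        ∃ y : FF L N, (evF (A.comap ι) N).IsIntegralElem y ∧
          x = algebraMap L (FF L N) ((ϖ : ↥(A.comap ι)) : L) * y)
    (𝔫 : Ideal B) (h𝔫 : algebraMap (↥(A.comap ι))[X] B (C ϖ) ∈ 𝔫) (y : B) :
    actFin (A.comap ι) N s (hW_of_mem_inertia A ι s hs hσ) halg B y ∈ 𝔫 ↔ y ∈ 𝔫 :=
  mem_iff_of_pred A ι s hs N hσ w hwsub hw (algebraMap B (FF L N))
    (IsIntegralClosure.algebraMap_injective B (↥(A.comap ι))[X] (FF L N))
    (fun x => (evF (A.comap ι) N).IsIntegralElem x)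
    (exists_algebraMap_eq_iff_fin (A.comap ι) N halg B)
    (actFin (A.comap ι) N s (hW_of_mem_inertia A ι s hs hσ) halg B)
    (algebraMap_actFin (A.comap ι) N s (hW_of_mem_inertia A ι s hs hσ) halg B)
    hc₁ hc₂ (algebraMap (↥(A.comap ι))[X] B (C ϖ)) ((ϖ : ↥(A.comap ι)) : L)
    (by rw [← IsScalarTower.algebraMap_apply, halg, evF_C]) hS1 𝔫 h𝔫 y

/-- **`hτ𝔫` on a cusp carrier** (`S37` currency, `CuspBase`), from `(S1)` for the predicate
`IntCusp` and `(H_int)` on both branches. -/
theorem actCusp_mem_iff [IsDiscreteValuationRing ↥(A.comap ι)] (hσ : σ ∈ A.inertiaSubgroupIn ℚ)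
    (w : FF L N → FF L N) (hwsub : ∀ x y : FF L N, w (x - y) = w x - w y)
    (hw : ∀ x : FF L N, act N s (w x) = w (act N s x))
    [Algebra (CuspBase ↥(A.comap ι)) (FF L N)]
    (halg : ∀ p : (↥(A.comap ι))[X], algebraMap (CuspBase ↥(A.comap ι)) (FF L N)
      (algebraMap (↥(A.comap ι))[X] (CuspBase ↥(A.comap ι)) p) = evFinf (A.comap ι) N p)
    (B : Type*) [CommRing B] [Algebra (CuspBase ↥(A.comap ι)) B] [Algebra B (FF L N)]
    [IsScalarTower (CuspBase ↥(A.comap ι)) B (FF L N)]
    [IsIntegralClosure B (CuspBase ↥(A.comap ι)) (FF L N)]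
    (hc₁ : ∀ x : FF L N, Fermat.Agent.S37.GaussPrime.IntCusp (A.comap ι) N x →
      (x : LaurentSeries L) ∈ contentRing (A.comap ι))
    (hc₂ : ∀ x : FF L N, Fermat.Agent.S37.GaussPrime.IntCusp (A.comap ι) N x →
      ((w x : FF L N) : LaurentSeries L) ∈ contentRing (A.comap ι))
    (ϖ : ↥(A.comap ι))
    (hS1 : ∀ x : FF L N, Fermat.Agent.S37.GaussPrime.IntCusp (A.comap ι) N x →
      ∀ (h1 : (x : LaurentSeries L) ∈ contentRing (A.comap ι))
        (h2 : ((w x : FF L N) : LaurentSeries L) ∈ contentRing (A.comap ι)),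
        red (A.comap ι) ⟨_, h1⟩ = 0 → red (A.comap ι) ⟨_, h2⟩ = 0 →
        ∃ y : FF L N, Fermat.Agent.S37.GaussPrime.IntCusp (A.comap ι) N y ∧
          x = algebraMap L (FF L N) ((ϖ : ↥(A.comap ι)) : L) * y)
    (𝔫 : Ideal B)
    (h𝔫 : algebraMap (CuspBase ↥(A.comap ι)) B
      (algebraMap (↥(A.comap ι))[X] (CuspBase ↥(A.comap ι)) (C ϖ)) ∈ 𝔫) (y : B) :
    actCusp (A.comap ι) N s (hW_of_mem_inertia A ι s hs hσ) halg B y ∈ 𝔫 ↔ y ∈ 𝔫 :=
  mem_iff_of_pred A ι s hs N hσ w hwsub hw (algebraMap B (FF L N))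
    (IsIntegralClosure.algebraMap_injective B (CuspBase ↥(A.comap ι)) (FF L N))
    (Fermat.Agent.S37.GaussPrime.IntCusp (A.comap ι) N)
    (exists_algebraMap_eq_iff_cusp (A.comap ι) N halg B)
    (actCusp (A.comap ι) N s (hW_of_mem_inertia A ι s hs hσ) halg B)
    (algebraMap_actCusp (A.comap ι) N s (hW_of_mem_inertia A ι s hs hσ) halg B)
    hc₁ hc₂ _ ((ϖ : ↥(A.comap ι)) : L)
    (by rw [← IsScalarTower.algebraMap_apply, halg, evFinf_C]) hS1 𝔫 h𝔫 y

end Inertia

end Fermat.Agent.S34.ChartAct
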