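import Mathlib
import Fermat.Agent.S37.ChartInstSplit
import Fermat.Agent.S37.GaussRed
import Fermat.Agent.S37.ConstRed
import Fermat.Agent.S18.GaussPrim

/-!
# S34 (wave 6), utility: the special fibre of the level-`N` finite chart (`ℓ ∤ N`) is the full
integral closure of `κ[j̄]` in the residue function field

`W` a DVR level with algebraically closed residue field `κ` of characteristic `ℓ ∤ N`,
`F_κ = modularFunctionFieldFullC κ N`.

* `exists_of_integral_fraction` (abstract): an integrally closed domain `Q` embedded in a field;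
  a fraction of elements of `Q` which is integral over `Q` lies in `Q`.
* `isIntegralElem_descend` (abstract): descent of integrality along an injective map of targets.
* `coeffMap_aeval_jqModC`: coefficient extension commutes with `p ↦ p(j̄)`.
* `exists_mem_chart_of_red_fin`, `exists_int_of_red_fin`: a Gauss-integral element of `FF L N`
  whose reduction is integral over `κ[j̄]` has the same reduction as a function integral over
  `W[j]` (the special fibre `B / ϖ B` of the chart ring is integrally closed).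
* `exists_int_of_mem_fullC`: every element of `F_κ` integral over `κ[j̄]` is the reduction of a
  function integral over `W[j]`; `red_mem_fullC_and_integral`: the converse.
-/

set_option autoImplicit false
set_option linter.unusedSectionVars false
set_option linter.style.haveILetI false

noncomputable section

namespace Fermat.Agent.S34.BaseLift

open Polynomial ModularCurve Fermat.Agent.S18 Fermat.Agent.S18.Gauss Fermat.Agent.S37

local notation "Qb" => AlgebraicClosure ℚ

/-! ### Abstract lemmas -/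

/-- In an integrally closed domain `Q` embedded in a field `Ω`, an element `y` of `Ω` which is a
fraction `b / a` of elements of `Q` and is integral over `Q` lies in (the image of) `Q`. -/
theorem exists_of_integral_fraction {Q Ω : Type*} [CommRing Q] [IsDomain Q]
    [IsIntegrallyClosed Q] [Field Ω] (r : Q →+* Ω) (hr : Function.Injective r) {y : Ω} {a b : Q}
    (ha : a ≠ 0) (hy : y * r a = r b) (hint : r.IsIntegralElem y) : ∃ c : Q, r c = y := by
  classical
  have hunit : ∀ s : nonZeroDivisors Q, IsUnit (r s) := fun s => by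
    refine IsUnit.mk0 _ ?_
    intro h0
    exact nonZeroDivisors.coe_ne_zero s (hr (by rw [h0, map_zero]))
  let φ : FractionRing Q →+* Ω := IsLocalization.lift (M := nonZeroDivisors Q) hunit
  have hφ : ∀ x : Q, φ (algebraMap Q (FractionRing Q) x) = r x :=
    fun x => IsLocalization.lift_eq _ _
  have hφinj : Function.Injective φ := φ.injective
  have hra : r a ≠ 0 := fun h0 => ha (hr (by rw [h0, map_zero]))
  have hz : φ (algebraMap Q (FractionRing Q) b / algebraMap Q (FractionRing Q) a) = y := by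
    rw [map_div₀, hφ, hφ, ← hy, mul_div_cancel_right₀ _ hra]
  obtain ⟨p, hp, hroot⟩ := hint
  have hzint : IsIntegral Q
      (algebraMap Q (FractionRing Q) b / algebraMap Q (FractionRing Q) a) := by
    refine ⟨p, hp, hφinj ?_⟩
    rw [map_zero, Polynomial.hom_eval₂, hz]
    have h1 : φ.comp (algebraMap Q (FractionRing Q)) = r := RingHom.ext hφ
    rw [h1]
    exact hroot
  obtain ⟨c, hc⟩ := IsIntegrallyClosed.isIntegral_iff.mp hzint
  exact ⟨c, by rw [← hφ, hc, hz]⟩

/-- Descent of integrality: if `ψ : S₀ → S` is injective and every `f r` is of the form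
`ψ (f₀ r₀)`, then `y₀` is integral along `f₀` as soon as `ψ y₀` is integral along `f`. -/
theorem isIntegralElem_descend {R₀ R S₀ S : Type*} [CommRing R₀] [CommRing R] [CommRing S₀]
    [CommRing S] (f₀ : R₀ →+* S₀) (f : R →+* S) (ψ : S₀ →+* S) (hψ : Function.Injective ψ)
    (hsurj : ∀ r : R, ∃ r₀ : R₀, ψ (f₀ r₀) = f r) {y₀ : S₀} (h : f.IsIntegralElem (ψ y₀)) :
    f₀.IsIntegralElem y₀ := by
  classical
  obtain ⟨P, hP, hroot⟩ := h
  choose g hg using hsurj
  have hdeg : (∑ i ∈ Finset.range P.natDegree, C (g (P.coeff i)) * X ^ i : R₀[X]).degree <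
      (P.natDegree : WithBot ℕ) := by
    refine lt_of_le_of_lt (Polynomial.degree_sum_le _ _) ?_
    refine (Finset.sup_lt_iff (WithBot.bot_lt_coe P.natDegree)).mpr ?_
    intro i hi
    exact lt_of_le_of_lt (Polynomial.degree_C_mul_X_pow_le i _)
      (WithBot.coe_lt_coe.mpr (Finset.mem_range.mp hi))
  refine ⟨X ^ P.natDegree + ∑ i ∈ Finset.range P.natDegree, C (g (P.coeff i)) * X ^ i,
    Polynomial.monic_X_pow_add hdeg, hψ ?_⟩
  have e1 : ψ ((X ^ P.natDegree + ∑ i ∈ Finset.range P.natDegree,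
      C (g (P.coeff i)) * X ^ i : R₀[X]).eval₂ f₀ y₀) =
      (ψ y₀) ^ P.natDegree + ∑ i ∈ Finset.range P.natDegree, f (P.coeff i) * (ψ y₀) ^ i := by
    simp only [Polynomial.eval₂_add, Polynomial.eval₂_pow, Polynomial.eval₂_X,
      Polynomial.eval₂_finsetSum, Polynomial.eval₂_mul, Polynomial.eval₂_C, map_add, map_pow,
      map_sum, map_mul, hg]
  have e2 : P.eval₂ f (ψ y₀) =
      (ψ y₀) ^ P.natDegree + ∑ i ∈ Finset.range P.natDegree, f (P.coeff i) * (ψ y₀) ^ i := by
    conv_lhs => rw [hP.as_sum]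
    simp only [Polynomial.eval₂_add, Polynomial.eval₂_pow, Polynomial.eval₂_X,
      Polynomial.eval₂_finsetSum, Polynomial.eval₂_mul, Polynomial.eval₂_C]
  rw [map_zero, e1, ← e2, hroot]

/-- Coefficient extension commutes with evaluation of a polynomial at `j̄`. -/
theorem coeffMap_aeval_jqModC {k k' : Type*} [Field k] [Field k'] (f : k →+* k') (p : k[X]) :
    coeffMap f (aeval (jqModC k) p) = aeval (jqModC k') (p.map f) := by
  rw [aeval_def, aeval_def, Polynomial.hom_eval₂, Polynomial.eval₂_map, coeffMap_jqModC]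
  congr 1
  exact RingHom.ext fun c => Fermat.Agent.S24.CoeffBC.coeffMap_algebraMap' f c

/-! ### One level: the special fibre of the finite chart is integrally closed -/

section OneLevel

variable (N : ℕ) [NeZero N] {ℓ : ℕ} {L : Type} [Field L] [Algebra ℚ L] (ι : L →+* Qb)
  (W : ValuationSubring L) [IsDiscreteValuationRing ↥W]
  [IsAlgClosed (IsLocalRing.ResidueField ↥W)] [CharP (IsLocalRing.ResidueField ↥W) ℓ]

/-- **Finite chart, one level, any carrier `B`.** A Gauss-integral `g ∈ FF L N` whose reduction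
is integral over `κ[j̄]` has the same reduction as some element of the chart ring `B`
(any integral closure of `W[X]`, `X ↦ j`, in `FF L N`). -/
theorem exists_mem_chart_of_red_fin (hℓ : ℓ.Prime) (hℓN : ¬ ℓ ∣ N)
    (hroots : ∀ x : Qb, (∃ n : ℕ, ¬ ℓ ∣ n ∧ x ^ n = 1) → ∃ b : L, ι b = x)
    [Algebra (↥W)[X] (Fermat.Agent.S24.FF L N)]
    (halg : algebraMap (↥W)[X] (Fermat.Agent.S24.FF L N) = evF W N)
    (B : Type*) [CommRing B] [Algebra (↥W)[X] B] [Algebra B (Fermat.Agent.S24.FF L N)]
    [IsScalarTower (↥W)[X] B (Fermat.Agent.S24.FF L N)]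
    [IsIntegralClosure B (↥W)[X] (Fermat.Agent.S24.FF L N)]
    (g : Fermat.Agent.S24.FF L N) (hg : (g : LaurentSeries L) ∈ contentRing W)
    (hint : (redJ W).IsIntegralElem (red W ⟨g, hg⟩)) :
    ∃ (c : B) (hx : ((algebraMap B (Fermat.Agent.S24.FF L N) c : Fermat.Agent.S24.FF L N) :
        LaurentSeries L) ∈ contentRing W), red W ⟨_, hx⟩ = red W ⟨g, hg⟩ := by
  classical
  haveI : Fact ℓ.Prime := ⟨hℓ⟩
  obtain ⟨ϖ, hϖ⟩ := IsDiscreteValuationRing.exists_irreducible ↥W
  obtain ⟨a, b, haI, hbI, hab, ha, hau⟩ := GaussNormal.exists_fraction_fin W N ℓ hℓN g hg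
  have haI' : IsIntegral (↥W)[X] a := by
    show (algebraMap (↥W)[X] (Fermat.Agent.S24.FF L N)).IsIntegralElem a
    rw [halg]; exact haI
  have hbI' : IsIntegral (↥W)[X] b := by
    show (algebraMap (↥W)[X] (Fermat.Agent.S24.FF L N)).IsIntegralElem b
    rw [halg]; exact hbI
  obtain ⟨a', rfl⟩ := IsIntegralClosure.isIntegral_iff (A := B) |>.mp haI'
  obtain ⟨b', rfl⟩ := IsIntegralClosure.isIntegral_iff (A := B) |>.mp hbI'
  have hmemB : ∀ c : B, ((algebraMap B (Fermat.Agent.S24.FF L N) c : Fermat.Agent.S24.FF L N) :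
      LaurentSeries L) ∈ contentRing W := fun c =>
    GaussRed.mem_contentRing_fin W N ℓ B hℓN halg c
  haveI : IsDedekindDomain (B ⧸ Ideal.span {algebraMap (↥W)[X] B (C ϖ)}) :=
    ChartInstSplit.finite_chart_dedekind N hℓ hℓN ι W hroots ϖ hϖ halg B
  -- the reduction map on the chart ring
  let ρB : B →+* LaurentSeries (IsLocalRing.ResidueField ↥W) :=
    (red W).comp (((algebraMap (Fermat.Agent.S24.FF L N) (LaurentSeries L)).comp
      (algebraMap B (Fermat.Agent.S24.FF L N))).codRestrict (contentRing W) hmemB)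
  have hρ : ∀ c : B, ρB c = red W ⟨_, hmemB c⟩ := fun c => rfl
  have hρπ : ∀ c : B, ρB c = 0 ↔ algebraMap (↥W)[X] B (C ϖ) ∣ c :=
    fun c => (GaussRed.dvd_iff_red_fin W N ℓ B hℓN hϖ halg c).symm
  let r : (B ⧸ Ideal.span {algebraMap (↥W)[X] B (C ϖ)}) →+*
      LaurentSeries (IsLocalRing.ResidueField ↥W) :=
    Ideal.Quotient.lift _ ρB (fun c hc => (hρπ c).mpr (Ideal.mem_span_singleton.mp hc))
  have hr : Function.Injective r := by
    rw [injective_iff_map_eq_zero]
    intro c hc
    obtain ⟨c, rfl⟩ := Ideal.Quotient.mk_surjective c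
    rw [Ideal.Quotient.lift_mk] at hc
    exact Ideal.Quotient.eq_zero_iff_mem.mpr (Ideal.mem_span_singleton.mpr ((hρπ c).mp hc))
  -- the fraction
  have hy : red W ⟨g, hg⟩ * r (Ideal.Quotient.mk _ a') = r (Ideal.Quotient.mk _ b') := by
    rw [Ideal.Quotient.lift_mk, Ideal.Quotient.lift_mk, hρ, hρ, ← map_mul]
    congr 1
    apply Subtype.ext
    show (g : LaurentSeries L) * ((algebraMap B (Fermat.Agent.S24.FF L N) a' :
      Fermat.Agent.S24.FF L N) : LaurentSeries L) =
      ((algebraMap B (Fermat.Agent.S24.FF L N) b' : Fermat.Agent.S24.FF L N) : LaurentSeries L)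
    rw [hab, mul_comm]
    rfl
  have ha0 : (Ideal.Quotient.mk (Ideal.span {algebraMap (↥W)[X] B (C ϖ)}) a') ≠ 0 := by
    intro h0
    have h1 : r (Ideal.Quotient.mk _ a') = 0 := by rw [h0, map_zero]
    rw [Ideal.Quotient.lift_mk, hρ] at h1
    exact hau h1
  -- integrality over the quotient
  have hintr : r.IsIntegralElem (red W ⟨g, hg⟩) := by
    obtain ⟨P, hP, hroot⟩ := hint
    refine ⟨P.map ((Ideal.Quotient.mk _).comp (algebraMap (↥W)[X] B)), hP.map _, ?_⟩
    rw [Polynomial.eval₂_map]
    have h1 : r.comp ((Ideal.Quotient.mk _).comp (algebraMap (↥W)[X] B)) = redJ W := by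
      refine RingHom.ext fun p => ?_
      rw [RingHom.comp_apply, RingHom.comp_apply, Ideal.Quotient.lift_mk, hρ]
      show red W ⟨_, _⟩ = red W (evC W p)
      congr 1
      apply Subtype.ext
      show ((algebraMap B (Fermat.Agent.S24.FF L N) (algebraMap (↥W)[X] B p) :
        Fermat.Agent.S24.FF L N) : LaurentSeries L) = evL W p
      rw [← IsScalarTower.algebraMap_apply, halg]
      rfl
    rw [h1]
    exact hroot
  obtain ⟨c, hc⟩ := exists_of_integral_fraction r hr ha0 hy hintr
  obtain ⟨c, rfl⟩ := Ideal.Quotient.mk_surjective c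
  refine ⟨c, hmemB c, ?_⟩
  rw [← hc, Ideal.Quotient.lift_mk, hρ]

/-- **Finite chart, one level.** A Gauss-integral `g ∈ FF L N` whose reduction is integral over
`κ[j̄]` has the same reduction as some function integral over `W[j]`. -/
theorem exists_int_of_red_fin (hℓ : ℓ.Prime) (hℓN : ¬ ℓ ∣ N)
    (hroots : ∀ x : Qb, (∃ n : ℕ, ¬ ℓ ∣ n ∧ x ^ n = 1) → ∃ b : L, ι b = x)
    (g : Fermat.Agent.S24.FF L N) (hg : (g : LaurentSeries L) ∈ contentRing W)
    (hint : (redJ W).IsIntegralElem (red W ⟨g, hg⟩)) :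
    ∃ x : Fermat.Agent.S24.FF L N, (evF W N).IsIntegralElem x ∧
      ∃ hx : (x : LaurentSeries L) ∈ contentRing W, red W ⟨x, hx⟩ = red W ⟨g, hg⟩ := by
  letI : Algebra (↥W)[X] (Fermat.Agent.S24.FF L N) := (evF W N).toAlgebra
  have halg : algebraMap (↥W)[X] (Fermat.Agent.S24.FF L N) = evF W N := rfl
  obtain ⟨c, hx, hc⟩ := exists_mem_chart_of_red_fin N ι W hℓ hℓN hroots halg
    (integralClosure (↥W)[X] (Fermat.Agent.S24.FF L N)) g hg hint
  exact ⟨(c : Fermat.Agent.S24.FF L N), c.2, hx, hc⟩

/-- **Finite chart, one level, residue form.** Every element of the residue function field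
`F_κ = modularFunctionFieldFullC κ N` which is integral over `κ[j̄]` is the reduction of a function
integral over `W[j]`: the reduction of the chart ring is the full integral closure of `κ[j̄]` in
`F_κ`. -/
theorem exists_int_of_mem_fullC (hℓ : ℓ.Prime) (hℓN : ¬ ℓ ∣ N)
    (hroots : ∀ x : Qb, (∃ n : ℕ, ¬ ℓ ∣ n ∧ x ^ n = 1) → ∃ b : L, ι b = x)
    {y : LaurentSeries (IsLocalRing.ResidueField ↥W)}
    (hy : y ∈ modularFunctionFieldFullC (IsLocalRing.ResidueField ↥W) N)
    (hint : (redJ W).IsIntegralElem y) :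
    ∃ x : Fermat.Agent.S24.FF L N, (evF W N).IsIntegralElem x ∧
      ∃ hx : (x : LaurentSeries L) ∈ contentRing W, red W ⟨x, hx⟩ = y := by
  obtain ⟨f, hf, hfy⟩ := exists_lift_goodRing W N hy
  have hint' : (redJ W).IsIntegralElem (red W ⟨((⟨f, goodRing_le_full W N hf⟩ :
      Fermat.Agent.S24.FF L N) : LaurentSeries L), goodRing_le_contentRing W N hf⟩) := by
    rw [hfy]; exact hint
  obtain ⟨x, hxI, hx, hxr⟩ := exists_int_of_red_fin N ι W hℓ hℓN hroots
    ⟨f, goodRing_le_full W N hf⟩ (goodRing_le_contentRing W N hf) hint'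
  exact ⟨x, hxI, hx, hxr.trans hfy⟩

/-- Converse: the reduction of a function integral over `W[j]` lies in `F_κ` and is integral
over `κ[j̄]`. -/
theorem red_mem_fullC_and_integral (hℓ : ℓ.Prime) (hℓN : ¬ ℓ ∣ N)
    (x : Fermat.Agent.S24.FF L N) (hx : (evF W N).IsIntegralElem x) :
    ∃ hxW : (x : LaurentSeries L) ∈ contentRing W,
      red W ⟨x, hxW⟩ ∈ modularFunctionFieldFullC (IsLocalRing.ResidueField ↥W) N ∧
      (redJ W).IsIntegralElem (red W ⟨x, hxW⟩) := by
  haveI : Fact ℓ.Prime := ⟨hℓ⟩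
  obtain ⟨hxW, hint⟩ := ConstRed.red_isIntegralElem_fin W N ℓ hℓN hx
  exact ⟨hxW, red_mem_fullC W N ℓ hℓN x.2 hxW, hint⟩

end OneLevel

end Fermat.Agent.S34.BaseLift
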