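import Mathlib
import Fermat.Agent.S28.ModPoly
import Fermat.Agent.S28.TowerNewPrime
import Fermat.Agent.S18.GaussChart
import Fermat.Prelude.Def_ModularCurve_HeckeOperator

/-!
# S34: `j(q^ℓ)` is integral over `ℤ[j(q)]`; the degeneracy maps preserve the finite chart

* `exists_monic_int` : for a prime `ℓ` there is a monic `P ∈ ℤ[Y][T]` with
  `P(j(q^ℓ), j(q)) = 0` in `R((q))` for every commutative ring `R`
  (the modular polynomial has coefficients integral over `ℤ`).
* `isIntegralElem_beta_j` : at every level `(L, W)`, `β j = j(q^ℓ)` is integral over `W[j]`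
  in `S24.FF L (M * ℓ)`.
* `isIntegralElem_alpha`, `isIntegralElem_beta` : `α` and `β` map elements integral over `W[j]`
  at level `M` to elements integral over `W[j]` at level `M * ℓ`.
* `isIntegralElem_inf_alpha` : the same for `α` and the chart `W[1/j]`.

No hypothesis relating `ℓ` to the residue characteristic of `W` is needed.
-/

set_option autoImplicit false

noncomputable section

namespace Fermat.Agent.S34.BetaInt

open Polynomial ModularCurve Fermat.Agent.S28

local notation "Qb" => AlgebraicClosure ℚ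

/-! ### Generic integrality lemmas along ring homomorphisms -/

section Generic

variable {R S T : Type*} [CommRing R] [CommRing S] [CommRing T]

/-- transitivity of integrality along ring homomorphisms -/
theorem isIntegralElem_trans (φ : R →+* T) (ψ : S →+* T) (hψ : ∀ s, φ.IsIntegralElem (ψ s))
    (x : T) (hx : ψ.IsIntegralElem x) : φ.IsIntegralElem x := by
  letI : Algebra R T := φ.toAlgebra
  obtain ⟨P, hP, hPx⟩ := hx
  let ψ' : S →+* integralClosure R T := ψ.codRestrict (integralClosure R T).toSubring fun s => hψ s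
  have hx' : IsIntegral (integralClosure R T) x := by
    refine ⟨P.map ψ', hP.map ψ', ?_⟩
    rw [eval₂_map]
    exact hPx
  exact isIntegral_trans x hx'

/-- integrality is preserved by a ring homomorphism -/
theorem isIntegralElem_map_comp {T' : Type*} [CommRing T'] (φ : R →+* T) (g : T →+* T') {x : T}
    (hx : φ.IsIntegralElem x) : (g.comp φ).IsIntegralElem (g x) := by
  obtain ⟨P, hP, hPx⟩ := hx
  exact ⟨P, hP, by rw [← hom_eval₂, hPx, map_zero]⟩

end Generic

/-! ### The chart map `ℤ[Y] → R((q))`, `Y ↦ j` -/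

/-- `p ↦ p(j)`, from `ℤ[Y]` to `R((q))` -/
def evZ (R : Type*) [CommRing R] : ℤ[X] →+* LaurentSeries R :=
  Polynomial.eval₂RingHom (Int.castRingHom (LaurentSeries R)) (jS R)

theorem evZ_X (R : Type*) [CommRing R] : evZ R X = jS R := by
  rw [evZ, coe_eval₂RingHom, eval₂_X]

theorem evZ_C (R : Type*) [CommRing R] (n : ℤ) : evZ R (C n) = (n : LaurentSeries R) := by
  rw [evZ, coe_eval₂RingHom, eval₂_C]
  rfl

theorem coeffMap_comp_evZ {R S : Type*} [CommRing R] [CommRing S] (f : R →+* S) :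
    (coeffMap f).comp (evZ R) = evZ S := by
  apply Polynomial.ringHom_ext
  · intro n
    rw [RingHom.comp_apply, evZ_C, evZ_C, map_intCast]
  · rw [RingHom.comp_apply, evZ_X, evZ_X, coeffMap_jS]

/-- evaluation of a bivariate integer polynomial at `(j(q^ℓ), j(q))` commutes with change of
coefficients -/
theorem coeffMap_eval₂_evZ {R S : Type*} [CommRing R] [CommRing S] (f : R →+* S) (ℓ : ℕ)
    [NeZero ℓ] (P : Polynomial (Polynomial ℤ)) :
    coeffMap f (P.eval₂ (evZ R) (qExpand R ℓ (jS R))) = P.eval₂ (evZ S) (qExpand S ℓ (jS S)) := by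
  rw [Polynomial.hom_eval₂, coeffMap_comp_evZ, Fermat.Agent.S28.coeffMap_qExpand, coeffMap_jS]

/-! ### The modular equation over `ℤ` -/

/-- **`j(q^ℓ)` is integral over `ℤ[j(q)]`**, over `ℚ̄`. -/
theorem exists_monic_Qb (ℓ : ℕ) [NeZero ℓ] (hℓ : ℓ.Prime) :
    (evZ Qb).IsIntegralElem (qExpand Qb ℓ (jS Qb)) := by
  haveI : NeZero ((ℓ : ℕ) : Qb) := ⟨Nat.cast_ne_zero.mpr hℓ.ne_zero⟩
  obtain ⟨ζ₀, hζ₀⟩ := HasEnoughRootsOfUnity.exists_primitiveRoot Qb ℓ
  -- the coefficient ring: the algebraic integers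
  let A : Subalgebra ℤ Qb := integralClosure ℤ Qb
  have hmem : ζ₀ ∈ A := by
    show IsIntegral ℤ ζ₀
    refine IsIntegral.of_pow hℓ.pos ?_
    rw [hζ₀.pow_eq_one]
    exact isIntegral_one
  have hmem' : ζ₀⁻¹ ∈ A := by
    show IsIntegral ℤ ζ₀⁻¹
    refine IsIntegral.of_pow hℓ.pos ?_
    rw [inv_pow, hζ₀.pow_eq_one, inv_one]
    exact isIntegral_one
  have hζ₀0 : ζ₀ ≠ 0 := hζ₀.ne_zero hℓ.ne_zero
  let u : (↥A)ˣ := ⟨⟨ζ₀, hmem⟩, ⟨ζ₀⁻¹, hmem'⟩, Subtype.ext (mul_inv_cancel₀ hζ₀0),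
    Subtype.ext (inv_mul_cancel₀ hζ₀0)⟩
  let ι : ↥A →+* Qb := A.val.toRingHom
  have hu : ((Units.map (ι : ↥A →* Qb) u : Qbˣ) : Qb) = ζ₀ := rfl
  have hprim : IsPrimitiveRoot (Units.map (ι : ↥A →* Qb) u) ℓ := by
    rw [← IsPrimitiveRoot.coe_units_iff, hu]
    exact hζ₀
  obtain ⟨D⟩ := exists_modPolyData Qb ℓ hℓ (Units.map (ι : ↥A →* Qb) u) hprim
  set xA : LaurentSeries ↥A := qExpand ↥A ℓ (jS ↥A) with hxA
  have hxK : coeffMap ι xA = qExpand Qb ℓ (jS Qb) := by
    rw [hxA, Fermat.Agent.S28.coeffMap_qExpand, coeffMap_jS]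
  have hr : 0 < ℓ := hℓ.pos
  have h1 : (coeffMap ι xA).coeff (-(ℓ : ℤ)) = 1 := by
    rw [hxK, show (-(ℓ : ℤ)) = (ℓ : ℤ) * (-1) by ring, qExpand_coeff_mul, jS_coeff_neg_one]
  have h0 : ∀ n : ℤ, n < -(ℓ : ℤ) → (coeffMap ι xA).coeff n = 0 := by
    intro n hn
    rw [hxK]
    by_cases hdvd : (ℓ : ℤ) ∣ n
    · obtain ⟨m, rfl⟩ := hdvd
      rw [qExpand_coeff_mul]
      apply jS_coeff_of_lt
      have hr' : (0 : ℤ) < ℓ := by exact_mod_cast hr
      nlinarith
    · exact qExpand_coeff_of_not_dvd ℓ _ hdvd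
  have hΦ : D.Φ.map (evalAt (coeffMap ι xA)) = (Descent.rhsΦ ↥A ℓ u).map (coeffMap ι) := by
    rw [Descent.map_rhsΦ, hxK]; exact D.hΦ
  obtain ⟨ΦA, hΦA⟩ := Descent.exists_map_eq ι xA ℓ hr h1 h0 D.Φ _ hΦ
  -- pull the modular equation back along `q ↦ q^ℓ`
  set y : LaurentSeries Qb := qExpand Qb ℓ (jS Qb) with hy
  set ψ : Qb[X] →+* LaurentSeries Qb := evalAt (jS Qb) with hψ
  have key1 : (D.Φ.map ψ).map (qExpand Qb ℓ) = D.Φ.map (evalAt y) := by
    rw [Polynomial.map_map, hψ, NewPrime.qExpand_comp_evalAt]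
  have key2 : D.Φ.map (evalAt y) = (X - C (qExpand Qb (ℓ * ℓ) (jS Qb))) *
      ∏ c ∈ Finset.range ℓ, (X - C (tw ((Units.map (ι : ↥A →* Qb) u) ^ c) (jS Qb))) := D.hΦ
  have hmonic : (D.Φ.map ψ).Monic := by
    apply Polynomial.monic_of_injective (qExpand_injective (R := Qb) ℓ)
    rw [key1, key2]
    exact (monic_X_sub_C _).mul (monic_prod_of_monic _ _ fun c _ => monic_X_sub_C _)
  have hroot : (D.Φ.map ψ).eval y = 0 := by
    apply qExpand_injective (R := Qb) ℓ
    rw [map_zero, ← Polynomial.eval₂_at_apply, ← eval_map, key1, key2, hy, qExpand_qExpand,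
      eval_mul, eval_sub, eval_X, eval_C, sub_self, zero_mul]
  -- integrality over `A[Y]`
  set g : (↥A)[X] →+* LaurentSeries Qb := ψ.comp (mapRingHom ι) with hg
  have hgy : g.IsIntegralElem y := by
    have hmap : ΦA.map g = D.Φ.map ψ := by
      rw [hg, ← Polynomial.map_map, hΦA]
    have hmon : (ΦA.map g).Monic := by rw [hmap]; exact hmonic
    obtain ⟨Φ', hΦ', -, hΦ'mon⟩ :=
      lifts_and_natDegree_eq_and_monic ((Polynomial.mem_lifts _).mpr ⟨ΦA, rfl⟩) hmon
    exact ⟨Φ', hΦ'mon, by rw [← eval_map, hΦ', hmap]; exact hroot⟩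
  -- transitivity down to `ℤ[Y]`
  refine isIntegralElem_trans (evZ Qb) g ?_ y hgy
  intro p
  induction p using Polynomial.induction_on with
  | C a =>
    have hga : g (C a) = HahnSeries.C (a : Qb) := by
      rw [hg, RingHom.comp_apply, coe_mapRingHom, map_C, hψ, NewPrime.evalAt_C]
      rfl
    rw [hga]
    obtain ⟨Q, hQ, hQa⟩ := a.2
    refine ⟨Q.map C, hQ.map C, ?_⟩
    rw [eval₂_map]
    have hcomp : (evZ Qb).comp (C : ℤ →+* ℤ[X]) =
        (HahnSeries.C : Qb →+* LaurentSeries Qb).comp (algebraMap ℤ Qb) := RingHom.ext_int _ _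
    rw [hcomp, ← Polynomial.hom_eval₂, hQa, map_zero]
  | add p q hp hq =>
    rw [map_add]
    exact RingHom.IsIntegralElem.add _ hp hq
  | monomial n a ih =>
    rw [pow_succ, ← mul_assoc, map_mul]
    refine RingHom.IsIntegralElem.mul _ ih ?_
    have hgX : g X = evZ Qb X := by
      rw [hg, RingHom.comp_apply, coe_mapRingHom, map_X, hψ, NewPrime.evalAt_X, evZ_X]
    rw [hgX]
    exact RingHom.isIntegralElem_map _

/-- **The modular equation over `ℤ`.**  There is a monic `P ∈ ℤ[Y][T]` with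
`P(j(q^ℓ), j(q)) = 0` in `R((q))` for every commutative ring `R`. -/
theorem exists_monic_int.{u} (ℓ : ℕ) [NeZero ℓ] (hℓ : ℓ.Prime) :
    ∃ P : Polynomial (Polynomial ℤ), P.Monic ∧
      ∀ (R : Type u) [CommRing R], P.eval₂ (evZ R) (qExpand R ℓ (jS R)) = 0 := by
  obtain ⟨P, hP, hPy⟩ := exists_monic_Qb ℓ hℓ
  have hZ : P.eval₂ (evZ ℤ) (qExpand ℤ ℓ (jS ℤ)) = 0 := by
    apply Descent.coeffMap_injective (Int.castRingHom Qb) Int.cast_injective
    rw [coeffMap_eval₂_evZ, map_zero]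
    exact hPy
  refine ⟨P, hP, fun R _ => ?_⟩
  rw [← coeffMap_eval₂_evZ (Int.castRingHom R), hZ, map_zero]

/-! ### The level `(L, W)` -/

section Level

variable {L : Type*} [Field L] [Algebra ℚ L] (W : ValuationSubring L)
  (M ℓ : ℕ) [NeZero M] [NeZero ℓ]

/-- the chart map of `W[j]` restricted to `ℤ[j]` -/
theorem evL_comp_map : (Fermat.Agent.S18.Gauss.evL W).comp (mapRingHom (Int.castRingHom ↥W)) =
    evZ L := by
  apply Polynomial.ringHom_ext
  · intro n
    rw [RingHom.comp_apply, coe_mapRingHom, map_C, Fermat.Agent.S18.Gauss.evL_C, evZ_C]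
    simp
  · rw [RingHom.comp_apply, coe_mapRingHom, map_X, Fermat.Agent.S18.Gauss.evL_X, evZ_X,
      jS_eq_jqModC]

/-- **`β j = j(q^ℓ)` is integral over `W[j]`** in the function field of level `M ℓ`, for every
coefficient field `L` and every valuation subring `W`. -/
theorem isIntegralElem_beta_j (hℓ : ℓ.Prime) :
    (Fermat.Agent.S18.Gauss.evF W (M * ℓ)).IsIntegralElem
      (heckeBetaBar L M ℓ (Fermat.Agent.S24.jBC L M)) := by
  obtain ⟨P, hP, hroot⟩ := exists_monic_int ℓ hℓ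
  refine ⟨P.map (mapRingHom (Int.castRingHom ↥W)), hP.map _, ?_⟩
  apply Subtype.ext
  rw [Fermat.Agent.S18.Gauss.coe_eval₂_evF, eval₂_map, evL_comp_map, coe_heckeBetaBar,
    Fermat.Agent.S18.Gauss.coe_jBC_eq, ← jS_eq_jqModC]
  exact hroot L

/-- `α` intertwines the finite chart maps -/
theorem alpha_comp_evF : (heckeAlphaBar L M ℓ).toRingHom.comp (Fermat.Agent.S18.Gauss.evF W M) =
    Fermat.Agent.S18.Gauss.evF W (M * ℓ) := by
  apply Polynomial.ringHom_ext
  · intro a
    rw [RingHom.comp_apply, Fermat.Agent.S18.Gauss.evF_C, Fermat.Agent.S18.Gauss.evF_C]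
    exact AlgHom.commutes _ _
  · rw [RingHom.comp_apply, Fermat.Agent.S18.Gauss.evF_X, Fermat.Agent.S18.Gauss.evF_X]
    apply Subtype.ext
    show ((heckeAlphaBar L M ℓ (Fermat.Agent.S24.jBC L M) : Fermat.Agent.S24.FF L (M * ℓ)) :
      LaurentSeries L) = _
    rw [coe_heckeAlphaBar, Fermat.Agent.S18.Gauss.coe_jBC_eq, Fermat.Agent.S18.Gauss.coe_jBC_eq]

/-- **`α` preserves integrality over the finite chart `W[j]`.** -/
theorem isIntegralElem_alpha {x : Fermat.Agent.S24.FF L M}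
    (hx : (Fermat.Agent.S18.Gauss.evF W M).IsIntegralElem x) :
    (Fermat.Agent.S18.Gauss.evF W (M * ℓ)).IsIntegralElem (heckeAlphaBar L M ℓ x) := by
  have h := isIntegralElem_map_comp (Fermat.Agent.S18.Gauss.evF W M)
    (heckeAlphaBar L M ℓ).toRingHom hx
  rw [alpha_comp_evF] at h
  exact h

/-- **`β` preserves integrality over the finite chart `W[j]`.** -/
theorem isIntegralElem_beta (hℓ : ℓ.Prime) {x : Fermat.Agent.S24.FF L M}
    (hx : (Fermat.Agent.S18.Gauss.evF W M).IsIntegralElem x) :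
    (Fermat.Agent.S18.Gauss.evF W (M * ℓ)).IsIntegralElem (heckeBetaBar L M ℓ x) := by
  have h := isIntegralElem_map_comp (Fermat.Agent.S18.Gauss.evF W M)
    (heckeBetaBar L M ℓ).toRingHom hx
  refine isIntegralElem_trans _ _ ?_ _ h
  intro p
  induction p using Polynomial.induction_on with
  | C a =>
    have e : ((heckeBetaBar L M ℓ).toRingHom.comp (Fermat.Agent.S18.Gauss.evF W M)) (C a) =
        Fermat.Agent.S18.Gauss.evF W (M * ℓ) (C a) := by
      rw [RingHom.comp_apply, Fermat.Agent.S18.Gauss.evF_C, Fermat.Agent.S18.Gauss.evF_C]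
      exact AlgHom.commutes _ _
    rw [e]
    exact RingHom.isIntegralElem_map _
  | add p q hp hq =>
    rw [map_add]
    exact RingHom.IsIntegralElem.add _ hp hq
  | monomial n a ih =>
    rw [pow_succ, ← mul_assoc, map_mul]
    refine RingHom.IsIntegralElem.mul _ ih ?_
    rw [RingHom.comp_apply, Fermat.Agent.S18.Gauss.evF_X]
    exact isIntegralElem_beta_j W M ℓ hℓ

/-- `α` intertwines the chart maps at infinity -/
theorem alpha_comp_evFinf :
    (heckeAlphaBar L M ℓ).toRingHom.comp (Fermat.Agent.S18.Gauss.evFinf W M) =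
      Fermat.Agent.S18.Gauss.evFinf W (M * ℓ) := by
  apply Polynomial.ringHom_ext
  · intro a
    rw [RingHom.comp_apply, Fermat.Agent.S18.Gauss.evFinf_C, Fermat.Agent.S18.Gauss.evFinf_C]
    exact AlgHom.commutes _ _
  · rw [RingHom.comp_apply, Fermat.Agent.S18.Gauss.evFinf_X, Fermat.Agent.S18.Gauss.evFinf_X]
    have hj : heckeAlphaBar L M ℓ (Fermat.Agent.S24.jBC L M) = Fermat.Agent.S24.jBC L (M * ℓ) := by
      apply Subtype.ext
      rw [coe_heckeAlphaBar, Fermat.Agent.S18.Gauss.coe_jBC_eq, Fermat.Agent.S18.Gauss.coe_jBC_eq]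
    show heckeAlphaBar L M ℓ (Fermat.Agent.S24.jBC L M)⁻¹ = _
    rw [map_inv₀, hj]

/-- **`α` preserves integrality over the chart `W[1/j]`.** -/
theorem isIntegralElem_inf_alpha {x : Fermat.Agent.S24.FF L M}
    (hx : (Fermat.Agent.S18.Gauss.evFinf W M).IsIntegralElem x) :
    (Fermat.Agent.S18.Gauss.evFinf W (M * ℓ)).IsIntegralElem (heckeAlphaBar L M ℓ x) := by
  have h := isIntegralElem_map_comp (Fermat.Agent.S18.Gauss.evFinf W M)
    (heckeAlphaBar L M ℓ).toRingHom hx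
  rw [alpha_comp_evFinf] at h
  exact h

end Level

end Fermat.Agent.S34.BetaInt
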