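import Mathlib

/-!
# Structure of a node from its two DVR branches (package A4 of the S34 blueprint)

`R` a local ring, `π ∈ R`, two surjections `φ₁ : R → D₁`, `φ₂ : R → D₂` onto discrete valuation
rings with `(π) = ker φ₁ ⊓ ker φ₂`, `X ∈ ker φ₁` mapping to a uniformiser of `D₂`, `Y ∈ ker φ₂`
mapping to a uniformiser of `D₁`.  Then `ker φ₁ = (π, X)`, `ker φ₂ = (π, Y)`, `𝔫 = (π, X, Y)`,
`X * Y ∈ (π)`, `X ∉ ker φ₂`, `Y ∉ ker φ₁`.
-/

set_option autoImplicit false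

namespace Fermat.Agent.S34.NodeStruct

open IsLocalRing

section General

variable {R D₁ D₂ : Type*} [CommRing R] [IsLocalRing R]
  [CommRing D₁] [IsDomain D₁] [IsDiscreteValuationRing D₁]
  [CommRing D₂] [IsDomain D₂] [IsDiscreteValuationRing D₂]

/-- A surjection from a local ring onto a nontrivial ring maps the maximal ideal into the
non-units. -/
lemma map_mem_nonunits {D : Type*} [CommRing D] [Nontrivial D] (φ : R →+* D)
    (hφ : Function.Surjective φ) {z : R} (hz : z ∈ maximalIdeal R) : ¬ IsUnit (φ z) := by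
  intro hu
  obtain ⟨d, hd⟩ := hu.exists_right_inv
  obtain ⟨w, rfl⟩ := hφ d
  have hker : z * w - 1 ∈ RingHom.ker φ := by
    rw [RingHom.mem_ker, map_sub, map_mul, hd, map_one, sub_self]
  have hne : RingHom.ker φ ≠ ⊤ := RingHom.ker_ne_top φ
  have h1 : z * w - 1 ∈ maximalIdeal R := IsLocalRing.le_maximalIdeal hne hker
  have h2 : z * w ∈ maximalIdeal R := Ideal.mul_mem_right _ _ hz
  have h3 : (1 : R) ∈ maximalIdeal R := by
    have := Ideal.sub_mem _ h2 h1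
    simpa using this
  exact (maximalIdeal.isMaximal R).ne_top ((Ideal.eq_top_iff_one _).mpr h3)

/-- Elements of the maximal ideal are, modulo `ker φ`, multiples of any lift of a uniformiser. -/
lemma exists_sub_mul_mem_ker {D : Type*} [CommRing D] [IsDomain D] [IsDiscreteValuationRing D]
    (φ : R →+* D) (hφ : Function.Surjective φ) {T : R} (hT : Irreducible (φ T))
    {z : R} (hz : z ∈ maximalIdeal R) : ∃ w : R, z - T * w ∈ RingHom.ker φ := by
  have hnu : φ z ∈ maximalIdeal D := by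
    rw [IsLocalRing.mem_maximalIdeal]
    exact map_mem_nonunits φ hφ hz
  have hmax : maximalIdeal D = Ideal.span {φ T} :=
    (IsDiscreteValuationRing.irreducible_iff_uniformizer _).mp hT
  rw [hmax, Ideal.mem_span_singleton] at hnu
  obtain ⟨d, hd⟩ := hnu
  obtain ⟨w, rfl⟩ := hφ d
  exact ⟨w, by rw [RingHom.mem_ker, map_sub, map_mul, hd, sub_self]⟩

/-- **Node structure from two DVR branches** (A4), surjection form. -/
theorem nodeStruct (φ₁ : R →+* D₁) (φ₂ : R →+* D₂)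
    (hφ₁ : Function.Surjective φ₁) (hφ₂ : Function.Surjective φ₂)
    (π X Y : R) (hπ : Ideal.span {π} = RingHom.ker φ₁ ⊓ RingHom.ker φ₂)
    (hX : φ₁ X = 0) (hY : φ₂ Y = 0)
    (hX' : Irreducible (φ₂ X)) (hY' : Irreducible (φ₁ Y)) :
    RingHom.ker φ₁ = Ideal.span {π, X} ∧ RingHom.ker φ₂ = Ideal.span {π, Y} ∧
      maximalIdeal R = Ideal.span {π, X, Y} ∧ X * Y ∈ Ideal.span {π} ∧
      X ∉ RingHom.ker φ₂ ∧ Y ∉ RingHom.ker φ₁ := by
  have hπmem : π ∈ RingHom.ker φ₁ ⊓ RingHom.ker φ₂ := by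
    rw [← hπ]; exact Ideal.mem_span_singleton_self π
  have hπ₁ : π ∈ RingHom.ker φ₁ := hπmem.1
  have hπ₂ : π ∈ RingHom.ker φ₂ := hπmem.2
  have hX₁ : X ∈ RingHom.ker φ₁ := hX
  have hY₂ : Y ∈ RingHom.ker φ₂ := hY
  have hk₁ : RingHom.ker φ₁ ≤ maximalIdeal R := IsLocalRing.le_maximalIdeal (RingHom.ker_ne_top φ₁)
  have hk₂ : RingHom.ker φ₂ ≤ maximalIdeal R := IsLocalRing.le_maximalIdeal (RingHom.ker_ne_top φ₂)
  -- a general step: an element of `ker φ₁ ⊓ ker φ₂` is a multiple of `π`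
  have hstep : ∀ z : R, z ∈ RingHom.ker φ₁ → z ∈ RingHom.ker φ₂ → ∃ s, z = π * s := by
    intro z h1 h2
    have : z ∈ Ideal.span {π} := by rw [hπ]; exact ⟨h1, h2⟩
    obtain ⟨s, hs⟩ := Ideal.mem_span_singleton.mp this
    exact ⟨s, hs⟩
  have e₁ : RingHom.ker φ₁ = Ideal.span {π, X} := by
    apply le_antisymm
    · intro z hz
      obtain ⟨w, hw⟩ := exists_sub_mul_mem_ker φ₂ hφ₂ hX' (hk₁ hz)
      have h1 : z - X * w ∈ RingHom.ker φ₁ :=
        Ideal.sub_mem _ hz (Ideal.mul_mem_right _ _ hX₁)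
      obtain ⟨s, hs⟩ := hstep _ h1 hw
      have hz' : z = π * s + X * w := by rw [← hs]; ring
      rw [hz']
      exact Ideal.add_mem _
        (Ideal.mul_mem_right _ _ (Ideal.subset_span (by simp)))
        (Ideal.mul_mem_right _ _ (Ideal.subset_span (by simp)))
    · rw [Ideal.span_le]
      rintro z (rfl | rfl)
      · exact hπ₁
      · exact hX₁
  have e₂ : RingHom.ker φ₂ = Ideal.span {π, Y} := by
    apply le_antisymm
    · intro z hz
      obtain ⟨w, hw⟩ := exists_sub_mul_mem_ker φ₁ hφ₁ hY' (hk₂ hz)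
      have h2 : z - Y * w ∈ RingHom.ker φ₂ :=
        Ideal.sub_mem _ hz (Ideal.mul_mem_right _ _ hY₂)
      obtain ⟨s, hs⟩ := hstep _ hw h2
      have hz' : z = π * s + Y * w := by rw [← hs]; ring
      rw [hz']
      exact Ideal.add_mem _
        (Ideal.mul_mem_right _ _ (Ideal.subset_span (by simp)))
        (Ideal.mul_mem_right _ _ (Ideal.subset_span (by simp)))
    · rw [Ideal.span_le]
      rintro z (rfl | rfl)
      · exact hπ₂
      · exact hY₂
  refine ⟨e₁, e₂, ?_, ?_, ?_, ?_⟩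
  · apply le_antisymm
    · intro z hz
      obtain ⟨w, hw⟩ := exists_sub_mul_mem_ker φ₁ hφ₁ hY' hz
      rw [e₁] at hw
      have hsub : (Ideal.span {π, X} : Ideal R) ≤ Ideal.span {π, X, Y} := by
        apply Ideal.span_mono
        intro t ht
        rcases ht with rfl | rfl
        · simp
        · simp
      have h1 : z - Y * w ∈ (Ideal.span {π, X, Y} : Ideal R) := hsub hw
      have h2 : Y * w ∈ (Ideal.span {π, X, Y} : Ideal R) :=
        Ideal.mul_mem_right _ _ (Ideal.subset_span (by simp))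
      have := Ideal.add_mem _ h1 h2
      simpa using this
    · rw [Ideal.span_le]
      rintro z (rfl | rfl | rfl)
      · exact hk₁ hπ₁
      · exact hk₁ hX₁
      · exact hk₂ hY₂
  · rw [hπ]
    exact ⟨Ideal.mul_mem_right _ _ hX₁, Ideal.mul_mem_left _ _ hY₂⟩
  · intro h
    exact hX'.ne_zero h
  · intro h
    exact hY'.ne_zero h

end General

section Quotient

variable {R : Type*} [CommRing R] [IsLocalRing R]

/-- **Node structure from two DVR branches** (A4), prime-ideal form: `πR = 𝔭₁ ⊓ 𝔭₂`, `R ⧸ 𝔭ᵢ`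
discrete valuation rings, `X ∈ 𝔭₁` a uniformiser of `R ⧸ 𝔭₂`, `Y ∈ 𝔭₂` a uniformiser of
`R ⧸ 𝔭₁`. -/
theorem nodeStruct_quotient (π : R) (𝔭₁ 𝔭₂ : Ideal R) [𝔭₁.IsPrime] [𝔭₂.IsPrime]
    [IsDiscreteValuationRing (R ⧸ 𝔭₁)] [IsDiscreteValuationRing (R ⧸ 𝔭₂)]
    (hπ : Ideal.span {π} = 𝔭₁ ⊓ 𝔭₂) (X Y : R) (hX : X ∈ 𝔭₁) (hY : Y ∈ 𝔭₂)
    (hX' : Irreducible (Ideal.Quotient.mk 𝔭₂ X)) (hY' : Irreducible (Ideal.Quotient.mk 𝔭₁ Y)) :
    𝔭₁ = Ideal.span {π, X} ∧ 𝔭₂ = Ideal.span {π, Y} ∧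
      maximalIdeal R = Ideal.span {π, X, Y} ∧ X * Y ∈ Ideal.span {π} ∧ X ∉ 𝔭₂ ∧ Y ∉ 𝔭₁ := by
  have h := nodeStruct (Ideal.Quotient.mk 𝔭₁) (Ideal.Quotient.mk 𝔭₂)
    Ideal.Quotient.mk_surjective Ideal.Quotient.mk_surjective π X Y
    (by rw [Ideal.mk_ker, Ideal.mk_ker]; exact hπ)
    (Ideal.Quotient.eq_zero_iff_mem.mpr hX) (Ideal.Quotient.eq_zero_iff_mem.mpr hY) hX' hY'
  simpa only [Ideal.mk_ker] using h

end Quotient

end Fermat.Agent.S34.NodeStruct
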