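import Mathlib
import Fermat.Agent.S34.NodeStruct

/-!
# S34, package B2 (abstract part): the two components of a chart and its local rings

`B` is a commutative ring (a chart of the arithmetic surface at level `N = M q`), with two
surjections `r₁ : B → E₁`, `r₂ : B → E₂` onto domains (the two components of the special fibre;
Dedekind domains in the application) and an element `π` with `(π) = ker r₁ ⊓ ker r₂`.  For a
maximal ideal `𝔫 ∋ π` and `R` the localisation of `B` at `𝔫`: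

* `ker_le_or_ker_le` : `𝔫` contains `ker r₁` or `ker r₂` (it lies on one of the components);
* `locMap` : the induced surjection `R → Dᵢ` onto the localisation of `Eᵢ` at the image of `𝔫`,
  its kernel (`locMap_eq_zero_iff`) and `span_eq_ker_inf_ker : (π) = ker φ₁ ⊓ ker φ₂` in `R`;
* `smooth` : if `𝔫` does not contain `ker r₂`, then `ker φ₁ = (π)`, `π` is a prime element of
  `R` and the maximal ideal of `R` is `(π, u)` for any `u` whose image is a uniformiser of `D₁`;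
* `node` : if `𝔫` contains both kernels: the node structure `ker φ₁ = (π, X)`,
  `ker φ₂ = (π, Y)`, `𝔫 R = (π, X, Y)`, `X Y ∈ (π)` (via `NodeStruct.nodeStruct`);
* `irreducible_algebraMap_of_notMem_sq` : in the localisation of a Dedekind domain at a maximal
  ideal `𝔪`, an element of `𝔪 ∖ 𝔪²` is a uniformiser.
-/

set_option autoImplicit false

namespace Fermat.Agent.S34.Comp

open IsLocalRing

/-! ### Images of maximal ideals under surjections -/

section Basic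

variable {B E : Type*} [CommRing B] [CommRing E]

theorem comap_map_eq (r : B →+* E) (hr : Function.Surjective r) (𝔫 : Ideal B)
    (hk : RingHom.ker r ≤ 𝔫) : (𝔫.map r).comap r = 𝔫 := by
  rw [Ideal.comap_map_of_surjective r hr, ← RingHom.ker_eq_comap_bot, sup_eq_left.mpr hk]

theorem mem_map_iff (r : B →+* E) (hr : Function.Surjective r) (𝔫 : Ideal B)
    (hk : RingHom.ker r ≤ 𝔫) (b : B) : r b ∈ 𝔫.map r ↔ b ∈ 𝔫 := by
  rw [← Ideal.mem_comap, comap_map_eq r hr 𝔫 hk]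

theorem map_isMaximal (r : B →+* E) (hr : Function.Surjective r) (𝔫 : Ideal B)
    [h𝔫 : 𝔫.IsMaximal] (hk : RingHom.ker r ≤ 𝔫) : (𝔫.map r).IsMaximal := by
  rcases Ideal.map_eq_top_or_isMaximal_of_surjective r hr h𝔫 with h | h
  · exfalso
    have h1 := comap_map_eq r hr 𝔫 hk
    rw [h, Ideal.comap_top] at h1
    exact h𝔫.ne_top h1.symm
  · exact h

/-- the contraction of `𝔪²` from the localisation at the maximal ideal `𝔪` is `𝔪²` -/
theorem mem_sq_of_mul_mem_sq (𝔪 : Ideal E) [h𝔪 : 𝔪.IsMaximal] {s x : E} (hs : s ∉ 𝔪)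
    (h : s * x ∈ 𝔪 ^ 2) : x ∈ 𝔪 ^ 2 := by
  obtain ⟨a, m, hm, h1⟩ := h𝔪.exists_inv hs
  have hx : x = (a ^ 2 * s + 2 * a * m) * (s * x) + m ^ 2 * x := by
    have h2 : (a * s + m) ^ 2 = 1 := by rw [h1, one_pow]
    linear_combination (-x) * h2
  rw [hx]
  refine Ideal.add_mem _ (Ideal.mul_mem_left _ _ h) (Ideal.mul_mem_right _ _ ?_)
  exact Ideal.pow_mem_pow hm 2

end Basic

/-! ### Uniformisers of a Dedekind domain at a maximal ideal -/

section Unif

variable {E : Type*} [CommRing E] [IsDomain E]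

/-- In the localisation `D` (a discrete valuation ring) of a domain `E` at a maximal ideal `𝔪`,
an element of `𝔪 ∖ 𝔪²` is a uniformiser. -/
theorem irreducible_algebraMap_of_notMem_sq (𝔪 : Ideal E) [h𝔪 : 𝔪.IsMaximal]
    (D : Type*) [CommRing D] [IsDomain D] [IsDiscreteValuationRing D] [Algebra E D]
    [IsLocalization.AtPrime D 𝔪] {t : E} (ht : t ∈ 𝔪) (ht2 : t ∉ 𝔪 ^ 2) :
    Irreducible (algebraMap E D t) := by
  have hinj : Function.Injective (algebraMap E D) :=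
    IsLocalization.injective D (M := 𝔪.primeCompl) 𝔪.primeCompl_le_nonZeroDivisors
  have ht0 : t ≠ 0 := fun h => ht2 (h ▸ Ideal.zero_mem _)
  have hne : algebraMap E D t ≠ 0 := by
    rw [Ne, map_eq_zero_iff _ hinj]; exact ht0
  obtain ⟨ϖ, hϖ⟩ := IsDiscreteValuationRing.exists_irreducible D
  obtain ⟨n, u, hu⟩ := IsDiscreteValuationRing.eq_unit_mul_pow_irreducible hne hϖ
  have hmem : algebraMap E D t ∈ maximalIdeal D :=
    (IsLocalization.AtPrime.to_map_mem_maximal_iff D 𝔪 t).mpr ht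
  have hmax : maximalIdeal D = Ideal.span {ϖ} :=
    (IsDiscreteValuationRing.irreducible_iff_uniformizer ϖ).mp hϖ
  rcases n with _ | _ | n
  · exfalso
    rw [pow_zero, mul_one] at hu
    rw [hu] at hmem
    exact (mem_maximalIdeal _).mp hmem u.isUnit
  · rw [hu, zero_add, pow_one]
    exact (irreducible_units_mul u).mpr hϖ
  · exfalso
    apply ht2
    -- `t` lies in the extension of `𝔪 ^ 2`
    have h1 : algebraMap E D t ∈ Ideal.map (algebraMap E D) (𝔪 ^ 2) := by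
      rw [Ideal.map_pow, IsLocalization.AtPrime.map_eq_maximalIdeal 𝔪 D, hmax,
        Ideal.span_singleton_pow, Ideal.mem_span_singleton, hu]
      refine ⟨u * ϖ ^ n, ?_⟩
      ring
    rw [IsLocalization.mem_map_algebraMap_iff 𝔪.primeCompl] at h1
    obtain ⟨⟨i, s⟩, his⟩ := h1
    have h2 : t * (s : E) = (i : E) := by
      apply hinj
      rw [map_mul]
      exact his
    have h3 : (s : E) * t ∈ 𝔪 ^ 2 := by
      rw [mul_comm, h2]
      exact i.2
    exact mem_sq_of_mul_mem_sq 𝔪 s.2 h3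

end Unif

/-! ### The induced map on localisations -/

section Loc

variable {B E : Type*} [CommRing B] [CommRing E] (r : B →+* E)
  (𝔫 : Ideal B) [𝔫.IsPrime] (R : Type*) [CommRing R] [Algebra B R] [IsLocalization.AtPrime R 𝔫]
  (𝔪 : Ideal E) [𝔪.IsPrime] (h𝔪 : 𝔪.comap r = 𝔫)
  (D : Type*) [CommRing D] [Algebra E D] [IsLocalization.AtPrime D 𝔪]

omit [𝔫.IsPrime] [𝔪.IsPrime] in
theorem primeCompl_le_comap (h : 𝔪.comap r = 𝔫) (s : B) (hs : s ∉ 𝔫) : r s ∉ 𝔪 := by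
  intro h'
  apply hs
  rw [← h]
  exact h'

/-- the map `B_𝔫 → E_𝔪` induced by `r : B → E` with `r⁻¹ 𝔪 = 𝔫` -/
noncomputable def locMap : R →+* D :=
  IsLocalization.map (M := 𝔫.primeCompl) (T := 𝔪.primeCompl) D r
    (show 𝔫.primeCompl ≤ Submonoid.comap r 𝔪.primeCompl from
      fun s (hs : s ∉ 𝔫) => primeCompl_le_comap r 𝔫 𝔪 h𝔪 s hs)

theorem locMap_algebraMap (b : B) :
    locMap r 𝔫 R 𝔪 h𝔪 D (algebraMap B R b) = algebraMap E D (r b) :=
  IsLocalization.map_eq _ b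

variable {r 𝔫 R 𝔪 D}

theorem locMap_surjective (hr : Function.Surjective r) :
    Function.Surjective (locMap r 𝔫 R 𝔪 h𝔪 D) := by
  intro d
  obtain ⟨e, t, rfl⟩ := IsLocalization.exists_mk'_eq 𝔪.primeCompl d
  obtain ⟨b, rfl⟩ := hr e
  obtain ⟨s, hs⟩ := hr t.1
  have hs𝔫 : s ∈ 𝔫.primeCompl := by
    intro h
    rw [← h𝔪] at h
    have h' : r s ∈ 𝔪 := h
    rw [hs] at h'
    exact t.2 h'
  refine ⟨IsLocalization.mk' R b ⟨s, hs𝔫⟩, ?_⟩
  have h1 := IsLocalization.map_mk' (M := 𝔫.primeCompl) (T := 𝔪.primeCompl) (S := R) (Q := D)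
    (g := r) (show 𝔫.primeCompl ≤ Submonoid.comap r 𝔪.primeCompl from
      fun s (hs : s ∉ 𝔫) => primeCompl_le_comap r 𝔫 𝔪 h𝔪 s hs) b ⟨s, hs𝔫⟩
  rw [locMap, h1]
  congr 1
  exact Subtype.ext hs

/-- every element of `B_𝔫` is a fraction `b / s` -/
theorem exists_mul_eq (x : R) :
    ∃ b s : B, s ∉ 𝔫 ∧ x * algebraMap B R s = algebraMap B R b := by
  obtain ⟨b, s, rfl⟩ := IsLocalization.exists_mk'_eq 𝔫.primeCompl x
  exact ⟨b, s, s.2, IsLocalization.mk'_spec _ _ _⟩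

theorem isUnit_algebraMap {s : B} (hs : s ∉ 𝔫) : IsUnit (algebraMap B R s) :=
  IsLocalization.map_units R (⟨s, hs⟩ : 𝔫.primeCompl)

/-- the kernel of `locMap`, elementwise -/
theorem locMap_eq_zero_iff [IsDomain E] {x : R} {b s : B} (hs : s ∉ 𝔫)
    (hx : x * algebraMap B R s = algebraMap B R b) :
    locMap r 𝔫 R 𝔪 h𝔪 D x = 0 ↔ r b = 0 := by
  have hinj : Function.Injective (algebraMap E D) :=
    IsLocalization.injective D (M := 𝔪.primeCompl) 𝔪.primeCompl_le_nonZeroDivisors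
  have hu : IsUnit (locMap r 𝔫 R 𝔪 h𝔪 D (algebraMap B R s)) :=
    (isUnit_algebraMap (R := R) hs).map _
  have h1 : locMap r 𝔫 R 𝔪 h𝔪 D x * locMap r 𝔫 R 𝔪 h𝔪 D (algebraMap B R s) =
      algebraMap E D (r b) := by
    rw [← map_mul, hx, locMap_algebraMap]
  constructor
  · intro h
    rw [h, zero_mul] at h1
    exact (map_eq_zero_iff _ hinj).mp h1.symm
  · intro h
    rw [h, map_zero] at h1
    exact (hu.mul_left_eq_zero).mp h1

end Loc

/-! ### Two components -/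

section Two

variable {B E₁ E₂ : Type*} [CommRing B] [CommRing E₁] [CommRing E₂]
  (r₁ : B →+* E₁) (r₂ : B →+* E₂)

/-- **(S1) ⇒ every closed point of the special fibre lies on a component.** -/
theorem ker_le_or_ker_le (π : B) (hπ : Ideal.span {π} = RingHom.ker r₁ ⊓ RingHom.ker r₂)
    (𝔫 : Ideal B) [h𝔫 : 𝔫.IsPrime] (hπ𝔫 : π ∈ 𝔫) :
    RingHom.ker r₁ ≤ 𝔫 ∨ RingHom.ker r₂ ≤ 𝔫 := by
  apply h𝔫.inf_le.mp
  rw [← hπ, Ideal.span_le]
  intro x hx
  rw [Set.mem_singleton_iff.mp hx]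
  exact hπ𝔫

variable [IsDomain E₁] [IsDomain E₂]
  (𝔫 : Ideal B) [𝔫.IsPrime] (R : Type*) [CommRing R] [Algebra B R] [IsLocalization.AtPrime R 𝔫]
  (𝔪₁ : Ideal E₁) [𝔪₁.IsPrime] (h𝔪₁ : 𝔪₁.comap r₁ = 𝔫)
  (D₁ : Type*) [CommRing D₁] [Algebra E₁ D₁] [IsLocalization.AtPrime D₁ 𝔪₁]
  (𝔪₂ : Ideal E₂) [𝔪₂.IsPrime] (h𝔪₂ : 𝔪₂.comap r₂ = 𝔫)
  (D₂ : Type*) [CommRing D₂] [Algebra E₂ D₂] [IsLocalization.AtPrime D₂ 𝔪₂]

/-- **(S1) localised**: `(π) = ker φ₁ ⊓ ker φ₂` in `B_𝔫`. -/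
theorem span_eq_ker_inf_ker (π : B)
    (hπ : Ideal.span {π} = RingHom.ker r₁ ⊓ RingHom.ker r₂) :
    Ideal.span {algebraMap B R π} =
      RingHom.ker (locMap r₁ 𝔫 R 𝔪₁ h𝔪₁ D₁) ⊓ RingHom.ker (locMap r₂ 𝔫 R 𝔪₂ h𝔪₂ D₂) := by
  have hπmem : π ∈ RingHom.ker r₁ ⊓ RingHom.ker r₂ := by
    rw [← hπ]; exact Ideal.mem_span_singleton_self π
  apply le_antisymm
  · rw [Ideal.span_le]
    intro x hx
    rw [Set.mem_singleton_iff.mp hx]
    refine Ideal.mem_inf.mpr ⟨?_, ?_⟩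
    · rw [RingHom.mem_ker, locMap_algebraMap, RingHom.mem_ker.mp (Ideal.mem_inf.mp hπmem).1,
        map_zero]
    · rw [RingHom.mem_ker, locMap_algebraMap, RingHom.mem_ker.mp (Ideal.mem_inf.mp hπmem).2,
        map_zero]
  · intro x hx
    obtain ⟨hx1, hx2⟩ := Ideal.mem_inf.mp hx
    obtain ⟨b, s, hs, hxs⟩ := exists_mul_eq (𝔫 := 𝔫) x
    have hb1 : r₁ b = 0 := (locMap_eq_zero_iff h𝔪₁ hs hxs).mp hx1
    have hb2 : r₂ b = 0 := (locMap_eq_zero_iff h𝔪₂ hs hxs).mp hx2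
    have hb : b ∈ Ideal.span {π} := by
      rw [hπ]; exact Ideal.mem_inf.mpr ⟨hb1, hb2⟩
    obtain ⟨c, rfl⟩ := Ideal.mem_span_singleton.mp hb
    obtain ⟨v, hv⟩ := isUnit_algebraMap (R := R) hs
    rw [Ideal.mem_span_singleton]
    refine ⟨algebraMap B R c * (v⁻¹ : Rˣ), ?_⟩
    have h1 : x = algebraMap B R (π * c) * (v⁻¹ : Rˣ) := by
      rw [← hxs, ← hv, mul_assoc, Units.mul_inv, mul_one]
    rw [h1, map_mul]
    ring

/-- **Node** (both components pass through `𝔫`): the structure of the local ring `B_𝔫`. -/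
theorem node [IsLocalRing R] [IsDomain D₁] [IsDiscreteValuationRing D₁] [IsDomain D₂]
    [IsDiscreteValuationRing D₂] (hr₁ : Function.Surjective r₁) (hr₂ : Function.Surjective r₂)
    (π : B) (hπ : Ideal.span {π} = RingHom.ker r₁ ⊓ RingHom.ker r₂)
    (X Y : B) (hX : r₁ X = 0) (hY : r₂ Y = 0)
    (hX' : Irreducible (algebraMap E₂ D₂ (r₂ X))) (hY' : Irreducible (algebraMap E₁ D₁ (r₁ Y))) :
    RingHom.ker (locMap r₁ 𝔫 R 𝔪₁ h𝔪₁ D₁) =
        Ideal.span {algebraMap B R π, algebraMap B R X} ∧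
      RingHom.ker (locMap r₂ 𝔫 R 𝔪₂ h𝔪₂ D₂) =
        Ideal.span {algebraMap B R π, algebraMap B R Y} ∧
      maximalIdeal R =
        Ideal.span {algebraMap B R π, algebraMap B R X, algebraMap B R Y} ∧
      algebraMap B R X * algebraMap B R Y ∈ Ideal.span {algebraMap B R π} ∧
      algebraMap B R X ∉ RingHom.ker (locMap r₂ 𝔫 R 𝔪₂ h𝔪₂ D₂) ∧
      algebraMap B R Y ∉ RingHom.ker (locMap r₁ 𝔫 R 𝔪₁ h𝔪₁ D₁) := by
  refine NodeStruct.nodeStruct (locMap r₁ 𝔫 R 𝔪₁ h𝔪₁ D₁) (locMap r₂ 𝔫 R 𝔪₂ h𝔪₂ D₂)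
    (locMap_surjective h𝔪₁ hr₁) (locMap_surjective h𝔪₂ hr₂) (algebraMap B R π)
    (algebraMap B R X) (algebraMap B R Y)
    (span_eq_ker_inf_ker r₁ r₂ 𝔫 R 𝔪₁ h𝔪₁ D₁ 𝔪₂ h𝔪₂ D₂ π hπ) ?_ ?_ ?_ ?_
  · rw [locMap_algebraMap, hX, map_zero]
  · rw [locMap_algebraMap, hY, map_zero]
  · rw [locMap_algebraMap]; exact hX'
  · rw [locMap_algebraMap]; exact hY'

end Two

/-! ### Smooth points -/

section Smooth

variable {B E₁ E₂ : Type*} [CommRing B] [CommRing E₁] [CommRing E₂] [IsDomain E₁]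
  (r₁ : B →+* E₁) (r₂ : B →+* E₂)
  (𝔫 : Ideal B) [𝔫.IsPrime] (R : Type*) [CommRing R] [Algebra B R] [IsLocalization.AtPrime R 𝔫]
  (𝔪₁ : Ideal E₁) [𝔪₁.IsPrime] (h𝔪₁ : 𝔪₁.comap r₁ = 𝔫)
  (D₁ : Type*) [CommRing D₁] [Algebra E₁ D₁] [IsLocalization.AtPrime D₁ 𝔪₁]

/-- At a point lying on the first component only, `ker φ₁ = (π)`. -/
theorem ker_locMap_eq_span (π : B) (hπ : Ideal.span {π} = RingHom.ker r₁ ⊓ RingHom.ker r₂)
    (g : B) (hg : r₂ g = 0) (hg𝔫 : g ∉ 𝔫) :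
    RingHom.ker (locMap r₁ 𝔫 R 𝔪₁ h𝔪₁ D₁) = Ideal.span {algebraMap B R π} := by
  have hπmem : π ∈ RingHom.ker r₁ ⊓ RingHom.ker r₂ := by
    rw [← hπ]; exact Ideal.mem_span_singleton_self π
  apply le_antisymm
  · intro x hx
    obtain ⟨b, s, hs, hxs⟩ := exists_mul_eq (𝔫 := 𝔫) x
    have hb1 : r₁ b = 0 := (locMap_eq_zero_iff h𝔪₁ hs hxs).mp hx
    have hgb : g * b ∈ Ideal.span {π} := by
      rw [hπ]
      refine Ideal.mem_inf.mpr ⟨?_, ?_⟩
      · rw [RingHom.mem_ker, map_mul, hb1, mul_zero]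
      · rw [RingHom.mem_ker, map_mul, hg, zero_mul]
    obtain ⟨c, hc⟩ := Ideal.mem_span_singleton.mp hgb
    obtain ⟨v, hv⟩ := isUnit_algebraMap (R := R) hs
    obtain ⟨v', hv'⟩ := isUnit_algebraMap (R := R) hg𝔫
    rw [Ideal.mem_span_singleton]
    refine ⟨algebraMap B R c * (v⁻¹ : Rˣ) * (v'⁻¹ : Rˣ), ?_⟩
    have h1 : x = algebraMap B R b * (v⁻¹ : Rˣ) := by
      rw [← hxs, ← hv, mul_assoc, Units.mul_inv, mul_one]
    have h2 : algebraMap B R g * algebraMap B R b = algebraMap B R π * algebraMap B R c := by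
      rw [← map_mul, hc, map_mul]
    have h3 : algebraMap B R b = algebraMap B R π * algebraMap B R c * (v'⁻¹ : Rˣ) := by
      rw [← h2, ← hv', mul_comm (v' : R), mul_assoc, Units.mul_inv, mul_one]
    rw [h1, h3]
    ring
  · rw [Ideal.span_le]
    intro x hx
    rw [Set.mem_singleton_iff.mp hx, SetLike.mem_coe, RingHom.mem_ker, locMap_algebraMap,
      RingHom.mem_ker.mp (Ideal.mem_inf.mp hπmem).1, map_zero]

/-- **Smooth point** (only the first component passes through `𝔫`): `π` is a prime element of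
`B_𝔫` and the maximal ideal is `(π, u)`. -/
theorem smooth [IsLocalRing R] [IsDomain D₁] [IsDiscreteValuationRing D₁]
    (hr₁ : Function.Surjective r₁) (π : B)
    (hπ : Ideal.span {π} = RingHom.ker r₁ ⊓ RingHom.ker r₂)
    (hπ0 : algebraMap B R π ≠ 0) (g : B) (hg : r₂ g = 0) (hg𝔫 : g ∉ 𝔫)
    (u : B) (hu : Irreducible (algebraMap E₁ D₁ (r₁ u))) :
    RingHom.ker (locMap r₁ 𝔫 R 𝔪₁ h𝔪₁ D₁) = Ideal.span {algebraMap B R π} ∧
      Prime (algebraMap B R π) ∧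
      maximalIdeal R = Ideal.span {algebraMap B R π, algebraMap B R u} := by
  have hker := ker_locMap_eq_span r₁ r₂ 𝔫 R 𝔪₁ h𝔪₁ D₁ π hπ g hg hg𝔫
  have hsurj := locMap_surjective (R := R) (D := D₁) h𝔪₁ hr₁
  refine ⟨hker, ?_, ?_⟩
  · rw [← Ideal.span_singleton_prime hπ0, ← hker]
    exact RingHom.ker_isPrime _
  · apply le_antisymm
    · intro z hz
      have hu' : Irreducible (locMap r₁ 𝔫 R 𝔪₁ h𝔪₁ D₁ (algebraMap B R u)) := by
        rw [locMap_algebraMap]; exact hu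
      obtain ⟨w, hw⟩ := NodeStruct.exists_sub_mul_mem_ker (locMap r₁ 𝔫 R 𝔪₁ h𝔪₁ D₁) hsurj hu' hz
      rw [hker, Ideal.mem_span_singleton] at hw
      obtain ⟨c, hc⟩ := hw
      have hz' : z = algebraMap B R π * c + algebraMap B R u * w := by
        linear_combination hc
      rw [hz']
      refine Ideal.add_mem _ (Ideal.mul_mem_right _ _ (Ideal.subset_span (by simp)))
        (Ideal.mul_mem_right _ _ (Ideal.subset_span (by simp)))
    · rw [Ideal.span_le]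
      intro z hz
      rcases hz with rfl | rfl
      · rw [SetLike.mem_coe, mem_maximalIdeal, mem_nonunits_iff]
        intro hunit
        have h0 : locMap r₁ 𝔫 R 𝔪₁ h𝔪₁ D₁ (algebraMap B R π) = 0 := by
          have : algebraMap B R π ∈ RingHom.ker (locMap r₁ 𝔫 R 𝔪₁ h𝔪₁ D₁) := by
            rw [hker]; exact Ideal.mem_span_singleton_self _
          exact this
        have := hunit.map (locMap r₁ 𝔫 R 𝔪₁ h𝔪₁ D₁)
        rw [h0] at this
        exact not_isUnit_zero this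
      · rw [SetLike.mem_coe, mem_maximalIdeal, mem_nonunits_iff]
        intro hunit
        have := hunit.map (locMap r₁ 𝔫 R 𝔪₁ h𝔪₁ D₁)
        rw [locMap_algebraMap] at this
        exact hu.not_isUnit this

end Smooth

end Fermat.Agent.S34.Comp
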