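import Mathlib
import Fermat.Agent.S34.Comp

/-!
# S34, package B2: the local structure of a two-component chart at a closed point

`B` is a chart ring (a domain), `K` a ring receiving the two "reduction maps" `r₁ r₂ : B →+* K`
(in the instance `K = κ((q))`, `r₁ = red`, `r₂ = red ∘ w`), and `ε : E →+* K` an injective map
from a Dedekind domain `E` (the special fibre of the chart of the lower level) whose image
contains `r₁ B` and `r₂ B`.  The hypotheses are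

* `(S1)`: `r₁ b = 0`, `r₂ b = 0` imply `π ∣ b`;
* `hA`: every `ε e` is `r₁ b` for some `b` such that `r₂ b` is a `q`-th power in `ε E`
  (`b = α y`);
* `hB`: every `ε e` is `r₂ b` for some `b` such that `r₁ b` is a `q`-th power in `ε E`
  (`b = β y`).

`exists_coords`: at every maximal ideal `𝔫 ∋ π` of `B` the maximal ideal of the local ring
`R = B_𝔫` is `(π, u)` (smooth point) or `(π, X, Y)` with `π ∣ X Y` (node), with `u, X, Y`
elements of `B`.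
-/

set_option autoImplicit false
set_option linter.style.haveILetI false

namespace Fermat.Agent.S34.CompPts

open IsLocalRing

/-! ### Factoring through an injective map -/

section Factor

variable {B E K : Type*} [CommRing B] [CommRing E] [CommRing K]

/-- the factorisation of `r : B → K` through an injective `ε : E → K` containing its image -/
noncomputable def factor (r : B →+* K) (ε : E →+* K) (hε : Function.Injective ε)
    (hr : ∀ b, ∃ e, r b = ε e) : B →+* E where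
  toFun b := Classical.choose (hr b)
  map_one' := hε (by rw [← Classical.choose_spec (hr 1), map_one, map_one])
  map_mul' x y := hε (by
    rw [← Classical.choose_spec (hr (x * y)), map_mul, map_mul,
      ← Classical.choose_spec (hr x), ← Classical.choose_spec (hr y)])
  map_zero' := hε (by rw [← Classical.choose_spec (hr 0), map_zero, map_zero])
  map_add' x y := hε (by
    rw [← Classical.choose_spec (hr (x + y)), map_add, map_add,
      ← Classical.choose_spec (hr x), ← Classical.choose_spec (hr y)])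

theorem factor_spec (r : B →+* K) (ε : E →+* K) (hε : Function.Injective ε)
    (hr : ∀ b, ∃ e, r b = ε e) (b : B) : ε (factor r ε hε hr b) = r b :=
  (Classical.choose_spec (hr b)).symm

theorem factor_eq_iff (r : B →+* K) (ε : E →+* K) (hε : Function.Injective ε)
    (hr : ∀ b, ∃ e, r b = ε e) (b : B) (e : E) : factor r ε hε hr b = e ↔ r b = ε e := by
  rw [← factor_spec r ε hε hr b]
  exact ⟨fun h => congrArg ε h, fun h => hε h⟩

theorem factor_eq_zero_iff (r : B →+* K) (ε : E →+* K) (hε : Function.Injective ε)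
    (hr : ∀ b, ∃ e, r b = ε e) (b : B) : factor r ε hε hr b = 0 ↔ r b = 0 := by
  rw [factor_eq_iff, map_zero]

end Factor

/-! ### Dedekind domains: elements of `𝔪 ∖ 𝔪²` -/

section Ded

variable {E : Type*} [CommRing E] [IsDedekindDomain E]

theorem exists_mem_notMem_sq (𝔪 : Ideal E) [𝔪.IsPrime] (h𝔪 : 𝔪 ≠ ⊥) :
    ∃ t ∈ 𝔪, t ∉ 𝔪 ^ 2 := by
  have hlt := Ideal.pow_succ_lt_pow h𝔪 1
  rw [pow_one] at hlt
  obtain ⟨t, ht, ht2⟩ := SetLike.exists_of_lt hlt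
  exact ⟨t, ht, ht2⟩

/-- if `⊥` is a maximal ideal of a domain then every maximal ideal is `⊥` -/
theorem eq_bot_of_isMaximal_bot {E : Type*} [CommRing E] (h : (⊥ : Ideal E).IsMaximal)
    (𝔪 : Ideal E) (h𝔪 : 𝔪.IsMaximal) : 𝔪 = ⊥ :=
  (h.eq_of_le h𝔪.ne_top bot_le).symm

end Ded

/-! ### Node coordinates from the two Frobenius congruences -/

section Coord

variable {B E : Type*} [CommRing B] [CommRing E]

/-- **A coordinate of the second branch.**  `Y = a - b ^ q` with `r₁ a = t`, `r₂ a = e' ^ q`,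
`r₂ b = e'`, `r₁ b = e'' ^ q`: it vanishes on the second component and is a uniformiser of
the first one at `𝔪`. -/
theorem exists_coord (r₁ r₂ : B →+* E) (q : ℕ) (hq : 2 ≤ q)
    (hA : ∀ e : E, ∃ b, r₁ b = e ∧ ∃ e', r₂ b = e' ^ q)
    (hB : ∀ e : E, ∃ b, r₂ b = e ∧ ∃ e', r₁ b = e' ^ q)
    (𝔫 : Ideal B) (hk₂ : RingHom.ker r₂ ≤ 𝔫)
    (𝔪 : Ideal E) [h𝔪 : 𝔪.IsPrime] (hm : 𝔫.map r₁ ≤ 𝔪)
    (t : E) (ht : t ∈ 𝔪) (ht2 : t ∉ 𝔪 ^ 2) :
    ∃ Y : B, r₂ Y = 0 ∧ r₁ Y ∈ 𝔪 ∧ r₁ Y ∉ 𝔪 ^ 2 := by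
  obtain ⟨a, ha1, e', ha2⟩ := hA t
  obtain ⟨b, hb2, e'', hb1⟩ := hB e'
  have hY2 : r₂ (a - b ^ q) = 0 := by
    rw [map_sub, map_pow, ha2, hb2, sub_self]
  have hY1 : r₁ (a - b ^ q) = t - e'' ^ (q * q) := by
    rw [map_sub, map_pow, ha1, hb1, ← pow_mul]
  have hYm : r₁ (a - b ^ q) ∈ 𝔪 := hm (Ideal.mem_map_of_mem r₁ (hk₂ hY2))
  have h4 : e'' ^ (q * q) ∈ 𝔪 := by
    have h5 : r₁ (a - b ^ q) ∈ 𝔪 := hYm
    rw [hY1] at h5
    have h6 : e'' ^ (q * q) = t - (t - e'' ^ (q * q)) := by ring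
    rw [h6]
    exact Ideal.sub_mem _ ht h5
  have hem : e'' ∈ 𝔪 := h𝔪.mem_of_pow_mem _ h4
  have h1 : e'' ^ (q * q) ∈ 𝔪 ^ 2 := by
    have h2 : e'' ^ (q * q) ∈ 𝔪 ^ (q * q) := Ideal.pow_mem_pow hem _
    exact Ideal.pow_le_pow_right (by nlinarith) h2
  refine ⟨a - b ^ q, hY2, hYm, ?_⟩
  intro hsq
  apply ht2
  have h3 : t = r₁ (a - b ^ q) + e'' ^ (q * q) := by rw [hY1]; ring
  rw [h3]
  exact Ideal.add_mem _ hsq h1

end Coord

/-! ### The local structure at a closed point -/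

section Main

variable {B E : Type*} [CommRing B] [IsDomain B] [CommRing E] [IsDedekindDomain E]
  (r₁ r₂ : B →+* E) (𝔫 : Ideal B) [h𝔫 : 𝔫.IsMaximal]
  (R : Type*) [CommRing R] [Algebra B R] [IsLocalization.AtPrime R 𝔫] [IsLocalRing R]

omit [IsDomain B] in
/-- if every element of `𝔫` is, up to a factor outside `𝔫`, a multiple of `π ∈ 𝔫`, then the
maximal ideal of `B_𝔫` is `(π)` -/
theorem maximalIdeal_eq_span_singleton (π : B) (hπ𝔫 : π ∈ 𝔫)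
    (h : ∀ x ∈ 𝔫, ∃ g, g ∉ 𝔫 ∧ π ∣ g * x) :
    maximalIdeal R = Ideal.span {algebraMap B R π} := by
  rw [← IsLocalization.AtPrime.map_eq_maximalIdeal 𝔫 R]
  apply le_antisymm
  · rw [Ideal.map_le_iff_le_comap]
    intro x hx
    obtain ⟨g, hg, c, hc⟩ := h x hx
    obtain ⟨v, hv⟩ := Comp.isUnit_algebraMap (R := R) hg
    rw [Ideal.mem_comap, Ideal.mem_span_singleton]
    refine ⟨algebraMap B R c * (v⁻¹ : Rˣ), ?_⟩
    have h1 : algebraMap B R g * algebraMap B R x = algebraMap B R π * algebraMap B R c := by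
      rw [← map_mul, hc, map_mul]
    have h2 : algebraMap B R x = algebraMap B R π * algebraMap B R c * (v⁻¹ : Rˣ) := by
      rw [← h1, ← hv, mul_comm (v : R), mul_assoc, Units.mul_inv, mul_one]
    rw [h2]
    ring
  · rw [Ideal.span_le]
    intro x hx
    rw [Set.mem_singleton_iff.mp hx]
    exact Ideal.mem_map_of_mem _ hπ𝔫

omit [IsDomain B] in
theorem exists_smooth_of_singleton (π : B) (hπ𝔫 : π ∈ 𝔫)
    (h : ∀ x ∈ 𝔫, ∃ g, g ∉ 𝔫 ∧ π ∣ g * x) :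
    ∃ u ∈ 𝔫, maximalIdeal R = Ideal.span {algebraMap B R π, algebraMap B R u} := by
  refine ⟨π, hπ𝔫, ?_⟩
  rw [maximalIdeal_eq_span_singleton 𝔫 R π hπ𝔫 h, Set.pair_eq_singleton]

/-- **One branch through `𝔫`**: a smooth point. -/
theorem one_branch (hr₁ : Function.Surjective r₁) (π : B) (hπ0 : π ≠ 0)
    (hπ : Ideal.span {π} = RingHom.ker r₁ ⊓ RingHom.ker r₂) (hπ𝔫 : π ∈ 𝔫)
    (hk₁ : RingHom.ker r₁ ≤ 𝔫) (g : B) (hg : r₂ g = 0) (hg𝔫 : g ∉ 𝔫) :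
    ∃ u ∈ 𝔫, maximalIdeal R = Ideal.span {algebraMap B R π, algebraMap B R u} := by
  haveI hmax : (𝔫.map r₁).IsMaximal := Comp.map_isMaximal r₁ hr₁ 𝔫 hk₁
  have hcomap : (𝔫.map r₁).comap r₁ = 𝔫 := Comp.comap_map_eq r₁ hr₁ 𝔫 hk₁
  by_cases hbot : 𝔫.map r₁ = ⊥
  · apply exists_smooth_of_singleton 𝔫 R π hπ𝔫
    intro x hx
    refine ⟨g, hg𝔫, ?_⟩
    have hx1 : r₁ x = 0 := by
      have h1 : r₁ x ∈ 𝔫.map r₁ := Ideal.mem_map_of_mem r₁ hx
      rwa [hbot, Ideal.mem_bot] at h1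
    have h2 : g * x ∈ Ideal.span {π} := by
      rw [hπ]
      refine Ideal.mem_inf.mpr ⟨?_, ?_⟩
      · rw [RingHom.mem_ker, map_mul, hx1, mul_zero]
      · rw [RingHom.mem_ker, map_mul, hg, zero_mul]
    exact Ideal.mem_span_singleton.mp h2
  · haveI : IsDiscreteValuationRing (Localization.AtPrime (𝔫.map r₁)) :=
      IsLocalization.AtPrime.isDiscreteValuationRing_of_dedekind_domain E hbot _
    obtain ⟨t, ht, ht2⟩ := exists_mem_notMem_sq (𝔫.map r₁) hbot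
    obtain ⟨u, rfl⟩ := hr₁ t
    have hinj : Function.Injective (algebraMap B R) :=
      IsLocalization.injective R (M := 𝔫.primeCompl) 𝔫.primeCompl_le_nonZeroDivisors
    have hπR : algebraMap B R π ≠ 0 := fun h0 => hπ0 (hinj (by rw [h0, map_zero]))
    have hirr : Irreducible (algebraMap E (Localization.AtPrime (𝔫.map r₁)) (r₁ u)) :=
      Comp.irreducible_algebraMap_of_notMem_sq (𝔫.map r₁) _ ht ht2
    refine ⟨u, (Comp.mem_map_iff r₁ hr₁ 𝔫 hk₁ u).mp ht, ?_⟩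
    exact (Comp.smooth r₁ r₂ 𝔫 R (𝔫.map r₁) hcomap (Localization.AtPrime (𝔫.map r₁)) hr₁ π hπ
      hπR g hg hg𝔫 u hirr).2.2

omit [IsDomain B] in
/-- **Two branches through `𝔫`**: a node (or, if the special fibre is a field, `𝔪 = (π)`). -/
theorem two_branch (hr₁ : Function.Surjective r₁) (hr₂ : Function.Surjective r₂) (π : B)
    (hπ : Ideal.span {π} = RingHom.ker r₁ ⊓ RingHom.ker r₂) (hπ𝔫 : π ∈ 𝔫)
    (q : ℕ) (hq : 2 ≤ q)
    (hA : ∀ e : E, ∃ b, r₁ b = e ∧ ∃ e', r₂ b = e' ^ q)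
    (hB : ∀ e : E, ∃ b, r₂ b = e ∧ ∃ e', r₁ b = e' ^ q)
    (hk₁ : RingHom.ker r₁ ≤ 𝔫) (hk₂ : RingHom.ker r₂ ≤ 𝔫) :
    (∃ u ∈ 𝔫, maximalIdeal R = Ideal.span {algebraMap B R π, algebraMap B R u}) ∨
    (∃ X ∈ 𝔫, ∃ Y ∈ 𝔫, π ∣ X * Y ∧
      maximalIdeal R = Ideal.span {algebraMap B R π, algebraMap B R X, algebraMap B R Y}) := by
  haveI hmax₁ : (𝔫.map r₁).IsMaximal := Comp.map_isMaximal r₁ hr₁ 𝔫 hk₁
  haveI hmax₂ : (𝔫.map r₂).IsMaximal := Comp.map_isMaximal r₂ hr₂ 𝔫 hk₂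
  have hcomap₁ : (𝔫.map r₁).comap r₁ = 𝔫 := Comp.comap_map_eq r₁ hr₁ 𝔫 hk₁
  have hcomap₂ : (𝔫.map r₂).comap r₂ = 𝔫 := Comp.comap_map_eq r₂ hr₂ 𝔫 hk₂
  by_cases hbot₁ : 𝔫.map r₁ = ⊥
  · left
    have hbot₂ : 𝔫.map r₂ = ⊥ := eq_bot_of_isMaximal_bot (hbot₁ ▸ hmax₁) _ hmax₂
    apply exists_smooth_of_singleton 𝔫 R π hπ𝔫
    intro x hx
    refine ⟨1, fun h1 => h𝔫.ne_top ((Ideal.eq_top_iff_one 𝔫).mpr h1), ?_⟩
    have hx1 : r₁ x = 0 := by
      have h1 : r₁ x ∈ 𝔫.map r₁ := Ideal.mem_map_of_mem r₁ hx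
      rwa [hbot₁, Ideal.mem_bot] at h1
    have hx2 : r₂ x = 0 := by
      have h1 : r₂ x ∈ 𝔫.map r₂ := Ideal.mem_map_of_mem r₂ hx
      rwa [hbot₂, Ideal.mem_bot] at h1
    have h2 : x ∈ Ideal.span {π} := by
      rw [hπ]
      exact Ideal.mem_inf.mpr ⟨hx1, hx2⟩
    rw [one_mul]
    exact Ideal.mem_span_singleton.mp h2
  · right
    have hbot₂ : 𝔫.map r₂ ≠ ⊥ := fun h2 =>
      hbot₁ (eq_bot_of_isMaximal_bot (h2 ▸ hmax₂) _ hmax₁)
    haveI : IsDiscreteValuationRing (Localization.AtPrime (𝔫.map r₁)) :=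
      IsLocalization.AtPrime.isDiscreteValuationRing_of_dedekind_domain E hbot₁ _
    haveI : IsDiscreteValuationRing (Localization.AtPrime (𝔫.map r₂)) :=
      IsLocalization.AtPrime.isDiscreteValuationRing_of_dedekind_domain E hbot₂ _
    obtain ⟨t₁, ht₁, ht₁2⟩ := exists_mem_notMem_sq (𝔫.map r₁) hbot₁
    obtain ⟨t₂, ht₂, ht₂2⟩ := exists_mem_notMem_sq (𝔫.map r₂) hbot₂
    obtain ⟨Y, hY2, hY1, hY1'⟩ :=
      exists_coord r₁ r₂ q hq hA hB 𝔫 hk₂ (𝔫.map r₁) le_rfl t₁ ht₁ ht₁2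
    obtain ⟨X, hX1, hX2, hX2'⟩ :=
      exists_coord r₂ r₁ q hq hB hA 𝔫 hk₁ (𝔫.map r₂) le_rfl t₂ ht₂ ht₂2
    have hirrX : Irreducible (algebraMap E (Localization.AtPrime (𝔫.map r₂)) (r₂ X)) :=
      Comp.irreducible_algebraMap_of_notMem_sq (𝔫.map r₂) _ hX2 hX2'
    have hirrY : Irreducible (algebraMap E (Localization.AtPrime (𝔫.map r₁)) (r₁ Y)) :=
      Comp.irreducible_algebraMap_of_notMem_sq (𝔫.map r₁) _ hY1 hY1'
    refine ⟨X, hk₁ hX1, Y, hk₂ hY2, ?_, ?_⟩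
    · have h2 : X * Y ∈ Ideal.span {π} := by
        rw [hπ]
        refine Ideal.mem_inf.mpr ⟨?_, ?_⟩
        · rw [RingHom.mem_ker, map_mul, hX1, zero_mul]
        · rw [RingHom.mem_ker, map_mul, hY2, mul_zero]
      exact Ideal.mem_span_singleton.mp h2
    · exact (Comp.node r₁ r₂ 𝔫 R (𝔫.map r₁) hcomap₁ (Localization.AtPrime (𝔫.map r₁))
        (𝔫.map r₂) hcomap₂ (Localization.AtPrime (𝔫.map r₂)) hr₁ hr₂ π hπ X Y hX1 hY2
        hirrX hirrY).2.2.1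

/-- **The local structure at a closed point of the special fibre**, for two surjections
`r₁ r₂ : B → E` onto a Dedekind domain. -/
theorem exists_coords_of_surjective (hr₁ : Function.Surjective r₁)
    (hr₂ : Function.Surjective r₂) (π : B) (hπ0 : π ≠ 0)
    (hπ : Ideal.span {π} = RingHom.ker r₁ ⊓ RingHom.ker r₂) (hπ𝔫 : π ∈ 𝔫)
    (q : ℕ) (hq : 2 ≤ q)
    (hA : ∀ e : E, ∃ b, r₁ b = e ∧ ∃ e', r₂ b = e' ^ q)
    (hB : ∀ e : E, ∃ b, r₂ b = e ∧ ∃ e', r₁ b = e' ^ q) :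
    (∃ u ∈ 𝔫, maximalIdeal R = Ideal.span {algebraMap B R π, algebraMap B R u}) ∨
    (∃ X ∈ 𝔫, ∃ Y ∈ 𝔫, π ∣ X * Y ∧
      maximalIdeal R = Ideal.span {algebraMap B R π, algebraMap B R X, algebraMap B R Y}) := by
  by_cases hk₁ : RingHom.ker r₁ ≤ 𝔫
  · by_cases hk₂ : RingHom.ker r₂ ≤ 𝔫
    · exact two_branch r₁ r₂ 𝔫 R hr₁ hr₂ π hπ hπ𝔫 q hq hA hB hk₁ hk₂
    · left
      obtain ⟨g, hg, hg𝔫⟩ := SetLike.not_le_iff_exists.mp hk₂
      exact one_branch r₁ r₂ 𝔫 R hr₁ π hπ0 hπ hπ𝔫 hk₁ g hg hg𝔫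
  · left
    have hk₂ : RingHom.ker r₂ ≤ 𝔫 :=
      (Comp.ker_le_or_ker_le r₁ r₂ π hπ 𝔫 hπ𝔫).resolve_left hk₁
    obtain ⟨g, hg, hg𝔫⟩ := SetLike.not_le_iff_exists.mp hk₁
    exact one_branch r₂ r₁ 𝔫 R hr₂ π hπ0 (by rw [hπ, inf_comm]) hπ𝔫 hk₂ g hg hg𝔫

end Main

/-! ### The statement with reduction maps into a common target -/

section Target

variable {B E K : Type*} [CommRing B] [IsDomain B] [CommRing E] [IsDedekindDomain E]
  [CommRing K]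

/-- **B2, abstract output.**  `r₁ r₂ : B → K` two reduction maps whose images are the image
of an injective `ε : E → K`, `E` a Dedekind domain; `(S1)`: `r₁ b = r₂ b = 0 → π ∣ b`; `hA`,
`hB`: the two Frobenius congruences in existential form.  Then at every maximal ideal
`𝔫 ∋ π` the maximal ideal of `B_𝔫` is `(π, u)` or `(π, X, Y)` with `π ∣ X Y`. -/
theorem exists_coords (r₁ r₂ : B →+* K) (ε : E →+* K) (hε : Function.Injective ε)
    (hr₁ : ∀ b, ∃ e, r₁ b = ε e) (hr₂ : ∀ b, ∃ e, r₂ b = ε e)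
    (π : B) (hπ0 : π ≠ 0) (hπ₁ : r₁ π = 0) (hπ₂ : r₂ π = 0)
    (hS1 : ∀ b, r₁ b = 0 → r₂ b = 0 → π ∣ b)
    (q : ℕ) (hq : 2 ≤ q)
    (hA : ∀ e : E, ∃ b, r₁ b = ε e ∧ ∃ e', r₂ b = ε e' ^ q)
    (hB : ∀ e : E, ∃ b, r₂ b = ε e ∧ ∃ e', r₁ b = ε e' ^ q)
    (𝔫 : Ideal B) [𝔫.IsMaximal] (hπ𝔫 : π ∈ 𝔫)
    (R : Type*) [CommRing R] [Algebra B R] [IsLocalization.AtPrime R 𝔫] [IsLocalRing R] :
    (∃ u ∈ 𝔫, maximalIdeal R = Ideal.span {algebraMap B R π, algebraMap B R u}) ∨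
    (∃ X ∈ 𝔫, ∃ Y ∈ 𝔫, π ∣ X * Y ∧
      maximalIdeal R = Ideal.span {algebraMap B R π, algebraMap B R X, algebraMap B R Y}) := by
  set s₁ := factor r₁ ε hε hr₁ with hs₁
  set s₂ := factor r₂ ε hε hr₂ with hs₂
  have hA' : ∀ e : E, ∃ b, s₁ b = e ∧ ∃ e', s₂ b = e' ^ q := by
    intro e
    obtain ⟨b, hb1, e', hb2⟩ := hA e
    refine ⟨b, (factor_eq_iff r₁ ε hε hr₁ b e).mpr hb1, e', ?_⟩
    rw [hs₂, factor_eq_iff, map_pow]
    exact hb2
  have hB' : ∀ e : E, ∃ b, s₂ b = e ∧ ∃ e', s₁ b = e' ^ q := by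
    intro e
    obtain ⟨b, hb2, e', hb1⟩ := hB e
    refine ⟨b, (factor_eq_iff r₂ ε hε hr₂ b e).mpr hb2, e', ?_⟩
    rw [hs₁, factor_eq_iff, map_pow]
    exact hb1
  have hsurj₁ : Function.Surjective s₁ := fun e => by
    obtain ⟨b, hb, _⟩ := hA' e
    exact ⟨b, hb⟩
  have hsurj₂ : Function.Surjective s₂ := fun e => by
    obtain ⟨b, hb, _⟩ := hB' e
    exact ⟨b, hb⟩
  have hπ : Ideal.span {π} = RingHom.ker s₁ ⊓ RingHom.ker s₂ := by
    apply le_antisymm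
    · rw [Ideal.span_le]
      intro x hx
      rw [Set.mem_singleton_iff.mp hx]
      exact Ideal.mem_inf.mpr ⟨(factor_eq_zero_iff r₁ ε hε hr₁ π).mpr hπ₁,
        (factor_eq_zero_iff r₂ ε hε hr₂ π).mpr hπ₂⟩
    · intro x hx
      obtain ⟨hx1, hx2⟩ := Ideal.mem_inf.mp hx
      exact Ideal.mem_span_singleton.mpr (hS1 x ((factor_eq_zero_iff r₁ ε hε hr₁ x).mp hx1)
        ((factor_eq_zero_iff r₂ ε hε hr₂ x).mp hx2))
  exact exists_coords_of_surjective s₁ s₂ 𝔫 R hsurj₁ hsurj₂ π hπ0 hπ hπ𝔫 q hq hA' hB'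

end Target

end Fermat.Agent.S34.CompPts
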