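import Mathlib
import Fermat.Agent.S34.CompPts
import Fermat.Agent.S34.BetaInt
import Fermat.Agent.S34.BaseLift

/-!
# S34, package B2: the closed points of the finite chart of level `M q`

`W` is a discrete valuation ring of a level `L` with algebraically closed residue field `κ` of
characteristic `q ∤ M`; `F = S24.FF L (M * q)` is the function field of `X₀(M q)` over `L`,
`w` an Atkin–Lehner automorphism of `F` (`w ∘ α = β`, `w ∘ β = α`).  The two reduction maps of
the finite chart ring `B` (any integral closure of `W[X]`, `X ↦ j`, in `F`) are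
`r₁ = red ∘ coe` and `r₂ = red ∘ coe ∘ w` with values in `κ((q))`; both have image
`red (B_M)`, the special fibre of the finite chart of level `M` (a Dedekind domain).

`finite_chart_point`: at every maximal ideal `𝔫 ∋ ϖ` of `B` the maximal ideal of `B_𝔫` is
`(ϖ, u)` or `(ϖ, X, Y)` with `ϖ ∣ X Y` — from the four raw inputs

* `hInt` : integral over `W[j]` at level `M q` implies Gauss-integral;
* `hF1` : the reduction of a Gauss-integral element of `F` lies in the residue function field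
  of level `M` (`f(v₁) = 1`);
* `hS1` : `(S1)`, an element of `B` with `r₁ = r₂ = 0` is divisible by `ϖ` in `B`;
* `hK` : the Kronecker congruence in existential form, `red (β y) = (red y') ^ q`.
-/

set_option autoImplicit false
set_option linter.unusedSectionVars false
set_option linter.style.haveILetI false

noncomputable section

namespace Fermat.Agent.S34.CompInst

open Polynomial ModularCurve Fermat.Agent.S18 Fermat.Agent.S18.Gauss Fermat.Agent.S37
  IsLocalRing

local notation "Qb" => AlgebraicClosure ℚ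

/-! ### Generalities on a chart ring -/

section Chart

variable {L : Type} [Field L] [Algebra ℚ L] (W : ValuationSubring L) (N : ℕ) [NeZero N]
  [Algebra (↥W)[X] (Fermat.Agent.S24.FF L N)]
  (halg : algebraMap (↥W)[X] (Fermat.Agent.S24.FF L N) = evF W N)
  (B : Type*) [CommRing B] [Algebra (↥W)[X] B] [Algebra B (Fermat.Agent.S24.FF L N)]
  [IsScalarTower (↥W)[X] B (Fermat.Agent.S24.FF L N)]
  [IsIntegralClosure B (↥W)[X] (Fermat.Agent.S24.FF L N)]

include halg in
theorem isIntegralElem_algebraMap (b : B) :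
    (evF W N).IsIntegralElem (algebraMap B (Fermat.Agent.S24.FF L N) b) := by
  have h : IsIntegral (↥W)[X] (algebraMap B (Fermat.Agent.S24.FF L N) b) :=
    IsIntegralClosure.isIntegral_iff (A := B) |>.mpr ⟨b, rfl⟩
  have h' : (algebraMap (↥W)[X] (Fermat.Agent.S24.FF L N)).IsIntegralElem
      (algebraMap B (Fermat.Agent.S24.FF L N) b) := h
  rwa [halg] at h'

include halg in
theorem exists_algebraMap_eq {x : Fermat.Agent.S24.FF L N}
    (hx : (evF W N).IsIntegralElem x) :
    ∃ b : B, algebraMap B (Fermat.Agent.S24.FF L N) b = x := by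
  have h' : (algebraMap (↥W)[X] (Fermat.Agent.S24.FF L N)).IsIntegralElem x := by
    rw [halg]; exact hx
  exact IsIntegralClosure.isIntegral_iff (A := B) |>.mp h'

/-- the reduction of a function integral over `W[j]` is integral along `X ↦ j̄` -/
theorem redJ_isIntegralElem {x : Fermat.Agent.S24.FF L N}
    (hx : (evF W N).IsIntegralElem x) (hxW : (x : LaurentSeries L) ∈ contentRing W) :
    (redJ W).IsIntegralElem (red W ⟨x, hxW⟩) := by
  obtain ⟨P, hP, hroot⟩ := hx
  refine ⟨P, hP, ?_⟩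
  have hroot' : P.eval₂ (evL W) (x : LaurentSeries L) = 0 := by
    rw [← coe_eval₂_evF, hroot]
    rfl
  have h1 : P.eval₂ (evC W) (⟨x, hxW⟩ : contentRing W) = 0 := by
    apply Subtype.ext
    have h2 := Polynomial.hom_eval₂ P (evC W) (contentRing W).subtype ⟨x, hxW⟩
    rw [ZeroMemClass.coe_zero]
    exact h2.trans hroot'
  show P.eval₂ ((red W).comp (evC W)) (red W ⟨x, hxW⟩) = 0
  rw [← Polynomial.hom_eval₂, h1, map_zero]

end Chart

/-! ### The Atkin–Lehner automorphism preserves the finite chart -/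

section Atkin

variable {L : Type} [Field L] [Algebra ℚ L] (W : ValuationSubring L) (M q : ℕ) [NeZero M]
  [NeZero q]

theorem alpha_jBC :
    heckeAlphaBar L M q (Fermat.Agent.S24.jBC L M) = Fermat.Agent.S24.jBC L (M * q) := by
  apply Subtype.ext
  rw [coe_heckeAlphaBar, coe_jBC_eq, coe_jBC_eq]

theorem isIntegralElem_atkin (hq : q.Prime)
    (w : Fermat.Agent.S24.FF L (M * q) ≃ₐ[L] Fermat.Agent.S24.FF L (M * q))
    (hwα : (w : Fermat.Agent.S24.FF L (M * q) →ₐ[L] Fermat.Agent.S24.FF L (M * q)).comp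
      (heckeAlphaBar L M q) = heckeBetaBar L M q)
    {x : Fermat.Agent.S24.FF L (M * q)} (hx : (evF W (M * q)).IsIntegralElem x) :
    (evF W (M * q)).IsIntegralElem (w x) := by
  have h := BetaInt.isIntegralElem_map_comp (evF W (M * q))
    (w : Fermat.Agent.S24.FF L (M * q) →ₐ[L] Fermat.Agent.S24.FF L (M * q)).toRingHom hx
  refine BetaInt.isIntegralElem_trans _ _ ?_ _ h
  intro p
  induction p using Polynomial.induction_on with
  | C a =>
    have e : ((w : Fermat.Agent.S24.FF L (M * q) →ₐ[L]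
        Fermat.Agent.S24.FF L (M * q)).toRingHom.comp (evF W (M * q))) (C a) =
        evF W (M * q) (C a) := by
      rw [RingHom.comp_apply, evF_C]
      exact AlgHom.commutes _ _
    rw [e]
    exact RingHom.isIntegralElem_map _
  | add p q hp hq =>
    rw [map_add]
    exact RingHom.IsIntegralElem.add _ hp hq
  | monomial n a ih =>
    rw [pow_succ, ← mul_assoc, map_mul]
    refine RingHom.IsIntegralElem.mul _ ih ?_
    rw [RingHom.comp_apply, evF_X, ← alpha_jBC]
    have h1 : (w : Fermat.Agent.S24.FF L (M * q) →ₐ[L]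
        Fermat.Agent.S24.FF L (M * q)).toRingHom
        (heckeAlphaBar L M q (Fermat.Agent.S24.jBC L M)) =
        heckeBetaBar L M q (Fermat.Agent.S24.jBC L M) := by
      have h2 := congrArg (fun f => f (Fermat.Agent.S24.jBC L M)) hwα
      exact h2
    rw [h1]
    exact BetaInt.isIntegralElem_beta_j W M q hq

end Atkin

/-! ### The closed points of the finite chart of level `M q` -/

section Main

variable (M q : ℕ) [NeZero M] [NeZero q] {L : Type} [Field L] [Algebra ℚ L] (ι : L →+* Qb)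
  (W : ValuationSubring L) [IsDiscreteValuationRing ↥W]
  [IsAlgClosed (IsLocalRing.ResidueField ↥W)] [CharP (IsLocalRing.ResidueField ↥W) q]

/-- **B2 on the finite chart of level `M q`**, with an arbitrary carrier `BM` of the finite
chart of level `M`. -/
theorem finite_chart_point_aux (hq : q.Prime) (hqM : ¬ q ∣ M)
    (hroots : ∀ x : Qb, (∃ n : ℕ, ¬ q ∣ n ∧ x ^ n = 1) → ∃ b : L, ι b = x)
    (π : ↥W) (hπ : Irreducible π)
    (w : Fermat.Agent.S24.FF L (M * q) ≃ₐ[L] Fermat.Agent.S24.FF L (M * q))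
    (hwα : (w : Fermat.Agent.S24.FF L (M * q) →ₐ[L] Fermat.Agent.S24.FF L (M * q)).comp
      (heckeAlphaBar L M q) = heckeBetaBar L M q)
    (hwβ : (w : Fermat.Agent.S24.FF L (M * q) →ₐ[L] Fermat.Agent.S24.FF L (M * q)).comp
      (heckeBetaBar L M q) = heckeAlphaBar L M q)
    (hInt : ∀ x : Fermat.Agent.S24.FF L (M * q), (evF W (M * q)).IsIntegralElem x →
      (x : LaurentSeries L) ∈ contentRing W)
    (hF1 : ∀ (x : Fermat.Agent.S24.FF L (M * q)) (hx : (x : LaurentSeries L) ∈ contentRing W),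
      red W ⟨x, hx⟩ ∈ modularFunctionFieldFullC (IsLocalRing.ResidueField ↥W) M)
    (hS1 : ∀ x : Fermat.Agent.S24.FF L (M * q), (evF W (M * q)).IsIntegralElem x →
      ∀ (h1 : (x : LaurentSeries L) ∈ contentRing W)
        (h2 : ((w x : Fermat.Agent.S24.FF L (M * q)) : LaurentSeries L) ∈ contentRing W),
        red W ⟨_, h1⟩ = 0 → red W ⟨_, h2⟩ = 0 →
        ∃ y, (evF W (M * q)).IsIntegralElem y ∧
          x = algebraMap L (Fermat.Agent.S24.FF L (M * q)) ((π : W) : L) * y)
    (hK : ∀ y : Fermat.Agent.S24.FF L M, (evF W M).IsIntegralElem y →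
      ∃ y' : Fermat.Agent.S24.FF L M, (evF W M).IsIntegralElem y' ∧
        ∃ (h1 : ((heckeBetaBar L M q y : Fermat.Agent.S24.FF L (M * q)) : LaurentSeries L) ∈
            contentRing W) (h2 : (y' : LaurentSeries L) ∈ contentRing W),
          red W ⟨_, h1⟩ = red W ⟨_, h2⟩ ^ q)
    [Algebra (↥W)[X] (Fermat.Agent.S24.FF L M)]
    (halgM : algebraMap (↥W)[X] (Fermat.Agent.S24.FF L M) = evF W M)
    (BM : Type) [CommRing BM] [Algebra (↥W)[X] BM] [Algebra BM (Fermat.Agent.S24.FF L M)]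
    [IsScalarTower (↥W)[X] BM (Fermat.Agent.S24.FF L M)]
    [IsIntegralClosure BM (↥W)[X] (Fermat.Agent.S24.FF L M)]
    [Algebra (↥W)[X] (Fermat.Agent.S24.FF L (M * q))]
    (halg : algebraMap (↥W)[X] (Fermat.Agent.S24.FF L (M * q)) = evF W (M * q))
    (B : Type*) [CommRing B] [Algebra (↥W)[X] B] [Algebra B (Fermat.Agent.S24.FF L (M * q))]
    [IsScalarTower (↥W)[X] B (Fermat.Agent.S24.FF L (M * q))]
    [IsIntegralClosure B (↥W)[X] (Fermat.Agent.S24.FF L (M * q))]
    (𝔫 : Ideal B) [𝔫.IsMaximal] (hπ𝔫 : algebraMap (↥W)[X] B (C π) ∈ 𝔫)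
    (R : Type*) [CommRing R] [Algebra B R] [IsLocalization.AtPrime R 𝔫] [IsLocalRing R] :
    (∃ u ∈ 𝔫, maximalIdeal R =
        Ideal.span {algebraMap B R (algebraMap (↥W)[X] B (C π)), algebraMap B R u}) ∨
    (∃ X ∈ 𝔫, ∃ Y ∈ 𝔫, algebraMap (↥W)[X] B (C π) ∣ X * Y ∧ maximalIdeal R =
        Ideal.span {algebraMap B R (algebraMap (↥W)[X] B (C π)), algebraMap B R X,
          algebraMap B R Y}) := by
  classical
  haveI : Fact q.Prime := ⟨hq⟩
  -- abbreviations
  have hBinj : Function.Injective (algebraMap B (Fermat.Agent.S24.FF L (M * q))) :=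
    IsIntegralClosure.algebraMap_injective B (↥W)[X] (Fermat.Agent.S24.FF L (M * q))
  haveI : IsDomain B := hBinj.isDomain _
  have hBint := isIntegralElem_algebraMap W (M * q) halg B
  have hBMint := isIntegralElem_algebraMap W M halgM BM
  have hwInt : ∀ x : Fermat.Agent.S24.FF L (M * q), (evF W (M * q)).IsIntegralElem x →
      (evF W (M * q)).IsIntegralElem (w x) := fun x hx =>
    isIntegralElem_atkin W M q hq w hwα hx
  have hwα' : ∀ y, w (heckeAlphaBar L M q y) = heckeBetaBar L M q y := fun y =>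
    congrArg (fun f => f y) hwα
  have hwβ' : ∀ y, w (heckeBetaBar L M q y) = heckeAlphaBar L M q y := fun y =>
    congrArg (fun f => f y) hwβ
  -- the two reduction maps of `B`
  have hmem₁ : ∀ b : B, ((algebraMap (Fermat.Agent.S24.FF L (M * q)) (LaurentSeries L)).comp
      (algebraMap B (Fermat.Agent.S24.FF L (M * q)))) b ∈ contentRing W := fun b =>
    hInt _ (hBint b)
  have hmem₂ : ∀ b : B, ((algebraMap (Fermat.Agent.S24.FF L (M * q)) (LaurentSeries L)).comp
      ((w : Fermat.Agent.S24.FF L (M * q) →ₐ[L] Fermat.Agent.S24.FF L (M * q)).toRingHom.comp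
      (algebraMap B (Fermat.Agent.S24.FF L (M * q))))) b ∈ contentRing W := fun b =>
    hInt _ (hwInt _ (hBint b))
  let r₁ : B →+* LaurentSeries (IsLocalRing.ResidueField ↥W) :=
    (red W).comp (((algebraMap (Fermat.Agent.S24.FF L (M * q)) (LaurentSeries L)).comp
      (algebraMap B (Fermat.Agent.S24.FF L (M * q)))).codRestrict (contentRing W) hmem₁)
  let r₂ : B →+* LaurentSeries (IsLocalRing.ResidueField ↥W) :=
    (red W).comp (((algebraMap (Fermat.Agent.S24.FF L (M * q)) (LaurentSeries L)).comp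
      ((w : Fermat.Agent.S24.FF L (M * q) →ₐ[L] Fermat.Agent.S24.FF L (M * q)).toRingHom.comp
      (algebraMap B (Fermat.Agent.S24.FF L (M * q))))).codRestrict (contentRing W) hmem₂)
  have hr₁def : ∀ (b : B) (h : ((algebraMap B (Fermat.Agent.S24.FF L (M * q)) b :
      Fermat.Agent.S24.FF L (M * q)) : LaurentSeries L) ∈ contentRing W),
      r₁ b = red W ⟨_, h⟩ := fun b h => rfl
  have hr₂def : ∀ (b : B) (h : ((w (algebraMap B (Fermat.Agent.S24.FF L (M * q)) b) :
      Fermat.Agent.S24.FF L (M * q)) : LaurentSeries L) ∈ contentRing W),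
      r₂ b = red W ⟨_, h⟩ := fun b h => rfl
  -- the special fibre of the finite chart of level `M`
  haveI : IsDedekindDomain (BM ⧸ Ideal.span {algebraMap (↥W)[X] BM (C π)}) :=
    ChartInstSplit.finite_chart_dedekind M hq hqM ι W hroots π hπ halgM BM
  have hmemM : ∀ c : BM, ((algebraMap BM (Fermat.Agent.S24.FF L M) c :
      Fermat.Agent.S24.FF L M) : LaurentSeries L) ∈ contentRing W := fun c =>
    GaussRed.mem_contentRing_fin W M q BM hqM halgM c
  let ρM : BM →+* LaurentSeries (IsLocalRing.ResidueField ↥W) :=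
    (red W).comp (((algebraMap (Fermat.Agent.S24.FF L M) (LaurentSeries L)).comp
      (algebraMap BM (Fermat.Agent.S24.FF L M))).codRestrict (contentRing W) hmemM)
  have hρM : ∀ (c : BM) (h : ((algebraMap BM (Fermat.Agent.S24.FF L M) c :
      Fermat.Agent.S24.FF L M) : LaurentSeries L) ∈ contentRing W),
      ρM c = red W ⟨_, h⟩ := fun c h => rfl
  have hρπ : ∀ c : BM, ρM c = 0 ↔ algebraMap (↥W)[X] BM (C π) ∣ c :=
    fun c => (GaussRed.dvd_iff_red_fin W M q BM hqM hπ halgM c).symm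
  let ε : (BM ⧸ Ideal.span {algebraMap (↥W)[X] BM (C π)}) →+*
      LaurentSeries (IsLocalRing.ResidueField ↥W) :=
    Ideal.Quotient.lift _ ρM (fun c hc => (hρπ c).mpr (Ideal.mem_span_singleton.mp hc))
  have hε : Function.Injective ε := by
    rw [injective_iff_map_eq_zero]
    intro c hc
    obtain ⟨c, rfl⟩ := Ideal.Quotient.mk_surjective c
    rw [Ideal.Quotient.lift_mk] at hc
    exact Ideal.Quotient.eq_zero_iff_mem.mpr (Ideal.mem_span_singleton.mpr ((hρπ c).mp hc))
  have hεmk : ∀ (c : BM) (h : ((algebraMap BM (Fermat.Agent.S24.FF L M) c :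
      Fermat.Agent.S24.FF L M) : LaurentSeries L) ∈ contentRing W),
      ε (Ideal.Quotient.mk _ c) = red W ⟨_, h⟩ := fun c h => rfl
  -- every reduction of an integral element of level `M q` comes from level `M`
  have hlift : ∀ (x : Fermat.Agent.S24.FF L (M * q)) (hx : (evF W (M * q)).IsIntegralElem x)
      (h : (x : LaurentSeries L) ∈ contentRing W),
      ∃ e, red W ⟨_, h⟩ = ε e := by
    intro x hx h
    have hint := redJ_isIntegralElem W (M * q) hx h
    obtain ⟨x', hx'I, hx'W, hx'⟩ :=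
      BaseLift.exists_int_of_mem_fullC M ι W hq hqM hroots (hF1 x h) hint
    obtain ⟨c, rfl⟩ := exists_algebraMap_eq W M halgM BM hx'I
    exact ⟨Ideal.Quotient.mk _ c, by rw [hεmk c hx'W, hx']⟩
  have red_congr : ∀ (f g : LaurentSeries L) (hf : f ∈ contentRing W) (hg : g ∈ contentRing W),
      f = g → red W ⟨f, hf⟩ = red W ⟨g, hg⟩ := by
    intro f g hf hg h
    subst h
    rfl
  -- the hypotheses of `CompPts.exists_coords`
  have hr₁ : ∀ b, ∃ e, r₁ b = ε e := fun b => hlift _ (hBint b) (hmem₁ b)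
  have hr₂ : ∀ b, ∃ e, r₂ b = ε e := fun b => hlift _ (hwInt _ (hBint b)) (hmem₂ b)
  have hπF : algebraMap B (Fermat.Agent.S24.FF L (M * q)) (algebraMap (↥W)[X] B (C π)) =
      algebraMap L (Fermat.Agent.S24.FF L (M * q)) ((π : W) : L) := by
    rw [← IsScalarTower.algebraMap_apply, halg, evF_C]
  have hπ0 : algebraMap (↥W)[X] B (C π) ≠ 0 := by
    intro h0
    have h1 : algebraMap B (Fermat.Agent.S24.FF L (M * q)) (algebraMap (↥W)[X] B (C π)) = 0 := by
      rw [h0, map_zero]
    rw [hπF] at h1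
    exact GaussPrime.unif_ne_zero (N := M * q) hπ h1
  have hπ₁ : r₁ (algebraMap (↥W)[X] B (C π)) = 0 := by
    rw [hr₁def _ (hmem₁ _), ← red_C_unif W hπ]
    apply red_congr
    rw [hπF]
    exact GaussPrime.coe_unif π
  have hπ₂ : r₂ (algebraMap (↥W)[X] B (C π)) = 0 := by
    rw [hr₂def _ (hmem₂ _), ← red_C_unif W hπ]
    apply red_congr
    rw [hπF, AlgEquiv.commutes]
    exact GaussPrime.coe_unif π
  have hS1' : ∀ b, r₁ b = 0 → r₂ b = 0 → algebraMap (↥W)[X] B (C π) ∣ b := by
    intro b h1 h2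
    obtain ⟨y, hyI, hy⟩ := hS1 (algebraMap B (Fermat.Agent.S24.FF L (M * q)) b) (hBint b)
      (hmem₁ b) (hmem₂ b) h1 h2
    obtain ⟨c, rfl⟩ := exists_algebraMap_eq W (M * q) halg B hyI
    refine ⟨c, hBinj ?_⟩
    rw [map_mul, hπF, hy]
  have hA : ∀ e, ∃ b, r₁ b = ε e ∧ ∃ e', r₂ b = ε e' ^ q := by
    intro e
    obtain ⟨c, rfl⟩ := Ideal.Quotient.mk_surjective e
    have hyI : (evF W M).IsIntegralElem (algebraMap BM (Fermat.Agent.S24.FF L M) c) := hBMint c
    obtain ⟨b, hb⟩ := exists_algebraMap_eq W (M * q) halg B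
      (BetaInt.isIntegralElem_alpha W M q hyI)
    obtain ⟨y', hy'I, h1, h2, hKy⟩ := hK _ hyI
    obtain ⟨c', hc'⟩ := exists_algebraMap_eq W M halgM BM hy'I
    refine ⟨b, ?_, Ideal.Quotient.mk _ c', ?_⟩
    · rw [hr₁def b (hmem₁ b), hεmk c (hmemM c)]
      apply red_congr
      rw [hb, coe_heckeAlphaBar]
    · rw [hr₂def b (hmem₂ b), hεmk c' (hmemM c'), red_congr _ _ (hmemM c') h2 (by rw [hc']),
        ← hKy]
      apply red_congr
      rw [hb, hwα']
  have hB' : ∀ e, ∃ b, r₂ b = ε e ∧ ∃ e', r₁ b = ε e' ^ q := by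
    intro e
    obtain ⟨c, rfl⟩ := Ideal.Quotient.mk_surjective e
    have hyI : (evF W M).IsIntegralElem (algebraMap BM (Fermat.Agent.S24.FF L M) c) := hBMint c
    obtain ⟨b, hb⟩ := exists_algebraMap_eq W (M * q) halg B
      (BetaInt.isIntegralElem_beta W M q hq hyI)
    obtain ⟨y', hy'I, h1, h2, hKy⟩ := hK _ hyI
    obtain ⟨c', hc'⟩ := exists_algebraMap_eq W M halgM BM hy'I
    refine ⟨b, ?_, Ideal.Quotient.mk _ c', ?_⟩
    · rw [hr₂def b (hmem₂ b), hεmk c (hmemM c)]
      apply red_congr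
      rw [hb, hwβ', coe_heckeAlphaBar]
    · rw [hr₁def b (hmem₁ b), hεmk c' (hmemM c'), red_congr _ _ (hmemM c') h2 (by rw [hc']),
        ← hKy]
      apply red_congr
      rw [hb]
  exact CompPts.exists_coords r₁ r₂ ε hε hr₁ hr₂ (algebraMap (↥W)[X] B (C π)) hπ0 hπ₁ hπ₂ hS1'
    q hq.two_le hA hB' 𝔫 hπ𝔫 R

/-- **B2 on the finite chart of level `M q`.**  At every maximal ideal `𝔫 ∋ ϖ` of the chart
ring `B`, the maximal ideal of `B_𝔫` is `(ϖ, u)` (smooth point) or `(ϖ, X, Y)` with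
`ϖ ∣ X Y` (node), `u, X, Y ∈ B`. -/
theorem finite_chart_point (hq : q.Prime) (hqM : ¬ q ∣ M)
    (hroots : ∀ x : Qb, (∃ n : ℕ, ¬ q ∣ n ∧ x ^ n = 1) → ∃ b : L, ι b = x)
    (π : ↥W) (hπ : Irreducible π)
    (w : Fermat.Agent.S24.FF L (M * q) ≃ₐ[L] Fermat.Agent.S24.FF L (M * q))
    (hwα : (w : Fermat.Agent.S24.FF L (M * q) →ₐ[L] Fermat.Agent.S24.FF L (M * q)).comp
      (heckeAlphaBar L M q) = heckeBetaBar L M q)
    (hwβ : (w : Fermat.Agent.S24.FF L (M * q) →ₐ[L] Fermat.Agent.S24.FF L (M * q)).comp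
      (heckeBetaBar L M q) = heckeAlphaBar L M q)
    (hInt : ∀ x : Fermat.Agent.S24.FF L (M * q), (evF W (M * q)).IsIntegralElem x →
      (x : LaurentSeries L) ∈ contentRing W)
    (hF1 : ∀ (x : Fermat.Agent.S24.FF L (M * q)) (hx : (x : LaurentSeries L) ∈ contentRing W),
      red W ⟨x, hx⟩ ∈ modularFunctionFieldFullC (IsLocalRing.ResidueField ↥W) M)
    (hS1 : ∀ x : Fermat.Agent.S24.FF L (M * q), (evF W (M * q)).IsIntegralElem x →
      ∀ (h1 : (x : LaurentSeries L) ∈ contentRing W)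
        (h2 : ((w x : Fermat.Agent.S24.FF L (M * q)) : LaurentSeries L) ∈ contentRing W),
        red W ⟨_, h1⟩ = 0 → red W ⟨_, h2⟩ = 0 →
        ∃ y, (evF W (M * q)).IsIntegralElem y ∧
          x = algebraMap L (Fermat.Agent.S24.FF L (M * q)) ((π : W) : L) * y)
    (hK : ∀ y : Fermat.Agent.S24.FF L M, (evF W M).IsIntegralElem y →
      ∃ y' : Fermat.Agent.S24.FF L M, (evF W M).IsIntegralElem y' ∧
        ∃ (h1 : ((heckeBetaBar L M q y : Fermat.Agent.S24.FF L (M * q)) : LaurentSeries L) ∈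
            contentRing W) (h2 : (y' : LaurentSeries L) ∈ contentRing W),
          red W ⟨_, h1⟩ = red W ⟨_, h2⟩ ^ q)
    [Algebra (↥W)[X] (Fermat.Agent.S24.FF L (M * q))]
    (halg : algebraMap (↥W)[X] (Fermat.Agent.S24.FF L (M * q)) = evF W (M * q))
    (B : Type*) [CommRing B] [Algebra (↥W)[X] B] [Algebra B (Fermat.Agent.S24.FF L (M * q))]
    [IsScalarTower (↥W)[X] B (Fermat.Agent.S24.FF L (M * q))]
    [IsIntegralClosure B (↥W)[X] (Fermat.Agent.S24.FF L (M * q))]
    (𝔫 : Ideal B) [𝔫.IsMaximal] (hπ𝔫 : algebraMap (↥W)[X] B (C π) ∈ 𝔫)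
    (R : Type*) [CommRing R] [Algebra B R] [IsLocalization.AtPrime R 𝔫] [IsLocalRing R] :
    (∃ u ∈ 𝔫, maximalIdeal R =
        Ideal.span {algebraMap B R (algebraMap (↥W)[X] B (C π)), algebraMap B R u}) ∨
    (∃ X ∈ 𝔫, ∃ Y ∈ 𝔫, algebraMap (↥W)[X] B (C π) ∣ X * Y ∧ maximalIdeal R =
        Ideal.span {algebraMap B R (algebraMap (↥W)[X] B (C π)), algebraMap B R X,
          algebraMap B R Y}) := by
  letI algM : Algebra (↥W)[X] (Fermat.Agent.S24.FF L M) := (evF W M).toAlgebra
  have halgM : algebraMap (↥W)[X] (Fermat.Agent.S24.FF L M) = evF W M := rfl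
  exact finite_chart_point_aux M q ι W hq hqM hroots π hπ w hwα hwβ hInt hF1 hS1 hK halgM
    (integralClosure (↥W)[X] (Fermat.Agent.S24.FF L M)) halg B 𝔫 hπ𝔫 R

end Main

end Fermat.Agent.S34.CompInst
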