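/-
S34 (wave 6), B2 finite chart: the instance of (S1) in raw S18 currency, at ANY level `N`
(the residue characteristic may divide `N`).

Level currency: `L` a field with `[Algebra ℚ L]`, `W : ValuationSubring L` a discrete valuation
ring with uniformiser `ϖ`, `F = FF L N`, chart map `ev : W[X] →+* F` (`evF W N`: `X ↦ j`, or
`evFinf W N`: `X ↦ 1/j`), `w : F →+* F` fixing `ϖ` (an Atkin–Lehner automorphism).

* `coe_mem_contentRing_of_isIntegralElem` / `_inf` : (H_int) integral over the chart ⇒ integral
  `q`-expansion, at every level;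
* `isIntegralElem_of_unif_mul` : chart saturation from a Gauss multiplier (`S(j) x` integral with
  `S̄ ≠ 0` and `ϖ x` integral ⇒ `x` integral);
* `s1_core` : **(S1)**, generic chart: `x` integral over the chart with `red x = 0` and
  `red (w x) = 0` is `ϖ y` with `y` integral over the chart, given (V3a) ("integral `q`-expansion
  of `x` and `w x` ⇒ Gauss-integral") as a hypothesis;
* `isIntegralElem_atkinLehner` : an Atkin–Lehner automorphism of `FF L (M * q)` preserves
  integrality over the finite chart `W[j]`;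
* `s1_fin`, `s1_fin'` : (S1) on the finite chart of level `M * q` (in `s1_fin'` all
  memberships are derived);
* `red_unif_mul` : the converse, multiples of `ϖ` reduce to zero.
-/
import Mathlib
import Fermat.Agent.S37.GaussPrime
import Fermat.Agent.S34.DDGauss
import Fermat.Agent.S34.BetaInt

set_option autoImplicit false
set_option linter.unusedSectionVars false
set_option linter.style.haveILetI false

noncomputable section

namespace Fermat.Agent.S34.CompS1

open Polynomial ModularCurve Fermat.Agent.S18 Fermat.Agent.S18.Gauss Fermat.Agent.S24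

variable {L : Type*} [Field L] [Algebra ℚ L] (W : ValuationSubring L)
  [IsDiscreteValuationRing W]

/-! ### (H_int): integral over a chart ⇒ integral `q`-expansion, any level -/

/-- **(H_int), finite chart, any level.** -/
theorem coe_mem_contentRing_of_isIntegralElem (N : ℕ) [NeZero N] (x : FF L N)
    (h : (evF W N).IsIntegralElem x) : (x : LaurentSeries L) ∈ contentRing W := by
  obtain ⟨Q, hQ, hroot⟩ := h
  refine mem_contentRing_of_monic_root W (DDGauss.coe_mem_fracInt W N x) (Q.map (evC W))
    (hQ.map _) ?_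
  rw [Polynomial.eval₂_map, subtype_comp_evC, ← coe_eval₂_evF, hroot]
  rfl

/-- **(H_int), chart at infinity, any level.** -/
theorem coe_mem_contentRing_of_isIntegralElem_inf (N : ℕ) [NeZero N] (x : FF L N)
    (h : (evFinf W N).IsIntegralElem x) : (x : LaurentSeries L) ∈ contentRing W := by
  obtain ⟨Q, hQ, hroot⟩ := h
  refine mem_contentRing_of_monic_root W (DDGauss.coe_mem_fracInt W N x)
    (Q.map (gC W (jInv_mem_contentRing W))) (hQ.map _) ?_
  rw [Polynomial.eval₂_map, subtype_comp_gC]
  have h1 := coe_eval₂_evGF W N (jInv_mem_adjoin (L := L)) Q x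
  have h2 : ((Q.eval₂ (evFinf W N) x : FF L N) : LaurentSeries L) = 0 := by
    rw [hroot]; rfl
  exact h1.symm.trans h2

/-! ### Saturation from a Gauss multiplier -/

section Generic

variable {W} {N : ℕ} [NeZero N] {ϖ : W} {ev : (↥W)[X] →+* FF L N}

/-- `ϖ x` integral over the chart and `S(j) x` integral over the chart for some `S` with
`S̄ ≠ 0` imply `x` integral over the chart. -/
theorem isIntegralElem_of_unif_mul (hϖ : Irreducible ϖ)
    (hC : ∀ a : W, ev (C a) = algebraMap L (FF L N) ((a : W) : L))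
    (hinj : Function.Injective ev) (x : FF L N) (S : (↥W)[X])
    (hS : S.map (IsLocalRing.residue W) ≠ 0) (hSx : ev.IsIntegralElem (ev S * x))
    (h : ev.IsIntegralElem (algebraMap L (FF L N) ((ϖ : W) : L) * x)) :
    ev.IsIntegralElem x := by
  have hSϖ : ¬ C ϖ ∣ S := fun hd => hS ((map_residue_eq_zero_iff_C_dvd W hϖ S).mpr hd)
  letI : Algebra (↥W)[X] (FF L N) := ev.toAlgebra
  haveI : FaithfulSMul (↥W)[X] (FF L N) :=
    (faithfulSMul_iff_algebraMap_injective _ _).mpr hinj
  letI := FractionRing.liftAlgebra (↥W)[X] (FF L N)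
  haveI := FractionRing.isScalarTower_liftAlgebra (↥W)[X] (FF L N)
  have hCϖ : Prime (C ϖ : (↥W)[X]) := prime_C_iff.mpr hϖ.prime
  have h1 : IsIntegral (↥W)[X] ((C ϖ : (↥W)[X]) • x) := by
    rw [Algebra.smul_def]
    change ev.IsIntegralElem (ev (C ϖ) * x)
    rw [hC]
    exact h
  have h2 : IsIntegral (↥W)[X] (S • x) := by
    rw [Algebra.smul_def]
    exact hSx
  exact EtaleGauss.isIntegral_of_smul_isIntegral (FractionRing (↥W)[X]) (C ϖ) S hCϖ hSϖ x h1 h2

/-- **(S1), generic chart.**  Given (V3a) for the pair (`q`-expansion, `q`-expansion after `w`),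
an element integral over the chart whose reductions at both Gauss valuations vanish is `ϖ`
times an element integral over the chart. -/
theorem s1_core (hϖ : Irreducible ϖ)
    (hC : ∀ a : W, ev (C a) = algebraMap L (FF L N) ((a : W) : L))
    (hinj : Function.Injective ev) (w : FF L N →+* FF L N)
    (hw : w (algebraMap L (FF L N) ((ϖ : W) : L)) = algebraMap L (FF L N) ((ϖ : W) : L))
    (hV3a : ∀ z : FF L N, (z : LaurentSeries L) ∈ contentRing W →
      (w z : LaurentSeries L) ∈ contentRing W →
      ∃ S : (↥W)[X], S.map (IsLocalRing.residue W) ≠ 0 ∧ ev.IsIntegralElem (ev S * z))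
    (x : FF L N) (hx : ev.IsIntegralElem x)
    (hx₁ : (x : LaurentSeries L) ∈ contentRing W) (h₁ : red W ⟨x, hx₁⟩ = 0)
    (hx₂ : (w x : LaurentSeries L) ∈ contentRing W) (h₂ : red W ⟨w x, hx₂⟩ = 0) :
    ∃ y : FF L N, ev.IsIntegralElem y ∧ (y : LaurentSeries L) ∈ contentRing W ∧
      (w y : LaurentSeries L) ∈ contentRing W ∧
      x = algebraMap L (FF L N) ((ϖ : W) : L) * y := by
  obtain ⟨y, hy, e⟩ := Fermat.Agent.S37.GaussPrime.exists_eq_unif_mul_of_red hϖ x hx₁ h₁
  obtain ⟨y', hy', e'⟩ := Fermat.Agent.S37.GaussPrime.exists_eq_unif_mul_of_red hϖ (w x) hx₂ h₂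
  have h0 := Fermat.Agent.S37.GaussPrime.unif_ne_zero (N := N) hϖ
  have hwy : w y = y' := by
    have h3 : algebraMap L (FF L N) ((ϖ : W) : L) * w y
        = algebraMap L (FF L N) ((ϖ : W) : L) * y' := by
      rw [← e', e, map_mul, hw]
    exact mul_left_cancel₀ h0 h3
  have hwy' : (w y : LaurentSeries L) ∈ contentRing W := by rw [hwy]; exact hy'
  obtain ⟨S, hS, hSy⟩ := hV3a y hy hwy'
  exact ⟨y, isIntegralElem_of_unif_mul hϖ hC hinj y S hS hSy (e ▸ hx), hy, hwy', e⟩

/-- Converse of (S1): multiples of `ϖ` reduce to zero. -/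
theorem red_unif_mul (hϖ : Irreducible ϖ) (y : FF L N)
    (hy : (y : LaurentSeries L) ∈ contentRing W)
    (h : ((algebraMap L (FF L N) ((ϖ : W) : L) * y : FF L N) : LaurentSeries L) ∈
      contentRing W) :
    red W ⟨_, h⟩ = 0 := by
  have hprod : (⟨_, h⟩ : contentRing W) =
      ⟨HahnSeries.C ((ϖ : W) : L), C_mem_contentRing W ϖ⟩ * ⟨y, hy⟩ := by
    apply Subtype.ext
    show ((algebraMap L (FF L N) ((ϖ : W) : L) : FF L N) : LaurentSeries L) *
      (y : LaurentSeries L) = HahnSeries.C ((ϖ : W) : L) * (y : LaurentSeries L)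
    rw [Fermat.Agent.S37.GaussPrime.coe_unif (N := N) ϖ]
  rw [hprod, map_mul, red_C_unif W hϖ, zero_mul]

end Generic

/-! ### The finite chart of level `M * q` -/

section Level

variable (M q : ℕ) [NeZero M] [NeZero q]

/-- **An Atkin–Lehner automorphism preserves integrality over the finite chart `W[j]`.** -/
theorem isIntegralElem_atkinLehner (hq : q.Prime) (w : FF L (M * q) ≃ₐ[L] FF L (M * q))
    (hα : (w : FF L (M * q) →ₐ[L] FF L (M * q)).comp (heckeAlphaBar L M q) = heckeBetaBar L M q)
    {x : FF L (M * q)} (hx : (evF W (M * q)).IsIntegralElem x) :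
    (evF W (M * q)).IsIntegralElem (w x) := by
  have h := BetaInt.isIntegralElem_map_comp (evF W (M * q))
    ((w : FF L (M * q) →ₐ[L] FF L (M * q)) : FF L (M * q) →+* FF L (M * q)) hx
  refine BetaInt.isIntegralElem_trans _ _ ?_ _ h
  intro p
  induction p using Polynomial.induction_on with
  | C a =>
    have e : (((w : FF L (M * q) →ₐ[L] FF L (M * q)) : FF L (M * q) →+* FF L (M * q)).comp
        (evF W (M * q))) (C a) = evF W (M * q) (C a) := by
      rw [RingHom.comp_apply, evF_C]
      exact w.commutes _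
    rw [e]
    exact RingHom.isIntegralElem_map _
  | add p r hp hr =>
    rw [map_add]
    exact RingHom.IsIntegralElem.add _ hp hr
  | monomial n a ih =>
    rw [pow_succ, ← mul_assoc, map_mul]
    refine RingHom.IsIntegralElem.mul _ ih ?_
    rw [RingHom.comp_apply, evF_X]
    have hj : heckeAlphaBar L M q (jBC L M) = jBC L (M * q) := by
      apply Subtype.ext
      rw [coe_heckeAlphaBar, coe_jBC_eq, coe_jBC_eq]
    have hwj : w (jBC L (M * q)) = heckeBetaBar L M q (jBC L M) := by
      rw [← hj, ← hα]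
      rfl
    show (evF W (M * q)).IsIntegralElem (w (jBC L (M * q)))
    rw [hwj]
    exact BetaInt.isIntegralElem_beta_j W M q hq

variable {W} {ϖ : W}

/-- **(S1) on the finite chart of level `M * q`**, raw currency, all memberships derived: an
element `x` integral over `W[j]` with `red x = 0` and `red (w x) = 0` is `ϖ y` with `y` integral
over `W[j]`.  (V3a) is a hypothesis. -/
theorem s1_fin (hϖ : Irreducible ϖ) (w : FF L (M * q) ≃ₐ[L] FF L (M * q))
    (hV3a : ∀ z : FF L (M * q), (z : LaurentSeries L) ∈ contentRing W →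
      (w z : LaurentSeries L) ∈ contentRing W →
      ∃ S : (↥W)[X], S.map (IsLocalRing.residue W) ≠ 0 ∧
        (evF W (M * q)).IsIntegralElem (evF W (M * q) S * z))
    (x : FF L (M * q)) (hx : (evF W (M * q)).IsIntegralElem x)
    (hx₁ : (x : LaurentSeries L) ∈ contentRing W) (h₁ : red W ⟨x, hx₁⟩ = 0)
    (hx₂ : (w x : LaurentSeries L) ∈ contentRing W) (h₂ : red W ⟨w x, hx₂⟩ = 0) :
    ∃ y : FF L (M * q), (evF W (M * q)).IsIntegralElem y ∧
      x = algebraMap L (FF L (M * q)) ((ϖ : W) : L) * y := by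
  obtain ⟨y, hy, -, -, e⟩ := s1_core (ev := evF W (M * q)) hϖ (evF_C W (M * q))
    (evF_injective W (M * q))
    ((w : FF L (M * q) →ₐ[L] FF L (M * q)) : FF L (M * q) →+* FF L (M * q))
    (w.commutes _) hV3a x hx hx₁ h₁ hx₂ h₂
  exact ⟨y, hy, e⟩

/-- The same with the vanishing of the reductions quantified over the membership proofs (which
exist by (H_int) and `isIntegralElem_atkinLehner`). -/
theorem s1_fin' (hq : q.Prime) (hϖ : Irreducible ϖ) (w : FF L (M * q) ≃ₐ[L] FF L (M * q))
    (hα : (w : FF L (M * q) →ₐ[L] FF L (M * q)).comp (heckeAlphaBar L M q) = heckeBetaBar L M q)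
    (hV3a : ∀ z : FF L (M * q), (z : LaurentSeries L) ∈ contentRing W →
      (w z : LaurentSeries L) ∈ contentRing W →
      ∃ S : (↥W)[X], S.map (IsLocalRing.residue W) ≠ 0 ∧
        (evF W (M * q)).IsIntegralElem (evF W (M * q) S * z))
    (x : FF L (M * q)) (hx : (evF W (M * q)).IsIntegralElem x)
    (h₁ : ∀ h : (x : LaurentSeries L) ∈ contentRing W, red W ⟨x, h⟩ = 0)
    (h₂ : ∀ h : (w x : LaurentSeries L) ∈ contentRing W, red W ⟨w x, h⟩ = 0) :
    ∃ y : FF L (M * q), (evF W (M * q)).IsIntegralElem y ∧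
      x = algebraMap L (FF L (M * q)) ((ϖ : W) : L) * y := by
  have hx₁ := coe_mem_contentRing_of_isIntegralElem W (M * q) x hx
  have hx₂ := coe_mem_contentRing_of_isIntegralElem W (M * q) (w x)
    (isIntegralElem_atkinLehner W M q hq w hα hx)
  exact s1_fin M q hϖ w hV3a x hx hx₁ (h₁ hx₁) hx₂ (h₂ hx₂)

end Level

end Fermat.Agent.S34.CompS1
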