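import Mathlib
import Fermat.Prelude.Def_ModularCurve_HeckeOperator
import Fermat.Agent.S24.Defs
import Fermat.Agent.S24.CoeffBC
import Fermat.Agent.S24.BaseChange
import Fermat.Agent.S24.Hurwitz
import Fermat.Agent.S20.Comb
import Fermat.Agent.S28.DegZero
import Fermat.Agent.S18.GaussDegree
import Fermat.Agent.S37.AtkinLehner
import Fermat.Agent.S37.Conjugates

/-!
# S34 (wave 6), degree input of (V3) at an arbitrary level `L`

For any field `L` of characteristic zero with a ring homomorphism `ι₀ : L →+* ℂ`: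

* `finrank_jBC_level`: `j` is transcendental in `FF L N` and `[FF L N : L(j)] = ψ(N)`;
* `finrankAlong_alpha_level`, `finrankAlong_beta_level`: for a prime `l ∤ N` the function field
  `FF L (N * l)` has degree `l + 1` over both degeneracy images `α(FF L N)` and `β(FF L N)`;
* `finrank_alpha_level`, `finrank_beta_level`: the same as `Module.finrank` statements for the
  algebra structures `algebraAlong`, together with finite-dimensionality.
-/

set_option autoImplicit false
set_option linter.style.haveILetI false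

namespace Fermat.Agent.S34.DegreeL

open ModularCurve AlgebraicCurve IntermediateField Polynomial Fermat.Agent.S24
open Fermat.Agent.S37.Conjugates

variable (L : Type*) [Field L] [Algebra ℚ L]

/-- the coefficient extension `FF L N → FF ℂ N` sends `j` to `j`. -/
theorem bc_jBC_level (ι₀ : L →+* ℂ) (N : ℕ) [NeZero N] :
    CoeffBC.bc ι₀ (modularFunctionFieldFull N) (jBC L N) = jBC ℂ N := by
  apply Subtype.ext
  rw [CoeffBC.coe_bc, coe_jBC, coe_jBC]
  exact CoeffBC.coeffMap_coeffEmb' ι₀ jq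

/-- `j` is transcendental over every coefficient field `L ⊆ ℂ`. -/
theorem transcendental_jBC_level (ι₀ : L →+* ℂ) (N : ℕ) [NeZero N] :
    Transcendental L (jBC L N) := by
  obtain ⟨hxC, -, -⟩ := Fermat.Agent.S28.DegZero.complex_degree N
  rintro ⟨p, hp0, hp⟩
  have h1 := congrArg (CoeffBC.bc ι₀ (modularFunctionFieldFull N)) hp
  have h3 : CoeffBC.bc ι₀ (modularFunctionFieldFull N) (aeval (jBC L N) p) =
      aeval (jBC ℂ N) (p.map ι₀) := by
    rw [aeval_def, Polynomial.hom_eval₂, bc_jBC_level, aeval_def, Polynomial.eval₂_map]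
    congr 1
    exact RingHom.ext fun c => CoeffBC.bc_algebraMap ι₀ _ c
  rw [h3, map_zero] at h1
  have h2 : p.map ι₀ ≠ 0 := by
    rw [Ne, Polynomial.map_eq_zero_iff ι₀.injective]
    exact hp0
  exact hxC ⟨p.map ι₀, h2, h1⟩

/-- the degree of the function field of `X₀(N)` over `L(j)`, at an arbitrary level `L ⊆ ℂ`. -/
theorem finrank_jBC_level (ι₀ : L →+* ℂ) (N : ℕ) [NeZero N] :
    Transcendental L (jBC L N) ∧ FiniteDimensional L⟮jBC L N⟯ (FF L N) ∧
      Module.finrank L⟮jBC L N⟯ (FF L N) = dedekindPsi N := by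
  obtain ⟨hxC, hfdC, hdegC⟩ := Fermat.Agent.S28.DegZero.complex_degree N
  obtain ⟨hfd, hle⟩ := Fermat.Agent.S18.Gauss.finrank_FF_le L N
  refine ⟨transcendental_jBC_level L ι₀ N, hfd, le_antisymm hle ?_⟩
  haveI := hfd
  haveI : Module.Free L⟮jBC L N⟯ (FF L N) := Module.Free.of_divisionRing _ _
  let φ : FF L N →+* FF ℂ N := CoeffBC.bc ι₀ (modularFunctionFieldFull N)
  have hφj : φ (jBC L N) = jBC ℂ N := bc_jBC_level L ι₀ N
  let b : Module.Basis (Fin (Module.finrank L⟮jBC L N⟯ (FF L N))) L⟮jBC L N⟯ (FF L N) :=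
    Module.finBasis L⟮jBC L N⟯ (FF L N)
  have hspan := BaseChange.span_range_map ι₀ φ (fun a => CoeffBC.bc_algebraMap ι₀ _ a)
    (CoeffBC.adjoin_range_bc ι₀ _) (jBC L N) b
  have h := finrank_range_le_card (R := ℂ⟮φ (jBC L N)⟯) (φ ∘ b)
  rw [Set.finrank, hspan, finrank_top] at h
  have h' : Module.finrank ℂ⟮φ (jBC L N)⟯ (FF ℂ N) ≤ Module.finrank L⟮jBC L N⟯ (FF L N) := by
    simpa using h
  have e : Module.finrank ℂ⟮φ (jBC L N)⟯ (FF ℂ N) = dedekindPsi N := by
    rw [← hdegC]
    exact Hurwitz.finrank_congr (congrArg (fun t => ℂ⟮t⟯) hφj)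
  rw [e] at h'
  exact h'

theorem heckeAlphaBar_jBC_level (N l : ℕ) [NeZero N] [NeZero l] :
    heckeAlphaBar L N l (jBC L N) = jBC L (N * l) :=
  Subtype.ext (by rw [coe_heckeAlphaBar, coe_jBC, coe_jBC])

/-- `[FF L (N * l) : α(FF L N)] = l + 1` at an arbitrary level. -/
theorem finrankAlong_alpha_level (ι₀ : L →+* ℂ) (N l : ℕ) [NeZero N] [NeZero l] (hl : l.Prime)
    (hNl : ¬ l ∣ N) : finrankAlong L (heckeAlphaBar L N l) = l + 1 := by
  have h1 := finrank_mul_finrankAlong (heckeAlphaBar L N l) (jBC L N)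
  have h2 : dedekindPsi (N * l) = (l + 1) * dedekindPsi N := by
    rw [mul_comm N l]
    exact Fermat.Agent.S20.Comb.dedekindPsi_mul_of_not_dvd (NeZero.ne N) hl hNl
  rw [heckeAlphaBar_jBC_level, (finrank_jBC_level L ι₀ N).2.2,
    (finrank_jBC_level L ι₀ (N * l)).2.2, h2, mul_comm] at h1
  have h0 : dedekindPsi N ≠ 0 := by
    rw [← (finrank_jBC_level L ι₀ N).2.2]
    haveI := (finrank_jBC_level L ι₀ N).2.1
    exact Module.finrank_pos.ne'
  exact mul_right_cancel₀ h0 h1

/-- `[FF L (N * l) : β(FF L N)] = l + 1` at an arbitrary level. -/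
theorem finrankAlong_beta_level (ι₀ : L →+* ℂ) (N l : ℕ) [NeZero N] [NeZero l] (hl : l.Prime)
    (hNl : ¬ l ∣ N) : finrankAlong L (heckeBetaBar L N l) = l + 1 := by
  obtain ⟨w, hwα, -⟩ := Fermat.Agent.S37.AtkinLehner.exists_atkinLehner_of_emb ι₀ N l hl hNl
  rw [finrankAlong_eq_of_comp _ _ w hwα]
  exact finrankAlong_alpha_level L ι₀ N l hl hNl

/-- `Module.finrank` form over `α(FF L N)` (algebra structure `algebraAlong (heckeAlphaBar L N l)`),
with finite-dimensionality. -/
theorem finrank_alpha_level (ι₀ : L →+* ℂ) (N l : ℕ) [NeZero N] [NeZero l] (hl : l.Prime)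
    (hNl : ¬ l ∣ N) :
    letI := algebraAlong (heckeAlphaBar L N l)
    FiniteDimensional (FF L N) (FF L (N * l)) ∧
      Module.finrank (FF L N) (FF L (N * l)) = l + 1 := by
  letI := algebraAlong (heckeAlphaBar L N l)
  have h : Module.finrank (FF L N) (FF L (N * l)) = l + 1 :=
    finrankAlong_alpha_level L ι₀ N l hl hNl
  refine ⟨?_, h⟩
  apply Module.finite_of_finrank_pos
  rw [h]; exact Nat.succ_pos l

/-- `Module.finrank` form over `β(FF L N)` (algebra structure `algebraAlong (heckeBetaBar L N l)`),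
with finite-dimensionality. -/
theorem finrank_beta_level (ι₀ : L →+* ℂ) (N l : ℕ) [NeZero N] [NeZero l] (hl : l.Prime)
    (hNl : ¬ l ∣ N) :
    letI := algebraAlong (heckeBetaBar L N l)
    FiniteDimensional (FF L N) (FF L (N * l)) ∧
      Module.finrank (FF L N) (FF L (N * l)) = l + 1 := by
  letI := algebraAlong (heckeBetaBar L N l)
  have h : Module.finrank (FF L N) (FF L (N * l)) = l + 1 :=
    finrankAlong_beta_level L ι₀ N l hl hNl
  refine ⟨?_, h⟩
  apply Module.finite_of_finrank_pos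
  rw [h]; exact Nat.succ_pos l

/-! ### The same statements in the level currency of S18/S37 (`ι : L →+* AlgebraicClosure ℚ`) -/

theorem nonempty_bar_to_complex : Nonempty (AlgebraicClosure ℚ →+* ℂ) := by
  letI : Algebra ℚ (AlgebraicClosure ℚ) :=
    @AlgebraicClosure.instAlgebra ℚ _ ℚ _ (Algebra.id ℚ)
  exact ⟨(IsAlgClosed.lift : AlgebraicClosure ℚ →ₐ[ℚ] ℂ).toRingHom⟩

/-- a level `L → ℚ̄` embeds into `ℂ`. -/
noncomputable def toComplex (ι : L →+* AlgebraicClosure ℚ) : L →+* ℂ :=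
  (Classical.choice nonempty_bar_to_complex).comp ι

theorem finrank_jBC_of_bar (ι : L →+* AlgebraicClosure ℚ) (N : ℕ) [NeZero N] :
    Transcendental L (jBC L N) ∧ FiniteDimensional L⟮jBC L N⟯ (FF L N) ∧
      Module.finrank L⟮jBC L N⟯ (FF L N) = dedekindPsi N :=
  finrank_jBC_level L (toComplex L ι) N

theorem finrankAlong_alpha_of_bar (ι : L →+* AlgebraicClosure ℚ) (N l : ℕ) [NeZero N] [NeZero l]
    (hl : l.Prime) (hNl : ¬ l ∣ N) : finrankAlong L (heckeAlphaBar L N l) = l + 1 :=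
  finrankAlong_alpha_level L (toComplex L ι) N l hl hNl

theorem finrankAlong_beta_of_bar (ι : L →+* AlgebraicClosure ℚ) (N l : ℕ) [NeZero N] [NeZero l]
    (hl : l.Prime) (hNl : ¬ l ∣ N) : finrankAlong L (heckeBetaBar L N l) = l + 1 :=
  finrankAlong_beta_level L (toComplex L ι) N l hl hNl

theorem finrank_alpha_of_bar (ι : L →+* AlgebraicClosure ℚ) (N l : ℕ) [NeZero N] [NeZero l]
    (hl : l.Prime) (hNl : ¬ l ∣ N) :
    letI := algebraAlong (heckeAlphaBar L N l)
    FiniteDimensional (FF L N) (FF L (N * l)) ∧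
      Module.finrank (FF L N) (FF L (N * l)) = l + 1 :=
  finrank_alpha_level L (toComplex L ι) N l hl hNl

theorem finrank_beta_of_bar (ι : L →+* AlgebraicClosure ℚ) (N l : ℕ) [NeZero N] [NeZero l]
    (hl : l.Prime) (hNl : ¬ l ∣ N) :
    letI := algebraAlong (heckeBetaBar L N l)
    FiniteDimensional (FF L N) (FF L (N * l)) ∧
      Module.finrank (FF L N) (FF L (N * l)) = l + 1 :=
  finrank_beta_level L (toComplex L ι) N l hl hNl

end Fermat.Agent.S34.DegreeL
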