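import Mathlib
import Fermat.Agent.S34.FrobAct
import Fermat.Agent.S34.DDGauss
import Fermat.Agent.S34.DegreeL

/-!
# S34: the Kronecker congruence (K) and the Atkin–Lehner automorphism (w) at a level

Raw-currency discharge of two inputs of the finite-chart instance of B2 (`CompInst` /
`NodeInst`) at a level `(L, ι)`, `W = A.comap ι`:

* `mem_contentRing_of_int` : (H_int) at every level `N` (no hypothesis on the residue
  characteristic): a function integral over `W[j]` has `W`-integral `q`-expansion;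
* `exists_frob_partner` : (K), existential form — for the restriction `s` of a Frobenius lift
  `σ` at `A` and `y` of level `M` integral over `W[j]`, `y' := act M s⁻¹ y` is integral over
  `W[j]` and `red (β y) = red y' ^ ℓ`;
* `frobHom`, `frobHom_int`, `red_beta_eq_frobHom_pow` : (K), ring-hom form (`ς = act M s⁻¹`);
* `exists_frob_partner_of_stable` : the same at a Galois-stable level, the Frobenius lift and its
  restriction being chosen inside;
* `exists_atkinLehner_level` : (w) at a level `ι : L →+* ℚ̄`.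
-/

set_option autoImplicit false
set_option linter.unusedSectionVars false

noncomputable section

namespace Fermat.Agent.S34.FrobPartner

open ModularCurve Polynomial Fermat.Agent.S18 Fermat.Agent.S18.Gauss Fermat.Agent.S24
  Fermat.Agent.S34.CoeffAut

local notation "Qb" => AlgebraicClosure ℚ

section Int

variable {L : Type*} [Field L] [Algebra ℚ L] (W : ValuationSubring L)
  [IsDiscreteValuationRing W] (N : ℕ) [NeZero N]

/-- **(H_int), every level**: a function integral over `W[j]` has `W`-integral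
`q`-expansion. -/
theorem mem_contentRing_of_int {x : FF L N} (hx : (evF W N).IsIntegralElem x) :
    (x : LaurentSeries L) ∈ contentRing W := by
  obtain ⟨P, hP, hroot⟩ := hx
  refine mem_contentRing_of_monic_root W (Fermat.Agent.S34.DDGauss.coe_mem_fracInt W N x)
    (P.map (evC W)) (hP.map _) ?_
  rw [Polynomial.eval₂_map, subtype_comp_evC, ← coe_eval₂_evF, hroot]
  rfl

end Int

section Frob

variable (A : ValuationSubring Qb) {L : Type*} [Field L] [Algebra ℚ L] (ι : L →+* Qb)
  {σ : Qb ≃ₐ[ℚ] Qb} (s : L ≃+* L) (hs : ∀ c : L, ι (s c) = σ (ι c))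
  (ℓ : ℕ) [Fact ℓ.Prime] [CharP (IsLocalRing.ResidueField ↥(A.comap ι)) ℓ]
  (M : ℕ) [NeZero M] [NeZero ℓ] [IsDiscreteValuationRing ↥(A.comap ι)]

/-- the inverse of the restriction of a Frobenius lift, acting on the function field of level
`M` coefficientwise, as a ring homomorphism -/
def frobHom : FF L M →+* FF L M := ((act M s.symm : FF L M ≃+* FF L M) : FF L M →+* FF L M)

theorem frobHom_apply (y : FF L M) : frobHom s M y = act M s.symm y := rfl

include hs

/-- `ς = act M s⁻¹` preserves the finite chart of level `M`. -/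
theorem frobHom_int (hσ : σ ∈ A.decompositionSubgroup ℚ) {y : FF L M}
    (hy : (evF (A.comap ι) M).IsIntegralElem y) :
    (evF (A.comap ι) M).IsIntegralElem (frobHom s M y) :=
  isIntegralElem_evF_act (A.comap ι) M s.symm (symm_mem_comap_iff A ι s hs hσ) hy

/-- **(K), ring-hom form**: `red (β b) = red (ς b) ^ ℓ`, `ς = act M s⁻¹`, for every
Gauss-integral `b` of level `M` and any membership proofs. -/
theorem red_beta_eq_frobHom_pow (hσ : A.IsFrobeniusAt σ ℓ) {b : FF L M}
    (hb : (b : LaurentSeries L) ∈ contentRing (A.comap ι))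
    (h1 : ((heckeBetaBar L M ℓ b : FF L (M * ℓ)) : LaurentSeries L) ∈ contentRing (A.comap ι))
    (h2 : ((frobHom s M b : FF L M) : LaurentSeries L) ∈ contentRing (A.comap ι)) :
    red (A.comap ι) ⟨_, h1⟩ = red (A.comap ι) ⟨_, h2⟩ ^ ℓ :=
  Fermat.Agent.S34.FrobAct.red_beta_eq_pow A ι s hs ℓ M hσ hb h1 h2

/-- **(K), existential form**: for `y` of level `M` integral over `W[j]` there is `y'` integral
over `W[j]` with `red (β y) = red y' ^ ℓ`. -/
theorem exists_frob_partner (hσ : A.IsFrobeniusAt σ ℓ) (y : FF L M)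
    (hy : (evF (A.comap ι) M).IsIntegralElem y) :
    ∃ y' : FF L M, (evF (A.comap ι) M).IsIntegralElem y' ∧
      ∃ (h1 : ((heckeBetaBar L M ℓ y : FF L (M * ℓ)) : LaurentSeries L) ∈
          contentRing (A.comap ι))
        (h2 : (y' : LaurentSeries L) ∈ contentRing (A.comap ι)),
        red (A.comap ι) ⟨_, h1⟩ = red (A.comap ι) ⟨_, h2⟩ ^ ℓ := by
  have hb := mem_contentRing_of_int (A.comap ι) M hy
  have hy' := frobHom_int A ι s hs M hσ.mem_decompositionSubgroup hy
  have h1 := Fermat.Agent.S34.FrobAct.mem_contentRing_beta A ι ℓ M hb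
  have h2 := mem_contentRing_of_int (A.comap ι) M hy'
  exact ⟨frobHom s M y, hy', h1, h2, red_beta_eq_frobHom_pow A ι s hs ℓ M hσ hb h1 h2⟩

end Frob

section Stable

variable (A : ValuationSubring Qb) {L : Type*} [Field L] [Algebra ℚ L] (ι : L →+* Qb)
  (ℓ : ℕ) [Fact ℓ.Prime] [CharP (IsLocalRing.ResidueField ↥(A.comap ι)) ℓ]
  (M : ℕ) [NeZero M] [NeZero ℓ] [IsDiscreteValuationRing ↥(A.comap ι)]

/-- **(K) at a Galois-stable level**, existential form (`helper6`'s `(H_K)`). -/
theorem exists_frob_partner_of_stable (hA : A.LiesOverPrime ℓ)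
    (hstab : Fermat.Agent.S34.GalLevel.IsStable ι) (y : FF L M)
    (hy : (evF (A.comap ι) M).IsIntegralElem y) :
    ∃ y' : FF L M, (evF (A.comap ι) M).IsIntegralElem y' ∧
      ∃ (h1 : ((heckeBetaBar L M ℓ y : FF L (M * ℓ)) : LaurentSeries L) ∈
          contentRing (A.comap ι))
        (h2 : (y' : LaurentSeries L) ∈ contentRing (A.comap ι)),
        red (A.comap ι) ⟨_, h1⟩ = red (A.comap ι) ⟨_, h2⟩ ^ ℓ := by
  obtain ⟨σ, hσ⟩ := Fermat.Agent.S34.GalLevel.exists_frobenius A (Fact.out : ℓ.Prime) hA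
  obtain ⟨s, hs⟩ := hstab σ
  exact exists_frob_partner A ι s hs ℓ M hσ y hy

/-- **(K) at a Galois-stable level**, ring-hom form: a ring endomorphism `ς` of the function
field of level `M` preserving the finite chart, with `red (β b) = red (ς b) ^ ℓ`. -/
theorem exists_frobHom_of_stable (hA : A.LiesOverPrime ℓ)
    (hstab : Fermat.Agent.S34.GalLevel.IsStable ι) :
    ∃ ς : FF L M →+* FF L M,
      (∀ y : FF L M, (evF (A.comap ι) M).IsIntegralElem y →
        (evF (A.comap ι) M).IsIntegralElem (ς y)) ∧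
      ∀ (b : FF L M) (_ : (b : LaurentSeries L) ∈ contentRing (A.comap ι))
        (h1 : ((heckeBetaBar L M ℓ b : FF L (M * ℓ)) : LaurentSeries L) ∈
          contentRing (A.comap ι))
        (h2 : ((ς b : FF L M) : LaurentSeries L) ∈ contentRing (A.comap ι)),
        red (A.comap ι) ⟨_, h1⟩ = red (A.comap ι) ⟨_, h2⟩ ^ ℓ := by
  obtain ⟨σ, hσ⟩ := Fermat.Agent.S34.GalLevel.exists_frobenius A (Fact.out : ℓ.Prime) hA
  obtain ⟨s, hs⟩ := hstab σ
  exact ⟨frobHom s M, fun y hy => frobHom_int A ι s hs M hσ.mem_decompositionSubgroup hy,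
    fun b hb h1 h2 => red_beta_eq_frobHom_pow A ι s hs ℓ M hσ hb h1 h2⟩

end Stable

/-- **(w) at a level**: the Atkin–Lehner automorphism of the function field of level `M ℓ`
with coefficients in a level field `ι : L →+* ℚ̄`. -/
theorem exists_atkinLehner_level {L : Type*} [Field L] [Algebra ℚ L] (ι : L →+* Qb)
    (M ℓ : ℕ) [NeZero M] [NeZero ℓ] (hℓ : ℓ.Prime) (hℓM : ¬ ℓ ∣ M) :
    ∃ w : FF L (M * ℓ) ≃ₐ[L] FF L (M * ℓ),
      (w : FF L (M * ℓ) →ₐ[L] FF L (M * ℓ)).comp (heckeAlphaBar L M ℓ) = heckeBetaBar L M ℓ ∧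
      (w : FF L (M * ℓ) →ₐ[L] FF L (M * ℓ)).comp (heckeBetaBar L M ℓ) = heckeAlphaBar L M ℓ :=
  Fermat.Agent.S37.AtkinLehner.exists_atkinLehner_of_emb
    (Fermat.Agent.S34.DegreeL.toComplex L ι) M ℓ hℓ hℓM

end Fermat.Agent.S34.FrobPartner
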