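import Mathlib
import Fermat.Agent.S34.CompInst
import Fermat.Agent.S34.CompS1
import Fermat.Agent.S34.FrobPartner

/-!
# S34, (DICH₁): the closed points of the finite chart of level `M q` at a stable level

`A` a valuation subring of `ℚ̄` over `q`, `(L, ι)` a Galois-stable level, `W = A.comap ι` a
discrete valuation ring with algebraically closed residue field of characteristic `q ∤ M`,
`w` an Atkin–Lehner automorphism of `F = S24.FF L (M * q)`.

`dich_fin` : for every carrier `B` of the finite chart of level `M q` and every maximal ideal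
`𝔫 ∋ ϖ`, the maximal ideal of `R = B_𝔫` is `(ϖ, u)` or `(ϖ, X, Y)` with `ϖ ∣ X Y`
(`u, X, Y ∈ B`).  Inputs still taken as hypotheses, in raw currency:

* `hV3a` : `x, w x` Gauss-integral ⇒ `S(j) x` integral over `W[j]` for some `S` with `S̄ ≠ 0`;
* `hF1` : the reduction of a Gauss-integral element of `F` lies in the residue function field
  of level `M`.

Everything else is discharged from main: `(H_int)` (`FrobPartner.mem_contentRing_of_int`),
`(S1)` (`CompS1.s1_fin`), `(K)` (`FrobPartner.exists_frob_partner_of_stable`).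

`dich_fin_struct` : the same in the `hstruct` shape of `LocDD.hloc_of_struct`
(`algebraMap W R ϖ`, coordinates in `R`).
-/

set_option autoImplicit false
set_option linter.unusedSectionVars false
set_option linter.style.haveILetI false

noncomputable section

namespace Fermat.Agent.S34.CompFin

open Polynomial ModularCurve Fermat.Agent.S18 Fermat.Agent.S18.Gauss Fermat.Agent.S37
  IsLocalRing

local notation "Qb" => AlgebraicClosure ℚ

variable (A : ValuationSubring Qb) {L : Type} [Field L] [Algebra ℚ L] (ι : L →+* Qb)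
  (M q : ℕ) [NeZero M] [NeZero q]
  [IsDiscreteValuationRing ↥(A.comap ι)]
  [IsAlgClosed (IsLocalRing.ResidueField ↥(A.comap ι))]
  [CharP (IsLocalRing.ResidueField ↥(A.comap ι)) q]

/-- **(DICH₁), finite chart of level `M q`**, global coordinates. -/
theorem dich_fin (hq : q.Prime) (hqM : ¬ q ∣ M) (hA : A.LiesOverPrime q)
    (hstab : Fermat.Agent.S34.GalLevel.IsStable ι)
    (hroots : ∀ x : Qb, (∃ n : ℕ, ¬ q ∣ n ∧ x ^ n = 1) → ∃ b : L, ι b = x)
    (π : ↥(A.comap ι)) (hπ : Irreducible π)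
    (w : Fermat.Agent.S24.FF L (M * q) ≃ₐ[L] Fermat.Agent.S24.FF L (M * q))
    (hwα : (w : Fermat.Agent.S24.FF L (M * q) →ₐ[L] Fermat.Agent.S24.FF L (M * q)).comp
      (heckeAlphaBar L M q) = heckeBetaBar L M q)
    (hwβ : (w : Fermat.Agent.S24.FF L (M * q) →ₐ[L] Fermat.Agent.S24.FF L (M * q)).comp
      (heckeBetaBar L M q) = heckeAlphaBar L M q)
    (hV3a : ∀ z : Fermat.Agent.S24.FF L (M * q), (z : LaurentSeries L) ∈ contentRing (A.comap ι) →
      (w z : LaurentSeries L) ∈ contentRing (A.comap ι) →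
      ∃ S : (↥(A.comap ι))[X], S.map (IsLocalRing.residue ↥(A.comap ι)) ≠ 0 ∧
        (evF (A.comap ι) (M * q)).IsIntegralElem (evF (A.comap ι) (M * q) S * z))
    (hF1 : ∀ (x : Fermat.Agent.S24.FF L (M * q))
      (hx : (x : LaurentSeries L) ∈ contentRing (A.comap ι)),
      red (A.comap ι) ⟨x, hx⟩ ∈
        modularFunctionFieldFullC (IsLocalRing.ResidueField ↥(A.comap ι)) M)
    [Algebra (↥(A.comap ι))[X] (Fermat.Agent.S24.FF L (M * q))]
    (halg : algebraMap (↥(A.comap ι))[X] (Fermat.Agent.S24.FF L (M * q)) =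
      evF (A.comap ι) (M * q))
    (B : Type*) [CommRing B] [Algebra (↥(A.comap ι))[X] B]
    [Algebra B (Fermat.Agent.S24.FF L (M * q))]
    [IsScalarTower (↥(A.comap ι))[X] B (Fermat.Agent.S24.FF L (M * q))]
    [IsIntegralClosure B (↥(A.comap ι))[X] (Fermat.Agent.S24.FF L (M * q))]
    (𝔫 : Ideal B) [𝔫.IsMaximal] (hπ𝔫 : algebraMap (↥(A.comap ι))[X] B (C π) ∈ 𝔫)
    (R : Type*) [CommRing R] [Algebra B R] [IsLocalization.AtPrime R 𝔫] [IsLocalRing R] :
    (∃ u ∈ 𝔫, maximalIdeal R =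
        Ideal.span {algebraMap B R (algebraMap (↥(A.comap ι))[X] B (C π)), algebraMap B R u}) ∨
    (∃ X ∈ 𝔫, ∃ Y ∈ 𝔫, algebraMap (↥(A.comap ι))[X] B (C π) ∣ X * Y ∧ maximalIdeal R =
        Ideal.span {algebraMap B R (algebraMap (↥(A.comap ι))[X] B (C π)), algebraMap B R X,
          algebraMap B R Y}) := by
  haveI : Fact q.Prime := ⟨hq⟩
  exact CompInst.finite_chart_point M q ι (A.comap ι) hq hqM hroots π hπ w hwα hwβ
    (fun x hx => FrobPartner.mem_contentRing_of_int (A.comap ι) (M * q) hx) hF1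
    (fun x hx h1 h2 e1 e2 => CompS1.s1_fin M q hπ w hV3a x hx h1 e1 h2 e2)
    (fun y hy => FrobPartner.exists_frob_partner_of_stable A ι q M hA hstab y hy)
    halg B 𝔫 hπ𝔫 R

/-- **(DICH₁) in the `hstruct` shape** (`algebraMap W R ϖ`, coordinates in `R = B_𝔫`), for any
`W`-algebra structures on `B` and `R` compatible with `W[X] → B → R`. -/
theorem dich_fin_struct (hq : q.Prime) (hqM : ¬ q ∣ M) (hA : A.LiesOverPrime q)
    (hstab : Fermat.Agent.S34.GalLevel.IsStable ι)
    (hroots : ∀ x : Qb, (∃ n : ℕ, ¬ q ∣ n ∧ x ^ n = 1) → ∃ b : L, ι b = x)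
    (π : ↥(A.comap ι)) (hπ : Irreducible π)
    (w : Fermat.Agent.S24.FF L (M * q) ≃ₐ[L] Fermat.Agent.S24.FF L (M * q))
    (hwα : (w : Fermat.Agent.S24.FF L (M * q) →ₐ[L] Fermat.Agent.S24.FF L (M * q)).comp
      (heckeAlphaBar L M q) = heckeBetaBar L M q)
    (hwβ : (w : Fermat.Agent.S24.FF L (M * q) →ₐ[L] Fermat.Agent.S24.FF L (M * q)).comp
      (heckeBetaBar L M q) = heckeAlphaBar L M q)
    (hV3a : ∀ z : Fermat.Agent.S24.FF L (M * q), (z : LaurentSeries L) ∈ contentRing (A.comap ι) →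
      (w z : LaurentSeries L) ∈ contentRing (A.comap ι) →
      ∃ S : (↥(A.comap ι))[X], S.map (IsLocalRing.residue ↥(A.comap ι)) ≠ 0 ∧
        (evF (A.comap ι) (M * q)).IsIntegralElem (evF (A.comap ι) (M * q) S * z))
    (hF1 : ∀ (x : Fermat.Agent.S24.FF L (M * q))
      (hx : (x : LaurentSeries L) ∈ contentRing (A.comap ι)),
      red (A.comap ι) ⟨x, hx⟩ ∈
        modularFunctionFieldFullC (IsLocalRing.ResidueField ↥(A.comap ι)) M)
    [Algebra (↥(A.comap ι))[X] (Fermat.Agent.S24.FF L (M * q))]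
    (halg : algebraMap (↥(A.comap ι))[X] (Fermat.Agent.S24.FF L (M * q)) =
      evF (A.comap ι) (M * q))
    (B : Type*) [CommRing B] [Algebra (↥(A.comap ι))[X] B]
    [Algebra B (Fermat.Agent.S24.FF L (M * q))]
    [IsScalarTower (↥(A.comap ι))[X] B (Fermat.Agent.S24.FF L (M * q))]
    [IsIntegralClosure B (↥(A.comap ι))[X] (Fermat.Agent.S24.FF L (M * q))]
    [Algebra ↥(A.comap ι) B] [IsScalarTower ↥(A.comap ι) (↥(A.comap ι))[X] B]
    (𝔫 : Ideal B) [𝔫.IsMaximal] (hπ𝔫 : algebraMap ↥(A.comap ι) B π ∈ 𝔫)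
    (R : Type*) [CommRing R] [Algebra B R] [IsLocalization.AtPrime R 𝔫] [IsLocalRing R]
    [Algebra ↥(A.comap ι) R] [IsScalarTower ↥(A.comap ι) B R] :
    (∃ u : R, maximalIdeal R = Ideal.span {algebraMap ↥(A.comap ι) R π, u}) ∨
    ∃ X Y : R, maximalIdeal R = Ideal.span {algebraMap ↥(A.comap ι) R π, X, Y} ∧
      algebraMap ↥(A.comap ι) R π ∣ X * Y := by
  have e1 : algebraMap ↥(A.comap ι) B π = algebraMap (↥(A.comap ι))[X] B (C π) := by
    rw [IsScalarTower.algebraMap_apply ↥(A.comap ι) (↥(A.comap ι))[X] B, ← Polynomial.C_eq_algebraMap]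
  have e2 : algebraMap ↥(A.comap ι) R π =
      algebraMap B R (algebraMap (↥(A.comap ι))[X] B (C π)) := by
    rw [IsScalarTower.algebraMap_apply ↥(A.comap ι) B R, e1]
  rw [e1] at hπ𝔫
  rcases dich_fin A ι M q hq hqM hA hstab hroots π hπ w hwα hwβ hV3a hF1 halg B 𝔫 hπ𝔫 R with
    ⟨u, -, hu⟩ | ⟨X, -, Y, -, hXY, hm⟩
  · left
    exact ⟨algebraMap B R u, by rw [e2]; exact hu⟩
  · right
    refine ⟨algebraMap B R X, algebraMap B R Y, by rw [e2]; exact hm, ?_⟩
    rw [e2, ← map_mul]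
    exact map_dvd (algebraMap B R) hXY

end Fermat.Agent.S34.CompFin
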