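import Mathlib
import Fermat.Agent.S34.TwoValAbs

/-!
# S34, package B1, abstract "f = number of residues": the residue fields of the two valuations

Setting of `TwoValAbs.exists_coeff` (same hypothesis list, same order): `K₀ ⊆ E` finite, `O₀`
a "discrete valuation ring with uniformiser `ϖ`" in `K₀`, two valuation subrings `V₁`, `V₂`
of `E` over `O₀`, `e₁`, `e₂` orthogonal idempotents modulo the maximal ideals, families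
`b₁`, `b₂` in `V₁ ∩ V₂` with residually independent reductions and
`[E : K₀] ≤ #b₁ + #b₂`.

* `small_eq_unif_mul` : an element of `V₁ ∩ V₂` lying in both maximal ideals is `ϖ` times an
  element of `V₁ ∩ V₂`;
* `exists_unif_mul_of_idem` : `e₁ = ϖ * t` with `t ∈ V₂` (the uniformiser of `O₀` generates the
  maximal ideal of `V₂` as far as `e₁` is concerned);
* `exists_pow_mul_mem` : every `x ∈ V₁` has a multiple `x * e₁ ^ n ∈ V₁ ∩ V₂`, congruent to `x`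
  modulo the maximal ideal of `V₁`;
* `exists_residue_coeff₁` : **the residues of `b₁` span the residue field of `V₁` over the
  residue field of `O₀`** — every `x ∈ V₁` is congruent modulo the maximal ideal of `V₁` to
  an `O₀`-combination of the `b₁ i`; `exists_residue_coeff₂` : the same for `V₂`, `b₂`.
-/

set_option autoImplicit false

namespace Fermat.Agent.S34.TwoValRes

open Fermat.Agent.S34.TwoValAbs

variable {K₀ E : Type*} [Field K₀] [Field E] [Algebra K₀ E]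
  {O₀ : Subring K₀} {ϖ : K₀} {V₁ V₂ : ValuationSubring E}
  {ι₁ ι₂ : Type*} [Fintype ι₁] [Fintype ι₂]

/-- An element of `V₁ ∩ V₂` lying in both maximal ideals is `ϖ` times an element of
`V₁ ∩ V₂`. -/
theorem small_eq_unif_mul [FiniteDimensional K₀ E] (hϖ : ϖ ∈ O₀) (hϖ0 : ϖ ≠ 0)
    (hU : ∀ x : K₀, x ≠ 0 → ∃ (n : ℤ) (u : K₀), u ∈ O₀ ∧ u⁻¹ ∈ O₀ ∧ x = ϖ ^ n * u)
    (h₁ : ∀ x ∈ O₀, algebraMap K₀ E x ∈ V₁) (h₂ : ∀ x ∈ O₀, algebraMap K₀ E x ∈ V₂)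
    (hϖ₁ : V₁.valuation (algebraMap K₀ E ϖ) < 1) (hϖ₂ : V₂.valuation (algebraMap K₀ E ϖ) < 1)
    {e₁ e₂ : E} (he₁ : V₁.valuation (e₁ - 1) < 1) (he₁' : V₂.valuation e₁ < 1)
    (he₂ : V₂.valuation (e₂ - 1) < 1) (he₂' : V₁.valuation e₂ < 1)
    {b₁ : ι₁ → E} (hb₁ : ∀ i, b₁ i ∈ V₁) (hb₁' : ∀ i, b₁ i ∈ V₂)
    (hind₁ : ∀ a : ι₁ → K₀, (∀ i, a i ∈ O₀) →
      V₁.valuation (∑ i, algebraMap K₀ E (a i) * b₁ i) < 1 → ∀ i, ∃ d ∈ O₀, a i = ϖ * d)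
    {b₂ : ι₂ → E} (hb₂ : ∀ i, b₂ i ∈ V₂) (hb₂' : ∀ i, b₂ i ∈ V₁)
    (hind₂ : ∀ a : ι₂ → K₀, (∀ i, a i ∈ O₀) →
      V₂.valuation (∑ i, algebraMap K₀ E (a i) * b₂ i) < 1 → ∀ i, ∃ d ∈ O₀, a i = ϖ * d)
    (hdeg : Module.finrank K₀ E ≤ Fintype.card ι₁ + Fintype.card ι₂)
    (y : E) (hy₁ : V₁.valuation y < 1) (hy₂ : V₂.valuation y < 1) :
    ∃ t : E, t ∈ V₁ ∧ t ∈ V₂ ∧ y = algebraMap K₀ E ϖ * t := by
  classical
  obtain ⟨a, ha, hya⟩ := exists_coeff hϖ hϖ0 hU h₁ h₂ hϖ₁ hϖ₂ he₁ he₁' he₂ he₂' hb₁ hb₁' hind₁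
    hb₂ hb₂' hind₂ hdeg y ((V₁.valuation_le_one_iff _).mp hy₁.le)
    ((V₂.valuation_le_one_iff _).mp hy₂.le)
  have hall := coeff_dvd_of_small O₀ ϖ V₁ V₂ h₁ h₂ he₁ he₁' he₂ he₂' hb₁ hb₁' hind₁ hb₂ hb₂'
    hind₂ a ha (by rw [← hya]; exact hy₁) (by rw [← hya]; exact hy₂)
  choose d hd hda using hall
  have hfam₁ : ∀ k, fam e₁ e₂ b₁ b₂ k ∈ V₁ := fam_mem₁ V₁ he₁ he₂' hb₁ hb₂'
  have hfam₂ : ∀ k, fam e₁ e₂ b₁ b₂ k ∈ V₂ := by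
    intro k
    have h := fam_mem₁ V₂ (e₁ := e₂) (e₂ := e₁) he₂ he₁' hb₂ hb₁' (Sum.swap k)
    rcases k with i | i
    · exact h
    · exact h
  refine ⟨∑ k, algebraMap K₀ E (d k) * fam e₁ e₂ b₁ b₂ k,
    sum_mem fun k _ => mul_mem (h₁ _ (hd k)) (hfam₁ k),
    sum_mem fun k _ => mul_mem (h₂ _ (hd k)) (hfam₂ k), ?_⟩
  rw [hya, Finset.mul_sum]
  refine Finset.sum_congr rfl fun k _ => ?_
  rw [hda k, map_mul, mul_assoc]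

/-- `e₁` is `ϖ` times an element of `V₂`. -/
theorem exists_unif_mul_of_idem [FiniteDimensional K₀ E] (hϖ : ϖ ∈ O₀) (hϖ0 : ϖ ≠ 0)
    (hU : ∀ x : K₀, x ≠ 0 → ∃ (n : ℤ) (u : K₀), u ∈ O₀ ∧ u⁻¹ ∈ O₀ ∧ x = ϖ ^ n * u)
    (h₁ : ∀ x ∈ O₀, algebraMap K₀ E x ∈ V₁) (h₂ : ∀ x ∈ O₀, algebraMap K₀ E x ∈ V₂)
    (hϖ₁ : V₁.valuation (algebraMap K₀ E ϖ) < 1) (hϖ₂ : V₂.valuation (algebraMap K₀ E ϖ) < 1)
    {e₁ e₂ : E} (he₁ : V₁.valuation (e₁ - 1) < 1) (he₁' : V₂.valuation e₁ < 1)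
    (he₂ : V₂.valuation (e₂ - 1) < 1) (he₂' : V₁.valuation e₂ < 1)
    {b₁ : ι₁ → E} (hb₁ : ∀ i, b₁ i ∈ V₁) (hb₁' : ∀ i, b₁ i ∈ V₂)
    (hind₁ : ∀ a : ι₁ → K₀, (∀ i, a i ∈ O₀) →
      V₁.valuation (∑ i, algebraMap K₀ E (a i) * b₁ i) < 1 → ∀ i, ∃ d ∈ O₀, a i = ϖ * d)
    {b₂ : ι₂ → E} (hb₂ : ∀ i, b₂ i ∈ V₂) (hb₂' : ∀ i, b₂ i ∈ V₁)
    (hind₂ : ∀ a : ι₂ → K₀, (∀ i, a i ∈ O₀) →
      V₂.valuation (∑ i, algebraMap K₀ E (a i) * b₂ i) < 1 → ∀ i, ∃ d ∈ O₀, a i = ϖ * d)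
    (hdeg : Module.finrank K₀ E ≤ Fintype.card ι₁ + Fintype.card ι₂) :
    ∃ t : E, t ∈ V₂ ∧ e₁ = algebraMap K₀ E ϖ * t := by
  have he₁V₁ : V₁.valuation e₁ ≤ 1 := by
    have : e₁ = (e₁ - 1) + 1 := by ring
    rw [this]
    exact le_trans (V₁.valuation.map_add _ _) (max_le he₁.le (by rw [map_one]))
  -- `e₁ - 1` is a unit of `V₂`
  have hunit : V₂.valuation (e₁ - 1) = 1 := by
    have h : e₁ - 1 = -(1 + -e₁) := by ring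
    rw [h, Valuation.map_neg]
    exact V₂.valuation.map_one_add_of_lt (by rw [Valuation.map_neg]; exact he₁')
  have hy₁ : V₁.valuation (e₁ * (e₁ - 1)) < 1 := by
    rw [map_mul]
    exact mul_lt_one_of_le_of_lt' he₁V₁ he₁
  have hy₂ : V₂.valuation (e₁ * (e₁ - 1)) < 1 := by
    rw [map_mul, hunit, mul_one]
    exact he₁'
  obtain ⟨t, -, ht₂, hyt⟩ := small_eq_unif_mul hϖ hϖ0 hU h₁ h₂ hϖ₁ hϖ₂ he₁ he₁' he₂ he₂' hb₁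
    hb₁' hind₁ hb₂ hb₂' hind₂ hdeg _ hy₁ hy₂
  have hne : e₁ - 1 ≠ 0 := by
    intro h0
    rw [h0, map_zero] at hunit
    exact zero_ne_one hunit
  refine ⟨t * (e₁ - 1)⁻¹, ?_, ?_⟩
  · rw [← ValuationSubring.valuation_le_one_iff, map_mul, map_inv₀, hunit, inv_one, mul_one]
    exact (V₂.valuation_le_one_iff _).mpr ht₂
  · rw [← mul_assoc, ← hyt, mul_assoc, mul_inv_cancel₀ hne, mul_one]

/-- `e₁ ^ n - 1` lies in the maximal ideal of `V₁`. -/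
theorem val_pow_sub_one_lt {V : ValuationSubring E} {e : E} (he : V.valuation (e - 1) < 1)
    (n : ℕ) : V.valuation (e ^ n - 1) < 1 := by
  have heV : V.valuation e ≤ 1 := by
    have : e = (e - 1) + 1 := by ring
    rw [this]
    exact le_trans (V.valuation.map_add _ _) (max_le he.le (by rw [map_one]))
  induction n with
  | zero =>
    rw [pow_zero, sub_self, map_zero]
    exact zero_lt_one
  | succ n ih =>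
    have h : e ^ (n + 1) - 1 = e * (e ^ n - 1) + (e - 1) := by ring
    rw [h]
    refine lt_of_le_of_lt (V.valuation.map_add _ _) (max_lt ?_ he)
    rw [map_mul]
    exact mul_lt_one_of_le_of_lt' heV ih

/-- Every `x ∈ V₁` has a multiple `x * e₁ ^ n` in `V₁ ∩ V₂`, congruent to `x` modulo the maximal
ideal of `V₁`. -/
theorem exists_pow_mul_mem [FiniteDimensional K₀ E] (hϖ : ϖ ∈ O₀) (hϖ0 : ϖ ≠ 0)
    (hU : ∀ x : K₀, x ≠ 0 → ∃ (n : ℤ) (u : K₀), u ∈ O₀ ∧ u⁻¹ ∈ O₀ ∧ x = ϖ ^ n * u)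
    (h₁ : ∀ x ∈ O₀, algebraMap K₀ E x ∈ V₁) (h₂ : ∀ x ∈ O₀, algebraMap K₀ E x ∈ V₂)
    (hϖ₁ : V₁.valuation (algebraMap K₀ E ϖ) < 1) (hϖ₂ : V₂.valuation (algebraMap K₀ E ϖ) < 1)
    {e₁ e₂ : E} (he₁ : V₁.valuation (e₁ - 1) < 1) (he₁' : V₂.valuation e₁ < 1)
    (he₂ : V₂.valuation (e₂ - 1) < 1) (he₂' : V₁.valuation e₂ < 1)
    {b₁ : ι₁ → E} (hb₁ : ∀ i, b₁ i ∈ V₁) (hb₁' : ∀ i, b₁ i ∈ V₂)
    (hind₁ : ∀ a : ι₁ → K₀, (∀ i, a i ∈ O₀) →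
      V₁.valuation (∑ i, algebraMap K₀ E (a i) * b₁ i) < 1 → ∀ i, ∃ d ∈ O₀, a i = ϖ * d)
    {b₂ : ι₂ → E} (hb₂ : ∀ i, b₂ i ∈ V₂) (hb₂' : ∀ i, b₂ i ∈ V₁)
    (hind₂ : ∀ a : ι₂ → K₀, (∀ i, a i ∈ O₀) →
      V₂.valuation (∑ i, algebraMap K₀ E (a i) * b₂ i) < 1 → ∀ i, ∃ d ∈ O₀, a i = ϖ * d)
    (hdeg : Module.finrank K₀ E ≤ Fintype.card ι₁ + Fintype.card ι₂)
    (x : E) (hx₁ : x ∈ V₁) :
    ∃ n : ℕ, x * e₁ ^ n ∈ V₁ ∧ x * e₁ ^ n ∈ V₂ ∧ V₁.valuation (x * e₁ ^ n - x) < 1 := by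
  classical
  have he₁V₁ : e₁ ∈ V₁ := by
    have : e₁ = (e₁ - 1) + 1 := by ring
    rw [this]
    exact add_mem ((V₁.valuation_le_one_iff _).mp he₁.le) (one_mem _)
  have hfam₂ : ∀ k, fam e₁ e₂ b₁ b₂ k ∈ V₂ := by
    intro k
    have h := fam_mem₁ V₂ (e₁ := e₂) (e₂ := e₁) he₂ he₁' hb₂ hb₁' (Sum.swap k)
    rcases k with i | i
    · exact h
    · exact h
  -- a power of the uniformiser moves `x` into `V₂`
  have hpow : ∃ n : ℕ, algebraMap K₀ E (ϖ ^ n) * x ∈ V₂ := by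
    have hli := linearIndependent_fam hϖ hϖ0 hU h₁ h₂ hϖ₁ he₁ he₁' he₂ he₂' hb₁ hb₁' hind₁ hb₂
      hb₂' hind₂
    have hcard : Fintype.card (ι₁ ⊕ ι₂) = Module.finrank K₀ E := by
      have h1 := hli.fintype_card_le_finrank
      rw [Fintype.card_sum] at h1 ⊢
      omega
    have hspan := hli.span_eq_top_of_card_eq_finrank' hcard
    have hxs : x ∈ Submodule.span K₀ (Set.range (fam e₁ e₂ b₁ b₂)) := by
      rw [hspan]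
      trivial
    obtain ⟨g, hg⟩ := (Submodule.mem_span_range_iff_exists_fun K₀).mp hxs
    by_cases hg0 : g = 0
    · refine ⟨0, ?_⟩
      rw [← hg, hg0]
      simp
    obtain ⟨n, hn, -⟩ := exists_scale O₀ ϖ hϖ hϖ0 hU g hg0
    refine ⟨n.toNat, ?_⟩
    have hsum : algebraMap K₀ E (ϖ ^ n.toNat) * x =
        ∑ k, algebraMap K₀ E (ϖ ^ n.toNat * g k) * fam e₁ e₂ b₁ b₂ k := by
      rw [← hg, Finset.mul_sum]
      refine Finset.sum_congr rfl fun k _ => ?_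
      rw [map_mul, Algebra.smul_def, mul_assoc]
    rw [hsum]
    refine sum_mem fun k _ => mul_mem (h₂ _ ?_) (hfam₂ k)
    obtain ⟨m, hm⟩ := Int.eq_ofNat_of_zero_le (sub_nonneg.mpr (Int.self_le_toNat n))
    have : ϖ ^ n.toNat * g k = ϖ ^ m * (ϖ ^ n * g k) := by
      rw [← mul_assoc, ← zpow_natCast ϖ m, ← hm, ← zpow_add₀ hϖ0, sub_add_cancel,
        zpow_natCast]
    rw [this]
    exact mul_mem (pow_mem hϖ m) (hn k)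
  obtain ⟨n, hn⟩ := hpow
  obtain ⟨t, ht₂, het⟩ := exists_unif_mul_of_idem hϖ hϖ0 hU h₁ h₂ hϖ₁ hϖ₂ he₁ he₁' he₂ he₂' hb₁
    hb₁' hind₁ hb₂ hb₂' hind₂ hdeg
  refine ⟨n, mul_mem hx₁ (pow_mem he₁V₁ n), ?_, ?_⟩
  · have : x * e₁ ^ n = (algebraMap K₀ E (ϖ ^ n) * x) * t ^ n := by
      rw [het, mul_pow, map_pow]
      ring
    rw [this]
    exact mul_mem hn (pow_mem ht₂ n)
  · have : x * e₁ ^ n - x = x * (e₁ ^ n - 1) := by ring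
    rw [this, map_mul]
    exact mul_lt_one_of_le_of_lt' ((V₁.valuation_le_one_iff _).mpr hx₁)
      (val_pow_sub_one_lt he₁ n)

/-- **The residues of `b₁` span the residue field of `V₁`** over the residue field of `O₀`:
every `x ∈ V₁` is congruent, modulo the maximal ideal of `V₁`, to an `O₀`-combination of the
`b₁ i`. -/
theorem exists_residue_coeff₁ [FiniteDimensional K₀ E] (hϖ : ϖ ∈ O₀) (hϖ0 : ϖ ≠ 0)
    (hU : ∀ x : K₀, x ≠ 0 → ∃ (n : ℤ) (u : K₀), u ∈ O₀ ∧ u⁻¹ ∈ O₀ ∧ x = ϖ ^ n * u)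
    (h₁ : ∀ x ∈ O₀, algebraMap K₀ E x ∈ V₁) (h₂ : ∀ x ∈ O₀, algebraMap K₀ E x ∈ V₂)
    (hϖ₁ : V₁.valuation (algebraMap K₀ E ϖ) < 1) (hϖ₂ : V₂.valuation (algebraMap K₀ E ϖ) < 1)
    {e₁ e₂ : E} (he₁ : V₁.valuation (e₁ - 1) < 1) (he₁' : V₂.valuation e₁ < 1)
    (he₂ : V₂.valuation (e₂ - 1) < 1) (he₂' : V₁.valuation e₂ < 1)
    {b₁ : ι₁ → E} (hb₁ : ∀ i, b₁ i ∈ V₁) (hb₁' : ∀ i, b₁ i ∈ V₂)
    (hind₁ : ∀ a : ι₁ → K₀, (∀ i, a i ∈ O₀) →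
      V₁.valuation (∑ i, algebraMap K₀ E (a i) * b₁ i) < 1 → ∀ i, ∃ d ∈ O₀, a i = ϖ * d)
    {b₂ : ι₂ → E} (hb₂ : ∀ i, b₂ i ∈ V₂) (hb₂' : ∀ i, b₂ i ∈ V₁)
    (hind₂ : ∀ a : ι₂ → K₀, (∀ i, a i ∈ O₀) →
      V₂.valuation (∑ i, algebraMap K₀ E (a i) * b₂ i) < 1 → ∀ i, ∃ d ∈ O₀, a i = ϖ * d)
    (hdeg : Module.finrank K₀ E ≤ Fintype.card ι₁ + Fintype.card ι₂)
    (x : E) (hx₁ : x ∈ V₁) :
    ∃ a : ι₁ → K₀, (∀ i, a i ∈ O₀) ∧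
      V₁.valuation (x - ∑ i, algebraMap K₀ E (a i) * b₁ i) < 1 := by
  classical
  obtain ⟨n, hn₁, hn₂, hnx⟩ := exists_pow_mul_mem hϖ hϖ0 hU h₁ h₂ hϖ₁ hϖ₂ he₁ he₁' he₂ he₂' hb₁
    hb₁' hind₁ hb₂ hb₂' hind₂ hdeg x hx₁
  obtain ⟨a, ha, hxa⟩ := exists_coeff hϖ hϖ0 hU h₁ h₂ hϖ₁ hϖ₂ he₁ he₁' he₂ he₂' hb₁ hb₁' hind₁
    hb₂ hb₂' hind₂ hdeg (x * e₁ ^ n) hn₁ hn₂
  refine ⟨fun i => a (Sum.inl i), fun i => ha _, ?_⟩
  have hsplit : x - ∑ i, algebraMap K₀ E (a (Sum.inl i)) * b₁ i =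
      -(x * e₁ ^ n - x) + ((∑ i, algebraMap K₀ E (a (Sum.inl i)) * ((e₁ - 1) * b₁ i)) +
        ∑ i, algebraMap K₀ E (a (Sum.inr i)) * (e₂ * b₂ i)) := by
    have h0 : x * e₁ ^ n = (∑ i, algebraMap K₀ E (a (Sum.inl i)) * (e₁ * b₁ i)) +
        ∑ i, algebraMap K₀ E (a (Sum.inr i)) * (e₂ * b₂ i) := by
      rw [hxa, Fintype.sum_sum_type]
      rfl
    have h1 : (∑ i, algebraMap K₀ E (a (Sum.inl i)) * ((e₁ - 1) * b₁ i)) =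
        (∑ i, algebraMap K₀ E (a (Sum.inl i)) * (e₁ * b₁ i)) -
          ∑ i, algebraMap K₀ E (a (Sum.inl i)) * b₁ i := by
      rw [← Finset.sum_sub_distrib]
      refine Finset.sum_congr rfl fun i _ => ?_
      ring
    rw [h1]
    linear_combination h0
  have one_ne : (1 : V₁.ValueGroup) ≠ 0 := one_ne_zero
  rw [hsplit]
  refine lt_of_le_of_lt (V₁.valuation.map_add _ _) (max_lt ?_ ?_)
  · rw [Valuation.map_neg]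
    exact hnx
  · refine lt_of_le_of_lt (V₁.valuation.map_add _ _) (max_lt ?_ ?_)
    · refine V₁.valuation.map_sum_lt one_ne fun i _ => ?_
      rw [map_mul, map_mul]
      exact mul_lt_one_of_le_of_lt' ((V₁.valuation_le_one_iff _).mpr (h₁ _ (ha _)))
        (by
          rw [mul_comm]
          exact mul_lt_one_of_le_of_lt' ((V₁.valuation_le_one_iff _).mpr (hb₁ i)) he₁)
    · refine V₁.valuation.map_sum_lt one_ne fun i _ => ?_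
      rw [map_mul, map_mul]
      exact mul_lt_one_of_le_of_lt' ((V₁.valuation_le_one_iff _).mpr (h₁ _ (ha _)))
        (by
          rw [mul_comm]
          exact mul_lt_one_of_le_of_lt' ((V₁.valuation_le_one_iff _).mpr (hb₂' i)) he₂')

/-- **The residues of `b₂` span the residue field of `V₂`** over the residue field of `O₀`. -/
theorem exists_residue_coeff₂ [FiniteDimensional K₀ E] (hϖ : ϖ ∈ O₀) (hϖ0 : ϖ ≠ 0)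
    (hU : ∀ x : K₀, x ≠ 0 → ∃ (n : ℤ) (u : K₀), u ∈ O₀ ∧ u⁻¹ ∈ O₀ ∧ x = ϖ ^ n * u)
    (h₁ : ∀ x ∈ O₀, algebraMap K₀ E x ∈ V₁) (h₂ : ∀ x ∈ O₀, algebraMap K₀ E x ∈ V₂)
    (hϖ₁ : V₁.valuation (algebraMap K₀ E ϖ) < 1) (hϖ₂ : V₂.valuation (algebraMap K₀ E ϖ) < 1)
    {e₁ e₂ : E} (he₁ : V₁.valuation (e₁ - 1) < 1) (he₁' : V₂.valuation e₁ < 1)
    (he₂ : V₂.valuation (e₂ - 1) < 1) (he₂' : V₁.valuation e₂ < 1)
    {b₁ : ι₁ → E} (hb₁ : ∀ i, b₁ i ∈ V₁) (hb₁' : ∀ i, b₁ i ∈ V₂)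
    (hind₁ : ∀ a : ι₁ → K₀, (∀ i, a i ∈ O₀) →
      V₁.valuation (∑ i, algebraMap K₀ E (a i) * b₁ i) < 1 → ∀ i, ∃ d ∈ O₀, a i = ϖ * d)
    {b₂ : ι₂ → E} (hb₂ : ∀ i, b₂ i ∈ V₂) (hb₂' : ∀ i, b₂ i ∈ V₁)
    (hind₂ : ∀ a : ι₂ → K₀, (∀ i, a i ∈ O₀) →
      V₂.valuation (∑ i, algebraMap K₀ E (a i) * b₂ i) < 1 → ∀ i, ∃ d ∈ O₀, a i = ϖ * d)
    (hdeg : Module.finrank K₀ E ≤ Fintype.card ι₁ + Fintype.card ι₂)
    (x : E) (hx₂ : x ∈ V₂) :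
    ∃ a : ι₂ → K₀, (∀ i, a i ∈ O₀) ∧
      V₂.valuation (x - ∑ i, algebraMap K₀ E (a i) * b₂ i) < 1 :=
  exists_residue_coeff₁ hϖ hϖ0 hU h₂ h₁ hϖ₂ hϖ₁ he₂ he₂' he₁ he₁' hb₂ hb₂' hind₂ hb₁ hb₁' hind₁
    (by rw [add_comm]; exact hdeg) x hx₂

end Fermat.Agent.S34.TwoValRes
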