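import Mathlib
import Fermat.Agent.S34.TwoGauss
import Fermat.Agent.S34.TwoValRes

/-!
# S34 (wave 6), package B1 / (F1): the residue fields of the two Gauss valuations

Level `N = M q`, `q ∤ M` the residue characteristic of the discrete valuation ring `W` of `L`,
`F = S24.FF L (M * q)`, `w` an `L`-algebra endomorphism of `F` exchanging the two degeneracy
embeddings.  With the data of `TwoGauss.exists_monic_of_mem_both` (base field `L(j)`, the two
Gauss valuation rings `V1`, `V2`, the families `α(θ_i)` and `β(θ_i j^r)`; the set-up is the one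
of that proof) and `TwoValRes.exists_residue_coeff₁/₂` ("the residues of the family span the
residue field"):

* `exists_residue` : for the level-`M` orthonormal basis `θ`, the reduction of every
  `x ∈ F` with integral `q`-expansion is a `κ(j̄)`-combination of the `θ̄_i`, and the reduction
  of `w x` (when integral) is a `κ(j̄)`-combination of the `θ̄_i j̄^r`, `r < q`;
* `red_mem_fullC` **(F1)** : the reduction of an element of `F` with integral `q`-expansion
  lies in the function field `modularFunctionFieldFullC κ M` of level `M` ("`f(v₁) = 1`");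
* `red_w_mem_fullC` : the same for the `q`-expansion of `w x` ("`f = 1`" on the second branch).
-/

set_option autoImplicit false
set_option linter.unusedSectionVars false

noncomputable section

namespace Fermat.Agent.S34.ResFieldG

open ModularCurve Polynomial Fermat.Agent.S18 Fermat.Agent.S18.Gauss Fermat.Agent.S34.TwoGauss

variable {L : Type*} [Field L] [Algebra ℚ L] (W : ValuationSubring L) [IsDiscreteValuationRing W]
  (M q : ℕ) [NeZero M] [NeZero q]
  (w : Fermat.Agent.S24.FF L (M * q) →ₐ[L] Fermat.Agent.S24.FF L (M * q))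
  [Fact q.Prime] [CharP (IsLocalRing.ResidueField W) q]

/-- **Residues at the two Gauss valuations.**  For the level-`M` orthonormal basis `θ`: the
reduction of an element with integral `q`-expansion is a `κ(j̄)`-combination of the `θ̄_i`; the
reduction of the `q`-expansion of `w x` is a `κ(j̄)`-combination of the `θ̄_i j̄^r`, `r < q`. -/
theorem exists_residue (hqM : ¬ q ∣ M)
    (hwα : w.comp (heckeAlphaBar L M q) = heckeBetaBar L M q)
    (hwβ : w.comp (heckeBetaBar L M q) = heckeAlphaBar L M q) :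
    ∃ θ : Fin (dedekindPsi M) → LaurentSeries ℤ,
      (∀ i, θ i ∈ Subring.closure
        {x : LaurentSeries ℤ | ∃ (d : ℕ) (_ : NeZero d), d ∣ M ∧
          x = qExpand ℤ d Fermat.Agent.S28.jInt}) ∧
      (∀ x : Fermat.Agent.S24.FF L (M * q), phi1 L M q x ∈ contentRing W →
        ∃ c : Fin (dedekindPsi M) → LaurentSeries (IsLocalRing.ResidueField W),
          (∀ i, c i ∈ kJ W) ∧
          rd W (phi1 L M q x) =
            ∑ i, c i * coeffMap (Int.castRingHom (IsLocalRing.ResidueField W)) (θ i)) ∧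
      (∀ x : Fermat.Agent.S24.FF L (M * q), phi2 L M q w x ∈ contentRing W →
        ∃ c : Fin (dedekindPsi M) × Fin q → LaurentSeries (IsLocalRing.ResidueField W),
          (∀ k, c k ∈ kJ W) ∧
          rd W (phi2 L M q w x) =
            ∑ k, c k * (coeffMap (Int.castRingHom (IsLocalRing.ResidueField W)) (θ k.1) *
              jqModC (IsLocalRing.ResidueField W) ^ (k.2 : ℕ))) := by
  classical
  have hq : q.Prime := Fact.out
  obtain ⟨π, hπ⟩ := IsDiscreteValuationRing.exists_irreducible W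
  obtain ⟨θ, hθ, hli, -, -, -⟩ := exists_orthonormal_basis W M q hqM
  obtain ⟨hfin, hle⟩ := finrank_FF_le L (M * q)
  have hΘW : ∀ i, coeffMap (Int.castRingHom L) (θ i) ∈ contentRing W := fun i =>
    coeffMap_intCast_mem_contentRing W (θ i)
  have hΘF : ∀ i, coeffMap (Int.castRingHom L) (θ i) ∈
      laurentBaseChange L (modularFunctionFieldFull M) := fun i => by
    rw [← toL_coeffMap_intCast W]
    exact (coeffMap_intCast_mem_intFull W M (hθ i)).1
  have hli' : LinearIndependent (kJ W)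
      (fun i => red W ⟨coeffMap (Int.castRingHom L) (θ i), hΘW i⟩) := by
    have hfun : (fun i => red W ⟨coeffMap (Int.castRingHom L) (θ i), hΘW i⟩) =
        fun i => coeffMap (Int.castRingHom (IsLocalRing.ResidueField W)) (θ i) :=
      funext fun i => red_coeffMap_intCast W (θ i)
    rw [hfun]
    exact hli
  let θ' : Fin (dedekindPsi M) → Fermat.Agent.S24.FF L M := fun i => ⟨_, hΘF i⟩
  have hθ' : ∀ i, phiM L M (θ' i) = coeffMap (Int.castRingHom L) (θ i) := fun i => rfl
  let b₁ : Fin (dedekindPsi M) → Fermat.Agent.S24.FF L (M * q) :=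
    fun i => heckeAlphaBar L M q (θ' i)
  let b₂ : Fin (dedekindPsi M) × Fin q → Fermat.Agent.S24.FF L (M * q) :=
    fun k => heckeBetaBar L M q (θ' k.1 * Fermat.Agent.S24.jBC L M ^ (k.2 : ℕ))
  have hb₁φ : ∀ i, phi1 L M q (b₁ i) = coeffMap (Int.castRingHom L) (θ i) := fun i => by
    show phi1 L M q (heckeAlphaBar L M q (θ' i)) = _
    rw [phi1_alpha, hθ']
  have hb₁φ' : ∀ i, phi2 L M q w (b₁ i) = qExpand L q (coeffMap (Int.castRingHom L) (θ i)) :=
    fun i => by
      show phi2 L M q w (heckeAlphaBar L M q (θ' i)) = _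
      rw [phi2_alpha w hwα, hθ']
  have hb₂φ : ∀ k, phi2 L M q w (b₂ k) =
      coeffMap (Int.castRingHom L) (θ k.1) * jqModC L ^ (k.2 : ℕ) := fun k => by
    show phi2 L M q w (heckeBetaBar L M q
      (θ' k.1 * Fermat.Agent.S24.jBC L M ^ (k.2 : ℕ))) = _
    rw [phi2_beta w hwβ, map_mul, map_pow, hθ', phiM_jBC]
  have hb₂φ' : ∀ k, phi1 L M q (b₂ k) =
      qExpand L q (coeffMap (Int.castRingHom L) (θ k.1) * jqModC L ^ (k.2 : ℕ)) := fun k => by
    show phi1 L M q (heckeBetaBar L M q
      (θ' k.1 * Fermat.Agent.S24.jBC L M ^ (k.2 : ℕ))) = _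
    rw [phi1_beta, map_mul, map_pow, hθ', phiM_jBC]
  let ϖ : ↥(baseField L M q) := baseConst M q (π : L)
  have hψϖ : psi0 L M q ϖ = HahnSeries.C ((π : W) : L) := psi0_baseConst _
  have hCπ : (HahnSeries.C ((π : W) : L) : LaurentSeries L) ≠ 0 := C_unif_ne_zero W hπ
  have hϖ0 : ϖ ≠ 0 := by
    intro h
    apply hCπ
    rw [← hψϖ, h, map_zero]
  have hϖ : ϖ ∈ baseRing W M q := by
    show psi0 L M q ϖ ∈ contentRing W
    rw [hψϖ]
    exact C_mem_contentRing W π
  have hdvd : ∀ (y : ↥(baseField L M q)) (g : LaurentSeries L), g ∈ contentRing W →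
      psi0 L M q y = HahnSeries.C ((π : W) : L) * g → ∃ d ∈ baseRing W M q, y = ϖ * d := by
    intro y g hg hyg
    refine ⟨y * ϖ⁻¹, ?_, ?_⟩
    · show psi0 L M q (y * ϖ⁻¹) ∈ contentRing W
      rw [map_mul, map_inv₀, hψϖ, hyg, mul_comm _ g, mul_assoc, mul_inv_cancel₀ hCπ, mul_one]
      exact hg
    · rw [mul_comm y, ← mul_assoc, mul_inv_cancel₀ hϖ0, one_mul]
  have hU : ∀ y : ↥(baseField L M q), y ≠ 0 → ∃ (n : ℤ) (u : ↥(baseField L M q)),
      u ∈ baseRing W M q ∧ u⁻¹ ∈ baseRing W M q ∧ y = ϖ ^ n * u := by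
    intro y hy
    have hf : psi0 L M q y ∈ fracInt W :=
      coe_mem_fracInt W (M * q) (y : Fermat.Agent.S24.FF L (M * q))
    have hf0 : psi0 L M q y ≠ 0 := (_root_.map_ne_zero _).mpr hy
    obtain ⟨n, u, hu, hured, hfu⟩ := fracInt_exists_zpow_mul_unit W hπ hf hf0
    have hϖn : ϖ ^ n ≠ 0 := zpow_ne_zero n hϖ0
    have hCn : (HahnSeries.C ((π : W) : L) : LaurentSeries L) ^ n ≠ 0 := zpow_ne_zero n hCπ
    have hval : psi0 L M q (y * (ϖ ^ n)⁻¹) = u := by
      rw [map_mul, map_inv₀, map_zpow₀, hψϖ, hfu, mul_comm _ u, mul_assoc,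
        mul_inv_cancel₀ hCn, mul_one]
    refine ⟨n, y * (ϖ ^ n)⁻¹, ?_, ?_, ?_⟩
    · show psi0 L M q (y * (ϖ ^ n)⁻¹) ∈ contentRing W
      rw [hval]
      exact hu
    · show psi0 L M q (y * (ϖ ^ n)⁻¹)⁻¹ ∈ contentRing W
      rw [map_inv₀, hval]
      exact inv_mem_contentRing W hu hured
    · rw [mul_comm y, ← mul_assoc, mul_inv_cancel₀ hϖn, one_mul]
  have h₁ : ∀ y ∈ baseRing W M q,
      algebraMap ↥(baseField L M q) (Fermat.Agent.S24.FF L (M * q)) y ∈ V1 W M q :=
    fun y hy => hy
  have h₂ : ∀ y ∈ baseRing W M q,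
      algebraMap ↥(baseField L M q) (Fermat.Agent.S24.FF L (M * q)) y ∈ V2 W M q w := by
    intro y hy
    show phi2 L M q w (y : Fermat.Agent.S24.FF L (M * q)) ∈ contentRing W
    rw [phi2_base w hwα]
    exact qExpand_mem_contentRing W q hy
  have hres : IsLocalRing.residue W π = 0 := residue_unif W hπ
  have hϖ₁ : (V1 W M q).valuation
      (algebraMap ↥(baseField L M q) (Fermat.Agent.S24.FF L (M * q)) ϖ) < 1 := by
    refine (valuation_lt_one_iff W _ _ _).mpr ?_
    have h : phi1 L M q (algebraMap ↥(baseField L M q) (Fermat.Agent.S24.FF L (M * q)) ϖ) =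
        HahnSeries.C ((π : W) : L) := hψϖ
    rw [h]
    exact ⟨C_mem_contentRing W π, by rw [rd_C, hres, map_zero]⟩
  have hϖ₂ : (V2 W M q w).valuation
      (algebraMap ↥(baseField L M q) (Fermat.Agent.S24.FF L (M * q)) ϖ) < 1 := by
    refine (valuation_lt_one_iff W _ _ _).mpr ?_
    have h : phi2 L M q w
        (algebraMap ↥(baseField L M q) (Fermat.Agent.S24.FF L (M * q)) ϖ) =
        HahnSeries.C ((π : W) : L) := by
      show phi2 L M q w (ϖ : Fermat.Agent.S24.FF L (M * q)) = _
      rw [phi2_base w hwα, hψϖ, qExpand_C]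
    rw [h]
    exact ⟨C_mem_contentRing W π, by rw [rd_C, hres, map_zero]⟩
  obtain ⟨c, hc0, hc₁, hc₂⟩ := exists_witness W M q w hwα hwβ
  obtain ⟨e₁, e₂, he₁, he₁', he₂, he₂'⟩ :=
    TwoValAbs.exists_idem (V1 W M q) (V2 W M q w) c hc0 hc₁ hc₂
  have hb₁ : ∀ i, b₁ i ∈ V1 W M q := fun i => by
    show phi1 L M q (b₁ i) ∈ contentRing W
    rw [hb₁φ]
    exact hΘW i
  have hb₁' : ∀ i, b₁ i ∈ V2 W M q w := fun i => by
    show phi2 L M q w (b₁ i) ∈ contentRing W
    rw [hb₁φ']
    exact qExpand_mem_contentRing W q (hΘW i)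
  have hb₂ : ∀ k, b₂ k ∈ V2 W M q w := fun k => by
    show phi2 L M q w (b₂ k) ∈ contentRing W
    rw [hb₂φ]
    exact mul_mem (hΘW k.1) (pow_mem (jq_mem_contentRing W) _)
  have hb₂' : ∀ k, b₂ k ∈ V1 W M q := fun k => by
    show phi1 L M q (b₂ k) ∈ contentRing W
    rw [hb₂φ']
    exact qExpand_mem_contentRing W q (mul_mem (hΘW k.1) (pow_mem (jq_mem_contentRing W) _))
  have hind₁ : ∀ a : Fin (dedekindPsi M) → ↥(baseField L M q), (∀ i, a i ∈ baseRing W M q) →
      (V1 W M q).valuation (∑ i,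
        algebraMap ↥(baseField L M q) (Fermat.Agent.S24.FF L (M * q)) (a i) * b₁ i) < 1 →
      ∀ i, ∃ d ∈ baseRing W M q, a i = ϖ * d := by
    intro a ha hval i
    obtain ⟨hmem, hred⟩ := (valuation_lt_one_iff W _ _ _).mp hval
    have hsum : phi1 L M q (∑ i,
        algebraMap ↥(baseField L M q) (Fermat.Agent.S24.FF L (M * q)) (a i) * b₁ i) =
        ∑ i, psi0 L M q (a i) * coeffMap (Int.castRingHom L) (θ i) := by
      rw [map_sum]
      refine Finset.sum_congr rfl fun i _ => ?_
      rw [map_mul, hb₁φ]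
      rfl
    rw [hsum] at hred
    have hcore := orthonormal_core W (fun i => coeffMap (Int.castRingHom L) (θ i)) hΘW hli'
      (fun i => psi0 L M q (a i)) (fun i => psi0_mem_adjoin (a i)) ha
      ((rd_of_mem W _).symm.trans hred) i
    obtain ⟨g, hg⟩ := (red_eq_zero_iff W hπ _).mp hcore
    exact hdvd (a i) g g.2 hg
  have hind₂ : ∀ a : Fin (dedekindPsi M) × Fin q → ↥(baseField L M q),
      (∀ k, a k ∈ baseRing W M q) →
      (V2 W M q w).valuation (∑ k,
        algebraMap ↥(baseField L M q) (Fermat.Agent.S24.FF L (M * q)) (a k) * b₂ k) < 1 →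
      ∀ k, ∃ d ∈ baseRing W M q, a k = ϖ * d := by
    intro a ha hval k
    obtain ⟨hmem, hred⟩ := (valuation_lt_one_iff W _ _ _).mp hval
    have hsum : phi2 L M q w (∑ k,
        algebraMap ↥(baseField L M q) (Fermat.Agent.S24.FF L (M * q)) (a k) * b₂ k) =
        ∑ k, qExpand L q (psi0 L M q (a k)) *
          (coeffMap (Int.castRingHom L) (θ k.1) * jqModC L ^ (k.2 : ℕ)) := by
      rw [map_sum]
      refine Finset.sum_congr rfl fun k _ => ?_
      rw [map_mul, hb₂φ]
      congr 1
      exact phi2_base w hwα (a k)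
    rw [hsum] at hred
    have hcore := hind2_aux W q θ hli (fun k => psi0 L M q (a k))
      (fun k => psi0_mem_adjoin (a k)) ha hred k
    obtain ⟨g, hg, hgeq⟩ := (rd_eq_zero_iff W hπ (ha k)).mp hcore
    exact hdvd (a k) g hg hgeq
  have hdeg : Module.finrank ↥(baseField L M q) (Fermat.Agent.S24.FF L (M * q)) ≤
      Fintype.card (Fin (dedekindPsi M)) + Fintype.card (Fin (dedekindPsi M) × Fin q) := by
    have h2 : dedekindPsi (M * q) = (q + 1) * dedekindPsi M := by
      rw [mul_comm M q]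
      exact Fermat.Agent.S20.Comb.dedekindPsi_mul_of_not_dvd (NeZero.ne M) hq hqM
    rw [Fintype.card_prod, Fintype.card_fin, Fintype.card_fin]
    refine hle.trans (le_of_eq ?_)
    rw [h2]
    ring
  have := hfin
  refine ⟨θ, hθ, fun x hx₁ => ?_, fun x hx₂ => ?_⟩
  · -- first branch
    obtain ⟨a, ha, hval⟩ := TwoValRes.exists_residue_coeff₁ hϖ hϖ0 hU h₁ h₂ hϖ₁ hϖ₂ he₁ he₁' he₂
      he₂' hb₁ hb₁' hind₁ hb₂ hb₂' hind₂ hdeg x hx₁
    obtain ⟨hmem, hred⟩ := (valuation_lt_one_iff W _ _ _).mp hval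
    have hsum : phi1 L M q (∑ i,
        algebraMap ↥(baseField L M q) (Fermat.Agent.S24.FF L (M * q)) (a i) * b₁ i) =
        ∑ i, psi0 L M q (a i) * coeffMap (Int.castRingHom L) (θ i) := by
      rw [map_sum]
      refine Finset.sum_congr rfl fun i _ => ?_
      rw [map_mul, hb₁φ]
      rfl
    have hterm : ∀ i, psi0 L M q (a i) * coeffMap (Int.castRingHom L) (θ i) ∈ contentRing W :=
      fun i => mul_mem (ha i) (hΘW i)
    have hS : (∑ i, psi0 L M q (a i) * coeffMap (Int.castRingHom L) (θ i)) ∈ contentRing W :=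
      sum_mem fun i _ => hterm i
    rw [map_sub, hsum, rd_sub W hx₁ hS, sub_eq_zero] at hred
    refine ⟨fun i => rd W (psi0 L M q (a i)),
      fun i => rd_mem_kJ W (psi0_mem_adjoin (a i)) (ha i), ?_⟩
    rw [hred, rd_sum W _ _ (fun i _ => hterm i)]
    refine Finset.sum_congr rfl fun i _ => ?_
    rw [rd_mul W (ha i) (hΘW i), rd_intCast]
  · -- second branch
    obtain ⟨a, ha, hval⟩ := TwoValRes.exists_residue_coeff₂ hϖ hϖ0 hU h₁ h₂ hϖ₁ hϖ₂ he₁ he₁' he₂
      he₂' hb₁ hb₁' hind₁ hb₂ hb₂' hind₂ hdeg x hx₂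
    obtain ⟨hmem, hred⟩ := (valuation_lt_one_iff W _ _ _).mp hval
    have hsum : phi2 L M q w (∑ k,
        algebraMap ↥(baseField L M q) (Fermat.Agent.S24.FF L (M * q)) (a k) * b₂ k) =
        ∑ k, qExpand L q (psi0 L M q (a k)) *
          (coeffMap (Int.castRingHom L) (θ k.1) * jqModC L ^ (k.2 : ℕ)) := by
      rw [map_sum]
      refine Finset.sum_congr rfl fun k _ => ?_
      rw [map_mul, hb₂φ]
      congr 1
      exact phi2_base w hwα (a k)
    have hq1 : ∀ k, qExpand L q (psi0 L M q (a k)) ∈ contentRing W :=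
      fun k => qExpand_mem_contentRing W q (ha k)
    have hq2 : ∀ k : Fin (dedekindPsi M) × Fin q,
        coeffMap (Int.castRingHom L) (θ k.1) * jqModC L ^ (k.2 : ℕ) ∈ contentRing W :=
      fun k => mul_mem (hΘW k.1) (pow_mem (jq_mem_contentRing W) _)
    have hterm : ∀ k : Fin (dedekindPsi M) × Fin q, qExpand L q (psi0 L M q (a k)) *
        (coeffMap (Int.castRingHom L) (θ k.1) * jqModC L ^ (k.2 : ℕ)) ∈ contentRing W :=
      fun k => mul_mem (hq1 k) (hq2 k)
    rw [map_sub, hsum, rd_sub W hx₂ (sum_mem fun k _ => hterm k), sub_eq_zero] at hred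
    refine ⟨fun k => qExpand (IsLocalRing.ResidueField W) q (rd W (psi0 L M q (a k))),
      fun k => qExpand_mem_kJ W q (rd_mem_kJ W (psi0_mem_adjoin (a k)) (ha k)), ?_⟩
    rw [hred, rd_sum W _ _ (fun k _ => hterm k)]
    refine Finset.sum_congr rfl fun k _ => ?_
    rw [rd_mul W (hq1 k) (hq2 k), rd_qExpand W q (ha k),
      rd_mul W (hΘW k.1) (pow_mem (jq_mem_contentRing W) _), rd_intCast,
      rd_pow W (jq_mem_contentRing W), rd_jq]

/-- `κ(j̄)` is contained in the function field of level `M` over `κ`. -/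
theorem kJ_le_fullC :
    ∀ y ∈ kJ W, y ∈ modularFunctionFieldFullC (IsLocalRing.ResidueField W) M := by
  have hle : kJ W ≤ modularFunctionFieldFullC (IsLocalRing.ResidueField W) M := by
    rw [IntermediateField.adjoin_le_iff]
    rintro _ rfl
    exact jqModC_mem_full (IsLocalRing.ResidueField W) M
  exact fun y hy => hle hy

/-- The reductions of the level-`M` integral generators lie in the function field of level `M`
over `κ`. -/
theorem theta_mem_fullC (hqM : ¬ q ∣ M) {θ : LaurentSeries ℤ}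
    (hθ : θ ∈ Subring.closure
      {x : LaurentSeries ℤ | ∃ (d : ℕ) (_ : NeZero d), d ∣ M ∧
        x = qExpand ℤ d Fermat.Agent.S28.jInt}) :
    coeffMap (Int.castRingHom (IsLocalRing.ResidueField W)) θ ∈
      modularFunctionFieldFullC (IsLocalRing.ResidueField W) M := by
  have hΘF : coeffMap (Int.castRingHom L) θ ∈
      laurentBaseChange L (modularFunctionFieldFull M) := by
    rw [← toL_coeffMap_intCast W]
    exact (coeffMap_intCast_mem_intFull W M hθ).1
  have h := red_mem_fullC W M q hqM hΘF (coeffMap_intCast_mem_contentRing W θ)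
  rwa [red_coeffMap_intCast W θ] at h

/-- **(F1)**: the reduction of an element of `FF L (M * q)` with integral `q`-expansion lies in
the function field of level `M` over the residue field. -/
theorem red_mem_fullC_level (hqM : ¬ q ∣ M)
    (hwα : w.comp (heckeAlphaBar L M q) = heckeBetaBar L M q)
    (hwβ : w.comp (heckeBetaBar L M q) = heckeAlphaBar L M q)
    (x : Fermat.Agent.S24.FF L (M * q)) (hx : (x : LaurentSeries L) ∈ contentRing W) :
    red W ⟨(x : LaurentSeries L), hx⟩ ∈
      modularFunctionFieldFullC (IsLocalRing.ResidueField W) M := by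
  obtain ⟨θ, hθ, h1, -⟩ := exists_residue W M q w hqM hwα hwβ
  obtain ⟨c, hc, hsum⟩ := h1 x hx
  have e : red W ⟨(x : LaurentSeries L), hx⟩ = rd W (phi1 L M q x) := (rd_of_mem W hx).symm
  rw [e, hsum]
  exact sum_mem fun i _ => mul_mem (kJ_le_fullC W M _ (hc i)) (theta_mem_fullC W M q hqM (hθ i))

/-- **(F1), second branch**: the reduction of the `q`-expansion of `w x` lies in the function
field of level `M` over the residue field. -/
theorem red_w_mem_fullC_level (hqM : ¬ q ∣ M)
    (hwα : w.comp (heckeAlphaBar L M q) = heckeBetaBar L M q)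
    (hwβ : w.comp (heckeBetaBar L M q) = heckeAlphaBar L M q)
    (x : Fermat.Agent.S24.FF L (M * q))
    (hx : ((w x : Fermat.Agent.S24.FF L (M * q)) : LaurentSeries L) ∈ contentRing W) :
    red W ⟨((w x : Fermat.Agent.S24.FF L (M * q)) : LaurentSeries L), hx⟩ ∈
      modularFunctionFieldFullC (IsLocalRing.ResidueField W) M := by
  obtain ⟨θ, hθ, -, h2⟩ := exists_residue W M q w hqM hwα hwβ
  obtain ⟨c, hc, hsum⟩ := h2 x hx
  have e : red W ⟨((w x : Fermat.Agent.S24.FF L (M * q)) : LaurentSeries L), hx⟩ =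
      rd W (phi2 L M q w x) := (rd_of_mem W hx).symm
  rw [e, hsum]
  exact sum_mem fun k _ => mul_mem (kJ_le_fullC W M _ (hc k))
    (mul_mem (theta_mem_fullC W M q hqM (hθ k.1))
      (pow_mem (jqModC_mem_full (IsLocalRing.ResidueField W) M) _))

end Fermat.Agent.S34.ResFieldG
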