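import Mathlib
import Fermat.Agent.S34.CompFin
import Fermat.Agent.S34.TwoGauss
import Fermat.Agent.S34.ResFieldG

/-!
# S34, (DICH₁), hypothesis-free: the closed points of the finite chart of level `M q`

`A` a valuation subring of `ℚ̄` over `q`, `(L, ι)` a Galois-stable level, `W = A.comap ι` a
discrete valuation ring with algebraically closed residue field of characteristic `q ∤ M`.

`dich_fin_level` / `dich_fin_struct_level`: for every carrier `B` of the finite chart of level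
`M q` (integral closure of `W[X]`, `X ↦ j`, in `S24.FF L (M * q)`) and every maximal ideal
`𝔫 ∋ ϖ`, the maximal ideal of `R = B_𝔫` is `(ϖ, u)` (smooth point) or `(ϖ, X, Y)` with
`ϖ ∣ X Y` (node).

This is `CompFin.dich_fin` with its two remaining inputs discharged: (V3a) by
`TwoGauss.exists_isIntegralElem_of_mem_both` and (F1) by `ResFieldG.red_mem_fullC_level`, for
the Atkin–Lehner automorphism of `FrobPartner.exists_atkinLehner_level`.
-/

set_option autoImplicit false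
set_option linter.unusedSectionVars false
set_option linter.style.haveILetI false

noncomputable section

namespace Fermat.Agent.S34.CompLevel

open Polynomial ModularCurve Fermat.Agent.S18 Fermat.Agent.S18.Gauss Fermat.Agent.S37
  IsLocalRing

local notation "Qb" => AlgebraicClosure ℚ

/-- the two evaluation maps `W[X] → FF L N`, `X ↦ j`, of S18 agree -/
theorem pgglue_evF_eq {L : Type*} [Field L] [Algebra ℚ L] (W : ValuationSubring L) (N : ℕ)
    [NeZero N] : PGGlue.evF W N = Gauss.evF W N := by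
  apply Polynomial.ringHom_ext
  · intro a
    rw [evF_C]
    simp [PGGlue.evF]
  · rw [evF_X]
    simp [PGGlue.evF]

variable (A : ValuationSubring Qb) {L : Type} [Field L] [Algebra ℚ L] (ι : L →+* Qb)
  (M q : ℕ) [NeZero M] [NeZero q]
  [IsDiscreteValuationRing ↥(A.comap ι)]
  [IsAlgClosed (IsLocalRing.ResidueField ↥(A.comap ι))]
  [CharP (IsLocalRing.ResidueField ↥(A.comap ι)) q]

/-- **(DICH₁), finite chart of level `M q`, no open hypothesis**, global coordinates. -/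
theorem dich_fin_level (hq : q.Prime) (hqM : ¬ q ∣ M) (hA : A.LiesOverPrime q)
    (hstab : Fermat.Agent.S34.GalLevel.IsStable ι)
    (hroots : ∀ x : Qb, (∃ n : ℕ, ¬ q ∣ n ∧ x ^ n = 1) → ∃ b : L, ι b = x)
    (π : ↥(A.comap ι)) (hπ : Irreducible π)
    [Algebra (↥(A.comap ι))[X] (Fermat.Agent.S24.FF L (M * q))]
    (halg : algebraMap (↥(A.comap ι))[X] (Fermat.Agent.S24.FF L (M * q)) =
      evF (A.comap ι) (M * q))
    (B : Type*) [CommRing B] [Algebra (↥(A.comap ι))[X] B]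
    [Algebra B (Fermat.Agent.S24.FF L (M * q))]
    [IsScalarTower (↥(A.comap ι))[X] B (Fermat.Agent.S24.FF L (M * q))]
    [IsIntegralClosure B (↥(A.comap ι))[X] (Fermat.Agent.S24.FF L (M * q))]
    (𝔫 : Ideal B) [𝔫.IsMaximal] (hπ𝔫 : algebraMap (↥(A.comap ι))[X] B (C π) ∈ 𝔫)
    (R : Type*) [CommRing R] [Algebra B R] [IsLocalization.AtPrime R 𝔫] [IsLocalRing R] :
    (∃ u ∈ 𝔫, maximalIdeal R =
        Ideal.span {algebraMap B R (algebraMap (↥(A.comap ι))[X] B (C π)), algebraMap B R u}) ∨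
    (∃ X ∈ 𝔫, ∃ Y ∈ 𝔫, algebraMap (↥(A.comap ι))[X] B (C π) ∣ X * Y ∧ maximalIdeal R =
        Ideal.span {algebraMap B R (algebraMap (↥(A.comap ι))[X] B (C π)), algebraMap B R X,
          algebraMap B R Y}) := by
  haveI : Fact q.Prime := ⟨hq⟩
  obtain ⟨w, hwα, hwβ⟩ := FrobPartner.exists_atkinLehner_level ι M q hq hqM
  refine CompFin.dich_fin A ι M q hq hqM hA hstab hroots π hπ w hwα hwβ ?_ ?_ halg B 𝔫 hπ𝔫 R
  · intro z hz1 hz2
    obtain ⟨S, hS, hSz⟩ := TwoGauss.exists_isIntegralElem_of_mem_both (A.comap ι) M q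
      (w : Fermat.Agent.S24.FF L (M * q) →ₐ[L] Fermat.Agent.S24.FF L (M * q)) hqM hwα hwβ z
      hz1 hz2
    rw [pgglue_evF_eq] at hSz
    exact ⟨S, hS, hSz⟩
  · intro x hx
    exact ResFieldG.red_mem_fullC_level (A.comap ι) M q
      (w : Fermat.Agent.S24.FF L (M * q) →ₐ[L] Fermat.Agent.S24.FF L (M * q)) hqM hwα hwβ x hx

/-- **(DICH₁), no open hypothesis, in the `hstruct` shape** of `LocDD.hloc_of_struct`
(`algebraMap W R ϖ`, coordinates in `R = B_𝔫`). -/
theorem dich_fin_struct_level (hq : q.Prime) (hqM : ¬ q ∣ M) (hA : A.LiesOverPrime q)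
    (hstab : Fermat.Agent.S34.GalLevel.IsStable ι)
    (hroots : ∀ x : Qb, (∃ n : ℕ, ¬ q ∣ n ∧ x ^ n = 1) → ∃ b : L, ι b = x)
    (π : ↥(A.comap ι)) (hπ : Irreducible π)
    [Algebra (↥(A.comap ι))[X] (Fermat.Agent.S24.FF L (M * q))]
    (halg : algebraMap (↥(A.comap ι))[X] (Fermat.Agent.S24.FF L (M * q)) =
      evF (A.comap ι) (M * q))
    (B : Type*) [CommRing B] [Algebra (↥(A.comap ι))[X] B]
    [Algebra B (Fermat.Agent.S24.FF L (M * q))]
    [IsScalarTower (↥(A.comap ι))[X] B (Fermat.Agent.S24.FF L (M * q))]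
    [IsIntegralClosure B (↥(A.comap ι))[X] (Fermat.Agent.S24.FF L (M * q))]
    [Algebra ↥(A.comap ι) B] [IsScalarTower ↥(A.comap ι) (↥(A.comap ι))[X] B]
    (𝔫 : Ideal B) [𝔫.IsMaximal] (hπ𝔫 : algebraMap ↥(A.comap ι) B π ∈ 𝔫)
    (R : Type*) [CommRing R] [Algebra B R] [IsLocalization.AtPrime R 𝔫] [IsLocalRing R]
    [Algebra ↥(A.comap ι) R] [IsScalarTower ↥(A.comap ι) B R] :
    (∃ u : R, maximalIdeal R = Ideal.span {algebraMap ↥(A.comap ι) R π, u}) ∨
    ∃ X Y : R, maximalIdeal R = Ideal.span {algebraMap ↥(A.comap ι) R π, X, Y} ∧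
      algebraMap ↥(A.comap ι) R π ∣ X * Y := by
  haveI : Fact q.Prime := ⟨hq⟩
  obtain ⟨w, hwα, hwβ⟩ := FrobPartner.exists_atkinLehner_level ι M q hq hqM
  refine CompFin.dich_fin_struct A ι M q hq hqM hA hstab hroots π hπ w hwα hwβ ?_ ?_ halg B 𝔫
    hπ𝔫 R
  · intro z hz1 hz2
    obtain ⟨S, hS, hSz⟩ := TwoGauss.exists_isIntegralElem_of_mem_both (A.comap ι) M q
      (w : Fermat.Agent.S24.FF L (M * q) →ₐ[L] Fermat.Agent.S24.FF L (M * q)) hqM hwα hwβ z
      hz1 hz2
    rw [pgglue_evF_eq] at hSz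
    exact ⟨S, hS, hSz⟩
  · intro x hx
    exact ResFieldG.red_mem_fullC_level (A.comap ι) M q
      (w : Fermat.Agent.S24.FF L (M * q) →ₐ[L] Fermat.Agent.S24.FF L (M * q)) hqM hwα hwβ x hx

end Fermat.Agent.S34.CompLevel
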