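/-
S34 (wave 6), package BR (helper10): the currency bridge for the final instantiation.

`S34.KummerStep.kummer_step` / `S34.KummerInd.kummer_descent` are stated for an abstract tower
`W → L → F` with `[Algebra W F]`, in the `S18.Endgame` currency (`IsInt`, `InC`, `GaussOne`,
`integralClosure (Algebra.adjoin W {j}) F`).  The instance packages work at `F = S24.FF L N`
over `W : ValuationSubring L` in the raw `S18.Gauss` currency (`evF W N`, `evFinf W N`,
`IsIntegralElem`).  This file provides the dictionary at `F = FF L N`: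

* `algW W N` : the `W`-algebra structure on `FF L N` (= `S18.GeoEnd.algW W N (FF L N)`), with
  `isScalarTower`;
* `isIntegral_adjoin_iff`, `isIntegral_adjoin_inv_iff` : integrality over `W[j]`, `W[1/j]`
  in subalgebra currency `⟺` `(evF W N).IsIntegralElem`, `(evFinf W N).IsIntegralElem`;
* `inC_iff`, `gaussOne_iff` : Gauss-integrality and `GaussOne` in raw currency;
* `not_C_dvd_iff` : `¬ C π ∣ S ⟺ S.map (residue W) ≠ 0`;
* the standing hypotheses of the Kummer tower at a level of `ℚ̄`: `transcendental_j`,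
  `finiteDimensional_j`, `hconst`, `isUnit_natCast`, `exists_primitiveRoot`.
-/
import Mathlib
import Fermat.Agent.S18.GeoEnd
import Fermat.Agent.S18.GaussChart
import Fermat.Agent.S18.GaussDegree
import Fermat.Agent.S18.RamJIdeal
import Fermat.Agent.S18.KSetup
import Fermat.Agent.S34.KummerStep
import Fermat.Agent.S34.ConstClosed

set_option autoImplicit false
set_option linter.style.haveILetI false
set_option linter.unusedSectionVars false

noncomputable section

namespace Fermat.Agent.S34.Bridge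

open Polynomial Fermat.Agent.S18 Fermat.Agent.S18.Contracts Fermat.Agent.S34.KummerStep

local notation "Qb" => AlgebraicClosure ℚ

section Dict

variable {L : Type} [Field L] [Algebra ℚ L] (W : ValuationSubring L) (N : ℕ) [NeZero N]

/-- The `W`-algebra structure on `FF L N` (that of `S18.GeoEnd.algW` at `F2 := FF L N`). -/
@[reducible] def algW : Algebra ↥W (S24.FF L N) := GeoEnd.algW W N (S24.FF L N)

theorem algebraMap_algW (a : ↥W) :
    letI := algW W N
    algebraMap ↥W (S24.FF L N) a = algebraMap L (S24.FF L N) (a : L) := rfl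

/-- `W → L → FF L N` is a scalar tower. -/
theorem isScalarTower :
    letI := algW W N
    IsScalarTower ↥W L (S24.FF L N) := by
  letI := algW W N
  exact IsScalarTower.of_algebraMap_eq (fun a => rfl)

/-- Evaluation at `j`, in the `S18.Endgame` currency, is `evF`. -/
theorem ev_eq_evF :
    letI := algW W N
    Endgame.ev ↥W (S24.jBC L N) = Gauss.evF W N := by
  letI := algW W N
  have h := GeoEnd.ev_eq_evAt W N (F2 := S24.FF L N) (S24.jBC L N)
  rw [h]
  exact GeoEnd.evAt_self_eq_evF W N

/-- Evaluation at `1/j`, in the `S18.Endgame` currency, is `evFinf`. -/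
theorem ev_inv_eq_evFinf :
    letI := algW W N
    Endgame.ev ↥W (S24.jBC L N)⁻¹ = Gauss.evFinf W N := by
  letI := algW W N
  have h := GeoEnd.ev_eq_evAt W N (F2 := S24.FF L N) (S24.jBC L N)⁻¹
  rw [h]
  exact Polynomial.ringHom_ext
    (fun a => (GeoEnd.evAt_C W N _ a).trans (Gauss.evFinf_C W N a).symm)
    ((GeoEnd.evAt_X W N _).trans (Gauss.evFinf_X W N).symm)

theorem isInt_iff (y : S24.FF L N) :
    letI := algW W N
    Endgame.IsInt ↥W (S24.jBC L N) y ↔ (Gauss.evF W N).IsIntegralElem y := by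
  letI := algW W N
  rw [Endgame.IsInt, ev_eq_evF]

theorem isInt_inv_iff (y : S24.FF L N) :
    letI := algW W N
    Endgame.IsInt ↥W (S24.jBC L N)⁻¹ y ↔ (Gauss.evFinf W N).IsIntegralElem y := by
  letI := algW W N
  rw [Endgame.IsInt, ev_inv_eq_evFinf]

/-- (b1) Integrality over the subalgebra `W[j]` is `(evF W N).IsIntegralElem`. -/
theorem isIntegral_adjoin_iff (y : S24.FF L N) :
    letI := algW W N
    IsIntegral (Algebra.adjoin ↥W {S24.jBC L N}) y ↔ (Gauss.evF W N).IsIntegralElem y := by
  letI := algW W N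
  rw [← isInt_iff]
  exact (Endgame.isInt_iff_isIntegral_adjoin (W := ↥W) (F := S24.FF L N) (Y := S24.FF L N)
    (S24.jBC L N) y).symm

/-- (b2) Integrality over the subalgebra `W[1/j]` is `(evFinf W N).IsIntegralElem`. -/
theorem isIntegral_adjoin_inv_iff (y : S24.FF L N) :
    letI := algW W N
    IsIntegral (Algebra.adjoin ↥W {(S24.jBC L N)⁻¹}) y ↔ (Gauss.evFinf W N).IsIntegralElem y := by
  letI := algW W N
  rw [← isInt_inv_iff]
  exact (Endgame.isInt_iff_isIntegral_adjoin (W := ↥W) (F := S24.FF L N) (Y := S24.FF L N)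
    (S24.jBC L N)⁻¹ y).symm

theorem aeval_eq_evF (S : (↥W)[X]) :
    letI := algW W N
    aeval (S24.jBC L N) S = Gauss.evF W N S := by
  letI := algW W N
  rw [← ev_eq_evF]
  rfl

theorem aeval_inv_eq_evFinf (S : (↥W)[X]) :
    letI := algW W N
    aeval (S24.jBC L N)⁻¹ S = Gauss.evFinf W N S := by
  letI := algW W N
  rw [← ev_inv_eq_evFinf]
  rfl

/-- (b3) Gauss-integrality in raw currency. -/
theorem inC_iff (π : ↥W) (z : S24.FF L N) :
    letI := algW W N
    Endgame.InC π (S24.jBC L N) z ↔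
      ∃ S : (↥W)[X], ¬ C π ∣ S ∧ (Gauss.evF W N).IsIntegralElem (Gauss.evF W N S * z) := by
  letI := algW W N
  refine exists_congr fun S => and_congr Iff.rfl ?_
  rw [isInt_iff, aeval_eq_evF]

/-- (b4) `GaussOne` in raw currency. -/
theorem gaussOne_iff (π : ↥W) (g : S24.FF L N) :
    letI := algW W N
    GaussOne π (S24.jBC L N) g ↔
      ∃ S : (↥W)[X], ¬ C π ∣ S ∧ ∃ ω : S24.FF L N, (Gauss.evF W N).IsIntegralElem ω ∧
        Gauss.evF W N S * (g - 1) = algebraMap L (S24.FF L N) (π : L) * ω := by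
  letI := algW W N
  refine exists_congr fun S => and_congr Iff.rfl (exists_congr fun ω => ?_)
  rw [isIntegral_adjoin_iff, aeval_eq_evF]
  rfl

/-- `¬ C π ∣ S` is nonvanishing of the reduction of `S`. -/
theorem not_C_dvd_iff [IsDiscreteValuationRing ↥W] {π : ↥W} (hπ : Irreducible π)
    (S : (↥W)[X]) :
    ¬ C π ∣ S ↔ S.map (IsLocalRing.residue ↥W) ≠ 0 :=
  not_congr (Gauss.map_residue_eq_zero_iff_C_dvd W hπ S).symm

end Dict

/-! ### The standing hypotheses of the Kummer tower at a level of `ℚ̄` -/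

section Level

variable {L : Type} [Field L] [Algebra ℚ L] (ι : L →+* Qb) (N : ℕ) [NeZero N]

include ι in
/-- `j` is transcendental over the constants. -/
theorem transcendental_j : Transcendental L (S24.jBC L N) :=
  Fermat.Agent.S18.RamJ.transcendental_jBC ι N

/-- `FF L N` is finite over `L(j)`. -/
theorem finiteDimensional_j :
    FiniteDimensional (IntermediateField.adjoin L {S24.jBC L N}) (S24.FF L N) :=
  (Gauss.finrank_FF_le L N).1

/-- The constants are algebraically closed in `FF L N`. -/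
theorem hconst (c : S24.FF L N) (hc : IsAlgebraic L c) :
    ∃ a : L, algebraMap L (S24.FF L N) a = c :=
  ConstClosed.hconst_FF N c hc

variable (W : ValuationSubring L)

/-- Integers prime to the residue characteristic are units of `W`. -/
theorem isUnit_natCast {ℓ : ℕ} [CharP (IsLocalRing.ResidueField ↥W) ℓ] (n : ℕ) (hn : ¬ ℓ ∣ n) :
    IsUnit ((n : ℕ) : ↥W) := by
  by_contra hnu
  have h0 : IsLocalRing.residue ↥W ((n : ℕ) : ↥W) = 0 :=
    (IsLocalRing.residue_eq_zero_iff _).mpr ((IsLocalRing.mem_maximalIdeal _).mpr hnu)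
  rw [map_natCast] at h0
  exact hn ((CharP.cast_eq_zero_iff (IsLocalRing.ResidueField ↥W) ℓ n).mp h0)

omit [Algebra ℚ L] in
/-- `W` contains a primitive `n`-th root of unity for every `n` prime to `ℓ`, as soon as the
level contains the roots of unity of order prime to `ℓ`. -/
theorem exists_primitiveRoot {ℓ : ℕ}
    (hroots : ∀ x : Qb, (∃ n : ℕ, ¬ ℓ ∣ n ∧ x ^ n = 1) → ∃ b : L, ι b = x)
    (n : ℕ) (hn0 : n ≠ 0) (hn : ¬ ℓ ∣ n) : ∃ ζ : ↥W, IsPrimitiveRoot ζ n := by
  haveI : NeZero n := ⟨hn0⟩
  obtain ⟨ζ₀, hζ₀⟩ := HasEnoughRootsOfUnity.exists_primitiveRoot Qb n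
  obtain ⟨b, hb⟩ := hroots ζ₀ ⟨n, hn, hζ₀.pow_eq_one⟩
  have hbp : IsPrimitiveRoot b n := by
    rw [← hb] at hζ₀
    exact IsPrimitiveRoot.of_map_of_injective (f := ι) hζ₀ ι.injective
  have hbW : b ∈ W := Fermat.Agent.S18.KSetup.mem_of_pow_eq_one W hn0 hbp.pow_eq_one
  exact ⟨⟨b, hbW⟩, IsPrimitiveRoot.of_map_of_injective (f := W.subtype) hbp W.subtype_injective⟩

end Level

end Fermat.Agent.S34.Bridge
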