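import Mathlib
import Fermat.Agent.S34.Bridge
import Fermat.Agent.S37.GaussPrime

/-!
# S34, package B2: (S1) on the chart at infinity (and on the finite chart), raw currency

Level `N` (the prime of the special fibre may divide `N`), `F = S24.FF L N`, `W` a discrete
valuation ring of `L` with uniformiser `ϖ`, `w` any automorphism of `F` (the Atkin–Lehner
involution), and the contract (K-V3a) as a hypothesis:

  `hV : x, w x` have integral `q`-expansion  ⟹  `S(j) * x` is integral over `W[j]` for some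
  `S ∈ W[X]` with nonzero reduction.

* `s1_inf` : an element integral over `W[1/j]` whose reductions at both Gauss valuations vanish
  (`red x = 0`, `red (w x) = 0`) is `ϖ` times an element integral over `W[1/j]`.
* `s1_fin` : the same on the chart `W[j]`.
* `sat_inf`, `sat_fin` : the saturation statements behind them (`ϖ * y` integral over the chart,
  `y` and `w y` with integral `q`-expansion ⟹ `y` integral over the chart).

This is `πB = 𝔭₁ ∩ 𝔭₂` of the blueprint on both charts.
-/

set_option autoImplicit false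
set_option linter.style.haveILetI false
set_option linter.unusedSectionVars false

noncomputable section

namespace Fermat.Agent.S34.CuspS1

open Polynomial Fermat.Agent.S18 Fermat.Agent.S18.Gauss Fermat.Agent.S34.KummerStep

local notation "Qb" => AlgebraicClosure ℚ

variable {L : Type} [Field L] [Algebra ℚ L] (ι : L →+* Qb) (W : ValuationSubring L)
  [IsDiscreteValuationRing ↥W] (N : ℕ) [NeZero N]

include ι in
/-- `j` is transcendental over `W`. -/
theorem transcendental_W :
    letI := Bridge.algW W N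
    Transcendental ↥W (S24.jBC L N) := by
  letI := Bridge.algW W N
  haveI := Bridge.isScalarTower W N
  have hj := Bridge.transcendental_j ι N
  intro ⟨p, hp0, hp⟩
  refine hj ⟨p.map (algebraMap ↥W L),
    (Polynomial.map_ne_zero_iff (IsFractionRing.injective ↥W L)).mpr hp0, ?_⟩
  rw [aeval_map_algebraMap]; exact hp

variable {W N}

include ι in
/-- **Saturation of the chart at infinity**: `ϖ * y` integral over `W[1/j]` and `y` Gauss-integral
(`S(j) * y` integral over `W[j]`, `S` with nonzero reduction) imply `y` integral over `W[1/j]`. -/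
theorem sat_inf {ϖ : ↥W} (hϖ : Irreducible ϖ) (y : S24.FF L N)
    (hy : ∃ S : (↥W)[X], S.map (IsLocalRing.residue ↥W) ≠ 0 ∧
      (evF W N).IsIntegralElem (evF W N S * y))
    (h : (evFinf W N).IsIntegralElem (algebraMap L (S24.FF L N) ((ϖ : ↥W) : L) * y)) :
    (evFinf W N).IsIntegralElem y := by
  letI := Bridge.algW W N
  have hjW := transcendental_W ι W N
  have hj0 : S24.jBC L N ≠ 0 := Endgame.ne_zero_of_transcendental hjW
  have hinC : Endgame.InC ϖ (S24.jBC L N) y := by
    rw [Bridge.inC_iff]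
    obtain ⟨S, hS, hSy⟩ := hy
    exact ⟨S, (Bridge.not_C_dvd_iff W hϖ S).mpr hS, hSy⟩
  have hinC' : Endgame.InC ϖ (S24.jBC L N)⁻¹ y := Endgame.InC.to_inv hj0 hinC
  rw [← Bridge.isInt_inv_iff] at h ⊢
  exact Endgame.isInt_of_inC hϖ.prime (Endgame.transcendental_inv hjW) h hinC'

include ι in
/-- **Saturation of the finite chart.** -/
theorem sat_fin {ϖ : ↥W} (hϖ : Irreducible ϖ) (y : S24.FF L N)
    (hy : ∃ S : (↥W)[X], S.map (IsLocalRing.residue ↥W) ≠ 0 ∧
      (evF W N).IsIntegralElem (evF W N S * y))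
    (h : (evF W N).IsIntegralElem (algebraMap L (S24.FF L N) ((ϖ : ↥W) : L) * y)) :
    (evF W N).IsIntegralElem y := by
  letI := Bridge.algW W N
  have hjW := transcendental_W ι W N
  have hinC : Endgame.InC ϖ (S24.jBC L N) y := by
    rw [Bridge.inC_iff]
    obtain ⟨S, hS, hSy⟩ := hy
    exact ⟨S, (Bridge.not_C_dvd_iff W hϖ S).mpr hS, hSy⟩
  rw [← Bridge.isInt_iff] at h ⊢
  exact Endgame.isInt_of_inC hϖ.prime hjW h hinC

/-- an element whose two reductions vanish is `ϖ` times an element with both `q`-expansions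
integral -/
theorem exists_eq_unif_mul {ϖ : ↥W} (hϖ : Irreducible ϖ) (w : S24.FF L N ≃ₐ[L] S24.FF L N)
    (x : S24.FF L N) (hx : (x : LaurentSeries L) ∈ contentRing W) (hred : red W ⟨x, hx⟩ = 0)
    (hwx : ((w x : S24.FF L N) : LaurentSeries L) ∈ contentRing W)
    (hwred : red W ⟨(w x : S24.FF L N), hwx⟩ = 0) :
    ∃ y : S24.FF L N, (y : LaurentSeries L) ∈ contentRing W ∧
      ((w y : S24.FF L N) : LaurentSeries L) ∈ contentRing W ∧
      x = algebraMap L (S24.FF L N) ((ϖ : ↥W) : L) * y := by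
  obtain ⟨y, hy, hxy⟩ := Fermat.Agent.S37.GaussPrime.exists_eq_unif_mul_of_red hϖ x hx hred
  obtain ⟨y', hy', hxy'⟩ :=
    Fermat.Agent.S37.GaussPrime.exists_eq_unif_mul_of_red hϖ (w x) hwx hwred
  refine ⟨y, hy, ?_, hxy⟩
  have h0 : algebraMap L (S24.FF L N) ((ϖ : ↥W) : L) ≠ 0 :=
    Fermat.Agent.S37.GaussPrime.unif_ne_zero hϖ
  have h1 : w x = algebraMap L (S24.FF L N) ((ϖ : ↥W) : L) * w y := by
    rw [hxy, map_mul, AlgEquiv.commutes]
  have h2 : w y = y' := mul_left_cancel₀ h0 (h1.symm.trans hxy')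
  rw [h2]; exact hy'

include ι in
/-- **(S1) on the chart at infinity**, raw currency, from the contract (K-V3a). -/
theorem s1_inf {ϖ : ↥W} (hϖ : Irreducible ϖ) (w : S24.FF L N ≃ₐ[L] S24.FF L N)
    (hV : ∀ x : S24.FF L N, (x : LaurentSeries L) ∈ contentRing W →
      ((w x : S24.FF L N) : LaurentSeries L) ∈ contentRing W →
      ∃ S : (↥W)[X], S.map (IsLocalRing.residue ↥W) ≠ 0 ∧
        (evF W N).IsIntegralElem (evF W N S * x))
    (x : S24.FF L N) (hint : (evFinf W N).IsIntegralElem x)
    (hx : (x : LaurentSeries L) ∈ contentRing W) (hred : red W ⟨x, hx⟩ = 0)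
    (hwx : ((w x : S24.FF L N) : LaurentSeries L) ∈ contentRing W)
    (hwred : red W ⟨(w x : S24.FF L N), hwx⟩ = 0) :
    ∃ y : S24.FF L N, (evFinf W N).IsIntegralElem y ∧
      (y : LaurentSeries L) ∈ contentRing W ∧
      ((w y : S24.FF L N) : LaurentSeries L) ∈ contentRing W ∧
      x = algebraMap L (S24.FF L N) ((ϖ : ↥W) : L) * y := by
  obtain ⟨y, hy, hwy, hxy⟩ := exists_eq_unif_mul hϖ w x hx hred hwx hwred
  refine ⟨y, ?_, hy, hwy, hxy⟩
  exact sat_inf ι hϖ y (hV y hy hwy) (hxy ▸ hint)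

include ι in
/-- **(S1) on the finite chart**, raw currency, from the contract (K-V3a). -/
theorem s1_fin {ϖ : ↥W} (hϖ : Irreducible ϖ) (w : S24.FF L N ≃ₐ[L] S24.FF L N)
    (hV : ∀ x : S24.FF L N, (x : LaurentSeries L) ∈ contentRing W →
      ((w x : S24.FF L N) : LaurentSeries L) ∈ contentRing W →
      ∃ S : (↥W)[X], S.map (IsLocalRing.residue ↥W) ≠ 0 ∧
        (evF W N).IsIntegralElem (evF W N S * x))
    (x : S24.FF L N) (hint : (evF W N).IsIntegralElem x)
    (hx : (x : LaurentSeries L) ∈ contentRing W) (hred : red W ⟨x, hx⟩ = 0)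
    (hwx : ((w x : S24.FF L N) : LaurentSeries L) ∈ contentRing W)
    (hwred : red W ⟨(w x : S24.FF L N), hwx⟩ = 0) :
    ∃ y : S24.FF L N, (evF W N).IsIntegralElem y ∧
      (y : LaurentSeries L) ∈ contentRing W ∧
      ((w y : S24.FF L N) : LaurentSeries L) ∈ contentRing W ∧
      x = algebraMap L (S24.FF L N) ((ϖ : ↥W) : L) * y := by
  obtain ⟨y, hy, hwy, hxy⟩ := exists_eq_unif_mul hϖ w x hx hred hwx hwred
  refine ⟨y, ?_, hy, hwy, hxy⟩
  exact sat_fin ι hϖ y (hV y hy hwy) (hxy ▸ hint)

end Fermat.Agent.S34.CuspS1
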