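import Mathlib
import Fermat.Agent.S34.BetaInt
import Fermat.Agent.S34.DDGauss
import Fermat.Agent.S34.CuspS1
import Fermat.Agent.S37.GaussRed

/-!
# S34, package B2: the two residue maps on the chart at infinity of level `M q`, raw currency

`W` a discrete valuation ring of `L`, `F = S24.FF L (M * q)`, `w` an automorphism of `F` with
`w ∘ α = β` (and, where stated, `w ∘ β = α`).  The two Gauss valuations of `F` are `O₁` (the
`q`-expansion of `x` is `W`-integral) and `O₂ = w⁻¹ O₁`; their residue maps are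
`x ↦ red (coe x)` and `x ↦ red (coe (w x))`.

* `mem_contentRing_of_isIntegralElem_hom` : integral over a ring whose image has `W`-integral
  `q`-expansions implies `W`-integral `q`-expansion (any level).
* `mem_contentRing_of_int_inf`, `mem_contentRing_w_of_int_inf` : **`B₂ ⊆ O₁ ∩ O₂`**, an element
  integral over `W[1/j]` has `x` and `w x` with `W`-integral `q`-expansion
  (`mem_contentRing_w_of_int_fin` : the same for `W[j]`).
* `red_alpha`, `red_w_beta`, `red_beta`, `red_w_alpha` : `res₁ (α b) = red b`,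
  `res₂ (β b) = red b`, `res₁ (β b) = res₂ (α b) = (red b)(q ^ q)`.
* `red_mul_alpha`, `red_w_mul_beta` : the same in the shape `r b = ε e * r d` for `b = d * α c`,
  resp. `b = d * β c`.
* `res`, `res_apply` : the residue map as a ring homomorphism on any carrier.
* `span_eq_ker_inf_ker` : **(S1) on a carrier of the chart at infinity**,
  `(ϖ) = ker r₁ ⊓ ker r₂`, from the contract (K-V3a).
* `red_jInv_ne_zero`, `red_w_jInv_ne_zero` : `1/j` has nonzero image under both residue maps.
* `exists_alpha_lift`, `not_mem_of_cuspPoly_pow` : the denominators `(1 - 1728/j) ^ m` of the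
  first branch: `α` maps the cusp chart of level `M` into the chart at infinity of level `M q`
  up to a power of `1 - 1728/j`, which lies outside every proper ideal containing `1/j`.
* `epsCusp`, `epsCusp_mk`, `epsCusp_injective` : the reduction embeds the special fibre of the
  cusp chart of level `N` (prime to the residue characteristic) into `κ((q))`.
-/

set_option autoImplicit false
set_option linter.style.haveILetI false
set_option linter.unusedSectionVars false

noncomputable section

namespace Fermat.Agent.S34.CuspRes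

open Polynomial ModularCurve Fermat.Agent.S18 Fermat.Agent.S18.Gauss Fermat.Agent.S24
  Fermat.Agent.S37 Fermat.Agent.S37.GaussPrime Fermat.Agent.S18.Cusp

local notation "Qb" => AlgebraicClosure ℚ

/-! ### Generalities -/

section Generic

variable {L : Type*} [Field L] [Algebra ℚ L] (W : ValuationSubring L)

/-- `red` does not depend on the membership proof -/
theorem red_congr {f g : LaurentSeries L} (hf : f ∈ contentRing W) (hg : g ∈ contentRing W)
    (h : f = g) : red W ⟨f, hf⟩ = red W ⟨g, hg⟩ := by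
  subst h
  rfl

/-- `red` is multiplicative, with arbitrary membership proofs -/
theorem red_mul_eq {f g h : LaurentSeries L} (hf : f ∈ contentRing W) (hg : g ∈ contentRing W)
    (hh : h ∈ contentRing W) (e : h = f * g) :
    red W ⟨h, hh⟩ = red W ⟨f, hf⟩ * red W ⟨g, hg⟩ := by
  rw [← map_mul]
  exact congrArg (red W) (Subtype.ext e)

variable (N : ℕ)

/-- the residue map of the `q`-expansion Gauss valuation on a ring mapping into the functions
with `W`-integral `q`-expansion -/
def res {B : Type*} [CommRing B] (φ : B →+* FF L N)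
    (hφ : ∀ b, ((φ b : FF L N) : LaurentSeries L) ∈ contentRing W) :
    B →+* LaurentSeries (IsLocalRing.ResidueField ↥W) :=
  (red W).comp
    (((algebraMap (FF L N) (LaurentSeries L)).comp φ).codRestrict (contentRing W) hφ)

theorem res_apply {B : Type*} [CommRing B] (φ : B →+* FF L N)
    (hφ : ∀ b, ((φ b : FF L N) : LaurentSeries L) ∈ contentRing W) (b : B)
    (h : ((φ b : FF L N) : LaurentSeries L) ∈ contentRing W) :
    res W N φ hφ b = red W ⟨_, h⟩ := rfl

variable [IsDiscreteValuationRing ↥W]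

/-- **Integral over a ring of functions with `W`-integral `q`-expansion implies `W`-integral
`q`-expansion** (any level). -/
theorem mem_contentRing_of_isIntegralElem_hom {D : Type*} [CommRing D] (φ : D →+* FF L N)
    (hφ : ∀ d, ((φ d : FF L N) : LaurentSeries L) ∈ contentRing W) {x : FF L N}
    (hx : φ.IsIntegralElem x) : (x : LaurentSeries L) ∈ contentRing W := by
  obtain ⟨P, hP, hroot⟩ := hx
  refine mem_contentRing_of_monic_root W (DDGauss.coe_mem_fracInt W N x)
    (P.map (((algebraMap (FF L N) (LaurentSeries L)).comp φ).codRestrict (contentRing W) hφ))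
    (hP.map _) ?_
  rw [Polynomial.eval₂_map]
  have h1 := Polynomial.hom_eval₂ P φ (algebraMap (FF L N) (LaurentSeries L)) x
  rw [hroot, map_zero] at h1
  exact h1.symm

variable [NeZero N]

/-- **(i), first valuation**: an element integral over `W[1/j]` has `W`-integral
`q`-expansion (any level). -/
theorem mem_contentRing_of_int_inf {x : FF L N} (hx : (evFinf W N).IsIntegralElem x) :
    (x : LaurentSeries L) ∈ contentRing W :=
  mem_contentRing_of_isIntegralElem_hom W N (evFinf W N)
    (fun P => evG_mem_contentRing W (jInv_mem_contentRing W) P) hx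

theorem coe_jInv :
    (((jBC L N)⁻¹ : FF L N) : LaurentSeries L) = (jqModC L)⁻¹ := by
  show ((jBC L N : FF L N) : LaurentSeries L)⁻¹ = _
  rw [coe_jBC_eq]

omit [IsDiscreteValuationRing ↥W] in
/-- **(h3), first valuation**: the reduction of `1/j` is not zero. -/
theorem red_jInv_ne_zero
    (h : (((jBC L N)⁻¹ : FF L N) : LaurentSeries L) ∈ contentRing W) :
    red W ⟨_, h⟩ ≠ 0 := by
  rw [red_congr W h (jInv_mem_contentRing W) (coe_jInv N), red_jInv]
  exact inv_ne_zero (jqModC_ne_zero_of_nontrivial _)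

end Generic

/-! ### Level `M q` and the Atkin–Lehner automorphism -/

section AL

variable {L : Type*} [Field L] [Algebra ℚ L] (W : ValuationSubring L) (M q : ℕ) [NeZero M]
  [NeZero q] (w : FF L (M * q) ≃ₐ[L] FF L (M * q))

section

variable {M q w}

theorem w_alpha
    (hwα : (w : FF L (M * q) →ₐ[L] FF L (M * q)).comp (heckeAlphaBar L M q) =
      heckeBetaBar L M q) (y : FF L M) :
    w (heckeAlphaBar L M q y) = heckeBetaBar L M q y :=
  congrArg (fun f => f y) hwα

theorem w_beta
    (hwβ : (w : FF L (M * q) →ₐ[L] FF L (M * q)).comp (heckeBetaBar L M q) =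
      heckeAlphaBar L M q) (y : FF L M) :
    w (heckeBetaBar L M q y) = heckeAlphaBar L M q y :=
  congrArg (fun f => f y) hwβ

end

/-- `w` on the chart map at infinity: `w (P(1/j)) = P(1/j)(q ^ q)` -/
theorem coe_w_evFinf
    (hwα : (w : FF L (M * q) →ₐ[L] FF L (M * q)).comp (heckeAlphaBar L M q) =
      heckeBetaBar L M q) (P : (↥W)[X]) :
    ((w (evFinf W (M * q) P) : FF L (M * q)) : LaurentSeries L) =
      qExpand L q (evG W (jqModC L)⁻¹ P) := by
  have h1 : evFinf W (M * q) P = heckeAlphaBar L M q (evFinf W M P) := by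
    rw [← BetaInt.alpha_comp_evFinf W M q]
    rfl
  rw [h1, w_alpha hwα, coe_heckeBetaBar]
  rfl

/-- `w` on the finite chart map: `w (P(j)) = P(j)(q ^ q)` -/
theorem coe_w_evF
    (hwα : (w : FF L (M * q) →ₐ[L] FF L (M * q)).comp (heckeAlphaBar L M q) =
      heckeBetaBar L M q) (P : (↥W)[X]) :
    ((w (evF W (M * q) P) : FF L (M * q)) : LaurentSeries L) =
      qExpand L q (evL W P) := by
  have h1 : evF W (M * q) P = heckeAlphaBar L M q (evF W M P) := by
    rw [← BetaInt.alpha_comp_evF W M q]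
    rfl
  rw [h1, w_alpha hwα, coe_heckeBetaBar]
  rfl

variable [IsDiscreteValuationRing ↥W]

/-- **(i), second valuation**: for an element `x` integral over `W[1/j]`, `w x` has
`W`-integral `q`-expansion. -/
theorem mem_contentRing_w_of_int_inf
    (hwα : (w : FF L (M * q) →ₐ[L] FF L (M * q)).comp (heckeAlphaBar L M q) =
      heckeBetaBar L M q) {x : FF L (M * q)}
    (hx : (evFinf W (M * q)).IsIntegralElem x) :
    ((w x : FF L (M * q)) : LaurentSeries L) ∈ contentRing W := by
  have h := BetaInt.isIntegralElem_map_comp (evFinf W (M * q))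
    (w : FF L (M * q) →ₐ[L] FF L (M * q)).toRingHom hx
  refine mem_contentRing_of_isIntegralElem_hom W (M * q) _ ?_ h
  intro P
  have h2 := coe_w_evFinf W M q w hwα P
  have h3 : ((((w : FF L (M * q) →ₐ[L] FF L (M * q)).toRingHom.comp (evFinf W (M * q))) P :
      FF L (M * q)) : LaurentSeries L) = qExpand L q (evG W (jqModC L)⁻¹ P) := h2
  rw [h3]
  exact qExpand_mem_contentRing W q (evG_mem_contentRing W (jInv_mem_contentRing W) P)

/-- for an element `x` integral over `W[j]`, `w x` has `W`-integral `q`-expansion. -/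
theorem mem_contentRing_w_of_int_fin
    (hwα : (w : FF L (M * q) →ₐ[L] FF L (M * q)).comp (heckeAlphaBar L M q) =
      heckeBetaBar L M q) {x : FF L (M * q)}
    (hx : (evF W (M * q)).IsIntegralElem x) :
    ((w x : FF L (M * q)) : LaurentSeries L) ∈ contentRing W := by
  have h := BetaInt.isIntegralElem_map_comp (evF W (M * q))
    (w : FF L (M * q) →ₐ[L] FF L (M * q)).toRingHom hx
  refine mem_contentRing_of_isIntegralElem_hom W (M * q) _ ?_ h
  intro P
  have h2 := coe_w_evF W M q w hwα P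
  have h3 : ((((w : FF L (M * q) →ₐ[L] FF L (M * q)).toRingHom.comp (evF W (M * q))) P :
      FF L (M * q)) : LaurentSeries L) = qExpand L q (evL W P) := h2
  rw [h3]
  exact qExpand_mem_contentRing W q (evL_mem_contentRing W P)

omit [IsDiscreteValuationRing ↥W]

/-! ### The reduction identities (iv) -/

/-- **(iv)₁**: `res₁ (α b) = red b`. -/
theorem red_alpha (b : FF L M) (hb : (b : LaurentSeries L) ∈ contentRing W)
    (h : ((heckeAlphaBar L M q b : FF L (M * q)) : LaurentSeries L) ∈ contentRing W) :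
    red W ⟨_, h⟩ = red W ⟨_, hb⟩ :=
  red_congr W h hb (by rw [coe_heckeAlphaBar])

/-- `res₁ (β b) = (red b)(q ^ q)`. -/
theorem red_beta (b : FF L M) (hb : (b : LaurentSeries L) ∈ contentRing W)
    (h : ((heckeBetaBar L M q b : FF L (M * q)) : LaurentSeries L) ∈ contentRing W) :
    red W ⟨_, h⟩ = qExpand (IsLocalRing.ResidueField ↥W) q (red W ⟨_, hb⟩) :=
  (red_congr W h (qExpand_mem_contentRing W q hb) (by rw [coe_heckeBetaBar])).trans
    (red_qExpand W q hb)

/-- **(iv)₂**: `res₂ (β b) = red b`. -/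
theorem red_w_beta
    (hwβ : (w : FF L (M * q) →ₐ[L] FF L (M * q)).comp (heckeBetaBar L M q) =
      heckeAlphaBar L M q)
    (b : FF L M) (hb : (b : LaurentSeries L) ∈ contentRing W)
    (h : ((w (heckeBetaBar L M q b) : FF L (M * q)) : LaurentSeries L) ∈ contentRing W) :
    red W ⟨_, h⟩ = red W ⟨_, hb⟩ :=
  red_congr W h hb (by rw [w_beta hwβ, coe_heckeAlphaBar])

/-- `res₂ (α b) = (red b)(q ^ q)`. -/
theorem red_w_alpha
    (hwα : (w : FF L (M * q) →ₐ[L] FF L (M * q)).comp (heckeAlphaBar L M q) =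
      heckeBetaBar L M q)
    (b : FF L M) (hb : (b : LaurentSeries L) ∈ contentRing W)
    (h : ((w (heckeAlphaBar L M q b) : FF L (M * q)) : LaurentSeries L) ∈ contentRing W) :
    red W ⟨_, h⟩ = qExpand (IsLocalRing.ResidueField ↥W) q (red W ⟨_, hb⟩) :=
  (red_congr W h (qExpand_mem_contentRing W q hb)
    (by rw [w_alpha hwα, coe_heckeBetaBar])).trans (red_qExpand W q hb)

/-- **(iv)₁ in the shape of (h1)**: for `b = d * α c`, `res₁ b = red c * res₁ d`. -/
theorem red_mul_alpha {b d : FF L (M * q)} {c : FF L M}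
    (hbd : b = d * heckeAlphaBar L M q c)
    (hd : (d : LaurentSeries L) ∈ contentRing W) (hc : (c : LaurentSeries L) ∈ contentRing W)
    (hb : (b : LaurentSeries L) ∈ contentRing W) :
    red W ⟨_, hb⟩ = red W ⟨_, hc⟩ * red W ⟨_, hd⟩ := by
  refine red_mul_eq W hc hd hb ?_
  rw [hbd]
  show (d : LaurentSeries L) * ((heckeAlphaBar L M q c : FF L (M * q)) : LaurentSeries L) = _
  rw [coe_heckeAlphaBar, mul_comm (d : LaurentSeries L)]

/-- **(iv)₂ in the shape of (h1)**: for `b = d * β c`, `res₂ b = red c * res₂ d`. -/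
theorem red_w_mul_beta
    (hwβ : (w : FF L (M * q) →ₐ[L] FF L (M * q)).comp (heckeBetaBar L M q) =
      heckeAlphaBar L M q)
    {b d : FF L (M * q)} {c : FF L M} (hbd : b = d * heckeBetaBar L M q c)
    (hd : ((w d : FF L (M * q)) : LaurentSeries L) ∈ contentRing W)
    (hc : (c : LaurentSeries L) ∈ contentRing W)
    (hb : ((w b : FF L (M * q)) : LaurentSeries L) ∈ contentRing W) :
    red W ⟨_, hb⟩ = red W ⟨_, hc⟩ * red W ⟨_, hd⟩ := by
  refine red_mul_eq W hc hd hb ?_
  rw [hbd, map_mul, w_beta hwβ]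
  show ((w d : FF L (M * q)) : LaurentSeries L) *
    ((heckeAlphaBar L M q c : FF L (M * q)) : LaurentSeries L) = _
  rw [coe_heckeAlphaBar, mul_comm ((w d : FF L (M * q)) : LaurentSeries L)]

/-- `w (1/j) = 1/j(q ^ q)` -/
theorem coe_w_jInv
    (hwα : (w : FF L (M * q) →ₐ[L] FF L (M * q)).comp (heckeAlphaBar L M q) =
      heckeBetaBar L M q) :
    ((w (jBC L (M * q))⁻¹ : FF L (M * q)) : LaurentSeries L) =
      qExpand L q (jqModC L)⁻¹ := by
  have hj : heckeAlphaBar L M q (jBC L M) = jBC L (M * q) := by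
    apply Subtype.ext
    rw [coe_heckeAlphaBar, coe_jBC_eq, coe_jBC_eq]
  have h1 : w (jBC L (M * q))⁻¹ = heckeBetaBar L M q (jBC L M)⁻¹ := by
    rw [← hj, ← map_inv₀, w_alpha hwα]
  rw [h1, coe_heckeBetaBar, coe_jInv]

/-- **(h3), second valuation**: the second reduction of `1/j` is not zero. -/
theorem red_w_jInv_ne_zero
    (hwα : (w : FF L (M * q) →ₐ[L] FF L (M * q)).comp (heckeAlphaBar L M q) =
      heckeBetaBar L M q)
    (h : ((w (jBC L (M * q))⁻¹ : FF L (M * q)) : LaurentSeries L) ∈ contentRing W) :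
    red W ⟨_, h⟩ ≠ 0 := by
  rw [red_congr W h (qExpand_mem_contentRing W q (jInv_mem_contentRing W))
    (coe_w_jInv M q w hwα), red_qExpand W q (jInv_mem_contentRing W), red_jInv]
  intro h0
  exact inv_ne_zero (jqModC_ne_zero_of_nontrivial _)
    (qExpand_injective q (by rw [h0, map_zero]))

end AL

/-! ### The first branch: `α` of the cusp chart of level `M` -/

section Branch

variable {L : Type*} [Field L] [Algebra ℚ L] (W : ValuationSubring L)
  [IsDiscreteValuationRing ↥W] (M q : ℕ) [NeZero M] [NeZero q]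

/-- `α` maps the cusp chart `W[1/j, 1/(1 - 1728/j)]` of level `M` into the chart at infinity of
level `M q`, up to a power of `1 - 1728/j`. -/
theorem exists_alpha_lift (c : FF L M) (hc : IntCusp W M c) :
    ∃ m : ℕ, (evFinf W (M * q)).IsIntegralElem
      (evFinf W (M * q) (cuspPoly W ^ m) * heckeAlphaBar L M q c) := by
  obtain ⟨m, hm⟩ := hc
  refine ⟨m, ?_⟩
  have h := BetaInt.isIntegralElem_inf_alpha W M q hm
  have h1 : heckeAlphaBar L M q ((1 - 1728 * (jBC L M)⁻¹) ^ m * c) =
      evFinf W (M * q) (cuspPoly W ^ m) * heckeAlphaBar L M q c := by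
    rw [map_mul, ← evFinf_cuspPoly W M, ← map_pow (evFinf W M), ← BetaInt.alpha_comp_evFinf W M q]
    rfl
  rw [h1] at h
  exact h

variable (N : ℕ) [NeZero N]

/-- the element `(1 - 1728/j) ^ m` lies outside every proper ideal containing `1/j`, on any
carrier of the chart at infinity -/
theorem not_mem_of_cuspPoly_pow {B : Type*} [CommRing B] (φ : B →+* FF L N)
    (hinj : Function.Injective φ)
    (hsurj : ∀ x, (evFinf W N).IsIntegralElem x → ∃ b, φ b = x)
    (𝔫 : Ideal B) (h𝔫 : 𝔫 ≠ ⊤) {t : B} (ht : φ t = (jBC L N)⁻¹) (ht𝔫 : t ∈ 𝔫)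
    (m : ℕ) {d : B} (hd : φ d = evFinf W N (cuspPoly W ^ m)) : d ∉ 𝔫 := by
  intro hd𝔫
  have h0 : (cuspPoly W ^ m).coeff 0 = 1 := by
    rw [Polynomial.coeff_zero_eq_eval_zero, Polynomial.eval_pow]
    simp [cuspPoly]
  obtain ⟨Q, hQ⟩ := Polynomial.X_dvd_sub_C (p := cuspPoly W ^ m)
  rw [h0, map_one] at hQ
  obtain ⟨c, hc⟩ := hsurj (evFinf W N Q) (RingHom.isIntegralElem_map _)
  have h1 : d = 1 + t * c := by
    apply hinj
    rw [map_add, map_one, map_mul, ht, hc, hd, ← evFinf_X W N, ← map_mul, ← hQ, map_sub,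
      map_one]
    ring
  apply h𝔫
  rw [Ideal.eq_top_iff_one]
  have h2 : (1 : B) = d - t * c := by rw [h1]; ring
  rw [h2]
  exact 𝔫.sub_mem hd𝔫 (𝔫.mul_mem_right _ ht𝔫)

end Branch

/-! ### (S1) on a carrier of the chart at infinity -/

section S1

variable {L : Type} [Field L] [Algebra ℚ L] (ι : L →+* Qb) (W : ValuationSubring L)
  [IsDiscreteValuationRing ↥W] (N : ℕ) [NeZero N]

include ι in
/-- **(S1) on the chart at infinity, carrier form**: `(ϖ) = ker r₁ ⊓ ker r₂` on any carrier `B`
of the integral closure of `W[1/j]`, from the contract (K-V3a). -/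
theorem span_eq_ker_inf_ker {ϖ : ↥W} (hϖ : Irreducible ϖ) (w : FF L N ≃ₐ[L] FF L N)
    (hV : ∀ x : FF L N, (x : LaurentSeries L) ∈ contentRing W →
      ((w x : FF L N) : LaurentSeries L) ∈ contentRing W →
      ∃ S : (↥W)[X], S.map (IsLocalRing.residue ↥W) ≠ 0 ∧
        (evF W N).IsIntegralElem (evF W N S * x))
    {B : Type*} [CommRing B] (φ : B →+* FF L N) (hinj : Function.Injective φ)
    (hint : ∀ b, (evFinf W N).IsIntegralElem (φ b))
    (hsurj : ∀ x, (evFinf W N).IsIntegralElem x → ∃ b, φ b = x)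
    (hφ₁ : ∀ b, ((φ b : FF L N) : LaurentSeries L) ∈ contentRing W)
    (hφ₂ : ∀ b, (((((w : FF L N →ₐ[L] FF L N) : FF L N →+* FF L N).comp φ) b : FF L N) :
      LaurentSeries L) ∈ contentRing W)
    (πB : B) (hπB : φ πB = algebraMap L (FF L N) ((ϖ : ↥W) : L)) :
    Ideal.span {πB} = RingHom.ker (res W N φ hφ₁) ⊓
      RingHom.ker (res W N (((w : FF L N →ₐ[L] FF L N) : FF L N →+* FF L N).comp φ) hφ₂) := by
  apply le_antisymm
  · rw [Ideal.span_le]
    intro x hx
    rw [Set.mem_singleton_iff] at hx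
    subst hx
    refine ⟨?_, ?_⟩
    · rw [SetLike.mem_coe, RingHom.mem_ker, res_apply W N φ hφ₁ x (hφ₁ x),
        ← red_C_unif W hϖ]
      apply red_congr
      rw [hπB]
      exact GaussPrime.coe_unif ϖ
    · rw [SetLike.mem_coe, RingHom.mem_ker, res_apply W N _ hφ₂ x (hφ₂ x),
        ← red_C_unif W hϖ]
      apply red_congr
      show ((w (φ x) : FF L N) : LaurentSeries L) = _
      rw [hπB, AlgEquiv.commutes]
      exact GaussPrime.coe_unif ϖ
  · rintro b ⟨h1, h2⟩
    rw [SetLike.mem_coe, RingHom.mem_ker] at h1 h2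
    obtain ⟨y, hyI, -, -, hy⟩ := CuspS1.s1_inf ι hϖ w hV (φ b) (hint b) (hφ₁ b) h1 (hφ₂ b) h2
    obtain ⟨c, rfl⟩ := hsurj y hyI
    rw [Ideal.mem_span_singleton]
    refine ⟨c, hinj ?_⟩
    rw [map_mul, hπB, hy]

end S1

/-! ### The special fibre of the cusp chart of level `N` inside `κ((q))` -/

section Eps

variable {L : Type*} [Field L] [Algebra ℚ L] (W : ValuationSubring L)
  (N : ℕ) [NeZero N] [IsDiscreteValuationRing ↥W] (ℓ : ℕ) [Fact ℓ.Prime]
  [CharP (IsLocalRing.ResidueField ↥W) ℓ] [IsAlgClosed (IsLocalRing.ResidueField ↥W)]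
  [Algebra (CuspBase ↥W) (FF L N)]
  (B : Type*) [CommRing B] [Algebra (CuspBase ↥W) B] [Algebra B (FF L N)]
  [IsScalarTower (CuspBase ↥W) B (FF L N)] [IsIntegralClosure B (CuspBase ↥W) (FF L N)]

/-- the reduction on the special fibre `B ⧸ ϖ B` of the cusp chart of level `N` -/
def epsCusp (hℓN : ¬ ℓ ∣ N) {ϖ : ↥W} (hϖ : Irreducible ϖ)
    (halg : ∀ p : (↥W)[X], algebraMap (CuspBase ↥W) (FF L N)
      (algebraMap (↥W)[X] (CuspBase ↥W) p) = evFinf W N p) :
    (B ⧸ Ideal.span {algebraMap (CuspBase ↥W) B (algebraMap ↥W (CuspBase ↥W) ϖ)}) →+*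
      LaurentSeries (IsLocalRing.ResidueField ↥W) :=
  Ideal.Quotient.lift _
    (res W N (algebraMap B (FF L N)) (GaussRed.mem_contentRing_cusp W N ℓ B hℓN halg))
    (fun c hc => (GaussRed.dvd_iff_red_cusp W N ℓ B hℓN hϖ halg c).mp
      (Ideal.mem_span_singleton.mp hc))

theorem epsCusp_mk (hℓN : ¬ ℓ ∣ N) {ϖ : ↥W} (hϖ : Irreducible ϖ)
    (halg : ∀ p : (↥W)[X], algebraMap (CuspBase ↥W) (FF L N)
      (algebraMap (↥W)[X] (CuspBase ↥W) p) = evFinf W N p) (c : B)
    (h : ((algebraMap B (FF L N) c : FF L N) : LaurentSeries L) ∈ contentRing W) :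
    epsCusp W N ℓ B hℓN hϖ halg (Ideal.Quotient.mk _ c) = red W ⟨_, h⟩ := rfl

theorem epsCusp_injective (hℓN : ¬ ℓ ∣ N) {ϖ : ↥W} (hϖ : Irreducible ϖ)
    (halg : ∀ p : (↥W)[X], algebraMap (CuspBase ↥W) (FF L N)
      (algebraMap (↥W)[X] (CuspBase ↥W) p) = evFinf W N p) :
    Function.Injective (epsCusp W N ℓ B hℓN hϖ halg) := by
  rw [injective_iff_map_eq_zero]
  intro c hc
  obtain ⟨c, rfl⟩ := Ideal.Quotient.mk_surjective c
  rw [epsCusp_mk W N ℓ B hℓN hϖ halg c (GaussRed.mem_contentRing_cusp W N ℓ B hℓN halg c)] at hc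
  exact Ideal.Quotient.eq_zero_iff_mem.mpr (Ideal.mem_span_singleton.mpr
    ((GaussRed.dvd_iff_red_cusp W N ℓ B hℓN hϖ halg c).mpr hc))

end Eps

end Fermat.Agent.S34.CuspRes
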