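import Mathlib
import Fermat.Agent.S34.CompInst
import Fermat.Agent.S34.CuspS1
import Fermat.Agent.S34.TwoGauss
import Fermat.Agent.S34.FrobPartner

/-!
# S34, (DICH₁) at a stable level: the closed points of the finite chart of level `M q`

The raw inputs of `CompInst.finite_chart_point` discharged at a Galois-stable level
`(L, ι)`, `W = A.comap ι`:

* `pgEvF_eq` : the two evaluation maps `S18.PGGlue.evF` and `S18.Gauss.evF` coincide;
* `v3a` : (K-V3a) (`TwoGauss.exists_isIntegralElem_of_mem_both`) in `S18.Gauss.evF` currency for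
  an Atkin–Lehner automorphism `w : F ≃ₐ[L] F`;
* `s1_fin_level`, `s1_inf_level` : (S1) on the finite chart and on the chart at infinity at level
  `M q` (no hypothesis left);
* `finite_dich_of_F1` : for every carrier `B` of the finite chart of level `M q` and every maximal
  ideal `𝔫 ∋ ϖ`, the maximal ideal of `B_𝔫` is `(ϖ, u)` or `(ϖ, X, Y)` with `ϖ ∣ X Y` — from the
  single remaining input (F1) (`f(v₁|v_M) = 1`).
-/

set_option autoImplicit false
set_option linter.unusedSectionVars false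

namespace Fermat.Agent.S34.FinDich

open ModularCurve Polynomial Fermat.Agent.S18 Fermat.Agent.S18.Gauss Fermat.Agent.S24 IsLocalRing

local notation "Qb" => AlgebraicClosure ℚ

section Bridge

variable {L : Type*} [Field L] [Algebra ℚ L] (W : ValuationSubring L)

/-- the evaluation map of `S18.PGGlue` is the evaluation map of `S18.GaussVal` -/
theorem pgEvF_eq (N : ℕ) [NeZero N] : PGGlue.evF W N = evF W N := by
  apply Polynomial.ringHom_ext
  · intro a
    rw [PGGlue.evF_C, evF_C]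
  · rw [evF_X, PGGlue.evF, Polynomial.coe_eval₂RingHom, Polynomial.eval₂_X]

variable [IsDiscreteValuationRing W] (M q : ℕ) [NeZero M] [NeZero q] [Fact q.Prime]
  [CharP (IsLocalRing.ResidueField W) q]

/-- **(K-V3a), `S18.Gauss.evF` currency**: a function of level `M q` whose `q`-expansion and
whose Atkin–Lehner translate's `q`-expansion are `W`-integral is Gauss-integral over `W[j]`. -/
theorem v3a (hqM : ¬ q ∣ M) (w : FF L (M * q) ≃ₐ[L] FF L (M * q))
    (hwα : (w : FF L (M * q) →ₐ[L] FF L (M * q)).comp (heckeAlphaBar L M q) = heckeBetaBar L M q)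
    (hwβ : (w : FF L (M * q) →ₐ[L] FF L (M * q)).comp (heckeBetaBar L M q) = heckeAlphaBar L M q)
    (x : FF L (M * q)) (hx₁ : (x : LaurentSeries L) ∈ contentRing W)
    (hx₂ : ((w x : FF L (M * q)) : LaurentSeries L) ∈ contentRing W) :
    ∃ S : (↥W)[X], S.map (IsLocalRing.residue ↥W) ≠ 0 ∧
      (evF W (M * q)).IsIntegralElem (evF W (M * q) S * x) := by
  have h := Fermat.Agent.S34.TwoGauss.exists_isIntegralElem_of_mem_both W M q
    (w : FF L (M * q) →ₐ[L] FF L (M * q)) hqM hwα hwβ x hx₁ hx₂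
  rw [pgEvF_eq] at h
  exact h

end Bridge

section S1

variable {L : Type} [Field L] [Algebra ℚ L] (ι : L →+* Qb) (W : ValuationSubring L)
  [IsDiscreteValuationRing ↥W] (M q : ℕ) [NeZero M] [NeZero q] [Fact q.Prime]
  [CharP (IsLocalRing.ResidueField ↥W) q]

include ι in
/-- **(S1) on the finite chart of level `M q`** (`CompInst.finite_chart_point`'s `hS1`). -/
theorem s1_fin_level (hqM : ¬ q ∣ M) {ϖ : ↥W} (hϖ : Irreducible ϖ)
    (w : FF L (M * q) ≃ₐ[L] FF L (M * q))
    (hwα : (w : FF L (M * q) →ₐ[L] FF L (M * q)).comp (heckeAlphaBar L M q) = heckeBetaBar L M q)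
    (hwβ : (w : FF L (M * q) →ₐ[L] FF L (M * q)).comp (heckeBetaBar L M q) = heckeAlphaBar L M q)
    (x : FF L (M * q)) (hint : (evF W (M * q)).IsIntegralElem x)
    (h1 : (x : LaurentSeries L) ∈ contentRing W)
    (h2 : ((w x : FF L (M * q)) : LaurentSeries L) ∈ contentRing W)
    (hr1 : red W ⟨_, h1⟩ = 0) (hr2 : red W ⟨_, h2⟩ = 0) :
    ∃ y, (evF W (M * q)).IsIntegralElem y ∧
      x = algebraMap L (FF L (M * q)) ((ϖ : W) : L) * y := by
  obtain ⟨y, hy, -, -, hxy⟩ := Fermat.Agent.S34.CuspS1.s1_fin ι hϖ w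
    (v3a W M q hqM w hwα hwβ) x hint h1 hr1 h2 hr2
  exact ⟨y, hy, hxy⟩

include ι in
/-- **(S1) on the chart at infinity of level `M q`.** -/
theorem s1_inf_level (hqM : ¬ q ∣ M) {ϖ : ↥W} (hϖ : Irreducible ϖ)
    (w : FF L (M * q) ≃ₐ[L] FF L (M * q))
    (hwα : (w : FF L (M * q) →ₐ[L] FF L (M * q)).comp (heckeAlphaBar L M q) = heckeBetaBar L M q)
    (hwβ : (w : FF L (M * q) →ₐ[L] FF L (M * q)).comp (heckeBetaBar L M q) = heckeAlphaBar L M q)
    (x : FF L (M * q)) (hint : (evFinf W (M * q)).IsIntegralElem x)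
    (h1 : (x : LaurentSeries L) ∈ contentRing W)
    (h2 : ((w x : FF L (M * q)) : LaurentSeries L) ∈ contentRing W)
    (hr1 : red W ⟨_, h1⟩ = 0) (hr2 : red W ⟨_, h2⟩ = 0) :
    ∃ y, (evFinf W (M * q)).IsIntegralElem y ∧ (y : LaurentSeries L) ∈ contentRing W ∧
      ((w y : FF L (M * q)) : LaurentSeries L) ∈ contentRing W ∧
      x = algebraMap L (FF L (M * q)) ((ϖ : W) : L) * y :=
  Fermat.Agent.S34.CuspS1.s1_inf ι hϖ w (v3a W M q hqM w hwα hwβ) x hint h1 hr1 h2 hr2

end S1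

section Main

variable (A : ValuationSubring Qb) {L : Type} [Field L] [Algebra ℚ L] (ι : L →+* Qb)
  (M q : ℕ) [NeZero M] [NeZero q]

/-- **(DICH₁) at a stable level, from (F1).**  For every carrier `B` of the finite chart of level
`M q` over `W = A.comap ι` and every maximal ideal `𝔫 ∋ ϖ` of `B`, the maximal ideal of `B_𝔫` is
`(ϖ, u)` (smooth point) or `(ϖ, X, Y)` with `ϖ ∣ X Y` (node), `u, X, Y ∈ 𝔫`. -/
theorem finite_dich_of_F1 (hq : q.Prime) (hqM : ¬ q ∣ M) (S : Finset Qb)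
    (hlev : Fermat.Agent.S37.LevelChange.IsLevel A q S ι)
    (hstab : Fermat.Agent.S34.GalLevel.IsStable ι) (hA : A.LiesOverPrime q)
    (hF1 : ∀ (x : FF L (M * q)) (hx : (x : LaurentSeries L) ∈ contentRing (A.comap ι)),
      red (A.comap ι) ⟨x, hx⟩ ∈
        modularFunctionFieldFullC (IsLocalRing.ResidueField ↥(A.comap ι)) M)
    (π : ↥(A.comap ι)) (hπ : Irreducible π)
    [Algebra (↥(A.comap ι))[X] (FF L (M * q))]
    (halg : algebraMap (↥(A.comap ι))[X] (FF L (M * q)) = evF (A.comap ι) (M * q))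
    (B : Type*) [CommRing B] [Algebra (↥(A.comap ι))[X] B] [Algebra B (FF L (M * q))]
    [IsScalarTower (↥(A.comap ι))[X] B (FF L (M * q))]
    [IsIntegralClosure B (↥(A.comap ι))[X] (FF L (M * q))]
    (𝔫 : Ideal B) [𝔫.IsMaximal] (hπ𝔫 : algebraMap (↥(A.comap ι))[X] B (C π) ∈ 𝔫)
    (R : Type*) [CommRing R] [Algebra B R] [IsLocalization.AtPrime R 𝔫] [IsLocalRing R] :
    (∃ u ∈ 𝔫, maximalIdeal R =
        Ideal.span {algebraMap B R (algebraMap (↥(A.comap ι))[X] B (C π)), algebraMap B R u}) ∨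
    (∃ X ∈ 𝔫, ∃ Y ∈ 𝔫, algebraMap (↥(A.comap ι))[X] B (C π) ∣ X * Y ∧ maximalIdeal R =
        Ideal.span {algebraMap B R (algebraMap (↥(A.comap ι))[X] B (C π)), algebraMap B R X,
          algebraMap B R Y}) := by
  obtain ⟨-, hroots, hdvr, halgc, -, hchar, -, -⟩ := hlev
  have := hdvr
  have := halgc
  have := hchar
  have : Fact q.Prime := ⟨hq⟩
  obtain ⟨w, hwα, hwβ⟩ := Fermat.Agent.S34.FrobPartner.exists_atkinLehner_level ι M q hq hqM
  exact Fermat.Agent.S34.CompInst.finite_chart_point M q ι (A.comap ι) hq hqM hroots π hπ w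
    hwα hwβ
    (fun x hx => Fermat.Agent.S34.FrobPartner.mem_contentRing_of_int (A.comap ι) (M * q) hx)
    hF1
    (fun x hint h1 h2 hr1 hr2 =>
      s1_fin_level ι (A.comap ι) M q hqM hπ w hwα hwβ x hint h1 h2 hr1 hr2)
    (Fermat.Agent.S34.FrobPartner.exists_frob_partner_of_stable A ι q M hA hstab)
    halg B 𝔫 hπ𝔫 R

end Main

end Fermat.Agent.S34.FinDich
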