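import Mathlib
import Fermat.Agent.S34.KummerStep

/-
S34 (blueprint findings 202): transfer of the local data of `KummerStep.kummer_step` /
`KummerInd.kummer_descent` / `KummerIndCusp.kummer_descent_cusp` from an ARBITRARY carrier of a
chart to the chart ring `integralClosure (Algebra.adjoin W {x₀}) F` of those theorems.

A carrier is a commutative ring `B` with an injective ring hom `ψ : B →+* F` whose range is the set
of elements of `F` integral over `W[x₀]` (e.g. any `B` with `IsIntegralClosure B W[X] F`, or a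
subring of `F` defined by `RingHom.IsIntegralElem`).

* `equivChart` : `B ≃+* integralClosure (Algebra.adjoin W {x₀}) F`, compatible with `ψ`;
* `exists_of_carrier` : the general transfer of a datum `(g, d)` at the maximal ideals containing
  the preimages of a set `T ⊆ F`;
* `hloc_of_carrier` : the clause `hloc₁` (and the non-cuspidal form of `hloc₂`);
* `hloc_cusp_of_carrier` : the clause `hloc₂` of `kummer_descent_cusp` (maximal ideals containing
  `π` and `x₀`).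
-/

set_option autoImplicit false

namespace Fermat.Agent.S34.ChartCarrier

section

variable {W F B : Type*} [CommRing W] [Field F] [Algebra W F] [CommRing B]

/-- A carrier of the chart is isomorphic to the chart ring. -/
noncomputable def equivChart (x₀ : F) (ψ : B →+* F) (hψ : Function.Injective ψ)
    (hrange : ∀ y : F, (∃ b : B, ψ b = y) ↔ IsIntegral (Algebra.adjoin W {x₀}) y) :
    B ≃+* ↥(integralClosure (Algebra.adjoin W {x₀}) F) :=
  RingEquiv.ofBijective
    (ψ.codRestrict (integralClosure (Algebra.adjoin W {x₀}) F).toSubring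
      (fun b => (hrange (ψ b)).mp ⟨b, rfl⟩))
    ⟨fun a b h => hψ (congrArg Subtype.val h), fun y => by
      obtain ⟨b, hb⟩ := (hrange (y : F)).mpr y.2
      exact ⟨b, Subtype.ext hb⟩⟩

theorem coe_equivChart (x₀ : F) (ψ : B →+* F) (hψ : Function.Injective ψ)
    (hrange : ∀ y : F, (∃ b : B, ψ b = y) ↔ IsIntegral (Algebra.adjoin W {x₀}) y) (b : B) :
    ((equivChart x₀ ψ hψ hrange b : ↥(integralClosure (Algebra.adjoin W {x₀}) F)) : F) = ψ b :=
  rfl

/-- **Transfer of a local datum from a carrier.**  `T` is the set of elements of `F` required to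
lie in the maximal ideal. -/
theorem exists_of_carrier (x₀ : F) (ψ : B →+* F) (hψ : Function.Injective ψ)
    (hrange : ∀ y : F, (∃ b : B, ψ b = y) ↔ IsIntegral (Algebra.adjoin W {x₀}) y)
    (T : Set F) (P : F → Prop) (z : F → F)
    (h : ∀ 𝔪 : Ideal B, 𝔪.IsMaximal → (∀ b : B, ψ b ∈ T → b ∈ 𝔪) →
      ∃ g : F, P g ∧ ∃ d : B, d ∉ 𝔪 ∧ ∃ t : B, ψ t = ψ d * z g)
    (𝔫 : Ideal ↥(integralClosure (Algebra.adjoin W {x₀}) F)) (h𝔫 : 𝔫.IsMaximal)
    (hT : ∀ r : ↥(integralClosure (Algebra.adjoin W {x₀}) F), (r : F) ∈ T → r ∈ 𝔫) :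
    ∃ g : F, P g ∧ ∃ d : ↥(integralClosure (Algebra.adjoin W {x₀}) F), d ∉ 𝔫 ∧
      IsIntegral (Algebra.adjoin W {x₀}) ((d : F) * z g) := by
  set e := equivChart x₀ ψ hψ hrange with he
  have hmax : (𝔫.comap (e : B →+* ↥(integralClosure (Algebra.adjoin W {x₀}) F))).IsMaximal :=
    Ideal.comap_isMaximal_of_surjective _ e.surjective
  obtain ⟨g, hg, d, hd, t, ht⟩ := h _ hmax (fun b hb => by
    rw [Ideal.mem_comap]
    exact hT _ hb)
  refine ⟨g, hg, e d, fun hmem => hd (by rw [Ideal.mem_comap]; exact hmem), ?_⟩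
  have h1 : ((e d : ↥(integralClosure (Algebra.adjoin W {x₀}) F)) : F) = ψ d := rfl
  rw [h1, ← ht]
  exact (hrange (ψ t)).mp ⟨t, rfl⟩

/-- The clause `hloc₁` of `kummer_step` / `kummer_descent` (for `x₀ = j`; also the clause `hloc₂`
at all maximal ideals containing `π`, for `x₀ = j⁻¹`) from a carrier of the chart. -/
theorem hloc_of_carrier (π : W) (x₀ : F) (ψ : B →+* F) (hψ : Function.Injective ψ)
    (hrange : ∀ y : F, (∃ b : B, ψ b = y) ↔ IsIntegral (Algebra.adjoin W {x₀}) y)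
    (P : F → Prop) (z : F → F)
    (h : ∀ 𝔪 : Ideal B, 𝔪.IsMaximal → (∀ b : B, ψ b = algebraMap W F π → b ∈ 𝔪) →
      ∃ g : F, P g ∧ ∃ d : B, d ∉ 𝔪 ∧ ∃ t : B, ψ t = ψ d * z g) :
    ∀ 𝔫 : Ideal ↥(integralClosure (Algebra.adjoin W {x₀}) F), 𝔫.IsMaximal →
      (∀ r : ↥(integralClosure (Algebra.adjoin W {x₀}) F), (r : F) = algebraMap W F π → r ∈ 𝔫) →
      ∃ g : F, P g ∧ ∃ d : ↥(integralClosure (Algebra.adjoin W {x₀}) F), d ∉ 𝔫 ∧
        IsIntegral (Algebra.adjoin W {x₀}) ((d : F) * z g) := by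
  intro 𝔫 h𝔫 hπ
  exact exists_of_carrier x₀ ψ hψ hrange {algebraMap W F π} P z
    (fun 𝔪 h𝔪 hT => h 𝔪 h𝔪 (fun b hb => hT b (Set.mem_singleton_iff.mpr hb))) 𝔫 h𝔫
    (fun r hr => hπ r (Set.mem_singleton_iff.mp hr))

/-- The clause `hloc₂` of `kummer_descent_cusp` (maximal ideals containing `π` and `x₀ = j⁻¹`)
from a carrier of the chart. -/
theorem hloc_cusp_of_carrier (π : W) (x₀ : F) (ψ : B →+* F) (hψ : Function.Injective ψ)
    (hrange : ∀ y : F, (∃ b : B, ψ b = y) ↔ IsIntegral (Algebra.adjoin W {x₀}) y)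
    (P : F → Prop) (z : F → F)
    (h : ∀ 𝔪 : Ideal B, 𝔪.IsMaximal → (∀ b : B, ψ b = algebraMap W F π → b ∈ 𝔪) →
      (∀ b : B, ψ b = x₀ → b ∈ 𝔪) →
      ∃ g : F, P g ∧ ∃ d : B, d ∉ 𝔪 ∧ ∃ t : B, ψ t = ψ d * z g) :
    ∀ 𝔫 : Ideal ↥(integralClosure (Algebra.adjoin W {x₀}) F), 𝔫.IsMaximal →
      (∀ r : ↥(integralClosure (Algebra.adjoin W {x₀}) F), (r : F) = algebraMap W F π → r ∈ 𝔫) →
      (∀ r : ↥(integralClosure (Algebra.adjoin W {x₀}) F), (r : F) = x₀ → r ∈ 𝔫) →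
      ∃ g : F, P g ∧ ∃ d : ↥(integralClosure (Algebra.adjoin W {x₀}) F), d ∉ 𝔫 ∧
        IsIntegral (Algebra.adjoin W {x₀}) ((d : F) * z g) := by
  intro 𝔫 h𝔫 hπ hx
  refine exists_of_carrier x₀ ψ hψ hrange {algebraMap W F π, x₀} P z
    (fun 𝔪 h𝔪 hT => h 𝔪 h𝔪 (fun b hb => hT b (by rw [hb]; exact Set.mem_insert _ _))
      (fun b hb => hT b (by rw [hb]; exact Set.mem_insert_of_mem _ rfl))) 𝔫 h𝔫 ?_
  intro r hr
  rcases hr with hr | hr
  · exact hπ r hr
  · exact hx r hr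

end

end Fermat.Agent.S34.ChartCarrier
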