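import Mathlib
import Fermat.Agent.S34.GAsm
import Fermat.Agent.S34.ChartCarrier
import Fermat.Agent.S34.Bridge

/-!
# S34: the two local contracts of `GAsm` from (K-LOC) on an arbitrary carrier of the chart

`GAsm.LocContract₁` / `GAsm.LocContract₂` quantify over the maximal ideals of the subalgebras
`integralClosure (Algebra.adjoin W {j}) F` / `integralClosure (Algebra.adjoin W {j⁻¹}) F` of
`F = S24.FF L (M * q)`.  The instance packages produce (K-LOC) on carriers in raw `S18`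
currency.  This file is the transfer:

* `isIntegral_adjoin_iff`, `isIntegral_adjoin_inv_iff` : integrality over `W[j]`, `W[1/j]`
  (subalgebra currency, automatic `W`-algebra structure) is `(evF W N).IsIntegralElem`,
  `(evFinf W N).IsIntegralElem`;
* `hloc_fin_of_carrier`, `hloc_cusp_of_carrier` : the clauses at one level from (K-LOC) on a
  carrier `ψ : B →+* F` (injective, range = the chart);
* `hloc_fin_of_closure`, `hloc_cusp_of_closure` : the same for a carrier in the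
  `IsIntegralClosure B W[X] F` shape (`algebraMap W[X] F = evF W N`, resp. `evFinf W N`);
* `locContract₁_of_carrier`, `locContract₂_of_carrier`, `locContract₁_of_closure`,
  `locContract₂_of_closure` : the contracts of `GAsm`.
-/

set_option autoImplicit false
set_option linter.unusedSectionVars false
set_option linter.style.haveILetI false

noncomputable section

namespace Fermat.Agent.S34.GLoc

open Polynomial ModularCurve AlgebraicCurve Fermat.Agent.S18 Fermat.Agent.S37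
open Fermat.Agent.S34.GDescent

local notation "Qb" => AlgebraicClosure ℚ

section Level

variable {L : Type} [Field L] [Algebra ℚ L] (W : ValuationSubring L) (N : ℕ) [NeZero N]

/-- Integrality over the subalgebra `W[j]` (automatic `W`-algebra structure on `FF L N`) is
`(evF W N).IsIntegralElem`. -/
theorem isIntegral_adjoin_iff (y : S24.FF L N) :
    IsIntegral (Algebra.adjoin ↥W {S24.jBC L N}) y ↔ (Gauss.evF W N).IsIntegralElem y :=
  Bridge.isIntegral_adjoin_iff W N y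

/-- Integrality over the subalgebra `W[1/j]` is `(evFinf W N).IsIntegralElem`. -/
theorem isIntegral_adjoin_inv_iff (y : S24.FF L N) :
    IsIntegral (Algebra.adjoin ↥W {(S24.jBC L N)⁻¹}) y ↔ (Gauss.evFinf W N).IsIntegralElem y :=
  Bridge.isIntegral_adjoin_inv_iff W N y

theorem algebraMap_W_eq (a : ↥W) :
    algebraMap ↥W (S24.FF L N) a = algebraMap L (S24.FF L N) (a : L) := rfl

/-- **The finite-chart clause from (K-LOC) on a carrier.** -/
theorem hloc_fin_of_carrier {B : Type*} [CommRing B] (ψ : B →+* S24.FF L N)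
    (hψ : Function.Injective ψ)
    (hrange : ∀ y : S24.FF L N, (∃ b : B, ψ b = y) ↔ (Gauss.evF W N).IsIntegralElem y)
    (ϖ : ↥W) (P : S24.FF L N → Prop) (z : S24.FF L N → S24.FF L N)
    (h : ∀ 𝔪 : Ideal B, 𝔪.IsMaximal →
      (∀ b : B, ψ b = algebraMap L (S24.FF L N) (ϖ : L) → b ∈ 𝔪) →
      ∃ g : S24.FF L N, P g ∧ ∃ d : B, d ∉ 𝔪 ∧ ∃ t : B, ψ t = ψ d * z g) :
    ∀ 𝔫 : Ideal (integralClosure (Algebra.adjoin ↥W {S24.jBC L N}) (S24.FF L N)),
      𝔫.IsMaximal →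
      (∀ r : integralClosure (Algebra.adjoin ↥W {S24.jBC L N}) (S24.FF L N),
        (r : S24.FF L N) = algebraMap ↥W (S24.FF L N) ϖ → r ∈ 𝔫) →
      ∃ g : S24.FF L N, P g ∧
        ∃ d : integralClosure (Algebra.adjoin ↥W {S24.jBC L N}) (S24.FF L N), d ∉ 𝔫 ∧
          IsIntegral (Algebra.adjoin ↥W {S24.jBC L N}) ((d : S24.FF L N) * z g) :=
  ChartCarrier.hloc_of_carrier ϖ (S24.jBC L N) ψ hψ
    (fun y => (hrange y).trans (isIntegral_adjoin_iff W N y).symm) P z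
    (fun 𝔪 h𝔪 hT => h 𝔪 h𝔪 hT)

/-- **The cusp clause from (K-LOC) on a carrier** of the chart `W[1/j]`. -/
theorem hloc_cusp_of_carrier {B : Type*} [CommRing B] (ψ : B →+* S24.FF L N)
    (hψ : Function.Injective ψ)
    (hrange : ∀ y : S24.FF L N, (∃ b : B, ψ b = y) ↔ (Gauss.evFinf W N).IsIntegralElem y)
    (ϖ : ↥W) (P : S24.FF L N → Prop) (z : S24.FF L N → S24.FF L N)
    (h : ∀ 𝔪 : Ideal B, 𝔪.IsMaximal →
      (∀ b : B, ψ b = algebraMap L (S24.FF L N) (ϖ : L) → b ∈ 𝔪) →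
      (∀ b : B, ψ b = (S24.jBC L N)⁻¹ → b ∈ 𝔪) →
      ∃ g : S24.FF L N, P g ∧ ∃ d : B, d ∉ 𝔪 ∧ ∃ t : B, ψ t = ψ d * z g) :
    ∀ 𝔫 : Ideal (integralClosure (Algebra.adjoin ↥W {(S24.jBC L N)⁻¹}) (S24.FF L N)),
      𝔫.IsMaximal →
      (∀ r : integralClosure (Algebra.adjoin ↥W {(S24.jBC L N)⁻¹}) (S24.FF L N),
        (r : S24.FF L N) = algebraMap ↥W (S24.FF L N) ϖ → r ∈ 𝔫) →
      (∀ r : integralClosure (Algebra.adjoin ↥W {(S24.jBC L N)⁻¹}) (S24.FF L N),
        (r : S24.FF L N) = (S24.jBC L N)⁻¹ → r ∈ 𝔫) →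
      ∃ g : S24.FF L N, P g ∧
        ∃ d : integralClosure (Algebra.adjoin ↥W {(S24.jBC L N)⁻¹}) (S24.FF L N), d ∉ 𝔫 ∧
          IsIntegral (Algebra.adjoin ↥W {(S24.jBC L N)⁻¹}) ((d : S24.FF L N) * z g) :=
  ChartCarrier.hloc_cusp_of_carrier ϖ (S24.jBC L N)⁻¹ ψ hψ
    (fun y => (hrange y).trans (isIntegral_adjoin_inv_iff W N y).symm) P z
    (fun 𝔪 h𝔪 hT hj => h 𝔪 h𝔪 hT hj)

/-- **The finite-chart clause from (K-LOC) on a carrier in the `IsIntegralClosure` shape**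
(`algebraMap W[X] F = evF W N`). -/
theorem hloc_fin_of_closure [Algebra (↥W)[X] (S24.FF L N)]
    (halg : algebraMap (↥W)[X] (S24.FF L N) = Gauss.evF W N)
    (B : Type*) [CommRing B] [Algebra (↥W)[X] B] [Algebra B (S24.FF L N)]
    [IsScalarTower (↥W)[X] B (S24.FF L N)] [IsIntegralClosure B (↥W)[X] (S24.FF L N)]
    (ϖ : ↥W) (P : S24.FF L N → Prop) (z : S24.FF L N → S24.FF L N)
    (h : ∀ 𝔪 : Ideal B, 𝔪.IsMaximal → algebraMap (↥W)[X] B (C ϖ) ∈ 𝔪 →
      ∃ g : S24.FF L N, P g ∧ ∃ d : B, d ∉ 𝔪 ∧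
        ∃ t : B, algebraMap B (S24.FF L N) t = algebraMap B (S24.FF L N) d * z g) :
    ∀ 𝔫 : Ideal (integralClosure (Algebra.adjoin ↥W {S24.jBC L N}) (S24.FF L N)),
      𝔫.IsMaximal →
      (∀ r : integralClosure (Algebra.adjoin ↥W {S24.jBC L N}) (S24.FF L N),
        (r : S24.FF L N) = algebraMap ↥W (S24.FF L N) ϖ → r ∈ 𝔫) →
      ∃ g : S24.FF L N, P g ∧
        ∃ d : integralClosure (Algebra.adjoin ↥W {S24.jBC L N}) (S24.FF L N), d ∉ 𝔫 ∧
          IsIntegral (Algebra.adjoin ↥W {S24.jBC L N}) ((d : S24.FF L N) * z g) := by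
  refine hloc_fin_of_carrier W N (algebraMap B (S24.FF L N))
    (IsIntegralClosure.algebraMap_injective B (↥W)[X] (S24.FF L N)) ?_ ϖ P z ?_
  · intro y
    rw [← halg]
    exact (IsIntegralClosure.isIntegral_iff (A := B) (R := (↥W)[X]) (B := S24.FF L N)).symm
  · intro 𝔪 h𝔪 hT
    refine h 𝔪 h𝔪 (hT _ ?_)
    rw [← IsScalarTower.algebraMap_apply, halg, Gauss.evF_C]

/-- **The cusp clause from (K-LOC) on a carrier in the `IsIntegralClosure` shape**
(`algebraMap W[X] F = evFinf W N`, i.e. `X ↦ 1/j`). -/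
theorem hloc_cusp_of_closure [Algebra (↥W)[X] (S24.FF L N)]
    (halg : algebraMap (↥W)[X] (S24.FF L N) = Gauss.evFinf W N)
    (B : Type*) [CommRing B] [Algebra (↥W)[X] B] [Algebra B (S24.FF L N)]
    [IsScalarTower (↥W)[X] B (S24.FF L N)] [IsIntegralClosure B (↥W)[X] (S24.FF L N)]
    (ϖ : ↥W) (P : S24.FF L N → Prop) (z : S24.FF L N → S24.FF L N)
    (h : ∀ 𝔪 : Ideal B, 𝔪.IsMaximal → algebraMap (↥W)[X] B (C ϖ) ∈ 𝔪 →
      algebraMap (↥W)[X] B X ∈ 𝔪 →
      ∃ g : S24.FF L N, P g ∧ ∃ d : B, d ∉ 𝔪 ∧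
        ∃ t : B, algebraMap B (S24.FF L N) t = algebraMap B (S24.FF L N) d * z g) :
    ∀ 𝔫 : Ideal (integralClosure (Algebra.adjoin ↥W {(S24.jBC L N)⁻¹}) (S24.FF L N)),
      𝔫.IsMaximal →
      (∀ r : integralClosure (Algebra.adjoin ↥W {(S24.jBC L N)⁻¹}) (S24.FF L N),
        (r : S24.FF L N) = algebraMap ↥W (S24.FF L N) ϖ → r ∈ 𝔫) →
      (∀ r : integralClosure (Algebra.adjoin ↥W {(S24.jBC L N)⁻¹}) (S24.FF L N),
        (r : S24.FF L N) = (S24.jBC L N)⁻¹ → r ∈ 𝔫) →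
      ∃ g : S24.FF L N, P g ∧
        ∃ d : integralClosure (Algebra.adjoin ↥W {(S24.jBC L N)⁻¹}) (S24.FF L N), d ∉ 𝔫 ∧
          IsIntegral (Algebra.adjoin ↥W {(S24.jBC L N)⁻¹}) ((d : S24.FF L N) * z g) := by
  refine hloc_cusp_of_carrier W N (algebraMap B (S24.FF L N))
    (IsIntegralClosure.algebraMap_injective B (↥W)[X] (S24.FF L N)) ?_ ϖ P z ?_
  · intro y
    rw [← halg]
    exact (IsIntegralClosure.isIntegral_iff (A := B) (R := (↥W)[X]) (B := S24.FF L N)).symm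
  · intro 𝔪 h𝔪 hT hj
    refine h 𝔪 h𝔪 (hT _ ?_) (hj _ ?_)
    · rw [← IsScalarTower.algebraMap_apply, halg, Gauss.evFinf_C]
    · rw [← IsScalarTower.algebraMap_apply, halg, Gauss.evFinf_X]

end Level

section Contracts

variable (M q p : ℕ) [NeZero M] [NeZero q]

set_option maxHeartbeats 800000 in
/-- **`GAsm.LocContract₁` from (K-LOC) on a carrier of the finite chart** (the carrier may
depend on the level). -/
theorem locContract₁_of_carrier (A : ValuationSubring Qb) (τ : Qb ≃ₐ[ℚ] Qb)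
    (hK : ∀ (n : ℕ) (D : Divisor Qb (modularFunctionFieldBar (M * q)))
      (f : modularFunctionFieldBar (M * q)), f ≠ 0 →
      (∀ P : Place Qb (modularFunctionFieldBar (M * q)), P.ord f = (p : ℤ) ^ n * D P) →
      ∃ S₀ : Finset Qb, ∀ (L : Type) [Field L] [Algebra ℚ L] (ι : L →+* Qb),
        LevelChange.IsLevel A q S₀ ι → GalLevel.IsStable ι →
        ∀ fL : S24.FF L (M * q),
          S24.CoeffBC.bc ι (modularFunctionFieldFull (M * q)) fL = f →
        (∀ P : Place Qb (modularFunctionFieldBar (M * q)), D P ≠ 0 →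
          RatAtLevel (M * q) ι P) →
        ∀ ϖ : ↥(A.comap ι), Irreducible ϖ →
        ∀ s : L ≃+* L, (∀ c : L, ι (s c) = τ (ι c)) →
        ∃ (B : Type) (_ : CommRing B) (ψ : B →+* S24.FF L (M * q)), Function.Injective ψ ∧
          (∀ y : S24.FF L (M * q), (∃ b : B, ψ b = y) ↔
            (Gauss.evF (A.comap ι) (M * q)).IsIntegralElem y) ∧
          ∀ 𝔪 : Ideal B, 𝔪.IsMaximal →
            (∀ b : B, ψ b = algebraMap L (S24.FF L (M * q)) (ϖ : L) → b ∈ 𝔪) →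
            ∃ h : S24.FF L (M * q), h ≠ 0 ∧ ∃ d : B, d ∉ 𝔪 ∧
              ∃ t : B, ψ t = ψ d * DDGauss.dd (M * q) s (fL / h ^ (p ^ n))) :
    GAsm.LocContract₁ M q p A τ := by
  intro n D f hf hD
  obtain ⟨S₀, hS₀⟩ := hK n D f hf hD
  refine ⟨S₀, ?_⟩
  intro L _ _ ι hlev hst fL hfL hrat ϖ hϖ s hs
  obtain ⟨B, _, ψ, hψ, hrange, h⟩ := hS₀ L ι hlev hst fL hfL hrat ϖ hϖ s hs
  exact hloc_fin_of_carrier (A.comap ι) (M * q) ψ hψ hrange ϖ (fun h => h ≠ 0)
    (fun h => DDGauss.dd (M * q) s (fL / h ^ (p ^ n))) h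

set_option maxHeartbeats 800000 in
/-- **`GAsm.LocContract₂` from (K-LOC) on a carrier of the chart `W[1/j]`**, at the maximal
ideals containing `π` and `1/j`. -/
theorem locContract₂_of_carrier (A : ValuationSubring Qb) (τ : Qb ≃ₐ[ℚ] Qb)
    (hK : ∀ (n : ℕ) (D : Divisor Qb (modularFunctionFieldBar (M * q)))
      (f : modularFunctionFieldBar (M * q)), f ≠ 0 →
      (∀ P : Place Qb (modularFunctionFieldBar (M * q)), P.ord f = (p : ℤ) ^ n * D P) →
      ∃ S₀ : Finset Qb, ∀ (L : Type) [Field L] [Algebra ℚ L] (ι : L →+* Qb),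
        LevelChange.IsLevel A q S₀ ι → GalLevel.IsStable ι →
        ∀ fL : S24.FF L (M * q),
          S24.CoeffBC.bc ι (modularFunctionFieldFull (M * q)) fL = f →
        (∀ P : Place Qb (modularFunctionFieldBar (M * q)), D P ≠ 0 →
          RatAtLevel (M * q) ι P) →
        ∀ ϖ : ↥(A.comap ι), Irreducible ϖ →
        ∀ s : L ≃+* L, (∀ c : L, ι (s c) = τ (ι c)) →
        ∃ (B : Type) (_ : CommRing B) (ψ : B →+* S24.FF L (M * q)), Function.Injective ψ ∧
          (∀ y : S24.FF L (M * q), (∃ b : B, ψ b = y) ↔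
            (Gauss.evFinf (A.comap ι) (M * q)).IsIntegralElem y) ∧
          ∀ 𝔪 : Ideal B, 𝔪.IsMaximal →
            (∀ b : B, ψ b = algebraMap L (S24.FF L (M * q)) (ϖ : L) → b ∈ 𝔪) →
            (∀ b : B, ψ b = (S24.jBC L (M * q))⁻¹ → b ∈ 𝔪) →
            ∃ h : S24.FF L (M * q), h ≠ 0 ∧ ∃ d : B, d ∉ 𝔪 ∧
              ∃ t : B, ψ t = ψ d * DDGauss.dd (M * q) s (fL / h ^ (p ^ n))) :
    GAsm.LocContract₂ M q p A τ := by
  intro n D f hf hD
  obtain ⟨S₀, hS₀⟩ := hK n D f hf hD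
  refine ⟨S₀, ?_⟩
  intro L _ _ ι hlev hst fL hfL hrat ϖ hϖ s hs
  obtain ⟨B, _, ψ, hψ, hrange, h⟩ := hS₀ L ι hlev hst fL hfL hrat ϖ hϖ s hs
  exact hloc_cusp_of_carrier (A.comap ι) (M * q) ψ hψ hrange ϖ (fun h => h ≠ 0)
    (fun h => DDGauss.dd (M * q) s (fL / h ^ (p ^ n))) h

set_option maxHeartbeats 800000 in
/-- **`GAsm.LocContract₁` from (K-LOC) on the carriers in the `IsIntegralClosure` shape**
(`algebraMap W[X] F = evF W (M q)`); the hypothesis is used at the canonical carrier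
`integralClosure W[X] F`. -/
theorem locContract₁_of_closure (A : ValuationSubring Qb) (τ : Qb ≃ₐ[ℚ] Qb)
    (hK : ∀ (n : ℕ) (D : Divisor Qb (modularFunctionFieldBar (M * q)))
      (f : modularFunctionFieldBar (M * q)), f ≠ 0 →
      (∀ P : Place Qb (modularFunctionFieldBar (M * q)), P.ord f = (p : ℤ) ^ n * D P) →
      ∃ S₀ : Finset Qb, ∀ (L : Type) [Field L] [Algebra ℚ L] (ι : L →+* Qb),
        LevelChange.IsLevel A q S₀ ι → GalLevel.IsStable ι →
        ∀ fL : S24.FF L (M * q),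
          S24.CoeffBC.bc ι (modularFunctionFieldFull (M * q)) fL = f →
        (∀ P : Place Qb (modularFunctionFieldBar (M * q)), D P ≠ 0 →
          RatAtLevel (M * q) ι P) →
        ∀ ϖ : ↥(A.comap ι), Irreducible ϖ →
        ∀ s : L ≃+* L, (∀ c : L, ι (s c) = τ (ι c)) →
        ∀ [Algebra (↥(A.comap ι))[X] (S24.FF L (M * q))],
          algebraMap (↥(A.comap ι))[X] (S24.FF L (M * q)) = Gauss.evF (A.comap ι) (M * q) →
        ∀ (B : Type) [CommRing B] [Algebra (↥(A.comap ι))[X] B] [Algebra B (S24.FF L (M * q))]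
          [IsScalarTower (↥(A.comap ι))[X] B (S24.FF L (M * q))]
          [IsIntegralClosure B (↥(A.comap ι))[X] (S24.FF L (M * q))]
          (𝔪 : Ideal B), 𝔪.IsMaximal → algebraMap (↥(A.comap ι))[X] B (C ϖ) ∈ 𝔪 →
          ∃ h : S24.FF L (M * q), h ≠ 0 ∧ ∃ d : B, d ∉ 𝔪 ∧
            ∃ t : B, algebraMap B (S24.FF L (M * q)) t =
              algebraMap B (S24.FF L (M * q)) d *
                DDGauss.dd (M * q) s (fL / h ^ (p ^ n))) :
    GAsm.LocContract₁ M q p A τ := by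
  intro n D f hf hD
  obtain ⟨S₀, hS₀⟩ := hK n D f hf hD
  refine ⟨S₀, ?_⟩
  intro L _ _ ι hlev hst fL hfL hrat ϖ hϖ s hs
  letI : Algebra (↥(A.comap ι))[X] (S24.FF L (M * q)) :=
    (Gauss.evF (A.comap ι) (M * q)).toAlgebra
  exact hloc_fin_of_closure (A.comap ι) (M * q) rfl
    ↥(integralClosure (↥(A.comap ι))[X] (S24.FF L (M * q))) ϖ (fun h => h ≠ 0)
    (fun h => DDGauss.dd (M * q) s (fL / h ^ (p ^ n)))
    (fun 𝔪 h𝔪 hC => hS₀ L ι hlev hst fL hfL hrat ϖ hϖ s hs rfl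
      ↥(integralClosure (↥(A.comap ι))[X] (S24.FF L (M * q))) 𝔪 h𝔪 hC)

set_option maxHeartbeats 800000 in
/-- **`GAsm.LocContract₂` from (K-LOC) on the carriers in the `IsIntegralClosure` shape**
(`algebraMap W[X] F = evFinf W (M q)`, `X ↦ 1/j`), at the maximal ideals containing `π` and
`X`. -/
theorem locContract₂_of_closure (A : ValuationSubring Qb) (τ : Qb ≃ₐ[ℚ] Qb)
    (hK : ∀ (n : ℕ) (D : Divisor Qb (modularFunctionFieldBar (M * q)))
      (f : modularFunctionFieldBar (M * q)), f ≠ 0 →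
      (∀ P : Place Qb (modularFunctionFieldBar (M * q)), P.ord f = (p : ℤ) ^ n * D P) →
      ∃ S₀ : Finset Qb, ∀ (L : Type) [Field L] [Algebra ℚ L] (ι : L →+* Qb),
        LevelChange.IsLevel A q S₀ ι → GalLevel.IsStable ι →
        ∀ fL : S24.FF L (M * q),
          S24.CoeffBC.bc ι (modularFunctionFieldFull (M * q)) fL = f →
        (∀ P : Place Qb (modularFunctionFieldBar (M * q)), D P ≠ 0 →
          RatAtLevel (M * q) ι P) →
        ∀ ϖ : ↥(A.comap ι), Irreducible ϖ →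
        ∀ s : L ≃+* L, (∀ c : L, ι (s c) = τ (ι c)) →
        ∀ [Algebra (↥(A.comap ι))[X] (S24.FF L (M * q))],
          algebraMap (↥(A.comap ι))[X] (S24.FF L (M * q)) = Gauss.evFinf (A.comap ι) (M * q) →
        ∀ (B : Type) [CommRing B] [Algebra (↥(A.comap ι))[X] B] [Algebra B (S24.FF L (M * q))]
          [IsScalarTower (↥(A.comap ι))[X] B (S24.FF L (M * q))]
          [IsIntegralClosure B (↥(A.comap ι))[X] (S24.FF L (M * q))]
          (𝔪 : Ideal B), 𝔪.IsMaximal → algebraMap (↥(A.comap ι))[X] B (C ϖ) ∈ 𝔪 →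
          algebraMap (↥(A.comap ι))[X] B X ∈ 𝔪 →
          ∃ h : S24.FF L (M * q), h ≠ 0 ∧ ∃ d : B, d ∉ 𝔪 ∧
            ∃ t : B, algebraMap B (S24.FF L (M * q)) t =
              algebraMap B (S24.FF L (M * q)) d *
                DDGauss.dd (M * q) s (fL / h ^ (p ^ n))) :
    GAsm.LocContract₂ M q p A τ := by
  intro n D f hf hD
  obtain ⟨S₀, hS₀⟩ := hK n D f hf hD
  refine ⟨S₀, ?_⟩
  intro L _ _ ι hlev hst fL hfL hrat ϖ hϖ s hs
  letI : Algebra (↥(A.comap ι))[X] (S24.FF L (M * q)) :=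
    (Gauss.evFinf (A.comap ι) (M * q)).toAlgebra
  exact hloc_cusp_of_closure (A.comap ι) (M * q) rfl
    ↥(integralClosure (↥(A.comap ι))[X] (S24.FF L (M * q))) ϖ (fun h => h ≠ 0)
    (fun h => DDGauss.dd (M * q) s (fL / h ^ (p ^ n)))
    (fun 𝔪 h𝔪 hC hX => hS₀ L ι hlev hst fL hfL hrat ϖ hϖ s hs rfl
      ↥(integralClosure (↥(A.comap ι))[X] (S24.FF L (M * q))) 𝔪 h𝔪 hC hX)

end Contracts

end Fermat.Agent.S34.GLoc
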