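import Mathlib
import Fermat.Agent.S34.KummerStep

/-
S34 (blueprint findings 202): ring-theoretic instances of the two chart rings of
`KummerStep.kummer_step` / `KummerInd.kummer_descent`, in the Algebra currency.

Setting: `W` a noetherian UFD with fraction field `L` of characteristic zero, `F ⊇ L(j)` a finite
extension, `j` transcendental over `L`.  For `x₀ = j` (and `x₀ = j⁻¹`, the `_inv` forms) the
chart ring `B = integralClosure (Algebra.adjoin W {x₀}) F`

* is a finite module over `W[x₀]` (`module_finite`), hence noetherian (`isNoetherianRing`);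
* has fraction field `F` (`isFractionRing`) and is integrally closed (`isIntegrallyClosed`).

These are the instance arguments of the local Hartogs lemma `IntAt.exists_isIntegral_mul_of_two`.
-/

set_option autoImplicit false
set_option linter.unusedSectionVars false
set_option linter.style.haveILetI false

namespace Fermat.Agent.S34.ChartRing

open Polynomial Fermat.Agent.S18 Fermat.Agent.S18.Endgame Fermat.Agent.S34.KummerStep

section Basic

variable {L F : Type*} [Field L] [Field F] [Algebra L F]

theorem adjoin_inv_eq (j : F) : IntermediateField.adjoin L {j⁻¹} = IntermediateField.adjoin L {j} := by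
  apply le_antisymm
  · rw [IntermediateField.adjoin_simple_le_iff]
    exact inv_mem (IntermediateField.mem_adjoin_simple_self L j)
  · rw [IntermediateField.adjoin_simple_le_iff]
    have h := inv_mem (IntermediateField.mem_adjoin_simple_self L j⁻¹)
    rwa [inv_inv] at h

theorem finiteDimensional_of_eq {K₁ K₂ : IntermediateField L F} (h : K₁ = K₂)
    [FiniteDimensional K₁ F] : FiniteDimensional K₂ F := by
  subst h; infer_instance

/-- `F` is finite over `L(1/j)` as soon as it is finite over `L(j)`. -/
theorem finiteDimensional_inv (j : F) [FiniteDimensional (IntermediateField.adjoin L {j}) F] :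
    FiniteDimensional (IntermediateField.adjoin L {j⁻¹}) F :=
  finiteDimensional_of_eq (adjoin_inv_eq j).symm

end Basic

section Chart

variable {W L F : Type*} [CommRing W] [IsDomain W] [IsNoetherianRing W]
  [UniqueFactorizationMonoid W] [Field L] [Algebra W L] [IsFractionRing W L] [CharZero L]
  [Field F] [Algebra L F] [Algebra W F] [IsScalarTower W L F]

/-- `W[x₀]` is noetherian. -/
theorem isNoetherianRing_adjoin (x₀ : F) : IsNoetherianRing ↥(Algebra.adjoin W {x₀}) := by
  let φ : W[X] →ₐ[W] ↥(Algebra.adjoin W {x₀}) :=
    (Polynomial.aeval x₀ : W[X] →ₐ[W] F).codRestrict (Algebra.adjoin W {x₀})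
      (fun p => aeval_mem_adjoin_singleton W x₀)
  refine isNoetherianRing_of_surjective W[X] _ (φ : W[X] →+* ↥(Algebra.adjoin W {x₀})) ?_
  rintro ⟨y, hy⟩
  rw [Algebra.adjoin_singleton_eq_range_aeval] at hy
  obtain ⟨p, rfl⟩ := hy
  exact ⟨p, Subtype.ext rfl⟩

/-- The chart ring is a finite `W[j]`-module. -/
theorem module_finite (j : F) (hj : Transcendental L j)
    [FiniteDimensional (IntermediateField.adjoin L {j}) F] :
    Module.Finite ↥(Algebra.adjoin W {j}) ↥(integralClosure (Algebra.adjoin W {j}) F) := by
  apply finite_of_gens (Y := F)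
  obtain ⟨n, b, hb, hspan⟩ := ChartGens.exists_gens_chart (W := W) (L := L) (F := F) (Y := F)
    (algebraMap W F)
    (fun a => by
      rw [← IsScalarTower.algebraMap_apply W L F]; rfl)
    j hj
  have hev : (eval₂RingHom (algebraMap W F) (algebraMap F F j)) = ev W j := by
    apply Polynomial.ringHom_ext
    · intro a; rw [coe_eval₂RingHom, eval₂_C, ev_C]
    · rw [coe_eval₂RingHom, eval₂_X, ev_X]; rfl
  rw [hev] at hb hspan
  exact ⟨n, b, hb, hspan⟩

/-- The chart ring is noetherian. -/
theorem isNoetherianRing (j : F) (hj : Transcendental L j)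
    [FiniteDimensional (IntermediateField.adjoin L {j}) F] :
    IsNoetherianRing ↥(integralClosure (Algebra.adjoin W {j}) F) := by
  haveI := isNoetherianRing_adjoin (W := W) j
  haveI := module_finite (W := W) j hj
  exact IsNoetherianRing.of_finite ↥(Algebra.adjoin W {j}) _

/-- `F` is algebraic over `W[j]`. -/
theorem isAlgebraic (j : F) (hj : Transcendental L j)
    [FiniteDimensional (IntermediateField.adjoin L {j}) F] :
    Algebra.IsAlgebraic ↥(Algebra.adjoin W {j}) F := by
  classical
  refine ⟨fun z => ?_⟩
  set g : W[X] →+* F := eval₂RingHom ((algebraMap L F).comp (algebraMap W L)) j with hg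
  have hginj : Function.Injective g := ChartGens.eval₂_comp_injective hj
  have hgae : ∀ p : W[X], g p = aeval j p := by
    intro p
    rw [hg, coe_eval₂RingHom, aeval_def, IsScalarTower.algebraMap_eq W L F]
  letI : Algebra (FractionRing W[X]) F := FFKit.fracAlgebra (FractionRing W[X]) g hginj
  have hfinS : Module.Finite (IntermediateField.adjoin L {j}).toSubfield F :=
    (inferInstance : FiniteDimensional (IntermediateField.adjoin L {j}) F)
  haveI : Module.Finite (FractionRing W[X]) F :=
    FFKit.fracAlgebra_finite (FractionRing W[X]) g hginj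
      (IntermediateField.adjoin L {j}).toSubfield
      (fun s hs => ChartGens.exists_div_of_mem_adjoin (W := W) hs)
  have hzK : IsAlgebraic (FractionRing W[X]) z := Algebra.IsAlgebraic.isAlgebraic z
  letI : Algebra W[X] F := g.toAlgebra
  haveI : IsScalarTower W[X] (FractionRing W[X]) F :=
    FFKit.fracAlgebra_isScalarTower (FractionRing W[X]) g hginj
  have hzA : IsAlgebraic W[X] z :=
    (IsFractionRing.isAlgebraic_iff W[X] (FractionRing W[X]) F).mpr hzK
  obtain ⟨P, hP0, hP⟩ := hzA
  let φ : W[X] →ₐ[W] ↥(Algebra.adjoin W {j}) :=
    (Polynomial.aeval j : W[X] →ₐ[W] F).codRestrict (Algebra.adjoin W {j})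
      (fun p => aeval_mem_adjoin_singleton W j)
  have hφinj : Function.Injective (φ : W[X] →+* ↥(Algebra.adjoin W {j})) := by
    intro p q hpq
    apply hginj
    rw [hgae, hgae]
    exact congrArg Subtype.val hpq
  refine ⟨P.map (φ : W[X] →+* ↥(Algebra.adjoin W {j})),
    (Polynomial.map_ne_zero_iff hφinj).mpr hP0, ?_⟩
  rw [aeval_def, eval₂_map]
  have hcomp : (algebraMap ↥(Algebra.adjoin W {j}) F).comp
      (φ : W[X] →+* ↥(Algebra.adjoin W {j})) = g := by
    ext p
    · simp [hg, φ, IsScalarTower.algebraMap_apply W L F]
    · simp [hg, φ]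
  rw [hcomp]
  exact hP

/-- `F` is the fraction field of the chart ring. -/
theorem isFractionRing (j : F) (hj : Transcendental L j)
    [FiniteDimensional (IntermediateField.adjoin L {j}) F] :
    IsFractionRing ↥(integralClosure (Algebra.adjoin W {j}) F) F := by
  haveI := isAlgebraic (W := W) j hj
  refine integralClosure.isFractionRing_of_algebraic (A := ↥(Algebra.adjoin W {j})) (L := F) ?_
  intro x hx
  exact Subtype.ext hx

/-- The chart ring is integrally closed. -/
theorem isIntegrallyClosed (j : F) (hj : Transcendental L j)
    [FiniteDimensional (IntermediateField.adjoin L {j}) F] :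
    IsIntegrallyClosed ↥(integralClosure (Algebra.adjoin W {j}) F) := by
  haveI := isFractionRing (W := W) j hj
  exact (IsIntegrallyClosed.integralClosure_eq_bot_iff F).mp integralClosure_idem

/-! ### The second chart -/

theorem transcendental_inv_L {j : F} (hj : Transcendental L j) : Transcendental L j⁻¹ :=
  transcendental_inv hj

theorem module_finite_inv (j : F) (hj : Transcendental L j)
    [FiniteDimensional (IntermediateField.adjoin L {j}) F] :
    Module.Finite ↥(Algebra.adjoin W {j⁻¹}) ↥(integralClosure (Algebra.adjoin W {j⁻¹}) F) := by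
  haveI := finiteDimensional_inv (L := L) j
  exact module_finite j⁻¹ (transcendental_inv_L hj)

theorem isNoetherianRing_inv (j : F) (hj : Transcendental L j)
    [FiniteDimensional (IntermediateField.adjoin L {j}) F] :
    IsNoetherianRing ↥(integralClosure (Algebra.adjoin W {j⁻¹}) F) := by
  haveI := finiteDimensional_inv (L := L) j
  exact isNoetherianRing j⁻¹ (transcendental_inv_L hj)

theorem isFractionRing_inv (j : F) (hj : Transcendental L j)
    [FiniteDimensional (IntermediateField.adjoin L {j}) F] :
    IsFractionRing ↥(integralClosure (Algebra.adjoin W {j⁻¹}) F) F := by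
  haveI := finiteDimensional_inv (L := L) j
  exact isFractionRing j⁻¹ (transcendental_inv_L hj)

theorem isIntegrallyClosed_inv (j : F) (hj : Transcendental L j)
    [FiniteDimensional (IntermediateField.adjoin L {j}) F] :
    IsIntegrallyClosed ↥(integralClosure (Algebra.adjoin W {j⁻¹}) F) := by
  haveI := finiteDimensional_inv (L := L) j
  exact isIntegrallyClosed j⁻¹ (transcendental_inv_L hj)

end Chart

end Fermat.Agent.S34.ChartRing
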