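import Mathlib

/-!
# Algebraic Hartogs lemma (package A1 of the S34 blueprint)

`R` a noetherian integrally closed domain, `a b : R`, `b ≠ 0`.  If for every prime `𝔭` minimal over
`(b)` there is `s ∉ 𝔭` with `b ∣ s * a`, then `b ∣ a`.
-/

set_option autoImplicit false

namespace Fermat.Agent.S34.Hartogs

variable {R : Type*} [CommRing R]

/-- The colon ideal `(b : c) = {r | b ∣ r * c}`. -/
def col (b c : R) : Ideal R where
  carrier := {r | b ∣ r * c}
  add_mem' := by
    intro x y hx hy
    simp only [Set.mem_setOf_eq] at hx hy ⊢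
    rw [add_mul]; exact dvd_add hx hy
  zero_mem' := by simp
  smul_mem' := by
    intro x y hy
    simp only [Set.mem_setOf_eq, smul_eq_mul] at hy ⊢
    rw [mul_assoc]; exact Dvd.dvd.mul_left hy x

lemma mem_col {b c r : R} : r ∈ col b c ↔ b ∣ r * c := Iff.rfl

lemma self_mem_col (b c : R) : b ∈ col b c := by
  rw [mem_col]; exact Dvd.intro _ rfl

lemma one_mem_col_iff {b c : R} : (1 : R) ∈ col b c ↔ b ∣ c := by
  rw [mem_col, one_mul]

lemma col_le_col_mul (b c x : R) : col b c ≤ col b (x * c) := by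
  intro r hr
  rw [mem_col] at hr ⊢
  have : r * (x * c) = x * (r * c) := by ring
  rw [this]; exact Dvd.dvd.mul_left hr x

/-- In a noetherian ring, if `b ∤ a` there is a prime ideal of the form `(b : r * a)` with
`b ∤ r * a`. -/
lemma exists_prime_col [IsNoetherianRing R] (a b : R) (h : ¬ b ∣ a) :
    ∃ r : R, ¬ b ∣ r * a ∧ (col b (r * a)).IsPrime := by
  classical
  obtain ⟨P, ⟨r, hr, rfl⟩, hmax⟩ :=
    set_has_maximal_iff_noetherian.mpr (inferInstance : IsNoetherianRing R)
      { P : Ideal R | ∃ r : R, ¬ b ∣ r * a ∧ P = col b (r * a) }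
      ⟨col b (1 * a), 1, by simpa using h, rfl⟩
  refine ⟨r, hr, ?_⟩
  rw [Ideal.isPrime_iff]
  refine ⟨?_, ?_⟩
  · intro htop
    apply hr
    rw [← one_mem_col_iff, htop]; trivial
  · intro x y hxy
    by_cases hx : x ∈ col b (r * a)
    · exact Or.inl hx
    · right
      have hx' : ¬ b ∣ (x * r) * a := by
        rw [mul_assoc]; exact hx
      have hle : col b (r * a) ≤ col b ((x * r) * a) := by
        rw [mul_assoc]; exact col_le_col_mul b (r * a) x
      have hnot := hmax (col b ((x * r) * a)) ⟨x * r, hx', rfl⟩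
      have heq : col b ((x * r) * a) = col b (r * a) := by
        by_contra hne
        exact hnot (lt_of_le_of_ne hle (Ne.symm hne))
      rw [← heq, mem_col]
      rw [mem_col] at hxy
      have : y * (x * r * a) = x * y * (r * a) := by ring
      rw [this]; exact hxy

/-- **Algebraic Hartogs lemma** (A1). -/
theorem dvd_of_forall_minimalPrimes [IsDomain R] [IsNoetherianRing R] [IsIntegrallyClosed R]
    (a b : R) (hb : b ≠ 0)
    (h : ∀ 𝔭 ∈ (Ideal.span {b} : Ideal R).minimalPrimes, ∃ s : R, s ∉ 𝔭 ∧ b ∣ s * a) :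
    b ∣ a := by
  classical
  by_contra hba
  obtain ⟨r, hr, hprime⟩ := exists_prime_col a b hba
  set c : R := r * a with hc
  set 𝔭 : Ideal R := col b c with h𝔭
  haveI : 𝔭.IsPrime := hprime
  have hb𝔭 : b ∈ 𝔭 := self_mem_col b c
  -- `col b a ≤ 𝔭`
  have hle : col b a ≤ 𝔭 := by
    have := col_le_col_mul b a r
    simpa [h𝔭, hc] using this
  -- it suffices to show `𝔭` is minimal over `(b)`
  suffices hmin : 𝔭 ∈ (Ideal.span {b} : Ideal R).minimalPrimes by
    obtain ⟨s, hs, hdvd⟩ := h 𝔭 hmin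
    exact hs (hle (mem_col.mpr hdvd))
  refine ⟨⟨hprime, by rw [Ideal.span_singleton_le_iff_mem]; exact hb𝔭⟩, ?_⟩
  rintro 𝔮 ⟨h𝔮prime, hb𝔮⟩ h𝔮le
  rw [Ideal.span_singleton_le_iff_mem] at hb𝔮
  haveI : 𝔮.IsPrime := h𝔮prime
  -- case distinction
  by_cases hcase : ∀ x ∈ 𝔭, ∃ t ∈ 𝔭, x * c = b * t
  · -- `c / b` is integral, hence in `R`: contradiction
    exfalso
    let K := FractionRing R
    let N : Submodule R K := Submodule.map (Algebra.linearMap R K) 𝔭
    have hN : N ≠ ⊥ := by
      intro hbot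
      have hmem : algebraMap R K b ∈ N := ⟨b, hb𝔭, rfl⟩
      rw [hbot, Submodule.mem_bot] at hmem
      exact hb ((IsFractionRing.injective R K) (by simpa using hmem))
    have hNfg : N.FG := (IsNoetherian.noetherian 𝔭).map _
    have hbK : algebraMap R K b ≠ 0 := by
      intro h0
      exact hb ((IsFractionRing.injective R K) (by simpa using h0))
    have hint : IsIntegral R (algebraMap R K c / algebraMap R K b) := by
      refine isIntegral_of_smul_mem_submodule N hN hNfg _ ?_
      rintro n ⟨x, hx, rfl⟩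
      obtain ⟨t, ht, hxt⟩ := hcase x hx
      refine ⟨t, ht, ?_⟩
      simp only [Algebra.linearMap_apply, smul_eq_mul]
      rw [div_mul_eq_mul_div, eq_div_iff hbK, ← map_mul, ← map_mul]
      congr 1
      rw [mul_comm t b, ← hxt, mul_comm]
    obtain ⟨y, hy⟩ := IsIntegrallyClosed.isIntegral_iff.mp hint
    rw [eq_div_iff hbK, ← map_mul] at hy
    have hyc : y * b = c := IsFractionRing.injective R K hy
    exact hr ⟨y, by rw [← hyc, mul_comm]⟩
  · push_neg at hcase
    obtain ⟨r₀, hr₀, hr₀'⟩ := hcase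
    obtain ⟨u, hu⟩ : b ∣ r₀ * c := mem_col.mp hr₀
    have hu𝔭 : u ∉ 𝔭 := fun hmem => hr₀' u hmem hu
    -- `u * 𝔭 ⊆ (r₀)`
    have key : ∀ x ∈ 𝔭, ∃ t : R, u * x = r₀ * t := by
      intro x hx
      obtain ⟨t, ht⟩ : b ∣ x * c := mem_col.mp hx
      refine ⟨t, mul_left_cancel₀ hb ?_⟩
      calc b * (u * x) = x * (b * u) := by ring
        _ = x * (r₀ * c) := by rw [hu]
        _ = r₀ * (x * c) := by ring
        _ = r₀ * (b * t) := by rw [ht]
        _ = b * (r₀ * t) := by ring
    by_contra hnle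
    have hu𝔮 : u ∉ 𝔮 := fun hmem => hu𝔭 (h𝔮le hmem)
    have hr₀𝔮 : r₀ ∉ 𝔮 := by
      intro hmem
      apply hnle
      intro x hx
      obtain ⟨t, ht⟩ := key x hx
      have : u * x ∈ 𝔮 := by rw [ht]; exact Ideal.mul_mem_right _ _ hmem
      exact (h𝔮prime.mem_or_mem this).resolve_left hu𝔮
    have hpow : ∀ n : ℕ, ∀ x ∈ 𝔮, ∃ y ∈ 𝔮, u ^ n * x = r₀ ^ n * y := by
      intro n
      induction n with
      | zero => intro x hx; exact ⟨x, hx, by simp⟩
      | succ n ih =>
        intro x hx
        obtain ⟨y, hy, hxy⟩ := ih x hx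
        obtain ⟨t, ht⟩ := key y (h𝔮le hy)
        have ht𝔮 : t ∈ 𝔮 := by
          have : r₀ * t ∈ 𝔮 := by rw [← ht]; exact Ideal.mul_mem_left _ _ hy
          exact (h𝔮prime.mem_or_mem this).resolve_left hr₀𝔮
        refine ⟨t, ht𝔮, ?_⟩
        calc u ^ (n + 1) * x = u * (u ^ n * x) := by ring
          _ = u * (r₀ ^ n * y) := by rw [hxy]
          _ = r₀ ^ n * (u * y) := by ring
          _ = r₀ ^ n * (r₀ * t) := by rw [ht]
          _ = r₀ ^ (n + 1) * t := by ring
    -- Krull intersection in the localisation at `𝔭`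
    let S := Localization.AtPrime 𝔭
    haveI : IsNoetherianRing S := IsLocalization.isNoetherianRing 𝔭.primeCompl S inferInstance
    let I : Ideal S := Ideal.span {algebraMap R S r₀}
    have hI : I ≠ ⊤ := by
      intro htop
      have h1 : (1 : S) ∈ IsLocalRing.maximalIdeal S := by
        have hle' : I ≤ IsLocalRing.maximalIdeal S := by
          rw [Ideal.span_singleton_le_iff_mem]
          exact (IsLocalization.AtPrime.to_map_mem_maximal_iff S 𝔭 r₀).mpr hr₀
        exact hle' (htop ▸ Submodule.mem_top)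
      exact (IsLocalRing.maximalIdeal.isMaximal S).ne_top ((Ideal.eq_top_iff_one _).mpr h1)
    have hkrull := Ideal.iInf_pow_eq_bot_of_isDomain I hI
    have hbmem : algebraMap R S b ∈ ⨅ i : ℕ, I ^ i := by
      rw [Ideal.mem_iInf]
      intro n
      obtain ⟨y, -, hy⟩ := hpow n b hb𝔮
      have hunit : IsUnit (algebraMap R S u) :=
        IsLocalization.map_units S (⟨u, hu𝔭⟩ : 𝔭.primeCompl)
      have hunitn : IsUnit (algebraMap R S u ^ n) := hunit.pow n
      obtain ⟨v, hv⟩ := hunitn
      have e1 : algebraMap R S u ^ n * algebraMap R S b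
          = algebraMap R S r₀ ^ n * algebraMap R S y := by
        rw [← map_pow, ← map_pow, ← map_mul, ← map_mul, hy]
      have e2 : algebraMap R S b = algebraMap R S r₀ ^ n * (algebraMap R S y * ↑v⁻¹) := by
        have : algebraMap R S b = ↑v⁻¹ * (algebraMap R S u ^ n * algebraMap R S b) := by
          rw [← hv, ← mul_assoc, Units.inv_mul, one_mul]
        rw [this, e1]; ring
      rw [Ideal.span_singleton_pow, Ideal.mem_span_singleton]
      exact ⟨_, e2⟩
    rw [hkrull, Ideal.mem_bot] at hbmem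
    have hinj : Function.Injective (algebraMap R S) :=
      IsLocalization.injective S 𝔭.primeCompl_le_nonZeroDivisors
    exact hb (hinj (by simpa using hbmem))

end Fermat.Agent.S34.Hartogs
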