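import Mathlib

/-!
# S34: localisations of a noetherian normal domain at primes minimal over a principal ideal

`R` a noetherian integrally closed domain, `𝔭` a prime minimal over a nonzero principal ideal.
Then `R_𝔭` is a discrete valuation ring; in elementary terms (`exists_uniformizer`): there is
`t ∈ 𝔭` such that every nonzero `y ∈ R` satisfies `s * y = t ^ k * c` with `s, c ∉ 𝔭`.
-/

set_option autoImplicit false

namespace Fermat.Agent.S34.HeightOne

variable {R : Type*} [CommRing R] [IsDomain R] [IsNoetherianRing R] [IsIntegrallyClosed R]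

/-- the localisation at a prime minimal over a nonzero principal ideal has principal maximal
ideal -/
theorem isPrincipal_maximalIdeal (c : R) (𝔭 : Ideal R) [h𝔭' : 𝔭.IsPrime]
    (h𝔭 : 𝔭 ∈ (Ideal.span {c} : Ideal R).minimalPrimes) :
    (IsLocalRing.maximalIdeal (Localization.AtPrime 𝔭)).IsPrincipal := by
  set S := Localization.AtPrime 𝔭
  have hint : IsIntegrallyClosed S :=
    isIntegrallyClosed_of_isLocalization S 𝔭.primeCompl 𝔭.primeCompl_le_nonZeroDivisors
  have hht : 𝔭.height ≤ 1 :=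
    Ideal.height_le_one_of_isPrincipal_of_mem_minimalPrimes (Ideal.span {c}) 𝔭 h𝔭
  have hmax : (IsLocalRing.maximalIdeal S).height ≤ 1 := by
    have h1 : ((IsLocalRing.maximalIdeal S).height : WithBot ℕ∞) = (𝔭.height : WithBot ℕ∞) := by
      rw [IsLocalRing.maximalIdeal_height_eq_ringKrullDim,
        IsLocalization.AtPrime.ringKrullDim_eq_height 𝔭 S]
    have h2 : (IsLocalRing.maximalIdeal S).height = 𝔭.height := by exact_mod_cast h1
    rw [h2]
    exact hht
  have huniq : ∀ P : Ideal S, P ≠ ⊥ → P.IsPrime → P = IsLocalRing.maximalIdeal S := by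
    intro P hP0 hPp
    by_contra hne
    have hlt : P < IsLocalRing.maximalIdeal S :=
      lt_of_le_of_ne (IsLocalRing.le_maximalIdeal hPp.ne_top) hne
    have hfin : (IsLocalRing.maximalIdeal S).FiniteHeight := by
      rw [Ideal.finiteHeight_iff_lt]
      right
      exact lt_of_le_of_lt hmax (by exact_mod_cast ENat.one_lt_top)
    have h1 : P.height < (IsLocalRing.maximalIdeal S).height :=
      Ideal.height_strict_mono_of_isPrime_of_isPrime hlt
    have h2 : P.height = 0 := by
      have h3 : P.height < 1 := lt_of_lt_of_le h1 hmax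
      exact Order.lt_one_iff.mp h3
    exact hP0 (Ideal.height_eq_zero_iff_eq_bot.mp h2)
  have htfae := (tfae_of_isNoetherianRing_of_isLocalRing_of_isDomain S).out 3 4
  exact htfae.mp ⟨hint, huniq⟩

/-- **Uniformiser at a prime minimal over a principal ideal.** -/
theorem exists_uniformizer (c : R) (hc : c ≠ 0) (𝔭 : Ideal R)
    (h𝔭 : 𝔭 ∈ (Ideal.span {c} : Ideal R).minimalPrimes) :
    ∃ t : R, t ∈ 𝔭 ∧ t ≠ 0 ∧ ∀ y : R, y ≠ 0 →
      ∃ (k : ℕ) (s d : R), s ∉ 𝔭 ∧ d ∉ 𝔭 ∧ s * y = t ^ k * d := by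
  have : 𝔭.IsPrime := h𝔭.1.1
  set S := Localization.AtPrime 𝔭
  have hinj : Function.Injective (algebraMap R S) :=
    IsLocalization.injective S 𝔭.primeCompl_le_nonZeroDivisors
  have hc𝔭 : c ∈ 𝔭 := h𝔭.1.2 (Ideal.subset_span rfl)
  have hprin := isPrincipal_maximalIdeal c 𝔭 h𝔭
  -- `S` is not a field
  have hnf : ¬ IsField S := by
    intro hf
    have hu : IsUnit (algebraMap R S c) := by
      let _ := hf.toField
      exact (IsUnit.mk0 _ (fun h0 => hc (hinj (by rw [h0, map_zero]))))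
    exact (IsLocalization.AtPrime.isUnit_to_map_iff S 𝔭 c).mp hu hc𝔭
  have htfae := (IsDiscreteValuationRing.TFAE S hnf).out 0 4
  have hdvr : IsDiscreteValuationRing S := htfae.mpr hprin
  obtain ⟨ϖ, hϖ⟩ := IsDiscreteValuationRing.exists_irreducible S
  obtain ⟨⟨t₀, s₀⟩, hts⟩ := IsLocalization.surj 𝔭.primeCompl ϖ
  have hs₀u : IsUnit (algebraMap R S (s₀ : R)) := IsLocalization.map_units S s₀
  have hirr : Irreducible (algebraMap R S t₀) := by
    rw [← hts]
    exact (irreducible_mul_isUnit hs₀u).mpr hϖ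
  have ht₀𝔭 : t₀ ∈ 𝔭 := by
    by_contra hnot
    exact hirr.not_isUnit ((IsLocalization.AtPrime.isUnit_to_map_iff S 𝔭 t₀).mpr hnot)
  have ht₀0 : t₀ ≠ 0 := by
    rintro rfl
    exact hirr.ne_zero (map_zero _)
  refine ⟨t₀, ht₀𝔭, ht₀0, fun y hy => ?_⟩
  have hy0 : algebraMap R S y ≠ 0 := fun h0 => hy (hinj (by rw [h0, map_zero]))
  obtain ⟨k, u, hu⟩ := IsDiscreteValuationRing.eq_unit_mul_pow_irreducible hy0 hirr
  obtain ⟨⟨d, s⟩, hds⟩ := IsLocalization.surj 𝔭.primeCompl (u : S)
  have hd𝔭 : d ∉ 𝔭 := by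
    have h1 : IsUnit (algebraMap R S d) := by
      rw [← hds]
      exact u.isUnit.mul (IsLocalization.map_units S s)
    exact (IsLocalization.AtPrime.isUnit_to_map_iff S 𝔭 d).mp h1
  refine ⟨k, s, d, s.2, hd𝔭, hinj ?_⟩
  rw [map_mul, map_mul, map_pow, hu, ← hds]
  ring

end Fermat.Agent.S34.HeightOne
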