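/-
S34 (wave 6), B5 glue (abstract, Mathlib + S34.Hartogs + S34.HeightOne): integrality at a point.

`B` is a noetherian integrally closed domain with fraction field `F`, `𝔫` a prime of `B`
(in the application: a maximal ideal of a chart ring containing the uniformiser), `x ∈ F`.

* `exists_notMem_mul_eq` (local Hartogs): if `x ∈ B_𝔭` for every prime `𝔭 ≤ 𝔫` minimal over a
  nonzero principal ideal, then `x ∈ B_𝔫`, i.e. `d * x ∈ B` for some `d ∉ 𝔫`.
* `RegularAt 𝔭 x` : `x` lies in a "ring with centre `𝔭`": sets `O ∋ x` and `M` of `F` with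
  `M * O ⊆ M` and `{y ∈ B | y ∈ M} = 𝔭` (e.g. `O` a valuation subring of `F` and `M` its
  nonunits; or `O` = series with integral coefficients and `M = ϖ O`).
* `RegularAt.exists_notMem_mul_eq` : for `𝔭` minimal over a nonzero principal ideal,
  `RegularAt 𝔭 x` implies `x ∈ B_𝔭`.
* `mem_minimalPrimes_span_of_mem` : a prime minimal over a nonzero principal ideal that contains
  `π ≠ 0` is minimal over `(π)`.
* `exists_notMem_mul_eq_of_forall` : `x ∈ B_𝔫` if `RegularAt 𝔭 x` for every prime `𝔭 ≤ 𝔫`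
  minimal over `(π)` and for every nonzero prime `𝔮 ≤ 𝔫` not containing `π`.
* `exists_notMem_mul_eq_of_two` : the same when `(π) ⊇ 𝔭₁ ⊓ 𝔭₂` for two primes `𝔭₁, 𝔭₂ ∋ π`
  (the two components of the special fibre): only `𝔭₁`, `𝔭₂` and the horizontal primes through
  `𝔫` are to be checked.
-/
import Mathlib
import Fermat.Agent.S34.Hartogs
import Fermat.Agent.S34.HeightOne

set_option autoImplicit false

namespace Fermat.Agent.S34.IntAt

variable {B : Type*} [CommRing B] [IsDomain B] [IsNoetherianRing B] [IsIntegrallyClosed B]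
variable {F : Type*} [Field F] [Algebra B F] [IsFractionRing B F]

/-- **Local Hartogs.**  If `x ∈ B_𝔭` for every prime `𝔭 ≤ 𝔫` minimal over a nonzero principal
ideal, then `x ∈ B_𝔫`. -/
theorem exists_notMem_mul_eq (𝔫 : Ideal B) [𝔫.IsPrime] (x : F)
    (h : ∀ b : B, b ≠ 0 → ∀ 𝔭 ∈ (Ideal.span {b} : Ideal B).minimalPrimes, 𝔭 ≤ 𝔫 →
      ∃ s : B, s ∉ 𝔭 ∧ ∃ t : B, algebraMap B F t = algebraMap B F s * x) :
    ∃ d : B, d ∉ 𝔫 ∧ ∃ t : B, algebraMap B F t = algebraMap B F d * x := by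
  obtain ⟨a, b, hb, rfl⟩ := IsFractionRing.div_surjective (A := B) x
  have hb0 : b ≠ 0 := nonZeroDivisors.ne_zero hb
  have hinjF : Function.Injective (algebraMap B F) := IsFractionRing.injective B F
  have hbF : algebraMap B F b ≠ 0 := fun h0 => hb0 (hinjF (by rw [h0, map_zero]))
  let R := Localization.AtPrime 𝔫
  have hle : 𝔫.primeCompl ≤ nonZeroDivisors B := 𝔫.primeCompl_le_nonZeroDivisors
  have : IsDomain R := IsLocalization.isDomain_of_le_nonZeroDivisors (S := R) hle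
  have : IsNoetherianRing R := IsLocalization.isNoetherianRing 𝔫.primeCompl R inferInstance
  have : IsIntegrallyClosed R := isIntegrallyClosed_of_isLocalization R 𝔫.primeCompl hle
  have hinj : Function.Injective (algebraMap B R) := IsLocalization.injective R hle
  have hbR : algebraMap B R b ≠ 0 := fun h0 => hb0 (hinj (by rw [h0, map_zero]))
  have hdvd : algebraMap B R b ∣ algebraMap B R a := by
    refine Hartogs.dvd_of_forall_minimalPrimes _ _ hbR ?_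
    intro 𝔓 h𝔓
    have h1 : (Ideal.span {algebraMap B R b} : Ideal R)
        = (Ideal.span {b} : Ideal B).map (algebraMap B R) := by
      rw [Ideal.map_span, Set.image_singleton]
    rw [h1, IsLocalization.minimalPrimes_map 𝔫.primeCompl R] at h𝔓
    have h𝔓prime : 𝔓.IsPrime := by
      have := h𝔓.1.1
      by_contra hnp
      -- recover primality from the comap being prime and `𝔓 = map (comap 𝔓)`
      exact hnp (by
        have hdisj : Disjoint (𝔫.primeCompl : Set B) ((𝔓.under B : Ideal B) : Set B) := by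
          rw [Set.disjoint_left]
          intro y hy hy𝔓
          have hu : IsUnit (algebraMap B R y) :=
            IsLocalization.map_units R (⟨y, hy⟩ : 𝔫.primeCompl)
          have htop : 𝔓 = ⊤ := Ideal.eq_top_of_isUnit_mem _ hy𝔓 hu
          have : (𝔓.under B : Ideal B) = ⊤ := by rw [htop]; rfl
          exact h𝔓.1.1.ne_top this
        have := IsLocalization.isPrime_of_isPrime_disjoint 𝔫.primeCompl R _ h𝔓.1.1 hdisj
        rwa [IsLocalization.map_under 𝔫.primeCompl R 𝔓] at this)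
    have hle𝔫 : 𝔓.under B ≤ 𝔫 := by
      intro y hy
      by_contra hy𝔫
      have hu : IsUnit (algebraMap B R y) :=
        IsLocalization.map_units R (⟨y, hy𝔫⟩ : 𝔫.primeCompl)
      exact h𝔓prime.ne_top (Ideal.eq_top_of_isUnit_mem _ hy hu)
    obtain ⟨s, hs, t, ht⟩ := h b hb0 _ h𝔓 hle𝔫
    refine ⟨algebraMap B R s, hs, ?_⟩
    have h2 : b * t = s * a := by
      apply hinjF
      rw [map_mul, map_mul, ht]
      field_simp
    refine ⟨algebraMap B R t, ?_⟩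
    rw [← map_mul, ← map_mul, h2]
  obtain ⟨c, hc⟩ := hdvd
  obtain ⟨⟨r, d⟩, hrd⟩ := IsLocalization.surj 𝔫.primeCompl c
  refine ⟨d, d.2, r, ?_⟩
  have h3 : (d : B) * a = b * r := by
    apply hinj
    rw [map_mul, map_mul, hc, ← hrd]
    ring
  have h4 : algebraMap B F d * algebraMap B F a = algebraMap B F b * algebraMap B F r := by
    rw [← map_mul, ← map_mul, h3]
  field_simp
  rw [mul_comm (algebraMap B F r), ← h4]

/-- `x` is regular at the centre `𝔭`: it lies in a set `O` admitting a set `M` with `M * O ⊆ M`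
whose trace on `B` is `𝔭`. -/
def RegularAt (𝔭 : Ideal B) (x : F) : Prop :=
  ∃ O M : Set F, (∀ m ∈ M, ∀ o ∈ O, m * o ∈ M) ∧ (∀ y : B, algebraMap B F y ∈ M ↔ y ∈ 𝔭) ∧ x ∈ O

omit [IsDomain B] [IsNoetherianRing B] [IsIntegrallyClosed B] [IsFractionRing B F] in
/-- Valuation subrings with centre `𝔭`. -/
theorem RegularAt.of_valuationSubring {𝔭 : Ideal B} {x : F} (O : ValuationSubring F)
    (hO𝔭 : ∀ y : B, algebraMap B F y ∈ O.nonunits ↔ y ∈ 𝔭) (hx : x ∈ O) : RegularAt 𝔭 x := by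
  refine ⟨(O : Set F), (O.nonunits : Set F), fun m hm o ho => ?_, hO𝔭, hx⟩
  have hm' : O.valuation m < 1 := (ValuationSubring.mem_nonunits_iff O).mp hm
  have ho' : O.valuation o ≤ 1 := (O.valuation_le_one_iff _).mpr ho
  show m * o ∈ O.nonunits
  rw [ValuationSubring.mem_nonunits_iff, map_mul]
  exact mul_lt_one_of_lt_of_le hm' ho'

/-- At a prime `𝔭` minimal over a nonzero principal ideal, an element regular at the centre `𝔭`
lies in `B_𝔭`. -/
theorem RegularAt.exists_notMem_mul_eq (c : B) (hc : c ≠ 0) (𝔭 : Ideal B)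
    (h𝔭 : 𝔭 ∈ (Ideal.span {c} : Ideal B).minimalPrimes) (x : F) (hreg : RegularAt 𝔭 x) :
    ∃ s : B, s ∉ 𝔭 ∧ ∃ t : B, algebraMap B F t = algebraMap B F s * x := by
  obtain ⟨O, M, hMO, hO𝔭, hx⟩ := hreg
  have h𝔭prime : 𝔭.IsPrime := h𝔭.1.1
  have hinjF : Function.Injective (algebraMap B F) := IsFractionRing.injective B F
  obtain ⟨t, ht𝔭, ht0, hunif⟩ := HeightOne.exists_uniformizer c hc 𝔭 h𝔭
  obtain ⟨a, b, hb, rfl⟩ := IsFractionRing.div_surjective (A := B) x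
  have hb0 : b ≠ 0 := nonZeroDivisors.ne_zero hb
  have hbF : algebraMap B F b ≠ 0 := fun h0 => hb0 (hinjF (by rw [h0, map_zero]))
  rcases eq_or_ne a 0 with rfl | ha0
  · exact ⟨1, fun h1 => h𝔭prime.ne_top ((Ideal.eq_top_iff_one _).mpr h1), 0, by simp⟩
  obtain ⟨k, s, d, hs, hd, hk⟩ := hunif a ha0
  obtain ⟨l, s', d', hs', hd', hl⟩ := hunif b hb0
  have hkF : algebraMap B F s * algebraMap B F a = algebraMap B F t ^ k * algebraMap B F d := by
    rw [← map_mul, hk, map_mul, map_pow]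
  have hlF : algebraMap B F s' * algebraMap B F b = algebraMap B F t ^ l * algebraMap B F d' := by
    rw [← map_mul, hl, map_mul, map_pow]
  by_cases hkl : l ≤ k
  · -- `x = t^(k-l) * (d s') / (s d')`, so `(s d') x ∈ B`
    refine ⟨s * d', fun hmem => (h𝔭prime.mem_or_mem hmem).elim hs hd', t ^ (k - l) * (d * s'), ?_⟩
    have e : algebraMap B F t ^ k = algebraMap B F t ^ (k - l) * algebraMap B F t ^ l := by
      rw [← pow_add, Nat.sub_add_cancel hkl]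
    rw [map_mul, map_mul, map_mul, map_pow, mul_div_assoc', eq_div_iff hbF]
    have e1 : algebraMap B F t ^ (k - l) * (algebraMap B F d * algebraMap B F s')
          * algebraMap B F b
        = algebraMap B F t ^ (k - l) * algebraMap B F d
          * (algebraMap B F s' * algebraMap B F b) := by ring
    have e2 : algebraMap B F s * algebraMap B F d' * algebraMap B F a
        = algebraMap B F d' * (algebraMap B F s * algebraMap B F a) := by ring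
    rw [e1, e2, hlF, hkF, e]
    ring
  · -- `k < l`: then `d s' = t^(l-k) (s d') x` is a nonunit of `O`, but `d s' ∉ 𝔭`
    exfalso
    rw [not_le] at hkl
    have e : algebraMap B F t ^ l = algebraMap B F t ^ (l - k) * algebraMap B F t ^ k := by
      rw [← pow_add, Nat.sub_add_cancel hkl.le]
    have hrel : algebraMap B F (d * s') * algebraMap B F b
        = algebraMap B F (t ^ (l - k) * (s * d')) * algebraMap B F a := by
      rw [map_mul, map_mul, map_mul, map_pow]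
      have e1 : algebraMap B F d * algebraMap B F s' * algebraMap B F b
          = algebraMap B F d * (algebraMap B F s' * algebraMap B F b) := by ring
      have e2 : algebraMap B F t ^ (l - k) * (algebraMap B F s * algebraMap B F d')
            * algebraMap B F a
          = algebraMap B F t ^ (l - k) * algebraMap B F d'
            * (algebraMap B F s * algebraMap B F a) := by ring
      rw [e1, e2, hlF, hkF, e]
      ring
    have hmem : t ^ (l - k) * (s * d') ∈ 𝔭 :=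
      𝔭.mul_mem_right _ (𝔭.pow_mem_of_mem ht𝔭 (l - k) (Nat.sub_pos_of_lt hkl))
    have hnon := (hO𝔭 _).mpr hmem
    have e3 : algebraMap B F (d * s')
        = algebraMap B F (t ^ (l - k) * (s * d')) * (algebraMap B F a / algebraMap B F b) := by
      rw [mul_div_assoc', eq_div_iff hbF]
      exact hrel
    have hval : algebraMap B F (d * s') ∈ M := by
      rw [e3]
      exact hMO _ hnon _ hx
    exact (h𝔭prime.mem_or_mem ((hO𝔭 _).mp hval)).elim hd hs'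

omit [IsIntegrallyClosed B] in
/-- A prime minimal over a nonzero principal ideal which contains `π ≠ 0` is minimal over
`(π)`. -/
theorem mem_minimalPrimes_span_of_mem (c : B) (𝔭 : Ideal B)
    (h𝔭 : 𝔭 ∈ (Ideal.span {c} : Ideal B).minimalPrimes) (π : B) (hπ0 : π ≠ 0) (hπ : π ∈ 𝔭) :
    𝔭 ∈ (Ideal.span {π} : Ideal B).minimalPrimes := by
  have h𝔭prime : 𝔭.IsPrime := h𝔭.1.1
  have hht : 𝔭.height ≤ 1 :=
    Ideal.height_le_one_of_isPrincipal_of_mem_minimalPrimes (Ideal.span {c}) 𝔭 h𝔭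
  refine ⟨⟨h𝔭prime, (Ideal.span_singleton_le_iff_mem _).mpr hπ⟩, ?_⟩
  rintro 𝔮 ⟨h𝔮prime, h𝔮π⟩ hle
  by_contra hnot
  have hlt : 𝔮 < 𝔭 := lt_of_le_of_ne hle (fun h => hnot (h ▸ le_rfl))
  have hbot : (⊥ : Ideal B) < 𝔮 := by
    rw [bot_lt_iff_ne_bot]
    rintro rfl
    exact hπ0 ((Ideal.span_singleton_le_iff_mem _).mp h𝔮π)
  have h1 : (⊥ : Ideal B).height + 1 ≤ 𝔮.height :=
    Ideal.height_add_one_le_of_lt_of_isPrime hbot
  have h2 : 𝔮.height + 1 ≤ 𝔭.height := Ideal.height_add_one_le_of_lt_of_isPrime hlt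
  have h3 : (2 : ℕ∞) ≤ 𝔭.height := by
    calc (2 : ℕ∞) = 0 + 1 + 1 := by norm_num
      _ ≤ (⊥ : Ideal B).height + 1 + 1 := by gcongr; exact zero_le
      _ ≤ 𝔮.height + 1 := by gcongr
      _ ≤ 𝔭.height := h2
  have h4 : (2 : ℕ∞) ≤ 1 := h3.trans hht
  exact absurd h4 (by norm_num)

/-- **Integrality at a point, vertical / horizontal form.**  `x ∈ B_𝔫` as soon as `x` is
regular at `𝔭` for every prime `𝔭 ≤ 𝔫` minimal over `(π)` and at every nonzero prime `𝔮 ≤ 𝔫`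
not containing `π`. -/
theorem exists_notMem_mul_eq_of_forall (π : B) (hπ0 : π ≠ 0) (𝔫 : Ideal B) [𝔫.IsPrime] (x : F)
    (hV : ∀ 𝔭 ∈ (Ideal.span {π} : Ideal B).minimalPrimes, 𝔭 ≤ 𝔫 → RegularAt 𝔭 x)
    (hH : ∀ 𝔮 : Ideal B, 𝔮.IsPrime → 𝔮 ≠ ⊥ → π ∉ 𝔮 → 𝔮 ≤ 𝔫 → RegularAt 𝔮 x) :
    ∃ d : B, d ∉ 𝔫 ∧ ∃ t : B, algebraMap B F t = algebraMap B F d * x := by
  refine exists_notMem_mul_eq 𝔫 x fun b hb 𝔭 h𝔭 hle => ?_
  have h𝔭prime : 𝔭.IsPrime := h𝔭.1.1
  by_cases hπ : π ∈ 𝔭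
  · exact RegularAt.exists_notMem_mul_eq b hb 𝔭 h𝔭 x
      (hV 𝔭 (mem_minimalPrimes_span_of_mem b 𝔭 h𝔭 π hπ0 hπ) hle)
  · have hne : 𝔭 ≠ ⊥ := by
      rintro rfl
      exact hb ((Ideal.span_singleton_le_iff_mem _).mp h𝔭.1.2)
    exact RegularAt.exists_notMem_mul_eq b hb 𝔭 h𝔭 x (hH 𝔭 h𝔭prime hne hπ hle)

omit [IsDomain B] [IsNoetherianRing B] [IsIntegrallyClosed B] in
/-- If `𝔭₁ ⊓ 𝔭₂ ≤ (π)` for two primes containing `π`, the primes minimal over `(π)` are among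
`𝔭₁`, `𝔭₂`. -/
theorem eq_or_eq_of_mem_minimalPrimes (π : B) (𝔭₁ 𝔭₂ : Ideal B) [𝔭₁.IsPrime] [𝔭₂.IsPrime]
    (hπ₁ : π ∈ 𝔭₁) (hπ₂ : π ∈ 𝔭₂) (hS1 : 𝔭₁ ⊓ 𝔭₂ ≤ Ideal.span {π}) (𝔭 : Ideal B)
    (h𝔭 : 𝔭 ∈ (Ideal.span {π} : Ideal B).minimalPrimes) : 𝔭 = 𝔭₁ ∨ 𝔭 = 𝔭₂ := by
  have h𝔭prime : 𝔭.IsPrime := h𝔭.1.1
  have hle : 𝔭₁ ⊓ 𝔭₂ ≤ 𝔭 := hS1.trans h𝔭.1.2
  rcases (Ideal.IsPrime.inf_le h𝔭prime).mp hle with h | h
  · exact Or.inl (le_antisymm
      (h𝔭.2 ⟨inferInstance, (Ideal.span_singleton_le_iff_mem _).mpr hπ₁⟩ h) h)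
  · exact Or.inr (le_antisymm
      (h𝔭.2 ⟨inferInstance, (Ideal.span_singleton_le_iff_mem _).mpr hπ₂⟩ h) h)

/-- **Integrality at a point of a two-component special fibre.**  If `𝔭₁ ⊓ 𝔭₂ ≤ (π)` for two
primes `𝔭₁, 𝔭₂ ∋ π`, then `x ∈ B_𝔫` as soon as `x` is regular at those of `𝔭₁`, `𝔭₂` which lie
in `𝔫`, and at every nonzero prime `𝔮 ≤ 𝔫` not containing `π`. -/
theorem exists_notMem_mul_eq_of_two (π : B) (hπ0 : π ≠ 0) (𝔭₁ 𝔭₂ : Ideal B) [𝔭₁.IsPrime]
    [𝔭₂.IsPrime] (hπ₁ : π ∈ 𝔭₁) (hπ₂ : π ∈ 𝔭₂) (hS1 : 𝔭₁ ⊓ 𝔭₂ ≤ Ideal.span {π})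
    (𝔫 : Ideal B) [𝔫.IsPrime] (x : F)
    (h₁ : 𝔭₁ ≤ 𝔫 → RegularAt 𝔭₁ x) (h₂ : 𝔭₂ ≤ 𝔫 → RegularAt 𝔭₂ x)
    (hH : ∀ 𝔮 : Ideal B, 𝔮.IsPrime → 𝔮 ≠ ⊥ → π ∉ 𝔮 → 𝔮 ≤ 𝔫 → RegularAt 𝔮 x) :
    ∃ d : B, d ∉ 𝔫 ∧ ∃ t : B, algebraMap B F t = algebraMap B F d * x := by
  refine exists_notMem_mul_eq_of_forall π hπ0 𝔫 x (fun 𝔭 h𝔭 hle => ?_) hH
  rcases eq_or_eq_of_mem_minimalPrimes π 𝔭₁ 𝔭₂ hπ₁ hπ₂ hS1 𝔭 h𝔭 with rfl | rfl
  · exact h₁ hle
  · exact h₂ hle

section IntegralClosure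

variable {A E : Type*} [CommRing A] [Field E] [Algebra A E]
  [IsNoetherianRing ↥(integralClosure A E)] [IsIntegrallyClosed ↥(integralClosure A E)]
  [IsFractionRing ↥(integralClosure A E) E]

/-- The two-component criterion for the chart ring `integralClosure A E`, with the conclusion in
the shape consumed by `KummerStep.kummer_step`: `d * x` is integral over `A` for some `d ∉ 𝔫`. -/
theorem exists_isIntegral_mul_of_two (π : ↥(integralClosure A E)) (hπ0 : π ≠ 0)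
    (𝔭₁ 𝔭₂ : Ideal ↥(integralClosure A E)) [𝔭₁.IsPrime] [𝔭₂.IsPrime] (hπ₁ : π ∈ 𝔭₁)
    (hπ₂ : π ∈ 𝔭₂) (hS1 : 𝔭₁ ⊓ 𝔭₂ ≤ Ideal.span {π})
    (𝔫 : Ideal ↥(integralClosure A E)) [𝔫.IsPrime] (x : E)
    (h₁ : 𝔭₁ ≤ 𝔫 → RegularAt 𝔭₁ x) (h₂ : 𝔭₂ ≤ 𝔫 → RegularAt 𝔭₂ x)
    (hH : ∀ 𝔮 : Ideal ↥(integralClosure A E), 𝔮.IsPrime → 𝔮 ≠ ⊥ → π ∉ 𝔮 → 𝔮 ≤ 𝔫 →
      RegularAt 𝔮 x) :
    ∃ d : ↥(integralClosure A E), d ∉ 𝔫 ∧ IsIntegral A ((d : E) * x) := by
  obtain ⟨d, hd, t, ht⟩ := exists_notMem_mul_eq_of_two π hπ0 𝔭₁ 𝔭₂ hπ₁ hπ₂ hS1 𝔫 x h₁ h₂ hH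
  refine ⟨d, hd, ?_⟩
  have h1 : (d : E) * x = (t : E) := ht.symm
  rw [h1]
  exact t.2

end IntegralClosure

end Fermat.Agent.S34.IntAt
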