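/-
S34 (wave 6), B5 / layer 2 glue: integrality at a point of a chart, in Place currency.

`B` is a chart ring (noetherian, integrally closed, fraction field `FL`), `bcF : FL →+* F` the
base change to the function field `F / K` carrying the places, `𝔫` a prime of `B`, `x ∈ FL`.

* `regularAt_of_place` : a place `Q` of `F / K` whose centre on `B` is the prime `𝔮`
  (`y ∈ 𝔮 ↔ IsValueAt Q (bcF y) 0`) makes every `x` with `bcF x ∈ O_Q` regular at `𝔮`.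
* `regularAt_of_ringHom` : a ring hom `ρ : O →+* K'` on a subring `O ⊆ FL` containing the image
  of `B` makes every `x ∈ O` regular at the prime `ker (ρ ∘ incl)` of `B` (the vertical primes:
  `O` = functions with integral `q`-expansion, `ρ` = reduction).
* `exists_notMem_mul_eq_of_places` : `x ∈ B_𝔫` as soon as `x` is regular at the two vertical
  primes (those of them contained in `𝔫`) and `bcF x ∈ O_Q` for every place `Q` through `𝔫`
  (`bcF B ⊆ O_Q` and `{y | bcF y ∈ 𝔪_Q} ⊆ 𝔫`), given that every horizontal prime is the centre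
  of a place (`hext`, as in `S37.ExtPlace.exists_place_of_prime_chart`).
-/
import Mathlib
import Fermat.Agent.S34.IntAt
import Fermat.Agent.S37.GaloisValue
import Fermat.Agent.S24.Places

set_option autoImplicit false

namespace Fermat.Agent.S34.IntAtPlace

open AlgebraicCurve Fermat.Agent.S37.GaloisValue Fermat.Agent.S34.IntAt

variable {K F FL : Type*} [Field K] [Field F] [Algebra K F] [Field FL]
variable {B : Type*} [CommRing B] [Algebra B FL]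

/-- A place whose centre on `B` is `𝔮` makes every function regular at it regular at `𝔮`. -/
theorem regularAt_of_place (bcF : FL →+* F) (𝔮 : Ideal B) (Q : Place K F)
    (hQ : ∀ y : B, y ∈ 𝔮 ↔ IsValueAt Q (bcF (algebraMap B FL y)) 0) (x : FL)
    (hx : bcF x ∈ Q.toValuationSubring) : RegularAt 𝔮 x := by
  refine ⟨{z : FL | bcF z ∈ Q.toValuationSubring},
    {z : FL | bcF z ∈ Q.toValuationSubring.nonunits}, fun m hm o ho => ?_, fun y => ?_, hx⟩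
  · have hm' : Q.toValuationSubring.valuation (bcF m) < 1 :=
      (ValuationSubring.mem_nonunits_iff _).mp hm
    have ho' : Q.toValuationSubring.valuation (bcF o) ≤ 1 :=
      (Q.toValuationSubring.valuation_le_one_iff _).mpr ho
    show bcF (m * o) ∈ Q.toValuationSubring.nonunits
    rw [ValuationSubring.mem_nonunits_iff, map_mul, map_mul]
    exact mul_lt_one_of_lt_of_le hm' ho'
  · rw [hQ y]
    show bcF (algebraMap B FL y) ∈ Q.toValuationSubring.nonunits ↔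
      bcF (algebraMap B FL y) - algebraMap K F 0 ∈ Q.toValuationSubring.nonunits
    rw [map_zero, sub_zero]

/-- A ring hom on a subring of `FL` containing the image of `B` makes every element of the
subring regular at the kernel of its restriction to `B`. -/
theorem regularAt_of_ringHom {K' : Type*} [CommRing K'] (O : Subring FL)
    (hBO : ∀ y : B, algebraMap B FL y ∈ O) (ρ : O →+* K') (𝔭 : Ideal B)
    (h𝔭 : ∀ y : B, y ∈ 𝔭 ↔ ρ ⟨algebraMap B FL y, hBO y⟩ = 0) (x : FL) (hx : x ∈ O) :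
    RegularAt 𝔭 x := by
  refine ⟨(O : Set FL), {z : FL | ∃ hz : z ∈ O, ρ ⟨z, hz⟩ = 0}, ?_, fun y => ?_, hx⟩
  · rintro m ⟨hm, hm0⟩ o ho
    refine ⟨O.mul_mem hm ho, ?_⟩
    have e : (⟨m * o, O.mul_mem hm ho⟩ : O) = ⟨m, hm⟩ * ⟨o, ho⟩ := rfl
    rw [e, map_mul, hm0, zero_mul]
  · rw [h𝔭 y]
    exact ⟨fun ⟨_, h⟩ => h, fun h => ⟨hBO y, h⟩⟩

variable [IsDomain B] [IsNoetherianRing B] [IsIntegrallyClosed B] [IsFractionRing B FL]

/-- **Integrality at a point of a chart, Place form.**  Given that every horizontal prime of `B`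
is the centre of a place of `F / K`, an element `x ∈ FL` which is regular at the vertical primes
through `𝔫` and lies in the valuation ring of every place through `𝔫` belongs to `B_𝔫`. -/
theorem exists_notMem_mul_eq_of_places (bcF : FL →+* F) (π : B) (hπ0 : π ≠ 0)
    (𝔭₁ 𝔭₂ : Ideal B) [𝔭₁.IsPrime] [𝔭₂.IsPrime] (hπ₁ : π ∈ 𝔭₁) (hπ₂ : π ∈ 𝔭₂)
    (hS1 : 𝔭₁ ⊓ 𝔭₂ ≤ Ideal.span {π}) (𝔫 : Ideal B) [𝔫.IsPrime] (x : FL)
    (h₁ : 𝔭₁ ≤ 𝔫 → RegularAt 𝔭₁ x) (h₂ : 𝔭₂ ≤ 𝔫 → RegularAt 𝔭₂ x)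
    (hext : ∀ 𝔮 : Ideal B, 𝔮.IsPrime → 𝔮 ≠ ⊥ → π ∉ 𝔮 →
      ∃ Q : Place K F, ∀ y : B, bcF (algebraMap B FL y) ∈ Q.toValuationSubring ∧
        (y ∈ 𝔮 ↔ IsValueAt Q (bcF (algebraMap B FL y)) 0))
    (hhor : ∀ Q : Place K F, (∀ y : B, bcF (algebraMap B FL y) ∈ Q.toValuationSubring) →
      (∀ y : B, bcF (algebraMap B FL y) ∈ Q.toValuationSubring.nonunits → y ∈ 𝔫) →
      bcF x ∈ Q.toValuationSubring) :
    ∃ d : B, d ∉ 𝔫 ∧ ∃ t : B, algebraMap B FL t = algebraMap B FL d * x := by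
  refine exists_notMem_mul_eq_of_two π hπ0 𝔭₁ 𝔭₂ hπ₁ hπ₂ hS1 𝔫 x h₁ h₂ ?_
  intro 𝔮 h𝔮 h0 hπ𝔮 hle
  obtain ⟨Q, hQ⟩ := hext 𝔮 h𝔮 h0 hπ𝔮
  refine regularAt_of_place bcF 𝔮 Q (fun y => (hQ y).2) x (hhor Q (fun y => (hQ y).1) ?_)
  intro y hy
  refine hle (((hQ y).2).mpr ?_)
  show bcF (algebraMap B FL y) - algebraMap K F 0 ∈ Q.toValuationSubring.nonunits
  rw [map_zero, sub_zero]
  exact hy

/-- The same with the horizontal hypothesis in `ord` form: `0 ≤ ord_Q (bcF x)` at every place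
through `𝔫` (for `x ≠ 0`). -/
theorem exists_notMem_mul_eq_of_ord (bcF : FL →+* F) (π : B) (hπ0 : π ≠ 0)
    (𝔭₁ 𝔭₂ : Ideal B) [𝔭₁.IsPrime] [𝔭₂.IsPrime] (hπ₁ : π ∈ 𝔭₁) (hπ₂ : π ∈ 𝔭₂)
    (hS1 : 𝔭₁ ⊓ 𝔭₂ ≤ Ideal.span {π}) (𝔫 : Ideal B) [𝔫.IsPrime] (x : FL) (hx0 : x ≠ 0)
    (h₁ : 𝔭₁ ≤ 𝔫 → RegularAt 𝔭₁ x) (h₂ : 𝔭₂ ≤ 𝔫 → RegularAt 𝔭₂ x)
    (hext : ∀ 𝔮 : Ideal B, 𝔮.IsPrime → 𝔮 ≠ ⊥ → π ∉ 𝔮 →
      ∃ Q : Place K F, ∀ y : B, bcF (algebraMap B FL y) ∈ Q.toValuationSubring ∧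
        (y ∈ 𝔮 ↔ IsValueAt Q (bcF (algebraMap B FL y)) 0))
    (hhor : ∀ Q : Place K F, (∀ y : B, bcF (algebraMap B FL y) ∈ Q.toValuationSubring) →
      (∀ y : B, bcF (algebraMap B FL y) ∈ Q.toValuationSubring.nonunits → y ∈ 𝔫) →
      0 ≤ Q.ord (bcF x)) :
    ∃ d : B, d ∉ 𝔫 ∧ ∃ t : B, algebraMap B FL t = algebraMap B FL d * x := by
  refine exists_notMem_mul_eq_of_places bcF π hπ0 𝔭₁ 𝔭₂ hπ₁ hπ₂ hS1 𝔫 x h₁ h₂ hext ?_
  intro Q hQ hQ𝔫
  have hx0' : bcF x ≠ 0 := (map_ne_zero bcF).mpr hx0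
  exact (Fermat.Agent.S24.Places.ord_nonneg_iff_mem Q hx0').mp (hhor Q hQ hQ𝔫)

end Fermat.Agent.S34.IntAtPlace
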