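/-
S34 (wave 6), layer 2 glue: the Hartogs step of (K-LOC) in RAW S18/S37 currency, chart-generic.

Level `(L, ι)`, `W ⊆ L` a discrete valuation ring with uniformiser `π`, `F = S24.FF L N` (ANY
level `N`, e.g. `N = M * q` with `q` the residue characteristic), `w` an `L`-automorphism of `F`
(the Atkin–Lehner involution), `B` a chart ring: noetherian, integrally closed, with fraction
field `F`, containing the constants of `W`, all of whose elements `y` have `y` and `w y` with
integral `q`-expansion (`contentRing W`), and satisfying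

  (S1)  `red y = 0` and `red (w y) = 0` imply `π ∣ y` in `B`.

`exists_notMem_mul_eq_chart`: if `x ∈ F`, `x ≠ 0`, has `x` and `w x` in `contentRing W` (a unit or
at least integral at both Gauss valuations) and `0 ≤ ord_Q (bc ι x)` at every place `Q` of
`F_N / ℚ̄` through the prime `𝔫` of `B`, then `d * x ∈ B` for some `d ∈ B ∖ 𝔫`.

This is `IntAtPlace.exists_notMem_mul_eq_of_ord` with: vertical primes `𝔭₁ = ker (red|B)`,
`𝔭₂ = ker (red ∘ w|B)`; horizontal primes = centres of places (`S37.ExtPlace`).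
-/
import Mathlib
import Fermat.Agent.S34.IntAtPlace
import Fermat.Agent.S37.ExtPlace
import Fermat.Agent.S18.GaussContent
import Fermat.Agent.S24.CoeffBC

set_option autoImplicit false

noncomputable section

namespace Fermat.Agent.S34.KLocChart

open ModularCurve AlgebraicCurve Fermat.Agent.S18.Gauss Fermat.Agent.S24
  Fermat.Agent.S37.GaloisValue Fermat.Agent.S34.IntAt

local notation "Qb" => AlgebraicClosure ℚ

variable {L : Type} [Field L] [Algebra ℚ L] (W : ValuationSubring L) (N : ℕ) [NeZero N]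

/-- The functions of `F = FF L N` with integral `q`-expansion (the valuation ring of the Gauss
valuation `v₁`), as a subring of `F`. -/
def contentSub : Subring (FF L N) :=
  (contentRing W).comap (algebraMap (FF L N) (LaurentSeries L))

omit [NeZero N] in
theorem mem_contentSub {x : FF L N} :
    x ∈ contentSub W N ↔ (x : LaurentSeries L) ∈ contentRing W := Iff.rfl

/-- The reduction map on `contentSub`. -/
def redSub : contentSub W N →+* LaurentSeries (IsLocalRing.ResidueField W) :=
  (red W).comp ((algebraMap (FF L N) (LaurentSeries L)).restrict (contentSub W N) (contentRing W)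
    (fun _ h => h))

omit [NeZero N] in
theorem redSub_apply (x : FF L N) (hx : x ∈ contentSub W N) :
    redSub W N ⟨x, hx⟩ = red W ⟨(x : LaurentSeries L), hx⟩ := rfl

omit [NeZero N] in
theorem coe_algebraMap_const (c : L) :
    ((algebraMap L (FF L N) c : FF L N) : LaurentSeries L) = HahnSeries.C c := by
  show algebraMap L (LaurentSeries L) c = HahnSeries.C c
  rw [algebraMap_laurentSeries_eq_single]
  rfl

variable [IsDiscreteValuationRing W]

/-- **The Hartogs step of (K-LOC), raw currency, any chart.** -/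
theorem exists_notMem_mul_eq_chart (ι : L →+* Qb) {π : W} (hπ : Irreducible π)
    (w : FF L N ≃ₐ[L] FF L N)
    (B : Type*) [CommRing B] [IsDomain B] [IsNoetherianRing B] [IsIntegrallyClosed B]
    [Algebra B (FF L N)] [IsFractionRing B (FF L N)]
    (hW : ∀ c : W, ∃ b : B, algebraMap B (FF L N) b = algebraMap L (FF L N) (c : L))
    (hB₁ : ∀ y : B, ((algebraMap B (FF L N) y : FF L N) : LaurentSeries L) ∈ contentRing W)
    (hB₂ : ∀ y : B, ((w (algebraMap B (FF L N) y) : FF L N) : LaurentSeries L) ∈ contentRing W)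
    (hS1 : ∀ y : B, red W ⟨_, hB₁ y⟩ = 0 → red W ⟨_, hB₂ y⟩ = 0 →
      ∃ y' : B, algebraMap B (FF L N) y =
        algebraMap L (FF L N) (π : L) * algebraMap B (FF L N) y')
    (𝔫 : Ideal B) [𝔫.IsPrime] (x : FF L N) (hx0 : x ≠ 0)
    (hx₁ : (x : LaurentSeries L) ∈ contentRing W)
    (hx₂ : ((w x : FF L N) : LaurentSeries L) ∈ contentRing W)
    (hhor : ∀ Q : Place Qb (modularFunctionFieldBar N),
      (∀ y : B, CoeffBC.bc ι (modularFunctionFieldFull N) (algebraMap B (FF L N) y) ∈
        Q.toValuationSubring) →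
      (∀ y : B, CoeffBC.bc ι (modularFunctionFieldFull N) (algebraMap B (FF L N) y) ∈
        Q.toValuationSubring.nonunits → y ∈ 𝔫) →
      0 ≤ Q.ord (CoeffBC.bc ι (modularFunctionFieldFull N) x)) :
    ∃ d : B, d ∉ 𝔫 ∧ ∃ t : B, algebraMap B (FF L N) t = algebraMap B (FF L N) d * x := by
  classical
  have hinj : Function.Injective (algebraMap B (FF L N)) := IsFractionRing.injective B (FF L N)
  obtain ⟨πB, hπB⟩ := hW π
  have hπL : (π : L) ≠ 0 := fun h => hπ.ne_zero (Subtype.ext h)
  have hπB0 : πB ≠ 0 := by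
    rintro rfl
    rw [map_zero] at hπB
    exact hπL ((map_eq_zero_iff _ (algebraMap L (FF L N)).injective).mp hπB.symm)
  -- the two subrings and reduction maps
  let O₁ : Subring (FF L N) := contentSub W N
  let O₂ : Subring (FF L N) := (contentSub W N).comap (w : FF L N →+* FF L N)
  let ρ₁ : O₁ →+* LaurentSeries (IsLocalRing.ResidueField W) := redSub W N
  let ρ₂ : O₂ →+* LaurentSeries (IsLocalRing.ResidueField W) :=
    (redSub W N).comp ((w : FF L N →+* FF L N).restrict O₂ (contentSub W N) (fun _ h => h))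
  have hBO₁ : ∀ y : B, algebraMap B (FF L N) y ∈ O₁ := hB₁
  have hBO₂ : ∀ y : B, algebraMap B (FF L N) y ∈ O₂ := hB₂
  let r₁ : B →+* LaurentSeries (IsLocalRing.ResidueField W) :=
    ρ₁.comp ((algebraMap B (FF L N)).codRestrict O₁ hBO₁)
  let r₂ : B →+* LaurentSeries (IsLocalRing.ResidueField W) :=
    ρ₂.comp ((algebraMap B (FF L N)).codRestrict O₂ hBO₂)
  have hr₁ : ∀ y : B, r₁ y = red W ⟨_, hB₁ y⟩ := fun y => rfl
  have hr₂ : ∀ y : B, r₂ y = red W ⟨_, hB₂ y⟩ := fun y => rfl
  have h𝔭₁ : (RingHom.ker r₁).IsPrime := RingHom.ker_isPrime r₁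
  have h𝔭₂ : (RingHom.ker r₂).IsPrime := RingHom.ker_isPrime r₂
  -- `π` lies in both
  have hcongr : ∀ {f g : LaurentSeries L} (hf : f ∈ contentRing W) (hg : g ∈ contentRing W),
      f = g → red W ⟨f, hf⟩ = red W ⟨g, hg⟩ := by
    intro f g hf hg h
    subst h
    rfl
  have hπ₁ : πB ∈ RingHom.ker r₁ := by
    rw [RingHom.mem_ker, hr₁]
    refine (hcongr _ (C_mem_contentRing W π) ?_).trans (red_C_unif W hπ)
    rw [hπB]
    exact coe_algebraMap_const N (π : L)
  have hwπ : w (algebraMap B (FF L N) πB) = algebraMap L (FF L N) (π : L) := by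
    rw [hπB]
    exact w.commutes (π : L)
  have hπ₂ : πB ∈ RingHom.ker r₂ := by
    rw [RingHom.mem_ker, hr₂]
    refine (hcongr _ (C_mem_contentRing W π) ?_).trans (red_C_unif W hπ)
    rw [hwπ]
    exact coe_algebraMap_const N (π : L)
  -- (S1)
  have hS1' : RingHom.ker r₁ ⊓ RingHom.ker r₂ ≤ Ideal.span {πB} := by
    rintro y ⟨hy₁, hy₂⟩
    rw [SetLike.mem_coe, RingHom.mem_ker, hr₁] at hy₁
    rw [SetLike.mem_coe, RingHom.mem_ker, hr₂] at hy₂
    obtain ⟨y', hy'⟩ := hS1 y hy₁ hy₂
    have e : y = πB * y' := hinj (by rw [map_mul, hπB, hy'])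
    rw [e]
    exact Ideal.mul_mem_right _ _ (Ideal.subset_span rfl)
  -- vertical regularity
  have h₁ : RegularAt (RingHom.ker r₁) x :=
    IntAtPlace.regularAt_of_ringHom O₁ hBO₁ ρ₁ (RingHom.ker r₁) (fun y => Iff.rfl) x hx₁
  have h₂ : RegularAt (RingHom.ker r₂) x :=
    IntAtPlace.regularAt_of_ringHom O₂ hBO₂ ρ₂ (RingHom.ker r₂) (fun y => Iff.rfl) x hx₂
  -- horizontal primes are centres of places
  have hext : ∀ 𝔮 : Ideal B, 𝔮.IsPrime → 𝔮 ≠ ⊥ → πB ∉ 𝔮 →
      ∃ Q : Place Qb (modularFunctionFieldBar N), ∀ y : B,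
        CoeffBC.bc ι (modularFunctionFieldFull N) (algebraMap B (FF L N) y) ∈
          Q.toValuationSubring ∧
        (y ∈ 𝔮 ↔ IsValueAt Q
          (CoeffBC.bc ι (modularFunctionFieldFull N) (algebraMap B (FF L N) y)) 0) := by
    intro 𝔮 h𝔮 h0 hπ𝔮
    have := h𝔮
    refine Fermat.Agent.S37.ExtPlace.exists_place_of_prime_chart N ι W hπ
      (algebraMap B (FF L N)) hinj hW 𝔮 h0 ?_
    intro b hb hmem
    have : b = πB := hinj (by rw [hb, hπB])
    exact hπ𝔮 (this ▸ hmem)
  exact IntAtPlace.exists_notMem_mul_eq_of_ord (K := Qb) (F := modularFunctionFieldBar N)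
    (CoeffBC.bc ι (modularFunctionFieldFull N)) πB hπB0 (RingHom.ker r₁) (RingHom.ker r₂)
    hπ₁ hπ₂ hS1' 𝔫 x hx0 (fun _ => h₁) (fun _ => h₂) hext hhor

end Fermat.Agent.S34.KLocChart
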