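import Mathlib

/-!
# S34, package B4 (abstract core): local generators of a double difference

`W` is a domain whose nonunits are the multiples of `ϖ` (a discrete valuation ring in the
application), `R` a noetherian local domain over `W` and `s : R →ₐ[W] W` a *section* (an integral
point through the closed point of `R`).

* `IsOneAt 𝔭 num den` : the fraction `num / den` is a unit at the prime `𝔭` with residue `1`
  (`a * num = b * den` with `a, b ∉ 𝔭`, `a - b ∈ 𝔭`); closed under products, inverses, powers.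
* `IsLocalGen ϖ s f` : `f` generates `ker s` locally at `ker s`, and `ker s` is the only prime
  containing `f` and not `ϖ`.
* node calculus (`𝔫 = (ϖ, X, Y)`, `X * Y = c + ϖ ^ m * r`): `ker_eq_span`, `node_rel`,
  `isLocalGen_node`, `node_vertical`.
* `isOneAt_node_fst`, `isOneAt_node_snd` : for three sections with `X`-coordinates
  `x₀`, `x₁ = ε x₀`, `x₂ = ε' x₁` (`ε ≡ ε' mod ϖ`), the double difference
  `(X - x₂) (X - x₀) / (X - x₁) ^ 2` has residue `1` on both branches.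
* `exists_gen_node` : the packaged statement for a point `P` and its conjugates `τ P`, `τ² P`
  in approximate node coordinates `(X n, Y n)`.
* `exists_gen_of_not_dvd`, `section_eq_of_dvd`, `exists_gen_or_eq` : the `τ`-free form at a node:
  of two distinct sections at least one has a local generator.
* `exists_gen_smooth` : the same at a smooth point `𝔫 = (ϖ, u)` (no hypothesis on the sections).
-/

set_option autoImplicit false
set_option linter.unusedSectionVars false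

namespace Fermat.Agent.S34.GenAt

open IsLocalRing

section OneAt

variable {R : Type*} [CommRing R]

/-- `num / den` is a unit at the prime `𝔭` with residue `1`. -/
def IsOneAt (𝔭 : Ideal R) (num den : R) : Prop :=
  ∃ a b : R, a ∉ 𝔭 ∧ b ∉ 𝔭 ∧ a - b ∈ 𝔭 ∧ a * num = b * den

theorem IsOneAt.refl (𝔭 : Ideal R) [h𝔭 : 𝔭.IsPrime] (x : R) : IsOneAt 𝔭 x x :=
  ⟨1, 1, (Ideal.ne_top_iff_one 𝔭).mp h𝔭.ne_top, (Ideal.ne_top_iff_one 𝔭).mp h𝔭.ne_top,
    by simp, rfl⟩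

theorem IsOneAt.symm {𝔭 : Ideal R} {num den : R} (h : IsOneAt 𝔭 num den) :
    IsOneAt 𝔭 den num := by
  obtain ⟨a, b, ha, hb, hab, h⟩ := h
  refine ⟨b, a, hb, ha, ?_, h.symm⟩
  have : b - a = -(a - b) := by ring
  rw [this]
  exact 𝔭.neg_mem hab

theorem IsOneAt.mul {𝔭 : Ideal R} [h𝔭 : 𝔭.IsPrime] {num den num' den' : R}
    (h : IsOneAt 𝔭 num den) (h' : IsOneAt 𝔭 num' den') :
    IsOneAt 𝔭 (num * num') (den * den') := by
  obtain ⟨a, b, ha, hb, hab, h⟩ := h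
  obtain ⟨a', b', ha', hb', hab', h'⟩ := h'
  refine ⟨a * a', b * b', ?_, ?_, ?_, ?_⟩
  · exact fun hh => (h𝔭.mem_or_mem hh).elim ha ha'
  · exact fun hh => (h𝔭.mem_or_mem hh).elim hb hb'
  · have : a * a' - b * b' = a * (a' - b') + (a - b) * b' := by ring
    rw [this]
    exact 𝔭.add_mem (𝔭.mul_mem_left _ hab') (𝔭.mul_mem_right _ hab)
  · calc a * a' * (num * num') = (a * num) * (a' * num') := by ring
      _ = (b * den) * (b' * den') := by rw [h, h']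
      _ = b * b' * (den * den') := by ring

theorem IsOneAt.pow {𝔭 : Ideal R} [h𝔭 : 𝔭.IsPrime] {num den : R}
    (h : IsOneAt 𝔭 num den) (k : ℕ) : IsOneAt 𝔭 (num ^ k) (den ^ k) := by
  induction k with
  | zero => simpa using IsOneAt.refl 𝔭 (1 : R)
  | succ k ih => simpa [pow_succ] using ih.mul h

theorem IsOneAt.prod {𝔭 : Ideal R} [h𝔭 : 𝔭.IsPrime] {ι : Type*} (t : Finset ι)
    (num den : ι → R) (h : ∀ i ∈ t, IsOneAt 𝔭 (num i) (den i)) :
    IsOneAt 𝔭 (∏ i ∈ t, num i) (∏ i ∈ t, den i) := by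
  classical
  induction t using Finset.induction_on with
  | empty => simpa using IsOneAt.refl 𝔭 (1 : R)
  | insert i t hi ih =>
    rw [Finset.prod_insert hi, Finset.prod_insert hi]
    exact (h i (Finset.mem_insert_self i t)).mul
      (ih fun j hj => h j (Finset.mem_insert_of_mem hj))

/-- In fraction-field currency: `num / den - 1` is a fraction with numerator in `𝔭` and
denominator outside `𝔭`. -/
theorem IsOneAt.exists_div {𝔭 : Ideal R} {num den : R} (h : IsOneAt 𝔭 num den)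
    {K : Type*} [Field K] [Algebra R K] (hinj : Function.Injective (algebraMap R K))
    (hden : den ≠ 0) :
    ∃ a b : R, a ∉ 𝔭 ∧ b ∉ 𝔭 ∧ a - b ∈ 𝔭 ∧
      algebraMap R K num / algebraMap R K den = algebraMap R K b / algebraMap R K a := by
  obtain ⟨a, b, ha, hb, hab, h⟩ := h
  refine ⟨a, b, ha, hb, hab, ?_⟩
  have ha0 : algebraMap R K a ≠ 0 := by
    intro h0
    apply ha
    have : a = 0 := hinj (by rw [h0, map_zero])
    rw [this]
    exact 𝔭.zero_mem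
  have hd0 : algebraMap R K den ≠ 0 := fun h0 => hden (hinj (by rw [h0, map_zero]))
  rw [div_eq_div_iff hd0 ha0, ← map_mul, ← map_mul]
  congr 1
  rw [mul_comm num a, h]

end OneAt

section Sections

variable {W R : Type*} [CommRing W] [IsDomain W] [CommRing R] [IsDomain R] [Algebra W R]

/-- `f` is a local generator of the horizontal prime `ker s`: it lies in `ker s`, generates it
locally at `ker s`, and `ker s` is the only prime containing `f` and not `ϖ`. -/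
def IsLocalGen (ϖ : W) (s : R →ₐ[W] W) (f : R) : Prop :=
  f ∈ RingHom.ker (s : R →+* W) ∧
  (∀ y ∈ RingHom.ker (s : R →+* W), ∃ t : R, t ∉ RingHom.ker (s : R →+* W) ∧ f ∣ t * y) ∧
  (∀ 𝔮 : Ideal R, 𝔮.IsPrime → f ∈ 𝔮 → algebraMap W R ϖ ∉ 𝔮 → 𝔮 = RingHom.ker (s : R →+* W))

omit [IsDomain R] in
theorem sub_algebraMap_mem_ker (s : R →ₐ[W] W) (a : R) :
    a - algebraMap W R (s a) ∈ RingHom.ker (s : R →+* W) := by
  rw [RingHom.mem_ker]
  simp

section Pow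

variable {ϖ : W} (hW : ∀ w : W, IsUnit w ∨ ϖ ∣ w)
include hW

/-- an element not divisible by `ϖ ^ m` is a unit times a smaller power of `ϖ` -/
theorem exists_unit_mul_pow : ∀ (m : ℕ) (x : W), ¬ ϖ ^ m ∣ x →
    ∃ k : ℕ, k < m ∧ ∃ u : W, IsUnit u ∧ x = u * ϖ ^ k := by
  intro m
  induction m with
  | zero => intro x hx; exact absurd (by simp) hx
  | succ m ih =>
    intro x hx
    rcases hW x with hu | ⟨x₁, rfl⟩
    · exact ⟨0, Nat.succ_pos m, x, hu, by simp⟩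
    · have hx₁ : ¬ ϖ ^ m ∣ x₁ := by
        rintro ⟨z, rfl⟩
        exact hx ⟨z, by ring⟩
      obtain ⟨k, hk, u, hu, rfl⟩ := ih x₁ hx₁
      exact ⟨k + 1, Nat.succ_lt_succ hk, u, hu, by ring⟩

/-- an element not divisible by `ϖ ^ m` divides `ϖ ^ m`, with a quotient divisible by `ϖ` -/
theorem exists_pow_eq_mul (m : ℕ) (x : W) (hx : ¬ ϖ ^ m ∣ x) :
    ∃ z : W, ϖ ^ m = x * (ϖ * z) := by
  obtain ⟨k, hk, u, hu, rfl⟩ := exists_unit_mul_pow hW m x hx
  obtain ⟨v, hv⟩ := hu.exists_right_inv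
  refine ⟨v * ϖ ^ (m - k - 1), ?_⟩
  have hm : m = k + 1 + (m - k - 1) := by omega
  calc ϖ ^ m = ϖ ^ (k + 1 + (m - k - 1)) := by rw [← hm]
    _ = (u * v) * (ϖ ^ k * ϖ * ϖ ^ (m - k - 1)) := by rw [hv, one_mul, pow_add, pow_succ]
    _ = u * ϖ ^ k * (ϖ * (v * ϖ ^ (m - k - 1))) := by ring

end Pow

variable [IsLocalRing R]

omit [IsDomain R] in
/-- a section maps the maximal ideal into the nonunits -/
theorem not_isUnit_section (s : R →ₐ[W] W) {a : R} (ha : a ∈ maximalIdeal R) :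
    ¬ IsUnit (s a) := by
  intro hu
  have h1 : a - algebraMap W R (s a) ∈ maximalIdeal R := by
    rw [mem_maximalIdeal, mem_nonunits_iff]
    intro hunit
    have h2 : IsUnit (s (a - algebraMap W R (s a))) := hunit.map s
    have h3 : s (a - algebraMap W R (s a)) = 0 := by simp
    rw [h3] at h2
    exact not_isUnit_zero h2
  have h4 : algebraMap W R (s a) ∈ maximalIdeal R := by
    have : algebraMap W R (s a) = a - (a - algebraMap W R (s a)) := by ring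
    rw [this]
    exact (maximalIdeal R).sub_mem ha h1
  rw [mem_maximalIdeal, mem_nonunits_iff] at h4
  exact h4 (hu.map (algebraMap W R))

omit [IsDomain R] in
theorem ker_le_maximalIdeal (s : R →ₐ[W] W) :
    RingHom.ker (s : R →+* W) ≤ maximalIdeal R := by
  intro a ha
  rw [mem_maximalIdeal, mem_nonunits_iff]
  intro hu
  have h2 : IsUnit (s a) := hu.map s
  have h3 : s a = 0 := ha
  rw [h3] at h2
  exact not_isUnit_zero h2

variable {ϖ : W} (hW : ∀ w : W, IsUnit w ∨ ϖ ∣ w)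
include hW

omit [IsDomain R] in
theorem dvd_section (s : R →ₐ[W] W) {a : R} (ha : a ∈ maximalIdeal R) : ϖ ∣ s a :=
  (hW (s a)).resolve_left (not_isUnit_section s ha)

/-- a constant which is nonzero and not divisible by a power of `ϖ` lies in no prime avoiding
`ϖ` -/
theorem algebraMap_notMem_of_not_dvd {m : ℕ} {x : W} (hx : ¬ ϖ ^ m ∣ x) (𝔮 : Ideal R)
    [h𝔮 : 𝔮.IsPrime] (hϖ𝔮 : algebraMap W R ϖ ∉ 𝔮) : algebraMap W R x ∉ 𝔮 := by
  obtain ⟨k, -, u, hu, rfl⟩ := exists_unit_mul_pow hW m x hx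
  intro h
  rw [map_mul, map_pow] at h
  rcases h𝔮.mem_or_mem h with h | h
  · exact h𝔮.ne_top (Ideal.eq_top_of_isUnit_mem _ h (hu.map (algebraMap W R)))
  · exact hϖ𝔮 (h𝔮.mem_of_pow_mem k h)

end Sections

section Node

variable {W R : Type*} [CommRing W] [IsDomain W] [CommRing R] [IsDomain R] [Algebra W R]
  [IsLocalRing R] [IsNoetherianRing R]
  {ϖ : W} (hW : ∀ w : W, IsUnit w ∨ ϖ ∣ w) (hϖ0 : ϖ ≠ 0)
  {X Y : R} (h𝔫 : maximalIdeal R = Ideal.span {algebraMap W R ϖ, X, Y})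

include hW hϖ0 h𝔫

/-- **Sections through a node** (Nakayama): `ker s = (X - x, Y - y)`. -/
theorem ker_eq_span (s : R →ₐ[W] W) :
    RingHom.ker (s : R →+* W) =
      Ideal.span {X - algebraMap W R (s X), Y - algebraMap W R (s Y)} := by
  have hXm : X ∈ maximalIdeal R := by
    rw [h𝔫]; exact Ideal.subset_span (by simp)
  have hYm : Y ∈ maximalIdeal R := by
    rw [h𝔫]; exact Ideal.subset_span (by simp)
  have hϖm : algebraMap W R ϖ ∈ maximalIdeal R := by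
    rw [h𝔫]; exact Ideal.subset_span (by simp)
  obtain ⟨x₁, hx₁⟩ := dvd_section hW s hXm
  obtain ⟨y₁, hy₁⟩ := dvd_section hW s hYm
  apply le_antisymm
  · refine Submodule.le_of_le_smul_of_le_jacobson_bot (I := Ideal.span {algebraMap W R ϖ})
      (IsNoetherian.noetherian _) ?_ ?_
    · rw [IsLocalRing.jacobson_eq_maximalIdeal ⊥ bot_ne_top, Ideal.span_singleton_le_iff_mem]
      exact hϖm
    · intro a ha
      have ham : a ∈ maximalIdeal R := ker_le_maximalIdeal s ha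
      rw [h𝔫, Ideal.mem_span_insert] at ham
      obtain ⟨α, z, hz, rfl⟩ := ham
      rw [Ideal.mem_span_pair] at hz
      obtain ⟨β, γ, rfl⟩ := hz
      -- `a = α' ϖ + β (X - x) + γ (Y - y)` with `α' ∈ ker s`
      set α' : R := α + β * algebraMap W R x₁ + γ * algebraMap W R y₁ with hα'
      have hdecomp : α * algebraMap W R ϖ + (β * X + γ * Y) =
          (β * (X - algebraMap W R (s X)) + γ * (Y - algebraMap W R (s Y))) +
            algebraMap W R ϖ * α' := by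
        rw [hα', hx₁, hy₁, map_mul, map_mul]
        ring
      have hα'ker : α' ∈ RingHom.ker (s : R →+* W) := by
        have h0 : s (α * algebraMap W R ϖ + (β * X + γ * Y)) = 0 := ha
        rw [hdecomp] at h0
        have h1 : s (β * (X - algebraMap W R (s X)) + γ * (Y - algebraMap W R (s Y)) +
            algebraMap W R ϖ * α') = ϖ * s α' := by
          simp
        rw [h1] at h0
        rcases mul_eq_zero.mp h0 with h | h
        · exact absurd h hϖ0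
        · exact h
      rw [hdecomp]
      refine Submodule.add_mem_sup ?_ ?_
      · exact Ideal.add_mem _ (Ideal.mul_mem_left _ _ (Ideal.subset_span (by simp)))
          (Ideal.mul_mem_left _ _ (Ideal.subset_span (by simp)))
      · exact Ideal.mul_mem_mul (Ideal.mem_span_singleton_self _) hα'ker
  · rw [Ideal.span_le]
    rintro a (rfl | rfl)
    · exact sub_algebraMap_mem_ker s X
    · exact sub_algebraMap_mem_ker s Y


variable {c : W} {r : R} {m : ℕ}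
  (hXY : X * Y = algebraMap W R c + algebraMap W R ϖ ^ m * r)

include hXY

/-- **The node relation**: `x υ (Y - y) = -(X - x) (Y - ϖ ^ m A)` with `υ` a unit, for a section
whose `X`-coordinate `x` is not divisible by `ϖ ^ m`. -/
theorem node_rel (s : R →ₐ[W] W) (hx : ¬ ϖ ^ m ∣ s X) :
    ∃ υ A : R, IsUnit υ ∧
      algebraMap W R (s X) * υ * (Y - algebraMap W R (s Y)) =
        -((X - algebraMap W R (s X)) * (Y - algebraMap W R ϖ ^ m * A)) := by
  obtain ⟨z, hz⟩ := exists_pow_eq_mul hW m (s X) hx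
  have hr : r - algebraMap W R (s r) ∈ RingHom.ker (s : R →+* W) := sub_algebraMap_mem_ker s r
  rw [ker_eq_span hW hϖ0 h𝔫 s, Ideal.mem_span_pair] at hr
  obtain ⟨A, B, hAB⟩ := hr
  have hs : s X * s Y = c + ϖ ^ m * s r := by
    have := congrArg s hXY
    simpa using this
  have hs' : algebraMap W R (s X) * algebraMap W R (s Y) =
      algebraMap W R c + algebraMap W R ϖ ^ m * algebraMap W R (s r) := by
    rw [← map_mul, hs, map_add, map_mul, map_pow]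
  have hz' : algebraMap W R ϖ ^ m =
      algebraMap W R (s X) * (algebraMap W R ϖ * algebraMap W R z) := by
    rw [← map_pow, hz, map_mul, map_mul]
  have hϖm : algebraMap W R ϖ ∈ maximalIdeal R := by
    rw [h𝔫]; exact Ideal.subset_span (by simp)
  refine ⟨1 - algebraMap W R ϖ * algebraMap W R z * B, A, ?_, ?_⟩
  · apply IsLocalRing.isUnit_one_sub_self_of_mem_nonunits
    have : algebraMap W R ϖ * algebraMap W R z * B ∈ maximalIdeal R :=
      Ideal.mul_mem_right _ _ (Ideal.mul_mem_right _ _ hϖm)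
    exact this
  · linear_combination (B * (Y - algebraMap W R (s Y))) * hz' + hXY
      - algebraMap W R ϖ ^ m * hAB - hs'

/-- **Horizontal generator at a node**: `X - x` is a local generator of `ker s`. -/
theorem isLocalGen_node (hsep : ∀ w : W, w ≠ 0 → ∃ n : ℕ, ¬ ϖ ^ n ∣ w)
    (s : R →ₐ[W] W) (hx : ¬ ϖ ^ m ∣ s X) :
    IsLocalGen ϖ s (X - algebraMap W R (s X)) := by
  obtain ⟨υ, A, hυ, hrel⟩ := node_rel hW hϖ0 h𝔫 hXY s hx
  have hx0 : s X ≠ 0 := fun h => hx (h ▸ dvd_zero _)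
  refine ⟨sub_algebraMap_mem_ker s X, ?_, ?_⟩
  · intro y hy
    rw [ker_eq_span hW hϖ0 h𝔫 s, Ideal.mem_span_pair] at hy
    obtain ⟨β, γ, rfl⟩ := hy
    refine ⟨algebraMap W R (s X) * υ, ?_, ?_⟩
    · rw [RingHom.mem_ker]
      have h1 : (s : R →+* W) (algebraMap W R (s X) * υ) = s X * s υ := by simp
      rw [h1]
      exact mul_ne_zero hx0 (hυ.map s).ne_zero
    · refine ⟨algebraMap W R (s X) * υ * β - γ * (Y - algebraMap W R ϖ ^ m * A), ?_⟩
      linear_combination γ * hrel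
  · intro 𝔮 h𝔮 hf hϖ𝔮
    have hx𝔮 : algebraMap W R (s X) ∉ 𝔮 := algebraMap_notMem_of_not_dvd hW hx 𝔮 hϖ𝔮
    have hυ𝔮 : υ ∉ 𝔮 := fun h => h𝔮.ne_top (Ideal.eq_top_of_isUnit_mem _ h hυ)
    have hY𝔮 : Y - algebraMap W R (s Y) ∈ 𝔮 := by
      have h1 : algebraMap W R (s X) * υ * (Y - algebraMap W R (s Y)) ∈ 𝔮 := by
        rw [hrel]
        exact 𝔮.neg_mem (𝔮.mul_mem_right _ hf)
      rcases h𝔮.mem_or_mem h1 with h | h
      · rcases h𝔮.mem_or_mem h with h | h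
        · exact absurd h hx𝔮
        · exact absurd h hυ𝔮
      · exact h
    have hle : RingHom.ker (s : R →+* W) ≤ 𝔮 := by
      rw [ker_eq_span hW hϖ0 h𝔫 s, Ideal.span_le]
      rintro a (rfl | rfl)
      · exact hf
      · exact hY𝔮
    apply le_antisymm _ hle
    intro a ha
    rw [RingHom.mem_ker]
    by_contra hsa
    obtain ⟨n, hn⟩ := hsep _ hsa
    have h2 : algebraMap W R ((s : R →+* W) a) ∉ 𝔮 := algebraMap_notMem_of_not_dvd hW hn 𝔮 hϖ𝔮
    apply h2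
    have h3 : algebraMap W R ((s : R →+* W) a) = a - (a - algebraMap W R (s a)) := by
      simp
    rw [h3]
    exact 𝔮.sub_mem ha (hle (sub_algebraMap_mem_ker s a))

/-- **Vertical relation at a node**: `Y (X - x) = - x (Y - ϖ δ)`. -/
theorem node_vertical (s : R →ₐ[W] W) (hx : ¬ ϖ ^ m ∣ s X) :
    ∃ δ : R, Y * (X - algebraMap W R (s X)) =
      -(algebraMap W R (s X) * (Y - algebraMap W R ϖ * δ)) := by
  obtain ⟨z, hz⟩ := exists_pow_eq_mul hW m (s X) hx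
  have hYm : Y ∈ maximalIdeal R := by
    rw [h𝔫]; exact Ideal.subset_span (by simp)
  obtain ⟨y₁, hy₁⟩ := dvd_section hW s hYm
  have hs : s X * s Y = c + ϖ ^ m * s r := by
    have := congrArg s hXY
    simpa using this
  have hs' : algebraMap W R (s X) * algebraMap W R (s Y) =
      algebraMap W R c + algebraMap W R ϖ ^ m * algebraMap W R (s r) := by
    rw [← map_mul, hs, map_add, map_mul, map_pow]
  have hz' : algebraMap W R ϖ ^ m =
      algebraMap W R (s X) * (algebraMap W R ϖ * algebraMap W R z) := by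
    rw [← map_pow, hz, map_mul, map_mul]
  have hy₁' : algebraMap W R (s Y) = algebraMap W R ϖ * algebraMap W R y₁ := by
    rw [hy₁, map_mul]
  refine ⟨algebraMap W R y₁ + algebraMap W R z * (r - algebraMap W R (s r)), ?_⟩
  linear_combination hXY - hs' + algebraMap W R (s X) * hy₁'
    + (r - algebraMap W R (s r)) * hz'

/-- **Residue `1` on the branch `X = 0`**: for three sections with `X`-coordinates `x₀`,
`x₁ = ε x₀`, `x₂ = ε' x₁`, `ε ≡ ε'` modulo `ϖ`, the double difference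
`(X - x₂)(X - x₀) / (X - x₁)²` is `1` at a prime `𝔭 ∋ ϖ` not containing `Y`. -/
theorem isOneAt_node_fst (s₀ s₁ s₂ : R →ₐ[W] W) (hx : ¬ ϖ ^ m ∣ s₀ X)
    {ε ε' : W} (hε : IsUnit ε) (hε' : IsUnit ε')
    (h₁ : s₁ X = ε * s₀ X) (h₂ : s₂ X = ε' * s₁ X) (hεε' : ϖ ∣ ε' - ε)
    (𝔭 : Ideal R) [h𝔭 : 𝔭.IsPrime] (hϖ𝔭 : algebraMap W R ϖ ∈ 𝔭) (hY𝔭 : Y ∉ 𝔭) :
    IsOneAt 𝔭 ((X - algebraMap W R (s₂ X)) * (X - algebraMap W R (s₀ X)))
      ((X - algebraMap W R (s₁ X)) ^ 2) := by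
  have hx₁ : ¬ ϖ ^ m ∣ s₁ X := by
    rw [h₁]
    intro h
    exact hx ((hε.dvd_mul_left).mp h)
  have hx₂ : ¬ ϖ ^ m ∣ s₂ X := by
    rw [h₂]
    intro h
    exact hx₁ ((hε'.dvd_mul_left).mp h)
  obtain ⟨δ₀, hδ₀⟩ := node_vertical hW hϖ0 h𝔫 hXY s₀ hx
  obtain ⟨δ₁, hδ₁⟩ := node_vertical hW hϖ0 h𝔫 hXY s₁ hx₁
  obtain ⟨δ₂, hδ₂⟩ := node_vertical hW hϖ0 h𝔫 hXY s₂ hx₂
  obtain ⟨e, he⟩ := hεε'
  have he' : algebraMap W R ε' = algebraMap W R ε + algebraMap W R ϖ * algebraMap W R e := by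
    rw [← map_mul, ← he, ← map_add]
    congr 1
    ring
  have h₁' : algebraMap W R (s₁ X) = algebraMap W R ε * algebraMap W R (s₀ X) := by
    rw [h₁, map_mul]
  have h₂' : algebraMap W R (s₂ X) = algebraMap W R ε' * algebraMap W R (s₁ X) := by
    rw [h₂, map_mul]
  have hY0 : Y ≠ 0 := fun h => hY𝔭 (h ▸ 𝔭.zero_mem)
  have hnot : ∀ δ : R, Y - algebraMap W R ϖ * δ ∉ 𝔭 := by
    intro δ h
    apply hY𝔭
    have : Y = (Y - algebraMap W R ϖ * δ) + algebraMap W R ϖ * δ := by ring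
    rw [this]
    exact 𝔭.add_mem h (𝔭.mul_mem_right _ hϖ𝔭)
  have hunit : ∀ {u : W}, IsUnit u → algebraMap W R u ∉ 𝔭 := fun hu h =>
    h𝔭.ne_top (Ideal.eq_top_of_isUnit_mem _ h (hu.map (algebraMap W R)))
  refine ⟨algebraMap W R ε * (Y - algebraMap W R ϖ * δ₁) ^ 2,
    algebraMap W R ε' * ((Y - algebraMap W R ϖ * δ₂) * (Y - algebraMap W R ϖ * δ₀)), ?_, ?_, ?_, ?_⟩
  · intro h
    rcases h𝔭.mem_or_mem h with h | h
    · exact hunit hε h
    · exact hnot δ₁ (h𝔭.mem_of_pow_mem 2 h)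
  · intro h
    rcases h𝔭.mem_or_mem h with h | h
    · exact hunit hε' h
    · rcases h𝔭.mem_or_mem h with h | h
      · exact hnot δ₂ h
      · exact hnot δ₀ h
  · have : algebraMap W R ε * (Y - algebraMap W R ϖ * δ₁) ^ 2 -
        algebraMap W R ε' * ((Y - algebraMap W R ϖ * δ₂) * (Y - algebraMap W R ϖ * δ₀)) =
        algebraMap W R ϖ * (algebraMap W R ε * (algebraMap W R ϖ * δ₁ ^ 2 - 2 * Y * δ₁
          + Y * δ₂ + Y * δ₀ - algebraMap W R ϖ * δ₂ * δ₀)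
          - algebraMap W R e * ((Y - algebraMap W R ϖ * δ₂) * (Y - algebraMap W R ϖ * δ₀))) := by
      rw [he']
      ring
    rw [this]
    exact 𝔭.mul_mem_right _ hϖ𝔭
  · apply mul_left_cancel₀ (pow_ne_zero 2 hY0)
    have e1 : Y ^ 2 * (algebraMap W R ε * (Y - algebraMap W R ϖ * δ₁) ^ 2 *
        ((X - algebraMap W R (s₂ X)) * (X - algebraMap W R (s₀ X)))) =
        algebraMap W R ε * (Y - algebraMap W R ϖ * δ₁) ^ 2 *
          ((Y * (X - algebraMap W R (s₂ X))) * (Y * (X - algebraMap W R (s₀ X)))) := by ring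
    have e2 : Y ^ 2 * (algebraMap W R ε' * ((Y - algebraMap W R ϖ * δ₂) *
        (Y - algebraMap W R ϖ * δ₀)) * (X - algebraMap W R (s₁ X)) ^ 2) =
        algebraMap W R ε' * ((Y - algebraMap W R ϖ * δ₂) * (Y - algebraMap W R ϖ * δ₀)) *
          (Y * (X - algebraMap W R (s₁ X))) ^ 2 := by ring
    rw [e1, e2, hδ₀, hδ₁, hδ₂, h₂', h₁']
    ring

omit hXY in
/-- **Residue `1` on the branch `Y = 0`**: the double difference is `1` at a prime `𝔭 ∋ ϖ` not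
containing `X` (no hypothesis on the sections). -/
theorem isOneAt_node_snd (s₀ s₁ s₂ : R →ₐ[W] W)
    (𝔭 : Ideal R) [h𝔭 : 𝔭.IsPrime] (hϖ𝔭 : algebraMap W R ϖ ∈ 𝔭) (hX𝔭 : X ∉ 𝔭) :
    IsOneAt 𝔭 ((X - algebraMap W R (s₂ X)) * (X - algebraMap W R (s₀ X)))
      ((X - algebraMap W R (s₁ X)) ^ 2) := by
  have hXm : X ∈ maximalIdeal R := by
    rw [h𝔫]; exact Ideal.subset_span (by simp)
  obtain ⟨w₀, hw₀⟩ := dvd_section hW s₀ hXm
  obtain ⟨w₁, hw₁⟩ := dvd_section hW s₁ hXm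
  obtain ⟨w₂, hw₂⟩ := dvd_section hW s₂ hXm
  have hnot : ∀ w : W, X - algebraMap W R (ϖ * w) ∉ 𝔭 := by
    intro w h
    apply hX𝔭
    have : X = (X - algebraMap W R (ϖ * w)) + algebraMap W R ϖ * algebraMap W R w := by
      rw [map_mul]; ring
    rw [this]
    exact 𝔭.add_mem h (𝔭.mul_mem_right _ hϖ𝔭)
  rw [hw₀, hw₁, hw₂]
  refine ⟨(X - algebraMap W R (ϖ * w₁)) ^ 2,
    (X - algebraMap W R (ϖ * w₂)) * (X - algebraMap W R (ϖ * w₀)), ?_, ?_, ?_, by ring⟩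
  · exact fun h => hnot w₁ (h𝔭.mem_of_pow_mem 2 h)
  · intro h
    rcases h𝔭.mem_or_mem h with h | h
    · exact hnot w₂ h
    · exact hnot w₀ h
  · have : (X - algebraMap W R (ϖ * w₁)) ^ 2 -
        (X - algebraMap W R (ϖ * w₂)) * (X - algebraMap W R (ϖ * w₀)) =
        algebraMap W R ϖ * (X * algebraMap W R w₂ + X * algebraMap W R w₀
          - 2 * X * algebraMap W R w₁ + algebraMap W R ϖ * algebraMap W R w₁ ^ 2
          - algebraMap W R ϖ * algebraMap W R w₂ * algebraMap W R w₀) := by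
      simp only [map_mul]
      ring
    rw [this]
    exact 𝔭.mul_mem_right _ hϖ𝔭

end Node

section Packaged

variable {W R : Type*} [CommRing W] [IsDomain W] [CommRing R] [IsDomain R] [Algebra W R]
  [IsLocalRing R] [IsNoetherianRing R]
  {ϖ : W} (hW : ∀ w : W, IsUnit w ∨ ϖ ∣ w) (hϖ0 : ϖ ≠ 0)

omit [IsLocalRing R] [IsNoetherianRing R] in
/-- two sections with comparable kernels coincide -/
theorem section_eq_of_ker_le {s s' : R →ₐ[W] W}
    (h : RingHom.ker (s : R →+* W) ≤ RingHom.ker (s' : R →+* W)) : s = s' := by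
  apply AlgHom.ext
  intro a
  have h1 : a - algebraMap W R (s a) ∈ RingHom.ker (s' : R →+* W) :=
    h (sub_algebraMap_mem_ker s a)
  rw [RingHom.mem_ker] at h1
  have h2 : (s' : R →+* W) (a - algebraMap W R (s a)) = s' a - s a := by simp
  rw [h2] at h1
  exact (sub_eq_zero.mp h1).symm

include hW hϖ0

/-- **The difference ideal of two sections through a node** is generated by the differences of
the two coordinates. -/
theorem exists_section_sub_eq {X Y : R}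
    (h𝔫 : maximalIdeal R = Ideal.span {algebraMap W R ϖ, X, Y}) (s s' : R →ₐ[W] W) (b : R) :
    ∃ β γ : W, s' b - s b = β * (s' X - s X) + γ * (s' Y - s Y) := by
  have hb : b - algebraMap W R (s b) ∈ RingHom.ker (s : R →+* W) := sub_algebraMap_mem_ker s b
  rw [ker_eq_span hW hϖ0 h𝔫 s, Ideal.mem_span_pair] at hb
  obtain ⟨B₁, B₂, hB⟩ := hb
  refine ⟨s' B₁, s' B₂, ?_⟩
  have := congrArg s' hB
  simp only [map_add, map_mul, map_sub, AlgHom.commutes, Algebra.algebraMap_self,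
    RingHom.id_apply] at this
  rw [this]

/-- an automorphism of `W` congruent to the identity modulo `ϖ` multiplies `ϖ` by a unit -/
theorem exists_unit_tau (τ : W ≃+* W) (hτ : ∀ a : W, ϖ ∣ τ a - a) :
    ∃ η : W, IsUnit η ∧ τ ϖ = ϖ * η := by
  obtain ⟨w, hw⟩ := hτ ϖ
  obtain ⟨w', hw'⟩ := hτ (τ.symm ϖ)
  rw [RingEquiv.apply_symm_apply] at hw'
  have h1 : τ ϖ = ϖ * (1 + w) := by rw [mul_add, mul_one, ← hw]; ring
  have h2 : τ.symm ϖ = ϖ * (1 - w') := by rw [mul_sub, mul_one, ← hw']; ring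
  refine ⟨1 + w, ?_, h1⟩
  have h3 : ϖ = ϖ * ((1 + w) * τ (1 - w')) := by
    calc ϖ = τ (τ.symm ϖ) := (RingEquiv.apply_symm_apply τ ϖ).symm
      _ = τ ϖ * τ (1 - w') := by rw [h2, map_mul]
      _ = ϖ * ((1 + w) * τ (1 - w')) := by rw [h1]; ring
  have h4 : (1 + w) * τ (1 - w') = 1 := by
    have h5 : ϖ * ((1 + w) * τ (1 - w')) = ϖ * 1 := by rw [mul_one]; exact h3.symm
    exact mul_left_cancel₀ hϖ0 h5
  exact IsUnit.of_mul_eq_one _ h4

/-- an automorphism of `W` congruent to the identity modulo `ϖ` preserves divisibility by powers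
of `ϖ` -/
theorem pow_dvd_tau (τ : W ≃+* W) (hτ : ∀ a : W, ϖ ∣ τ a - a) {k : ℕ} {x : W}
    (hx : ϖ ^ k ∣ x) : ϖ ^ k ∣ τ x := by
  obtain ⟨η, -, hη⟩ := exists_unit_tau hW hϖ0 τ hτ
  obtain ⟨z, rfl⟩ := hx
  refine ⟨η ^ k * τ z, ?_⟩
  rw [map_mul, map_pow, hη]
  ring

/-- `τ x = ε x` with `ε` a unit, for `x` not divisible by a power of `ϖ` -/
theorem exists_unit_tau_mul (τ : W ≃+* W) (hτ : ∀ a : W, ϖ ∣ τ a - a) {k : ℕ} {x : W}
    (hx : ¬ ϖ ^ k ∣ x) : ∃ ε : W, IsUnit ε ∧ τ x = ε * x := by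
  obtain ⟨η, hη, hηeq⟩ := exists_unit_tau hW hϖ0 τ hτ
  obtain ⟨j, -, u, hu, rfl⟩ := exists_unit_mul_pow hW k x hx
  obtain ⟨v, hv⟩ := hu.exists_right_inv
  refine ⟨τ u * η ^ j * v, ?_, ?_⟩
  · refine IsUnit.mul (IsUnit.mul (hu.map τ) (hη.pow j)) ?_
    exact IsUnit.of_mul_eq_one _ (by rw [mul_comm]; exact hv)
  · rw [map_mul, map_pow, hηeq]
    calc τ u * (ϖ * η) ^ j = τ u * η ^ j * (u * v) * ϖ ^ j := by rw [hv]; ring
      _ = τ u * η ^ j * v * (u * ϖ ^ j) := by ring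

/-- **Local generator of the double difference at a node**, for a point `P` (section `s₀`) and
its conjugates `τ P`, `τ² P` (sections `s₁`, `s₂`), in approximate node coordinates
`X n * Y n = c n + ϖ ^ (m n) * r n` with `m n` unbounded.  Either the three sections coincide, or
there is a coordinate `φ` such that `φ - φ(P)`, `φ - φ(τ P)`, `φ - φ(τ² P)` are local generators
of the three horizontal primes and the double difference
`(φ - φ(τ² P)) (φ - φ(P)) / (φ - φ(τ P))²` has residue `1` on both branches. -/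
theorem exists_gen_node (hsep : ∀ w : W, w ≠ 0 → ∃ n : ℕ, ¬ ϖ ^ n ∣ w)
    (X Y : ℕ → R) (c : ℕ → W) (r : ℕ → R) (m : ℕ → ℕ) (hm : ∀ k : ℕ, ∃ n, k ≤ m n)
    (h𝔫 : ∀ n, maximalIdeal R = Ideal.span {algebraMap W R ϖ, X n, Y n})
    (hXY : ∀ n, X n * Y n = algebraMap W R (c n) + algebraMap W R ϖ ^ m n * r n)
    (𝔭₁ 𝔭₂ : Ideal R) [𝔭₁.IsPrime] [𝔭₂.IsPrime]
    (hϖ₁ : algebraMap W R ϖ ∈ 𝔭₁) (hϖ₂ : algebraMap W R ϖ ∈ 𝔭₂)
    (hX : ∀ n, X n ∉ 𝔭₂) (hY : ∀ n, Y n ∉ 𝔭₁)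
    (τ : W ≃+* W) (hτ : ∀ a : W, ϖ ∣ τ a - a)
    (s₀ s₁ s₂ : R →ₐ[W] W)
    (h₁X : ∀ n, s₁ (X n) = τ (s₀ (X n))) (h₁Y : ∀ n, s₁ (Y n) = τ (s₀ (Y n)))
    (h₂X : ∀ n, s₂ (X n) = τ (s₁ (X n))) (h₂Y : ∀ n, s₂ (Y n) = τ (s₁ (Y n))) :
    (s₀ = s₁ ∧ s₁ = s₂) ∨
    ∃ φ : R, IsLocalGen ϖ s₀ (φ - algebraMap W R (s₀ φ)) ∧
      IsLocalGen ϖ s₁ (φ - algebraMap W R (s₁ φ)) ∧
      IsLocalGen ϖ s₂ (φ - algebraMap W R (s₂ φ)) ∧
      IsOneAt 𝔭₁ ((φ - algebraMap W R (s₂ φ)) * (φ - algebraMap W R (s₀ φ)))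
        ((φ - algebraMap W R (s₁ φ)) ^ 2) ∧
      IsOneAt 𝔭₂ ((φ - algebraMap W R (s₂ φ)) * (φ - algebraMap W R (s₀ φ)))
        ((φ - algebraMap W R (s₁ φ)) ^ 2) := by
  -- the general step for a coordinate `φ` with partner `ψ`
  have key : ∀ (φ ψ : R) (c' : W) (r' : R) (m' : ℕ),
      maximalIdeal R = Ideal.span {algebraMap W R ϖ, φ, ψ} →
      φ * ψ = algebraMap W R c' + algebraMap W R ϖ ^ m' * r' →
      s₁ φ = τ (s₀ φ) → s₂ φ = τ (s₁ φ) → ¬ ϖ ^ m' ∣ s₀ φ →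
      ∀ (𝔭 𝔭' : Ideal R) [𝔭.IsPrime] [𝔭'.IsPrime], algebraMap W R ϖ ∈ 𝔭 →
        algebraMap W R ϖ ∈ 𝔭' → ψ ∉ 𝔭 → φ ∉ 𝔭' →
      IsLocalGen ϖ s₀ (φ - algebraMap W R (s₀ φ)) ∧
      IsLocalGen ϖ s₁ (φ - algebraMap W R (s₁ φ)) ∧
      IsLocalGen ϖ s₂ (φ - algebraMap W R (s₂ φ)) ∧
      IsOneAt 𝔭 ((φ - algebraMap W R (s₂ φ)) * (φ - algebraMap W R (s₀ φ)))
        ((φ - algebraMap W R (s₁ φ)) ^ 2) ∧
      IsOneAt 𝔭' ((φ - algebraMap W R (s₂ φ)) * (φ - algebraMap W R (s₀ φ)))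
        ((φ - algebraMap W R (s₁ φ)) ^ 2) := by
    intro φ ψ c' r' m' h𝔫' hXY' e₁ e₂ hx 𝔭 𝔭' _ _ hϖ𝔭 hϖ𝔭' hψ hφ
    obtain ⟨ε, hε, hεeq⟩ := exists_unit_tau_mul hW hϖ0 τ hτ hx
    have h₁ : s₁ φ = ε * s₀ φ := by rw [e₁, hεeq]
    have h₂ : s₂ φ = τ ε * s₁ φ := by rw [e₂, h₁, map_mul, ← hεeq]
    have hx₁ : ¬ ϖ ^ m' ∣ s₁ φ := by
      rw [h₁]
      intro h
      exact hx ((hε.dvd_mul_left).mp h)
    have hx₂ : ¬ ϖ ^ m' ∣ s₂ φ := by
      rw [h₂]
      intro h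
      exact hx₁ (((hε.map τ).dvd_mul_left).mp h)
    exact ⟨isLocalGen_node hW hϖ0 h𝔫' hXY' hsep s₀ hx,
      isLocalGen_node hW hϖ0 h𝔫' hXY' hsep s₁ hx₁,
      isLocalGen_node hW hϖ0 h𝔫' hXY' hsep s₂ hx₂,
      isOneAt_node_fst hW hϖ0 h𝔫' hXY' s₀ s₁ s₂ hx hε (hε.map τ) h₁ h₂ (hτ ε) 𝔭 hϖ𝔭 hψ,
      isOneAt_node_snd hW hϖ0 h𝔫' s₀ s₁ s₂ 𝔭' hϖ𝔭' hφ⟩
  by_cases hcaseX : ∃ n, ¬ ϖ ^ m n ∣ s₀ (X n)
  · obtain ⟨n, hn⟩ := hcaseX
    right
    exact ⟨X n, key (X n) (Y n) (c n) (r n) (m n) (h𝔫 n) (hXY n) (h₁X n) (h₂X n) hn 𝔭₁ 𝔭₂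
      hϖ₁ hϖ₂ (hY n) (hX n)⟩
  by_cases hcaseY : ∃ n, ¬ ϖ ^ m n ∣ s₀ (Y n)
  · obtain ⟨n, hn⟩ := hcaseY
    right
    have h𝔫' : maximalIdeal R = Ideal.span {algebraMap W R ϖ, Y n, X n} := by
      rw [h𝔫 n]
      congr 1
      ext a
      simp only [Set.mem_insert_iff, Set.mem_singleton_iff]
      tauto
    have hXY' : Y n * X n = algebraMap W R (c n) + algebraMap W R ϖ ^ m n * r n := by
      rw [mul_comm, hXY n]
    obtain ⟨g₀, g₁, g₂, o₂, o₁⟩ := key (Y n) (X n) (c n) (r n) (m n) h𝔫' hXY' (h₁Y n) (h₂Y n) hn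
      𝔭₂ 𝔭₁ hϖ₂ hϖ₁ (hX n) (hY n)
    exact ⟨Y n, g₀, g₁, g₂, o₁, o₂⟩
  · left
    simp only [not_exists, not_not] at hcaseX hcaseY
    -- all coordinates of `s₀`, hence of `s₁` and `s₂`, are divisible by arbitrary powers of `ϖ`
    have hdiv₁X : ∀ n, ϖ ^ m n ∣ s₁ (X n) := fun n => by
      rw [h₁X n]; exact pow_dvd_tau hW hϖ0 τ hτ (hcaseX n)
    have hdiv₁Y : ∀ n, ϖ ^ m n ∣ s₁ (Y n) := fun n => by
      rw [h₁Y n]; exact pow_dvd_tau hW hϖ0 τ hτ (hcaseY n)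
    have hdiv₂X : ∀ n, ϖ ^ m n ∣ s₂ (X n) := fun n => by
      rw [h₂X n]; exact pow_dvd_tau hW hϖ0 τ hτ (hdiv₁X n)
    have hdiv₂Y : ∀ n, ϖ ^ m n ∣ s₂ (Y n) := fun n => by
      rw [h₂Y n]; exact pow_dvd_tau hW hϖ0 τ hτ (hdiv₁Y n)
    have heq : ∀ (s s' : R →ₐ[W] W), (∀ n, ϖ ^ m n ∣ s (X n)) → (∀ n, ϖ ^ m n ∣ s (Y n)) →
        (∀ n, ϖ ^ m n ∣ s' (X n)) → (∀ n, ϖ ^ m n ∣ s' (Y n)) → s = s' := by
      intro s s' hsX hsY hs'X hs'Y
      apply AlgHom.ext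
      intro b
      by_contra hne
      have hne' : s' b - s b ≠ 0 := fun h => hne (sub_eq_zero.mp h).symm
      obtain ⟨k, hk⟩ := hsep _ hne'
      obtain ⟨n, hn⟩ := hm k
      obtain ⟨β, γ, hβγ⟩ := exists_section_sub_eq hW hϖ0 (h𝔫 n) s s' b
      apply hk
      refine (pow_dvd_pow ϖ hn).trans ?_
      rw [hβγ]
      exact dvd_add (Dvd.dvd.mul_left (dvd_sub (hs'X n) (hsX n)) _)
        (Dvd.dvd.mul_left (dvd_sub (hs'Y n) (hsY n)) _)
    exact ⟨heq s₀ s₁ hcaseX hcaseY hdiv₁X hdiv₁Y, heq s₁ s₂ hdiv₁X hdiv₁Y hdiv₂X hdiv₂Y⟩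

/-- **(LOC) at a node, `τ`-free form, non-degenerate case**: a section one of whose approximate
node coordinates is not divisible by the precision `ϖ ^ m n` has a local generator. -/
theorem exists_gen_of_not_dvd (hsep : ∀ w : W, w ≠ 0 → ∃ n : ℕ, ¬ ϖ ^ n ∣ w)
    (X Y : ℕ → R) (c : ℕ → W) (r : ℕ → R) (m : ℕ → ℕ)
    (h𝔫 : ∀ n, maximalIdeal R = Ideal.span {algebraMap W R ϖ, X n, Y n})
    (hXY : ∀ n, X n * Y n = algebraMap W R (c n) + algebraMap W R ϖ ^ m n * r n)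
    (s : R →ₐ[W] W) (h : ∃ n, ¬ ϖ ^ m n ∣ s (X n) ∨ ¬ ϖ ^ m n ∣ s (Y n)) :
    ∃ f : R, IsLocalGen ϖ s f := by
  obtain ⟨n, hn | hn⟩ := h
  · exact ⟨_, isLocalGen_node hW hϖ0 (h𝔫 n) (hXY n) hsep s hn⟩
  · have h𝔫' : maximalIdeal R = Ideal.span {algebraMap W R ϖ, Y n, X n} := by
      rw [h𝔫 n]
      congr 1
      ext a
      simp only [Set.mem_insert_iff, Set.mem_singleton_iff]
      tauto
    have hXY' : Y n * X n = algebraMap W R (c n) + algebraMap W R ϖ ^ m n * r n := by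
      rw [mul_comm, hXY n]
    exact ⟨_, isLocalGen_node hW hϖ0 h𝔫' hXY' hsep s hn⟩

/-- **(LOC) at a node, `τ`-free form, degenerate case**: at most one section has all its
approximate node coordinates divisible by the precision. -/
theorem section_eq_of_dvd (hsep : ∀ w : W, w ≠ 0 → ∃ n : ℕ, ¬ ϖ ^ n ∣ w)
    (X Y : ℕ → R) (m : ℕ → ℕ) (hm : ∀ k : ℕ, ∃ n, k ≤ m n)
    (h𝔫 : ∀ n, maximalIdeal R = Ideal.span {algebraMap W R ϖ, X n, Y n})
    (s s' : R →ₐ[W] W) (hsX : ∀ n, ϖ ^ m n ∣ s (X n)) (hsY : ∀ n, ϖ ^ m n ∣ s (Y n))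
    (hs'X : ∀ n, ϖ ^ m n ∣ s' (X n)) (hs'Y : ∀ n, ϖ ^ m n ∣ s' (Y n)) : s = s' := by
  apply AlgHom.ext
  intro b
  by_contra hne
  have hne' : s' b - s b ≠ 0 := fun h => hne (sub_eq_zero.mp h).symm
  obtain ⟨k, hk⟩ := hsep _ hne'
  obtain ⟨n, hn⟩ := hm k
  obtain ⟨β, γ, hβγ⟩ := exists_section_sub_eq hW hϖ0 (h𝔫 n) s s' b
  apply hk
  refine (pow_dvd_pow ϖ hn).trans ?_
  rw [hβγ]
  exact dvd_add (Dvd.dvd.mul_left (dvd_sub (hs'X n) (hsX n)) _)
    (Dvd.dvd.mul_left (dvd_sub (hs'Y n) (hsY n)) _)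

/-- **(LOC) at a node, `τ`-free form**: of two distinct sections through a node (given in
approximate node coordinates `X n * Y n = c n + ϖ ^ (m n) * r n` with `m n` unbounded), at least
one has a local generator. -/
theorem exists_gen_or_eq (hsep : ∀ w : W, w ≠ 0 → ∃ n : ℕ, ¬ ϖ ^ n ∣ w)
    (X Y : ℕ → R) (c : ℕ → W) (r : ℕ → R) (m : ℕ → ℕ) (hm : ∀ k : ℕ, ∃ n, k ≤ m n)
    (h𝔫 : ∀ n, maximalIdeal R = Ideal.span {algebraMap W R ϖ, X n, Y n})
    (hXY : ∀ n, X n * Y n = algebraMap W R (c n) + algebraMap W R ϖ ^ m n * r n)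
    (s s' : R →ₐ[W] W) :
    s = s' ∨ (∃ f : R, IsLocalGen ϖ s f) ∨ ∃ f : R, IsLocalGen ϖ s' f := by
  by_cases h : ∃ n, ¬ ϖ ^ m n ∣ s (X n) ∨ ¬ ϖ ^ m n ∣ s (Y n)
  · exact Or.inr (Or.inl (exists_gen_of_not_dvd hW hϖ0 hsep X Y c r m h𝔫 hXY s h))
  by_cases h' : ∃ n, ¬ ϖ ^ m n ∣ s' (X n) ∨ ¬ ϖ ^ m n ∣ s' (Y n)
  · exact Or.inr (Or.inr (exists_gen_of_not_dvd hW hϖ0 hsep X Y c r m h𝔫 hXY s' h'))
  · left
    simp only [not_exists, not_or, not_not] at h h'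
    exact section_eq_of_dvd hW hϖ0 hsep X Y m hm h𝔫 s s' (fun n => (h n).1) (fun n => (h n).2)
      (fun n => (h' n).1) (fun n => (h' n).2)

/-- **Local generator of the double difference at a smooth point** `𝔫 = (ϖ, u)`: for any three
sections, `u - u(P_i)` generates `ker s_i`, is contained in no other prime avoiding `ϖ`, and
`(u - u(P₂)) (u - u(P₀)) / (u - u(P₁))²` has residue `1` at every prime `𝔭 ∋ ϖ` not
containing `u`. -/
theorem exists_gen_smooth (hsep : ∀ w : W, w ≠ 0 → ∃ n : ℕ, ¬ ϖ ^ n ∣ w) (u : R)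
    (h𝔫 : maximalIdeal R = Ideal.span {algebraMap W R ϖ, u}) (s₀ s₁ s₂ : R →ₐ[W] W) :
    (∀ s : R →ₐ[W] W, RingHom.ker (s : R →+* W) = Ideal.span {u - algebraMap W R (s u)} ∧
      IsLocalGen ϖ s (u - algebraMap W R (s u))) ∧
    ∀ (𝔭 : Ideal R) [𝔭.IsPrime], algebraMap W R ϖ ∈ 𝔭 → u ∉ 𝔭 →
      IsOneAt 𝔭 ((u - algebraMap W R (s₂ u)) * (u - algebraMap W R (s₀ u)))
        ((u - algebraMap W R (s₁ u)) ^ 2) := by
  have h𝔫' : maximalIdeal R = Ideal.span {algebraMap W R ϖ, u, u} := by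
    rw [h𝔫]
    congr 1
    ext a
    simp only [Set.mem_insert_iff, Set.mem_singleton_iff]
    tauto
  have hker : ∀ s : R →ₐ[W] W,
      RingHom.ker (s : R →+* W) = Ideal.span {u - algebraMap W R (s u)} := by
    intro s
    rw [ker_eq_span hW hϖ0 h𝔫' s]
    congr 1
    ext a
    simp only [Set.mem_insert_iff, Set.mem_singleton_iff]
    tauto
  refine ⟨fun s => ⟨hker s, sub_algebraMap_mem_ker s u, ?_, ?_⟩, ?_⟩
  · intro y hy
    rw [hker s, Ideal.mem_span_singleton] at hy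
    refine ⟨1, ?_, by simpa using hy⟩
    rw [RingHom.mem_ker]
    simp
  · intro 𝔮 h𝔮 hf hϖ𝔮
    have hle : RingHom.ker (s : R →+* W) ≤ 𝔮 := by
      rw [hker s, Ideal.span_singleton_le_iff_mem]
      exact hf
    apply le_antisymm _ hle
    intro a ha
    rw [RingHom.mem_ker]
    by_contra hsa
    obtain ⟨n, hn⟩ := hsep _ hsa
    have h2 : algebraMap W R ((s : R →+* W) a) ∉ 𝔮 := algebraMap_notMem_of_not_dvd hW hn 𝔮 hϖ𝔮
    apply h2
    have h3 : algebraMap W R ((s : R →+* W) a) = a - (a - algebraMap W R (s a)) := by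
      simp
    rw [h3]
    exact 𝔮.sub_mem ha (hle (sub_algebraMap_mem_ker s a))
  · intro 𝔭 _ hϖ𝔭 hu𝔭
    exact isOneAt_node_snd hW hϖ0 h𝔫' s₀ s₁ s₂ 𝔭 hϖ𝔭 hu𝔭

end Packaged

end Fermat.Agent.S34.GenAt
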