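/-
S34 (wave 6), package A2 (insurance copy): APPROXIMATE NODE COORDINATES.  Mathlib only.

`R` a commutative ring, `φ : W →+* R`, `π = φ ϖ`, `𝔫 = (π, X, Y)` with `π ∣ X * Y`, and every
element of `R` is congruent modulo `𝔫` to an element of `φ W` (residue field of `W` onto the
residue field of `R`).  Then there is a COHERENT sequence of coordinates `Xs n ≡ X`, `Ys n ≡ Y`
modulo `π` with

  `Xs n * Ys n = φ (cs n) + π ^ (n + 1) * rs n`,   `π ^ (n + 1) ∣ Xs (n + 1) - Xs n`,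
  `(π, Xs n, Ys n) = (π, X, Y)`.

(`Xs n` is the `X_{n+1}` of the blueprint.)  Coherence gives the monotonicity used to choose one
`n` for finitely many sections: `π ^ (m + 1) ∣ Xs n - Xs m` for `m ≤ n`.
-/
import Mathlib

set_option autoImplicit false

namespace Fermat.Agent.S34.ApproxNode

variable {W R : Type*} [CommRing W] [CommRing R] (φ : W →+* R) (ϖ : W) (X Y : R)

/-- Changing the second and third generator by multiples of the first does not change the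
ideal. -/
theorem span_triple_eq (π a b a' b' : R) (ha : π ∣ a' - a) (hb : π ∣ b' - b) :
    Ideal.span {π, a', b'} = Ideal.span {π, a, b} := by
  obtain ⟨u, hu⟩ := ha
  obtain ⟨v, hv⟩ := hb
  have ha' : a' = a + π * u := by rw [← hu]; ring
  have hb' : b' = b + π * v := by rw [← hv]; ring
  have hπ1 : π ∈ Ideal.span {π, a', b'} := Ideal.subset_span (by simp)
  have hπ2 : π ∈ Ideal.span {π, a, b} := Ideal.subset_span (by simp)
  apply le_antisymm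
  · rw [Ideal.span_le]
    intro z hz
    simp only [Set.mem_insert_iff, Set.mem_singleton_iff] at hz
    rcases hz with rfl | rfl | rfl
    · exact hπ2
    · rw [ha']
      exact Ideal.add_mem _ (Ideal.subset_span (by simp)) (Ideal.mul_mem_right _ _ hπ2)
    · rw [hb']
      exact Ideal.add_mem _ (Ideal.subset_span (by simp)) (Ideal.mul_mem_right _ _ hπ2)
  · rw [Ideal.span_le]
    intro z hz
    simp only [Set.mem_insert_iff, Set.mem_singleton_iff] at hz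
    rcases hz with rfl | rfl | rfl
    · exact hπ1
    · have : z = a' - π * u := by rw [ha']; ring
      rw [this]
      exact Ideal.sub_mem _ (Ideal.subset_span (by simp)) (Ideal.mul_mem_right _ _ hπ1)
    · have : z = b' - π * v := by rw [hb']; ring
      rw [this]
      exact Ideal.sub_mem _ (Ideal.subset_span (by simp)) (Ideal.mul_mem_right _ _ hπ1)

/-- One step of the approximation. -/
theorem step (hsurj : ∀ r : R, ∃ w : W, r - φ w ∈ Ideal.span {φ ϖ, X, Y})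
    (n : ℕ) (Xn Yn : R) (cn : W) (rn : R)
    (h : Xn * Yn = φ cn + φ ϖ ^ (n + 1) * rn)
    (hspan : Ideal.span {φ ϖ, Xn, Yn} = Ideal.span {φ ϖ, X, Y}) :
    ∃ (X' Y' : R) (c' : W) (r' : R), X' * Y' = φ c' + φ ϖ ^ (n + 2) * r' ∧
      φ ϖ ^ (n + 1) ∣ X' - Xn ∧ φ ϖ ^ (n + 1) ∣ Y' - Yn ∧
      Ideal.span {φ ϖ, X', Y'} = Ideal.span {φ ϖ, X, Y} := by
  obtain ⟨ρ, hρ⟩ := hsurj rn
  rw [← hspan, Ideal.mem_span_insert] at hρ
  obtain ⟨a, z, hz, hρ⟩ := hρ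
  rw [Ideal.mem_span_pair] at hz
  obtain ⟨A, B, rfl⟩ := hz
  refine ⟨Xn - φ ϖ ^ (n + 1) * B, Yn - φ ϖ ^ (n + 1) * A, cn + ϖ ^ (n + 1) * ρ,
    a + φ ϖ ^ n * A * B, ?_, ⟨-B, by ring⟩, ⟨-A, by ring⟩, ?_⟩
  · have hrn : rn = φ ρ + (a * φ ϖ + (A * Xn + B * Yn)) := by rw [← hρ]; ring
    rw [map_add, map_mul, map_pow]
    calc (Xn - φ ϖ ^ (n + 1) * B) * (Yn - φ ϖ ^ (n + 1) * A)
        = Xn * Yn - φ ϖ ^ (n + 1) * (A * Xn + B * Yn) + φ ϖ ^ (n + 1) * φ ϖ ^ (n + 1) * A * B := by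
          ring
      _ = φ cn + φ ϖ ^ (n + 1) * rn - φ ϖ ^ (n + 1) * (A * Xn + B * Yn)
            + φ ϖ ^ (n + 1) * φ ϖ ^ (n + 1) * A * B := by rw [h]
      _ = φ cn + φ ϖ ^ (n + 1) * φ ρ + φ ϖ ^ (n + 2) * (a + φ ϖ ^ n * A * B) := by
          rw [hrn]; ring
  · rw [← hspan]
    refine span_triple_eq (φ ϖ) Xn Yn _ _ ⟨-(φ ϖ ^ n * B), by ring⟩ ⟨-(φ ϖ ^ n * A), by ring⟩

/-- **Approximate node coordinates** (coherent sequence). -/
theorem exists_approx (hsurj : ∀ r : R, ∃ w : W, r - φ w ∈ Ideal.span {φ ϖ, X, Y})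
    (hXY : φ ϖ ∣ X * Y) :
    ∃ (Xs Ys : ℕ → R) (cs : ℕ → W) (rs : ℕ → R),
      Xs 0 = X ∧ Ys 0 = Y ∧
      (∀ n, Xs n * Ys n = φ (cs n) + φ ϖ ^ (n + 1) * rs n) ∧
      (∀ n, φ ϖ ^ (n + 1) ∣ Xs (n + 1) - Xs n) ∧
      (∀ n, φ ϖ ^ (n + 1) ∣ Ys (n + 1) - Ys n) ∧
      (∀ n, Ideal.span {φ ϖ, Xs n, Ys n} = Ideal.span {φ ϖ, X, Y}) := by
  classical
  obtain ⟨r0, hr0⟩ := hXY
  -- the state at stage `n`
  let St : ℕ → Type _ := fun n =>
    {p : R × R × W × R // p.1 * p.2.1 = φ p.2.2.1 + φ ϖ ^ (n + 1) * p.2.2.2 ∧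
      Ideal.span {φ ϖ, p.1, p.2.1} = Ideal.span {φ ϖ, X, Y}}
  have key : ∀ (n : ℕ) (s : St n), ∃ s' : St (n + 1),
      φ ϖ ^ (n + 1) ∣ s'.1.1 - s.1.1 ∧ φ ϖ ^ (n + 1) ∣ s'.1.2.1 - s.1.2.1 := by
    intro n s
    obtain ⟨X', Y', c', r', h1, h2, h3, h4⟩ :=
      step φ ϖ X Y hsurj n s.1.1 s.1.2.1 s.1.2.2.1 s.1.2.2.2 s.2.1 s.2.2
    exact ⟨⟨(X', Y', c', r'), h1, h4⟩, h2, h3⟩
  choose next hnext using key
  let s0 : St 0 := ⟨(X, Y, 0, r0), by simp [hr0], rfl⟩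
  let f : (n : ℕ) → St n := fun n => Nat.rec (motive := St) s0 (fun n s => next n s) n
  have hf : ∀ n, f (n + 1) = next n (f n) := fun n => rfl
  refine ⟨fun n => (f n).1.1, fun n => (f n).1.2.1, fun n => (f n).1.2.2.1,
    fun n => (f n).1.2.2.2, rfl, rfl, fun n => (f n).2.1, fun n => ?_, fun n => ?_,
    fun n => (f n).2.2⟩
  · show φ ϖ ^ (n + 1) ∣ (f (n + 1)).1.1 - (f n).1.1
    rw [hf n]
    exact (hnext n (f n)).1
  · show φ ϖ ^ (n + 1) ∣ (f (n + 1)).1.2.1 - (f n).1.2.1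
    rw [hf n]
    exact (hnext n (f n)).2

/-- Coherence: a sequence with `π ^ (n + 1) ∣ Xs (n + 1) - Xs n` satisfies
`π ^ (m + 1) ∣ Xs n - Xs m` for `m ≤ n`. -/
theorem dvd_sub_of_le (π : R) (Xs : ℕ → R) (h : ∀ n, π ^ (n + 1) ∣ Xs (n + 1) - Xs n)
    {m n : ℕ} (hmn : m ≤ n) : π ^ (m + 1) ∣ Xs n - Xs m := by
  induction n, hmn using Nat.le_induction with
  | base => simp
  | succ n hmn ih =>
    have h1 : π ^ (m + 1) ∣ Xs (n + 1) - Xs n :=
      dvd_trans (pow_dvd_pow π (by omega)) (h n)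
    have : Xs (n + 1) - Xs m = (Xs (n + 1) - Xs n) + (Xs n - Xs m) := by ring
    rw [this]
    exact dvd_add h1 ih

/-- Monotonicity of the choice of `n`: if a ring homomorphism `s` (a section) has
`¬ p ^ (m + 1) ∣ s (Xs m)` then `¬ p ^ (n + 1) ∣ s (Xs n)` for all `n ≥ m` (`p = s π`). -/
theorem not_dvd_of_le {T : Type*} [CommRing T] (s : R →+* T) (π : R) (Xs : ℕ → R)
    (h : ∀ n, π ^ (n + 1) ∣ Xs (n + 1) - Xs n) {m n : ℕ} (hmn : m ≤ n)
    (hm : ¬ s π ^ (m + 1) ∣ s (Xs m)) : ¬ s π ^ (n + 1) ∣ s (Xs n) := by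
  intro hn
  apply hm
  have h1 : s π ^ (m + 1) ∣ s (Xs n) - s (Xs m) := by
    have := map_dvd s (dvd_sub_of_le π Xs h hmn)
    rwa [map_pow, map_sub] at this
  have h2 : s π ^ (m + 1) ∣ s (Xs n) := dvd_trans (pow_dvd_pow _ (by omega)) hn
  have : s (Xs m) = s (Xs n) - (s (Xs n) - s (Xs m)) := by ring
  rw [this]
  exact dvd_sub h2 h1

end Fermat.Agent.S34.ApproxNode
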