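import Mathlib

/-!
# S34, package B4 (abstract part): local generators of a double difference

`R` is a local domain over a discrete valuation ring `W` (uniformiser `ϖ`), the local ring of an
arithmetic surface at a closed point of the special fibre; `s : R →ₐ[W] W` is a `W`-rational
section (a rational horizontal point through the closed point).

* NODE: `maximalIdeal R = (ϖ, X, Y)`, `X * Y = c + ϖ ^ m * r` with `c ∈ W` (approximate node
  coordinates), `x := s X` with `ϖ ^ m ∈ x * ϖ * W` (i.e. `¬ ϖ ^ m ∣ x`).  Then `X - x` lies in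
  exactly one prime not containing `ϖ`, namely `ker s`, and generates it locally
  (`node_prime_eq_ker`, `node_dvd_mul_of_mem_ker`); on the branch where `Y` is a unit,
  `X - x = -x * (1 + ϖ * …)` (`node_branch_eq`); on the branch where `X` is a unit,
  `X - x ≡ X` modulo `ϖ`.
* SMOOTH: `maximalIdeal R = (ϖ, u)`: `ker s = (u - s u)`.
* DOUBLE DIFFERENCE: for three sections with `x₁ = ξ x₀`, `x₂ = ξ' x₁`, `ξ' ≡ ξ` modulo `ϖ`,
  the numerator `(φ - x₂)(φ - x₀)` and the denominator `(φ - x₁) ^ 2` are congruent modulo `ϖ`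
  up to a factor which is a unit on the branch (`node_double_diff_branch`,
  `double_diff_unit_branch`).
-/

set_option autoImplicit false
set_option linter.unusedSectionVars false

namespace Fermat.Agent.S34.LocalGen

open IsLocalRing

section Basic

variable {W R : Type*} [CommRing W] [CommRing R] [IsLocalRing R] [Algebra W R]

/-- a section is a local homomorphism: `b - s b` lies in the maximal ideal -/
theorem sub_section_mem [Nontrivial W] (s : R →ₐ[W] W) (b : R) :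
    b - algebraMap W R (s b) ∈ maximalIdeal R := by
  rw [mem_maximalIdeal, mem_nonunits_iff]
  intro h
  have h1 : IsUnit (s (b - algebraMap W R (s b))) := h.map s
  rw [map_sub, AlgHom.commutes] at h1
  simp at h1

/-- the value of a section at a non-unit is a non-unit -/
theorem section_not_isUnit [Nontrivial W] (s : R →ₐ[W] W) {b : R} (hb : b ∈ maximalIdeal R) :
    ¬ IsUnit (s b) := by
  intro h
  have h1 : IsUnit (algebraMap W R (s b)) := h.map (algebraMap W R)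
  have h2 := sub_section_mem s b
  have h3 : algebraMap W R (s b) ∈ maximalIdeal R := by
    have := (maximalIdeal R).sub_mem hb h2
    simpa using this
  exact (mem_maximalIdeal _).mp h3 h1

/-- the kernel of a section is contained in the maximal ideal -/
theorem ker_le_maximalIdeal [Nontrivial W] (s : R →ₐ[W] W) {b : R} (hb : s b = 0) :
    b ∈ maximalIdeal R := by
  have := sub_section_mem s b
  rwa [hb, map_zero, sub_zero] at this

end Basic

section Node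

variable {W R : Type*} [CommRing W] [IsDomain W] [CommRing R] [IsDomain R] [IsNoetherianRing R]
  [IsLocalRing R] [Algebra W R]

/-- **Kernel of a section at a node** (also valid at any point with three generators):
`ker s = (X - s X, Y - s Y)`. -/
theorem node_ker_eq (ϖ : W) (hϖ0 : ϖ ≠ 0) (hW : ∀ w : W, IsUnit w ∨ ϖ ∣ w) (X Y : R)
    (hM : maximalIdeal R = Ideal.span {algebraMap W R ϖ, X, Y}) (s : R →ₐ[W] W) :
    RingHom.ker (s : R →+* W) =
      Ideal.span {X - algebraMap W R (s X), Y - algebraMap W R (s Y)} := by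
  have hXM : X ∈ maximalIdeal R := by
    rw [hM]; exact Ideal.subset_span (by simp)
  have hYM : Y ∈ maximalIdeal R := by
    rw [hM]; exact Ideal.subset_span (by simp)
  have hϖM : algebraMap W R ϖ ∈ maximalIdeal R := by
    rw [hM]; exact Ideal.subset_span (by simp)
  obtain ⟨x', hx'⟩ := (hW (s X)).resolve_left (section_not_isUnit s hXM)
  obtain ⟨y', hy'⟩ := (hW (s Y)).resolve_left (section_not_isUnit s hYM)
  have hsub : ∀ w : W, s (algebraMap W R w) = w := fun w => by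
    rw [AlgHom.commutes]; rfl
  apply le_antisymm
  · -- Nakayama
    refine Submodule.le_of_le_smul_of_le_jacobson_bot
      (I := Ideal.span {algebraMap W R ϖ}) (IsNoetherian.noetherian _) ?_ ?_
    · rw [IsLocalRing.jacobson_eq_maximalIdeal ⊥ bot_ne_top, Ideal.span_le]
      intro z hz
      rw [Set.mem_singleton_iff] at hz
      rw [hz]; exact hϖM
    · intro b hb
      have hb0 : s b = 0 := hb
      have hbM : b ∈ maximalIdeal R := ker_le_maximalIdeal s hb0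
      rw [hM, Ideal.mem_span_insert] at hbM
      obtain ⟨a₁, z, hz, rfl⟩ := hbM
      rw [Ideal.mem_span_pair] at hz
      obtain ⟨a₂, a₃, rfl⟩ := hz
      set b' : R := a₁ + a₂ * algebraMap W R x' + a₃ * algebraMap W R y' with hb'
      have hdecomp : a₁ * algebraMap W R ϖ + (a₂ * X + a₃ * Y) =
          (a₂ * (X - algebraMap W R (s X)) + a₃ * (Y - algebraMap W R (s Y))) +
            algebraMap W R ϖ * b' := by
        rw [hb', hx', hy', map_mul, map_mul]; ring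
      have hi : s (a₂ * (X - algebraMap W R (s X)) + a₃ * (Y - algebraMap W R (s Y))) = 0 := by
        simp [hsub]
      have hb'0 : s b' = 0 := by
        have h1 : s (a₁ * algebraMap W R ϖ + (a₂ * X + a₃ * Y)) = 0 := hb0
        rw [hdecomp, map_add, hi, zero_add, map_mul, hsub] at h1
        exact (mul_eq_zero.mp h1).resolve_left hϖ0
      rw [hdecomp]
      refine Submodule.add_mem_sup ?_ ?_
      · exact Ideal.add_mem _ (Ideal.mul_mem_left _ _ (Ideal.subset_span (by simp)))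
          (Ideal.mul_mem_left _ _ (Ideal.subset_span (by simp)))
      · exact Submodule.smul_mem_smul (Ideal.mem_span_singleton_self _) hb'0
  · rw [Ideal.span_le]
    intro z hz
    rcases hz with rfl | hz
    · show s (X - algebraMap W R (s X)) = 0
      simp [hsub]
    · rw [Set.mem_singleton_iff] at hz
      rw [hz]
      show s (Y - algebraMap W R (s Y)) = 0
      simp [hsub]

/-- a prime not containing `ϖ` which contains `ker s` is `ker s` -/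
theorem prime_eq_ker_of_le (ϖ : W)
    (hWpow : ∀ w : W, w ≠ 0 → ∃ (k : ℕ) (υ : Wˣ), w = υ * ϖ ^ k)
    (s : R →ₐ[W] W) (𝔮 : Ideal R) (h𝔮 : 𝔮.IsPrime) (hϖ𝔮 : algebraMap W R ϖ ∉ 𝔮)
    (hle : RingHom.ker (s : R →+* W) ≤ 𝔮) : 𝔮 = RingHom.ker (s : R →+* W) := by
  have hsub : ∀ w : W, s (algebraMap W R w) = w := fun w => by
    rw [AlgHom.commutes]; rfl
  refine le_antisymm ?_ hle
  intro b hb
  show s b = 0
  by_contra hne
  obtain ⟨k, υ, hk⟩ := hWpow (s b) hne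
  have h1 : b - algebraMap W R (s b) ∈ 𝔮 := hle (by
    show s (b - algebraMap W R (s b)) = 0
    simp [hsub])
  have h2 : algebraMap W R (s b) ∈ 𝔮 := by
    have := 𝔮.sub_mem hb h1
    simpa using this
  rw [hk, map_mul, map_pow] at h2
  rcases h𝔮.mem_or_mem h2 with h3 | h3
  · exact h𝔮.ne_top (Ideal.eq_top_of_isUnit_mem _ h3 (υ.isUnit.map (algebraMap W R)))
  · exact hϖ𝔮 (h𝔮.mem_of_pow_mem k h3)

/-- **Key identity at a node** for a section `s` with `x = s X` strictly dividing `ϖ ^ m`. -/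
theorem node_key (ϖ : W) (hϖ0 : ϖ ≠ 0) (hW : ∀ w : W, IsUnit w ∨ ϖ ∣ w) (X Y : R)
    (hM : maximalIdeal R = Ideal.span {algebraMap W R ϖ, X, Y})
    (c : W) (m : ℕ) (r : R) (hXY : X * Y = algebraMap W R c + algebraMap W R ϖ ^ m * r)
    (s : R →ₐ[W] W) (t : W) (ht : ϖ ^ m = s X * (ϖ * t)) :
    ∃ A B : R,
      algebraMap W R (s X) * (1 - algebraMap W R ϖ * algebraMap W R t * B) *
          (Y - algebraMap W R (s Y)) =
        - ((X - algebraMap W R (s X)) * (Y - algebraMap W R ϖ ^ m * A)) := by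
  have hsub : ∀ w : W, s (algebraMap W R w) = w := fun w => by
    rw [AlgHom.commutes]; rfl
  have hmem : r - algebraMap W R (s r) ∈ RingHom.ker (s : R →+* W) := by
    show s (r - algebraMap W R (s r)) = 0
    simp [hsub]
  rw [node_ker_eq ϖ hϖ0 hW X Y hM s, Ideal.mem_span_pair] at hmem
  obtain ⟨A, B, hAB⟩ := hmem
  refine ⟨A, B, ?_⟩
  have hs : s X * s Y = c + ϖ ^ m * s r := by
    have := congrArg s hXY
    simpa [hsub] using this
  have hsR : algebraMap W R (s X) * algebraMap W R (s Y) =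
      algebraMap W R c + algebraMap W R ϖ ^ m * algebraMap W R (s r) := by
    have := congrArg (algebraMap W R) hs
    simpa using this
  have htR : algebraMap W R ϖ ^ m =
      algebraMap W R (s X) * (algebraMap W R ϖ * algebraMap W R t) := by
    have := congrArg (algebraMap W R) ht
    simpa using this
  linear_combination hXY - hsR - (algebraMap W R ϖ) ^ m * hAB +
    B * (Y - algebraMap W R (s Y)) * htR

/-- `1 - ϖ * a` is a unit of the local ring -/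
theorem isUnit_one_sub_mul (ϖ : W) (X Y : R)
    (hM : maximalIdeal R = Ideal.span {algebraMap W R ϖ, X, Y}) (a : R) :
    IsUnit (1 - algebraMap W R ϖ * a) := by
  apply IsLocalRing.isUnit_one_sub_self_of_mem_nonunits
  rw [← mem_maximalIdeal, hM]
  exact Ideal.mul_mem_right _ _ (Ideal.subset_span (by simp))

/-- **(N1)** at a node, the only prime containing `X - x` but not `ϖ` is `ker s`. -/
theorem node_prime_eq_ker (ϖ : W) (hϖ0 : ϖ ≠ 0) (hW : ∀ w : W, IsUnit w ∨ ϖ ∣ w)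
    (hWpow : ∀ w : W, w ≠ 0 → ∃ (k : ℕ) (υ : Wˣ), w = υ * ϖ ^ k) (X Y : R)
    (hM : maximalIdeal R = Ideal.span {algebraMap W R ϖ, X, Y})
    (c : W) (m : ℕ) (r : R) (hXY : X * Y = algebraMap W R c + algebraMap W R ϖ ^ m * r)
    (s : R →ₐ[W] W) (t : W) (ht : ϖ ^ m = s X * (ϖ * t))
    (𝔮 : Ideal R) (h𝔮 : 𝔮.IsPrime) (hϖ𝔮 : algebraMap W R ϖ ∉ 𝔮)
    (hmem : X - algebraMap W R (s X) ∈ 𝔮) : 𝔮 = RingHom.ker (s : R →+* W) := by
  obtain ⟨A, B, hkey⟩ := node_key ϖ hϖ0 hW X Y hM c m r hXY s t ht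
  have hυ := isUnit_one_sub_mul ϖ X Y hM (algebraMap W R t * B)
  rw [← mul_assoc] at hυ
  have h1 : algebraMap W R (s X) * (1 - algebraMap W R ϖ * algebraMap W R t * B) *
      (Y - algebraMap W R (s Y)) ∈ 𝔮 := by
    rw [hkey]
    exact 𝔮.neg_mem (Ideal.mul_mem_right _ _ hmem)
  have hx𝔮 : algebraMap W R (s X) ∉ 𝔮 := by
    intro hx
    have h2 : algebraMap W R ϖ ^ m ∈ 𝔮 := by
      have := congrArg (algebraMap W R) ht
      rw [map_pow, map_mul] at this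
      rw [this]
      exact Ideal.mul_mem_right _ _ hx
    exact hϖ𝔮 (h𝔮.mem_of_pow_mem m h2)
  have hY : Y - algebraMap W R (s Y) ∈ 𝔮 := by
    rcases h𝔮.mem_or_mem h1 with h2 | h2
    · rcases h𝔮.mem_or_mem h2 with h3 | h3
      · exact absurd h3 hx𝔮
      · exact absurd (Ideal.eq_top_of_isUnit_mem _ h3 hυ) h𝔮.ne_top
    · exact h2
  apply prime_eq_ker_of_le ϖ hWpow s 𝔮 h𝔮 hϖ𝔮
  rw [node_ker_eq ϖ hϖ0 hW X Y hM s, Ideal.span_le]
  intro z hz
  rcases hz with rfl | hz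
  · exact hmem
  · rw [Set.mem_singleton_iff] at hz
    rw [hz]; exact hY

/-- **(N2)** at a node, `X - x` generates `ker s` after inverting one element outside `ker s`. -/
theorem node_dvd_mul_of_mem_ker (ϖ : W) (hϖ0 : ϖ ≠ 0) (hW : ∀ w : W, IsUnit w ∨ ϖ ∣ w)
    (X Y : R) (hM : maximalIdeal R = Ideal.span {algebraMap W R ϖ, X, Y})
    (c : W) (m : ℕ) (r : R) (hXY : X * Y = algebraMap W R c + algebraMap W R ϖ ^ m * r)
    (s : R →ₐ[W] W) (t : W) (ht : ϖ ^ m = s X * (ϖ * t)) :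
    ∃ d : R, s d ≠ 0 ∧ ∀ b : R, s b = 0 → (X - algebraMap W R (s X)) ∣ d * b := by
  have hsub : ∀ w : W, s (algebraMap W R w) = w := fun w => by
    rw [AlgHom.commutes]; rfl
  obtain ⟨A, B, hkey⟩ := node_key ϖ hϖ0 hW X Y hM c m r hXY s t ht
  have hυ := isUnit_one_sub_mul ϖ X Y hM (algebraMap W R t * B)
  rw [← mul_assoc] at hυ
  have hx0 : s X ≠ 0 := by
    intro h
    rw [h, zero_mul] at ht
    exact pow_ne_zero m hϖ0 ht
  refine ⟨algebraMap W R (s X) * (1 - algebraMap W R ϖ * algebraMap W R t * B), ?_, ?_⟩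
  · rw [map_mul, hsub]
    exact mul_ne_zero hx0 (hυ.map s).ne_zero
  · intro b hb
    have hbk : b ∈ RingHom.ker (s : R →+* W) := hb
    rw [node_ker_eq ϖ hϖ0 hW X Y hM s, Ideal.mem_span_pair] at hbk
    obtain ⟨a₁, a₂, rfl⟩ := hbk
    refine ⟨algebraMap W R (s X) * (1 - algebraMap W R ϖ * algebraMap W R t * B) * a₁ -
      a₂ * (Y - algebraMap W R ϖ ^ m * A), ?_⟩
    linear_combination a₂ * hkey

/-- **(N3)** on the branch of a node where `Y` is a unit: `d * (X - x) = - x * (d + ϖ * z)` with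
`d ≡ Y` modulo `ϖ`, i.e. `X - x = - x * (1 + ϖ * …)` there. -/
theorem node_branch_eq (ϖ : W) (hϖ0 : ϖ ≠ 0) (hW : ∀ w : W, IsUnit w ∨ ϖ ∣ w)
    (X Y : R) (hM : maximalIdeal R = Ideal.span {algebraMap W R ϖ, X, Y})
    (c : W) (m : ℕ) (r : R) (hXY : X * Y = algebraMap W R c + algebraMap W R ϖ ^ m * r)
    (s : R →ₐ[W] W) (t : W) (ht : ϖ ^ m = s X * (ϖ * t)) :
    ∃ d z : R, d - Y ∈ Ideal.span {algebraMap W R ϖ} ∧
      d * (X - algebraMap W R (s X)) =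
        - (algebraMap W R (s X) * (d + algebraMap W R ϖ * z)) := by
  obtain ⟨A, B, hkey⟩ := node_key ϖ hϖ0 hW X Y hM c m r hXY s t ht
  have hYM : Y ∈ maximalIdeal R := by
    rw [hM]; exact Ideal.subset_span (by simp)
  obtain ⟨y', hy'⟩ := (hW (s Y)).resolve_left (section_not_isUnit s hYM)
  have htR : algebraMap W R ϖ ^ m =
      algebraMap W R (s X) * (algebraMap W R ϖ * algebraMap W R t) := by
    have := congrArg (algebraMap W R) ht
    simpa using this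
  have hyR : algebraMap W R (s Y) = algebraMap W R ϖ * algebraMap W R y' := by
    rw [hy', map_mul]
  refine ⟨Y - algebraMap W R ϖ ^ m * A,
    - algebraMap W R y' - algebraMap W R t * B * (Y - algebraMap W R (s Y)) +
      algebraMap W R (s X) * algebraMap W R t * A, ?_, ?_⟩
  · rw [Ideal.mem_span_singleton]
    refine ⟨- (algebraMap W R (s X) * algebraMap W R t * A), ?_⟩
    linear_combination (-A) * htR
  · linear_combination hkey + algebraMap W R (s X) * hyR -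
      algebraMap W R (s X) * A * htR

end Node

section Pure

variable {R : Type*} [CommRing R]

/-- pure algebra behind the double difference on the branch where the factors are
`-x * (1 + ϖ * …)` -/
theorem double_diff_aux (ϖ X Y x₀ x₁ x₂ ξ ξ' d₀ d₁ d₂ z₀ z₁ z₂ : R)
    (h1 : x₁ = ξ * x₀) (h2 : x₂ = ξ' * x₁)
    (hξ : ξ' - ξ ∈ Ideal.span {ϖ})
    (hd₀ : d₀ - Y ∈ Ideal.span {ϖ}) (hd₁ : d₁ - Y ∈ Ideal.span {ϖ})
    (hd₂ : d₂ - Y ∈ Ideal.span {ϖ})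
    (e₀ : d₀ * (X - x₀) = -(x₀ * (d₀ + ϖ * z₀)))
    (e₁ : d₁ * (X - x₁) = -(x₁ * (d₁ + ϖ * z₁)))
    (e₂ : d₂ * (X - x₂) = -(x₂ * (d₂ + ϖ * z₂))) :
    ∃ d e : R, d - ξ * Y ^ 4 ∈ Ideal.span {ϖ} ∧
      d * ((X - x₂) * (X - x₀) - (X - x₁) ^ 2) = ϖ * e * (X - x₁) ^ 2 := by
  set I : Ideal R := Ideal.span {ϖ} with hI
  have q0 : Ideal.Quotient.mk I ϖ = 0 :=
    Ideal.Quotient.eq_zero_iff_mem.mpr (Ideal.mem_span_singleton_self ϖ)
  have qξ : Ideal.Quotient.mk I ξ' = Ideal.Quotient.mk I ξ := Ideal.Quotient.eq.mpr hξ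
  have q₀ : Ideal.Quotient.mk I d₀ = Ideal.Quotient.mk I Y := Ideal.Quotient.eq.mpr hd₀
  have q₁ : Ideal.Quotient.mk I d₁ = Ideal.Quotient.mk I Y := Ideal.Quotient.eq.mpr hd₁
  have q₂ : Ideal.Quotient.mk I d₂ = Ideal.Quotient.mk I Y := Ideal.Quotient.eq.mpr hd₂
  have hexpr : ξ' * ((d₀ + ϖ * z₀) * (d₂ + ϖ * z₂)) * d₁ ^ 2 -
      ξ * (d₁ + ϖ * z₁) ^ 2 * d₀ * d₂ ∈ I := by
    rw [← Ideal.Quotient.eq_zero_iff_mem]
    simp only [map_sub, map_mul, map_add, map_pow, q0, qξ, q₀, q₁, q₂]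
    ring
  obtain ⟨e, he⟩ := Ideal.mem_span_singleton'.mp hexpr
  refine ⟨ξ * (d₁ + ϖ * z₁) ^ 2 * d₀ * d₂, e, ?_, ?_⟩
  · rw [← Ideal.Quotient.eq]
    simp only [map_mul, map_add, map_pow, q0, q₀, q₁, q₂]
    ring
  · linear_combination (ξ * (d₁ + ϖ * z₁) ^ 2 * (d₂ * (X - x₂))) * e₀ +
      (ξ * (d₁ + ϖ * z₁) ^ 2 * (-(x₀ * (d₀ + ϖ * z₀)))) * e₂ -
      (ξ' * ((d₀ + ϖ * z₀) * (d₂ + ϖ * z₂)) *
        (d₁ * (X - x₁) + -(x₁ * (d₁ + ϖ * z₁)))) * e₁ +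
      ((d₁ + ϖ * z₁) ^ 2 * ((d₀ + ϖ * z₀) * (d₂ + ϖ * z₂)) * ξ * x₀) * h2 -
      ((d₁ + ϖ * z₁) ^ 2 * ((d₀ + ϖ * z₀) * (d₂ + ϖ * z₂)) * ξ' * x₁) * h1 -
      (X - x₁) ^ 2 * he

/-- pure algebra behind the double difference on a branch where `φ` is a unit -/
theorem double_diff_unit_aux (ϖ φ x₀ x₁ x₂ : R)
    (h₀ : x₀ ∈ Ideal.span {ϖ}) (h₁ : x₁ ∈ Ideal.span {ϖ}) (h₂ : x₂ ∈ Ideal.span {ϖ}) :
    ∃ d e : R, d - φ ^ 2 ∈ Ideal.span {ϖ} ∧
      d * ((φ - x₂) * (φ - x₀) - (φ - x₁) ^ 2) = ϖ * e * (φ - x₁) ^ 2 := by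
  obtain ⟨y₀, rfl⟩ := Ideal.mem_span_singleton'.mp h₀
  obtain ⟨y₁, rfl⟩ := Ideal.mem_span_singleton'.mp h₁
  obtain ⟨y₂, rfl⟩ := Ideal.mem_span_singleton'.mp h₂
  refine ⟨(φ - y₁ * ϖ) ^ 2, φ * (2 * y₁ - y₂ - y₀) + ϖ * (y₂ * y₀ - y₁ ^ 2), ?_, ?_⟩
  · rw [Ideal.mem_span_singleton']
    exact ⟨-2 * φ * y₁ + ϖ * y₁ ^ 2, by ring⟩
  · ring

end Pure

section NodeDiff

variable {W R : Type*} [CommRing W] [IsDomain W] [CommRing R] [IsDomain R] [IsNoetherianRing R]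
  [IsLocalRing R] [Algebra W R]

/-- **Double difference at a node, branch where `Y` is a unit.**  For three sections with
`x₁ = ξ x₀`, `x₂ = ξ' x₁`, `ξ' ≡ ξ` modulo `ϖ`, numerator and denominator of
`(X - x₂)(X - x₀)/(X - x₁)²` are congruent modulo `ϖ` up to the multiplier `d ≡ ξ Y⁴`. -/
theorem node_double_diff_branch (ϖ : W) (hϖ0 : ϖ ≠ 0) (hW : ∀ w : W, IsUnit w ∨ ϖ ∣ w)
    (X Y : R) (hM : maximalIdeal R = Ideal.span {algebraMap W R ϖ, X, Y})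
    (c : W) (m : ℕ) (r : R) (hXY : X * Y = algebraMap W R c + algebraMap W R ϖ ^ m * r)
    (s₀ s₁ s₂ : R →ₐ[W] W) (t₀ : W) (ht₀ : ϖ ^ m = s₀ X * (ϖ * t₀))
    (ξ ξ' : Wˣ) (h1 : s₁ X = ξ * s₀ X) (h2 : s₂ X = ξ' * s₁ X) (hξ : ϖ ∣ (ξ' : W) - ξ) :
    ∃ d e : R, d - algebraMap W R ξ * Y ^ 4 ∈ Ideal.span {algebraMap W R ϖ} ∧
      d * ((X - algebraMap W R (s₂ X)) * (X - algebraMap W R (s₀ X)) -
          (X - algebraMap W R (s₁ X)) ^ 2) =
        algebraMap W R ϖ * e * (X - algebraMap W R (s₁ X)) ^ 2 := by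
  have ht₁ : ϖ ^ m = s₁ X * (ϖ * (((ξ⁻¹ : Wˣ) : W) * t₀)) := by
    rw [h1, ht₀]
    have : ((ξ : W)) * ((ξ⁻¹ : Wˣ) : W) = 1 := Units.mul_inv ξ
    linear_combination (- (s₀ X * ϖ * t₀)) * this
  have ht₂ : ϖ ^ m = s₂ X * (ϖ * (((ξ'⁻¹ : Wˣ) : W) * (((ξ⁻¹ : Wˣ) : W) * t₀))) := by
    rw [h2, ht₁]
    have : ((ξ' : W)) * ((ξ'⁻¹ : Wˣ) : W) = 1 := Units.mul_inv ξ'
    linear_combination (- (s₁ X * ϖ * (((ξ⁻¹ : Wˣ) : W) * t₀))) * this
  obtain ⟨d₀, z₀, hd₀, e₀⟩ := node_branch_eq ϖ hϖ0 hW X Y hM c m r hXY s₀ t₀ ht₀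
  obtain ⟨d₁, z₁, hd₁, e₁⟩ := node_branch_eq ϖ hϖ0 hW X Y hM c m r hXY s₁ _ ht₁
  obtain ⟨d₂, z₂, hd₂, e₂⟩ := node_branch_eq ϖ hϖ0 hW X Y hM c m r hXY s₂ _ ht₂
  refine double_diff_aux (algebraMap W R ϖ) X Y (algebraMap W R (s₀ X)) (algebraMap W R (s₁ X))
    (algebraMap W R (s₂ X)) (algebraMap W R ξ) (algebraMap W R ξ') d₀ d₁ d₂ z₀ z₁ z₂
    (by rw [h1, map_mul]) (by rw [h2, map_mul]) ?_ hd₀ hd₁ hd₂ e₀ e₁ e₂
  obtain ⟨a, ha⟩ := hξ
  rw [Ideal.mem_span_singleton', ← map_sub, ha, map_mul]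
  exact ⟨algebraMap W R a, mul_comm _ _⟩

/-- **Double difference on a branch where the coordinate `φ` is a unit** (the other branch of a
node, or the branch through a smooth point, or any other vertical prime not containing `φ`). -/
theorem double_diff_unit_branch (ϖ : W) (hW : ∀ w : W, IsUnit w ∨ ϖ ∣ w)
    (φ : R) (hφ : φ ∈ maximalIdeal R) (s₀ s₁ s₂ : R →ₐ[W] W) :
    ∃ d e : R, d - φ ^ 2 ∈ Ideal.span {algebraMap W R ϖ} ∧
      d * ((φ - algebraMap W R (s₂ φ)) * (φ - algebraMap W R (s₀ φ)) -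
          (φ - algebraMap W R (s₁ φ)) ^ 2) =
        algebraMap W R ϖ * e * (φ - algebraMap W R (s₁ φ)) ^ 2 := by
  have key : ∀ s : R →ₐ[W] W, algebraMap W R (s φ) ∈ Ideal.span {algebraMap W R ϖ} := by
    intro s
    obtain ⟨a, ha⟩ := (hW (s φ)).resolve_left (section_not_isUnit s hφ)
    rw [ha, map_mul]
    exact Ideal.mul_mem_right _ _ (Ideal.mem_span_singleton_self _)
  exact double_diff_unit_aux _ φ _ _ _ (key s₀) (key s₁) (key s₂)

/-- **Difference of two sections**: `s b - s' b ∈ (s X - s' X, s Y - s' Y)`. -/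
theorem section_sub_mem_span (ϖ : W) (hϖ0 : ϖ ≠ 0) (hW : ∀ w : W, IsUnit w ∨ ϖ ∣ w)
    (X Y : R) (hM : maximalIdeal R = Ideal.span {algebraMap W R ϖ, X, Y})
    (s s' : R →ₐ[W] W) (b : R) :
    s b - s' b ∈ Ideal.span {s X - s' X, s Y - s' Y} := by
  have hsub : ∀ (σ : R →ₐ[W] W) (w : W), σ (algebraMap W R w) = w := fun σ w => by
    rw [AlgHom.commutes]; rfl
  have hmem : b - algebraMap W R (s' b) ∈ RingHom.ker (s' : R →+* W) := by
    show s' (b - algebraMap W R (s' b)) = 0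
    simp [hsub]
  rw [node_ker_eq ϖ hϖ0 hW X Y hM s', Ideal.mem_span_pair] at hmem
  obtain ⟨a₁, a₂, h⟩ := hmem
  have h2 := congrArg s h
  simp only [map_add, map_mul, map_sub, hsub] at h2
  rw [Ideal.mem_span_pair]
  exact ⟨s a₁, s a₂, h2⟩

/-- two sections whose node coordinates are all divisible by `ϖ ^ k` agree modulo `ϖ ^ k` -/
theorem section_sub_dvd (ϖ : W) (hϖ0 : ϖ ≠ 0) (hW : ∀ w : W, IsUnit w ∨ ϖ ∣ w)
    (X Y : R) (hM : maximalIdeal R = Ideal.span {algebraMap W R ϖ, X, Y})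
    (s s' : R →ₐ[W] W) (k : ℕ) (hX : ϖ ^ k ∣ s X) (hX' : ϖ ^ k ∣ s' X) (hY : ϖ ^ k ∣ s Y)
    (hY' : ϖ ^ k ∣ s' Y) (b : R) : ϖ ^ k ∣ s b - s' b := by
  have h := section_sub_mem_span ϖ hϖ0 hW X Y hM s s' b
  rw [Ideal.mem_span_pair] at h
  obtain ⟨a₁, a₂, h⟩ := h
  rw [← h]
  exact dvd_add (Dvd.dvd.mul_left (dvd_sub hX hX') _) (Dvd.dvd.mul_left (dvd_sub hY hY') _)

/-- **Smooth point**: `ker s = (u - s u)`. -/
theorem smooth_ker_eq (ϖ : W) (hϖ0 : ϖ ≠ 0) (hW : ∀ w : W, IsUnit w ∨ ϖ ∣ w) (u : R)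
    (hM : maximalIdeal R = Ideal.span {algebraMap W R ϖ, u}) (s : R →ₐ[W] W) :
    RingHom.ker (s : R →+* W) = Ideal.span {u - algebraMap W R (s u)} := by
  have hM' : maximalIdeal R = Ideal.span {algebraMap W R ϖ, u, u} := by
    rw [hM]; congr 1; ext z; simp
  rw [node_ker_eq ϖ hϖ0 hW u u hM' s]
  congr 1; ext z; simp

/-- **Smooth point**: the only prime containing `u - s u` but not `ϖ` is `ker s`. -/
theorem smooth_prime_eq_ker (ϖ : W) (hϖ0 : ϖ ≠ 0) (hW : ∀ w : W, IsUnit w ∨ ϖ ∣ w)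
    (hWpow : ∀ w : W, w ≠ 0 → ∃ (k : ℕ) (υ : Wˣ), w = υ * ϖ ^ k) (u : R)
    (hM : maximalIdeal R = Ideal.span {algebraMap W R ϖ, u}) (s : R →ₐ[W] W)
    (𝔮 : Ideal R) (h𝔮 : 𝔮.IsPrime) (hϖ𝔮 : algebraMap W R ϖ ∉ 𝔮)
    (hmem : u - algebraMap W R (s u) ∈ 𝔮) : 𝔮 = RingHom.ker (s : R →+* W) := by
  apply prime_eq_ker_of_le ϖ hWpow s 𝔮 h𝔮 hϖ𝔮
  rw [smooth_ker_eq ϖ hϖ0 hW u hM s, Ideal.span_le]
  intro z hz
  rw [Set.mem_singleton_iff] at hz
  rw [hz]; exact hmem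

end NodeDiff

section DVR

variable {W : Type*} [CommRing W] [IsDomain W]

/-- in a DVR every element is a unit or divisible by the uniformiser -/
theorem dvr_isUnit_or_dvd [IsDiscreteValuationRing W] {ϖ : W} (hϖ : Irreducible ϖ) (w : W) :
    IsUnit w ∨ ϖ ∣ w := by
  by_cases h : IsUnit w
  · exact Or.inl h
  · right
    have h1 : w ∈ maximalIdeal W := (mem_maximalIdeal w).mpr h
    rw [(IsDiscreteValuationRing.irreducible_iff_uniformizer ϖ).mp hϖ,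
      Ideal.mem_span_singleton] at h1
    exact h1

/-- in a DVR every nonzero element is a unit times a power of the uniformiser -/
theorem dvr_eq_unit_mul_pow [IsDiscreteValuationRing W] {ϖ : W} (hϖ : Irreducible ϖ) (w : W)
    (hw : w ≠ 0) : ∃ (k : ℕ) (υ : Wˣ), w = υ * ϖ ^ k :=
  IsDiscreteValuationRing.eq_unit_mul_pow_irreducible hw hϖ

/-- `¬ ϖ ^ m ∣ x` in the form used above: `ϖ ^ m = x * (ϖ * t)` -/
theorem dvr_exists_strict (ϖ : W)
    (hWpow : ∀ w : W, w ≠ 0 → ∃ (k : ℕ) (υ : Wˣ), w = υ * ϖ ^ k)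
    (m : ℕ) (x : W) (hx0 : x ≠ 0) (hx : ¬ ϖ ^ m ∣ x) : ∃ t : W, ϖ ^ m = x * (ϖ * t) := by
  obtain ⟨k, υ, rfl⟩ := hWpow x hx0
  have hkm : k < m := by
    by_contra hlt
    have hle : m ≤ k := Nat.le_of_not_lt hlt
    exact hx ⟨υ * ϖ ^ (k - m), by
      rw [mul_comm (ϖ ^ m), mul_assoc, ← pow_add, Nat.sub_add_cancel hle]⟩
  refine ⟨((υ⁻¹ : Wˣ) : W) * ϖ ^ (m - k - 1), ?_⟩
  have h1 : ((υ : W)) * ((υ⁻¹ : Wˣ) : W) = 1 := Units.mul_inv υ
  have h2 : ϖ ^ m = ϖ ^ k * (ϖ * ϖ ^ (m - k - 1)) := by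
    rw [← pow_succ', ← pow_add]
    congr 1
    omega
  rw [h2]
  linear_combination (- (ϖ ^ k * (ϖ * ϖ ^ (m - k - 1)))) * h1

/-- the image of a unit under a ring automorphism, as a unit -/
def unitMap (τ : W ≃+* W) (υ : Wˣ) : Wˣ :=
  ⟨τ υ, τ ((υ⁻¹ : Wˣ) : W), by rw [← map_mul, Units.mul_inv, map_one],
    by rw [← map_mul, Units.inv_mul, map_one]⟩

theorem coe_unitMap (τ : W ≃+* W) (υ : Wˣ) : ((unitMap τ υ : Wˣ) : W) = τ υ := rfl

/-- **Inertia on coordinates.**  A ring automorphism `τ` of `W` acting trivially modulo `ϖ`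
multiplies every nonzero `x₀` by a unit `ξ`, and `τ ξ ≡ ξ`. -/
theorem exists_units_of_ringEquiv (ϖ : W) (hϖ0 : ϖ ≠ 0)
    (hWpow : ∀ w : W, w ≠ 0 → ∃ (k : ℕ) (υ : Wˣ), w = υ * ϖ ^ k)
    (τ : W ≃+* W) (hτ : ∀ a : W, ϖ ∣ τ a - a) (x₀ : W) (hx₀ : x₀ ≠ 0) :
    ∃ ξ ξ' : Wˣ, τ x₀ = ξ * x₀ ∧ τ (τ x₀) = ξ' * τ x₀ ∧ ϖ ∣ (ξ' : W) - ξ := by
  -- `τ ϖ = ϖ * ε` with `ε` a unit
  obtain ⟨a, ha⟩ := hτ ϖ
  obtain ⟨a', ha'⟩ := hτ (τ.symm ϖ)
  rw [RingEquiv.apply_symm_apply] at ha'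
  have h1 : τ ϖ = ϖ * (1 + a) := by linear_combination ha
  have h2 : τ.symm ϖ = ϖ * (1 - a') := by linear_combination (-1 : W) * ha'
  have h3 : (1 + a) * τ (1 - a') = 1 := by
    have h4 : ϖ = τ (τ.symm ϖ) := (RingEquiv.apply_symm_apply τ ϖ).symm
    rw [h2, map_mul, h1] at h4
    have h5 : ϖ * ((1 + a) * τ (1 - a')) = ϖ * 1 := by linear_combination (-1 : W) * h4
    exact mul_left_cancel₀ hϖ0 h5
  obtain ⟨k, υ, hk⟩ := hWpow x₀ hx₀
  have h7 : ((υ⁻¹ : Wˣ) : W) * (υ : W) = 1 := Units.inv_mul υ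
  -- the unit `ξ = τ υ * (1 + a) ^ k * υ⁻¹`
  have hξunit : (τ (υ : W) * (1 + a) ^ k * ((υ⁻¹ : Wˣ) : W)) *
      (τ ((υ⁻¹ : Wˣ) : W) * τ (1 - a') ^ k * (υ : W)) = 1 := by
    have e1 : τ (υ : W) * τ ((υ⁻¹ : Wˣ) : W) = 1 := by
      rw [← map_mul, Units.mul_inv, map_one]
    have e2 : (1 + a) ^ k * τ (1 - a') ^ k = 1 := by rw [← mul_pow, h3, one_pow]
    linear_combination ((1 + a) ^ k * τ (1 - a') ^ k * (((υ⁻¹ : Wˣ) : W) * (υ : W))) * e1 +
      (((υ⁻¹ : Wˣ) : W) * (υ : W)) * e2 + h7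
  let ξ : Wˣ := ⟨τ (υ : W) * (1 + a) ^ k * ((υ⁻¹ : Wˣ) : W),
    τ ((υ⁻¹ : Wˣ) : W) * τ (1 - a') ^ k * (υ : W), hξunit, by rw [mul_comm]; exact hξunit⟩
  have hξ : τ x₀ = (ξ : W) * x₀ := by
    have h6 : τ x₀ = τ υ * (ϖ * (1 + a)) ^ k := by
      rw [hk, map_mul, map_pow, h1]
    show τ x₀ = (τ (υ : W) * (1 + a) ^ k * ((υ⁻¹ : Wˣ) : W)) * x₀
    rw [h6, hk, mul_pow]
    linear_combination (- (τ (υ : W) * (1 + a) ^ k * ϖ ^ k)) * h7
  refine ⟨ξ, unitMap τ ξ, hξ, ?_, ?_⟩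
  · conv_lhs => rw [hξ, map_mul]
    rw [coe_unitMap]
  · rw [coe_unitMap]
    exact hτ _

end DVR

section Field

variable {K : Type*} [Field K]

/-- `g ≡ 1` modulo `ϖ O` -/
def CongOneK (O : Subring K) (ϖ : K) (g : K) : Prop := ∃ c ∈ O, g = 1 + ϖ * c

theorem congOneK_one (O : Subring K) (ϖ : K) : CongOneK O ϖ 1 :=
  ⟨0, O.zero_mem, by ring⟩

theorem CongOneK.mul {O : Subring K} {ϖ : K} (hϖ : ϖ ∈ O) {g h : K}
    (hg : CongOneK O ϖ g) (hh : CongOneK O ϖ h) : CongOneK O ϖ (g * h) := by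
  obtain ⟨c, hc, rfl⟩ := hg
  obtain ⟨c', hc', rfl⟩ := hh
  exact ⟨c + c' + ϖ * c * c', O.add_mem (O.add_mem hc hc') (O.mul_mem (O.mul_mem hϖ hc) hc'),
    by ring⟩

theorem CongOneK.inv {O : Subring K} {ϖ : K}
    (hunit : ∀ c ∈ O, (1 + ϖ * c)⁻¹ ∈ O) {g : K} (hg : CongOneK O ϖ g) :
    CongOneK O ϖ g⁻¹ := by
  obtain ⟨c, hc, rfl⟩ := hg
  by_cases h0 : 1 + ϖ * c = 0
  · rw [h0, inv_zero]
    refine ⟨c, hc, h0.symm⟩
  · refine ⟨-c * (1 + ϖ * c)⁻¹, O.mul_mem (O.neg_mem hc) (hunit c hc), ?_⟩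
    field_simp
    ring

theorem CongOneK.pow {O : Subring K} {ϖ : K} (hϖ : ϖ ∈ O) {g : K}
    (hg : CongOneK O ϖ g) (n : ℕ) : CongOneK O ϖ (g ^ n) := by
  induction n with
  | zero => rw [pow_zero]; exact congOneK_one O ϖ
  | succ n ih => rw [pow_succ]; exact ih.mul hϖ hg

theorem CongOneK.zpow {O : Subring K} {ϖ : K} (hϖ : ϖ ∈ O)
    (hunit : ∀ c ∈ O, (1 + ϖ * c)⁻¹ ∈ O) {g : K} (hg : CongOneK O ϖ g) (n : ℤ) :
    CongOneK O ϖ (g ^ n) := by
  cases n with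
  | ofNat n => rw [Int.ofNat_eq_natCast, zpow_natCast]; exact hg.pow hϖ n
  | negSucc n => rw [zpow_negSucc]; exact (hg.pow hϖ (n + 1)).inv hunit

theorem congOneK_prod {O : Subring K} {ϖ : K} (hϖ : ϖ ∈ O) {ι : Type*} (t : Finset ι)
    (g : ι → K) (hg : ∀ i ∈ t, CongOneK O ϖ (g i)) : CongOneK O ϖ (∏ i ∈ t, g i) := by
  classical
  induction t using Finset.induction_on with
  | empty => rw [Finset.prod_empty]; exact congOneK_one O ϖ
  | insert a t ha ih =>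
    rw [Finset.prod_insert ha]
    exact (hg a (Finset.mem_insert_self a t)).mul hϖ
      (ih fun i hi => hg i (Finset.mem_insert_of_mem hi))

/-- from the ring-level congruence `d * (N - D) = ϖ * e * D` to `N / D ≡ 1` -/
theorem congOneK_of_eq (O : Subring K) (ϖ : K) {N D d e : K} (hD : D ≠ 0) (hd : d ≠ 0)
    (he : e ∈ O) (hdinv : d⁻¹ ∈ O) (h : d * (N - D) = ϖ * e * D) : CongOneK O ϖ (N / D) := by
  refine ⟨e * d⁻¹, O.mul_mem he hdinv, ?_⟩
  field_simp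
  linear_combination h

end Field

end Fermat.Agent.S34.LocalGen
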