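/-
S34 (wave 6), abstract assembly for the contract (LOC):
at a point of the special fibre, all sections but at most one have a LOCAL EQUATION.

`R` a noetherian local domain, an algebra over a "DVR-like" ring `W` with uniformiser `ϖ`
(every element is a unit or divisible by `ϖ`; every nonzero element is `unit * ϖ ^ k`).
For a section `s : R →ₐ[W] W`, `Good ϖ s` says that there is `h ∈ ker s` such that
`ker s` is the ONLY prime of `R` containing `h` but not `ϖ`, and `h` generates `ker s` after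
multiplication by one element outside `ker s`.

* `smooth_loc` : if `𝔪_R = (ϖ, u)` every section is good (`h = u - s u`);
* `node_loc` : if `𝔪_R = (ϖ, X, Y)` with `ϖ ∣ X * Y`, then of any two DISTINCT sections at least
  one is good (approximate node coordinates `ApproxNode.exists_approx`, then `LocalGen` (N1),
  (N2) for a coordinate whose value is not divisible by `ϖ ^ (n + 1)`; if all four values are
  divisible at all levels the two sections agree, `LocalGen.section_sub_dvd`).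
-/
import Mathlib
import Fermat.Agent.S34.ApproxNode
import Fermat.Agent.S34.LocalGen

set_option autoImplicit false

namespace Fermat.Agent.S34.NodeLoc

open IsLocalRing

variable {W R : Type*} [CommRing W] [IsDomain W] [CommRing R] [IsDomain R] [IsNoetherianRing R]
  [IsLocalRing R] [Algebra W R]

/-- The section `s` has a local equation: `h ∈ ker s`, `ker s` is the only prime containing `h`
but not `ϖ`, and `h` generates `ker s` up to one element outside `ker s`. -/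
def Good (ϖ : W) (s : R →ₐ[W] W) : Prop :=
  ∃ h : R, s h = 0 ∧
    (∀ 𝔮 : Ideal R, 𝔮.IsPrime → algebraMap W R ϖ ∉ 𝔮 → h ∈ 𝔮 →
      𝔮 = RingHom.ker (s : R →+* W)) ∧
    ∃ d : R, s d ≠ 0 ∧ ∀ b : R, s b = 0 → h ∣ d * b

theorem section_algebraMap (s : R →ₐ[W] W) (w : W) : s (algebraMap W R w) = w := by
  rw [AlgHom.commutes]; rfl

/-- **Smooth point**: every section has a local equation. -/
theorem smooth_loc (ϖ : W) (hϖ0 : ϖ ≠ 0) (hW : ∀ w : W, IsUnit w ∨ ϖ ∣ w)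
    (hWpow : ∀ w : W, w ≠ 0 → ∃ (k : ℕ) (υ : Wˣ), w = υ * ϖ ^ k) (u : R)
    (hM : maximalIdeal R = Ideal.span {algebraMap W R ϖ, u}) (s : R →ₐ[W] W) :
    Good ϖ s := by
  refine ⟨u - algebraMap W R (s u), ?_, ?_, 1, ?_, ?_⟩
  · rw [map_sub, section_algebraMap, sub_self]
  · intro 𝔮 h𝔮 hϖ𝔮 hmem
    exact LocalGen.smooth_prime_eq_ker ϖ hϖ0 hW hWpow u hM s 𝔮 h𝔮 hϖ𝔮 hmem
  · rw [map_one]; exact one_ne_zero
  · intro b hb
    have hbk : b ∈ RingHom.ker (s : R →+* W) := hb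
    rw [LocalGen.smooth_ker_eq ϖ hϖ0 hW u hM s, Ideal.mem_span_singleton] at hbk
    rw [one_mul]
    exact hbk

/-- a section is good as soon as one approximate coordinate has a value not divisible by
`ϖ ^ (n + 1)` -/
theorem good_of_not_dvd (ϖ : W) (hϖ0 : ϖ ≠ 0) (hW : ∀ w : W, IsUnit w ∨ ϖ ∣ w)
    (hWpow : ∀ w : W, w ≠ 0 → ∃ (k : ℕ) (υ : Wˣ), w = υ * ϖ ^ k) (X Y : R)
    (hM : maximalIdeal R = Ideal.span {algebraMap W R ϖ, X, Y})
    (c : W) (n : ℕ) (r : R)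
    (hXY : X * Y = algebraMap W R c + algebraMap W R ϖ ^ (n + 1) * r)
    (s : R →ₐ[W] W) (hnd : ¬ ϖ ^ (n + 1) ∣ s X) : Good ϖ s := by
  have hx0 : s X ≠ 0 := fun h => hnd (h ▸ dvd_zero _)
  obtain ⟨k, υ, hk⟩ := hWpow (s X) hx0
  have hkn : k ≤ n := by
    by_contra hlt
    apply hnd
    rw [hk]
    exact Dvd.dvd.mul_left (pow_dvd_pow ϖ (by omega)) _
  have ht : ϖ ^ (n + 1) = s X * (ϖ * (((υ⁻¹ : Wˣ) : W) * ϖ ^ (n - k))) := by
    rw [hk]
    have e : n + 1 = k + (1 + (n - k)) := by omega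
    calc ϖ ^ (n + 1) = ϖ ^ k * (ϖ * ϖ ^ (n - k)) := by rw [e, pow_add, pow_add, pow_one]
      _ = ((υ : W) * ((υ⁻¹ : Wˣ) : W)) * (ϖ ^ k * (ϖ * ϖ ^ (n - k))) := by
          rw [Units.mul_inv, one_mul]
      _ = (υ : W) * ϖ ^ k * (ϖ * (((υ⁻¹ : Wˣ) : W) * ϖ ^ (n - k))) := by ring
  refine ⟨X - algebraMap W R (s X), ?_, ?_, ?_⟩
  · rw [map_sub, section_algebraMap, sub_self]
  · intro 𝔮 h𝔮 hϖ𝔮 hmem
    exact LocalGen.node_prime_eq_ker ϖ hϖ0 hW hWpow X Y hM c (n + 1) r hXY s _ ht 𝔮 h𝔮 hϖ𝔮 hmem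
  · exact LocalGen.node_dvd_mul_of_mem_ker ϖ hϖ0 hW X Y hM c (n + 1) r hXY s _ ht

/-- **Node**: of two distinct sections at least one has a local equation. -/
theorem node_loc (ϖ : W) (hϖ0 : ϖ ≠ 0) (hW : ∀ w : W, IsUnit w ∨ ϖ ∣ w)
    (hWpow : ∀ w : W, w ≠ 0 → ∃ (k : ℕ) (υ : Wˣ), w = υ * ϖ ^ k) (X Y : R)
    (hM : maximalIdeal R = Ideal.span {algebraMap W R ϖ, X, Y})
    (hXY : algebraMap W R ϖ ∣ X * Y) (s s' : R →ₐ[W] W) (hne : s ≠ s') :
    Good ϖ s ∨ Good ϖ s' := by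
  have hsurj : ∀ r : R, ∃ w : W, r - algebraMap W R w ∈
      Ideal.span {algebraMap W R ϖ, X, Y} := fun r =>
    ⟨s r, hM ▸ LocalGen.sub_section_mem s r⟩
  obtain ⟨Xs, Ys, cs, rs, -, -, hprod, -, -, hspan⟩ :=
    ApproxNode.exists_approx (algebraMap W R) ϖ X Y hsurj hXY
  have hMn : ∀ n, maximalIdeal R = Ideal.span {algebraMap W R ϖ, Xs n, Ys n} := fun n => by
    rw [hspan n, hM]
  have hMn' : ∀ n, maximalIdeal R = Ideal.span {algebraMap W R ϖ, Ys n, Xs n} := fun n => by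
    rw [hMn n]
    congr 1
    ext z
    simp only [Set.mem_insert_iff, Set.mem_singleton_iff]
    tauto
  have hprod' : ∀ n, Ys n * Xs n = algebraMap W R (cs n) + algebraMap W R ϖ ^ (n + 1) * rs n :=
    fun n => by rw [mul_comm]; exact hprod n
  by_cases h1 : ∃ n, ¬ ϖ ^ (n + 1) ∣ s (Xs n)
  · obtain ⟨n, hn⟩ := h1
    exact Or.inl (good_of_not_dvd ϖ hϖ0 hW hWpow _ _ (hMn n) (cs n) n (rs n) (hprod n) s hn)
  by_cases h2 : ∃ n, ¬ ϖ ^ (n + 1) ∣ s (Ys n)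
  · obtain ⟨n, hn⟩ := h2
    exact Or.inl (good_of_not_dvd ϖ hϖ0 hW hWpow _ _ (hMn' n) (cs n) n (rs n) (hprod' n) s hn)
  by_cases h3 : ∃ n, ¬ ϖ ^ (n + 1) ∣ s' (Xs n)
  · obtain ⟨n, hn⟩ := h3
    exact Or.inr (good_of_not_dvd ϖ hϖ0 hW hWpow _ _ (hMn n) (cs n) n (rs n) (hprod n) s' hn)
  by_cases h4 : ∃ n, ¬ ϖ ^ (n + 1) ∣ s' (Ys n)
  · obtain ⟨n, hn⟩ := h4
    exact Or.inr (good_of_not_dvd ϖ hϖ0 hW hWpow _ _ (hMn' n) (cs n) n (rs n) (hprod' n) s' hn)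
  push Not at h1 h2 h3 h4
  exfalso
  apply hne
  -- `ϖ` is not a unit
  have hϖu : ¬ IsUnit ϖ := by
    intro hu
    have h5 : algebraMap W R ϖ ∈ maximalIdeal R := by
      rw [hM]; exact Ideal.subset_span (by simp)
    exact (mem_maximalIdeal _).mp h5 (hu.map (algebraMap W R))
  apply AlgHom.ext
  intro b
  by_contra hb
  have hb0 : s b - s' b ≠ 0 := sub_ne_zero.mpr hb
  obtain ⟨k, υ, hk⟩ := hWpow _ hb0
  have hdvd := LocalGen.section_sub_dvd ϖ hϖ0 hW (Xs k) (Ys k) (hMn k) s s' (k + 1) (h1 k) (h3 k)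
    (h2 k) (h4 k) b
  rw [hk, pow_succ] at hdvd
  obtain ⟨e, he⟩ := hdvd
  have h6 : ϖ ^ k * ((υ : W)) = ϖ ^ k * (ϖ * e) := by rw [← mul_assoc, ← he, mul_comm]
  have h7 : (υ : W) = ϖ * e := mul_left_cancel₀ (pow_ne_zero k hϖ0) h6
  exact hϖu (isUnit_of_mul_isUnit_left (h7 ▸ υ.isUnit))

end Fermat.Agent.S34.NodeLoc
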