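import Fermat.Agent.S34.Hartogs

/-!
# Fraction-field forms of the algebraic Hartogs lemma

`R` a noetherian integrally closed domain with fraction field `K`.

* `exists_algebraMap_eq_of_forall`: an element `f : K` which lies in `R_𝔭` for every prime `𝔭`
  minimal over a nonzero principal ideal lies in `R`.
* `exists_unit_of_forall`: if moreover `f ≠ 0` is a unit of every such `R_𝔭`, then `f` is a unit
  of `R`.
* `associated_of_forall`: `a, b ≠ 0` with `a / b` a unit at all such primes are associated.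
-/

set_option autoImplicit false

namespace Fermat.Agent.S34.Hartogs

variable {R : Type*} [CommRing R] [IsDomain R] [IsNoetherianRing R] [IsIntegrallyClosed R]
variable (K : Type*) [Field K] [Algebra R K] [IsFractionRing R K]

/-- `f ∈ K` lies in `R` as soon as it lies in `R_𝔭` (i.e. `s * f ∈ R` for some `s ∉ 𝔭`) for every
prime `𝔭` minimal over a nonzero principal ideal. -/
theorem exists_algebraMap_eq_of_forall (f : K)
    (h : ∀ b : R, b ≠ 0 → ∀ 𝔭 ∈ (Ideal.span {b} : Ideal R).minimalPrimes,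
      ∃ s : R, s ∉ 𝔭 ∧ ∃ t : R, algebraMap R K t = algebraMap R K s * f) :
    ∃ r : R, algebraMap R K r = f := by
  obtain ⟨a, b, hb, rfl⟩ := IsFractionRing.div_surjective (A := R) f
  have hb0 : b ≠ 0 := nonZeroDivisors.ne_zero hb
  have hbK : algebraMap R K b ≠ 0 := by
    intro h0
    exact hb0 ((IsFractionRing.injective R K) (by simpa using h0))
  have hdvd : b ∣ a := by
    refine dvd_of_forall_minimalPrimes a b hb0 ?_
    intro 𝔭 h𝔭
    obtain ⟨s, hs, t, ht⟩ := h b hb0 𝔭 h𝔭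
    refine ⟨s, hs, t, ?_⟩
    apply IsFractionRing.injective R K
    rw [map_mul, map_mul, ht]
    field_simp
  obtain ⟨r, rfl⟩ := hdvd
  refine ⟨r, ?_⟩
  rw [map_mul]
  field_simp

/-- `f ∈ K`, `f ≠ 0`, is (the image of) a unit of `R` as soon as it is a unit of `R_𝔭` for every
prime `𝔭` minimal over a nonzero principal ideal. -/
theorem exists_unit_of_forall (f : K) (hf : f ≠ 0)
    (h : ∀ b : R, b ≠ 0 → ∀ 𝔭 ∈ (Ideal.span {b} : Ideal R).minimalPrimes,
      ∃ s : R, s ∉ 𝔭 ∧ ∃ t : R, t ∉ 𝔭 ∧ algebraMap R K t = algebraMap R K s * f) :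
    ∃ u : Rˣ, algebraMap R K (u : R) = f := by
  obtain ⟨r, hr⟩ := exists_algebraMap_eq_of_forall K f
    (fun b hb 𝔭 h𝔭 => by
      obtain ⟨s, hs, t, -, ht⟩ := h b hb 𝔭 h𝔭
      exact ⟨s, hs, t, ht⟩)
  obtain ⟨r', hr'⟩ := exists_algebraMap_eq_of_forall K f⁻¹
    (fun b hb 𝔭 h𝔭 => by
      obtain ⟨s, -, t, ht, hst⟩ := h b hb 𝔭 h𝔭
      refine ⟨t, ht, s, ?_⟩
      rw [hst, mul_assoc, mul_inv_cancel₀ hf, mul_one])
  have hmul : r * r' = 1 := by
    apply IsFractionRing.injective R K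
    rw [map_mul, hr, hr', mul_inv_cancel₀ hf, map_one]
  exact ⟨⟨r, r', hmul, by rw [mul_comm]; exact hmul⟩, hr⟩

/-- Two nonzero elements whose quotient is a unit of `R_𝔭` for every prime `𝔭` minimal over a
nonzero principal ideal are associated. -/
theorem associated_of_forall (a b : R) (ha : a ≠ 0) (hb : b ≠ 0)
    (h : ∀ c : R, c ≠ 0 → ∀ 𝔭 ∈ (Ideal.span {c} : Ideal R).minimalPrimes,
      ∃ s : R, s ∉ 𝔭 ∧ ∃ t : R, t ∉ 𝔭 ∧ t * b = s * a) :
    ∃ u : Rˣ, a = u * b := by
  let K := FractionRing R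
  have haK : algebraMap R K a ≠ 0 := by
    intro h0
    exact ha ((IsFractionRing.injective R K) (by simpa using h0))
  have hbK : algebraMap R K b ≠ 0 := by
    intro h0
    exact hb ((IsFractionRing.injective R K) (by simpa using h0))
  obtain ⟨u, hu⟩ := exists_unit_of_forall K (algebraMap R K b / algebraMap R K a)
    (div_ne_zero hbK haK)
    (fun c hc 𝔭 h𝔭 => by
      obtain ⟨s, hs, t, ht, hst⟩ := h c hc 𝔭 h𝔭
      refine ⟨t, ht, s, hs, ?_⟩
      rw [mul_div_assoc', eq_div_iff haK, ← map_mul, ← map_mul, hst])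
  refine ⟨u⁻¹, ?_⟩
  have h1 : (u : R) * a = b := by
    apply IsFractionRing.injective R K
    rw [map_mul, hu, div_mul_cancel₀ _ haK]
  rw [← h1, ← mul_assoc, Units.inv_mul, one_mul]

end Fermat.Agent.S34.Hartogs
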