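import Mathlib
import Fermat.Agent.S37.WChart
import Fermat.Agent.S37.RatPlace
import Fermat.Agent.S34.HeightOne
import Fermat.Agent.S34.HartogsUnit

/-!
# S34, package B3 (abstract core): places and sections of a chart

Currency of `S37.WChart`: `K` a field with a valuation ring `A`, `F` a function field over `K`,
`L ⊆ K` a subfield (`ι : L →+* K`) with valuation ring `W = A ∩ L`, `B` a chart ring over `W`
mapping to `F` by `ψ`.

* `IsSectionOf A ι W ψ P s` : `s : B →ₐ[W] W` computes the values of the chart functions at the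
  place `P`;
* `exists_section` : a rational place in the class of `𝔫` has a section, and `𝔫` is the preimage
  of the maximal ideal of `W`;
* `inClass_localization`, `rational_localization` : passage from a chart `B` to its local ring
  `R = B_𝔫`;
* `ord_localGen` : the order of a local generator of the kernel of a section at all places through
  the chart;
* `IsSectionOf.smul` : transport of sections by semilinear automorphisms.
-/

set_option autoImplicit false
set_option linter.unusedSectionVars false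

namespace Fermat.Agent.S34.Sections

open AlgebraicCurve Fermat.Agent.S37.GaloisValue Fermat.Agent.S37.WChart

section Core

variable {K F L : Type*} [Field K] [Field F] [Algebra K F] [Field L]
  (A : ValuationSubring K) (ι : L →+* K) (W : ValuationSubring L)
  {B : Type*} [CommRing B] [IsDomain B] [IsNoetherianRing B] [Algebra W B]
  (ψ : B →+* F)

/-- `s` is the section of the chart at the place `P`: the value of every chart function `y` at
`P` is `ι (s y)`. -/
def IsSectionOf (P : Place K F) (s : B →ₐ[W] W) : Prop :=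
  ∀ y : B, IsValueAt P (ψ y) (ι (s y))

/-- the place `P` is rational on the chart: the regular chart functions have values in `ι L` -/
def RatOn (P : Place K F) : Prop :=
  ∀ y : B, ψ y ∈ P.toValuationSubring → ∃ c : L, IsValueAt P (ψ y) (ι c)

variable {A ι W ψ}

theorem IsSectionOf.eq_of_isValueAt {P : Place K F} {s : B →ₐ[W] W} (hs : IsSectionOf ι W ψ P s)
    {y : B} {w : W} (h : IsValueAt P (ψ y) (ι w)) : s y = w :=
  Subtype.ext (ι.injective ((hs y).unique h))

/-- a place has at most one section -/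
theorem IsSectionOf.unique {P : Place K F} {s s' : B →ₐ[W] W} (hs : IsSectionOf ι W ψ P s)
    (hs' : IsSectionOf ι W ψ P s') : s = s' :=
  AlgHom.ext fun y => hs.eq_of_isValueAt (hs' y)

/-- the kernel of the section is the ideal of the chart functions vanishing at the place -/
theorem IsSectionOf.eq_zero_iff {P : Place K F} {s : B →ₐ[W] W} (hs : IsSectionOf ι W ψ P s)
    (y : B) : s y = 0 ↔ IsValueAt P (ψ y) 0 := by
  constructor
  · intro h
    have := hs y
    rwa [h, ZeroMemClass.coe_zero, map_zero] at this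
  · intro h
    have h1 : ι ((s y : W) : L) = 0 := (hs y).unique h
    exact Subtype.ext ((map_eq_zero ι).mp h1)

/-- a place with a section is an integral point of the chart -/
theorem IsSectionOf.pl (hWA : ∀ x : L, x ∈ W ↔ ι x ∈ A) {P : Place K F} {s : B →ₐ[W] W}
    (hs : IsSectionOf ι W ψ P s) : Pl A ψ P :=
  fun y => ⟨ι (s y), (hWA _).mp (s y).2, hs y⟩

/-- a place with a section is rational on the chart -/
theorem IsSectionOf.ratOn {P : Place K F} {s : B →ₐ[W] W}
    (hs : IsSectionOf ι W ψ P s) : RatOn ι ψ P :=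
  fun y _ => ⟨(s y : L), hs y⟩

/-- the centre of a place with a section is the preimage of the maximal ideal of `W` -/
theorem IsSectionOf.mem_iff (hWA : ∀ x : L, x ∈ W ↔ ι x ∈ A) {P : Place K F} {s : B →ₐ[W] W}
    (hs : IsSectionOf ι W ψ P s) {𝔫 : Ideal B} (hP : CentreAt A ψ 𝔫 P) (y : B) :
    y ∈ 𝔫 ↔ ¬ IsUnit (s y) := by
  rw [hP y]
  constructor
  · rintro ⟨c, hc, hcv⟩
    have : c = ι (s y) := hcv.unique (hs y)
    rw [this] at hc
    exact (val_lt_one_iff_not_isUnit A ι W hWA (s y)).mp hc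
  · intro hnu
    exact ⟨ι (s y), (val_lt_one_iff_not_isUnit A ι W hWA (s y)).mpr hnu, hs y⟩

/-- a place with a section is in the class of the preimage of the maximal ideal of `W` -/
theorem IsSectionOf.inClass (hWA : ∀ x : L, x ∈ W ↔ ι x ∈ A) {P : Place K F} {s : B →ₐ[W] W}
    (hs : IsSectionOf ι W ψ P s) (𝔫 : Ideal B) (h𝔫 : ∀ y : B, y ∈ 𝔫 ↔ ¬ IsUnit (s y)) :
    InClass A ψ 𝔫 P := by
  refine ⟨hs.pl hWA, fun y => ?_⟩
  rw [h𝔫 y]
  constructor
  · intro hnu
    exact ⟨ι (s y), (val_lt_one_iff_not_isUnit A ι W hWA (s y)).mpr hnu, hs y⟩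
  · rintro ⟨c, hc, hcv⟩
    have : c = ι (s y) := hcv.unique (hs y)
    rw [this] at hc
    exact (val_lt_one_iff_not_isUnit A ι W hWA (s y)).mp hc

variable (A ι W ψ)

/-- **Existence of the section** of a rational integral point of the chart. -/
theorem exists_section (hWA : ∀ x : L, x ∈ W ↔ ι x ∈ A)
    (hψW : ∀ w : W, ψ (algebraMap W B w) = algebraMap K F (ι w))
    (P : Place K F) (hP : Pl A ψ P) (hrat : RatOn ι ψ P) :
    ∃ s : B →ₐ[W] W, IsSectionOf ι W ψ P s := by
  have hv : ∀ y : B, ∃ w : W, IsValueAt P (ψ y) (ι w) := by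
    intro y
    obtain ⟨c, hcA, hc⟩ := hP y
    obtain ⟨c', hc'⟩ := hrat y hc.mem
    have h1 : c = ι c' := hc.unique hc'
    exact ⟨⟨c', (hWA c').mpr (h1 ▸ hcA)⟩, hc'⟩
  choose s hs using hv
  have huniq : ∀ (y : B) (w : W), IsValueAt P (ψ y) (ι w) → s y = w := fun y w h =>
    Subtype.ext (ι.injective ((hs y).unique h))
  refine ⟨{ toFun := s
            map_one' := ?_
            map_mul' := ?_
            map_zero' := ?_
            map_add' := ?_
            commutes' := ?_ }, hs⟩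
  · apply huniq
    rw [map_one, OneMemClass.coe_one, map_one]
    simpa using isValueAt_algebraMap P (1 : K)
  · intro x y
    apply huniq
    rw [map_mul, MulMemClass.coe_mul, map_mul]
    exact (hs x).mul (hs y)
  · apply huniq
    rw [map_zero, ZeroMemClass.coe_zero, map_zero]
    simpa using isValueAt_algebraMap P (0 : K)
  · intro x y
    apply huniq
    rw [map_add, AddMemClass.coe_add, map_add]
    exact (hs x).add (hs y)
  · intro w
    apply huniq
    exact isValueAt_algebraMap_W ι W ψ hψW P w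

end Core

/-! ### Units and orders at an arbitrary place through the chart -/

section Units

variable {K F : Type*} [Field K] [Field F] [Algebra K F]

/-- an element of the valuation ring of a place which is not in its maximal ideal has order
zero -/
theorem ord_eq_zero_of_mem_of_notMem_nonunits {Q : Place K F} {x : F}
    (h1 : x ∈ Q.toValuationSubring) (h2 : x ∉ Q.toValuationSubring.nonunits) : Q.ord x = 0 := by
  have hle : Q.toValuationSubring.valuation x ≤ 1 :=
    (Q.toValuationSubring.valuation_le_one_iff x).mpr h1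
  have hnlt : ¬ Q.toValuationSubring.valuation x < 1 := fun h =>
    h2 (Q.toValuationSubring.mem_nonunits_iff.mpr h)
  have hu : Fermat.Agent.S37.RatPlace.UnitAt Q x := le_antisymm hle (not_lt.mp hnlt)
  exact hu.ord_eq_zero

/-- a nonzero element of the maximal ideal of a place has positive order -/
theorem ord_pos_of_mem_nonunits {Q : Place K F} {x : F}
    (h : x ∈ Q.toValuationSubring.nonunits) (hx : x ≠ 0) : 0 < Q.ord x :=
  ord_pos_of_isValueAt_zero ((Fermat.Agent.S37.RatPlace.isValueAt_zero_iff Q x).mpr h) hx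

/-- a nonzero constant is not in the maximal ideal of a place -/
theorem algebraMap_notMem_nonunits (Q : Place K F) {c : K} (hc : c ≠ 0) :
    algebraMap K F c ∉ Q.toValuationSubring.nonunits := by
  intro h
  have h1 : IsValueAt Q (algebraMap K F c) 0 :=
    (Fermat.Agent.S37.RatPlace.isValueAt_zero_iff Q _).mpr h
  exact hc ((isValueAt_algebraMap Q c).unique h1)

end Units

/-! ### Passage to the local ring of the chart -/

section Localization

variable {K F L : Type*} [Field K] [Field F] [Algebra K F] [Field L]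
  (A : ValuationSubring K) (ι : L →+* K) (W : ValuationSubring L)
  {B : Type*} [CommRing B] [IsDomain B] [IsNoetherianRing B] [Algebra W B]
  (ψ : B →+* F)
  {R : Type*} [CommRing R] [IsDomain R] [IsNoetherianRing R] [Algebra W R] [Algebra B R]
  [IsScalarTower W B R] [IsLocalRing R]
  (ψR : R →+* F) (𝔫 : Ideal B) [𝔫.IsPrime] [IsLocalization.AtPrime R 𝔫]

/-- every element of the local ring is a fraction with denominator outside `𝔫` -/
theorem exists_rep (r : R) :
    ∃ y d : B, d ∉ 𝔫 ∧ r * algebraMap B R d = algebraMap B R y := by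
  obtain ⟨⟨y, d⟩, h⟩ := IsLocalization.surj 𝔫.primeCompl r
  exact ⟨y, d, d.2, h⟩

/-- membership in the maximal ideal of the local ring, on fractions -/
theorem mem_maximalIdeal_iff_of_rep {r : R} {y d : B} (hd : d ∉ 𝔫)
    (h : r * algebraMap B R d = algebraMap B R y) :
    r ∈ IsLocalRing.maximalIdeal R ↔ y ∈ 𝔫 := by
  have hu : IsUnit (algebraMap B R d) :=
    IsLocalization.map_units R (⟨d, hd⟩ : 𝔫.primeCompl)
  have h1 : IsUnit r ↔ IsUnit (algebraMap B R y) := by
    rw [← h]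
    exact ⟨fun hr => hr.mul hu, fun hr => (IsUnit.mul_iff.mp hr).1⟩
  rw [IsLocalRing.mem_maximalIdeal, mem_nonunits_iff, h1,
    IsLocalization.AtPrime.isUnit_to_map_iff R 𝔫 y]
  exact not_not

variable {ψ ψR}

/-- values on the local ring, on fractions -/
theorem isValueAt_of_rep (hψR : ∀ y : B, ψR (algebraMap B R y) = ψ y)
    {P : Place K F} {r : R} {y d : B} (h : r * algebraMap B R d = algebraMap B R y)
    {cy cd : K} (hy : IsValueAt P (ψ y) cy) (hd : IsValueAt P (ψ d) cd) (hcd : cd ≠ 0) :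
    IsValueAt P (ψR r) (cy * cd⁻¹) := by
  have h1 : ψR r * ψ d = ψ y := by rw [← hψR, ← hψR, ← map_mul, h]
  have hd0 : ψ d ≠ 0 := (Fermat.Agent.S37.RatPlace.unitAt_of_isValueAt hd hcd).ne_zero
  have h2 : ψR r = ψ y * (ψ d)⁻¹ := by
    rw [← h1, mul_assoc, mul_inv_cancel₀ hd0, mul_one]
  rw [h2]
  exact hy.mul (Fermat.Agent.S37.Inertia.isValueAt_inv hd hcd)

variable {𝔫}

/-- **An integral point of the chart with centre `𝔫` is an integral point of the local ring
`B_𝔫`, centred at its maximal ideal.** -/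
theorem inClass_localization (hψR : ∀ y : B, ψR (algebraMap B R y) = ψ y)
    {P : Place K F} (hP : InClass A ψ 𝔫 P) :
    InClass A ψR (IsLocalRing.maximalIdeal R) P := by
  have hden : ∀ d : B, d ∉ 𝔫 → ∃ cd : K, A.valuation cd = 1 ∧ IsValueAt P (ψ d) cd := by
    intro d hd
    obtain ⟨cd, hcdA, hcd⟩ := hP.1 d
    refine ⟨cd, ?_, hcd⟩
    have h1 : A.valuation cd ≤ 1 := (A.valuation_le_one_iff _).mpr hcdA
    by_contra hne
    exact hd ((hP.2 d).mpr ⟨cd, lt_of_le_of_ne h1 hne, hcd⟩)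
  have hval : ∀ r : R, ∃ (y : B) (cy cd : K), A.valuation cd = 1 ∧ A.valuation cy ≤ 1 ∧
      IsValueAt P (ψ y) cy ∧ IsValueAt P (ψR r) (cy * cd⁻¹) ∧
      (r ∈ IsLocalRing.maximalIdeal R ↔ y ∈ 𝔫) := by
    intro r
    obtain ⟨y, d, hd, h⟩ := exists_rep (R := R) 𝔫 r
    obtain ⟨cd, hcd1, hcd⟩ := hden d hd
    obtain ⟨cy, hcyA, hcy⟩ := hP.1 y
    have hcd0 : cd ≠ 0 := by
      rintro rfl
      rw [map_zero] at hcd1
      exact zero_ne_one hcd1
    exact ⟨y, cy, cd, hcd1, (A.valuation_le_one_iff _).mpr hcyA, hcy,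
      isValueAt_of_rep hψR h hcy hcd hcd0, mem_maximalIdeal_iff_of_rep 𝔫 hd h⟩
  have hmul : ∀ cy cd : K, A.valuation cd = 1 → A.valuation (cy * cd⁻¹) = A.valuation cy := by
    intro cy cd h
    rw [map_mul, map_inv₀, h, inv_one, mul_one]
  refine ⟨fun r => ?_, fun r => ?_⟩
  · obtain ⟨y, cy, cd, hcd1, hcy1, -, hv, -⟩ := hval r
    refine ⟨cy * cd⁻¹, ?_, hv⟩
    rw [← A.valuation_le_one_iff, hmul cy cd hcd1]
    exact hcy1
  · obtain ⟨y, cy, cd, hcd1, hcy1, hcy, hv, hmem⟩ := hval r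
    rw [hmem, hP.2 y]
    constructor
    · rintro ⟨c, hc, hcv⟩
      have : c = cy := hcv.unique hcy
      subst this
      exact ⟨c * cd⁻¹, by rw [hmul c cd hcd1]; exact hc, hv⟩
    · rintro ⟨c, hc, hcv⟩
      have : c = cy * cd⁻¹ := hcv.unique hv
      subst this
      rw [hmul cy cd hcd1] at hc
      exact ⟨cy, hc, hcy⟩

/-- rationality passes to the local ring -/
theorem ratOn_localization (hψR : ∀ y : B, ψR (algebraMap B R y) = ψ y)
    {P : Place K F} (hP : InClass A ψ 𝔫 P) (hrat : RatOn ι ψ P) : RatOn ι ψR P := by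
  intro r _
  obtain ⟨y, d, hd, h⟩ := exists_rep (R := R) 𝔫 r
  obtain ⟨cy', -, hcy'⟩ := hP.1 y
  obtain ⟨cd', -, hcd'⟩ := hP.1 d
  obtain ⟨cy, hcy⟩ := hrat y hcy'.mem
  obtain ⟨cd, hcd⟩ := hrat d hcd'.mem
  have hcd0 : ι cd ≠ 0 := by
    intro h0
    rw [h0] at hcd
    exact hd ((hP.2 d).mpr ⟨0, by rw [map_zero]; exact zero_lt_one, hcd⟩)
  refine ⟨cy * cd⁻¹, ?_⟩
  rw [map_mul, map_inv₀]
  exact isValueAt_of_rep hψR h hcy hcd hcd0

/-- **The section of the local ring `B_𝔫` at a rational integral point with centre `𝔫`**; it is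
a local homomorphism. -/
theorem exists_section_localization (hWA : ∀ x : L, x ∈ W ↔ ι x ∈ A)
    (hψW : ∀ w : W, ψ (algebraMap W B w) = algebraMap K F (ι w))
    (hψR : ∀ y : B, ψR (algebraMap B R y) = ψ y)
    {P : Place K F} (hP : InClass A ψ 𝔫 P) (hrat : RatOn ι ψ P) :
    ∃ s : R →ₐ[W] W, IsSectionOf ι W ψR P s ∧
      (∀ r : R, r ∈ IsLocalRing.maximalIdeal R ↔ ¬ IsUnit (s r)) ∧
      InClass A ψR (IsLocalRing.maximalIdeal R) P := by
  have hP' := inClass_localization A hψR hP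
  have hψRW : ∀ w : W, ψR (algebraMap W R w) = algebraMap K F (ι w) := by
    intro w
    rw [IsScalarTower.algebraMap_apply W B R, hψR, hψW]
  obtain ⟨s, hs⟩ := exists_section A ι W ψR hWA hψRW P hP'.1 (ratOn_localization A ι hψR hP hrat)
  exact ⟨s, hs, fun r => hs.mem_iff hWA hP'.2 r, hP'⟩

/-- the places through the local ring `B_𝔫` are the places through the chart whose zero ideal
lies in `𝔫` -/
theorem forall_mem_localization_iff (hψR : ∀ y : B, ψR (algebraMap B R y) = ψ y)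
    (Q : Place K F) :
    (∀ r : R, ψR r ∈ Q.toValuationSubring) ↔
      (∀ y : B, ψ y ∈ Q.toValuationSubring) ∧
        (∀ y : B, ψ y ∈ Q.toValuationSubring.nonunits → y ∈ 𝔫) := by
  constructor
  · intro h
    refine ⟨fun y => hψR y ▸ h _, fun y hy => ?_⟩
    by_contra hy𝔫
    have hu : IsUnit (algebraMap B R y) :=
      IsLocalization.map_units R (⟨y, hy𝔫⟩ : 𝔫.primeCompl)
    obtain ⟨r', hr'⟩ := hu.exists_right_inv
    have h1 : ψ y * ψR r' = 1 := by rw [← hψR, ← map_mul, hr', map_one]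
    have h2 : Q.toValuationSubring.valuation (ψ y) < 1 :=
      Q.toValuationSubring.mem_nonunits_iff.mp hy
    have h3 : Q.toValuationSubring.valuation (ψR r') ≤ 1 :=
      (Q.toValuationSubring.valuation_le_one_iff _).mpr (h r')
    have h4 := congrArg Q.toValuationSubring.valuation h1
    rw [map_mul, map_one] at h4
    have h5 : Q.toValuationSubring.valuation (ψ y) * Q.toValuationSubring.valuation (ψR r') < 1 := by
      calc Q.toValuationSubring.valuation (ψ y) * Q.toValuationSubring.valuation (ψR r')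
          ≤ Q.toValuationSubring.valuation (ψ y) * 1 := by gcongr
        _ = Q.toValuationSubring.valuation (ψ y) := mul_one _
        _ < 1 := h2
    exact absurd h4 h5.ne
  · rintro ⟨h1, h2⟩ r
    obtain ⟨y, d, hd, h⟩ := exists_rep (R := R) 𝔫 r
    have hd1 : Q.toValuationSubring.valuation (ψ d) = 1 := by
      refine le_antisymm ((Q.toValuationSubring.valuation_le_one_iff _).mpr (h1 d)) ?_
      by_contra hlt
      exact hd (h2 d (Q.toValuationSubring.mem_nonunits_iff.mpr (not_le.mp hlt)))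
    have h3 : ψR r * ψ d = ψ y := by rw [← hψR, ← hψR, ← map_mul, h]
    have h4 := congrArg Q.toValuationSubring.valuation h3
    rw [map_mul, hd1, mul_one] at h4
    rw [← Q.toValuationSubring.valuation_le_one_iff, h4]
    exact (Q.toValuationSubring.valuation_le_one_iff _).mpr (h1 y)

/-- **Places over the horizontal primes of the local ring** from places over the horizontal
primes of the chart. -/
theorem hext_localization (𝔫 : Ideal B) [𝔫.IsPrime] [IsLocalization.AtPrime R 𝔫]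
    (hψR : ∀ y : B, ψR (algebraMap B R y) = ψ y) (π : W)
    (hext : ∀ 𝔮 : Ideal B, 𝔮.IsPrime → 𝔮 ≠ ⊥ → algebraMap W B π ∉ 𝔮 →
      ∃ P : Place K F, ∀ y : B, ψ y ∈ P.toValuationSubring ∧ (y ∈ 𝔮 ↔ IsValueAt P (ψ y) 0)) :
    ∀ 𝔮 : Ideal R, 𝔮.IsPrime → 𝔮 ≠ ⊥ → algebraMap W R π ∉ 𝔮 →
      ∃ P : Place K F, ∀ r : R, ψR r ∈ P.toValuationSubring ∧
        (r ∈ 𝔮 ↔ IsValueAt P (ψR r) 0) := by
  intro 𝔮 h𝔮 h𝔮0 hπ𝔮
  have hunit : ∀ d : B, d ∉ 𝔫 → IsUnit (algebraMap B R d) := fun d hd =>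
    IsLocalization.map_units R (⟨d, hd⟩ : 𝔫.primeCompl)
  have hmem : ∀ (r : R) (y d : B), d ∉ 𝔫 → r * algebraMap B R d = algebraMap B R y →
      (r ∈ 𝔮 ↔ algebraMap B R y ∈ 𝔮) := by
    intro r y d hd h
    rw [← h]
    constructor
    · intro hr
      exact 𝔮.mul_mem_right _ hr
    · intro hr
      rcases h𝔮.mem_or_mem hr with h1 | h1
      · exact h1
      · exact absurd (Ideal.eq_top_of_isUnit_mem _ h1 (hunit d hd)) h𝔮.ne_top
  set 𝔮' : Ideal B := 𝔮.comap (algebraMap B R) with h𝔮'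
  have h𝔮'p : 𝔮'.IsPrime := Ideal.comap_isPrime _ _
  have h𝔮'0 : 𝔮' ≠ ⊥ := by
    intro h0
    apply h𝔮0
    rw [eq_bot_iff]
    intro r hr
    obtain ⟨y, d, hd, h⟩ := exists_rep (R := R) 𝔫 r
    have hy : y ∈ 𝔮' := Ideal.mem_comap.mpr ((hmem r y d hd h).mp hr)
    rw [h0, Ideal.mem_bot] at hy
    rw [hy, map_zero] at h
    rcases mul_eq_zero.mp h with h1 | h1
    · exact (Ideal.mem_bot).mpr h1
    · exact absurd h1 (hunit d hd).ne_zero
  have hπ𝔮' : algebraMap W B π ∉ 𝔮' := by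
    intro h
    apply hπ𝔮
    have := Ideal.mem_comap.mp h
    rwa [← IsScalarTower.algebraMap_apply W B R] at this
  obtain ⟨P, hP⟩ := hext 𝔮' h𝔮'p h𝔮'0 hπ𝔮'
  refine ⟨P, fun r => ?_⟩
  obtain ⟨y, d, hd, h⟩ := exists_rep (R := R) 𝔫 r
  have hd𝔮' : d ∉ 𝔮' := by
    intro hd'
    exact h𝔮.ne_top (Ideal.eq_top_of_isUnit_mem _ (Ideal.mem_comap.mp hd') (hunit d hd))
  have hd1 : P.toValuationSubring.valuation (ψ d) = 1 := by
    refine le_antisymm ((P.toValuationSubring.valuation_le_one_iff _).mpr (hP d).1) ?_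
    by_contra hlt
    apply hd𝔮'
    rw [(hP d).2, Fermat.Agent.S37.RatPlace.isValueAt_zero_iff]
    exact P.toValuationSubring.mem_nonunits_iff.mpr (not_le.mp hlt)
  have h3 : ψR r * ψ d = ψ y := by rw [← hψR, ← hψR, ← map_mul, h]
  have h4 := congrArg P.toValuationSubring.valuation h3
  rw [map_mul, hd1, mul_one] at h4
  constructor
  · rw [← P.toValuationSubring.valuation_le_one_iff, h4]
    exact (P.toValuationSubring.valuation_le_one_iff _).mpr (hP y).1
  · rw [hmem r y d hd h, ← Ideal.mem_comap, ← h𝔮', (hP y).2,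
      Fermat.Agent.S37.RatPlace.isValueAt_zero_iff, Fermat.Agent.S37.RatPlace.isValueAt_zero_iff,
      P.toValuationSubring.mem_nonunits_iff, P.toValuationSubring.mem_nonunits_iff, h4]

end Localization

/-! ### The order of a local generator of the kernel of a section -/

section LocalGen

variable {K F L : Type*} [Field K] [Field F] [Algebra K F] [Field L]
  (A : ValuationSubring K) (ι : L →+* K) (W : ValuationSubring L)
  {B : Type*} [CommRing B] [IsDomain B] [IsNoetherianRing B] [Algebra W B]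
  (ψ : B →+* F)

/-- **The order of a local generator.**  `P` is a rational unramified place in the class of `𝔫`
(`RatAtB`), `t` generates the ideal of `P` locally at `𝔫`, and the ideal of `P` is the only prime
inside `𝔫` containing `t` and not `π`.  Then at every place `Q` through the local ring of the
chart at `𝔫`, the order of `t` is `1` if `Q = P` and `0` otherwise. -/
theorem ord_localGen (hψ : Function.Injective ψ)
    (hψW : ∀ w : W, ψ (algebraMap W B w) = algebraMap K F (ι w))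
    (π : W) (hπ0 : π ≠ 0)
    (𝔫 : Ideal B) [h𝔫 : 𝔫.IsMaximal] (t : B) (ht0 : t ≠ 0)
    (P : Place K F) (hP : InClass A ψ 𝔫 P) (hR : RatAtB ι ψ P)
    (htP : IsValueAt P (ψ t) 0)
    (hgen : ∀ y : B, IsValueAt P (ψ y) 0 → ∃ d : B, d ∉ 𝔫 ∧ ∃ c : B, d * y = t * c)
    (honly : ∀ 𝔮 : Ideal B, 𝔮.IsPrime → t ∈ 𝔮 → algebraMap W B π ∉ 𝔮 → 𝔮 ≤ 𝔫 →
      ∀ y ∈ 𝔮, IsValueAt P (ψ y) 0)
    (Q : Place K F) (hQ : ∀ y : B, ψ y ∈ Q.toValuationSubring)
    (hQ𝔫 : ∀ y : B, ψ y ∈ Q.toValuationSubring.nonunits → y ∈ 𝔫) :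
    (Q = P → Q.ord (ψ t) = 1) ∧ (Q ≠ P → Q.ord (ψ t) = 0) := by
  have hψ0 : ∀ y : B, y ≠ 0 → ψ y ≠ 0 := fun y hy h => hy (hψ (by rw [h, map_zero]))
  have hordP : P.ord (ψ t) = 1 :=
    (eq_and_ord_eq_one A ι ψ hψ 𝔫 t ht0 P P hP hP htP htP hgen hgen hR).2
  refine ⟨fun h => h ▸ hordP, fun hne => ?_⟩
  by_contra hord
  apply hne
  have htQ : ψ t ∈ Q.toValuationSubring.nonunits := by
    by_contra hnot
    exact hord (ord_eq_zero_of_mem_of_notMem_nonunits (hQ t) hnot)
  -- the zero ideal of `Q`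
  let f : B →+* Q.toValuationSubring :=
    { toFun := fun y => ⟨ψ y, hQ y⟩
      map_one' := Subtype.ext (map_one ψ)
      map_mul' := fun x y => Subtype.ext (map_mul ψ x y)
      map_zero' := Subtype.ext (map_zero ψ)
      map_add' := fun x y => Subtype.ext (map_add ψ x y) }
  set 𝔮 : Ideal B := (IsLocalRing.maximalIdeal Q.toValuationSubring).comap f with h𝔮
  have hmem𝔮 : ∀ y : B, y ∈ 𝔮 ↔ ψ y ∈ Q.toValuationSubring.nonunits := by
    intro y
    rw [h𝔮, Ideal.mem_comap]
    exact (ValuationSubring.coe_mem_nonunits_iff (a := f y)).symm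
  have h𝔮p : 𝔮.IsPrime := Ideal.comap_isPrime _ _
  have hπ𝔮 : algebraMap W B π ∉ 𝔮 := by
    rw [hmem𝔮, hψW]
    refine algebraMap_notMem_nonunits Q ?_
    intro h0
    exact hπ0 (Subtype.ext ((map_eq_zero ι).mp h0))
  have h𝔮P : ∀ y ∈ 𝔮, IsValueAt P (ψ y) 0 :=
    honly 𝔮 h𝔮p ((hmem𝔮 t).mpr htQ) hπ𝔮 (fun y hy => hQ𝔫 y ((hmem𝔮 y).mp hy))
  have he : 0 < Q.ord (ψ t) := ord_pos_of_mem_nonunits htQ (hψ0 t ht0)
  have key : ∀ y : B, y ≠ 0 →
      ∃ k : ℕ, P.ord (ψ y) = k ∧ Q.ord (ψ y) = k * Q.ord (ψ t) := by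
    intro y hy
    obtain ⟨k, s, c, hs, hc, hsy⟩ :=
      exists_pow_mul A ψ hψ 𝔫 t ht0 P hP htP hgen (P.ord (ψ y)).toNat y hy le_rfl
    have hc0 : c ≠ 0 := by
      rintro rfl
      apply hc
      rw [map_zero]
      simpa using isValueAt_algebraMap P (0 : K)
    have hs0 : s ≠ 0 := by
      rintro rfl
      exact hs (zero_mem _)
    have e1 : ψ s * ψ y = ψ t ^ k * ψ c := by rw [← map_mul, hsy, map_mul, map_pow]
    refine ⟨k, ?_, ?_⟩
    · have h1 := congrArg P.ord e1
      rw [P.ord_mul (hψ0 s hs0) (hψ0 y hy), P.ord_mul (pow_ne_zero k (hψ0 t ht0)) (hψ0 c hc0),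
        ord_pow, hordP, ord_eq_zero_of_notMem A ψ hP hs,
        ord_eq_zero_of_not_isValueAt_zero A ψ hP.1 hc] at h1
      linarith
    · have hsQ : Q.ord (ψ s) = 0 :=
        ord_eq_zero_of_mem_of_notMem_nonunits (hQ s) (fun h => hs (hQ𝔫 s h))
      have hcQ : Q.ord (ψ c) = 0 :=
        ord_eq_zero_of_mem_of_notMem_nonunits (hQ c)
          (fun h => hc (h𝔮P c ((hmem𝔮 c).mpr h)))
      have h1 := congrArg Q.ord e1
      rw [Q.ord_mul (hψ0 s hs0) (hψ0 y hy), Q.ord_mul (pow_ne_zero k (hψ0 t ht0)) (hψ0 c hc0),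
        ord_pow, hsQ, hcQ] at h1
      linarith
  apply hR.2.2 Q
  intro y₁ y₂ hy₁ hy₂
  obtain ⟨k₁, hP1, hQ1⟩ := key y₁ hy₁
  obtain ⟨k₂, hP2, hQ2⟩ := key y₂ hy₂
  rw [hP1, hP2, hQ1, hQ2]
  constructor
  · intro h
    exact le_of_mul_le_mul_right h he
  · intro h
    exact mul_le_mul_of_nonneg_right h he.le

end LocalGen

/-! ### Transport of sections by semilinear automorphisms -/

section Transport

variable {K F L : Type*} [Field K] [Field F] [Algebra K F] [Field L]
  {ι : L →+* K} {W : ValuationSubring L}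
  {B : Type*} [CommRing B] [IsDomain B] [IsNoetherianRing B] [Algebra W B]
  {ψ : B →+* F}

/-- **Transport of sections**: `s_{gP} ∘ τ_B = τ_W ∘ s_P` for a semilinear automorphism `g` of
`F` acting compatibly (`τ_B`, `τ_W`) on the chart and on `W`. -/
theorem IsSectionOf.smul {P : Place K F} {s : B →ₐ[W] W} (hs : IsSectionOf ι W ψ P s)
    (g : SemilinearAut K F) (τB : B → B) (τW : W → W)
    (hτψ : ∀ y : B, ψ (τB y) = g • ψ y)
    (hτι : ∀ w : W, ι (τW w) = SemilinearAut.baseAut g (ι w))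
    {s' : B →ₐ[W] W} (hs' : IsSectionOf ι W ψ (g • P) s') (y : B) :
    s' (τB y) = τW (s y) := by
  apply hs'.eq_of_isValueAt
  rw [hτψ, hτι]
  exact (hs y).smul g

/-- the value of a `g`-fixed chart function at `g P` is the conjugate of its value at `P` -/
theorem IsSectionOf.smul_fixed {P : Place K F} {s : B →ₐ[W] W} (hs : IsSectionOf ι W ψ P s)
    (g : SemilinearAut K F) (τW : W → W)
    (hτι : ∀ w : W, ι (τW w) = SemilinearAut.baseAut g (ι w))
    {s' : B →ₐ[W] W} (hs' : IsSectionOf ι W ψ (g • P) s') {X : B} (hX : g • ψ X = ψ X) :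
    s' X = τW (s X) := by
  apply hs'.eq_of_isValueAt
  rw [← hX, hτι]
  exact (hs X).smul g

end Transport

/-! ### Units of the chart from orders at places (Hartogs bridge) -/

section Bridge

variable {K F L : Type*} [Field K] [Field F] [Algebra K F] [Field L]
  (W : ValuationSubring L)
  {B : Type*} [CommRing B] [IsDomain B] [IsNoetherianRing B] [Algebra W B]
  [IsIntegrallyClosed B]
  (ψ : B →+* F)

/-- at a prime minimal over a nonzero principal ideal which is the zero ideal of a place `Q`, two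
chart functions with the same order at `Q` differ by a unit of the localisation -/
theorem exists_mul_eq_of_ord_eq (hψ : Function.Injective ψ) (c₀ : B) (hc₀ : c₀ ≠ 0)
    (𝔭 : Ideal B) (h𝔭 : 𝔭 ∈ (Ideal.span {c₀} : Ideal B).minimalPrimes)
    (Q : Place K F)
    (hQ : ∀ y : B, ψ y ∈ Q.toValuationSubring ∧ (y ∈ 𝔭 ↔ IsValueAt Q (ψ y) 0))
    (a b : B) (ha : a ≠ 0) (hb : b ≠ 0) (hord : Q.ord (ψ a) = Q.ord (ψ b)) :
    ∃ s : B, s ∉ 𝔭 ∧ ∃ t : B, t ∉ 𝔭 ∧ t * b = s * a := by
  have h𝔭p : 𝔭.IsPrime := h𝔭.1.1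
  have hψ0 : ∀ y : B, y ≠ 0 → ψ y ≠ 0 := fun y hy h => hy (hψ (by rw [h, map_zero]))
  obtain ⟨t₁, ht₁𝔭, ht₁0, hfac⟩ := HeightOne.exists_uniformizer c₀ hc₀ 𝔭 h𝔭
  have hunit : ∀ x : B, x ∉ 𝔭 → Q.ord (ψ x) = 0 := by
    intro x hx
    refine ord_eq_zero_of_mem_of_notMem_nonunits (hQ x).1 ?_
    intro h
    exact hx ((hQ x).2.mpr ((Fermat.Agent.S37.RatPlace.isValueAt_zero_iff Q _).mpr h))
  have he : 0 < Q.ord (ψ t₁) :=
    ord_pos_of_isValueAt_zero ((hQ t₁).2.mp ht₁𝔭) (hψ0 t₁ ht₁0)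
  have key : ∀ y : B, y ≠ 0 → ∀ (k : ℕ) (s d : B), s ∉ 𝔭 → d ∉ 𝔭 → s * y = t₁ ^ k * d →
      Q.ord (ψ y) = k * Q.ord (ψ t₁) := by
    intro y hy k s d hs hd h
    have hs0 : s ≠ 0 := by
      rintro rfl
      exact hs (zero_mem _)
    have hd0 : d ≠ 0 := by
      rintro rfl
      exact hd (zero_mem _)
    have e1 : ψ s * ψ y = ψ t₁ ^ k * ψ d := by rw [← map_mul, h, map_mul, map_pow]
    have h1 := congrArg Q.ord e1
    rw [Q.ord_mul (hψ0 s hs0) (hψ0 y hy), Q.ord_mul (pow_ne_zero k (hψ0 t₁ ht₁0)) (hψ0 d hd0),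
      ord_pow, hunit s hs, hunit d hd] at h1
    linarith
  obtain ⟨ka, sa, da, hsa, hda, hea⟩ := hfac a ha
  obtain ⟨kb, sb, db, hsb, hdb, heb⟩ := hfac b hb
  have h1 := key a ha ka sa da hsa hda hea
  have h2 := key b hb kb sb db hsb hdb heb
  have hk : ka = kb := by
    rw [h1, h2] at hord
    have := mul_right_cancel₀ he.ne' hord
    exact_mod_cast this
  refine ⟨sa * db, fun h => (h𝔭p.mem_or_mem h).elim hsa hdb,
    sb * da, fun h => (h𝔭p.mem_or_mem h).elim hsb hda, ?_⟩
  calc sb * da * b = da * (sb * b) := by ring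
    _ = da * (t₁ ^ kb * db) := by rw [heb]
    _ = db * (t₁ ^ ka * da) := by rw [hk]; ring
    _ = db * (sa * a) := by rw [hea]
    _ = sa * db * a := by ring

/-- **Hartogs bridge.**  `B` a noetherian integrally closed chart such that every horizontal
prime is the zero ideal of a place.  Two nonzero chart functions `a, b` whose quotient is a unit
at the vertical primes (those minimal over a principal ideal and containing `π`) and which have
the same order at every place through the chart are associated. -/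
theorem associated_of_ord_eq (hψ : Function.Injective ψ) (π : W)
    (hext : ∀ 𝔮 : Ideal B, 𝔮.IsPrime → 𝔮 ≠ ⊥ → algebraMap W B π ∉ 𝔮 →
      ∃ P : Place K F, ∀ y : B, ψ y ∈ P.toValuationSubring ∧ (y ∈ 𝔮 ↔ IsValueAt P (ψ y) 0))
    (a b : B) (ha : a ≠ 0) (hb : b ≠ 0)
    (hvert : ∀ c : B, c ≠ 0 → ∀ 𝔭 ∈ (Ideal.span {c} : Ideal B).minimalPrimes,
      algebraMap W B π ∈ 𝔭 → ∃ s : B, s ∉ 𝔭 ∧ ∃ t : B, t ∉ 𝔭 ∧ t * b = s * a)
    (hhor : ∀ Q : Place K F, (∀ y : B, ψ y ∈ Q.toValuationSubring) →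
      Q.ord (ψ a) = Q.ord (ψ b)) :
    ∃ u : Bˣ, a = u * b := by
  refine Hartogs.associated_of_forall a b ha hb (fun c hc 𝔭 h𝔭 => ?_)
  by_cases hπ : algebraMap W B π ∈ 𝔭
  · exact hvert c hc 𝔭 h𝔭 hπ
  · have h𝔭0 : 𝔭 ≠ ⊥ := by
      intro h0
      have hc𝔭 : c ∈ 𝔭 := h𝔭.1.2 (Ideal.subset_span rfl)
      rw [h0, Ideal.mem_bot] at hc𝔭
      exact hc hc𝔭
    obtain ⟨Q, hQ⟩ := hext 𝔭 h𝔭.1.1 h𝔭0 hπ
    exact exists_mul_eq_of_ord_eq ψ hψ c hc 𝔭 h𝔭 Q hQ a b ha hb (hhor Q (fun y => (hQ y).1))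

end Bridge

end Fermat.Agent.S34.Sections
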