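import Mathlib
import Fermat.Agent.S34.Sections
import Fermat.Agent.S34.NodeLoc
import Fermat.Agent.S34.GenAt

/-!
# S34, package B3 (bridge): local equations of sections in the currency of places

Continuation of `Sections.lean`.

* `ord_localEq` : the order of a local equation `t` of a rational unramified place `P` of a chart
  at every place through the point `𝔫`, with WEAK denominators (`d * y = t * c` with `d` not
  vanishing at `P`; at a node the denominator is a constant of the maximal ideal).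
* `exists_localEq_of_good`, `ord_of_isLocalGen` : the same from `NodeLoc.Good` /
  `GenAt.IsLocalGen` for the section of `P` on the local ring of the chart.
* `Through` : the places through a point of the chart, and their transport by semilinear
  automorphisms.
* `exists_notMem_dvd` : Hartogs' lemma, local form (`b ∣ d * a` with `d ∉ 𝔫` as soon as this holds
  at the primes `𝔭 ≤ 𝔫` minimal over `(b)`), with the suppliers `exists_notMem_dvd_of_valuation`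
  (a valuation ring dominating `B_𝔭`), `exists_notMem_dvd_of_place` (a place with zero ideal `𝔭`),
  `eq_of_le_of_mem_minimalPrimes` (Krull), and the packaged `exists_integral_multiple`.
-/

set_option autoImplicit false
set_option linter.unusedSectionVars false
set_option linter.unusedVariables false

namespace Fermat.Agent.S34.SectionsLoc

open AlgebraicCurve Fermat.Agent.S37.GaloisValue Fermat.Agent.S37.WChart
open Fermat.Agent.S34.Sections

section Weak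

variable {K F L : Type*} [Field K] [Field F] [Algebra K F] [Field L]
  (ι : L →+* K) (W : ValuationSubring L)
  {B : Type*} [CommRing B] [IsDomain B] [IsNoetherianRing B] [Algebra W B]
  (ψ : B →+* F)

/-- a chart function regular and not vanishing at `P` has order `0` -/
theorem ord_eq_zero_of_not_isValueAt {P : Place K F}
    (hPB : ∀ y : B, ψ y ∈ P.toValuationSubring) {d : B} (hd : ¬ IsValueAt P (ψ d) 0) :
    P.ord (ψ d) = 0 :=
  ord_eq_zero_of_mem_of_notMem_nonunits (hPB d)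
    (fun h => hd ((Fermat.Agent.S37.RatPlace.isValueAt_zero_iff P _).mpr h))

theorem isValueAt_zero_zero (P : Place K F) : IsValueAt P (ψ 0) 0 := by
  rw [map_zero]
  simpa using isValueAt_algebraMap P (0 : K)

/-- the chart functions not vanishing at `P` are closed under products -/
theorem not_isValueAt_mul {P : Place K F}
    (hPB : ∀ y : B, ψ y ∈ P.toValuationSubring) {d d' : B} (hd : ¬ IsValueAt P (ψ d) 0)
    (hd' : ¬ IsValueAt P (ψ d') 0) : ¬ IsValueAt P (ψ (d * d')) 0 := by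
  intro h
  have hd0 : ψ d ≠ 0 := by
    intro h0
    apply hd
    rw [h0]
    simpa using isValueAt_algebraMap P (0 : K)
  have hd0' : ψ d' ≠ 0 := by
    intro h0
    apply hd'
    rw [h0]
    simpa using isValueAt_algebraMap P (0 : K)
  have h1 := ord_pos_of_isValueAt_zero h (by rw [map_mul]; exact mul_ne_zero hd0 hd0')
  rw [map_mul, P.ord_mul hd0 hd0', ord_eq_zero_of_not_isValueAt ψ hPB hd,
    ord_eq_zero_of_not_isValueAt ψ hPB hd', add_zero] at h1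
  exact lt_irrefl (0 : ℤ) h1

/-- **Factorisation by the order, weak denominators.**  Every nonzero chart function is a power
of `t` times a function not vanishing at `P`, up to a factor not vanishing at `P`. -/
theorem exists_pow_mul_weak (hψ : Function.Injective ψ) (t : B) (ht0 : t ≠ 0)
    (P : Place K F) (hPB : ∀ y : B, ψ y ∈ P.toValuationSubring)
    (ht : IsValueAt P (ψ t) 0)
    (hgen : ∀ y : B, IsValueAt P (ψ y) 0 →
      ∃ d : B, ¬ IsValueAt P (ψ d) 0 ∧ ∃ c : B, d * y = t * c) :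
    ∀ (n : ℕ) (y : B), y ≠ 0 → (P.ord (ψ y)).toNat ≤ n →
      ∃ (k : ℕ) (d c : B), ¬ IsValueAt P (ψ d) 0 ∧ ¬ IsValueAt P (ψ c) 0 ∧
        d * y = t ^ k * c := by
  have hψ0 : ∀ y : B, y ≠ 0 → ψ y ≠ 0 := fun y hy h => hy (hψ (by rw [h, map_zero]))
  have h1 : ¬ IsValueAt P (ψ (1 : B)) 0 := by
    intro h
    have h2 : IsValueAt P (ψ (1 : B)) 1 := by
      rw [map_one]
      simpa using isValueAt_algebraMap P (1 : K)
    exact zero_ne_one (h.unique h2)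
  have htpos : 0 < P.ord (ψ t) := ord_pos_of_isValueAt_zero ht (hψ0 t ht0)
  intro n
  induction n with
  | zero =>
    intro y hy hn
    by_cases hyv : IsValueAt P (ψ y) 0
    · exfalso
      have h1 : 0 < P.ord (ψ y) := ord_pos_of_isValueAt_zero hyv (hψ0 y hy)
      have h2 : P.ord (ψ y) ≤ ((0 : ℕ) : ℤ) := Int.toNat_le.mp hn
      omega
    · exact ⟨0, 1, y, h1, hyv, by ring⟩
  | succ n ih =>
    intro y hy hn
    by_cases hyv : IsValueAt P (ψ y) 0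
    · obtain ⟨d, hd, c, hdc⟩ := hgen y hyv
      have hd0 : d ≠ 0 := by
        rintro rfl
        exact hd (isValueAt_zero_zero ψ P)
      have hc0 : c ≠ 0 := by
        rintro rfl
        rw [mul_zero] at hdc
        exact (mul_ne_zero hd0 hy) hdc
      have e1 : P.ord (ψ d) + P.ord (ψ y) = P.ord (ψ t) + P.ord (ψ c) := by
        rw [← P.ord_mul (hψ0 d hd0) (hψ0 y hy), ← P.ord_mul (hψ0 t ht0) (hψ0 c hc0),
          ← map_mul, ← map_mul, hdc]
      have h2 : P.ord (ψ d) = 0 := ord_eq_zero_of_not_isValueAt ψ hPB hd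
      have h3 : P.ord (ψ y) ≤ ((n + 1 : ℕ) : ℤ) := Int.toNat_le.mp hn
      have h4 : (P.ord (ψ c)).toNat ≤ n := by
        rw [Int.toNat_le]
        push_cast at h3
        omega
      obtain ⟨k, d', c', hd', hc', hdc'⟩ := ih c hc0 h4
      refine ⟨k + 1, d' * d, c', not_isValueAt_mul ψ hPB hd' hd, hc', ?_⟩
      calc d' * d * y = d' * (d * y) := by ring
        _ = d' * (t * c) := by rw [hdc]
        _ = t * (d' * c) := by ring
        _ = t * (t ^ k * c') := by rw [hdc']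
        _ = t ^ (k + 1) * c' := by ring
    · exact ⟨0, 1, y, h1, hyv, by ring⟩

/-- **The order of a local equation, weak denominators.**  `P` is a rational unramified place
through the chart (`RatAtB`), `t` generates the zero ideal of `P` up to factors not vanishing at
`P`, and the zero ideal of `P` is the only prime inside `𝔫` containing `t` and not `π`.  Then at
every place `Q` through the point `𝔫` of the chart, the order of `t` is `1` if `Q = P` and `0`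
otherwise. -/
theorem ord_localEq (hψ : Function.Injective ψ)
    (hψW : ∀ w : W, ψ (algebraMap W B w) = algebraMap K F (ι w))
    (π : W) (hπ0 : π ≠ 0) (𝔫 : Ideal B) (t : B) (ht0 : t ≠ 0)
    (P : Place K F) (hPB : ∀ y : B, ψ y ∈ P.toValuationSubring) (hR : RatAtB ι ψ P)
    (htP : IsValueAt P (ψ t) 0)
    (hgen : ∀ y : B, IsValueAt P (ψ y) 0 →
      ∃ d : B, ¬ IsValueAt P (ψ d) 0 ∧ ∃ c : B, d * y = t * c)
    (honly : ∀ 𝔮 : Ideal B, 𝔮.IsPrime → t ∈ 𝔮 → algebraMap W B π ∉ 𝔮 → 𝔮 ≤ 𝔫 →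
      ∀ y ∈ 𝔮, IsValueAt P (ψ y) 0)
    (Q : Place K F) (hQ : ∀ y : B, ψ y ∈ Q.toValuationSubring)
    (hQ𝔫 : ∀ y : B, ψ y ∈ Q.toValuationSubring.nonunits → y ∈ 𝔫) :
    (Q = P → Q.ord (ψ t) = 1) ∧ (Q ≠ P → Q.ord (ψ t) = 0) := by
  have hψ0 : ∀ y : B, y ≠ 0 → ψ y ≠ 0 := fun y hy h => hy (hψ (by rw [h, map_zero]))
  have he : 0 < P.ord (ψ t) := ord_pos_of_isValueAt_zero htP (hψ0 t ht0)
  -- factorisation
  have hfac : ∀ y : B, y ≠ 0 → ∃ (k : ℕ) (d c : B), d ≠ 0 ∧ c ≠ 0 ∧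
      ¬ IsValueAt P (ψ d) 0 ∧ ¬ IsValueAt P (ψ c) 0 ∧ ψ d * ψ y = ψ t ^ k * ψ c ∧
      P.ord (ψ y) = k * P.ord (ψ t) := by
    intro y hy
    obtain ⟨k, d, c, hd, hc, hdy⟩ :=
      exists_pow_mul_weak ψ hψ t ht0 P hPB htP hgen (P.ord (ψ y)).toNat y hy le_rfl
    have hd0 : d ≠ 0 := by
      rintro rfl
      exact hd (isValueAt_zero_zero ψ P)
    have hc0 : c ≠ 0 := by
      rintro rfl
      exact hc (isValueAt_zero_zero ψ P)
    have e1 : ψ d * ψ y = ψ t ^ k * ψ c := by rw [← map_mul, hdy, map_mul, map_pow]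
    refine ⟨k, d, c, hd0, hc0, hd, hc, e1, ?_⟩
    have h1 := congrArg P.ord e1
    rw [P.ord_mul (hψ0 d hd0) (hψ0 y hy), P.ord_mul (pow_ne_zero k (hψ0 t ht0)) (hψ0 c hc0),
      ord_pow, ord_eq_zero_of_not_isValueAt ψ hPB hd,
      ord_eq_zero_of_not_isValueAt ψ hPB hc] at h1
    linarith
  have hordP : P.ord (ψ t) = 1 := by
    obtain ⟨y₁, y₂, hy₁, hy₂, h1⟩ := hR.2.1
    obtain ⟨k₁, -, -, -, -, -, -, -, h12⟩ := hfac y₁ hy₁
    obtain ⟨k₂, -, -, -, -, -, -, -, h22⟩ := hfac y₂ hy₂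
    rw [h12, h22] at h1
    refine Int.eq_one_of_dvd_one he.le ⟨(k₁ : ℤ) - k₂, ?_⟩
    linarith
  refine ⟨fun h => h ▸ hordP, fun hne => ?_⟩
  by_contra hord
  apply hne
  have htQ : ψ t ∈ Q.toValuationSubring.nonunits := by
    by_contra hnot
    exact hord (ord_eq_zero_of_mem_of_notMem_nonunits (hQ t) hnot)
  -- the zero ideal of `Q`
  let f : B →+* Q.toValuationSubring :=
    { toFun := fun y => ⟨ψ y, hQ y⟩
      map_one' := Subtype.ext (map_one ψ)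
      map_mul' := fun x y => Subtype.ext (map_mul ψ x y)
      map_zero' := Subtype.ext (map_zero ψ)
      map_add' := fun x y => Subtype.ext (map_add ψ x y) }
  set 𝔮 : Ideal B := (IsLocalRing.maximalIdeal Q.toValuationSubring).comap f with h𝔮
  have hmem𝔮 : ∀ y : B, y ∈ 𝔮 ↔ ψ y ∈ Q.toValuationSubring.nonunits := by
    intro y
    rw [h𝔮, Ideal.mem_comap]
    exact (ValuationSubring.coe_mem_nonunits_iff (a := f y)).symm
  have h𝔮p : 𝔮.IsPrime := Ideal.comap_isPrime _ _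
  have hπ𝔮 : algebraMap W B π ∉ 𝔮 := by
    rw [hmem𝔮, hψW]
    refine algebraMap_notMem_nonunits Q ?_
    intro h0
    exact hπ0 (Subtype.ext ((map_eq_zero ι).mp h0))
  have h𝔮P : ∀ y ∈ 𝔮, IsValueAt P (ψ y) 0 :=
    honly 𝔮 h𝔮p ((hmem𝔮 t).mpr htQ) hπ𝔮 (fun y hy => hQ𝔫 y ((hmem𝔮 y).mp hy))
  have heQ : 0 < Q.ord (ψ t) := ord_pos_of_mem_nonunits htQ (hψ0 t ht0)
  have key : ∀ y : B, y ≠ 0 →
      ∃ k : ℕ, P.ord (ψ y) = k ∧ Q.ord (ψ y) = k * Q.ord (ψ t) := by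
    intro y hy
    obtain ⟨k, d, c, hd0, hc0, hd, hc, e1, hk⟩ := hfac y hy
    refine ⟨k, by rw [hk, hordP, mul_one], ?_⟩
    have hdQ : Q.ord (ψ d) = 0 :=
      ord_eq_zero_of_mem_of_notMem_nonunits (hQ d)
        (fun h => hd (h𝔮P d ((hmem𝔮 d).mpr h)))
    have hcQ : Q.ord (ψ c) = 0 :=
      ord_eq_zero_of_mem_of_notMem_nonunits (hQ c)
        (fun h => hc (h𝔮P c ((hmem𝔮 c).mpr h)))
    have h1 := congrArg Q.ord e1
    rw [Q.ord_mul (hψ0 d hd0) (hψ0 y hy), Q.ord_mul (pow_ne_zero k (hψ0 t ht0)) (hψ0 c hc0),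
      ord_pow, hdQ, hcQ] at h1
    linarith
  apply hR.2.2 Q
  intro y₁ y₂ hy₁ hy₂
  obtain ⟨k₁, hP1, hQ1⟩ := key y₁ hy₁
  obtain ⟨k₂, hP2, hQ2⟩ := key y₂ hy₂
  rw [hP1, hP2, hQ1, hQ2]
  constructor
  · intro h
    exact le_of_mul_le_mul_right h heQ
  · intro h
    exact mul_le_mul_of_nonneg_right h heQ.le

end Weak

section Good

variable {K F L : Type*} [Field K] [Field F] [Algebra K F] [Field L]
  (ι : L →+* K) (W : ValuationSubring L)
  {R : Type*} [CommRing R] [IsDomain R] [IsNoetherianRing R] [IsLocalRing R] [Algebra W R]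
  (ψ : R →+* F)

/-- on a local chart, the zero ideal of a place through the chart lies in the maximal ideal -/
theorem mem_maximalIdeal_of_mem_nonunits {Q : Place K F}
    (hQ : ∀ r : R, ψ r ∈ Q.toValuationSubring) (r : R)
    (h : ψ r ∈ Q.toValuationSubring.nonunits) : r ∈ IsLocalRing.maximalIdeal R := by
  rw [IsLocalRing.mem_maximalIdeal, mem_nonunits_iff]
  intro hu
  obtain ⟨r', hr'⟩ := hu.exists_right_inv
  have h1 : ψ r * ψ r' = 1 := by rw [← map_mul, hr', map_one]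
  have h2 : Q.toValuationSubring.valuation (ψ r) < 1 :=
    Q.toValuationSubring.mem_nonunits_iff.mp h
  have h3 : Q.toValuationSubring.valuation (ψ r') ≤ 1 :=
    (Q.toValuationSubring.valuation_le_one_iff _).mpr (hQ r')
  have h4 := congrArg Q.toValuationSubring.valuation h1
  rw [map_mul, map_one] at h4
  have h5 : Q.toValuationSubring.valuation (ψ r) * Q.toValuationSubring.valuation (ψ r') < 1 := by
    calc Q.toValuationSubring.valuation (ψ r) * Q.toValuationSubring.valuation (ψ r')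
        ≤ Q.toValuationSubring.valuation (ψ r) * 1 := by gcongr
      _ = Q.toValuationSubring.valuation (ψ r) := mul_one _
      _ < 1 := h2
  exact absurd h4 h5.ne

/-- **The order of a local equation of a section** (local chart).  `s` is the section of the
rational unramified place `P`, `h ∈ ker s` generates `ker s` up to factors outside `ker s`, and
`ker s` is the only prime containing `h` and not `ϖ`.  Then `ord_P h = 1` and `ord_Q h = 0` at
every other place through the chart. -/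
theorem ord_of_localEq (hψ : Function.Injective ψ)
    (hψW : ∀ w : W, ψ (algebraMap W R w) = algebraMap K F (ι w))
    (ϖ : W) (hϖ0 : ϖ ≠ 0) (P : Place K F) (s : R →ₐ[W] W) (hs : IsSectionOf ι W ψ P s)
    (hR : RatAtB ι ψ P) (h : R) (hh : s h = 0)
    (honly : ∀ 𝔮 : Ideal R, 𝔮.IsPrime → algebraMap W R ϖ ∉ 𝔮 → h ∈ 𝔮 →
      𝔮 = RingHom.ker (s : R →+* W))
    (hgen : ∀ b : R, s b = 0 → ∃ d : R, s d ≠ 0 ∧ h ∣ d * b) :
    h ≠ 0 ∧ P.ord (ψ h) = 1 ∧
      ∀ Q : Place K F, (∀ r : R, ψ r ∈ Q.toValuationSubring) → Q ≠ P → Q.ord (ψ h) = 0 := by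
  have hPB : ∀ y : R, ψ y ∈ P.toValuationSubring := fun y => (hs y).mem
  have hh0 : h ≠ 0 := by
    rintro rfl
    obtain ⟨y₁, y₂, hy₁, hy₂, h1⟩ := hR.2.1
    have hne : ∀ y : R, y ≠ 0 → P.ord (ψ y) = 0 := by
      intro y hy
      apply ord_eq_zero_of_not_isValueAt ψ hPB
      intro hv
      obtain ⟨d, hd, c, hc⟩ := hgen y ((hs.eq_zero_iff y).mpr hv)
      rw [zero_mul] at hc
      rcases mul_eq_zero.mp hc with h0 | h0
      · exact hd (by rw [h0, map_zero])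
      · exact hy h0
    rw [hne y₁ hy₁, hne y₂ hy₂, sub_zero] at h1
    exact zero_ne_one (α := ℤ) h1
  have hgen' : ∀ y : R, IsValueAt P (ψ y) 0 →
      ∃ d : R, ¬ IsValueAt P (ψ d) 0 ∧ ∃ c : R, d * y = h * c := by
    intro y hy
    obtain ⟨d, hd, c, hc⟩ := hgen y ((hs.eq_zero_iff y).mpr hy)
    exact ⟨d, fun hv => hd ((hs.eq_zero_iff d).mpr hv), c, hc⟩
  have honly' : ∀ 𝔮 : Ideal R, 𝔮.IsPrime → h ∈ 𝔮 → algebraMap W R ϖ ∉ 𝔮 →
      𝔮 ≤ IsLocalRing.maximalIdeal R → ∀ y ∈ 𝔮, IsValueAt P (ψ y) 0 := by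
    intro 𝔮 h𝔮 hh𝔮 hϖ𝔮 _ y hy
    rw [honly 𝔮 h𝔮 hϖ𝔮 hh𝔮] at hy
    exact (hs.eq_zero_iff y).mp hy
  have hmain := fun Q hQ => ord_localEq ι W ψ hψ hψW ϖ hϖ0 (IsLocalRing.maximalIdeal R) h hh0 P
    hPB hR ((hs.eq_zero_iff h).mp hh) hgen' honly' Q hQ (mem_maximalIdeal_of_mem_nonunits ψ hQ)
  exact ⟨hh0, (hmain P hPB).1 rfl, fun Q hQ hne => (hmain Q hQ).2 hne⟩

/-- **(LOC) in the currency of places**, from `NodeLoc.Good`. -/
theorem exists_localEq_of_good (hψ : Function.Injective ψ)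
    (hψW : ∀ w : W, ψ (algebraMap W R w) = algebraMap K F (ι w))
    (ϖ : W) (hϖ0 : ϖ ≠ 0) (P : Place K F) (s : R →ₐ[W] W) (hs : IsSectionOf ι W ψ P s)
    (hR : RatAtB ι ψ P) (hgood : NodeLoc.Good ϖ s) :
    ∃ h : R, h ≠ 0 ∧ s h = 0 ∧ P.ord (ψ h) = 1 ∧
      ∀ Q : Place K F, (∀ r : R, ψ r ∈ Q.toValuationSubring) → Q ≠ P → Q.ord (ψ h) = 0 := by
  obtain ⟨h, hh, honly, d, hd, hgen⟩ := hgood
  obtain ⟨h0, h1, h2⟩ := ord_of_localEq ι W ψ hψ hψW ϖ hϖ0 P s hs hR h hh honly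
    (fun b hb => ⟨d, hd, hgen b hb⟩)
  exact ⟨h, h0, hh, h1, h2⟩

/-- **(LOC) in the currency of places**, from `GenAt.IsLocalGen`. -/
theorem ord_of_isLocalGen (hψ : Function.Injective ψ)
    (hψW : ∀ w : W, ψ (algebraMap W R w) = algebraMap K F (ι w))
    (ϖ : W) (hϖ0 : ϖ ≠ 0) (P : Place K F) (s : R →ₐ[W] W) (hs : IsSectionOf ι W ψ P s)
    (hR : RatAtB ι ψ P) (f : R) (hf : GenAt.IsLocalGen ϖ s f) :
    f ≠ 0 ∧ P.ord (ψ f) = 1 ∧
      ∀ Q : Place K F, (∀ r : R, ψ r ∈ Q.toValuationSubring) → Q ≠ P → Q.ord (ψ f) = 0 := by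
  obtain ⟨hf1, hf2, hf3⟩ := hf
  refine ord_of_localEq ι W ψ hψ hψW ϖ hϖ0 P s hs hR f (RingHom.mem_ker.mp hf1)
    (fun 𝔮 h𝔮 hϖ hmem => hf3 𝔮 h𝔮 hmem hϖ) ?_
  intro b hb
  obtain ⟨t, ht, hdvd⟩ := hf2 b (RingHom.mem_ker.mpr hb)
  exact ⟨t, fun h0 => ht (RingHom.mem_ker.mpr h0), hdvd⟩

end Good

section ThroughSec

variable {K F : Type*} [Field K] [Field F] [Algebra K F]
  {B : Type*} [CommRing B] (ψ : B →+* F)

/-- the place `Q` passes through the point `𝔫` of the chart: the chart functions are regular at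
`Q` and those vanishing at `Q` lie in `𝔫` -/
def Through (𝔫 : Ideal B) (Q : Place K F) : Prop :=
  (∀ y : B, ψ y ∈ Q.toValuationSubring) ∧
    ∀ y : B, ψ y ∈ Q.toValuationSubring.nonunits → y ∈ 𝔫

variable {ψ}

theorem Through.mono {𝔫 𝔫' : Ideal B} (h : 𝔫 ≤ 𝔫') {Q : Place K F} (hQ : Through ψ 𝔫 Q) :
    Through ψ 𝔫' Q :=
  ⟨hQ.1, fun y hy => h (hQ.2 y hy)⟩

/-- the order of a chart function outside `𝔫` at a place through `𝔫` is `0` -/
theorem Through.ord_eq_zero {𝔫 : Ideal B} {Q : Place K F} (hQ : Through ψ 𝔫 Q) {d : B}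
    (hd : d ∉ 𝔫) : Q.ord (ψ d) = 0 :=
  ord_eq_zero_of_mem_of_notMem_nonunits (hQ.1 d) (fun h => hd (hQ.2 d h))

/-- transport of the places through a point by a semilinear automorphism acting on the chart and
stabilising the point -/
theorem Through.smul (g : SemilinearAut K F) (τB : B ≃+* B)
    (hτψ : ∀ y : B, ψ (τB y) = g • ψ y) {𝔫 : Ideal B} (h𝔫 : ∀ y ∈ 𝔫, τB y ∈ 𝔫)
    {Q : Place K F} (hQ : Through ψ 𝔫 Q) : Through ψ 𝔫 (g • Q) := by
  have key : ∀ y : B, ψ y = g • ψ (τB.symm y) := by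
    intro y
    rw [← hτψ, RingEquiv.apply_symm_apply]
  refine ⟨fun y => ?_, fun y hy => ?_⟩
  · rw [key y, smul_mem_smul_place_iff]
    exact hQ.1 _
  · rw [key y, smul_mem_nonunits_smul_place_iff] at hy
    have := h𝔫 _ (hQ.2 _ hy)
    rwa [RingEquiv.apply_symm_apply] at this

end ThroughSec

section ThroughClass

variable {K F L : Type*} [Field K] [Field F] [Algebra K F] [Field L]
  (A : ValuationSubring K) (ι : L →+* K) (W : ValuationSubring L)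
  {B : Type*} [CommRing B] [IsDomain B] [IsNoetherianRing B] [Algebra W B]
  (ψ : B →+* F)

/-- an integral point of the chart with centre `𝔫` passes through `𝔫` -/
theorem through_of_inClass {𝔫 : Ideal B} {P : Place K F} (hP : InClass A ψ 𝔫 P) :
    Through ψ 𝔫 P := by
  refine ⟨fun y => ?_, fun y hy => ?_⟩
  · obtain ⟨c, -, hc⟩ := hP.1 y
    exact hc.mem
  · exact (hP.2 y).mpr ⟨0, by rw [map_zero]; exact zero_lt_one,
      (Fermat.Agent.S37.RatPlace.isValueAt_zero_iff P _).mpr hy⟩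

/-- the places through the local ring `B_𝔫` are the places through the point `𝔫` -/
theorem through_iff_localization
    {R : Type*} [CommRing R] [IsDomain R] [IsNoetherianRing R] [Algebra W R] [Algebra B R]
    [IsScalarTower W B R] [IsLocalRing R]
    (ψR : R →+* F) (𝔫 : Ideal B) [𝔫.IsPrime] [IsLocalization.AtPrime R 𝔫]
    (hψR : ∀ y : B, ψR (algebraMap B R y) = ψ y) (Q : Place K F) :
    (∀ r : R, ψR r ∈ Q.toValuationSubring) ↔ Through ψ 𝔫 Q :=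
  forall_mem_localization_iff (R := R) (𝔫 := 𝔫) hψR Q

end ThroughClass

section HartogsLocal

variable {B : Type*} [CommRing B] [IsDomain B] [IsNoetherianRing B] [IsIntegrallyClosed B]

/-- **Hartogs' lemma, local form.**  If `b ∣ s * a` with `s ∉ 𝔭` for every prime `𝔭 ≤ 𝔫` minimal
over `(b)`, then `b ∣ d * a` for some `d ∉ 𝔫`. -/
theorem exists_notMem_dvd (𝔫 : Ideal B) [𝔫.IsPrime] (a b : B) (hb : b ≠ 0)
    (h : ∀ 𝔭 ∈ (Ideal.span {b} : Ideal B).minimalPrimes, 𝔭 ≤ 𝔫 →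
      ∃ s : B, s ∉ 𝔭 ∧ b ∣ s * a) :
    ∃ d : B, d ∉ 𝔫 ∧ b ∣ d * a := by
  set R := Localization.AtPrime 𝔫
  have hinj : Function.Injective (algebraMap B R) :=
    IsLocalization.injective R 𝔫.primeCompl_le_nonZeroDivisors
  have hic : IsIntegrallyClosed R :=
    isIntegrallyClosed_of_isLocalization R 𝔫.primeCompl 𝔫.primeCompl_le_nonZeroDivisors
  have hbR : algebraMap B R b ≠ 0 := fun h0 => hb (hinj (by rw [h0, map_zero]))
  have hdvd : algebraMap B R b ∣ algebraMap B R a := by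
    refine Hartogs.dvd_of_forall_minimalPrimes _ _ hbR ?_
    intro 𝔓 h𝔓
    have hp : 𝔓.IsPrime := h𝔓.1.1
    have e := IsLocalization.minimalPrimes_map 𝔫.primeCompl R (Ideal.span {b})
    rw [Ideal.map_span, Set.image_singleton] at e
    rw [e] at h𝔓
    have h1 : 𝔓.under B ∈ (Ideal.span {b} : Ideal B).minimalPrimes := h𝔓
    have h2 : 𝔓.under B ≤ 𝔫 := by
      have hd := ((IsLocalization.isPrime_iff_isPrime_disjoint 𝔫.primeCompl R 𝔓).mp hp).2
      intro x hx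
      by_contra hx𝔫
      exact Set.disjoint_left.mp hd hx𝔫 hx
    obtain ⟨s, hs, c, hc⟩ := h _ h1 h2
    exact ⟨algebraMap B R s, fun hmem => hs hmem, algebraMap B R c,
      by rw [← map_mul, hc, map_mul]⟩
  obtain ⟨r, hr⟩ := hdvd
  obtain ⟨⟨c, e⟩, hce⟩ := IsLocalization.surj 𝔫.primeCompl r
  refine ⟨e, e.2, c, hinj ?_⟩
  rw [map_mul, map_mul, hr, ← hce]
  ring

/-- **Krull.**  A nonzero prime contained in a prime minimal over a principal ideal equals it. -/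
theorem eq_of_le_of_mem_minimalPrimes (b : B) {𝔭 𝔭' : Ideal B}
    (h𝔭 : 𝔭 ∈ (Ideal.span {b} : Ideal B).minimalPrimes) [h𝔭' : 𝔭'.IsPrime] (h0 : 𝔭' ≠ ⊥)
    (hle : 𝔭' ≤ 𝔭) : 𝔭' = 𝔭 := by
  have h𝔭p : 𝔭.IsPrime := h𝔭.1.1
  have hht : 𝔭.height ≤ 1 :=
    Ideal.height_le_one_of_isPrincipal_of_mem_minimalPrimes (Ideal.span {b}) 𝔭 h𝔭
  by_contra hne
  have hlt : 𝔭' < 𝔭 := lt_of_le_of_ne hle hne
  have hfin : 𝔭.FiniteHeight := by
    rw [Ideal.finiteHeight_iff_lt]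
    right
    exact lt_of_le_of_lt hht (by exact_mod_cast ENat.one_lt_top)
  have h1 : 𝔭'.height < 𝔭.height := Ideal.height_strict_mono_of_isPrime_of_isPrime hlt
  have h2 : 𝔭'.height = 0 := by
    have h3 : 𝔭'.height < 1 := lt_of_lt_of_le h1 hht
    exact Order.lt_one_iff.mp h3
  exact h0 (Ideal.height_eq_zero_iff_eq_bot.mp h2)

/-- **Supplier, valuation form.**  `𝔭` minimal over a nonzero principal ideal, `O` a valuation
ring of a field `F'` containing the chart with `ψ'⁻¹(𝔪_O) = 𝔭`.  If `ψ' a / ψ' b ∈ O` then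
`b ∣ s * a` for some `s ∉ 𝔭`. -/
theorem exists_notMem_dvd_of_valuation {F' : Type*} [Field F'] (ψ' : B →+* F')
    (hψ' : Function.Injective ψ') (c : B) (hc : c ≠ 0) (𝔭 : Ideal B)
    (h𝔭 : 𝔭 ∈ (Ideal.span {c} : Ideal B).minimalPrimes)
    (O : ValuationSubring F') (hO : ∀ y : B, ψ' y ∈ O)
    (hO𝔭 : ∀ y : B, y ∈ 𝔭 ↔ ψ' y ∈ O.nonunits)
    (a b : B) (hb : b ≠ 0) (z : F') (hz : z ∈ O) (hzab : z * ψ' b = ψ' a) :
    ∃ s : B, s ∉ 𝔭 ∧ b ∣ s * a := by
  have h𝔭p : 𝔭.IsPrime := h𝔭.1.1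
  by_cases ha : a = 0
  · exact ⟨1, (Ideal.ne_top_iff_one 𝔭).mp h𝔭p.ne_top, by rw [ha, mul_zero]; exact dvd_zero b⟩
  obtain ⟨t, ht𝔭, ht0, hfac⟩ := HeightOne.exists_uniformizer c hc 𝔭 h𝔭
  obtain ⟨ka, sa, da, hsa, hda, hea⟩ := hfac a ha
  obtain ⟨kb, sb, db, hsb, hdb, heb⟩ := hfac b hb
  have hv1 : ∀ y : B, y ∉ 𝔭 → O.valuation (ψ' y) = 1 := by
    intro y hy
    refine le_antisymm ((O.valuation_le_one_iff _).mpr (hO y)) ?_
    by_contra hlt
    exact hy ((hO𝔭 y).mpr (O.mem_nonunits_iff.mpr (not_le.mp hlt)))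
  have hvt : O.valuation (ψ' t) < 1 := O.mem_nonunits_iff.mp ((hO𝔭 t).mp ht𝔭)
  have hvt0 : O.valuation (ψ' t) ≠ 0 :=
    (Valuation.ne_zero_iff _).mpr (fun h0 => ht0 (hψ' (by rw [h0, map_zero])))
  have hva : O.valuation (ψ' a) = O.valuation (ψ' t) ^ ka := by
    have h1 := congrArg (fun y => O.valuation (ψ' y)) hea
    simp only [map_mul, map_pow] at h1
    rw [hv1 sa hsa, hv1 da hda, one_mul, mul_one] at h1
    exact h1
  have hvb : O.valuation (ψ' b) = O.valuation (ψ' t) ^ kb := by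
    have h1 := congrArg (fun y => O.valuation (ψ' y)) heb
    simp only [map_mul, map_pow] at h1
    rw [hv1 sb hsb, hv1 db hdb, one_mul, mul_one] at h1
    exact h1
  have hle : O.valuation (ψ' a) ≤ O.valuation (ψ' b) := by
    rw [← hzab, map_mul]
    calc O.valuation z * O.valuation (ψ' b) ≤ 1 * O.valuation (ψ' b) := by
          gcongr
          exact (O.valuation_le_one_iff z).mpr hz
      _ = O.valuation (ψ' b) := one_mul _
  rw [hva, hvb] at hle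
  have hk : kb ≤ ka := by
    by_contra hlt
    have h1 : O.valuation (ψ' t) ^ kb < O.valuation (ψ' t) ^ ka :=
      pow_lt_pow_right_of_lt_one₀ (zero_lt_iff.mpr hvt0) hvt (not_le.mp hlt)
    exact absurd hle (not_le.mpr h1)
  obtain ⟨m, rfl⟩ := Nat.exists_eq_add_of_le hk
  refine ⟨db * sa, fun h => (h𝔭p.mem_or_mem h).elim hdb hsa, t ^ m * da * sb, ?_⟩
  calc db * sa * a = db * (sa * a) := by ring
    _ = db * (t ^ (kb + m) * da) := by rw [hea]
    _ = t ^ m * da * (t ^ kb * db) := by rw [pow_add]; ring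
    _ = t ^ m * da * (sb * b) := by rw [heb]
    _ = b * (t ^ m * da * sb) := by ring

/-- **Supplier for the two vertical primes.**  `O₁, O₂` valuation rings containing the chart,
with `ψ'⁻¹(𝔪_{O₁}) ∩ ψ'⁻¹(𝔪_{O₂}) ⊆ ϖ B` (this is (S1)) and `ϖ ∈ 𝔪_{O₁} ∩ 𝔪_{O₂}`.  If
`ψ' a / ψ' b ∈ O₁ ∩ O₂`, then `b ∣ s * a` with `s ∉ 𝔭` at every prime `𝔭 ∋ ϖ` minimal over
`(b)`. -/
theorem exists_notMem_dvd_of_two {F' : Type*} [Field F'] (ψ' : B →+* F')
    (hψ' : Function.Injective ψ') (ϖ : B) (hϖ0 : ϖ ≠ 0)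
    (O₁ O₂ : ValuationSubring F') (hO₁ : ∀ y : B, ψ' y ∈ O₁) (hO₂ : ∀ y : B, ψ' y ∈ O₂)
    (hϖ₁ : ψ' ϖ ∈ O₁.nonunits) (hϖ₂ : ψ' ϖ ∈ O₂.nonunits)
    (hS1 : ∀ y : B, ψ' y ∈ O₁.nonunits → ψ' y ∈ O₂.nonunits → ϖ ∣ y)
    (a b : B) (hb : b ≠ 0) (z : F') (hz₁ : z ∈ O₁) (hz₂ : z ∈ O₂) (hzab : z * ψ' b = ψ' a)
    (𝔭 : Ideal B) (h𝔭 : 𝔭 ∈ (Ideal.span {b} : Ideal B).minimalPrimes) (hϖ : ϖ ∈ 𝔭) :
    ∃ s : B, s ∉ 𝔭 ∧ b ∣ s * a := by
  have h𝔭p : 𝔭.IsPrime := h𝔭.1.1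
  -- the two vertical primes
  have hprime : ∀ O : ValuationSubring F', (∀ y : B, ψ' y ∈ O) →
      ∃ 𝔮 : Ideal B, 𝔮.IsPrime ∧ ∀ y : B, y ∈ 𝔮 ↔ ψ' y ∈ O.nonunits := by
    intro O hO
    let f : B →+* O :=
      { toFun := fun y => ⟨ψ' y, hO y⟩
        map_one' := Subtype.ext (map_one ψ')
        map_mul' := fun x y => Subtype.ext (map_mul ψ' x y)
        map_zero' := Subtype.ext (map_zero ψ')
        map_add' := fun x y => Subtype.ext (map_add ψ' x y) }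
    refine ⟨(IsLocalRing.maximalIdeal O).comap f, Ideal.comap_isPrime _ _, fun y => ?_⟩
    rw [Ideal.mem_comap]
    exact (ValuationSubring.coe_mem_nonunits_iff (a := f y)).symm
  obtain ⟨𝔭₁, h𝔭₁, hm₁⟩ := hprime O₁ hO₁
  obtain ⟨𝔭₂, h𝔭₂, hm₂⟩ := hprime O₂ hO₂
  have hinf : 𝔭₁ ⊓ 𝔭₂ ≤ 𝔭 := by
    intro y hy
    obtain ⟨c, rfl⟩ := hS1 y ((hm₁ y).mp hy.1) ((hm₂ y).mp hy.2)
    exact 𝔭.mul_mem_right c hϖ
  rcases h𝔭p.inf_le.mp hinf with h | h
  · have h0 : 𝔭₁ ≠ ⊥ := fun h0 => hϖ0 (by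
      have : ϖ ∈ 𝔭₁ := (hm₁ ϖ).mpr hϖ₁
      rwa [h0, Ideal.mem_bot] at this)
    have he : 𝔭₁ = 𝔭 := eq_of_le_of_mem_minimalPrimes b h𝔭 h0 h
    exact exists_notMem_dvd_of_valuation ψ' hψ' b hb 𝔭 h𝔭 O₁ hO₁ (fun y => he ▸ hm₁ y) a b hb z
      hz₁ hzab
  · have h0 : 𝔭₂ ≠ ⊥ := fun h0 => hϖ0 (by
      have : ϖ ∈ 𝔭₂ := (hm₂ ϖ).mpr hϖ₂
      rwa [h0, Ideal.mem_bot] at this)
    have he : 𝔭₂ = 𝔭 := eq_of_le_of_mem_minimalPrimes b h𝔭 h0 h
    exact exists_notMem_dvd_of_valuation ψ' hψ' b hb 𝔭 h𝔭 O₂ hO₂ (fun y => he ▸ hm₂ y) a b hb z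
      hz₂ hzab

end HartogsLocal

section HartogsPlaces

variable {K F L : Type*} [Field K] [Field F] [Algebra K F] [Field L]
  (W : ValuationSubring L)
  {B : Type*} [CommRing B] [IsDomain B] [IsNoetherianRing B] [Algebra W B]
  [IsIntegrallyClosed B]
  (ψ : B →+* F)

/-- **Supplier, place form.**  `𝔭` minimal over a nonzero principal ideal and the zero ideal of
the place `Q` through the chart.  If `ord_Q b ≤ ord_Q a` then `b ∣ s * a` for some `s ∉ 𝔭`. -/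
theorem exists_notMem_dvd_of_place (hψ : Function.Injective ψ) (c : B) (hc : c ≠ 0)
    (𝔭 : Ideal B) (h𝔭 : 𝔭 ∈ (Ideal.span {c} : Ideal B).minimalPrimes)
    (Q : Place K F)
    (hQ : ∀ y : B, ψ y ∈ Q.toValuationSubring ∧ (y ∈ 𝔭 ↔ IsValueAt Q (ψ y) 0))
    (a b : B) (ha : a ≠ 0) (hb : b ≠ 0) (hord : Q.ord (ψ b) ≤ Q.ord (ψ a)) :
    ∃ s : B, s ∉ 𝔭 ∧ b ∣ s * a := by
  have h𝔭p : 𝔭.IsPrime := h𝔭.1.1
  have hψ0 : ∀ y : B, y ≠ 0 → ψ y ≠ 0 := fun y hy h => hy (hψ (by rw [h, map_zero]))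
  obtain ⟨t, ht𝔭, ht0, hfac⟩ := HeightOne.exists_uniformizer c hc 𝔭 h𝔭
  obtain ⟨ka, sa, da, hsa, hda, hea⟩ := hfac a ha
  obtain ⟨kb, sb, db, hsb, hdb, heb⟩ := hfac b hb
  have h0 : ∀ y : B, y ∉ 𝔭 → Q.ord (ψ y) = 0 := fun y hy =>
    ord_eq_zero_of_not_isValueAt ψ (fun y => (hQ y).1) (fun h => hy ((hQ y).2.mpr h))
  have hne : ∀ y : B, y ∉ 𝔭 → y ≠ 0 := fun y hy h => hy (h ▸ 𝔭.zero_mem)
  have he : 0 < Q.ord (ψ t) := ord_pos_of_isValueAt_zero ((hQ t).2.mp ht𝔭) (hψ0 t ht0)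
  have hoa : Q.ord (ψ a) = ka * Q.ord (ψ t) := by
    have h1 := congrArg (fun y => Q.ord (ψ y)) hea
    simp only [map_mul, map_pow] at h1
    rw [Q.ord_mul (hψ0 sa (hne sa hsa)) (hψ0 a ha),
      Q.ord_mul (pow_ne_zero ka (hψ0 t ht0)) (hψ0 da (hne da hda)), ord_pow, h0 sa hsa,
      h0 da hda] at h1
    linarith
  have hob : Q.ord (ψ b) = kb * Q.ord (ψ t) := by
    have h1 := congrArg (fun y => Q.ord (ψ y)) heb
    simp only [map_mul, map_pow] at h1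
    rw [Q.ord_mul (hψ0 sb (hne sb hsb)) (hψ0 b hb),
      Q.ord_mul (pow_ne_zero kb (hψ0 t ht0)) (hψ0 db (hne db hdb)), ord_pow, h0 sb hsb,
      h0 db hdb] at h1
    linarith
  rw [hoa, hob] at hord
  have hk : kb ≤ ka := by
    have : (kb : ℤ) ≤ ka := le_of_mul_le_mul_right hord he
    exact_mod_cast this
  obtain ⟨m, rfl⟩ := Nat.exists_eq_add_of_le hk
  refine ⟨db * sa, fun h => (h𝔭p.mem_or_mem h).elim hdb hsa, t ^ m * da * sb, ?_⟩
  calc db * sa * a = db * (sa * a) := by ring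
    _ = db * (t ^ (kb + m) * da) := by rw [hea]
    _ = t ^ m * da * (t ^ kb * db) := by rw [pow_add]; ring
    _ = t ^ m * da * (sb * b) := by rw [heb]
    _ = b * (t ^ m * da * sb) := by ring

/-- **Local integrality from orders** (the local datum of the Kummer step).  `B` a noetherian
integrally closed chart all of whose horizontal primes are zero ideals of places.  If
`b ∣ s * a` (`s ∉ 𝔭`) at the vertical primes `𝔭 ≤ 𝔫` minimal over `(b)`, and
`ord_Q b ≤ ord_Q a` at every place `Q` through `𝔫`, then `b ∣ d * a` for some `d ∉ 𝔫`. -/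
theorem exists_integral_multiple (hψ : Function.Injective ψ) (π : W)
    (hext : ∀ 𝔮 : Ideal B, 𝔮.IsPrime → 𝔮 ≠ ⊥ → algebraMap W B π ∉ 𝔮 →
      ∃ P : Place K F, ∀ y : B, ψ y ∈ P.toValuationSubring ∧ (y ∈ 𝔮 ↔ IsValueAt P (ψ y) 0))
    (𝔫 : Ideal B) [𝔫.IsPrime] (a b : B) (ha : a ≠ 0) (hb : b ≠ 0)
    (hvert : ∀ 𝔭 ∈ (Ideal.span {b} : Ideal B).minimalPrimes, algebraMap W B π ∈ 𝔭 → 𝔭 ≤ 𝔫 →
      ∃ s : B, s ∉ 𝔭 ∧ b ∣ s * a)
    (hhor : ∀ Q : Place K F, Through ψ 𝔫 Q → Q.ord (ψ b) ≤ Q.ord (ψ a)) :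
    ∃ d : B, d ∉ 𝔫 ∧ b ∣ d * a := by
  refine exists_notMem_dvd 𝔫 a b hb ?_
  intro 𝔭 h𝔭 h𝔭𝔫
  by_cases hπ : algebraMap W B π ∈ 𝔭
  · exact hvert 𝔭 h𝔭 hπ h𝔭𝔫
  · have h𝔭p : 𝔭.IsPrime := h𝔭.1.1
    have hb𝔭 : b ∈ 𝔭 := h𝔭.1.2 (Ideal.subset_span rfl)
    have h𝔭0 : 𝔭 ≠ ⊥ := fun h0 => hb (by rwa [h0, Ideal.mem_bot] at hb𝔭)
    obtain ⟨Q, hQ⟩ := hext 𝔭 h𝔭p h𝔭0 hπ
    have hthr : Through ψ 𝔫 Q :=
      ⟨fun y => (hQ y).1, fun y hy => h𝔭𝔫 ((hQ y).2.mpr
        ((Fermat.Agent.S37.RatPlace.isValueAt_zero_iff Q _).mpr hy))⟩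
    exact exists_notMem_dvd_of_place ψ hψ b hb 𝔭 h𝔭 Q hQ a b ha hb (hhor Q hthr)

end HartogsPlaces

end Fermat.Agent.S34.SectionsLoc
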