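/-
S34 (wave 6), layer 2 glue: `KLocChart.exists_notMem_mul_eq_chart` (the Hartogs step of (K-LOC))
on concrete chart carriers.

* `exists_notMem_mul_eq_of_range` : any carrier `B` (noetherian, integrally closed, fraction
  field `F = FF L N`) whose image in `F` is cut out by a predicate `Int` (e.g.
  `(evF W N).IsIntegralElem`, `(evFinf W N).IsIntegralElem`), with the raw inputs stated on `Int`:
  (H_int) `Int x → x, w x` have `W`-integral `q`-expansion; (S1) in the shape of
  `CompInst.finite_chart_point` / `CuspS1.s1_fin` / `CuspS1.s1_inf`.  The horizontal hypothesis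
  is stated with `SectionsLoc.Through`.
* `isDomain_fin`, `isNoetherianRing_fin`, `isFractionRing_fin`, `isIntegrallyClosed_fin`,
  `exists_notMem_mul_eq_fin` : the S37 finite carrier (`IsIntegralClosure B W[X] F`, `X ↦ j`).
* `isDomain_inf`, …, `exists_notMem_mul_eq_inf` : the S37-style carrier of the chart `W[1/j]`
  (`IsIntegralClosure B W[X] F`, `X ↦ 1/j`).
-/
import Mathlib
import Fermat.Agent.S34.KLocChart
import Fermat.Agent.S34.SectionsLoc
import Fermat.Agent.S37.GaussNoeth
import Fermat.Agent.S37.ChartFrac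
import Fermat.Agent.S34.Bridge
import Fermat.Agent.S34.ChartRing

set_option autoImplicit false
set_option linter.unusedSectionVars false
set_option linter.style.haveILetI false

noncomputable section

namespace Fermat.Agent.S34.KLocInst

open Polynomial ModularCurve AlgebraicCurve Fermat.Agent.S18 Fermat.Agent.S18.Gauss
  Fermat.Agent.S24 Fermat.Agent.S37.GaloisValue

local notation "Qb" => AlgebraicClosure ℚ

/-! ### Generalities on integral closures -/

section General

/-- An integral closure in a field is a domain. -/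
theorem isDomain_of_isIntegralClosure (A B K : Type*) [CommRing A] [CommRing B] [Field K]
    [Algebra A B] [Algebra B K] [Algebra A K] [IsScalarTower A B K] [IsIntegralClosure B A K] :
    IsDomain B :=
  (IsIntegralClosure.algebraMap_injective B A K).isDomain (algebraMap B K)

/-- An integral closure in its own fraction field is integrally closed. -/
theorem isIntegrallyClosed_of_isIntegralClosure (A B K : Type*) [CommRing A] [CommRing B]
    [Field K] [Algebra A B] [Algebra B K] [Algebra A K] [IsScalarTower A B K]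
    [IsIntegralClosure B A K] [IsDomain B] [IsFractionRing B K] :
    IsIntegrallyClosed B := by
  rw [isIntegrallyClosed_iff_isIntegralClosure K]
  refine ⟨IsFractionRing.injective B K, fun {x} => ⟨fun hx => ?_, ?_⟩⟩
  · have : Algebra.IsIntegral A B := IsIntegralClosure.isIntegral_algebra A K
    have hx' : IsIntegral A x := isIntegral_trans x hx
    exact IsIntegralClosure.isIntegral_iff.mp hx'
  · rintro ⟨y, rfl⟩
    exact isIntegral_algebraMap

end General

/-! ### The generic carrier -/

section Range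

variable {L : Type} [Field L] [Algebra ℚ L] (W : ValuationSubring L) (N : ℕ) [NeZero N]
  [IsDiscreteValuationRing W]

/-- **The Hartogs step of (K-LOC) on a carrier cut out by a predicate.** -/
theorem exists_notMem_mul_eq_of_range (ι : L →+* Qb) {π : W} (hπ : Irreducible π)
    (w : FF L N ≃ₐ[L] FF L N)
    (B : Type*) [CommRing B] [IsDomain B] [IsNoetherianRing B] [IsIntegrallyClosed B]
    [Algebra B (FF L N)] [IsFractionRing B (FF L N)]
    (Int : FF L N → Prop)
    (hrange : ∀ y : FF L N, (∃ b : B, algebraMap B (FF L N) b = y) ↔ Int y)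
    (hconst : ∀ c : W, Int (algebraMap L (FF L N) (c : L)))
    (hInt₁ : ∀ x : FF L N, Int x → (x : LaurentSeries L) ∈ contentRing W)
    (hInt₂ : ∀ x : FF L N, Int x → ((w x : FF L N) : LaurentSeries L) ∈ contentRing W)
    (hS1 : ∀ x : FF L N, Int x →
      ∀ (h1 : (x : LaurentSeries L) ∈ contentRing W)
        (h2 : ((w x : FF L N) : LaurentSeries L) ∈ contentRing W),
        red W ⟨_, h1⟩ = 0 → red W ⟨_, h2⟩ = 0 →
        ∃ y, Int y ∧ x = algebraMap L (FF L N) ((π : W) : L) * y)
    (𝔫 : Ideal B) [𝔫.IsPrime] (x : FF L N) (hx0 : x ≠ 0)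
    (hx₁ : (x : LaurentSeries L) ∈ contentRing W)
    (hx₂ : ((w x : FF L N) : LaurentSeries L) ∈ contentRing W)
    (hhor : ∀ Q : Place Qb (modularFunctionFieldBar N),
      SectionsLoc.Through
        ((CoeffBC.bc ι (modularFunctionFieldFull N)).comp (algebraMap B (FF L N))) 𝔫 Q →
      0 ≤ Q.ord (CoeffBC.bc ι (modularFunctionFieldFull N) x)) :
    ∃ d : B, d ∉ 𝔫 ∧ ∃ t : B, algebraMap B (FF L N) t = algebraMap B (FF L N) d * x := by
  have hB : ∀ y : B, Int (algebraMap B (FF L N) y) := fun y => (hrange _).mp ⟨y, rfl⟩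
  refine KLocChart.exists_notMem_mul_eq_chart W N ι hπ w B
    (fun c => (hrange _).mpr (hconst c)) (fun y => hInt₁ _ (hB y)) (fun y => hInt₂ _ (hB y))
    ?_ 𝔫 x hx0 hx₁ hx₂ (fun Q h1 h2 => hhor Q ⟨h1, h2⟩)
  intro y h1 h2
  obtain ⟨y', hy', e⟩ := hS1 _ (hB y) _ _ h1 h2
  obtain ⟨b, hb⟩ := (hrange _).mpr hy'
  exact ⟨b, by rw [hb]; exact e⟩

end Range

/-! ### Carriers over `W[X]` with an arbitrary injective evaluation -/

section Carrier

variable {L : Type} [Field L] [Algebra ℚ L] (W : ValuationSubring L) (N : ℕ) [NeZero N]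
  [IsDiscreteValuationRing W]
  [Algebra (↥W)[X] (FF L N)] (ev : (↥W)[X] →+* FF L N)
  (halg : algebraMap (↥W)[X] (FF L N) = ev)
  (B : Type*) [CommRing B] [Algebra (↥W)[X] B] [Algebra B (FF L N)]
  [IsScalarTower (↥W)[X] B (FF L N)] [IsIntegralClosure B (↥W)[X] (FF L N)]

include halg in
/-- the image of a carrier is the set of `ev`-integral elements -/
theorem range_carrier (y : FF L N) :
    (∃ b : B, algebraMap B (FF L N) b = y) ↔ ev.IsIntegralElem y := by
  have h : IsIntegral (↥W)[X] y ↔ ∃ b : B, algebraMap B (FF L N) b = y :=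
    IsIntegralClosure.isIntegral_iff (A := B)
  rw [← h]
  show (algebraMap (↥W)[X] (FF L N)).IsIntegralElem y ↔ _
  rw [halg]

end Carrier

/-! ### The S37 finite carrier -/

section Fin

variable {L : Type} [Field L] [Algebra ℚ L] (W : ValuationSubring L) (N : ℕ) [NeZero N]
  [IsDiscreteValuationRing W]
  [Algebra (↥W)[X] (FF L N)] (halg : algebraMap (↥W)[X] (FF L N) = evF W N)
  (B : Type*) [CommRing B] [Algebra (↥W)[X] B] [Algebra B (FF L N)]
  [IsScalarTower (↥W)[X] B (FF L N)] [IsIntegralClosure B (↥W)[X] (FF L N)]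

omit [IsDiscreteValuationRing W] in
include W N in
/-- the finite chart ring is a domain -/
theorem isDomain_fin : IsDomain B := isDomain_of_isIntegralClosure (↥W)[X] B (FF L N)

include halg in
/-- the finite chart ring is noetherian (`S37.GaussNoeth.noeth_fin`) -/
theorem isNoetherianRing_fin : IsNoetherianRing B :=
  (Fermat.Agent.S37.GaussNoeth.noeth_fin W N halg B).1

include halg in
/-- the finite chart ring has fraction field `FF L N` (`S37.ChartFrac.isFractionRing_fin`) -/
theorem isFractionRing_fin : IsFractionRing B (FF L N) :=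
  Fermat.Agent.S37.ChartFrac.isFractionRing_fin W N halg B

include halg in
/-- the finite chart ring is integrally closed -/
theorem isIntegrallyClosed_fin : IsIntegrallyClosed B := by
  haveI := isDomain_fin W N B
  haveI := isFractionRing_fin W N halg B
  exact isIntegrallyClosed_of_isIntegralClosure (↥W)[X] B (FF L N)

include halg in
/-- **The Hartogs step of (K-LOC) on the S37 finite carrier.** -/
theorem exists_notMem_mul_eq_fin (ι : L →+* Qb) {π : W} (hπ : Irreducible π)
    (w : FF L N ≃ₐ[L] FF L N)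
    (hInt₁ : ∀ x : FF L N, (evF W N).IsIntegralElem x → (x : LaurentSeries L) ∈ contentRing W)
    (hInt₂ : ∀ x : FF L N, (evF W N).IsIntegralElem x →
      ((w x : FF L N) : LaurentSeries L) ∈ contentRing W)
    (hS1 : ∀ x : FF L N, (evF W N).IsIntegralElem x →
      ∀ (h1 : (x : LaurentSeries L) ∈ contentRing W)
        (h2 : ((w x : FF L N) : LaurentSeries L) ∈ contentRing W),
        red W ⟨_, h1⟩ = 0 → red W ⟨_, h2⟩ = 0 →
        ∃ y, (evF W N).IsIntegralElem y ∧ x = algebraMap L (FF L N) ((π : W) : L) * y)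
    (𝔫 : Ideal B) [𝔫.IsPrime] (x : FF L N) (hx0 : x ≠ 0)
    (hx₁ : (x : LaurentSeries L) ∈ contentRing W)
    (hx₂ : ((w x : FF L N) : LaurentSeries L) ∈ contentRing W)
    (hhor : ∀ Q : Place Qb (modularFunctionFieldBar N),
      SectionsLoc.Through
        ((CoeffBC.bc ι (modularFunctionFieldFull N)).comp (algebraMap B (FF L N))) 𝔫 Q →
      0 ≤ Q.ord (CoeffBC.bc ι (modularFunctionFieldFull N) x)) :
    ∃ d : B, d ∉ 𝔫 ∧ ∃ t : B, algebraMap B (FF L N) t = algebraMap B (FF L N) d * x := by
  haveI := isDomain_fin W N B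
  haveI := isNoetherianRing_fin W N halg B
  haveI := isFractionRing_fin W N halg B
  haveI := isIntegrallyClosed_fin W N halg B
  refine exists_notMem_mul_eq_of_range W N ι hπ w B (evF W N).IsIntegralElem
    (range_carrier W N (evF W N) halg B) (fun c => ?_) hInt₁ hInt₂ hS1 𝔫 x hx0 hx₁ hx₂ hhor
  rw [← evF_C W N c]
  exact (evF W N).isIntegralElem_map

end Fin

/-! ### The carrier of the chart `W[1/j]` -/

section Inf

variable {L : Type} [Field L] [Algebra ℚ L] (W : ValuationSubring L) (N : ℕ) [NeZero N]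
  [IsDiscreteValuationRing W]
  [Algebra (↥W)[X] (FF L N)] (halg : algebraMap (↥W)[X] (FF L N) = evFinf W N)
  (B : Type*) [CommRing B] [Algebra (↥W)[X] B] [Algebra B (FF L N)]
  [IsScalarTower (↥W)[X] B (FF L N)] [IsIntegralClosure B (↥W)[X] (FF L N)]

omit [IsDiscreteValuationRing W] in
include W N in
/-- the chart ring over `W[1/j]` is a domain -/
theorem isDomain_inf : IsDomain B := isDomain_of_isIntegralClosure (↥W)[X] B (FF L N)

include halg in
/-- elements of `L(j)` are fractions of polynomials in `1/j` over `W` -/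
theorem exists_div_inf (s : FF L N)
    (hs : s ∈ (IntermediateField.adjoin L {jBC L N}).toSubfield) :
    ∃ a b : (↥W)[X], algebraMap (↥W)[X] (FF L N) b ≠ 0 ∧
      s = algebraMap (↥W)[X] (FF L N) a / algebraMap (↥W)[X] (FF L N) b := by
  have hs' : s ∈ IntermediateField.adjoin L {(jBC L N)⁻¹} := by
    have hle : IntermediateField.adjoin L {jBC L N} ≤
        IntermediateField.adjoin L {(jBC L N)⁻¹} := by
      rw [IntermediateField.adjoin_le_iff, Set.singleton_subset_iff]
      have h1 := inv_mem (IntermediateField.mem_adjoin_simple_self L (jBC L N)⁻¹)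
      rwa [inv_inv] at h1
    exact hle hs
  obtain ⟨a, b, hb, e⟩ :=
    Fermat.Agent.S37.GaussNoeth.exists_div_of_mem_adjoin (W := ↥W) (jBC L N)⁻¹ s hs'
  refine ⟨a, b, ?_, ?_⟩
  · rw [halg, Fermat.Agent.S37.GaussNoeth.evFinf_eq_aeval]
    exact hb
  · rw [halg, Fermat.Agent.S37.GaussNoeth.evFinf_eq_aeval,
      Fermat.Agent.S37.GaussNoeth.evFinf_eq_aeval]
    exact e

include halg in
/-- the chart ring over `W[1/j]` is noetherian -/
theorem isNoetherianRing_inf : IsNoetherianRing B := by
  haveI : CharZero L := algebraRat.charZero L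
  haveI : CharZero (FF L N) :=
    charZero_of_injective_algebraMap (algebraMap L (FF L N)).injective
  haveI h := (Gauss.finrank_FF_le L N).1
  haveI hfin : Module.Finite (IntermediateField.adjoin L {jBC L N}).toSubfield (FF L N) := h
  exact (Fermat.Agent.S37.GaussNoeth.closure_noeth
    (by rw [halg]; exact Fermat.Agent.S37.GaussNoeth.evFinf_injective' W N)
    (IntermediateField.adjoin L {jBC L N}).toSubfield (exists_div_inf W N halg) B).1

include halg in
/-- the chart ring over `W[1/j]` has fraction field `FF L N` -/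
theorem isFractionRing_inf : IsFractionRing B (FF L N) := by
  haveI h := (Gauss.finrank_FF_le L N).1
  haveI hfin : Module.Finite (IntermediateField.adjoin L {jBC L N}).toSubfield (FF L N) := h
  exact Fermat.Agent.S37.ChartFrac.closure_isFractionRing
    (by rw [halg]; exact Fermat.Agent.S37.GaussNoeth.evFinf_injective' W N)
    (IntermediateField.adjoin L {jBC L N}).toSubfield (exists_div_inf W N halg) B

include halg in
/-- the chart ring over `W[1/j]` is integrally closed -/
theorem isIntegrallyClosed_inf : IsIntegrallyClosed B := by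
  haveI := isDomain_inf W N B
  haveI := isFractionRing_inf W N halg B
  exact isIntegrallyClosed_of_isIntegralClosure (↥W)[X] B (FF L N)

include halg in
/-- **The Hartogs step of (K-LOC) on the carrier of the chart `W[1/j]`.** -/
theorem exists_notMem_mul_eq_inf (ι : L →+* Qb) {π : W} (hπ : Irreducible π)
    (w : FF L N ≃ₐ[L] FF L N)
    (hInt₁ : ∀ x : FF L N, (evFinf W N).IsIntegralElem x →
      (x : LaurentSeries L) ∈ contentRing W)
    (hInt₂ : ∀ x : FF L N, (evFinf W N).IsIntegralElem x →
      ((w x : FF L N) : LaurentSeries L) ∈ contentRing W)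
    (hS1 : ∀ x : FF L N, (evFinf W N).IsIntegralElem x →
      ∀ (h1 : (x : LaurentSeries L) ∈ contentRing W)
        (h2 : ((w x : FF L N) : LaurentSeries L) ∈ contentRing W),
        red W ⟨_, h1⟩ = 0 → red W ⟨_, h2⟩ = 0 →
        ∃ y, (evFinf W N).IsIntegralElem y ∧ x = algebraMap L (FF L N) ((π : W) : L) * y)
    (𝔫 : Ideal B) [𝔫.IsPrime] (x : FF L N) (hx0 : x ≠ 0)
    (hx₁ : (x : LaurentSeries L) ∈ contentRing W)
    (hx₂ : ((w x : FF L N) : LaurentSeries L) ∈ contentRing W)
    (hhor : ∀ Q : Place Qb (modularFunctionFieldBar N),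
      SectionsLoc.Through
        ((CoeffBC.bc ι (modularFunctionFieldFull N)).comp (algebraMap B (FF L N))) 𝔫 Q →
      0 ≤ Q.ord (CoeffBC.bc ι (modularFunctionFieldFull N) x)) :
    ∃ d : B, d ∉ 𝔫 ∧ ∃ t : B, algebraMap B (FF L N) t = algebraMap B (FF L N) d * x := by
  haveI := isDomain_inf W N B
  haveI := isNoetherianRing_inf W N halg B
  haveI := isFractionRing_inf W N halg B
  haveI := isIntegrallyClosed_inf W N halg B
  refine exists_notMem_mul_eq_of_range W N ι hπ w B (evFinf W N).IsIntegralElem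
    (range_carrier W N (evFinf W N) halg B) (fun c => ?_) hInt₁ hInt₂ hS1 𝔫 x hx0 hx₁ hx₂ hhor
  rw [← evFinf_C W N c]
  exact (evFinf W N).isIntegralElem_map

end Inf

/-! ### The chart rings of `KummerInd.kummer_descent` (Algebra currency) -/

section Adjoin

variable {L : Type} [Field L] [Algebra ℚ L] (W : ValuationSubring L) (N : ℕ) [NeZero N]
  [IsDiscreteValuationRing W]

/-- the image of the chart ring `integralClosure W[j]` is the set of `evF`-integral elements -/
theorem range_adjoin (y : FF L N) :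
    (∃ b : integralClosure (Algebra.adjoin ↥W {jBC L N}) (FF L N),
      algebraMap (integralClosure (Algebra.adjoin ↥W {jBC L N}) (FF L N)) (FF L N) b = y) ↔
      (evF W N).IsIntegralElem y := by
  rw [← Bridge.isIntegral_adjoin_iff W N y]
  constructor
  · rintro ⟨b, rfl⟩
    exact b.2
  · intro h
    exact ⟨⟨y, h⟩, rfl⟩

/-- the image of the chart ring `integralClosure W[1/j]` is the set of `evFinf`-integral
elements -/
theorem range_adjoin_inv (y : FF L N) :
    (∃ b : integralClosure (Algebra.adjoin ↥W {(jBC L N)⁻¹}) (FF L N),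
      algebraMap (integralClosure (Algebra.adjoin ↥W {(jBC L N)⁻¹}) (FF L N)) (FF L N) b = y) ↔
      (evFinf W N).IsIntegralElem y := by
  rw [← Bridge.isIntegral_adjoin_inv_iff W N y]
  constructor
  · rintro ⟨b, rfl⟩
    exact b.2
  · intro h
    exact ⟨⟨y, h⟩, rfl⟩

set_option maxHeartbeats 800000 in
-- the instance `Algebra ↥W (FF L N)` is found slowly
/-- **The Hartogs step of (K-LOC) on the finite chart ring of `kummer_descent`**, conclusion in
the shape of the local datum (`hloc₁` / `GAsm.LocContract₁`). -/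
theorem exists_notMem_isIntegral_mul_adjoin (ι : L →+* Qb) {π : W} (hπ : Irreducible π)
    (w : FF L N ≃ₐ[L] FF L N)
    (hInt₁ : ∀ x : FF L N, (evF W N).IsIntegralElem x → (x : LaurentSeries L) ∈ contentRing W)
    (hInt₂ : ∀ x : FF L N, (evF W N).IsIntegralElem x →
      ((w x : FF L N) : LaurentSeries L) ∈ contentRing W)
    (hS1 : ∀ x : FF L N, (evF W N).IsIntegralElem x →
      ∀ (h1 : (x : LaurentSeries L) ∈ contentRing W)
        (h2 : ((w x : FF L N) : LaurentSeries L) ∈ contentRing W),
        red W ⟨_, h1⟩ = 0 → red W ⟨_, h2⟩ = 0 →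
        ∃ y, (evF W N).IsIntegralElem y ∧ x = algebraMap L (FF L N) ((π : W) : L) * y)
    (𝔫 : Ideal (integralClosure (Algebra.adjoin ↥W {jBC L N}) (FF L N))) [𝔫.IsPrime]
    (x : FF L N) (hx0 : x ≠ 0)
    (hx₁ : (x : LaurentSeries L) ∈ contentRing W)
    (hx₂ : ((w x : FF L N) : LaurentSeries L) ∈ contentRing W)
    (hhor : ∀ Q : Place Qb (modularFunctionFieldBar N),
      SectionsLoc.Through
        ((CoeffBC.bc ι (modularFunctionFieldFull N)).comp
          (algebraMap (integralClosure (Algebra.adjoin ↥W {jBC L N}) (FF L N)) (FF L N))) 𝔫 Q →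
      0 ≤ Q.ord (CoeffBC.bc ι (modularFunctionFieldFull N) x)) :
    ∃ d : integralClosure (Algebra.adjoin ↥W {jBC L N}) (FF L N), d ∉ 𝔫 ∧
      IsIntegral (Algebra.adjoin ↥W {jBC L N}) ((d : FF L N) * x) := by
  have hj : Transcendental L (jBC L N) := Bridge.transcendental_j ι N
  haveI : CharZero L := algebraRat.charZero L
  haveI : IsScalarTower ↥W L (FF L N) := IsScalarTower.of_algebraMap_eq (fun _ => rfl)
  haveI : FiniteDimensional (IntermediateField.adjoin L {jBC L N}) (FF L N) :=
    (Gauss.finrank_FF_le (L := L) (N := N)).1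
  have h1 := ChartRing.isNoetherianRing (W := ↥W) (jBC L N) hj
  have h2 := ChartRing.isIntegrallyClosed (W := ↥W) (jBC L N) hj
  have h3 := ChartRing.isFractionRing (W := ↥W) (jBC L N) hj
  have key := @exists_notMem_mul_eq_of_range L _ _ W N _ _ ι π hπ w
    (integralClosure (Algebra.adjoin ↥W {jBC L N}) (FF L N)) _ _ h1 h2 _ h3
  obtain ⟨d, hd, t, ht⟩ := key (evF W N).IsIntegralElem (range_adjoin W N)
    (fun c => by rw [← evF_C W N c]; exact (evF W N).isIntegralElem_map)
    hInt₁ hInt₂ hS1 𝔫 x hx0 hx₁ hx₂ hhor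
  refine ⟨d, hd, ?_⟩
  have e : (d : FF L N) * x = (t : FF L N) := ht.symm
  rw [e]
  exact t.2

set_option maxHeartbeats 800000 in
-- the instance `Algebra ↥W (FF L N)` is found slowly
/-- **The Hartogs step of (K-LOC) on the chart ring at infinity of `kummer_descent`**,
conclusion in the shape of the local datum (`hloc₂` / `GAsm.LocContract₂`). -/
theorem exists_notMem_isIntegral_mul_adjoin_inv (ι : L →+* Qb) {π : W} (hπ : Irreducible π)
    (w : FF L N ≃ₐ[L] FF L N)
    (hInt₁ : ∀ x : FF L N, (evFinf W N).IsIntegralElem x →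
      (x : LaurentSeries L) ∈ contentRing W)
    (hInt₂ : ∀ x : FF L N, (evFinf W N).IsIntegralElem x →
      ((w x : FF L N) : LaurentSeries L) ∈ contentRing W)
    (hS1 : ∀ x : FF L N, (evFinf W N).IsIntegralElem x →
      ∀ (h1 : (x : LaurentSeries L) ∈ contentRing W)
        (h2 : ((w x : FF L N) : LaurentSeries L) ∈ contentRing W),
        red W ⟨_, h1⟩ = 0 → red W ⟨_, h2⟩ = 0 →
        ∃ y, (evFinf W N).IsIntegralElem y ∧ x = algebraMap L (FF L N) ((π : W) : L) * y)
    (𝔫 : Ideal (integralClosure (Algebra.adjoin ↥W {(jBC L N)⁻¹}) (FF L N))) [𝔫.IsPrime]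
    (x : FF L N) (hx0 : x ≠ 0)
    (hx₁ : (x : LaurentSeries L) ∈ contentRing W)
    (hx₂ : ((w x : FF L N) : LaurentSeries L) ∈ contentRing W)
    (hhor : ∀ Q : Place Qb (modularFunctionFieldBar N),
      SectionsLoc.Through
        ((CoeffBC.bc ι (modularFunctionFieldFull N)).comp
          (algebraMap (integralClosure (Algebra.adjoin ↥W {(jBC L N)⁻¹}) (FF L N)) (FF L N)))
        𝔫 Q →
      0 ≤ Q.ord (CoeffBC.bc ι (modularFunctionFieldFull N) x)) :
    ∃ d : integralClosure (Algebra.adjoin ↥W {(jBC L N)⁻¹}) (FF L N), d ∉ 𝔫 ∧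
      IsIntegral (Algebra.adjoin ↥W {(jBC L N)⁻¹}) ((d : FF L N) * x) := by
  have hj : Transcendental L (jBC L N) := Bridge.transcendental_j ι N
  haveI : CharZero L := algebraRat.charZero L
  haveI : IsScalarTower ↥W L (FF L N) := IsScalarTower.of_algebraMap_eq (fun _ => rfl)
  haveI : FiniteDimensional (IntermediateField.adjoin L {jBC L N}) (FF L N) :=
    (Gauss.finrank_FF_le (L := L) (N := N)).1
  have h1 := ChartRing.isNoetherianRing_inv (W := ↥W) (jBC L N) hj
  have h2 := ChartRing.isIntegrallyClosed_inv (W := ↥W) (jBC L N) hj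
  have h3 := ChartRing.isFractionRing_inv (W := ↥W) (jBC L N) hj
  have key := @exists_notMem_mul_eq_of_range L _ _ W N _ _ ι π hπ w
    (integralClosure (Algebra.adjoin ↥W {(jBC L N)⁻¹}) (FF L N)) _ _ h1 h2 _ h3
  obtain ⟨d, hd, t, ht⟩ := key (evFinf W N).IsIntegralElem (range_adjoin_inv W N)
    (fun c => by rw [← evFinf_C W N c]; exact (evFinf W N).isIntegralElem_map)
    hInt₁ hInt₂ hS1 𝔫 x hx0 hx₁ hx₂ hhor
  refine ⟨d, hd, ?_⟩
  have e : (d : FF L N) * x = (t : FF L N) := ht.symm
  rw [e]
  exact t.2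

end Adjoin

end Fermat.Agent.S34.KLocInst
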