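/-
S34 (wave 6, long shot): the double difference `dd N s f = (τ - 1)² f` of EVERY nonzero function
is integral at both Gauss valuations — the vertical input `hx₁`, `hx₂` of the Hartogs step
`KLocChart.exists_notMem_mul_eq_chart` for `x = dd N s (f / h ^ (p ^ n))`.

Corollaries of `DDGauss.dd_both` (raw currency, any level).
-/
import Mathlib
import Fermat.Agent.S34.DDGauss

set_option autoImplicit false

namespace Fermat.Agent.S34.DDMem

open ModularCurve Fermat.Agent.S18 Fermat.Agent.S18.Gauss Fermat.Agent.S24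
  Fermat.Agent.S34.CoeffAut Fermat.Agent.S34.DDGauss

variable {L : Type*} [Field L] [Algebra ℚ L] (W : ValuationSubring L) [IsDiscreteValuationRing W]

omit [IsDiscreteValuationRing ↥W] in
theorem coe_one_add_mul (ϖ : W) (N : ℕ) (m : FF L N)
    (hm : (m : LaurentSeries L) ∈ contentRing W) :
    ((1 + algebraMap L (FF L N) (ϖ : L) * m : FF L N) : LaurentSeries L) ∈ contentRing W := by
  have h1 : ((1 + algebraMap L (FF L N) (ϖ : L) * m : FF L N) : LaurentSeries L) =
      1 + HahnSeries.C (ϖ : L) * (m : LaurentSeries L) := by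
    have h2 : ((algebraMap L (FF L N) (ϖ : L) : FF L N) : LaurentSeries L) =
        HahnSeries.C (ϖ : L) := by
      show algebraMap L (LaurentSeries L) (ϖ : L) = HahnSeries.C (ϖ : L)
      rw [algebraMap_laurentSeries_eq_single]
      rfl
    rw [← h2]
    rfl
  rw [h1]
  exact add_mem (one_mem _) (mul_mem (C_mem_contentRing W ϖ) hm)

/-- the double difference has `W`-integral `q`-expansion -/
theorem coe_dd_mem (ϖ : W) (hϖ : Irreducible ϖ) (N : ℕ) (s : L ≃+* L)
    (hsW : ∀ c : L, c ∈ W ↔ s c ∈ W)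
    (hsI : ∀ c : L, c ∈ W → ∃ d : L, d ∈ W ∧ s c = c + (ϖ : L) * d)
    {f : FF L N} (hf : f ≠ 0) : ((dd N s f : FF L N) : LaurentSeries L) ∈ contentRing W := by
  obtain ⟨m, hm, e⟩ := dd_raw W ϖ hϖ N s hsW hsI hf
  rw [e]
  exact coe_one_add_mul W ϖ N m hm

/-- the Atkin–Lehner translate of the double difference has `W`-integral `q`-expansion -/
theorem coe_map_dd_mem (ϖ : W) (hϖ : Irreducible ϖ) (N : ℕ) (s : L ≃+* L)
    (hsW : ∀ c : L, c ∈ W ↔ s c ∈ W)
    (hsI : ∀ c : L, c ∈ W → ∃ d : L, d ∈ W ∧ s c = c + (ϖ : L) * d)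
    (w : FF L N ≃ₐ[L] FF L N) (hw : ∀ x : FF L N, act N s (w x) = w (act N s x))
    {f : FF L N} (hf : f ≠ 0) :
    ((w (dd N s f) : FF L N) : LaurentSeries L) ∈ contentRing W := by
  have h1 : w (dd N s f) = dd N s (w f) := dd_comm N s (w : FF L N ≃+* FF L N) hw f
  rw [h1]
  exact coe_dd_mem W ϖ hϖ N s hsW hsI ((map_ne_zero_iff _ w.injective).mpr hf)

section Level

local notation "Qb" => AlgebraicClosure ℚ

variable (A : ValuationSubring Qb) (ι : L →+* Qb) {σ : Qb ≃ₐ[ℚ] Qb} (s : L ≃+* L)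
  (hs : ∀ c : L, ι (s c) = σ (ι c))

include hs

/-- `hx₁` of the Hartogs step for the double difference, at a level, for the restriction of an
inertia element. -/
theorem coe_dd_mem_level [IsDiscreteValuationRing ↥(A.comap ι)]
    (hσ : σ ∈ A.inertiaSubgroupIn ℚ) (N : ℕ) {f : FF L N} (hf : f ≠ 0) :
    ((dd N s f : FF L N) : LaurentSeries L) ∈ contentRing (A.comap ι) := by
  obtain ⟨ϖ, hϖ⟩ := IsDiscreteValuationRing.exists_irreducible ↥(A.comap ι)
  exact coe_dd_mem (A.comap ι) ϖ hϖ N s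
    (GalLevel.mem_comap_iff_of_mem_decomposition A ι s hs
      (Fermat.Agent.S37.GaloisValue.mem_decompositionSubgroup_of_mem_inertia hσ))
    (FrobAct.exists_eq_add_mul_of_mem_inertia A ι s hs hσ hϖ) hf

/-- `hx₂` of the Hartogs step for the double difference, at a level, for the restriction of an
inertia element and an Atkin–Lehner automorphism. -/
theorem coe_map_dd_mem_level [IsDiscreteValuationRing ↥(A.comap ι)]
    (hσ : σ ∈ A.inertiaSubgroupIn ℚ) (M ℓ : ℕ) [NeZero M] [NeZero ℓ] (hℓ : ℓ.Prime)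
    (w : FF L (M * ℓ) ≃ₐ[L] FF L (M * ℓ))
    (hα : (w : FF L (M * ℓ) →ₐ[L] FF L (M * ℓ)).comp (heckeAlphaBar L M ℓ) = heckeBetaBar L M ℓ)
    (hβ : (w : FF L (M * ℓ) →ₐ[L] FF L (M * ℓ)).comp (heckeBetaBar L M ℓ) = heckeAlphaBar L M ℓ)
    {f : FF L (M * ℓ)} (hf : f ≠ 0) :
    ((w (dd (M * ℓ) s f) : FF L (M * ℓ)) : LaurentSeries L) ∈ contentRing (A.comap ι) := by
  obtain ⟨ϖ, hϖ⟩ := IsDiscreteValuationRing.exists_irreducible ↥(A.comap ι)
  exact coe_map_dd_mem (A.comap ι) ϖ hϖ (M * ℓ) s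
    (GalLevel.mem_comap_iff_of_mem_decomposition A ι s hs
      (Fermat.Agent.S37.GaloisValue.mem_decompositionSubgroup_of_mem_inertia hσ))
    (FrobAct.exists_eq_add_mul_of_mem_inertia A ι s hs hσ hϖ) w
    (fun x => act_atkinLehner M ℓ hℓ s w hα hβ x) hf

end Level

end Fermat.Agent.S34.DDMem
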