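import Mathlib
import Fermat.Agent.S34.GTop

/-!
# S34: divisor bookkeeping of the per-point local datum

Setting: `F / K` a function field (`K = ℚ̄`, `F = F_N / ℚ̄`), `g` a semilinear automorphism of
`F / K` (the arithmetic Galois action of an inertia element `τ`), `FL` a field with a ring
hom `ψ : FL →+* F` (the level `F_{N,L}` with `ψ = bc ι`) and a ring automorphism `τL` of `FL`
with `ψ (τL x) = g • ψ x` (the coefficientwise action).  `C` is a `g`-stable class of places
(the places centred at a closed point `𝔫` of a chart).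

A place `P` of the class is *good* (`Good ψ C P`) if it has a local equation at the level:
`h ∈ FL` with `ord_P h = 1` and `ord_Q h = 0` at every other place `Q` of the class.

* `good_of_good_smul` : goodness is transported by `τL⁻¹`;
* `exists_local_dd` : if every point `P` of the class in the support of a divisor `D` is
  `g`-fixed, or good, or has a good translate `g • P`, then there is `h ∈ FL` whose double
  difference `τL (τL h) * h / (τL h) ^ 2` has order `dd g D Q` at every place `Q` of the class;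
* `exists_local_datum_ord` : with `ord_P f = p ^ n * D P` for all `P`, the double difference
  of `f` and the `p ^ n`-th power of the double difference of `h` have the same order at
  every place of the class.
-/

set_option autoImplicit false

noncomputable section

namespace Fermat.Agent.S34.DDLocal

open AlgebraicCurve Fermat.Agent.S34.GTop

variable {K F FL : Type*} [Field K] [Field F] [Algebra K F] [Field FL]

/-- The coefficients of the double difference of a divisor. -/
theorem dd_eval (g : SemilinearAut K F) (D : Divisor K F) (Q : Place K F) :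
    dd g D Q = D (g⁻¹ • g⁻¹ • Q) - 2 * D (g⁻¹ • Q) + D Q := by
  unfold dd
  rw [Finsupp.add_apply, Finsupp.sub_apply, Finsupp.smul_apply,
    SemilinearAut.divisor_smul_apply, SemilinearAut.divisor_smul_apply,
    SemilinearAut.divisor_smul_apply, nsmul_eq_mul]
  push_cast
  rfl

/-- `ord_Q (g • x) = ord_{g⁻¹ Q} x`. -/
theorem ord_smul_left (g : SemilinearAut K F) (Q : Place K F) (x : F) :
    Q.ord (g • x) = (g⁻¹ • Q).ord x := by
  have h := SemilinearAut.ord_smul (g := g) (g⁻¹ • Q) x
  rwa [smul_inv_smul] at h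

/-- `ord_Q (g⁻¹ • x) = ord_{g Q} x`. -/
theorem ord_inv_smul_left (g : SemilinearAut K F) (Q : Place K F) (x : F) :
    Q.ord (g⁻¹ • x) = (g • Q).ord x := by
  have h := ord_smul_left g⁻¹ Q x
  rwa [inv_inv] at h

/-- A place `P` is **good** for the class `C` at the level `ψ : FL →+* F` if it has a local
equation: a nonzero `h ∈ FL` of order `1` at `P` and of order `0` at every other place of
the class. -/
def Good (ψ : FL →+* F) (C : Place K F → Prop) (P : Place K F) : Prop :=
  ∃ h : FL, h ≠ 0 ∧ P.ord (ψ h) = 1 ∧ ∀ Q : Place K F, C Q → Q ≠ P → Q.ord (ψ h) = 0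

variable (g : SemilinearAut K F) (ψ : FL →+* F) (τL : FL ≃+* FL)

/-- `ψ (τL⁻¹ x) = g⁻¹ • ψ x`. -/
theorem map_symm (hτ : ∀ x : FL, ψ (τL x) = g • ψ x) (x : FL) :
    ψ (τL.symm x) = g⁻¹ • ψ x := by
  have h := hτ (τL.symm x)
  rw [RingEquiv.apply_symm_apply] at h
  rw [h, inv_smul_smul]

/-- **Transport.** If `g • P` has a local equation `h`, then `τL⁻¹ h` is a local equation
of `P`. -/
theorem good_of_good_smul (hτ : ∀ x : FL, ψ (τL x) = g • ψ x) {C : Place K F → Prop}
    (hC : ∀ P : Place K F, C (g • P) ↔ C P) {P : Place K F} (h : Good ψ C (g • P)) :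
    Good ψ C P := by
  obtain ⟨x, hx0, hx1, hx2⟩ := h
  refine ⟨τL.symm x, fun h0 => hx0 ?_, ?_, fun Q hQ hQP => ?_⟩
  · have := congrArg τL h0
    rwa [RingEquiv.apply_symm_apply, map_zero] at this
  · rw [map_symm g ψ τL hτ, ord_inv_smul_left, hx1]
  · rw [map_symm g ψ τL hτ, ord_inv_smul_left]
    exact hx2 (g • Q) ((hC Q).mpr hQ) fun h => hQP (MulAction.injective g h)

/-- The order of a double difference. -/
theorem ord_doubleDiff (hτ : ∀ x : FL, ψ (τL x) = g • ψ x) (Q : Place K F) {x : FL}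
    (hx : x ≠ 0) :
    Q.ord (ψ (τL (τL x) * x / (τL x) ^ 2)) =
      (g⁻¹ • g⁻¹ • Q).ord (ψ x) - 2 * (g⁻¹ • Q).ord (ψ x) + Q.ord (ψ x) := by
  have h1 : ψ x ≠ 0 := (map_ne_zero ψ).mpr hx
  have h2 : g • ψ x ≠ 0 := by
    rw [← hτ]
    exact (map_ne_zero ψ).mpr ((map_ne_zero τL).mpr hx)
  have h3 : g • g • ψ x ≠ 0 := by
    rw [← hτ, ← hτ]
    exact (map_ne_zero ψ).mpr ((map_ne_zero τL).mpr ((map_ne_zero τL).mpr hx))
  rw [map_div₀, map_mul, map_pow, hτ, hτ, div_eq_mul_inv,
    Q.ord_mul (mul_ne_zero h3 h1) (inv_ne_zero (pow_ne_zero 2 h2)),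
    Q.ord_mul h3 h1, Place.ord_inv, pow_two, Q.ord_mul h2 h2,
    ord_smul_left, ord_smul_left, ord_smul_left]
  ring

/-- The order of a product of integer powers. -/
theorem ord_prod_zpow (Q : Place K F) (S : Finset (Place K F)) (x : Place K F → FL)
    (n : Place K F → ℤ) (hx : ∀ P ∈ S, x P ≠ 0) :
    Q.ord (ψ (∏ P ∈ S, x P ^ n P)) = ∑ P ∈ S, n P * Q.ord (ψ (x P)) := by
  classical
  induction S using Finset.induction_on with
  | empty => simp
  | insert a S ha ih =>
    have hS := ih fun P hP => hx P (Finset.mem_insert_of_mem hP)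
    have ha0 : x a ≠ 0 := hx a (Finset.mem_insert_self a S)
    have hz : x a ^ n a ≠ 0 := zpow_ne_zero _ ha0
    have hp : (∏ P ∈ S, x P ^ n P) ≠ 0 :=
      Finset.prod_ne_zero_iff.mpr fun P hP =>
        zpow_ne_zero _ (hx P (Finset.mem_insert_of_mem hP))
    rw [Finset.prod_insert ha, Finset.sum_insert ha, map_mul,
      Q.ord_mul ((map_ne_zero ψ).mpr hz) ((map_ne_zero ψ).mpr hp), hS, map_zpow₀,
      Place.ord_zpow]

/-- **Local double difference.**  If every point `P` of the class `C` in the support of `D`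
is `g`-fixed, or good, or has a good translate, then there is `h ∈ FL`, `h ≠ 0`, whose double
difference has order `dd g D Q` at every place `Q` of the class. -/
theorem exists_local_dd (hτ : ∀ x : FL, ψ (τL x) = g • ψ x) (C : Place K F → Prop)
    (hC : ∀ P : Place K F, C (g • P) ↔ C P) (D : Divisor K F)
    (hloc : ∀ P : Place K F, C P → D P ≠ 0 → g • P = P ∨ Good ψ C P ∨ Good ψ C (g • P)) :
    ∃ h : FL, h ≠ 0 ∧ ∀ Q : Place K F, C Q →
      Q.ord (ψ (τL (τL h) * h / (τL h) ^ 2)) = dd g D Q := by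
  classical
  -- the good points of the support
  set S : Finset (Place K F) := D.support.filter fun P => C P ∧ Good ψ C P with hS
  have hmemS : ∀ P : Place K F, P ∈ S ↔ D P ≠ 0 ∧ C P ∧ Good ψ C P := by
    intro P
    rw [hS, Finset.mem_filter, Finsupp.mem_support_iff]
  have hgoodS : ∀ P ∈ S, Good ψ C P := fun P hP => ((hmemS P).mp hP).2.2
  -- local equations
  let x : Place K F → FL := fun P => if hP : P ∈ S then (hgoodS P hP).choose else 1
  have hx0 : ∀ P ∈ S, x P ≠ 0 := by
    intro P hP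
    simp only [x, dif_pos hP]
    exact (hgoodS P hP).choose_spec.1
  have hx1 : ∀ P ∈ S, P.ord (ψ (x P)) = 1 := by
    intro P hP
    simp only [x, dif_pos hP]
    exact (hgoodS P hP).choose_spec.2.1
  have hx2 : ∀ P ∈ S, ∀ Q : Place K F, C Q → Q ≠ P → Q.ord (ψ (x P)) = 0 := by
    intro P hP
    simp only [x, dif_pos hP]
    exact (hgoodS P hP).choose_spec.2.2
  have hh0 : (∏ P ∈ S, x P ^ D P) ≠ 0 :=
    Finset.prod_ne_zero_iff.mpr fun P hP => zpow_ne_zero _ (hx0 P hP)
  -- the order of `h` at a place of the class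
  have hord : ∀ Q : Place K F, C Q →
      Q.ord (ψ (∏ P ∈ S, x P ^ D P)) = if Q ∈ S then D Q else 0 := by
    intro Q hQ
    rw [ord_prod_zpow ψ Q S x (fun P => D P) hx0]
    by_cases hQS : Q ∈ S
    · rw [if_pos hQS, Finset.sum_eq_single Q]
      · rw [hx1 Q hQS, mul_one]
      · intro P hP hPQ
        rw [hx2 P hP Q hQ (Ne.symm hPQ), mul_zero]
      · intro h
        exact absurd hQS h
    · rw [if_neg hQS]
      refine Finset.sum_eq_zero fun P hP => ?_
      have hPQ : Q ≠ P := fun h => hQS (h ▸ hP)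
      rw [hx2 P hP Q hQ hPQ, mul_zero]
  -- the bad part of `D` on the class is supported on fixed points
  have hCinv : ∀ P : Place K F, C P → C (g⁻¹ • P) := by
    intro P hP
    rw [← hC, smul_inv_smul]
    exact hP
  have hfix : ∀ Q : Place K F, C Q → D Q ≠ 0 → Q ∉ S → g • Q = Q := by
    intro Q hQ hD hQS
    rcases hloc Q hQ hD with h | h | h
    · exact h
    · exact absurd ((hmemS Q).mpr ⟨hD, hQ, h⟩) hQS
    · exact absurd ((hmemS Q).mpr ⟨hD, hQ, good_of_good_smul g ψ τL hτ hC h⟩) hQS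
  -- `b := D - ord h` is `g⁻¹`-invariant on the class
  have hb : ∀ Q : Place K F, C Q →
      D (g⁻¹ • Q) - (if g⁻¹ • Q ∈ S then D (g⁻¹ • Q) else 0) =
        D Q - (if Q ∈ S then D Q else 0) := by
    intro Q hQ
    by_cases h1 : D Q ≠ 0 ∧ Q ∉ S
    · have hfx := hfix Q hQ h1.1 h1.2
      have : g⁻¹ • Q = Q := by
        rw [inv_smul_eq_iff, hfx]
      rw [this]
    · have hQ0 : D Q - (if Q ∈ S then D Q else 0) = 0 := by
        by_cases hQS : Q ∈ S
        · rw [if_pos hQS, sub_self]
        · have : D Q = 0 := by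
            by_contra h
            exact h1 ⟨h, hQS⟩
          rw [if_neg hQS, this, sub_zero]
      rw [hQ0]
      by_cases h2 : D (g⁻¹ • Q) ≠ 0 ∧ g⁻¹ • Q ∉ S
      · have hfx := hfix (g⁻¹ • Q) (hCinv Q hQ) h2.1 h2.2
        rw [smul_inv_smul] at hfx
        rw [← hfx] at h2
        exact absurd h2 h1
      · by_cases hQS : g⁻¹ • Q ∈ S
        · rw [if_pos hQS, sub_self]
        · have : D (g⁻¹ • Q) = 0 := by
            by_contra h
            exact h2 ⟨h, hQS⟩
          rw [if_neg hQS, this, sub_zero]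
  refine ⟨∏ P ∈ S, x P ^ D P, hh0, fun Q hQ => ?_⟩
  rw [ord_doubleDiff g ψ τL hτ Q hh0, hord Q hQ, hord _ (hCinv Q hQ),
    hord _ (hCinv _ (hCinv Q hQ)), dd_eval]
  have e1 := hb Q hQ
  have e2 := hb (g⁻¹ • Q) (hCinv Q hQ)
  linarith

/-- **Local datum, horizontal part.**  With `ord_P f = p ^ n * D P` at every place, the double
difference of `f` and the `p ^ n`-th power of the double difference of the local function `h`
of `exists_local_dd` have the same order at every place of the class. -/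
theorem exists_local_datum_ord (hτ : ∀ x : FL, ψ (τL x) = g • ψ x) (C : Place K F → Prop)
    (hC : ∀ P : Place K F, C (g • P) ↔ C P) (D : Divisor K F)
    (hloc : ∀ P : Place K F, C P → D P ≠ 0 → g • P = P ∨ Good ψ C P ∨ Good ψ C (g • P))
    (p n : ℕ) (f : FL) (hf0 : f ≠ 0) (hf : ∀ P : Place K F, P.ord (ψ f) = (p : ℤ) ^ n * D P) :
    ∃ h : FL, h ≠ 0 ∧ ∀ Q : Place K F, C Q →
      Q.ord (ψ (τL (τL f) * f / (τL f) ^ 2)) =
        Q.ord (ψ ((τL (τL h) * h / (τL h) ^ 2) ^ (p ^ n))) := by
  obtain ⟨h, hh0, hh⟩ := exists_local_dd g ψ τL hτ C hC D hloc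
  refine ⟨h, hh0, fun Q hQ => ?_⟩
  have hpow : Q.ord (ψ ((τL (τL h) * h / (τL h) ^ 2) ^ (p ^ n))) =
      (p : ℤ) ^ n * Q.ord (ψ (τL (τL h) * h / (τL h) ^ 2)) := by
    rw [map_pow, ← zpow_natCast, Place.ord_zpow]
    push_cast
    rfl
  rw [hpow, hh Q hQ, ord_doubleDiff g ψ τL hτ Q hf0, hf, hf, hf, dd_eval]
  ring

/-- **End of the Kummer induction.**  If the double difference of `f` (`div f = p ^ n • D`) is
a constant times a `p ^ n`-th power, then `dd g D` is principal. -/
theorem dd_mem_principal_of_root (hτ : ∀ x : FL, ψ (τL x) = g • ψ x) (D : Divisor K F)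
    (p n : ℕ) (hp : p ≠ 0) (f : FL) (hf0 : f ≠ 0)
    (hf : ∀ P : Place K F, P.ord (ψ f) = (p : ℤ) ^ n * D P) (a h : FL)
    (ha : ∀ P : Place K F, P.ord (ψ a) = 0)
    (hroot : τL (τL f) * f / (τL f) ^ 2 = a * h ^ (p ^ n)) :
    dd g D ∈ Divisor.principal (K := K) (F := F) := by
  have hne : τL (τL f) * f / (τL f) ^ 2 ≠ 0 :=
    div_ne_zero (mul_ne_zero ((map_ne_zero τL).mpr ((map_ne_zero τL).mpr hf0)) hf0)
      (pow_ne_zero 2 ((map_ne_zero τL).mpr hf0))
  rw [hroot] at hne
  have ha0 : a ≠ 0 := left_ne_zero_of_mul hne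
  have hh0 : h ≠ 0 := fun h0 => by
    rw [h0, zero_pow (pow_ne_zero n hp), mul_zero] at hne
    exact hne rfl
  refine ⟨ψ h, (map_ne_zero ψ).mpr hh0, fun P => ?_⟩
  have h1 := ord_doubleDiff g ψ τL hτ P hf0
  rw [hroot, map_mul, P.ord_mul ((map_ne_zero ψ).mpr ha0)
    ((map_ne_zero ψ).mpr (pow_ne_zero _ hh0)), ha P, map_pow, ← zpow_natCast, Place.ord_zpow,
    hf, hf, hf] at h1
  have h2 : (p : ℤ) ^ n * P.ord (ψ h) = (p : ℤ) ^ n * dd g D P := by
    rw [dd_eval]
    push_cast at h1
    linarith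
  have hpn : ((p : ℤ) ^ n) ≠ 0 := pow_ne_zero n (Int.natCast_ne_zero.mpr hp)
  exact (mul_left_cancel₀ hpn h2).symm

end Fermat.Agent.S34.DDLocal
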