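import Mathlib
import Fermat.Agent.S34.Sections
import Fermat.Agent.S34.GenAt
import Fermat.Agent.S34.ApproxNode

/-!
# S34, package B4 (instance glue, chart-independent): the contract (LOC) in place currency

Currency of `S34.Sections` / `S37.WChart`: `ι : L →+* K`, `W : ValuationSubring L`, a chart `R`
(here: the LOCAL ring `B_𝔫` of a chart at a closed point, noetherian and integrally closed) with
`ψ : R →+* F`, places `P : Place K F`, sections `s : R →ₐ[W] W` with `IsSectionOf ι W ψ P s`.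

* `mem_minimalPrimes_of_lt` (Krull): if the maximal ideal is minimal over a two-generated ideal,
  every nonzero non-maximal prime is minimal over each of its nonzero elements;
  `minimal_smooth`, `minimal_node` supply the hypothesis at a smooth point `(π, u)` and at a node
  `(π, X, Y)`, `π ∣ X * Y`.
* `ord_of_isLocalGen` : a local generator `f` of `ker s_P` (`GenAt.IsLocalGen`) has order `1` at
  `P` and order `0` at every other place through the chart.
* `eq_of_isSectionOf` : a rational unramified place is determined by its section.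
* `ratAtB_localization` : `RatAtB` passes from the chart to its local ring.
* `loc_place` : **(LOC)** — of two distinct rational places through a smooth point or a node, at
  least one has a local equation (`GoodAt`).
-/

set_option autoImplicit false
set_option linter.unusedSectionVars false

namespace Fermat.Agent.S34.LocPlace

open AlgebraicCurve IsLocalRing Fermat.Agent.S37.GaloisValue Fermat.Agent.S37.WChart
  Fermat.Agent.S34.Sections

/-! ### Height of horizontal primes -/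

section Height

variable {R : Type*} [CommRing R] [IsDomain R] [IsNoetherianRing R] [IsLocalRing R]

/-- **Horizontal primes have height one.**  If the maximal ideal of the noetherian local domain
`R` is minimal over a two-generated ideal, then every prime `𝔮 ≠ 𝔪` is minimal over each of its
nonzero elements. -/
theorem mem_minimalPrimes_of_lt (a b : R)
    (h : maximalIdeal R ∈ (Ideal.span {a, b} : Ideal R).minimalPrimes)
    (𝔮 : Ideal R) [h𝔮 : 𝔮.IsPrime] (hlt : 𝔮 < maximalIdeal R) (c : R) (hc : c ∈ 𝔮)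
    (hc0 : c ≠ 0) : 𝔮 ∈ (Ideal.span {c} : Ideal R).minimalPrimes := by
  classical
  have hht : (maximalIdeal R).height ≤ 2 := by
    have h1 : maximalIdeal R ∈ (Ideal.span (({a, b} : Finset R) : Set R)).minimalPrimes := by
      rw [Finset.coe_pair]
      exact h
    refine (Ideal.height_le_card_of_mem_minimalPrimes_span_finset h1).trans ?_
    exact_mod_cast Finset.card_le_two
  have hle : Ideal.span {c} ≤ 𝔮 := (Ideal.span_singleton_le_iff_mem 𝔮).mpr hc
  obtain ⟨𝔮', h𝔮'min, h𝔮'le⟩ := Ideal.exists_minimalPrimes_le hle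
  have h𝔮'p : 𝔮'.IsPrime := h𝔮'min.1.1
  by_cases heq : 𝔮' = 𝔮
  · rw [← heq]
    exact h𝔮'min
  · exfalso
    have hlt' : 𝔮' < 𝔮 := lt_of_le_of_ne h𝔮'le heq
    have hc' : c ∈ 𝔮' := h𝔮'min.1.2 (Ideal.subset_span rfl)
    have hbot : (⊥ : Ideal R) < 𝔮' := by
      rw [bot_lt_iff_ne_bot]
      intro h0
      rw [h0, Ideal.mem_bot] at hc'
      exact hc0 hc'
    have h1 : (⊥ : Ideal R).height + 1 ≤ 𝔮'.height :=
      Ideal.height_add_one_le_of_lt_of_isPrime hbot
    have h2 : 𝔮'.height + 1 ≤ 𝔮.height := Ideal.height_add_one_le_of_lt_of_isPrime hlt'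
    have h3 : 𝔮.height + 1 ≤ (maximalIdeal R).height :=
      Ideal.height_add_one_le_of_lt_of_isPrime hlt
    have h4 : (1 : ℕ∞) ≤ 𝔮'.height := le_trans le_add_self h1
    have h5 : (2 : ℕ∞) ≤ 𝔮.height := by
      refine le_trans ?_ h2
      calc (2 : ℕ∞) = 1 + 1 := by norm_num
        _ ≤ 𝔮'.height + 1 := by gcongr
    have h6 : (3 : ℕ∞) ≤ (maximalIdeal R).height := by
      refine le_trans ?_ h3
      calc (3 : ℕ∞) = 2 + 1 := by norm_num
        _ ≤ 𝔮.height + 1 := by gcongr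
    have h7 : (3 : ℕ∞) ≤ 2 := h6.trans hht
    exact absurd h7 (by norm_num)

/-- the maximal ideal of a smooth point is (minimal over) a two-generated ideal -/
theorem minimal_smooth (π u : R) (h𝔫 : maximalIdeal R = Ideal.span {π, u}) :
    maximalIdeal R ∈ (Ideal.span {π, u} : Ideal R).minimalPrimes := by
  rw [← h𝔫]
  exact ⟨⟨inferInstance, le_rfl⟩, fun J hJ _ => hJ.2⟩

/-- the maximal ideal of a node is minimal over the two-generated ideal `(π, X + Y)` -/
theorem minimal_node (π X Y : R) (h𝔫 : maximalIdeal R = Ideal.span {π, X, Y})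
    (hXY : π ∣ X * Y) :
    maximalIdeal R ∈ (Ideal.span {π, X + Y} : Ideal R).minimalPrimes := by
  have hπ : π ∈ maximalIdeal R := by rw [h𝔫]; exact Ideal.subset_span (by simp)
  have hX : X ∈ maximalIdeal R := by rw [h𝔫]; exact Ideal.subset_span (by simp)
  have hY : Y ∈ maximalIdeal R := by rw [h𝔫]; exact Ideal.subset_span (by simp)
  refine ⟨⟨inferInstance, ?_⟩, ?_⟩
  · rw [Ideal.span_le]
    intro z hz
    simp only [Set.mem_insert_iff, Set.mem_singleton_iff] at hz
    rcases hz with rfl | rfl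
    · exact hπ
    · exact (maximalIdeal R).add_mem hX hY
  · rintro J ⟨hJp, hJ⟩ -
    have hπJ : π ∈ J := hJ (Ideal.subset_span (by simp))
    have hXYJ : X + Y ∈ J := hJ (Ideal.subset_span (by simp))
    obtain ⟨z, hz⟩ := hXY
    have hX2 : X * X ∈ J := by
      have : X * X = X * (X + Y) - π * z := by rw [← hz]; ring
      rw [this]
      exact J.sub_mem (J.mul_mem_left _ hXYJ) (J.mul_mem_right _ hπJ)
    have hXJ : X ∈ J := (hJp.mem_or_mem hX2).elim id id
    have hYJ : Y ∈ J := by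
      have : Y = (X + Y) - X := by ring
      rw [this]
      exact J.sub_mem hXYJ hXJ
    rw [h𝔫, Ideal.span_le]
    intro z hz
    simp only [Set.mem_insert_iff, Set.mem_singleton_iff] at hz
    rcases hz with rfl | rfl | rfl
    · exact hπJ
    · exact hXJ
    · exact hYJ

end Height

/-! ### Orders of a local generator; a place is determined by its section -/

section Ord

variable {K F L : Type*} [Field K] [Field F] [Algebra K F] [Field L]
  (ι : L →+* K) (W : ValuationSubring L)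
  {R : Type*} [CommRing R] [IsDomain R] [IsNoetherianRing R] [Algebra W R]
  (ψ : R →+* F)

variable {ι W ψ}

/-- a function of the chart not vanishing at the place of a section has order `0` there -/
theorem ord_eq_zero_of_section_ne_zero {P : Place K F} {s : R →ₐ[W] W}
    (hs : IsSectionOf ι W ψ P s) {d : R} (hd : s d ≠ 0) : P.ord (ψ d) = 0 := by
  refine ord_eq_zero_of_isValueAt (hs d) ?_
  intro h0
  exact hd (Subtype.ext ((map_eq_zero ι).mp h0))

/-- a nonzero function of the chart vanishing at the place of a section has positive order -/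
theorem ord_pos_of_section_eq_zero (hψ : Function.Injective ψ) {P : Place K F}
    {s : R →ₐ[W] W} (hs : IsSectionOf ι W ψ P s) {y : R} (hy0 : y ≠ 0) (hy : s y = 0) :
    0 < P.ord (ψ y) :=
  ord_pos_of_isValueAt_zero ((hs.eq_zero_iff y).mp hy)
    (fun h => hy0 (hψ (by rw [h, map_zero])))

/-- a rational unramified place has a nonzero chart function vanishing at it -/
theorem exists_ne_zero_section_eq_zero (hψ : Function.Injective ψ) {P : Place K F}
    {s : R →ₐ[W] W} (hs : IsSectionOf ι W ψ P s) (hR : RatAtB ι ψ P) :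
    ∃ c : R, c ≠ 0 ∧ s c = 0 := by
  obtain ⟨y₁, y₂, hy₁, hy₂, h1⟩ := hR.2.1
  refine ⟨y₁, hy₁, ?_⟩
  by_contra hne
  have e1 : P.ord (ψ y₁) = 0 := ord_eq_zero_of_section_ne_zero hs hne
  have e2 : 0 ≤ P.ord (ψ y₂) :=
    ord_nonneg_of_mem (hs y₂).mem (fun h => hy₂ (hψ (by rw [h, map_zero])))
  omega

/-- **Factorisation by a local generator**: every nonzero chart function is, up to functions not
vanishing at `P`, a power of the local generator `f`. -/
theorem exists_pow_mul_of_isLocalGen (hψ : Function.Injective ψ) {π : W} {P : Place K F}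
    {s : R →ₐ[W] W} (hs : IsSectionOf ι W ψ P s) {f : R} (hf0 : f ≠ 0)
    (hf : GenAt.IsLocalGen π s f) :
    ∀ (n : ℕ) (y : R), y ≠ 0 → (P.ord (ψ y)).toNat ≤ n →
      ∃ (k : ℕ) (d c : R), s d ≠ 0 ∧ s c ≠ 0 ∧ d * y = f ^ k * c := by
  have hψ0 : ∀ y : R, y ≠ 0 → ψ y ≠ 0 := fun y hy h => hy (hψ (by rw [h, map_zero]))
  have hf1 : s f = 0 := hf.1
  have hfpos : 0 < P.ord (ψ f) := ord_pos_of_section_eq_zero hψ hs hf0 hf1
  have h1 : s (1 : R) ≠ 0 := by rw [map_one]; exact one_ne_zero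
  intro n
  induction n with
  | zero =>
    intro y hy hn
    by_cases hsy : s y = 0
    · exfalso
      have := ord_pos_of_section_eq_zero hψ hs hy hsy
      omega
    · exact ⟨0, 1, y, h1, hsy, by ring⟩
  | succ n ih =>
    intro y hy hn
    by_cases hsy : s y = 0
    · obtain ⟨t, ht, z, hz⟩ := hf.2.1 y hsy
      have ht' : s t ≠ 0 := ht
      have ht0 : t ≠ 0 := by
        rintro rfl
        exact ht' (map_zero s)
      have hz0 : z ≠ 0 := by
        rintro rfl
        rw [mul_zero] at hz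
        exact (mul_ne_zero ht0 hy) hz
      have e1 : ψ t * ψ y = ψ f * ψ z := by rw [← map_mul, hz, map_mul]
      have e2 := congrArg P.ord e1
      rw [P.ord_mul (hψ0 t ht0) (hψ0 y hy), P.ord_mul (hψ0 f hf0) (hψ0 z hz0),
        ord_eq_zero_of_section_ne_zero hs ht'] at e2
      have hzn : (P.ord (ψ z)).toNat ≤ n := by omega
      obtain ⟨k, d, c, hd, hc, hdz⟩ := ih z hz0 hzn
      refine ⟨k + 1, d * t, c, ?_, hc, ?_⟩
      · rw [map_mul]
        exact mul_ne_zero hd ht'
      · calc d * t * y = d * (t * y) := by ring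
          _ = d * (f * z) := by rw [hz]
          _ = f * (d * z) := by ring
          _ = f * (f ^ k * c) := by rw [hdz]
          _ = f ^ (k + 1) * c := by ring
    · exact ⟨0, 1, y, h1, hsy, by ring⟩

/-- a local generator at a rational unramified place is nonzero -/
theorem ne_zero_of_isLocalGen (hψ : Function.Injective ψ) {π : W} {P : Place K F}
    {s : R →ₐ[W] W} (hs : IsSectionOf ι W ψ P s) (hR : RatAtB ι ψ P) {f : R}
    (hf : GenAt.IsLocalGen π s f) : f ≠ 0 := by
  rintro rfl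
  obtain ⟨c, hc0, hc⟩ := exists_ne_zero_section_eq_zero hψ hs hR
  obtain ⟨t, ht, z, hz⟩ := hf.2.1 c hc
  rw [zero_mul] at hz
  have ht' : s t ≠ 0 := ht
  have ht0 : t ≠ 0 := by
    rintro rfl
    exact ht' (map_zero s)
  exact (mul_ne_zero ht0 hc0) hz

/-- **The order of a local generator.**  A local generator `f` of `ker s_P` (`GenAt.IsLocalGen`)
at a rational unramified place `P` has order `1` at `P` and order `0` at every other place
through the chart. -/
theorem ord_of_isLocalGen (hψ : Function.Injective ψ)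
    (hψW : ∀ w : W, ψ (algebraMap W R w) = algebraMap K F (ι w))
    {π : W} (hπ0 : π ≠ 0) {P : Place K F} {s : R →ₐ[W] W} (hs : IsSectionOf ι W ψ P s)
    (hR : RatAtB ι ψ P) {f : R} (hf : GenAt.IsLocalGen π s f) :
    P.ord (ψ f) = 1 ∧ ∀ Q : Place K F, (∀ r : R, ψ r ∈ Q.toValuationSubring) → Q ≠ P →
      Q.ord (ψ f) = 0 := by
  have hψ0 : ∀ y : R, y ≠ 0 → ψ y ≠ 0 := fun y hy h => hy (hψ (by rw [h, map_zero]))
  have hf0 : f ≠ 0 := ne_zero_of_isLocalGen hψ hs hR hf
  have hf1 : s f = 0 := hf.1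
  have he : 0 < P.ord (ψ f) := ord_pos_of_section_eq_zero hψ hs hf0 hf1
  have hfac : ∀ y : R, y ≠ 0 → ∃ (k : ℕ) (d c : R), s d ≠ 0 ∧ s c ≠ 0 ∧ d * y = f ^ k * c :=
    fun y hy => exists_pow_mul_of_isLocalGen hψ hs hf0 hf _ y hy le_rfl
  -- orders at `P`
  have hP : ∀ (y : R) (k : ℕ) (d c : R), y ≠ 0 → s d ≠ 0 → s c ≠ 0 → d * y = f ^ k * c →
      P.ord (ψ y) = k * P.ord (ψ f) := by
    intro y k d c hy hd hc h
    have hd0 : d ≠ 0 := by
      rintro rfl
      exact hd (map_zero s)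
    have hc0 : c ≠ 0 := by
      rintro rfl
      exact hc (map_zero s)
    have e1 : ψ d * ψ y = ψ f ^ k * ψ c := by rw [← map_mul, h, map_mul, map_pow]
    have e2 := congrArg P.ord e1
    rw [P.ord_mul (hψ0 d hd0) (hψ0 y hy), P.ord_mul (pow_ne_zero k (hψ0 f hf0)) (hψ0 c hc0),
      ord_pow, ord_eq_zero_of_section_ne_zero hs hd, ord_eq_zero_of_section_ne_zero hs hc] at e2
    linarith
  have hordP : P.ord (ψ f) = 1 := by
    obtain ⟨y₁, y₂, hy₁, hy₂, h1⟩ := hR.2.1
    obtain ⟨k₁, d₁, c₁, hd₁, hc₁, e₁⟩ := hfac y₁ hy₁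
    obtain ⟨k₂, d₂, c₂, hd₂, hc₂, e₂⟩ := hfac y₂ hy₂
    rw [hP y₁ k₁ d₁ c₁ hy₁ hd₁ hc₁ e₁, hP y₂ k₂ d₂ c₂ hy₂ hd₂ hc₂ e₂] at h1
    refine Int.eq_one_of_dvd_one he.le ⟨(k₁ : ℤ) - k₂, ?_⟩
    linarith
  refine ⟨hordP, fun Q hQ hne => ?_⟩
  by_contra hord
  apply hne
  have hfQ : ψ f ∈ Q.toValuationSubring.nonunits := by
    by_contra hnot
    exact hord (ord_eq_zero_of_mem_of_notMem_nonunits (hQ f) hnot)
  -- the zero ideal of `Q`
  let φ : R →+* Q.toValuationSubring :=
    { toFun := fun y => ⟨ψ y, hQ y⟩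
      map_one' := Subtype.ext (map_one ψ)
      map_mul' := fun x y => Subtype.ext (map_mul ψ x y)
      map_zero' := Subtype.ext (map_zero ψ)
      map_add' := fun x y => Subtype.ext (map_add ψ x y) }
  set 𝔮 : Ideal R := (IsLocalRing.maximalIdeal Q.toValuationSubring).comap φ with h𝔮
  have hmem𝔮 : ∀ y : R, y ∈ 𝔮 ↔ ψ y ∈ Q.toValuationSubring.nonunits := by
    intro y
    rw [h𝔮, Ideal.mem_comap]
    exact (ValuationSubring.coe_mem_nonunits_iff (a := φ y)).symm
  have h𝔮p : 𝔮.IsPrime := Ideal.comap_isPrime _ _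
  have hπ𝔮 : algebraMap W R π ∉ 𝔮 := by
    rw [hmem𝔮, hψW]
    refine algebraMap_notMem_nonunits Q ?_
    intro h0
    exact hπ0 (Subtype.ext ((map_eq_zero ι).mp h0))
  have h𝔮eq : 𝔮 = RingHom.ker (s : R →+* W) := hf.2.2 𝔮 h𝔮p ((hmem𝔮 f).mpr hfQ) hπ𝔮
  have hunitQ : ∀ d : R, s d ≠ 0 → Q.ord (ψ d) = 0 := by
    intro d hd
    refine ord_eq_zero_of_mem_of_notMem_nonunits (hQ d) ?_
    intro h
    have : d ∈ 𝔮 := (hmem𝔮 d).mpr h
    rw [h𝔮eq] at this
    exact hd this
  have heQ : 0 < Q.ord (ψ f) := ord_pos_of_mem_nonunits hfQ (hψ0 f hf0)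
  have hQo : ∀ (y : R) (k : ℕ) (d c : R), y ≠ 0 → s d ≠ 0 → s c ≠ 0 → d * y = f ^ k * c →
      Q.ord (ψ y) = k * Q.ord (ψ f) := by
    intro y k d c hy hd hc h
    have hd0 : d ≠ 0 := by
      rintro rfl
      exact hd (map_zero s)
    have hc0 : c ≠ 0 := by
      rintro rfl
      exact hc (map_zero s)
    have e1 : ψ d * ψ y = ψ f ^ k * ψ c := by rw [← map_mul, h, map_mul, map_pow]
    have e2 := congrArg Q.ord e1
    rw [Q.ord_mul (hψ0 d hd0) (hψ0 y hy), Q.ord_mul (pow_ne_zero k (hψ0 f hf0)) (hψ0 c hc0),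
      ord_pow, hunitQ d hd, hunitQ c hc] at e2
    linarith
  apply hR.2.2 Q
  intro y₁ y₂ hy₁ hy₂
  obtain ⟨k₁, d₁, c₁, hd₁, hc₁, e₁⟩ := hfac y₁ hy₁
  obtain ⟨k₂, d₂, c₂, hd₂, hc₂, e₂⟩ := hfac y₂ hy₂
  rw [hP y₁ k₁ d₁ c₁ hy₁ hd₁ hc₁ e₁, hP y₂ k₂ d₂ c₂ hy₂ hd₂ hc₂ e₂,
    hQo y₁ k₁ d₁ c₁ hy₁ hd₁ hc₁ e₁, hQo y₂ k₂ d₂ c₂ hy₂ hd₂ hc₂ e₂, hordP, mul_one, mul_one]
  constructor
  · intro h
    exact_mod_cast le_of_mul_le_mul_right h heQ
  · intro h
    exact mul_le_mul_of_nonneg_right (by exact_mod_cast h) heQ.le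

/-- **A rational unramified place is determined by its section**, as soon as the kernel of the
section is minimal over its nonzero elements (horizontal primes have height one). -/
theorem eq_of_isSectionOf [IsIntegrallyClosed R] (hψ : Function.Injective ψ)
    {P P' : Place K F} {s : R →ₐ[W] W} (hs : IsSectionOf ι W ψ P s)
    (hs' : IsSectionOf ι W ψ P' s) (hR : RatAtB ι ψ P)
    (hmin : ∀ c : R, c ≠ 0 → s c = 0 →
      RingHom.ker (s : R →+* W) ∈ (Ideal.span {c} : Ideal R).minimalPrimes) : P' = P := by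
  have hψ0 : ∀ y : R, y ≠ 0 → ψ y ≠ 0 := fun y hy h => hy (hψ (by rw [h, map_zero]))
  obtain ⟨c, hc0, hc⟩ := exists_ne_zero_section_eq_zero hψ hs hR
  obtain ⟨t, ht, ht0, hfac⟩ := HeightOne.exists_uniformizer c hc0 _ (hmin c hc0 hc)
  have hst : s t = 0 := ht
  have he : 0 < P.ord (ψ t) := ord_pos_of_section_eq_zero hψ hs ht0 hst
  have he' : 0 < P'.ord (ψ t) := ord_pos_of_section_eq_zero hψ hs' ht0 hst
  have key : ∀ (Q : Place K F), IsSectionOf ι W ψ Q s → ∀ (y : R) (k : ℕ) (d c : R), y ≠ 0 →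
      d ∉ RingHom.ker (s : R →+* W) → c ∉ RingHom.ker (s : R →+* W) → d * y = t ^ k * c →
      Q.ord (ψ y) = k * Q.ord (ψ t) := by
    intro Q hQ y k d c hy hd hc h
    have hd' : s d ≠ 0 := hd
    have hc' : s c ≠ 0 := hc
    have hd0 : d ≠ 0 := by
      rintro rfl
      exact hd' (map_zero s)
    have hc0 : c ≠ 0 := by
      rintro rfl
      exact hc' (map_zero s)
    have e1 : ψ d * ψ y = ψ t ^ k * ψ c := by rw [← map_mul, h, map_mul, map_pow]
    have e2 := congrArg Q.ord e1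
    rw [Q.ord_mul (hψ0 d hd0) (hψ0 y hy), Q.ord_mul (pow_ne_zero k (hψ0 t ht0)) (hψ0 c hc0),
      ord_pow, ord_eq_zero_of_section_ne_zero hQ hd', ord_eq_zero_of_section_ne_zero hQ hc'] at e2
    linarith
  apply hR.2.2 P'
  intro y₁ y₂ hy₁ hy₂
  obtain ⟨k₁, d₁, c₁, hd₁, hc₁, e₁⟩ := hfac y₁ hy₁
  obtain ⟨k₂, d₂, c₂, hd₂, hc₂, e₂⟩ := hfac y₂ hy₂
  rw [key P hs y₁ k₁ d₁ c₁ hy₁ hd₁ hc₁ e₁, key P hs y₂ k₂ d₂ c₂ hy₂ hd₂ hc₂ e₂,
    key P' hs' y₁ k₁ d₁ c₁ hy₁ hd₁ hc₁ e₁, key P' hs' y₂ k₂ d₂ c₂ hy₂ hd₂ hc₂ e₂]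
  constructor
  · intro h
    exact mul_le_mul_of_nonneg_right (le_of_mul_le_mul_right h he') he.le
  · intro h
    exact mul_le_mul_of_nonneg_right (le_of_mul_le_mul_right h he) he'.le

end Ord

/-! ### `RatAtB` passes to the local ring -/

section Localization

variable {K F L : Type*} [Field K] [Field F] [Algebra K F] [Field L]
  (A : ValuationSubring K) (ι : L →+* K) {W : ValuationSubring L}
  {B : Type*} [CommRing B] [IsDomain B] [IsNoetherianRing B] [Algebra W B]
  {ψ : B →+* F}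
  {R : Type*} [CommRing R] [IsDomain R] [IsNoetherianRing R] [Algebra W R] [Algebra B R]
  [IsScalarTower W B R] [IsLocalRing R]
  {ψR : R →+* F} {𝔫 : Ideal B} [𝔫.IsPrime] [IsLocalization.AtPrime R 𝔫]

/-- a rational unramified integral point of the chart with centre `𝔫` is rational and unramified
on the local ring `B_𝔫` -/
theorem ratAtB_localization (hψR : ∀ y : B, ψR (algebraMap B R y) = ψ y)
    {P : Place K F} (hP : InClass A ψ 𝔫 P) (hR : RatAtB ι ψ P) : RatAtB ι ψR P := by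
  have hinj : Function.Injective (algebraMap B R) :=
    IsLocalization.injective R 𝔫.primeCompl_le_nonZeroDivisors
  have hne : ∀ y : B, y ≠ 0 → algebraMap B R y ≠ 0 := fun y hy h =>
    hy (hinj (by rw [h, map_zero]))
  refine ⟨ratOn_localization A ι hψR hP hR.1, ?_, ?_⟩
  · obtain ⟨y₁, y₂, hy₁, hy₂, h⟩ := hR.2.1
    exact ⟨algebraMap B R y₁, algebraMap B R y₂, hne y₁ hy₁, hne y₂ hy₂, by
      rw [hψR, hψR]; exact h⟩
  · intro P' hP'
    apply hR.2.2 P'
    intro y₁ y₂ hy₁ hy₂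
    have := hP' (algebraMap B R y₁) (algebraMap B R y₂) (hne y₁ hy₁) (hne y₂ hy₂)
    rwa [hψR, hψR] at this

end Localization

/-! ### The contract (LOC) -/

section Loc

variable {K F L : Type*} [Field K] [Field F] [Algebra K F] [Field L]
  {ι : L →+* K} {W : ValuationSubring L}
  {R : Type*} [CommRing R] [IsDomain R] [IsNoetherianRing R] [IsLocalRing R]
  [IsIntegrallyClosed R] [Algebra W R]

/-- the place `P` has a local equation on the chart `R`: a function of order `1` at `P` and of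
order `0` at every other place through the chart -/
def GoodAt (ψ : R →+* F) (P : Place K F) : Prop :=
  ∃ f : R, f ≠ 0 ∧ P.ord (ψ f) = 1 ∧
    ∀ Q : Place K F, (∀ r : R, ψ r ∈ Q.toValuationSubring) → Q ≠ P → Q.ord (ψ f) = 0

variable {ψ : R →+* F}

/-- a section with a local generator gives a local equation of its place -/
theorem goodAt_of_isLocalGen (hψ : Function.Injective ψ)
    (hψW : ∀ w : W, ψ (algebraMap W R w) = algebraMap K F (ι w))
    {π : W} (hπ0 : π ≠ 0) {P : Place K F} {s : R →ₐ[W] W} (hs : IsSectionOf ι W ψ P s)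
    (hR : RatAtB ι ψ P) {f : R} (hf : GenAt.IsLocalGen π s f) : GoodAt ψ P :=
  ⟨f, ne_zero_of_isLocalGen hψ hs hR hf, ord_of_isLocalGen hψ hψW hπ0 hs hR hf⟩

/-- the kernel of a section is strictly smaller than the maximal ideal -/
theorem ker_lt_maximalIdeal {π : W} (hπ0 : π ≠ 0) (hπ : algebraMap W R π ∈ maximalIdeal R)
    (s : R →ₐ[W] W) : RingHom.ker (s : R →+* W) < maximalIdeal R := by
  refine lt_of_le_of_ne (GenAt.ker_le_maximalIdeal s) ?_
  intro h
  rw [← h, RingHom.mem_ker] at hπ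
  have h1 : (s : R →+* W) (algebraMap W R π) = π := by
    show s (algebraMap W R π) = π
    rw [AlgHom.commutes]
    rfl
  rw [h1] at hπ
  exact hπ0 hπ

/-- **(LOC) at a smooth point**: every rational unramified place through a smooth point
`𝔫 = (π, u)` has a local equation. -/
theorem loc_place_smooth (hψ : Function.Injective ψ)
    (hψW : ∀ w : W, ψ (algebraMap W R w) = algebraMap K F (ι w))
    (π : W) (hW : ∀ w : W, IsUnit w ∨ π ∣ w) (hπ0 : π ≠ 0)
    (hsep : ∀ w : W, w ≠ 0 → ∃ n : ℕ, ¬ π ^ n ∣ w)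
    (u : R) (h𝔫 : maximalIdeal R = Ideal.span {algebraMap W R π, u})
    {P : Place K F} {s : R →ₐ[W] W} (hs : IsSectionOf ι W ψ P s) (hR : RatAtB ι ψ P) :
    GoodAt ψ P :=
  goodAt_of_isLocalGen hψ hψW hπ0 hs hR ((GenAt.exists_gen_smooth hW hπ0 hsep u h𝔫 s s s).1 s).2

/-- **(LOC) at a node** `𝔫 = (π, X, Y)`, `π ∣ X * Y`: of two distinct rational unramified places
through the node, at least one has a local equation. -/
theorem loc_place_node (hψ : Function.Injective ψ)
    (hψW : ∀ w : W, ψ (algebraMap W R w) = algebraMap K F (ι w))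
    (π : W) (hW : ∀ w : W, IsUnit w ∨ π ∣ w) (hπ0 : π ≠ 0)
    (hsep : ∀ w : W, w ≠ 0 → ∃ n : ℕ, ¬ π ^ n ∣ w)
    (X Y : R) (h𝔫 : maximalIdeal R = Ideal.span {algebraMap W R π, X, Y})
    (hXY : algebraMap W R π ∣ X * Y)
    {P P' : Place K F} {s s' : R →ₐ[W] W} (hs : IsSectionOf ι W ψ P s)
    (hs' : IsSectionOf ι W ψ P' s') (hR : RatAtB ι ψ P) (hR' : RatAtB ι ψ P')
    (hne : P ≠ P') : GoodAt ψ P ∨ GoodAt ψ P' := by
  have hsurj : ∀ r : R, ∃ w : W,
      r - algebraMap W R w ∈ Ideal.span {algebraMap W R π, X, Y} := by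
    intro r
    refine ⟨s r, ?_⟩
    rw [← h𝔫]
    exact GenAt.ker_le_maximalIdeal s (GenAt.sub_algebraMap_mem_ker s r)
  obtain ⟨Xs, Ys, cs, rs, -, -, hprod, -, -, hspan⟩ :=
    ApproxNode.exists_approx (algebraMap W R) π X Y hsurj hXY
  rcases GenAt.exists_gen_or_eq hW hπ0 hsep Xs Ys cs rs (fun n => n + 1)
      (fun k => ⟨k, Nat.le_succ k⟩) (fun n => by rw [h𝔫, hspan n]) hprod s s' with h | h | h
  · exfalso
    subst h
    have hπmem : algebraMap W R π ∈ maximalIdeal R := by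
      rw [h𝔫]; exact Ideal.subset_span (by simp)
    have hlt := ker_lt_maximalIdeal hπ0 hπmem s
    have hmin : ∀ c : R, c ≠ 0 → s c = 0 →
        RingHom.ker (s : R →+* W) ∈ (Ideal.span {c} : Ideal R).minimalPrimes := by
      intro c hc0 hc
      have hker : (RingHom.ker (s : R →+* W)).IsPrime := RingHom.ker_isPrime _
      exact mem_minimalPrimes_of_lt (algebraMap W R π) (X + Y)
        (minimal_node _ X Y h𝔫 hXY) _ hlt c hc hc0
    exact hne (eq_of_isSectionOf hψ hs hs' hR hmin).symm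
  · obtain ⟨f, hf⟩ := h
    exact Or.inl (goodAt_of_isLocalGen hψ hψW hπ0 hs hR hf)
  · obtain ⟨f, hf⟩ := h
    exact Or.inr (goodAt_of_isLocalGen hψ hψW hπ0 hs' hR' hf)

/-- **(LOC)**: of two distinct rational unramified places through a smooth point or a node of
the chart, at least one has a local equation. -/
theorem loc_place (hψ : Function.Injective ψ)
    (hψW : ∀ w : W, ψ (algebraMap W R w) = algebraMap K F (ι w))
    (π : W) (hW : ∀ w : W, IsUnit w ∨ π ∣ w) (hπ0 : π ≠ 0)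
    (hsep : ∀ w : W, w ≠ 0 → ∃ n : ℕ, ¬ π ^ n ∣ w)
    (hstruct : (∃ u : R, maximalIdeal R = Ideal.span {algebraMap W R π, u}) ∨
      ∃ X Y : R, maximalIdeal R = Ideal.span {algebraMap W R π, X, Y} ∧
        algebraMap W R π ∣ X * Y)
    {P P' : Place K F} {s s' : R →ₐ[W] W} (hs : IsSectionOf ι W ψ P s)
    (hs' : IsSectionOf ι W ψ P' s') (hR : RatAtB ι ψ P) (hR' : RatAtB ι ψ P')
    (hne : P ≠ P') : GoodAt ψ P ∨ GoodAt ψ P' := by
  rcases hstruct with ⟨u, h𝔫⟩ | ⟨X, Y, h𝔫, hXY⟩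
  · exact Or.inl (loc_place_smooth hψ hψW π hW hπ0 hsep u h𝔫 hs hR)
  · exact loc_place_node hψ hψW π hW hπ0 hsep X Y h𝔫 hXY hs hs' hR hR' hne

end Loc

end Fermat.Agent.S34.LocPlace
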