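import Mathlib
import Fermat.Agent.S34.SectionsLoc
import Fermat.Agent.S34.LocPlace
import Fermat.Agent.S34.DDLocal

/-!
# S34, layer 2: the local datum of the Kummer step at one point of a chart (K-LOC)

Chart-generic composition (`kloc`): for a chart `B` of the level function field `FL` (`φ : B →+*
FL` injective with fraction field `FL`, noetherian, integrally closed, every horizontal prime the
zero ideal of a place), a maximal ideal `𝔫 ∋ ϖ` stable under the automorphism, whose local ring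
is a smooth point or a node (`hstruct`), a divisor `D` on rational unramified places with
`div f = p ^ n • D`, and the vertical regularity of double differences (`hvert`): there are
`h ≠ 0` in `FL` and `d ∉ 𝔫` such that `d * (τ - 1)² (f / h ^ (p ^ n))` lies in the chart.

Ingredients: `Sections` (sections of rational places on the local ring), `LocPlace.loc_place`
(of two distinct rational places through the point one has a local equation),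
`DDLocal.exists_local_datum_ord` (divisor bookkeeping), `SectionsLoc.exists_integral_multiple`
(local Hartogs).
-/

set_option autoImplicit false
set_option linter.unusedSectionVars false
set_option linter.unusedVariables false

noncomputable section

namespace Fermat.Agent.S34.KLoc

open AlgebraicCurve Fermat.Agent.S37.GaloisValue Fermat.Agent.S37.WChart
open Fermat.Agent.S34.Sections Fermat.Agent.S34.SectionsLoc

section InClass

variable {K F L : Type*} [Field K] [Field F] [Algebra K F] [Field L]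
  (A : ValuationSubring K) (ι : L →+* K) (W : ValuationSubring L)
  {B : Type*} [CommRing B] [IsDomain B] [IsNoetherianRing B] [Algebra W B]
  (ψ : B →+* F)

/-- **A rational place through a point of the special fibre is an integral point with that
centre.** -/
theorem inClass_of_through (hWA : ∀ x : L, x ∈ W ↔ ι x ∈ A)
    (hψW : ∀ w : W, ψ (algebraMap W B w) = algebraMap K F (ι w))
    (ϖ : W) (hW : ∀ w : W, IsUnit w ∨ ϖ ∣ w)
    (𝔫 : Ideal B) (h𝔫 : 𝔫 ≠ ⊤) (hϖ𝔫 : algebraMap W B ϖ ∈ 𝔫) {P : Place K F}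
    (hP : Through ψ 𝔫 P) (hrat : RatOn ι ψ P) : InClass A ψ 𝔫 P := by
  have h1𝔫 : (1 : B) ∉ 𝔫 := (Ideal.ne_top_iff_one 𝔫).mp h𝔫
  have hzero : ∀ y : B, IsValueAt P (ψ y) 0 → y ∈ 𝔫 := fun y hy =>
    hP.2 y ((Fermat.Agent.S37.RatPlace.isValueAt_zero_iff P _).mp hy)
  have hnu : ∀ w : W, ¬ IsUnit w → algebraMap W B w ∈ 𝔫 := by
    intro w hw
    obtain ⟨w', rfl⟩ := (hW w).resolve_left hw
    rw [map_mul]
    exact 𝔫.mul_mem_right _ hϖ𝔫
  have hv : ∀ y : B, ∃ w : W, IsValueAt P (ψ y) (ι w) := by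
    intro y
    obtain ⟨c, hc⟩ := hrat y (hP.1 y)
    by_cases hcW : c ∈ W
    · exact ⟨⟨c, hcW⟩, hc⟩
    · exfalso
      have hinv : c⁻¹ ∈ W := (W.mem_or_inv_mem c).resolve_left hcW
      have hc0 : c ≠ 0 := fun h0 => hcW (h0 ▸ W.zero_mem)
      have hunu : ¬ IsUnit (⟨c⁻¹, hinv⟩ : W) := by
        intro hunit
        obtain ⟨v, hv⟩ := hunit.exists_right_inv
        have h1 : c⁻¹ * (v : L) = 1 := by
          have := congrArg Subtype.val hv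
          rwa [MulMemClass.coe_mul, OneMemClass.coe_one] at this
        have h2 : (v : L) = c := by
          have := congrArg (fun z => c * z) h1
          simp only [mul_one] at this
          rw [← mul_assoc, mul_inv_cancel₀ hc0, one_mul] at this
          exact this
        exact hcW (h2 ▸ v.2)
      have hval : IsValueAt P (ψ (y * algebraMap W B (⟨c⁻¹, hinv⟩ : W) - 1)) 0 := by
        have h2 := (hc.mul (isValueAt_algebraMap_W ι W ψ hψW P (⟨c⁻¹, hinv⟩ : W))).sub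
          (isValueAt_algebraMap P (1 : K))
        rw [map_one, ← map_mul, ← map_one ψ, ← map_sub] at h2
        have h3 : ι c * ι ((⟨c⁻¹, hinv⟩ : W) : L) - 1 = 0 := by
          rw [← map_mul]
          show ι (c * c⁻¹) - 1 = 0
          rw [mul_inv_cancel₀ hc0, map_one, sub_self]
        rwa [h3] at h2
      have hmem := hzero _ hval
      have h4 : y * algebraMap W B (⟨c⁻¹, hinv⟩ : W) ∈ 𝔫 := 𝔫.mul_mem_left _ (hnu _ hunu)
      have h5 := 𝔫.sub_mem h4 hmem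
      rw [sub_sub_cancel] at h5
      exact h1𝔫 h5
  choose v hv using hv
  have hmem : ∀ y : B, y ∈ 𝔫 ↔ ¬ IsUnit (v y) := by
    intro y
    have hsub : y - algebraMap W B (v y) ∈ 𝔫 :=
      hzero _ ((isValueAt_sub_iff ι W ψ hψW P y (v y)).mpr (hv y))
    constructor
    · intro hy hunit
      have h2 : algebraMap W B (v y) ∈ 𝔫 := by
        have := 𝔫.sub_mem hy hsub
        rwa [sub_sub_cancel] at this
      exact h𝔫 (Ideal.eq_top_of_isUnit_mem 𝔫 h2 (hunit.map (algebraMap W B)))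
    · intro hnunit
      have := 𝔫.add_mem hsub (hnu _ hnunit)
      rwa [sub_add_cancel] at this
  refine ⟨fun y => ⟨ι (v y), (hWA _).mp (v y).2, hv y⟩, fun y => ?_⟩
  rw [hmem y]
  constructor
  · intro h
    exact ⟨ι (v y), (val_lt_one_iff_not_isUnit A ι W hWA (v y)).mpr h, hv y⟩
  · rintro ⟨c, hc, hcv⟩
    have : c = ι (v y) := hcv.unique (hv y)
    rw [this] at hc
    exact (val_lt_one_iff_not_isUnit A ι W hWA (v y)).mp hc

end InClass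

section Main

variable {K F L FL : Type*} [Field K] [Field F] [Algebra K F] [Field L] [Field FL]
  [Algebra L FL]
  (A : ValuationSubring K) (ι : L →+* K) (W : ValuationSubring L) (bcF : FL →+* F)
  {B : Type*} [CommRing B] [IsDomain B] [IsNoetherianRing B] [IsIntegrallyClosed B]
  [Algebra W B] (φ : B →+* FL)

/-- the extension of an injective chart map to the local ring at a prime -/
def locMap (hφ : Function.Injective φ) (𝔫 : Ideal B) [𝔫.IsPrime] :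
    Localization.AtPrime 𝔫 →+* FL :=
  IsLocalization.lift (M := 𝔫.primeCompl) (g := φ) (fun y => IsUnit.mk0 _ (fun h0 => y.2 (by
    have h1 : (y : B) = 0 := hφ (by rw [h0, map_zero])
    rw [h1]
    exact 𝔫.zero_mem)))

theorem locMap_algebraMap (hφ : Function.Injective φ) (𝔫 : Ideal B) [𝔫.IsPrime] (y : B) :
    locMap φ hφ 𝔫 (algebraMap B (Localization.AtPrime 𝔫) y) = φ y :=
  IsLocalization.lift_eq _ y

theorem locMap_injective (hφ : Function.Injective φ) (𝔫 : Ideal B) [𝔫.IsPrime] :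
    Function.Injective (locMap φ hφ 𝔫) := by
  rw [injective_iff_map_eq_zero]
  intro r hr
  obtain ⟨y, d, hd, h⟩ := exists_rep (R := Localization.AtPrime 𝔫) 𝔫 r
  have h1 := congrArg (locMap φ hφ 𝔫) h
  rw [map_mul, hr, zero_mul, locMap_algebraMap] at h1
  have hy : y = 0 := hφ (by rw [← h1, map_zero])
  rw [hy, map_zero] at h
  have hd0 : algebraMap B (Localization.AtPrime 𝔫) d ≠ 0 := by
    intro h0
    have hinj : Function.Injective (algebraMap B (Localization.AtPrime 𝔫)) :=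
      IsLocalization.injective _ 𝔫.primeCompl_le_nonZeroDivisors
    have : d = 0 := hinj (by rw [h0, map_zero])
    exact hd (this ▸ 𝔫.zero_mem)
  exact (mul_eq_zero.mp h).resolve_right hd0

omit [Algebra L FL] in
/-- the double difference of `f / h ^ m` -/
theorem dd_div_pow (τL : FL ≃+* FL) (f h : FL) (hf : f ≠ 0) (hh : h ≠ 0) (m : ℕ) :
    τL (τL (f / h ^ m)) * (f / h ^ m) / (τL (f / h ^ m)) ^ 2 *
      (τL (τL h) * h / τL h ^ 2) ^ m = τL (τL f) * f / τL f ^ 2 := by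
  have e1 : τL h ≠ 0 := (map_ne_zero τL).mpr hh
  have e2 : τL (τL h) ≠ 0 := (map_ne_zero τL).mpr e1
  have e3 : τL f ≠ 0 := (map_ne_zero τL).mpr hf
  have e4 : τL (τL f) ≠ 0 := (map_ne_zero τL).mpr e3
  simp only [map_div₀, map_pow, div_pow, mul_pow]
  field_simp
  ring

/-- **(K-LOC), horizontal half.**  At a point `𝔫 ∋ ϖ` of a chart which is a smooth point or a
node there is `h ≠ 0` in `FL` such that the double difference of `f / h ^ (p ^ n)` has order `0`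
at every place through `𝔫`. -/
theorem kloc_ord
    (hWA : ∀ x : L, x ∈ W ↔ ι x ∈ A)
    (hφ : Function.Injective φ)
    (hφW : ∀ w : W, bcF (φ (algebraMap W B w)) = algebraMap K F (ι w))
    (hfrac : ∀ x : FL, ∃ y₁ y₂ : B, y₂ ≠ 0 ∧ x * φ y₂ = φ y₁)
    (ϖ : W) (hϖ0 : ϖ ≠ 0) (hW : ∀ w : W, IsUnit w ∨ ϖ ∣ w)
    (hsep : ∀ w : W, w ≠ 0 → ∃ n : ℕ, ¬ ϖ ^ n ∣ w)
    (g : SemilinearAut K F) (τL : FL ≃+* FL) (hτ : ∀ x : FL, bcF (τL x) = g • bcF x)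
    (τB : B ≃+* B) (hτB : ∀ y : B, φ (τB y) = τL (φ y))
    (𝔫 : Ideal B) [h𝔫max : 𝔫.IsMaximal] (hϖ𝔫 : algebraMap W B ϖ ∈ 𝔫)
    (hτ𝔫 : ∀ y : B, τB y ∈ 𝔫 ↔ y ∈ 𝔫)
    (hstruct : (∃ u : Localization.AtPrime 𝔫,
        IsLocalRing.maximalIdeal (Localization.AtPrime 𝔫) =
          Ideal.span {algebraMap W (Localization.AtPrime 𝔫) ϖ, u}) ∨
      ∃ X Y : Localization.AtPrime 𝔫,
        IsLocalRing.maximalIdeal (Localization.AtPrime 𝔫) =
          Ideal.span {algebraMap W (Localization.AtPrime 𝔫) ϖ, X, Y} ∧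
        algebraMap W (Localization.AtPrime 𝔫) ϖ ∣ X * Y)
    (D : Divisor K F)
    (hrat : ∀ P : Place K F, D P ≠ 0 → RatAt ι bcF P)
    (hratg : ∀ P : Place K F, RatAt ι bcF P → RatAt ι bcF (g • P))
    (p n : ℕ) (f : FL) (hf0 : f ≠ 0)
    (hf : ∀ P : Place K F, P.ord (bcF f) = (p : ℤ) ^ n * D P) :
    ∃ h : FL, h ≠ 0 ∧ ∀ Q : Place K F, Through (bcF.comp φ) 𝔫 Q →
      Q.ord (bcF (τL (τL (f / h ^ (p ^ n))) * (f / h ^ (p ^ n)) /
        (τL (f / h ^ (p ^ n))) ^ 2)) = 0 := by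
  classical
  set ψ : B →+* F := bcF.comp φ with hψdef
  have hψ : Function.Injective ψ := bcF.injective.comp hφ
  have hψW : ∀ w : W, ψ (algebraMap W B w) = algebraMap K F (ι w) := hφW
  set R := Localization.AtPrime 𝔫 with hRdef
  set φR : R →+* FL := locMap φ hφ 𝔫 with hφRdef
  have hφR : Function.Injective φR := locMap_injective φ hφ 𝔫
  set ψR : R →+* F := bcF.comp φR with hψRdef
  have hψRinj : Function.Injective ψR := bcF.injective.comp hφR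
  have hψR : ∀ y : B, ψR (algebraMap B R y) = ψ y := fun y => by
    show bcF (φR (algebraMap B R y)) = bcF (φ y)
    rw [hφRdef, locMap_algebraMap]
  have hψRW : ∀ w : W, ψR (algebraMap W R w) = algebraMap K F (ι w) := by
    intro w
    rw [IsScalarTower.algebraMap_apply W B R, hψR, hψW]
  have hicR : IsIntegrallyClosed R :=
    isIntegrallyClosed_of_isLocalization R 𝔫.primeCompl 𝔫.primeCompl_le_nonZeroDivisors
  have hfracR : ∀ x : FL, ∃ r₁ r₂ : R, r₂ ≠ 0 ∧ x * φR r₂ = φR r₁ := by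
    intro x
    obtain ⟨y₁, y₂, hy₂, he⟩ := hfrac x
    refine ⟨algebraMap B R y₁, algebraMap B R y₂, ?_, ?_⟩
    · intro h0
      apply hy₂
      apply hφ
      rw [map_zero, ← locMap_algebraMap φ hφ 𝔫 y₂, h0, map_zero]
    · rw [hφRdef, locMap_algebraMap, locMap_algebraMap]
      exact he
  -- the class of the places through `𝔫`
  set C : Place K F → Prop := fun Q => Through ψ 𝔫 Q with hCdef
  have hτψ : ∀ y : B, ψ (τB y) = g • ψ y := fun y => by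
    show bcF (φ (τB y)) = g • bcF (φ y)
    rw [hτB, hτ]
  have hτψ' : ∀ y : B, ψ (τB.symm y) = g⁻¹ • ψ y := by
    intro y
    have h1 := hτψ (τB.symm y)
    rw [RingEquiv.apply_symm_apply] at h1
    rw [h1, inv_smul_smul]
  have hC : ∀ P : Place K F, C (g • P) ↔ C P := by
    intro P
    constructor
    · intro h
      have h1 := Through.smul g⁻¹ τB.symm hτψ' (fun y hy => by
        rw [← hτ𝔫, RingEquiv.apply_symm_apply]
        exact hy) h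
      rwa [inv_smul_smul] at h1
    · intro h
      exact Through.smul g τB hτψ (fun y hy => (hτ𝔫 y).mpr hy) h
  have hCR : ∀ Q : Place K F, C Q ↔ ∀ r : R, ψR r ∈ Q.toValuationSubring := fun Q =>
    (through_iff_localization W ψ ψR 𝔫 hψR Q).symm
  -- sections and `RatAtB` for the rational places of the class
  have hdata : ∀ P : Place K F, C P → RatAt ι bcF P →
      RatAtB ι ψR P ∧ ∃ s : R →ₐ[W] W, IsSectionOf ι W ψR P s := by
    intro P hCP hPrat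
    have hRB : RatAtB ι ψR P := ratAtB_of_ratAt ι bcF φR hφR hfracR hPrat
    have hratOn : RatOn ι ψ P := fun y hy => hPrat.1 (φ y) hy
    have hin : InClass A ψ 𝔫 P :=
      inClass_of_through A ι W ψ hWA hψW ϖ hW 𝔫 h𝔫max.ne_top hϖ𝔫 hCP hratOn
    obtain ⟨s, hs, -, -⟩ :=
      exists_section_localization (R := R) (ψR := ψR) A ι W hWA hψW hψR hin hratOn
    exact ⟨hRB, s, hs⟩
  -- (LOC)
  have hloc : ∀ P : Place K F, C P → D P ≠ 0 →
      g • P = P ∨ DDLocal.Good bcF C P ∨ DDLocal.Good bcF C (g • P) := by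
    intro P hCP hDP
    by_cases hfix : g • P = P
    · exact Or.inl hfix
    right
    have hPrat := hrat P hDP
    obtain ⟨hRB, s, hs⟩ := hdata P hCP hPrat
    obtain ⟨hRB', s', hs'⟩ := hdata (g • P) ((hC P).mpr hCP) (hratg P hPrat)
    have hgood : ∀ P' : Place K F, LocPlace.GoodAt ψR P' → DDLocal.Good bcF C P' := by
      rintro P' ⟨f', hf'0, hf'1, hf'2⟩
      exact ⟨φR f', fun h0 => hf'0 (hφR (by rw [h0, map_zero])), hf'1,
        fun Q hQ hne => hf'2 Q ((hCR Q).mp hQ) hne⟩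
    rcases LocPlace.loc_place hψRinj hψRW ϖ hW hϖ0 hsep hstruct hs hs' hRB hRB'
      (fun h => hfix h.symm) with h | h
    · exact Or.inl (hgood _ h)
    · exact Or.inr (hgood _ h)
  obtain ⟨h, hh0, hord⟩ :=
    DDLocal.exists_local_datum_ord g bcF τL hτ C hC D hloc p n f hf0 hf
  refine ⟨h, hh0, ?_⟩
  set y : FL := f / h ^ (p ^ n) with hy
  have hy0 : y ≠ 0 := div_ne_zero hf0 (pow_ne_zero _ hh0)
  have hτ0 : ∀ z : FL, z ≠ 0 → τL z ≠ 0 := fun z hz => (map_ne_zero τL).mpr hz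
  have hdd0 : ∀ z : FL, z ≠ 0 → τL (τL z) * z / (τL z) ^ 2 ≠ 0 := fun z hz =>
    div_ne_zero (mul_ne_zero (hτ0 _ (hτ0 z hz)) hz) (pow_ne_zero 2 (hτ0 z hz))
  set x : FL := τL (τL y) * y / (τL y) ^ 2 with hx
  have hx0 : x ≠ 0 := hdd0 y hy0
  have hxeq : x * (τL (τL h) * h / τL h ^ 2) ^ (p ^ n) = τL (τL f) * f / τL f ^ 2 := by
    rw [hx, hy]
    exact dd_div_pow τL f h hf0 hh0 (p ^ n)
  intro Q hQ
  have h1 : Q.ord (bcF (x * (τL (τL h) * h / τL h ^ 2) ^ (p ^ n))) =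
      Q.ord (bcF (τL (τL f) * f / τL f ^ 2)) := by rw [hxeq]
  rw [map_mul, Q.ord_mul ((map_ne_zero bcF).mpr hx0)
    ((map_ne_zero bcF).mpr (pow_ne_zero _ (hdd0 h hh0))), hord Q hQ] at h1
  linarith

/-- **(K-LOC), chart-generic.**  The local datum of the Kummer step at a point `𝔫 ∋ ϖ` of a
chart which is a smooth point or a node. -/
theorem kloc
    (hWA : ∀ x : L, x ∈ W ↔ ι x ∈ A)
    (hφ : Function.Injective φ)
    (hφW : ∀ w : W, bcF (φ (algebraMap W B w)) = algebraMap K F (ι w))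
    (hfrac : ∀ x : FL, ∃ y₁ y₂ : B, y₂ ≠ 0 ∧ x * φ y₂ = φ y₁)
    (ϖ : W) (hϖ0 : ϖ ≠ 0) (hW : ∀ w : W, IsUnit w ∨ ϖ ∣ w)
    (hsep : ∀ w : W, w ≠ 0 → ∃ n : ℕ, ¬ ϖ ^ n ∣ w)
    (hext : ∀ 𝔮 : Ideal B, 𝔮.IsPrime → 𝔮 ≠ ⊥ → algebraMap W B ϖ ∉ 𝔮 →
      ∃ P : Place K F, ∀ y : B, bcF (φ y) ∈ P.toValuationSubring ∧
        (y ∈ 𝔮 ↔ IsValueAt P (bcF (φ y)) 0))
    (g : SemilinearAut K F) (τL : FL ≃+* FL) (hτ : ∀ x : FL, bcF (τL x) = g • bcF x)
    (τB : B ≃+* B) (hτB : ∀ y : B, φ (τB y) = τL (φ y))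
    (𝔫 : Ideal B) [h𝔫max : 𝔫.IsMaximal] (hϖ𝔫 : algebraMap W B ϖ ∈ 𝔫)
    (hτ𝔫 : ∀ y : B, τB y ∈ 𝔫 ↔ y ∈ 𝔫)
    (hstruct : (∃ u : Localization.AtPrime 𝔫,
        IsLocalRing.maximalIdeal (Localization.AtPrime 𝔫) =
          Ideal.span {algebraMap W (Localization.AtPrime 𝔫) ϖ, u}) ∨
      ∃ X Y : Localization.AtPrime 𝔫,
        IsLocalRing.maximalIdeal (Localization.AtPrime 𝔫) =
          Ideal.span {algebraMap W (Localization.AtPrime 𝔫) ϖ, X, Y} ∧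
        algebraMap W (Localization.AtPrime 𝔫) ϖ ∣ X * Y)
    (D : Divisor K F)
    (hrat : ∀ P : Place K F, D P ≠ 0 → RatAt ι bcF P)
    (hratg : ∀ P : Place K F, RatAt ι bcF P → RatAt ι bcF (g • P))
    (p n : ℕ) (f : FL) (hf0 : f ≠ 0)
    (hf : ∀ P : Place K F, P.ord (bcF f) = (p : ℤ) ^ n * D P)
    (hvert : ∀ x : FL, x ≠ 0 → ∀ a b : B, b ≠ 0 →
      (τL (τL x) * x / (τL x) ^ 2) * φ b = φ a →
      ∀ 𝔭 ∈ (Ideal.span {b} : Ideal B).minimalPrimes, algebraMap W B ϖ ∈ 𝔭 → 𝔭 ≤ 𝔫 →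
        ∃ s : B, s ∉ 𝔭 ∧ b ∣ s * a) :
    ∃ h : FL, h ≠ 0 ∧ ∃ d : B, d ∉ 𝔫 ∧ ∃ t : B,
      φ t = φ d * (τL (τL (f / h ^ (p ^ n))) * (f / h ^ (p ^ n)) /
        (τL (f / h ^ (p ^ n))) ^ 2) := by
  obtain ⟨h, hh0, hordx⟩ := kloc_ord A ι W bcF φ hWA hφ hφW hfrac ϖ hϖ0 hW hsep g τL hτ τB hτB 𝔫
    hϖ𝔫 hτ𝔫 hstruct D hrat hratg p n f hf0 hf
  refine ⟨h, hh0, ?_⟩
  set ψ : B →+* F := bcF.comp φ with hψdef
  have hψ : Function.Injective ψ := bcF.injective.comp hφ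
  set y : FL := f / h ^ (p ^ n) with hy
  have hy0 : y ≠ 0 := div_ne_zero hf0 (pow_ne_zero _ hh0)
  have hτ0 : ∀ z : FL, z ≠ 0 → τL z ≠ 0 := fun z hz => (map_ne_zero τL).mpr hz
  set x : FL := τL (τL y) * y / (τL y) ^ 2 with hx
  have hx0 : x ≠ 0 :=
    div_ne_zero (mul_ne_zero (hτ0 _ (hτ0 y hy0)) hy0) (pow_ne_zero 2 (hτ0 y hy0))
  obtain ⟨a, b, hb, hab⟩ := hfrac x
  have hφb : φ b ≠ 0 := fun h0 => hb (hφ (by rw [h0, map_zero]))
  have ha : a ≠ 0 := by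
    rintro rfl
    rw [map_zero] at hab
    exact mul_ne_zero hx0 hφb hab
  have hhor : ∀ Q : Place K F, Through ψ 𝔫 Q → Q.ord (ψ b) ≤ Q.ord (ψ a) := by
    intro Q hQ
    have h1 : ψ a = bcF x * ψ b := by
      show bcF (φ a) = bcF x * bcF (φ b)
      rw [← map_mul, hab]
    have hψb : ψ b ≠ 0 := (map_ne_zero bcF).mpr hφb
    rw [h1, Q.ord_mul ((map_ne_zero bcF).mpr hx0) hψb, hordx Q hQ, zero_add]
  obtain ⟨d, hd, t, ht⟩ := exists_integral_multiple W ψ hψ ϖ hext 𝔫 a b ha hb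
    (hvert y hy0 a b hb hab) hhor
  refine ⟨d, hd, t, ?_⟩
  apply mul_right_cancel₀ hφb
  calc φ t * φ b = φ (b * t) := by rw [map_mul]; ring
    _ = φ (d * a) := by rw [ht]
    _ = φ d * (x * φ b) := by rw [map_mul, hab]
    _ = φ d * x * φ b := by ring

end Main

section Vertical

variable {FL : Type*} [Field FL]
  {B : Type*} [CommRing B] [IsDomain B] [IsNoetherianRing B] [IsIntegrallyClosed B]
  (φ : B →+* FL)

/-- **Regularity at a height-one prime, sets form.**  `𝔭` minimal over a nonzero principal ideal,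
`M ⊆ FL` with `φ⁻¹ M = 𝔭`, `O ⊆ FL` with `M * O ⊆ M`.  If `x ∈ O` and `x = φ a / φ b`, then
`b ∣ s * a` for some `s ∉ 𝔭`. -/
theorem exists_notMem_dvd_of_sets (hφ : Function.Injective φ) (c : B) (hc : c ≠ 0)
    (𝔭 : Ideal B) (h𝔭 : 𝔭 ∈ (Ideal.span {c} : Ideal B).minimalPrimes) (O M : Set FL)
    (hMO : ∀ m ∈ M, ∀ o ∈ O, m * o ∈ M) (hM : ∀ y : B, φ y ∈ M ↔ y ∈ 𝔭)
    (x : FL) (hx : x ∈ O) (a b : B) (hb : b ≠ 0) (hab : x * φ b = φ a) :
    ∃ s : B, s ∉ 𝔭 ∧ b ∣ s * a := by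
  have h𝔭p : 𝔭.IsPrime := h𝔭.1.1
  by_cases ha : a = 0
  · exact ⟨1, (Ideal.ne_top_iff_one 𝔭).mp h𝔭p.ne_top, by rw [ha, mul_zero]; exact dvd_zero b⟩
  obtain ⟨t, ht𝔭, ht0, hfac⟩ := HeightOne.exists_uniformizer c hc 𝔭 h𝔭
  obtain ⟨ka, sa, da, hsa, hda, hea⟩ := hfac a ha
  obtain ⟨kb, sb, db, hsb, hdb, heb⟩ := hfac b hb
  have hk : kb ≤ ka := by
    by_contra hlt
    obtain ⟨m, rfl⟩ := Nat.exists_eq_add_of_lt (not_le.mp hlt)
    have hφt : φ (t ^ ka) ≠ 0 := fun h0 => pow_ne_zero ka ht0 (hφ (by rw [h0, map_zero]))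
    have e1 : φ (t ^ (m + 1) * db * sa) * x * φ (t ^ ka) = φ (da * sb) * φ (t ^ ka) := by
      calc φ (t ^ (m + 1) * db * sa) * x * φ (t ^ ka)
          = x * φ (sa * (t ^ (ka + m + 1) * db)) := by
            have e : φ (sa * (t ^ (ka + m + 1) * db)) =
                φ (t ^ (m + 1) * db * sa) * φ (t ^ ka) := by
              rw [← map_mul]
              congr 1
              ring
            rw [e]
            ring
        _ = x * φ (sa * (sb * b)) := by rw [heb]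
        _ = (x * φ b) * φ (sa * sb) := by
            have : sa * (sb * b) = b * (sa * sb) := by ring
            rw [this, map_mul, mul_assoc]
        _ = φ (sb * (sa * a)) := by
            rw [hab, ← map_mul]
            congr 1
            ring
        _ = φ (sb * (t ^ ka * da)) := by rw [hea]
        _ = φ (da * sb) * φ (t ^ ka) := by
            rw [← map_mul]
            congr 1
            ring
    have e2 : φ (t ^ (m + 1) * db * sa) * x = φ (da * sb) := mul_right_cancel₀ hφt e1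
    have hmem : t ^ (m + 1) * db * sa ∈ 𝔭 :=
      𝔭.mul_mem_right _ (𝔭.mul_mem_right _ (𝔭.pow_mem_of_mem ht𝔭 (m + 1) (Nat.succ_pos m)))
    have h1 : φ (da * sb) ∈ M := e2 ▸ hMO _ ((hM _).mpr hmem) x hx
    exact (h𝔭p.mem_or_mem ((hM _).mp h1)).elim hda hsb
  obtain ⟨m, rfl⟩ := Nat.exists_eq_add_of_le hk
  refine ⟨db * sa, fun h => (h𝔭p.mem_or_mem h).elim hdb hsa, t ^ m * da * sb, ?_⟩
  calc db * sa * a = db * (sa * a) := by ring
    _ = db * (t ^ (kb + m) * da) := by rw [hea]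
    _ = t ^ m * da * (t ^ kb * db) := by rw [pow_add]; ring
    _ = t ^ m * da * (sb * b) := by rw [heb]
    _ = b * (t ^ m * da * sb) := by ring

/-- **Regularity at the vertical primes from (S1).**  `𝔭₁, 𝔭₂` primes containing `ϖ ≠ 0` with
`𝔭₁ ∩ 𝔭₂ ⊆ ϖ B`, cut out by sets `M₁, M₂ ⊆ FL` stable under multiplication by `O₁`, `O₂`.  If
`x ∈ O₁ ∩ O₂` and `x = φ a / φ b`, then `b ∣ s * a` with `s ∉ 𝔭` at every prime `𝔭 ∋ ϖ` minimal
over `(b)`. -/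
theorem exists_notMem_dvd_of_two_sets (hφ : Function.Injective φ) (ϖB : B) (hϖ0 : ϖB ≠ 0)
    (𝔭₁ 𝔭₂ : Ideal B) [h𝔭₁ : 𝔭₁.IsPrime] [h𝔭₂ : 𝔭₂.IsPrime] (hϖ₁ : ϖB ∈ 𝔭₁) (hϖ₂ : ϖB ∈ 𝔭₂)
    (hS1 : 𝔭₁ ⊓ 𝔭₂ ≤ Ideal.span {ϖB})
    (O₁ M₁ O₂ M₂ : Set FL)
    (hMO₁ : ∀ m ∈ M₁, ∀ o ∈ O₁, m * o ∈ M₁) (hM₁ : ∀ y : B, φ y ∈ M₁ ↔ y ∈ 𝔭₁)
    (hMO₂ : ∀ m ∈ M₂, ∀ o ∈ O₂, m * o ∈ M₂) (hM₂ : ∀ y : B, φ y ∈ M₂ ↔ y ∈ 𝔭₂)
    (x : FL) (hx₁ : x ∈ O₁) (hx₂ : x ∈ O₂) (a b : B) (hb : b ≠ 0) (hab : x * φ b = φ a)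
    (𝔭 : Ideal B) (h𝔭 : 𝔭 ∈ (Ideal.span {b} : Ideal B).minimalPrimes) (hϖ : ϖB ∈ 𝔭) :
    ∃ s : B, s ∉ 𝔭 ∧ b ∣ s * a := by
  have h𝔭p : 𝔭.IsPrime := h𝔭.1.1
  have hinf : 𝔭₁ ⊓ 𝔭₂ ≤ 𝔭 := fun y hy => by
    obtain ⟨c, rfl⟩ := Ideal.mem_span_singleton.mp (hS1 hy)
    exact 𝔭.mul_mem_right c hϖ
  rcases h𝔭p.inf_le.mp hinf with h | h
  · have h0 : 𝔭₁ ≠ ⊥ := fun h0 => hϖ0 (by rwa [h0, Ideal.mem_bot] at hϖ₁)
    have he : 𝔭₁ = 𝔭 := eq_of_le_of_mem_minimalPrimes b h𝔭 h0 h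
    exact exists_notMem_dvd_of_sets φ hφ b hb 𝔭 h𝔭 O₁ M₁ hMO₁ (fun y => he ▸ hM₁ y) x hx₁ a b
      hb hab
  · have h0 : 𝔭₂ ≠ ⊥ := fun h0 => hϖ0 (by rwa [h0, Ideal.mem_bot] at hϖ₂)
    have he : 𝔭₂ = 𝔭 := eq_of_le_of_mem_minimalPrimes b h𝔭 h0 h
    exact exists_notMem_dvd_of_sets φ hφ b hb 𝔭 h𝔭 O₂ M₂ hMO₂ (fun y => he ▸ hM₂ y) x hx₂ a b
      hb hab

end Vertical

section MainTwo

variable {K F L FL : Type*} [Field K] [Field F] [Algebra K F] [Field L] [Field FL]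
  [Algebra L FL]
  (A : ValuationSubring K) (ι : L →+* K) (W : ValuationSubring L) (bcF : FL →+* F)
  {B : Type*} [CommRing B] [IsDomain B] [IsNoetherianRing B] [IsIntegrallyClosed B]
  [Algebra W B] (φ : B →+* FL)

/-- **(K-LOC), chart-generic, with the vertical part from (S1).**  As `kloc`, the vertical
regularity being given by: two primes `𝔭₁, 𝔭₂ ∋ ϖ` with `𝔭₁ ∩ 𝔭₂ ⊆ ϖ B`, cut out by `M₁, M₂`
(`φ y ∈ M_i ↔ y ∈ 𝔭_i`, `M_i * O_i ⊆ M_i`), and every double difference lies in `O₁ ∩ O₂`. -/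
theorem kloc_of_two
    (hWA : ∀ x : L, x ∈ W ↔ ι x ∈ A)
    (hφ : Function.Injective φ)
    (hφW : ∀ w : W, bcF (φ (algebraMap W B w)) = algebraMap K F (ι w))
    (hfrac : ∀ x : FL, ∃ y₁ y₂ : B, y₂ ≠ 0 ∧ x * φ y₂ = φ y₁)
    (ϖ : W) (hϖ0 : ϖ ≠ 0) (hW : ∀ w : W, IsUnit w ∨ ϖ ∣ w)
    (hsep : ∀ w : W, w ≠ 0 → ∃ n : ℕ, ¬ ϖ ^ n ∣ w)
    (hext : ∀ 𝔮 : Ideal B, 𝔮.IsPrime → 𝔮 ≠ ⊥ → algebraMap W B ϖ ∉ 𝔮 →
      ∃ P : Place K F, ∀ y : B, bcF (φ y) ∈ P.toValuationSubring ∧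
        (y ∈ 𝔮 ↔ IsValueAt P (bcF (φ y)) 0))
    (g : SemilinearAut K F) (τL : FL ≃+* FL) (hτ : ∀ x : FL, bcF (τL x) = g • bcF x)
    (τB : B ≃+* B) (hτB : ∀ y : B, φ (τB y) = τL (φ y))
    (𝔫 : Ideal B) [h𝔫max : 𝔫.IsMaximal] (hϖ𝔫 : algebraMap W B ϖ ∈ 𝔫)
    (hτ𝔫 : ∀ y : B, τB y ∈ 𝔫 ↔ y ∈ 𝔫)
    (hstruct : (∃ u : Localization.AtPrime 𝔫,
        IsLocalRing.maximalIdeal (Localization.AtPrime 𝔫) =
          Ideal.span {algebraMap W (Localization.AtPrime 𝔫) ϖ, u}) ∨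
      ∃ X Y : Localization.AtPrime 𝔫,
        IsLocalRing.maximalIdeal (Localization.AtPrime 𝔫) =
          Ideal.span {algebraMap W (Localization.AtPrime 𝔫) ϖ, X, Y} ∧
        algebraMap W (Localization.AtPrime 𝔫) ϖ ∣ X * Y)
    (D : Divisor K F)
    (hrat : ∀ P : Place K F, D P ≠ 0 → RatAt ι bcF P)
    (hratg : ∀ P : Place K F, RatAt ι bcF P → RatAt ι bcF (g • P))
    (p n : ℕ) (f : FL) (hf0 : f ≠ 0)
    (hf : ∀ P : Place K F, P.ord (bcF f) = (p : ℤ) ^ n * D P)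
    (𝔭₁ 𝔭₂ : Ideal B) [h𝔭₁ : 𝔭₁.IsPrime] [h𝔭₂ : 𝔭₂.IsPrime]
    (hϖ₁ : algebraMap W B ϖ ∈ 𝔭₁) (hϖ₂ : algebraMap W B ϖ ∈ 𝔭₂)
    (hS1 : 𝔭₁ ⊓ 𝔭₂ ≤ Ideal.span {algebraMap W B ϖ})
    (O₁ M₁ O₂ M₂ : Set FL)
    (hMO₁ : ∀ m ∈ M₁, ∀ o ∈ O₁, m * o ∈ M₁) (hM₁ : ∀ y : B, φ y ∈ M₁ ↔ y ∈ 𝔭₁)
    (hMO₂ : ∀ m ∈ M₂, ∀ o ∈ O₂, m * o ∈ M₂) (hM₂ : ∀ y : B, φ y ∈ M₂ ↔ y ∈ 𝔭₂)
    (hdd₁ : ∀ x : FL, x ≠ 0 → τL (τL x) * x / (τL x) ^ 2 ∈ O₁)
    (hdd₂ : ∀ x : FL, x ≠ 0 → τL (τL x) * x / (τL x) ^ 2 ∈ O₂) :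
    ∃ h : FL, h ≠ 0 ∧ ∃ d : B, d ∉ 𝔫 ∧ ∃ t : B,
      φ t = φ d * (τL (τL (f / h ^ (p ^ n))) * (f / h ^ (p ^ n)) /
        (τL (f / h ^ (p ^ n))) ^ 2) := by
  have hϖB0 : algebraMap W B ϖ ≠ 0 := by
    intro h0
    have h1 : bcF (φ (algebraMap W B ϖ)) = 0 := by rw [h0, map_zero, map_zero]
    rw [hφW] at h1
    have h2 : ι (ϖ : L) = 0 := (map_eq_zero (algebraMap K F)).mp h1
    exact hϖ0 (Subtype.ext ((map_eq_zero ι).mp h2))
  refine kloc A ι W bcF φ hWA hφ hφW hfrac ϖ hϖ0 hW hsep hext g τL hτ τB hτB 𝔫 hϖ𝔫 hτ𝔫 hstruct D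
    hrat hratg p n f hf0 hf ?_
  intro x hx0 a b hb hab 𝔭 h𝔭 hϖ𝔭 _
  exact exists_notMem_dvd_of_two_sets φ hφ (algebraMap W B ϖ) hϖB0 𝔭₁ 𝔭₂ hϖ₁ hϖ₂ hS1 O₁ M₁ O₂ M₂
    hMO₁ hM₁ hMO₂ hM₂ _ (hdd₁ x hx0) (hdd₂ x hx0) a b hb hab 𝔭 h𝔭 hϖ𝔭

end MainTwo

end Fermat.Agent.S34.KLoc
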