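import Mathlib
import Fermat.Agent.S34.KLoc
import Fermat.Agent.S34.KLocChart
import Fermat.Agent.S34.ClassStable
import Fermat.Agent.S34.DDMem
import Fermat.Agent.S34.GRat
import Fermat.Agent.S34.GDescent
import Fermat.Agent.S37.WChartInst

/-!
# S34, layer 2: (K-LOC) at one point of a chart of `S24.FF L N`, raw currency

`kloc_chart`: level `(L, ι)`, `W = A.comap ι` a discrete valuation ring with uniformiser `π`,
`s` the restriction to `L` of an inertia element `τ` of `A`, `w` an `L`-automorphism of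
`F = S24.FF L N` commuting with the coefficient action (Atkin–Lehner).  `B` a chart ring of `F`
(noetherian, integrally closed, fraction field `F`, a `W`-algebra, stable under the coefficient
action of `s` and `s⁻¹`), all of whose elements `y` have `y`, `w y` with `W`-integral
`q`-expansion, and satisfying (S1) in raw form.  `𝔫 ∋ π` a maximal ideal of `B` whose local ring
is a smooth point or a node.  For a divisor `D` on rational places at the level with
`div (bc ι fL) = p ^ n • D`:

  `∃ h ≠ 0, ∃ d ∉ 𝔫, d * (τ - 1)² (fL / h ^ (p ^ n)) ∈ B`.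

Composition of `KLoc.kloc_ord` (horizontal half) and `KLocChart.exists_notMem_mul_eq_chart`
(Hartogs step, raw currency), with `ClassStable` (the coefficient action is trivial modulo `π` on
the chart), `DDMem` (double differences are integral at both Gauss valuations) and `GRat`
(rationality at the level is Galois-stable).
-/

set_option autoImplicit false
set_option linter.unusedSectionVars false
set_option linter.unusedVariables false

noncomputable section

namespace Fermat.Agent.S34.KLocRaw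

open ModularCurve AlgebraicCurve Fermat.Agent.S18.Gauss Fermat.Agent.S24
open Fermat.Agent.S37.GaloisValue Fermat.Agent.S34.CoeffAut

local notation "Qb" => AlgebraicClosure ℚ

variable {L : Type} [Field L] [Algebra ℚ L] (N : ℕ) [NeZero N]

section ChartEquiv

variable {B : Type*} [CommRing B] (φ : B →+* FF L N) (hφ : Function.Injective φ) (s : L ≃+* L)
  (hact : ∀ b : B, ∃ b' : B, φ b' = act N s (φ b))
  (hact' : ∀ b : B, ∃ b' : B, φ b' = (act N s).symm (φ b))

/-- the automorphism of a chart ring stable under the coefficient action of `s` and `s⁻¹` -/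
def chartEquiv : B ≃+* B where
  toFun b := (hact b).choose
  invFun b := (hact' b).choose
  left_inv b := hφ (by
    rw [(hact' _).choose_spec, (hact b).choose_spec, RingEquiv.symm_apply_apply])
  right_inv b := hφ (by
    rw [(hact _).choose_spec, (hact' b).choose_spec, RingEquiv.apply_symm_apply])
  map_mul' a b := hφ (by
    rw [(hact _).choose_spec, map_mul, map_mul, map_mul, (hact a).choose_spec,
      (hact b).choose_spec])
  map_add' a b := hφ (by
    rw [(hact _).choose_spec, map_add, map_add, map_add, (hact a).choose_spec,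
      (hact b).choose_spec])

theorem chartEquiv_spec (b : B) : φ (chartEquiv N φ hφ s hact hact' b) = act N s (φ b) :=
  (hact b).choose_spec

end ChartEquiv

/-- in a discrete valuation ring, a nonzero element is not divisible by all powers of a
uniformiser -/
theorem exists_not_pow_dvd {R : Type*} [CommRing R] [IsDomain R] [IsDiscreteValuationRing R]
    {π : R} (hπ : Irreducible π) (w : R) (hw : w ≠ 0) : ∃ n : ℕ, ¬ π ^ n ∣ w := by
  obtain ⟨n, u, hu⟩ := IsDiscreteValuationRing.eq_unit_mul_pow_irreducible hw hπ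
  refine ⟨n + 1, ?_⟩
  rintro ⟨c, hc⟩
  have hπ0 : π ^ n ≠ 0 := pow_ne_zero n hπ.ne_zero
  have h1 : (u : R) * π ^ n = π * c * π ^ n := by rw [← hu, hc]; ring
  have h2 : (u : R) = π * c := mul_right_cancel₀ hπ0 h1
  exact hπ.not_isUnit (isUnit_of_mul_isUnit_left (h2 ▸ u.isUnit))

/-- **(K-LOC) at one point of a chart, raw currency.** -/
theorem kloc_chart (A : ValuationSubring Qb) (ι : L →+* Qb)
    [IsDiscreteValuationRing ↥(A.comap ι)]
    {τ : Qb ≃ₐ[ℚ] Qb} (hτ : τ ∈ A.inertiaSubgroupIn ℚ) (s : L ≃+* L)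
    (hs : ∀ c : L, ι (s c) = τ (ι c))
    {π : ↥(A.comap ι)} (hπ : Irreducible π)
    (w : FF L N ≃ₐ[L] FF L N) (hw : ∀ x : FF L N, act N s (w x) = w (act N s x))
    (B : Type*) [CommRing B] [IsDomain B] [IsNoetherianRing B] [IsIntegrallyClosed B]
    [Algebra ↥(A.comap ι) B] [Algebra B (FF L N)] [IsFractionRing B (FF L N)]
    (hBW : ∀ c : ↥(A.comap ι), algebraMap B (FF L N) (algebraMap ↥(A.comap ι) B c) =
      algebraMap L (FF L N) (c : L))
    (hact : ∀ b : B, ∃ b' : B, algebraMap B (FF L N) b' = act N s (algebraMap B (FF L N) b))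
    (hact' : ∀ b : B, ∃ b' : B,
      algebraMap B (FF L N) b' = (act N s).symm (algebraMap B (FF L N) b))
    (hB₁ : ∀ y : B,
      ((algebraMap B (FF L N) y : FF L N) : LaurentSeries L) ∈ contentRing (A.comap ι))
    (hB₂ : ∀ y : B,
      ((w (algebraMap B (FF L N) y) : FF L N) : LaurentSeries L) ∈ contentRing (A.comap ι))
    (hS1 : ∀ y : B, red (A.comap ι) ⟨_, hB₁ y⟩ = 0 → red (A.comap ι) ⟨_, hB₂ y⟩ = 0 →
      ∃ y' : B, algebraMap B (FF L N) y =
        algebraMap L (FF L N) (π : L) * algebraMap B (FF L N) y')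
    (𝔫 : Ideal B) [h𝔫max : 𝔫.IsMaximal] (hπ𝔫 : algebraMap ↥(A.comap ι) B π ∈ 𝔫)
    (hstruct : (∃ u : Localization.AtPrime 𝔫,
        IsLocalRing.maximalIdeal (Localization.AtPrime 𝔫) =
          Ideal.span {algebraMap ↥(A.comap ι) (Localization.AtPrime 𝔫) π, u}) ∨
      ∃ X Y : Localization.AtPrime 𝔫,
        IsLocalRing.maximalIdeal (Localization.AtPrime 𝔫) =
          Ideal.span {algebraMap ↥(A.comap ι) (Localization.AtPrime 𝔫) π, X, Y} ∧
        algebraMap ↥(A.comap ι) (Localization.AtPrime 𝔫) π ∣ X * Y)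
    (D : Divisor Qb (modularFunctionFieldBar N))
    (hrat : ∀ P : Place Qb (modularFunctionFieldBar N), D P ≠ 0 → GDescent.RatAtLevel N ι P)
    (p n : ℕ) (fL : FF L N) (hfL : fL ≠ 0)
    (hD : ∀ P : Place Qb (modularFunctionFieldBar N),
      P.ord (CoeffBC.bc ι (modularFunctionFieldFull N) fL) = (p : ℤ) ^ n * D P) :
    ∃ h : FF L N, h ≠ 0 ∧ ∃ d : B, d ∉ 𝔫 ∧ ∃ t : B,
      algebraMap B (FF L N) t = algebraMap B (FF L N) d * DDGauss.dd N s (fL / h ^ (p ^ n)) := by
  classical
  set φ : B →+* FF L N := algebraMap B (FF L N) with hφdef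
  have hφ : Function.Injective φ := IsFractionRing.injective B (FF L N)
  set bcF : FF L N →+* ↥(modularFunctionFieldBar N) :=
    CoeffBC.bc ι (modularFunctionFieldFull N) with hbcF
  have hσdec : τ ∈ A.decompositionSubgroup ℚ := mem_decompositionSubgroup_of_mem_inertia hτ
  -- the automorphism of the chart
  set τB : B ≃+* B := chartEquiv N φ hφ s hact hact' with hτBdef
  have hτB : ∀ y : B, φ (τB y) = act N s (φ y) := chartEquiv_spec N φ hφ s hact hact'
  have hcong : ∀ y : B, ∃ z : B, τB y = y + algebraMap ↥(A.comap ι) B π * z := by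
    intro y
    refine ClassStable.exists_chart_act_eq_add A ι s hs N hτ (w : FF L N → FF L N)
      (fun x y => map_sub w x y) hw φ hφ (τB : B → B) hτB hB₁ hB₂
      (algebraMap ↥(A.comap ι) B π) (π : L) (hBW π) ?_ y
    intro b hx hwx h1 h2
    obtain ⟨y', hy'⟩ := hS1 b h1 h2
    refine ⟨y', hφ ?_⟩
    rw [map_mul, hy']
    show algebraMap L (FF L N) (π : L) * algebraMap B (FF L N) y' = φ (algebraMap _ B π) * φ y'
    rw [hφdef, hBW π]
  have hτ𝔫 : ∀ y : B, τB y ∈ 𝔫 ↔ y ∈ 𝔫 :=
    ClassStable.map_mem_iff τB (algebraMap ↥(A.comap ι) B π) hcong 𝔫 hπ𝔫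
  -- the horizontal half
  have hφW : ∀ c : ↥(A.comap ι), bcF (φ (algebraMap ↥(A.comap ι) B c)) =
      algebraMap Qb ↥(modularFunctionFieldBar N) (ι c) := by
    intro c
    rw [hφdef, hBW c, hbcF, CoeffBC.bc_algebraMap]
  have hfrac : ∀ x : FF L N, ∃ y₁ y₂ : B, y₂ ≠ 0 ∧ x * φ y₂ = φ y₁ := by
    intro x
    obtain ⟨⟨y₁, y₂⟩, h⟩ := IsLocalization.surj (nonZeroDivisors B) x
    exact ⟨y₁, y₂, nonZeroDivisors.ne_zero y₂.2, h⟩
  have hτL : ∀ x : FF L N, bcF (act N s x) =
      arithmeticGalois (modularFunctionFieldFull N) τ • bcF x := by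
    intro x
    rw [act_eq_bc, hbcF]
    exact GRat.bc_bc_eq_smul N ι τ (s : L →+* L) hs x
  obtain ⟨h, hh0, hord⟩ := KLoc.kloc_ord A ι (A.comap ι) bcF φ (fun x => Iff.rfl) hφ hφW hfrac π
    hπ.ne_zero (Fermat.Agent.S37.WChartInst.dvr_unit_or_dvd hπ) (exists_not_pow_dvd hπ)
    (arithmeticGalois (modularFunctionFieldFull N) τ) (act N s) hτL τB hτB 𝔫 hπ𝔫 hτ𝔫 hstruct D
    hrat (fun P hP => GRat.ratAtLevel_smul N ι τ s hs hP) p n fL hfL hD
  refine ⟨h, hh0, ?_⟩
  have hy0 : fL / h ^ (p ^ n) ≠ 0 := div_ne_zero hfL (pow_ne_zero _ hh0)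
  obtain ⟨ϖ, hϖ⟩ := IsDiscreteValuationRing.exists_irreducible ↥(A.comap ι)
  have hsW := GalLevel.mem_comap_iff_of_mem_decomposition A ι s hs hσdec
  have hsI := FrobAct.exists_eq_add_mul_of_mem_inertia A ι s hs hτ hϖ
  refine KLocChart.exists_notMem_mul_eq_chart (A.comap ι) N ι hπ w B
    (fun c => ⟨algebraMap ↥(A.comap ι) B c, hBW c⟩) hB₁ hB₂ hS1 𝔫
    (DDGauss.dd N s (fL / h ^ (p ^ n))) (DDGauss.dd_ne_zero N s hy0)
    (DDMem.coe_dd_mem (A.comap ι) ϖ hϖ N s hsW hsI hy0)
    (DDMem.coe_map_dd_mem (A.comap ι) ϖ hϖ N s hsW hsI w hw hy0) ?_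
  intro Q hQ1 hQ2
  exact (hord Q ⟨hQ1, hQ2⟩).ge

end Fermat.Agent.S34.KLocRaw
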