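import Mathlib
import Fermat.Agent.S34.GLoc
import Fermat.Agent.S34.CompLevel
import Fermat.Agent.S34.FinDich
import Fermat.Agent.S34.KLocRaw
import Fermat.Agent.S34.KLocInst
import Fermat.Agent.S34.ChartAct
import Fermat.Agent.S34.CuspRes
import Fermat.Agent.S34.FrobPartner

/-!
# S34: contract (3) of `GAsm` — the local datum on the finite chart

`locContract₁ : GAsm.LocContract₁ M q p A τ` for `q` prime, `q ∤ M`, `A` over `q`, `τ` in the
inertia group of `A`: at every Galois-stable level `(L, ι)` and every maximal ideal `𝔫 ∋ π` of the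
finite chart ring of level `M q` there is `h ≠ 0` and `d ∉ 𝔫` with `d * (τ - 1)² (fL / h ^ (p ^ n))`
integral over `W[j]`.

Assembly (no new mathematics): `GLoc.locContract₁_of_closure` (transfer to the chart ring of
`kummer_descent`) applied to `KLocRaw.kloc_chart` (helper25: (K-LOC) at one point of a chart) on
the canonical carrier `integralClosure W[X] F`, with
* the ring-theoretic instances of `KLocInst` (helper18) / `S37`,
* the coefficient action on the chart from `ChartAct` (helper26),
* (H_int) on both branches (`FrobPartner.mem_contentRing_of_int`,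
  `CuspRes.mem_contentRing_w_of_int_fin`),
* (S1) `FinDich.s1_fin_level` (helper14; (V3a) of helper27 inside),
* (DICH₁) `CompLevel.dich_fin_struct_level` (helper6),
* the Atkin–Lehner automorphism `FrobPartner.exists_atkinLehner_level` and
  `CoeffAut.act_atkinLehner`.
-/

set_option autoImplicit false
set_option linter.unusedSectionVars false
set_option linter.style.haveILetI false

noncomputable section

namespace Fermat.Agent.S34.GLoc1

open Polynomial ModularCurve AlgebraicCurve Fermat.Agent.S18 Fermat.Agent.S37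
open Fermat.Agent.S34.GDescent

local notation "Qb" => AlgebraicClosure ℚ

variable (M q p : ℕ) [NeZero M] [NeZero q]

set_option maxHeartbeats 1600000 in
/-- **Contract (3) of `GAsm`: the local datum on the finite chart.**  (`hp`, `hpq` are not used;
they are kept so that the signature is the one announced for the final assembly.) -/
theorem locContract₁ (hq : q.Prime) (hqM : ¬ q ∣ M) (_hp : p.Prime) (_hpq : p ≠ q)
    (A : ValuationSubring Qb) (hA : A.LiesOverPrime q) (τ : Qb ≃ₐ[ℚ] Qb)
    (hτ : τ ∈ A.inertiaSubgroupIn ℚ) : GAsm.LocContract₁ M q p A τ := by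
  classical
  refine GLoc.locContract₁_of_closure M q p A τ ?_
  intro n D f hf hD
  refine ⟨∅, ?_⟩
  intro L _ _ ι hlev hst fL hfL hrat ϖ hϖ s hs _ halg B _ _ _ _ _ 𝔪 h𝔪 hC
  have hfL0 : fL ≠ 0 := by
    rintro rfl
    exact hf (by rw [← hfL, map_zero])
  obtain ⟨-, hroots, hdvr, hclosed, -, hchar, -, -⟩ := hlev
  haveI := hdvr
  haveI := hclosed
  haveI := hchar
  haveI : Fact q.Prime := ⟨hq⟩
  haveI := h𝔪
  obtain ⟨w, hwα, hwβ⟩ := FrobPartner.exists_atkinLehner_level ι M q hq hqM
  -- the chart ring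
  haveI : IsDomain B := KLocInst.isDomain_fin (A.comap ι) (M * q) B
  haveI : IsNoetherianRing B := KLocInst.isNoetherianRing_fin (A.comap ι) (M * q) halg B
  haveI : IsFractionRing B (S24.FF L (M * q)) :=
    KLocInst.isFractionRing_fin (A.comap ι) (M * q) halg B
  haveI : IsIntegrallyClosed B := KLocInst.isIntegrallyClosed_fin (A.comap ι) (M * q) halg B
  letI : Algebra ↥(A.comap ι) B := ((algebraMap (↥(A.comap ι))[X] B).comp C).toAlgebra
  haveI : IsScalarTower ↥(A.comap ι) (↥(A.comap ι))[X] B :=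
    IsScalarTower.of_algebraMap_eq (fun _ => rfl)
  have hBW : ∀ c : ↥(A.comap ι), algebraMap B (S24.FF L (M * q)) (algebraMap ↥(A.comap ι) B c) =
      algebraMap L (S24.FF L (M * q)) (c : L) := by
    intro c
    show algebraMap B (S24.FF L (M * q)) (algebraMap (↥(A.comap ι))[X] B (C c)) = _
    rw [← IsScalarTower.algebraMap_apply, halg, Gauss.evF_C]
  have hsW := ChartAct.hW_of_mem_inertia A ι s hs hτ
  have hint : ∀ y : B, (Gauss.evF (A.comap ι) (M * q)).IsIntegralElem
      (algebraMap B (S24.FF L (M * q)) y) := fun y =>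
    (ChartAct.exists_algebraMap_eq_iff_fin (A.comap ι) (M * q) halg B _).mp ⟨y, rfl⟩
  have hB₁ : ∀ y : B, ((algebraMap B (S24.FF L (M * q)) y : S24.FF L (M * q)) :
      LaurentSeries L) ∈ Gauss.contentRing (A.comap ι) := fun y =>
    FrobPartner.mem_contentRing_of_int (A.comap ι) (M * q) (hint y)
  have hB₂ : ∀ y : B, ((w (algebraMap B (S24.FF L (M * q)) y) : S24.FF L (M * q)) :
      LaurentSeries L) ∈ Gauss.contentRing (A.comap ι) := fun y =>
    CuspRes.mem_contentRing_w_of_int_fin (A.comap ι) M q w hwα (hint y)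
  have hπ𝔪 : algebraMap ↥(A.comap ι) B ϖ ∈ 𝔪 := hC
  have hD' : ∀ P : Place Qb (modularFunctionFieldBar (M * q)),
      P.ord (S24.CoeffBC.bc ι (modularFunctionFieldFull (M * q)) fL) = (p : ℤ) ^ n * D P := by
    intro P
    rw [hfL]
    exact hD P
  refine KLocRaw.kloc_chart (M * q) A ι hτ s hs hϖ w
    (fun x => CoeffAut.act_atkinLehner M q hq s w hwα hwβ x) B hBW
    (ChartAct.exists_act_fin (A.comap ι) (M * q) s hsW halg B)
    (ChartAct.exists_act_symm_fin (A.comap ι) (M * q) s hsW halg B) hB₁ hB₂ ?_ 𝔪 hπ𝔪 ?_ D hrat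
    p n fL hfL0 hD'
  · intro y hr1 hr2
    obtain ⟨y', hy', hxy⟩ := FinDich.s1_fin_level ι (A.comap ι) M q hqM hϖ w hwα hwβ _ (hint y)
      (hB₁ y) (hB₂ y) hr1 hr2
    obtain ⟨b', rfl⟩ :=
      (ChartAct.exists_algebraMap_eq_iff_fin (A.comap ι) (M * q) halg B y').mpr hy'
    exact ⟨b', hxy⟩
  · exact CompLevel.dich_fin_struct_level A ι M q hq hqM hA hst hroots ϖ hϖ halg B 𝔪 hπ𝔪
      (Localization.AtPrime 𝔪)

end Fermat.Agent.S34.GLoc1
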