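import Mathlib

/-!
# S34, package B2-(S2), abstract core: a branch of a local ring is a discrete valuation ring

`R` is a local ring (the local ring `B_𝔫` of a chart at a closed point of the special fibre),
`ρ : R →+* κ` a ring homomorphism to a field (the reduction `res_i` along one component),
`E` a Dedekind domain (the special fibre `B'_M ⧸ ϖ` of a chart of the lower level) with an
injective homomorphism `ε : E →+* κ` such that

* `h1` : `ε(E) ⊆ ρ(R)`;
* `h2` : every element of `ρ(R)` is a quotient of elements of `ε(E)`;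
* `h3` : `ρ(R)` is not a field (`ker ρ` is not the maximal ideal).

Then `ρ(R)` is the localisation of `E` at the prime `P = centreIdeal ρ ε h1` cut out by the
non-units of `R` (a local overring of a Dedekind domain inside its fraction field, not a field,
is the localisation at a maximal ideal).  Precisely: `branchMap : R →+* Localization.AtPrime P`
is surjective, has the kernel of `ρ`, is a local homomorphism, and sends a lift of `e : E` to
`algebraMap e`; the target is a discrete valuation ring and has a uniformiser coming from `E`.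

Everything is Mathlib-only.
-/

set_option autoImplicit false
set_option linter.unusedSectionVars false

namespace Fermat.Agent.S34.BranchDVR

open IsLocalRing

variable {R E κ : Type*} [CommRing R] [IsLocalRing R] [CommRing E] [Field κ]

/-- a non-unit of the local ring `R` is not sent to `1` by a homomorphism to a field. -/
theorem map_ne_one_of_mem (ρ : R →+* κ) {r : R} (hr : r ∈ maximalIdeal R) : ρ r ≠ 1 := by
  intro h
  have hu : IsUnit (1 - r) := by
    by_contra hnu
    have h1 : (1 - r) ∈ maximalIdeal R := (mem_maximalIdeal _).mpr hnu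
    have h2 : (1 : R) ∈ maximalIdeal R := by
      have := add_mem h1 hr
      rwa [sub_add_cancel] at this
    exact (Ideal.ne_top_iff_one _).mp (maximalIdeal.isMaximal R).ne_top h2
  have h0 : ρ (1 - r) = 0 := by rw [map_sub, map_one, h, sub_self]
  exact (hu.map ρ).ne_zero h0

/-- a non-unit of `R` times anything is not sent to `1`. -/
theorem map_mul_ne_one_of_mem (ρ : R →+* κ) {r : R} (hr : r ∈ maximalIdeal R) (s : R) :
    ρ (r * s) ≠ 1 :=
  map_ne_one_of_mem ρ (Ideal.mul_mem_right _ _ hr)

/-- the image of a unit under a homomorphism to a field, inverted -/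
theorem exists_map_eq_inv (ρ : R →+* κ) {r : R} (hr : IsUnit r) : ∃ r' : R, ρ r' = (ρ r)⁻¹ := by
  obtain ⟨u, rfl⟩ := hr
  refine ⟨((u⁻¹ : Rˣ) : R), ?_⟩
  have h1 : ρ (u : R) * ρ ((u⁻¹ : Rˣ) : R) = 1 := by
    rw [← map_mul, Units.mul_inv, map_one]
  exact eq_inv_of_mul_eq_one_right h1

/-- **The centre** on `E` of the local ring `ρ(R)`: the elements of `E` whose image is the image
of a non-unit of `R`. -/
def centreIdeal (ρ : R →+* κ) (ε : E →+* κ) (h1 : ∀ e : E, ∃ r : R, ρ r = ε e) : Ideal E where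
  carrier := {e | ∃ r ∈ maximalIdeal R, ρ r = ε e}
  add_mem' := by
    rintro a b ⟨r, hr, hra⟩ ⟨s, hs, hsb⟩
    exact ⟨r + s, add_mem hr hs, by rw [map_add, map_add, hra, hsb]⟩
  zero_mem' := ⟨0, zero_mem _, by rw [map_zero, map_zero]⟩
  smul_mem' := by
    rintro c a ⟨r, hr, hra⟩
    obtain ⟨rc, hrc⟩ := h1 c
    exact ⟨rc * r, Ideal.mul_mem_left _ _ hr, by rw [map_mul, smul_eq_mul, map_mul, hrc, hra]⟩

theorem mem_centreIdeal (ρ : R →+* κ) (ε : E →+* κ) (h1 : ∀ e : E, ∃ r : R, ρ r = ε e) (e : E) :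
    e ∈ centreIdeal ρ ε h1 ↔ ∃ r ∈ maximalIdeal R, ρ r = ε e := Iff.rfl

/-- a lift of an element outside the centre is a unit -/
theorem isUnit_of_notMem_centre (ρ : R →+* κ) (ε : E →+* κ) (h1 : ∀ e : E, ∃ r : R, ρ r = ε e)
    {e : E} (he : e ∉ centreIdeal ρ ε h1) {r : R} (hr : ρ r = ε e) : IsUnit r := by
  by_contra hnu
  exact he ⟨r, (mem_maximalIdeal _).mpr hnu, hr⟩

instance centreIdeal_isPrime (ρ : R →+* κ) (ε : E →+* κ) (h1 : ∀ e : E, ∃ r : R, ρ r = ε e) :
    (centreIdeal ρ ε h1).IsPrime := by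
  refine ⟨?_, ?_⟩
  · rw [Ideal.ne_top_iff_one]
    rintro ⟨r, hr, hr1⟩
    rw [map_one] at hr1
    exact map_ne_one_of_mem ρ hr hr1
  · intro a b hab
    obtain ⟨r, hr, hrab⟩ := hab
    by_contra hcon
    rw [not_or] at hcon
    obtain ⟨ra, hra⟩ := h1 a
    obtain ⟨rb, hrb⟩ := h1 b
    have hua : IsUnit ra := isUnit_of_notMem_centre ρ ε h1 hcon.1 hra
    have hub : IsUnit rb := isUnit_of_notMem_centre ρ ε h1 hcon.2 hrb
    obtain ⟨sa, hsa⟩ := exists_map_eq_inv ρ hua
    obtain ⟨sb, hsb⟩ := exists_map_eq_inv ρ hub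
    have ha0 : ρ ra ≠ 0 := (hua.map ρ).ne_zero
    have hb0 : ρ rb ≠ 0 := (hub.map ρ).ne_zero
    refine map_mul_ne_one_of_mem ρ hr (sa * sb) ?_
    rw [map_mul, map_mul, hrab, map_mul, ← hra, ← hrb, hsa, hsb]
    field_simp

section Domain

variable [IsDomain E]

/-- the centre is not zero when `ρ(R)` is not a field -/
theorem centreIdeal_ne_bot (ρ : R →+* κ) (ε : E →+* κ) (hε : Function.Injective ε)
    (h1 : ∀ e : E, ∃ r : R, ρ r = ε e)
    (h2 : ∀ r : R, ∃ a b : E, b ≠ 0 ∧ ρ r * ε b = ε a)
    (h3 : ∃ r : R, ¬ IsUnit r ∧ ρ r ≠ 0) : centreIdeal ρ ε h1 ≠ ⊥ := by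
  obtain ⟨r, hr, hr0⟩ := h3
  obtain ⟨a, b, hb, hab⟩ := h2 r
  obtain ⟨rb, hrb⟩ := h1 b
  have ha : a ≠ 0 := by
    rintro rfl
    rw [map_zero] at hab
    rcases mul_eq_zero.mp hab with h | h
    · exact hr0 h
    · exact hb (hε (h.trans (map_zero ε).symm))
  intro hbot
  have hmem : a ∈ centreIdeal ρ ε h1 :=
    ⟨r * rb, Ideal.mul_mem_right _ _ ((mem_maximalIdeal _).mpr hr), by rw [map_mul, hrb, hab]⟩
  rw [hbot, Ideal.mem_bot] at hmem
  exact ha hmem

section Lift

variable (ρ : R →+* κ) (ε : E →+* κ) (hε : Function.Injective ε)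
  (h1 : ∀ e : E, ∃ r : R, ρ r = ε e)

/-- the extension of `ε` to the localisation at the centre -/
noncomputable def liftCentre : Localization.AtPrime (centreIdeal ρ ε h1) →+* κ :=
  IsLocalization.lift (M := (centreIdeal ρ ε h1).primeCompl) (g := ε) (fun s => by
    refine isUnit_iff_ne_zero.mpr fun h0 => ?_
    have hs0 : (s : E) = 0 := hε (h0.trans (map_zero ε).symm)
    exact s.2 (hs0 ▸ (centreIdeal ρ ε h1).zero_mem))

theorem liftCentre_algebraMap (e : E) :
    liftCentre ρ ε hε h1 (algebraMap E (Localization.AtPrime (centreIdeal ρ ε h1)) e) = ε e :=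
  IsLocalization.lift_eq _ e

theorem liftCentre_injective : Function.Injective (liftCentre ρ ε hε h1) := by
  unfold liftCentre
  rw [IsLocalization.lift_injective_iff]
  intro x y
  have hinj : Function.Injective
      (algebraMap E (Localization.AtPrime (centreIdeal ρ ε h1))) :=
    IsLocalization.injective _ (centreIdeal ρ ε h1).primeCompl_le_nonZeroDivisors
  exact ⟨fun h => by rw [hinj h], fun h => by rw [hε h]⟩

/-- every element of the localisation at the centre is the image of an element of `R` -/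
theorem exists_map_eq_liftCentre (z : Localization.AtPrime (centreIdeal ρ ε h1)) :
    ∃ r : R, ρ r = liftCentre ρ ε hε h1 z := by
  obtain ⟨a, s, rfl⟩ := IsLocalization.exists_mk'_eq (centreIdeal ρ ε h1).primeCompl z
  obtain ⟨ra, hra⟩ := h1 a
  obtain ⟨rs, hrs⟩ := h1 (s : E)
  have hus : IsUnit rs := isUnit_of_notMem_centre ρ ε h1 s.2 hrs
  obtain ⟨rs', hrs'⟩ := exists_map_eq_inv ρ hus
  refine ⟨ra * rs', ?_⟩
  have hspec : liftCentre ρ ε hε h1
      (IsLocalization.mk' (Localization.AtPrime (centreIdeal ρ ε h1)) a s) * ε (s : E) = ε a := by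
    rw [← liftCentre_algebraMap ρ ε hε h1 (s : E), ← map_mul, IsLocalization.mk'_spec,
      liftCentre_algebraMap]
  have hs0 : ε (s : E) ≠ 0 := by
    rw [← hrs]
    exact (hus.map ρ).ne_zero
  rw [map_mul, hra, hrs', hrs, ← hspec]
  field_simp

/-- an element of the maximal ideal of the localisation is the image of a non-unit of `R` -/
theorem exists_mem_map_eq_liftCentre (z : Localization.AtPrime (centreIdeal ρ ε h1))
    (hz : z ∈ maximalIdeal (Localization.AtPrime (centreIdeal ρ ε h1))) :
    ∃ r ∈ maximalIdeal R, ρ r = liftCentre ρ ε hε h1 z := by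
  obtain ⟨a, s, rfl⟩ := IsLocalization.exists_mk'_eq (centreIdeal ρ ε h1).primeCompl z
  have ha : a ∈ centreIdeal ρ ε h1 :=
    (IsLocalization.AtPrime.mk'_mem_maximal_iff
      (Localization.AtPrime (centreIdeal ρ ε h1)) (centreIdeal ρ ε h1) a s).mp hz
  obtain ⟨ra, hram, hra⟩ := ha
  obtain ⟨rs, hrs⟩ := h1 (s : E)
  have hus : IsUnit rs := isUnit_of_notMem_centre ρ ε h1 s.2 hrs
  obtain ⟨rs', hrs'⟩ := exists_map_eq_inv ρ hus
  refine ⟨ra * rs', Ideal.mul_mem_right _ _ hram, ?_⟩
  have hspec : liftCentre ρ ε hε h1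
      (IsLocalization.mk' (Localization.AtPrime (centreIdeal ρ ε h1)) a s) * ε (s : E) = ε a := by
    rw [← liftCentre_algebraMap ρ ε hε h1 (s : E), ← map_mul, IsLocalization.mk'_spec,
      liftCentre_algebraMap]
  have hs0 : ε (s : E) ≠ 0 := by
    rw [← hrs]
    exact (hus.map ρ).ne_zero
  rw [map_mul, hra, hrs', hrs, ← hspec]
  field_simp

end Lift

end Domain

section Main

variable [IsDedekindDomain E]

variable (ρ : R →+* κ) (ε : E →+* κ) (hε : Function.Injective ε)
  (h1 : ∀ e : E, ∃ r : R, ρ r = ε e)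
  (h2 : ∀ r : R, ∃ a b : E, b ≠ 0 ∧ ρ r * ε b = ε a)
  (h3 : ∃ r : R, ¬ IsUnit r ∧ ρ r ≠ 0)

include hε h2 h3 in
/-- the centre is a maximal ideal -/
theorem centreIdeal_isMaximal : (centreIdeal ρ ε h1).IsMaximal :=
  Ideal.IsPrime.isMaximal inferInstance (centreIdeal_ne_bot ρ ε hε h1 h2 h3)

include hε h2 h3 in
/-- the localisation at the centre is a discrete valuation ring -/
theorem isDiscreteValuationRing_centre :
    IsDiscreteValuationRing (Localization.AtPrime (centreIdeal ρ ε h1)) :=
  IsLocalization.AtPrime.isDiscreteValuationRing_of_dedekind_domain E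
    (centreIdeal_ne_bot ρ ε hε h1 h2 h3) _

include h2 h3 in
/-- **the image of `R` is the localisation of `E` at the centre** -/
theorem exists_liftCentre_eq (r : R) :
    ∃ z : Localization.AtPrime (centreIdeal ρ ε h1), liftCentre ρ ε hε h1 z = ρ r := by
  have := isDiscreteValuationRing_centre ρ ε hε h1 h2 h3
  obtain ⟨a, b, hb, hab⟩ := h2 r
  set A := Localization.AtPrime (centreIdeal ρ ε h1) with hA
  have hinj : Function.Injective (algebraMap E A) :=
    IsLocalization.injective _ (centreIdeal ρ ε h1).primeCompl_le_nonZeroDivisors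
  have hb' : algebraMap E A b ≠ 0 := fun h0 => hb (hinj (h0.trans (map_zero _).symm))
  have hεb : ε b ≠ 0 := fun h0 => hb (hε (h0.trans (map_zero ε).symm))
  have key : ∀ c : A, algebraMap E A a = algebraMap E A b * c →
      liftCentre ρ ε hε h1 c = ρ r := by
    intro c hc
    have h4 := congrArg (liftCentre ρ ε hε h1) hc
    rw [map_mul, liftCentre_algebraMap, liftCentre_algebraMap, ← hab] at h4
    have h5 : ε b * ρ r = ε b * liftCentre ρ ε hε h1 c := by rw [← h4]; ring
    exact (mul_left_cancel₀ hεb h5).symm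
  rcases ValuationRing.dvd_total (algebraMap E A a) (algebraMap E A b) with hdiv | hdiv
  · obtain ⟨c, hc⟩ := hdiv
    by_cases hcu : IsUnit c
    · obtain ⟨u, rfl⟩ := hcu
      refine ⟨((u⁻¹ : Aˣ) : A), key _ ?_⟩
      rw [hc, mul_assoc, Units.mul_inv, mul_one]
    · exfalso
      have hcm : c ∈ maximalIdeal A := (mem_maximalIdeal _).mpr hcu
      obtain ⟨m, hm, hmc⟩ := exists_mem_map_eq_liftCentre ρ ε hε h1 c hcm
      have h4 := congrArg (liftCentre ρ ε hε h1) hc
      rw [map_mul, liftCentre_algebraMap, liftCentre_algebraMap, ← hab, ← hmc] at h4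
      have h5 : ε b * 1 = ε b * (ρ r * ρ m) := by linear_combination h4
      have h6 := mul_left_cancel₀ hεb h5
      refine map_mul_ne_one_of_mem ρ hm r ?_
      rw [map_mul, mul_comm]
      exact h6.symm
  · obtain ⟨c, hc⟩ := hdiv
    exact ⟨c, key c hc⟩

/-- **The branch map** `R → E_P`: the reduction `ρ` read in the localisation of `E` at the
centre. -/
noncomputable def branchMap : R →+* Localization.AtPrime (centreIdeal ρ ε h1) where
  toFun r := Classical.choose (exists_liftCentre_eq ρ ε hε h1 h2 h3 r)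
  map_one' := liftCentre_injective ρ ε hε h1 (by
    rw [Classical.choose_spec (exists_liftCentre_eq ρ ε hε h1 h2 h3 1), map_one, map_one])
  map_mul' x y := liftCentre_injective ρ ε hε h1 (by
    rw [Classical.choose_spec (exists_liftCentre_eq ρ ε hε h1 h2 h3 (x * y)), map_mul, map_mul,
      Classical.choose_spec (exists_liftCentre_eq ρ ε hε h1 h2 h3 x),
      Classical.choose_spec (exists_liftCentre_eq ρ ε hε h1 h2 h3 y)])
  map_zero' := liftCentre_injective ρ ε hε h1 (by
    rw [Classical.choose_spec (exists_liftCentre_eq ρ ε hε h1 h2 h3 0), map_zero, map_zero])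
  map_add' x y := liftCentre_injective ρ ε hε h1 (by
    rw [Classical.choose_spec (exists_liftCentre_eq ρ ε hε h1 h2 h3 (x + y)), map_add, map_add,
      Classical.choose_spec (exists_liftCentre_eq ρ ε hε h1 h2 h3 x),
      Classical.choose_spec (exists_liftCentre_eq ρ ε hε h1 h2 h3 y)])

theorem liftCentre_branchMap (r : R) :
    liftCentre ρ ε hε h1 (branchMap ρ ε hε h1 h2 h3 r) = ρ r :=
  Classical.choose_spec (exists_liftCentre_eq ρ ε hε h1 h2 h3 r)

theorem branchMap_surjective : Function.Surjective (branchMap ρ ε hε h1 h2 h3) := by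
  intro z
  obtain ⟨r, hr⟩ := exists_map_eq_liftCentre ρ ε hε h1 z
  exact ⟨r, liftCentre_injective ρ ε hε h1 (by rw [liftCentre_branchMap, hr])⟩

theorem ker_branchMap : RingHom.ker (branchMap ρ ε hε h1 h2 h3) = RingHom.ker ρ := by
  ext r
  rw [RingHom.mem_ker, RingHom.mem_ker, ← liftCentre_branchMap ρ ε hε h1 h2 h3 r]
  constructor
  · intro h
    rw [h, map_zero]
  · intro h
    exact liftCentre_injective ρ ε hε h1 (h.trans (map_zero _).symm)

/-- the branch map sends a lift of `e : E` to `e` -/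
theorem branchMap_eq_algebraMap {r : R} {e : E} (h : ρ r = ε e) :
    branchMap ρ ε hε h1 h2 h3 r =
      algebraMap E (Localization.AtPrime (centreIdeal ρ ε h1)) e :=
  liftCentre_injective ρ ε hε h1 (by rw [liftCentre_branchMap, liftCentre_algebraMap, h])

/-- the branch map is a local homomorphism -/
theorem branchMap_mem_maximalIdeal_iff (r : R) :
    branchMap ρ ε hε h1 h2 h3 r ∈
      maximalIdeal (Localization.AtPrime (centreIdeal ρ ε h1)) ↔ r ∈ maximalIdeal R := by
  constructor
  · intro h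
    by_contra hr
    have hu : IsUnit r := by
      by_contra hnu
      exact hr ((mem_maximalIdeal _).mpr hnu)
    exact (mem_maximalIdeal _).mp h (hu.map _)
  · intro hr
    rw [mem_maximalIdeal, mem_nonunits_iff]
    intro hu
    obtain ⟨z, hz⟩ := isUnit_iff_exists_inv.mp hu
    obtain ⟨s, rfl⟩ := branchMap_surjective ρ ε hε h1 h2 h3 z
    rw [← map_mul] at hz
    have h4 := congrArg (liftCentre ρ ε hε h1) hz
    rw [liftCentre_branchMap, map_one] at h4
    exact map_mul_ne_one_of_mem ρ hr s h4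

include hε h2 h3 in
/-- a uniformiser of the branch coming from `E` -/
theorem exists_irreducible_algebraMap :
    ∃ t ∈ centreIdeal ρ ε h1,
      Irreducible (algebraMap E (Localization.AtPrime (centreIdeal ρ ε h1)) t) := by
  have := isDiscreteValuationRing_centre ρ ε hε h1 h2 h3
  set A := Localization.AtPrime (centreIdeal ρ ε h1) with hA
  obtain ⟨ϖ, hϖ⟩ := IsDiscreteValuationRing.exists_irreducible A
  obtain ⟨t, s, rfl⟩ := IsLocalization.exists_mk'_eq (centreIdeal ρ ε h1).primeCompl ϖ
  have hs : IsUnit (algebraMap E A (s : E)) :=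
    IsLocalization.map_units A s
  have hspec : IsLocalization.mk' A t s * algebraMap E A (s : E) = algebraMap E A t :=
    IsLocalization.mk'_spec A t s
  have hirr : Irreducible (algebraMap E A t) := by
    rw [← hspec]
    exact (irreducible_mul_isUnit hs).mpr hϖ
  refine ⟨t, ?_, hirr⟩
  by_contra ht
  have hu : IsUnit (algebraMap E A t) :=
    IsLocalization.map_units A (⟨t, ht⟩ : (centreIdeal ρ ε h1).primeCompl)
  exact hirr.not_isUnit hu

include hε h1 h2 h3 in
/-- **(S2), abstract, packaged.**  The branch `ρ(R)` of the local ring `R` is a discrete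
valuation ring, namely the localisation of the Dedekind domain `E` at a maximal ideal `P`;
`φ : R → E_P` is surjective with the kernel of `ρ`, and a lift of a suitable `t ∈ P` is a
uniformiser. -/
theorem exists_branch :
    ∃ (P : Ideal E) (_ : P.IsMaximal) (_ : P ≠ ⊥) (φ : R →+* Localization.AtPrime P),
      Function.Surjective φ ∧ RingHom.ker φ = RingHom.ker ρ ∧
      (∀ e : E, e ∈ P ↔ ∃ r ∈ maximalIdeal R, ρ r = ε e) ∧
      (∀ (r : R) (e : E), ρ r = ε e → φ r = algebraMap E (Localization.AtPrime P) e) ∧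
      (∀ r : R, φ r ∈ maximalIdeal (Localization.AtPrime P) ↔ r ∈ maximalIdeal R) ∧
      ∃ t ∈ P, Irreducible (algebraMap E (Localization.AtPrime P) t) :=
  ⟨centreIdeal ρ ε h1, centreIdeal_isMaximal ρ ε hε h1 h2 h3,
    centreIdeal_ne_bot ρ ε hε h1 h2 h3, branchMap ρ ε hε h1 h2 h3,
    branchMap_surjective ρ ε hε h1 h2 h3, ker_branchMap ρ ε hε h1 h2 h3,
    fun _ => Iff.rfl, fun _ _ h => branchMap_eq_algebraMap ρ ε hε h1 h2 h3 h,
    branchMap_mem_maximalIdeal_iff ρ ε hε h1 h2 h3,
    exists_irreducible_algebraMap ρ ε hε h1 h2 h3⟩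

end Main

end Fermat.Agent.S34.BranchDVR
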