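import Mathlib
import Fermat.Agent.S34.BranchDVR

/-!
# S34, (S2)/(S3) at the cusps: a point with a separator lies on one component and is smooth

Abstract form of the analysis of the level-`N` cusp chart (`N = M q`) at a point over `j = ∞`.

`B` is a chart ring with two reductions `r₁ : B → κ₁`, `r₂ : B → κ₂` into fields (the restrictions
of the residue maps of the two Gauss valuations) and `(π) = ker r₁ ⊓ ker r₂`.

* `not_ker_le_and_ker_le` : a **separator** `t` (with `r₁ t = 1`, `r₂ (D ^ k * t - z ^ k) = 0`,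
  `D ∉ 𝔫`, `z ∈ 𝔫`) shows that the prime `𝔫` does not contain both `ker r₁` and `ker r₂`:
  no crossing point at `𝔫`.
* `maximalIdeal_eq_span_of_branch` : a local ring `R` with `(π) = ker ρ` whose branch `ρ(R)` is
  controlled by a Dedekind domain `E` as in `BranchDVR.exists_branch` has maximal ideal
  `(π, u)`, `u` a lift of an element of `E`.
* `locRed`, `ker_locRed` : the reduction `r` extended to `Localization.AtPrime 𝔫` when
  `ker r ≤ 𝔫`; its kernel is `(π)` when the other component does not pass through `𝔫`.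
* `smooth_of_ker_le` : one component through `𝔫`, branch data for it ⊢ `𝔪 = (π, u)`.
* `cusp_smooth` : separator + branch data for each component that passes through `𝔫` ⊢
  `∃ u, maximalIdeal (Localization.AtPrime 𝔫) = (π, u)`.
-/

set_option autoImplicit false

namespace Fermat.Agent.S34.CuspAbs

open IsLocalRing

/-! ### No crossing point where a separator exists -/

section NoNode

variable {B κ₁ κ₂ : Type*} [CommRing B] [Field κ₁] [Field κ₂]

/-- **No crossing.**  If `t ≡ 1` on the first component and `D ^ k * t ≡ z ^ k` on the second,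
with `D ∉ 𝔫` and `z ∈ 𝔫`, then the prime `𝔫` does not lie on both components. -/
theorem not_ker_le_and_ker_le (r₁ : B →+* κ₁) (r₂ : B →+* κ₂) (𝔫 : Ideal B) [h𝔫 : 𝔫.IsPrime]
    (t z D : B) (k : ℕ) (hk : k ≠ 0) (hD : D ∉ 𝔫) (hz : z ∈ 𝔫)
    (h₁ : r₁ t = 1) (h₂ : r₂ (D ^ k * t - z ^ k) = 0) :
    ¬ (RingHom.ker r₁ ≤ 𝔫 ∧ RingHom.ker r₂ ≤ 𝔫) := by
  rintro ⟨hk₁, hk₂⟩
  have ht1 : t - 1 ∈ 𝔫 := hk₁ (by rw [RingHom.mem_ker, map_sub, h₁, map_one, sub_self])
  have h2 : D ^ k * t - z ^ k ∈ 𝔫 := hk₂ h₂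
  have hzk : z ^ k ∈ 𝔫 := Ideal.pow_mem_of_mem 𝔫 hz k (Nat.pos_of_ne_zero hk)
  have hDt : D ^ k * t ∈ 𝔫 := by
    have := 𝔫.add_mem h2 hzk
    rwa [sub_add_cancel] at this
  have ht : t ∈ 𝔫 := by
    rcases h𝔫.mem_or_mem hDt with h | h
    · exact absurd (h𝔫.mem_of_pow_mem k h) hD
    · exact h
  have h1 : (1 : B) ∈ 𝔫 := by
    have := 𝔫.sub_mem ht ht1
    rwa [sub_sub_cancel] at this
  exact h𝔫.ne_top ((Ideal.eq_top_iff_one 𝔫).mpr h1)

end NoNode

/-! ### A local ring with one branch controlled by a Dedekind domain -/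

section Local

variable {R κ E : Type*} [CommRing R] [IsLocalRing R] [Field κ] [CommRing E] [IsDedekindDomain E]

/-- **Smooth point, local form.**  `R` local, `(π) = ker ρ`, and the branch `ρ(R)` controlled by
the Dedekind domain `E` (hypotheses of `BranchDVR.exists_branch`): then `𝔪_R = (π, u)` for a
lift `u` of an element `e` of `E`. -/
theorem maximalIdeal_eq_span_of_branch (ρ : R →+* κ) (ε : E →+* κ) (hε : Function.Injective ε)
    (h1 : ∀ e : E, ∃ r : R, ρ r = ε e)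
    (h2 : ∀ r : R, ∃ a b : E, b ≠ 0 ∧ ρ r * ε b = ε a)
    (h3 : ∃ r : R, ¬ IsUnit r ∧ ρ r ≠ 0)
    (π : R) (hπ : Ideal.span {π} = RingHom.ker ρ) :
    ∃ (e : E) (u : R), ρ u = ε e ∧ maximalIdeal R = Ideal.span {π, u} := by
  have hdvr := BranchDVR.isDiscreteValuationRing_centre ρ ε hε h1 h2 h3
  obtain ⟨t, -, htirr⟩ := BranchDVR.exists_irreducible_algebraMap ρ ε hε h1 h2 h3
  set φ := BranchDVR.branchMap ρ ε hε h1 h2 h3 with hφ
  obtain ⟨u, hu⟩ := h1 t
  have hφu : φ u = algebraMap E (Localization.AtPrime (BranchDVR.centreIdeal ρ ε h1)) t :=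
    BranchDVR.branchMap_eq_algebraMap ρ ε hε h1 h2 h3 hu
  have hker : RingHom.ker φ = RingHom.ker ρ := BranchDVR.ker_branchMap ρ ε hε h1 h2 h3
  have hloc : ∀ r : R, φ r ∈ maximalIdeal
      (Localization.AtPrime (BranchDVR.centreIdeal ρ ε h1)) ↔ r ∈ maximalIdeal R :=
    BranchDVR.branchMap_mem_maximalIdeal_iff ρ ε hε h1 h2 h3
  have hsurj : Function.Surjective φ := BranchDVR.branchMap_surjective ρ ε hε h1 h2 h3
  refine ⟨t, u, hu, le_antisymm ?_ ?_⟩
  · intro m hm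
    have h4 : φ m ∈ maximalIdeal (Localization.AtPrime (BranchDVR.centreIdeal ρ ε h1)) :=
      (hloc m).mpr hm
    rw [htirr.maximalIdeal_eq, Ideal.mem_span_singleton'] at h4
    obtain ⟨d, hd⟩ := h4
    obtain ⟨c, rfl⟩ := hsurj d
    have h5 : m - c * u ∈ RingHom.ker φ := by
      rw [RingHom.mem_ker, map_sub, map_mul, hφu, hd, sub_self]
    rw [hker, ← hπ, Ideal.mem_span_singleton'] at h5
    obtain ⟨a, ha⟩ := h5
    have h6 : m = a * π + c * u := by rw [ha]; ring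
    rw [h6]
    exact Ideal.add_mem _ (Ideal.mul_mem_left _ _ (Ideal.subset_span (by simp)))
      (Ideal.mul_mem_left _ _ (Ideal.subset_span (by simp)))
  · rw [Ideal.span_le]
    intro x hx
    rcases hx with rfl | rfl
    · -- `π` is not a unit: it lies in the kernel of `ρ`
      rw [SetLike.mem_coe, mem_maximalIdeal, mem_nonunits_iff]
      intro hunit
      have hmem : x ∈ RingHom.ker ρ := by
        rw [← hπ]
        exact Ideal.subset_span rfl
      rw [RingHom.mem_ker] at hmem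
      have := hunit.map ρ
      rw [hmem] at this
      exact not_isUnit_zero this
    · rw [SetLike.mem_coe, ← hloc, hφu]
      exact (mem_maximalIdeal _).mpr htirr.not_isUnit

end Local

/-! ### The reduction on the localisation at a point of one component -/

section LocRed

variable {B κ : Type*} [CommRing B] [Field κ] (r : B →+* κ) (𝔫 : Ideal B) [𝔫.IsPrime]

/-- the reduction `r` extended to the local ring at `𝔫`, when `ker r ≤ 𝔫` -/
noncomputable def locRed (h : RingHom.ker r ≤ 𝔫) : Localization.AtPrime 𝔫 →+* κ :=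
  IsLocalization.lift (M := 𝔫.primeCompl) (g := r) (fun s => by
    refine IsUnit.mk0 _ fun h0 => s.2 (h ?_)
    rw [RingHom.mem_ker]
    exact h0)

theorem locRed_algebraMap (h : RingHom.ker r ≤ 𝔫) (b : B) :
    locRed r 𝔫 h (algebraMap B (Localization.AtPrime 𝔫) b) = r b :=
  IsLocalization.lift_eq _ b

theorem locRed_mk' (h : RingHom.ker r ≤ 𝔫) (b : B) (s : 𝔫.primeCompl) :
    locRed r 𝔫 h (IsLocalization.mk' (Localization.AtPrime 𝔫) b s) * r s = r b := by
  rw [← locRed_algebraMap r 𝔫 h (s : B), ← map_mul, IsLocalization.mk'_spec,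
    locRed_algebraMap]

/-- `(π) = ker r₁ ⊓ ker r₂` and the second component does not pass through `𝔫`: the kernel of
the first reduction on the local ring is `(π)`. -/
theorem ker_locRed {κ' : Type*} [Field κ'] (r' : B →+* κ') (π : B)
    (hπ : Ideal.span {π} = RingHom.ker r ⊓ RingHom.ker r')
    (h : RingHom.ker r ≤ 𝔫) (h' : ¬ RingHom.ker r' ≤ 𝔫) :
    Ideal.span {algebraMap B (Localization.AtPrime 𝔫) π} = RingHom.ker (locRed r 𝔫 h) := by
  have hπmem : π ∈ RingHom.ker r ⊓ RingHom.ker r' := by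
    rw [← hπ]
    exact Ideal.subset_span rfl
  apply le_antisymm
  · rw [Ideal.span_le]
    intro x hx
    rw [Set.mem_singleton_iff] at hx
    subst hx
    rw [SetLike.mem_coe, RingHom.mem_ker, locRed_algebraMap]
    exact RingHom.mem_ker.mp hπmem.1
  · intro x hx
    obtain ⟨b, s, rfl⟩ := IsLocalization.exists_mk'_eq 𝔫.primeCompl x
    rw [RingHom.mem_ker] at hx
    have hb : r b = 0 := by
      rw [← locRed_mk' r 𝔫 h b s, hx, zero_mul]
    obtain ⟨c, hc, hc𝔫⟩ := SetLike.not_le_iff_exists.mp h'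
    have hcb : c * b ∈ RingHom.ker r ⊓ RingHom.ker r' :=
      ⟨Ideal.mul_mem_left _ _ (RingHom.mem_ker.mpr hb), Ideal.mul_mem_right _ _ hc⟩
    rw [← hπ, Ideal.mem_span_singleton'] at hcb
    obtain ⟨a, ha⟩ := hcb
    have hcs : c * (s : B) ∈ 𝔫.primeCompl := mul_mem (show c ∈ 𝔫.primeCompl from hc𝔫) s.2
    have hunit : IsUnit (algebraMap B (Localization.AtPrime 𝔫) (c * (s : B))) :=
      IsLocalization.map_units _ (⟨c * (s : B), hcs⟩ : 𝔫.primeCompl)
    have hx' : algebraMap B (Localization.AtPrime 𝔫) (c * (s : B)) *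
        IsLocalization.mk' (Localization.AtPrime 𝔫) b s =
        algebraMap B (Localization.AtPrime 𝔫) a * algebraMap B (Localization.AtPrime 𝔫) π := by
      rw [← map_mul (algebraMap B (Localization.AtPrime 𝔫)) a π, ha, map_mul, map_mul, mul_assoc,
        mul_comm (algebraMap B (Localization.AtPrime 𝔫) (s : B)), IsLocalization.mk'_spec]
    rw [← Ideal.unit_mul_mem_iff_mem _ hunit, hx']
    exact Ideal.mul_mem_left _ _ (Ideal.subset_span rfl)

end LocRed

/-! ### The smooth point -/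

section Smooth

variable {B κ κ' E : Type*} [CommRing B] [Field κ] [Field κ'] [CommRing E] [IsDedekindDomain E]

/-- **One component through `𝔫`, with branch data**: the local ring at `𝔫` has maximal ideal
`(π, u)`.  `r` is the reduction of the component through `𝔫`, `r'` the other one. -/
theorem smooth_of_ker_le (r : B →+* κ) (r' : B →+* κ') (π : B)
    (hπ : Ideal.span {π} = RingHom.ker r ⊓ RingHom.ker r')
    (𝔫 : Ideal B) [𝔫.IsPrime] (h : RingHom.ker r ≤ 𝔫) (h' : ¬ RingHom.ker r' ≤ 𝔫)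
    (ε : E →+* κ) (hε : Function.Injective ε)
    (h1 : ∀ e : E, ∃ b d : B, d ∉ 𝔫 ∧ r b = ε e * r d)
    (h2 : ∀ b : B, ∃ a c : E, c ≠ 0 ∧ r b * ε c = ε a)
    (h3 : ∃ b ∈ 𝔫, r b ≠ 0) :
    ∃ u : Localization.AtPrime 𝔫,
      maximalIdeal (Localization.AtPrime 𝔫) =
        Ideal.span {algebraMap B (Localization.AtPrime 𝔫) π, u} := by
  set ρ := locRed r 𝔫 h with hρ
  have hrne : ∀ d : B, d ∉ 𝔫 → r d ≠ 0 := fun d hd h0 => hd (h (RingHom.mem_ker.mpr h0))
  have hεne : ∀ c : E, c ≠ 0 → ε c ≠ 0 := fun c hc h0 =>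
    hc (hε (h0.trans (map_zero ε).symm))
  -- (h1) on the local ring
  have H1 : ∀ e : E, ∃ x : Localization.AtPrime 𝔫, ρ x = ε e := by
    intro e
    obtain ⟨b, d, hd, hbd⟩ := h1 e
    refine ⟨IsLocalization.mk' (Localization.AtPrime 𝔫) b (⟨d, hd⟩ : 𝔫.primeCompl), ?_⟩
    have h4 := locRed_mk' r 𝔫 h b (⟨d, hd⟩ : 𝔫.primeCompl)
    have h5 : ρ (IsLocalization.mk' (Localization.AtPrime 𝔫) b (⟨d, hd⟩ : 𝔫.primeCompl)) * r d =
        ε e * r d := by rw [hρ, h4, hbd]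
    exact mul_right_cancel₀ (hrne d hd) h5
  -- (h2) on the local ring
  have H2 : ∀ x : Localization.AtPrime 𝔫, ∃ a c : E, c ≠ 0 ∧ ρ x * ε c = ε a := by
    intro x
    obtain ⟨b, s, rfl⟩ := IsLocalization.exists_mk'_eq 𝔫.primeCompl x
    obtain ⟨a, c, hc, hac⟩ := h2 b
    obtain ⟨a₂, c₂, hc₂, hac₂⟩ := h2 (s : B)
    have hs0 : r (s : B) ≠ 0 := hrne _ s.2
    have ha₂ : a₂ ≠ 0 := by
      rintro rfl
      rw [map_zero] at hac₂
      rcases mul_eq_zero.mp hac₂ with h0 | h0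
      · exact hs0 h0
      · exact hεne c₂ hc₂ h0
    refine ⟨a * c₂, c * a₂, mul_ne_zero hc ha₂, ?_⟩
    have h4 := locRed_mk' r 𝔫 h b s
    rw [← hρ] at h4
    rw [map_mul, map_mul, ← hac, ← hac₂, ← h4]
    ring
  -- (h3) on the local ring
  have H3 : ∃ x : Localization.AtPrime 𝔫, ¬ IsUnit x ∧ ρ x ≠ 0 := by
    obtain ⟨b, hb, hrb⟩ := h3
    refine ⟨algebraMap B (Localization.AtPrime 𝔫) b, ?_, ?_⟩
    · have hmem : algebraMap B (Localization.AtPrime 𝔫) b ∈
          maximalIdeal (Localization.AtPrime 𝔫) := by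
        rw [← Localization.AtPrime.map_eq_maximalIdeal]
        exact Ideal.mem_map_of_mem _ hb
      exact (mem_maximalIdeal _).mp hmem
    · rw [hρ, locRed_algebraMap]
      exact hrb
  obtain ⟨-, u, -, hu⟩ := maximalIdeal_eq_span_of_branch ρ ε hε H1 H2 H3
    (algebraMap B (Localization.AtPrime 𝔫) π) (ker_locRed r 𝔫 r' π hπ h h')
  exact ⟨u, hu⟩

variable {E' : Type*} [CommRing E'] [IsDedekindDomain E']

/-- **A cusp is a smooth point of one component** (abstract form).  `B` a chart ring with two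
reductions `r₁`, `r₂` into fields, `(π) = ker r₁ ⊓ ker r₂`, `𝔫` a prime containing `π`, a
separator `t` at `𝔫`, and for each component that passes through `𝔫` branch data in the shape
of `BranchDVR.exists_branch`: the local ring at `𝔫` has maximal ideal `(π, u)`. -/
theorem cusp_smooth (r₁ : B →+* κ) (r₂ : B →+* κ') (π : B)
    (hπ : Ideal.span {π} = RingHom.ker r₁ ⊓ RingHom.ker r₂)
    (𝔫 : Ideal B) [h𝔫 : 𝔫.IsPrime] (hπ𝔫 : π ∈ 𝔫)
    (t z D : B) (k : ℕ) (hk : k ≠ 0) (hD : D ∉ 𝔫) (hz : z ∈ 𝔫)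
    (ht₁ : r₁ t = 1) (ht₂ : r₂ (D ^ k * t - z ^ k) = 0)
    (ε₁ : E →+* κ) (hε₁ : Function.Injective ε₁)
    (ε₂ : E' →+* κ') (hε₂ : Function.Injective ε₂)
    (hb₁ : RingHom.ker r₁ ≤ 𝔫 →
      (∀ e : E, ∃ b d : B, d ∉ 𝔫 ∧ r₁ b = ε₁ e * r₁ d) ∧
      (∀ b : B, ∃ a c : E, c ≠ 0 ∧ r₁ b * ε₁ c = ε₁ a) ∧ ∃ b ∈ 𝔫, r₁ b ≠ 0)
    (hb₂ : RingHom.ker r₂ ≤ 𝔫 →
      (∀ e : E', ∃ b d : B, d ∉ 𝔫 ∧ r₂ b = ε₂ e * r₂ d) ∧
      (∀ b : B, ∃ a c : E', c ≠ 0 ∧ r₂ b * ε₂ c = ε₂ a) ∧ ∃ b ∈ 𝔫, r₂ b ≠ 0) :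
    ∃ u : Localization.AtPrime 𝔫,
      maximalIdeal (Localization.AtPrime 𝔫) =
        Ideal.span {algebraMap B (Localization.AtPrime 𝔫) π, u} := by
  have hnot := not_ker_le_and_ker_le r₁ r₂ 𝔫 t z D k hk hD hz ht₁ ht₂
  -- at least one component passes through `𝔫`
  have hor : RingHom.ker r₁ ≤ 𝔫 ∨ RingHom.ker r₂ ≤ 𝔫 := by
    have hle : RingHom.ker r₁ ⊓ RingHom.ker r₂ ≤ 𝔫 := by
      rw [← hπ, Ideal.span_le]
      intro x hx
      rw [Set.mem_singleton_iff] at hx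
      rw [hx]
      exact hπ𝔫
    exact h𝔫.inf_le.mp hle
  rcases hor with h | h
  · have h' : ¬ RingHom.ker r₂ ≤ 𝔫 := fun h' => hnot ⟨h, h'⟩
    obtain ⟨h1, h2, h3⟩ := hb₁ h
    exact smooth_of_ker_le r₁ r₂ π hπ 𝔫 h h' ε₁ hε₁ h1 h2 h3
  · have h' : ¬ RingHom.ker r₁ ≤ 𝔫 := fun h' => hnot ⟨h', h⟩
    obtain ⟨h1, h2, h3⟩ := hb₂ h
    have hπ' : Ideal.span {π} = RingHom.ker r₂ ⊓ RingHom.ker r₁ := by rw [hπ, inf_comm]
    exact smooth_of_ker_le r₂ r₁ π hπ' 𝔫 h h' ε₂ hε₂ h1 h2 h3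

end Smooth

end Fermat.Agent.S34.CuspAbs
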