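import Mathlib

/-!
# S34 (wave 6): valuative criterion for membership in a localisation of an integrally closed ring

`B` a ring with a map to a field `F`, integrally closed in `F` (`hcl`), `𝔫` a proper ideal.

* `exists_valuationSubring_of_conductor`: if no `d ∉ 𝔫` has `d * z ∈ B`, there is a valuation
  subring `V ⊇ B` of `F` with `𝔫 ⊆ 𝔪_V` and `z ∉ V`.
* `exists_denominator_of_forall_mem`: if `z` lies in every valuation subring `V ⊇ B` with
  `𝔫 ⊆ 𝔪_V`, then `d * z ∈ B` for some `d ∉ 𝔫` (`z ∈ B_𝔫`).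
* `exists_denominator_mem_of_forall_nonunit`: for `𝔫` maximal, if `z ∈ 𝔪_V` for all such `V`,
  then `d * z ∈ 𝔫` for some `d ∉ 𝔫` (`z ∈ 𝔫 B_𝔫`).
* `mem_of_isIntegralElem`: valuation subrings are integrally closed (ring-hom form).
* `inv_mem_nonunits_of_isIntegralElem`: if `a ∉ V` is integral over `D[b]`-type ring
  (`φ : D → F` with `φ D ⊆ V` after adjoining `b`), then `b ∉ V`, i.e. `b⁻¹ ∈ 𝔪_V`.
-/

set_option autoImplicit false

namespace Fermat.Agent.S34.ValCrit

open Polynomial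

section Crit

variable {B F : Type*} [CommRing B] [Field F] [Algebra B F]

/-- **Valuative criterion, existence form.** -/
theorem exists_valuationSubring_of_conductor
    (hcl : ∀ x : F, IsIntegral B x → ∃ b : B, algebraMap B F b = x)
    (𝔫 : Ideal B) (h𝔫 : 𝔫 ≠ ⊤) (z : F)
    (hz : ∀ d b : B, algebraMap B F d * z = algebraMap B F b → d ∈ 𝔫) :
    ∃ V : ValuationSubring F, (∀ b : B, algebraMap B F b ∈ V) ∧
      (∀ b ∈ 𝔫, algebraMap B F b ∈ V.nonunits) ∧ z ∉ V := by
  classical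
  have hz0 : z ≠ 0 := by
    rintro rfl
    exact h𝔫 ((Ideal.eq_top_iff_one _).mpr (hz 1 0 (by rw [mul_zero, map_zero])))
  have hzi : z⁻¹ ≠ 0 := inv_ne_zero hz0
  let _ := invertibleOfNonzero hzi
  let A := Algebra.adjoin B {z⁻¹}
  let xinv : A.toSubring := ⟨z⁻¹, Algebra.subset_adjoin rfl⟩
  have hJ : 𝔫.map (algebraMap B A) + Ideal.span {xinv} ≠ ⊤ := fun eq => by
    obtain ⟨p, hp, hpx⟩ := Algebra.exists_aeval_invOf_eq_zero_of_idealMap_adjoin_sup_span_eq_top
      z⁻¹ 𝔫 h𝔫 eq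
    have hz' : aeval z p = 0 := by
      rw [invOf_eq_inv, inv_inv] at hpx
      exact hpx
    have hint : IsIntegral B (p.leadingCoeff • z) := isIntegral_leadingCoeff_smul p z hz'
    obtain ⟨b, hb⟩ := hcl _ hint
    have hmem : p.leadingCoeff ∈ 𝔫 := hz p.leadingCoeff b (by rw [hb, Algebra.smul_def])
    apply h𝔫
    rw [Ideal.eq_top_iff_one]
    have h1 := 𝔫.sub_mem hmem hp
    rwa [sub_sub_cancel] at h1
  obtain ⟨V, hV1, hV2⟩ := Ideal.image_subset_nonunits_valuationSubring (A := A.toSubring) _ hJ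
  refine ⟨V, fun b => hV1 (A.algebraMap_mem b), fun b hb => ?_, ?_⟩
  · exact hV2 ⟨algebraMap B A b, le_self_add (α := Ideal A) (Ideal.mem_map_of_mem _ hb), rfl⟩
  · have h1 : z⁻¹ ∈ V.nonunits :=
      hV2 ⟨xinv, le_add_self (α := Ideal A) (Ideal.subset_span rfl), rfl⟩
    exact (V.inv_mem_nonunits_iff.mp h1).resolve_left hz0

/-- **Valuative criterion**: `z` lies in the localisation `B_𝔫` as soon as it lies in every
valuation subring `V ⊇ B` whose maximal ideal contains `𝔫`. -/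
theorem exists_denominator_of_forall_mem
    (hcl : ∀ x : F, IsIntegral B x → ∃ b : B, algebraMap B F b = x)
    (𝔫 : Ideal B) (h𝔫 : 𝔫 ≠ ⊤) (z : F)
    (hz : ∀ V : ValuationSubring F, (∀ b : B, algebraMap B F b ∈ V) →
      (∀ b ∈ 𝔫, algebraMap B F b ∈ V.nonunits) → z ∈ V) :
    ∃ d b : B, d ∉ 𝔫 ∧ algebraMap B F d * z = algebraMap B F b := by
  by_contra hcon
  push Not at hcon
  obtain ⟨V, hV1, hV2, hV3⟩ := exists_valuationSubring_of_conductor hcl 𝔫 h𝔫 z
    (fun d b h => by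
      by_contra hd
      exact hcon d b hd h)
  exact hV3 (hz V hV1 hV2)

/-- A valuation subring centred at a proper ideal `𝔫` of `B ⊆ F`. -/
theorem exists_centred (hinj : Function.Injective (algebraMap B F)) (𝔫 : Ideal B)
    (h𝔫 : 𝔫 ≠ ⊤) :
    ∃ V : ValuationSubring F, (∀ b : B, algebraMap B F b ∈ V) ∧
      (∀ b ∈ 𝔫, algebraMap B F b ∈ V.nonunits) := by
  have hI : 𝔫.map (algebraMap B F).rangeRestrict ≠ ⊤ := by
    intro h
    have h1 := (Ideal.eq_top_iff_one _).mp h
    obtain ⟨n, hn, hn1⟩ := (Ideal.mem_map_iff_of_surjective _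
      (algebraMap B F).rangeRestrict_surjective).mp h1
    have h2 : algebraMap B F n = algebraMap B F 1 := by
      rw [map_one]
      exact congrArg Subtype.val hn1
    exact h𝔫 ((Ideal.eq_top_iff_one _).mpr (hinj h2 ▸ hn))
  obtain ⟨V, hV1, hV2⟩ := Ideal.image_subset_nonunits_valuationSubring _ hI
  exact ⟨V, fun b => hV1 ⟨b, rfl⟩,
    fun b hb => hV2 ⟨(algebraMap B F).rangeRestrict b, Ideal.mem_map_of_mem _ hb, rfl⟩⟩

/-- In a valuation subring centred at a maximal ideal `𝔫`, the elements of `B` outside `𝔫` are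
units. -/
theorem valuation_eq_one_of_notMem (𝔫 : Ideal B) [h𝔫 : 𝔫.IsMaximal] (V : ValuationSubring F)
    (hV1 : ∀ b : B, algebraMap B F b ∈ V) (hV2 : ∀ b ∈ 𝔫, algebraMap B F b ∈ V.nonunits)
    {s : B} (hs : s ∉ 𝔫) : V.valuation (algebraMap B F s) = 1 := by
  obtain ⟨y, i, hi, hyi⟩ := h𝔫.exists_inv hs
  have h1 : V.valuation (algebraMap B F i) < 1 := hV2 i hi
  have h2 : algebraMap B F y * algebraMap B F s = 1 - algebraMap B F i := by
    rw [← map_mul, ← map_one (algebraMap B F), ← map_sub, ← hyi, add_sub_cancel_right]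
  have h3 : V.valuation (algebraMap B F y) * V.valuation (algebraMap B F s) = 1 := by
    rw [← map_mul, h2]
    exact V.valuation.map_one_sub_of_lt h1
  have hy : V.valuation (algebraMap B F y) ≤ 1 := (V.valuation_le_one_iff _).mpr (hV1 y)
  have hs' : V.valuation (algebraMap B F s) ≤ 1 := (V.valuation_le_one_iff _).mpr (hV1 s)
  refine le_antisymm hs' ?_
  rw [← h3]
  exact mul_le_of_le_one_left' hy

/-- **Valuative criterion, maximal ideal**: for `𝔫` maximal, `z` lies in `𝔫 B_𝔫` as soon as it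
lies in the maximal ideal of every valuation subring `V ⊇ B` whose maximal ideal contains `𝔫`. -/
theorem exists_denominator_mem_of_forall_nonunit
    (hinj : Function.Injective (algebraMap B F))
    (hcl : ∀ x : F, IsIntegral B x → ∃ b : B, algebraMap B F b = x)
    (𝔫 : Ideal B) [h𝔫 : 𝔫.IsMaximal] (z : F)
    (hz : ∀ V : ValuationSubring F, (∀ b : B, algebraMap B F b ∈ V) →
      (∀ b ∈ 𝔫, algebraMap B F b ∈ V.nonunits) → z ∈ V.nonunits) :
    ∃ d b : B, d ∉ 𝔫 ∧ b ∈ 𝔫 ∧ algebraMap B F d * z = algebraMap B F b := by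
  obtain ⟨d, b, hd, hdb⟩ := exists_denominator_of_forall_mem hcl 𝔫 h𝔫.ne_top z
    (fun V h1 h2 => V.nonunits_subset (hz V h1 h2))
  refine ⟨d, b, hd, ?_, hdb⟩
  by_contra hb
  obtain ⟨V, hV1, hV2⟩ := exists_centred hinj 𝔫 h𝔫.ne_top
  have hvd := valuation_eq_one_of_notMem 𝔫 V hV1 hV2 hd
  have hvb := valuation_eq_one_of_notMem 𝔫 V hV1 hV2 hb
  have hvz : V.valuation z < 1 := hz V hV1 hV2
  have h1 : V.valuation (algebraMap B F d) * V.valuation z = V.valuation (algebraMap B F b) := by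
    rw [← map_mul, hdb]
  rw [hvd, hvb, one_mul] at h1
  exact absurd h1 (ne_of_lt hvz)

end Crit

section Integral

variable {F : Type*} [Field F]

/-- Valuation subrings are integrally closed (ring homomorphism form). -/
theorem mem_of_isIntegralElem (V : ValuationSubring F) {D : Type*} [CommRing D] (φ : D →+* F)
    (hφ : ∀ d, φ d ∈ V) {x : F} (hx : φ.IsIntegralElem x) : x ∈ V := by
  obtain ⟨P, hP, hroot⟩ := hx
  have hint : IsIntegral V x := by
    refine ⟨P.map (φ.codRestrict V.toSubring hφ), hP.map _, ?_⟩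
    rw [Polynomial.eval₂_map]
    exact hroot
  obtain ⟨y, rfl⟩ := IsIntegrallyClosedIn.isIntegral_iff.mp hint
  exact y.2

/-- If `a ∉ V` is integral over `D[b]` (with `D → V`), then `b ∉ V`; for `b ≠ 0` this says
`b⁻¹ ∈ 𝔪_V`. -/
theorem inv_mem_nonunits_of_isIntegralElem (V : ValuationSubring F) {D : Type*} [CommRing D]
    (c : D →+* F) (hc : ∀ d, c d ∈ V) {a b : F} (ha : a ∉ V)
    (hint : (Polynomial.eval₂RingHom c b).IsIntegralElem a) : b⁻¹ ∈ V.nonunits := by
  rw [V.inv_mem_nonunits_iff]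
  refine Or.inr fun hb => ha ?_
  refine mem_of_isIntegralElem V (Polynomial.eval₂RingHom c b) (fun p => ?_) hint
  rw [Polynomial.coe_eval₂RingHom, Polynomial.eval₂_eq_sum_range]
  exact sum_mem fun i _ => mul_mem (hc _) (pow_mem hb i)

end Integral


end Fermat.Agent.S34.ValCrit
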