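import Mathlib
import Fermat.Agent.S34.ValCrit
import Fermat.Agent.S34.BetaInt

/-!
# S34 (wave 6), cusp chart: the two components at a cusp of level `M ℓ`

`B` a chart ring inside a field `F`, integrally closed in `F` (`hcl`), `𝔫` a maximal ideal.

Abstract part (valuative criterion, `S34.ValCrit`):

* `mem_nonunits_of_frac` : `u ∈ 𝔫 B_𝔫` lies in the maximal ideal of every valuation ring centred
  at `𝔫`.
* `exists_inv_mem` : `1/j ∈ 𝔫` and `j` integral over `D[j']` ⊢ `1/j' ∈ 𝔫 B_𝔫`.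
* `exists_mul_of_isIntegralElem` : `u ∈ 𝔫 B_𝔫`, `(1 - c u) ^ m * z` integral over `D[u]`
  ⊢ `z ∈ B_𝔫`.

Level part (`F = FF L (M ℓ)`, `B` any ring with `W[1/j] ⊆ B ⊆ F` integrally closed in `F`,
`𝔫` a maximal ideal containing `1/j`, `w` an Atkin–Lehner automorphism):

* `isIntegralElem_j_beta` : `j` is integral over `W[β j]`.
* `exists_beta_inv_mem` : `1/(β j) ∈ 𝔫 B_𝔫`.
* `exists_mul_beta`, `exists_mul_alpha` : for `x` in the cusp chart of level `M`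
  (`(1 - 1728/j) ^ m * x` integral over `W[1/j]`), `β x ∈ B_𝔫` and `α x ∈ B_𝔫`.
-/

set_option autoImplicit false

namespace Fermat.Agent.S34.CuspOver

open Polynomial

/-! ### Abstract part -/

section Abstract

variable {B F D : Type*} [CommRing B] [Field F] [Algebra B F] [CommRing D]

/-- An element of `𝔫 B_𝔫` lies in the maximal ideal of every valuation ring centred at `𝔫`. -/
theorem mem_nonunits_of_frac (𝔫 : Ideal B) [𝔫.IsMaximal] (V : ValuationSubring F)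
    (hV1 : ∀ b : B, algebraMap B F b ∈ V) (hV2 : ∀ b ∈ 𝔫, algebraMap B F b ∈ V.nonunits)
    {u : F} (hu : ∃ d b : B, d ∉ 𝔫 ∧ b ∈ 𝔫 ∧ algebraMap B F d * u = algebraMap B F b) :
    u ∈ V.nonunits := by
  obtain ⟨d, b, hd, hb, hdb⟩ := hu
  have hvd := ValCrit.valuation_eq_one_of_notMem 𝔫 V hV1 hV2 hd
  have hvb : V.valuation (algebraMap B F b) < 1 := hV2 b hb
  have h1 : V.valuation (algebraMap B F d) * V.valuation u = V.valuation (algebraMap B F b) := by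
    rw [← map_mul, hdb]
  rw [hvd, one_mul] at h1
  have h2 : V.valuation u < 1 := by rw [h1]; exact hvb
  exact h2

/-- **The second coordinate vanishes at a cusp.**  If `1/j ∈ 𝔫` and `j` is integral over
`D[j']`, then `1/j' ∈ 𝔫 B_𝔫`. -/
theorem exists_inv_mem (hinj : Function.Injective (algebraMap B F))
    (hcl : ∀ x : F, IsIntegral B x → ∃ b : B, algebraMap B F b = x)
    (𝔫 : Ideal B) [𝔫.IsMaximal] (φ : D →+* F) (hφ : ∀ d, ∃ b : B, algebraMap B F b = φ d)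
    (j jq : F) (hj0 : j ≠ 0) (hj : ∃ r ∈ 𝔫, algebraMap B F r = j⁻¹)
    (hint : (Polynomial.eval₂RingHom φ jq).IsIntegralElem j) :
    ∃ d b : B, d ∉ 𝔫 ∧ b ∈ 𝔫 ∧ algebraMap B F d * jq⁻¹ = algebraMap B F b := by
  refine ValCrit.exists_denominator_mem_of_forall_nonunit hinj hcl 𝔫 jq⁻¹ fun V hV1 hV2 => ?_
  obtain ⟨r, hr, hrj⟩ := hj
  have h1 : j⁻¹ ∈ V.nonunits := hrj ▸ hV2 r hr
  have hjV : j ∉ V := (V.inv_mem_nonunits_iff.mp h1).resolve_left hj0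
  exact ValCrit.inv_mem_nonunits_of_isIntegralElem V φ
    (fun d => by obtain ⟨b, hb⟩ := hφ d; rw [← hb]; exact hV1 b) hjV hint

/-- **Functions regular at the cusp.**  If `u ∈ 𝔫 B_𝔫` and `(1 - c u) ^ m * z` is integral over
`D[u]`, then `z ∈ B_𝔫`. -/
theorem exists_mul_of_isIntegralElem
    (hcl : ∀ x : F, IsIntegral B x → ∃ b : B, algebraMap B F b = x)
    (𝔫 : Ideal B) [h𝔫 : 𝔫.IsMaximal] (φ : D →+* F) (hφ : ∀ d, ∃ b : B, algebraMap B F b = φ d)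
    (u : F) (hu : ∃ d b : B, d ∉ 𝔫 ∧ b ∈ 𝔫 ∧ algebraMap B F d * u = algebraMap B F b)
    (c : F) (hc : ∃ b : B, algebraMap B F b = c) (m : ℕ) (z : F)
    (hz : (Polynomial.eval₂RingHom φ u).IsIntegralElem ((1 - c * u) ^ m * z)) :
    ∃ d b : B, d ∉ 𝔫 ∧ algebraMap B F d * z = algebraMap B F b := by
  refine ValCrit.exists_denominator_of_forall_mem hcl 𝔫 h𝔫.ne_top z fun V hV1 hV2 => ?_
  have huV : u ∈ V.nonunits := mem_nonunits_of_frac 𝔫 V hV1 hV2 hu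
  have huV' : V.valuation u < 1 := huV
  have hφV : ∀ d, φ d ∈ V := fun d => by obtain ⟨b, hb⟩ := hφ d; rw [← hb]; exact hV1 b
  have h1 : (1 - c * u) ^ m * z ∈ V := by
    refine ValCrit.mem_of_isIntegralElem V (Polynomial.eval₂RingHom φ u) (fun p => ?_) hz
    rw [Polynomial.coe_eval₂RingHom, Polynomial.eval₂_eq_sum_range]
    exact sum_mem fun i _ => mul_mem (hφV _) (pow_mem (V.nonunits_subset huV) i)
  have hcV : c ∈ V := by obtain ⟨b, hb⟩ := hc; rw [← hb]; exact hV1 b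
  have hcu : V.valuation (c * u) < 1 := by
    rw [map_mul]
    calc V.valuation c * V.valuation u ≤ 1 * V.valuation u :=
          mul_le_mul_left ((V.valuation_le_one_iff c).mpr hcV) _
      _ = V.valuation u := one_mul _
      _ < 1 := huV'
  have hunit : V.valuation ((1 - c * u) ^ m) = 1 := by
    rw [map_pow, V.valuation.map_one_sub_of_lt hcu, one_pow]
  rw [← V.valuation_le_one_iff] at h1 ⊢
  rw [map_mul, hunit, one_mul] at h1
  exact h1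

end Abstract

/-! ### Level part -/

section Level

open ModularCurve Fermat.Agent.S28 Fermat.Agent.S18.Gauss

variable {L : Type*} [Field L] [Algebra ℚ L] (W : ValuationSubring L)

/-- the constants `W → FF L N` -/
noncomputable def cst (N : ℕ) [NeZero N] : ↥W →+* Fermat.Agent.S24.FF L N :=
  (algebraMap L (Fermat.Agent.S24.FF L N)).comp W.subtype

theorem evFinf_eq_eval₂ (N : ℕ) [NeZero N] :
    evFinf W N = Polynomial.eval₂RingHom (cst W N) (Fermat.Agent.S24.jBC L N)⁻¹ := by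
  apply Polynomial.ringHom_ext
  · intro a
    rw [evFinf_C, Polynomial.coe_eval₂RingHom, eval₂_C]
    rfl
  · rw [evFinf_X, Polynomial.coe_eval₂RingHom, eval₂_X]

omit W in
theorem jBC_ne_zero (N : ℕ) [NeZero N] : Fermat.Agent.S24.jBC L N ≠ 0 := by
  intro h
  have h1 := coe_jBC_eq (L := L) (N := N)
  rw [h] at h1
  exact jqModC_ne_zero_of_nontrivial L h1.symm

variable (M ℓ : ℕ) [NeZero M] [NeZero ℓ]

theorem alpha_jBC :
    heckeAlphaBar L M ℓ (Fermat.Agent.S24.jBC L M) = Fermat.Agent.S24.jBC L (M * ℓ) := by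
  apply Subtype.ext
  rw [coe_heckeAlphaBar, coe_jBC_eq, coe_jBC_eq]

/-- **`j` is integral over `W[β j]`** at level `M ℓ` (apply the Atkin–Lehner automorphism to
`BetaInt.isIntegralElem_beta_j`). -/
theorem isIntegralElem_j_beta (hℓ : ℓ.Prime)
    (w : Fermat.Agent.S24.FF L (M * ℓ) ≃ₐ[L] Fermat.Agent.S24.FF L (M * ℓ))
    (hwα : ∀ x, w (heckeAlphaBar L M ℓ x) = heckeBetaBar L M ℓ x)
    (hwβ : ∀ x, w (heckeBetaBar L M ℓ x) = heckeAlphaBar L M ℓ x) :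
    (Polynomial.eval₂RingHom (cst W (M * ℓ))
      (heckeBetaBar L M ℓ (Fermat.Agent.S24.jBC L M))).IsIntegralElem
      (Fermat.Agent.S24.jBC L (M * ℓ)) := by
  have h := BetaInt.isIntegralElem_map_comp (evF W (M * ℓ))
    (w : Fermat.Agent.S24.FF L (M * ℓ) →+* Fermat.Agent.S24.FF L (M * ℓ))
    (BetaInt.isIntegralElem_beta_j W M ℓ hℓ)
  have e : (w : Fermat.Agent.S24.FF L (M * ℓ) →+* Fermat.Agent.S24.FF L (M * ℓ)).comp
      (evF W (M * ℓ)) = Polynomial.eval₂RingHom (cst W (M * ℓ))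
        (heckeBetaBar L M ℓ (Fermat.Agent.S24.jBC L M)) := by
    apply Polynomial.ringHom_ext
    · intro a
      rw [RingHom.comp_apply, evF_C, Polynomial.coe_eval₂RingHom, eval₂_C]
      exact w.commutes _
    · rw [RingHom.comp_apply, evF_X, Polynomial.coe_eval₂RingHom, eval₂_X, ← alpha_jBC M ℓ]
      exact hwα _
  rw [e] at h
  have e2 : (w : Fermat.Agent.S24.FF L (M * ℓ) →+* Fermat.Agent.S24.FF L (M * ℓ))
      (heckeBetaBar L M ℓ (Fermat.Agent.S24.jBC L M)) = Fermat.Agent.S24.jBC L (M * ℓ) := by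
    rw [← alpha_jBC M ℓ]
    exact hwβ _
  rw [e2] at h
  exact h

variable {B : Type*} [CommRing B] [Algebra B (Fermat.Agent.S24.FF L (M * ℓ))]

/-- **At a cusp of level `M ℓ`, `1/(β j)` lies in `𝔫 B_𝔫`.** -/
theorem exists_beta_inv_mem (hℓ : ℓ.Prime)
    (w : Fermat.Agent.S24.FF L (M * ℓ) ≃ₐ[L] Fermat.Agent.S24.FF L (M * ℓ))
    (hwα : ∀ x, w (heckeAlphaBar L M ℓ x) = heckeBetaBar L M ℓ x)
    (hwβ : ∀ x, w (heckeBetaBar L M ℓ x) = heckeAlphaBar L M ℓ x)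
    (hinj : Function.Injective (algebraMap B (Fermat.Agent.S24.FF L (M * ℓ))))
    (hcl : ∀ x : Fermat.Agent.S24.FF L (M * ℓ), IsIntegral B x →
      ∃ b : B, algebraMap B (Fermat.Agent.S24.FF L (M * ℓ)) b = x)
    (hBW : ∀ p : (↥W)[X], ∃ b : B,
      algebraMap B (Fermat.Agent.S24.FF L (M * ℓ)) b = evFinf W (M * ℓ) p)
    (𝔫 : Ideal B) [𝔫.IsMaximal]
    (h𝔫 : ∀ b : B, algebraMap B (Fermat.Agent.S24.FF L (M * ℓ)) b =
      (Fermat.Agent.S24.jBC L (M * ℓ))⁻¹ → b ∈ 𝔫) :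
    ∃ d y : B, d ∉ 𝔫 ∧ y ∈ 𝔫 ∧
      algebraMap B (Fermat.Agent.S24.FF L (M * ℓ)) d *
        (heckeBetaBar L M ℓ (Fermat.Agent.S24.jBC L M))⁻¹ =
      algebraMap B (Fermat.Agent.S24.FF L (M * ℓ)) y := by
  refine exists_inv_mem hinj hcl 𝔫 (cst W (M * ℓ)) (fun a => ?_)
    (Fermat.Agent.S24.jBC L (M * ℓ)) _ (jBC_ne_zero (M * ℓ)) ?_
    (isIntegralElem_j_beta W M ℓ hℓ w hwα hwβ)
  · obtain ⟨b, hb⟩ := hBW (C a)
    exact ⟨b, by rw [hb, evFinf_C]; rfl⟩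
  · obtain ⟨r, hr⟩ := hBW X
    rw [evFinf_X] at hr
    exact ⟨r, h𝔫 r hr, hr⟩

/-- `1/j ∈ 𝔫 B_𝔫` (trivially). -/
theorem exists_inv_mem_self
    (hBW : ∀ p : (↥W)[X], ∃ b : B,
      algebraMap B (Fermat.Agent.S24.FF L (M * ℓ)) b = evFinf W (M * ℓ) p)
    (𝔫 : Ideal B) [h𝔫max : 𝔫.IsMaximal]
    (h𝔫 : ∀ b : B, algebraMap B (Fermat.Agent.S24.FF L (M * ℓ)) b =
      (Fermat.Agent.S24.jBC L (M * ℓ))⁻¹ → b ∈ 𝔫) :
    ∃ d y : B, d ∉ 𝔫 ∧ y ∈ 𝔫 ∧
      algebraMap B (Fermat.Agent.S24.FF L (M * ℓ)) d * (Fermat.Agent.S24.jBC L (M * ℓ))⁻¹ =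
      algebraMap B (Fermat.Agent.S24.FF L (M * ℓ)) y := by
  obtain ⟨r, hr⟩ := hBW X
  rw [evFinf_X] at hr
  exact ⟨1, r, fun h1 => h𝔫max.ne_top ((Ideal.eq_top_iff_one 𝔫).mpr h1), h𝔫 r hr,
    by rw [map_one, one_mul, hr]⟩

theorem exists_algebraMap_1728
    (hBW : ∀ p : (↥W)[X], ∃ b : B,
      algebraMap B (Fermat.Agent.S24.FF L (M * ℓ)) b = evFinf W (M * ℓ) p) :
    ∃ b : B, algebraMap B (Fermat.Agent.S24.FF L (M * ℓ)) b = 1728 := by
  obtain ⟨b, hb⟩ := hBW (C (1728 : ↥W))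
  refine ⟨b, ?_⟩
  rw [hb, evFinf_C]
  have : (((1728 : ↥W) : ↥W) : L) = (1728 : L) := rfl
  rw [this, map_ofNat]

/-- **Branch 2 at a cusp**: for `x` in the cusp chart of level `M`, `β x ∈ B_𝔫`. -/
theorem exists_mul_beta (hℓ : ℓ.Prime)
    (w : Fermat.Agent.S24.FF L (M * ℓ) ≃ₐ[L] Fermat.Agent.S24.FF L (M * ℓ))
    (hwα : ∀ x, w (heckeAlphaBar L M ℓ x) = heckeBetaBar L M ℓ x)
    (hwβ : ∀ x, w (heckeBetaBar L M ℓ x) = heckeAlphaBar L M ℓ x)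
    (hinj : Function.Injective (algebraMap B (Fermat.Agent.S24.FF L (M * ℓ))))
    (hcl : ∀ x : Fermat.Agent.S24.FF L (M * ℓ), IsIntegral B x →
      ∃ b : B, algebraMap B (Fermat.Agent.S24.FF L (M * ℓ)) b = x)
    (hBW : ∀ p : (↥W)[X], ∃ b : B,
      algebraMap B (Fermat.Agent.S24.FF L (M * ℓ)) b = evFinf W (M * ℓ) p)
    (𝔫 : Ideal B) [𝔫.IsMaximal]
    (h𝔫 : ∀ b : B, algebraMap B (Fermat.Agent.S24.FF L (M * ℓ)) b =
      (Fermat.Agent.S24.jBC L (M * ℓ))⁻¹ → b ∈ 𝔫)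
    (x : Fermat.Agent.S24.FF L M) (m : ℕ)
    (hx : (evFinf W M).IsIntegralElem ((1 - 1728 * (Fermat.Agent.S24.jBC L M)⁻¹) ^ m * x)) :
    ∃ d b : B, d ∉ 𝔫 ∧
      algebraMap B (Fermat.Agent.S24.FF L (M * ℓ)) d * heckeBetaBar L M ℓ x =
      algebraMap B (Fermat.Agent.S24.FF L (M * ℓ)) b := by
  refine exists_mul_of_isIntegralElem hcl 𝔫 (cst W (M * ℓ)) (fun a => ?_)
    (heckeBetaBar L M ℓ (Fermat.Agent.S24.jBC L M))⁻¹
    (exists_beta_inv_mem W M ℓ hℓ w hwα hwβ hinj hcl hBW 𝔫 h𝔫) 1728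
    (exists_algebraMap_1728 W M ℓ hBW) m _ ?_
  · obtain ⟨b, hb⟩ := hBW (C a)
    exact ⟨b, by rw [hb, evFinf_C]; rfl⟩
  · have h := BetaInt.isIntegralElem_map_comp (evFinf W M) (heckeBetaBar L M ℓ).toRingHom hx
    have e : (heckeBetaBar L M ℓ).toRingHom.comp (evFinf W M) =
        Polynomial.eval₂RingHom (cst W (M * ℓ))
          (heckeBetaBar L M ℓ (Fermat.Agent.S24.jBC L M))⁻¹ := by
      apply Polynomial.ringHom_ext
      · intro a
        rw [RingHom.comp_apply, evFinf_C, Polynomial.coe_eval₂RingHom, eval₂_C]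
        exact AlgHom.commutes _ _
      · rw [RingHom.comp_apply, evFinf_X, Polynomial.coe_eval₂RingHom, eval₂_X]
        exact map_inv₀ (heckeBetaBar L M ℓ) _
    rw [e] at h
    have e2 : (heckeBetaBar L M ℓ).toRingHom
        ((1 - 1728 * (Fermat.Agent.S24.jBC L M)⁻¹) ^ m * x) =
        (1 - 1728 * (heckeBetaBar L M ℓ (Fermat.Agent.S24.jBC L M))⁻¹) ^ m *
          heckeBetaBar L M ℓ x := by
      show heckeBetaBar L M ℓ ((1 - 1728 * (Fermat.Agent.S24.jBC L M)⁻¹) ^ m * x) = _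
      rw [map_mul, map_pow, map_sub, map_one, map_mul, map_ofNat, map_inv₀]
    rw [e2] at h
    exact h

/-- **Branch 1 at a cusp**: for `x` in the cusp chart of level `M`, `α x ∈ B_𝔫`. -/
theorem exists_mul_alpha
    (hcl : ∀ x : Fermat.Agent.S24.FF L (M * ℓ), IsIntegral B x →
      ∃ b : B, algebraMap B (Fermat.Agent.S24.FF L (M * ℓ)) b = x)
    (hBW : ∀ p : (↥W)[X], ∃ b : B,
      algebraMap B (Fermat.Agent.S24.FF L (M * ℓ)) b = evFinf W (M * ℓ) p)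
    (𝔫 : Ideal B) [𝔫.IsMaximal]
    (h𝔫 : ∀ b : B, algebraMap B (Fermat.Agent.S24.FF L (M * ℓ)) b =
      (Fermat.Agent.S24.jBC L (M * ℓ))⁻¹ → b ∈ 𝔫)
    (x : Fermat.Agent.S24.FF L M) (m : ℕ)
    (hx : (evFinf W M).IsIntegralElem ((1 - 1728 * (Fermat.Agent.S24.jBC L M)⁻¹) ^ m * x)) :
    ∃ d b : B, d ∉ 𝔫 ∧
      algebraMap B (Fermat.Agent.S24.FF L (M * ℓ)) d * heckeAlphaBar L M ℓ x =
      algebraMap B (Fermat.Agent.S24.FF L (M * ℓ)) b := by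
  refine exists_mul_of_isIntegralElem hcl 𝔫 (cst W (M * ℓ)) (fun a => ?_)
    (Fermat.Agent.S24.jBC L (M * ℓ))⁻¹
    (exists_inv_mem_self W M ℓ hBW 𝔫 h𝔫) 1728
    (exists_algebraMap_1728 W M ℓ hBW) m _ ?_
  · obtain ⟨b, hb⟩ := hBW (C a)
    exact ⟨b, by rw [hb, evFinf_C]; rfl⟩
  · have h := BetaInt.isIntegralElem_inf_alpha W M ℓ hx
    rw [evFinf_eq_eval₂] at h
    have e2 : heckeAlphaBar L M ℓ ((1 - 1728 * (Fermat.Agent.S24.jBC L M)⁻¹) ^ m * x) =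
        (1 - 1728 * (Fermat.Agent.S24.jBC L (M * ℓ))⁻¹) ^ m * heckeAlphaBar L M ℓ x := by
      rw [map_mul, map_pow, map_sub, map_one, map_mul, map_ofNat, map_inv₀, alpha_jBC]
    rw [e2] at h
    exact h

end Level

end Fermat.Agent.S34.CuspOver
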