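import Mathlib
import Fermat.Agent.S34.CuspRes
import Fermat.Agent.S34.CuspOver
import Fermat.Agent.S34.CuspAbs
import Fermat.Agent.S37.ChartInstSplit

/-!
# S34, package B2: the branch hypotheses (h1), (h3) of `CuspAbs.cusp_smooth` at a cusp of level `M q`

`W` a discrete valuation ring of `L` with algebraically closed residue field `κ` of characteristic
`q ∤ M`, `F = S24.FF L (M * q)`, `w` an Atkin–Lehner automorphism of `F`.

* the chart at infinity of level `M q` is any carrier `φ : B →+* F` of the integral closure of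
  `W[1/j]` (`hinj`, `hint`, `hsurj`), with the two residue maps `r₁ = CuspRes.res W _ φ _`,
  `r₂ = CuspRes.res W _ (w ∘ φ) _`;
* `𝔫` is a maximal ideal of `B` containing `1/j` (`tj ∈ 𝔫`, `φ tj = 1/j`);
* `E = BM ⧸ ϖ BM` is the special fibre of the cusp chart of level `M` (any `S37` carrier `BM`),
  embedded in `κ((q))` by `ε = CuspRes.epsCusp`.

Then, for both branches `i = 1, 2`:

* `h1_alpha`, `h1_beta` : **(h1)** `∀ e : E, ∃ b d : B, d ∉ 𝔫 ∧ r_i b = ε e * r_i d`;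
* `h3_alpha`, `h3_beta` : **(h3)** `∃ b ∈ 𝔫, r_i b ≠ 0` (`b = 1/j`).

These are the hypotheses `(h1)`, `(h3)` of `CuspAbs.cusp_smooth` verbatim (with `E' = E`,
`ε₁ = ε₂ = ε`); they hold without the assumption `ker r_i ≤ 𝔫`.

* `cusp_point_of` : **a cusp of level `M q` is a smooth point of one component**,
  `𝔪 (B_𝔫) = (ϖ, u)`, from the contract (K-V3a), a separator at `𝔫` (`hsep`) and the fraction
  property (h2) of the two residue maps (`hfrac`): `CuspAbs.cusp_smooth` with every other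
  hypothesis discharged.
-/

set_option autoImplicit false
set_option linter.style.haveILetI false
set_option linter.unusedSectionVars false

noncomputable section

namespace Fermat.Agent.S34.CuspHyp

open Polynomial ModularCurve Fermat.Agent.S18 Fermat.Agent.S18.Gauss Fermat.Agent.S24
  Fermat.Agent.S37 Fermat.Agent.S37.GaussPrime Fermat.Agent.S18.Cusp Fermat.Agent.S34.CuspRes

variable {L : Type*} [Field L] [Algebra ℚ L] (W : ValuationSubring L)
  [IsDiscreteValuationRing ↥W] (M q : ℕ) [NeZero M] [NeZero q]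

/-! ### The carrier of the chart at infinity -/

section Carrier

variable (N : ℕ) [NeZero N] {B : Type*} [CommRing B] (φ : B →+* FF L N)

/-- the carrier is integrally closed in `F` -/
theorem exists_of_isIntegral
    (hint : ∀ b, (evFinf W N).IsIntegralElem (φ b))
    (hsurj : ∀ x, (evFinf W N).IsIntegralElem x → ∃ b, φ b = x) :
    letI : Algebra B (FF L N) := φ.toAlgebra
    ∀ x : FF L N, IsIntegral B x → ∃ b : B, algebraMap B (FF L N) b = x := by
  letI : Algebra B (FF L N) := φ.toAlgebra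
  intro x hx
  have hx' : φ.IsIntegralElem x := hx
  exact hsurj x (BetaInt.isIntegralElem_trans (evFinf W N) φ hint x hx')

/-- the carrier contains `W[1/j]` -/
theorem exists_evFinf (hsurj : ∀ x, (evFinf W N).IsIntegralElem x → ∃ b, φ b = x)
    (p : (↥W)[X]) : ∃ b : B, φ b = evFinf W N p :=
  hsurj _ (RingHom.isIntegralElem_map _)

end Carrier

/-! ### The branch hypotheses -/

section Branch

variable [Fact q.Prime] [CharP (IsLocalRing.ResidueField ↥W) q]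
  [IsAlgClosed (IsLocalRing.ResidueField ↥W)]
  [Algebra (CuspBase ↥W) (FF L M)]
  (BM : Type*) [CommRing BM] [Algebra (CuspBase ↥W) BM] [Algebra BM (FF L M)]
  [IsScalarTower (CuspBase ↥W) BM (FF L M)] [IsIntegralClosure BM (CuspBase ↥W) (FF L M)]
  (w : FF L (M * q) ≃ₐ[L] FF L (M * q))
  {B : Type*} [CommRing B] (φ : B →+* FF L (M * q))

/-- **(h1), first branch**: every element of the special fibre of the cusp chart of level `M`
is `r₁ b / r₁ d` with `b, d ∈ B`, `d ∉ 𝔫`. -/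
theorem h1_alpha (hqM : ¬ q ∣ M) {ϖ : ↥W} (hϖ : Irreducible ϖ)
    (halgM : ∀ p : (↥W)[X], algebraMap (CuspBase ↥W) (FF L M)
      (algebraMap (↥W)[X] (CuspBase ↥W) p) = evFinf W M p)
    (hinj : Function.Injective φ)
    (hint : ∀ b, (evFinf W (M * q)).IsIntegralElem (φ b))
    (hsurj : ∀ x, (evFinf W (M * q)).IsIntegralElem x → ∃ b, φ b = x)
    (hφ₁ : ∀ b, ((φ b : FF L (M * q)) : LaurentSeries L) ∈ contentRing W)
    (𝔫 : Ideal B) [𝔫.IsMaximal] (tj : B) (htj : φ tj = (jBC L (M * q))⁻¹) (htj𝔫 : tj ∈ 𝔫)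
    (e : BM ⧸ Ideal.span {algebraMap (CuspBase ↥W) BM (algebraMap ↥W (CuspBase ↥W) ϖ)}) :
    ∃ b d : B, d ∉ 𝔫 ∧ res W (M * q) φ hφ₁ b =
      epsCusp W M q BM hqM hϖ halgM e * res W (M * q) φ hφ₁ d := by
  obtain ⟨c, rfl⟩ := Ideal.Quotient.mk_surjective e
  have hcI : IsIntegral (CuspBase ↥W) (algebraMap BM (FF L M) c) :=
    IsIntegralClosure.isIntegral_iff (A := BM) |>.mpr ⟨c, rfl⟩
  obtain ⟨m, hm⟩ := (isIntegral_cuspBase_iff W M halgM _).mp hcI
  letI : Algebra B (FF L (M * q)) := φ.toAlgebra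
  have h𝔫 : ∀ b : B, algebraMap B (FF L (M * q)) b = (jBC L (M * q))⁻¹ → b ∈ 𝔫 := by
    intro b hb
    have h1 : b = tj := hinj (hb.trans htj.symm)
    rw [h1]
    exact htj𝔫
  obtain ⟨d, b, hd, hdb⟩ := CuspOver.exists_mul_alpha W M q
    (exists_of_isIntegral W (M * q) φ hint hsurj)
    (exists_evFinf W (M * q) φ hsurj) 𝔫 h𝔫 (algebraMap BM (FF L M) c) m hm
  have hdb' : φ b = φ d * heckeAlphaBar L M q (algebraMap BM (FF L M) c) := hdb.symm
  refine ⟨b, d, hd, ?_⟩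
  rw [res_apply W (M * q) φ hφ₁ b (hφ₁ b), res_apply W (M * q) φ hφ₁ d (hφ₁ d),
    epsCusp_mk W M q BM hqM hϖ halgM c (GaussRed.mem_contentRing_cusp W M q BM hqM halgM c)]
  exact red_mul_alpha W M q hdb' (hφ₁ d) _ (hφ₁ b)

/-- **(h3), first branch**: `1/j ∈ 𝔫` has nonzero first reduction. -/
theorem h3_alpha
    (hφ₁ : ∀ b, ((φ b : FF L (M * q)) : LaurentSeries L) ∈ contentRing W)
    (𝔫 : Ideal B) (tj : B) (htj : φ tj = (jBC L (M * q))⁻¹) (htj𝔫 : tj ∈ 𝔫) :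
    ∃ b ∈ 𝔫, res W (M * q) φ hφ₁ b ≠ 0 := by
  refine ⟨tj, htj𝔫, ?_⟩
  have h1 : (((jBC L (M * q))⁻¹ : FF L (M * q)) : LaurentSeries L) ∈ contentRing W :=
    htj ▸ hφ₁ tj
  rw [res_apply W (M * q) φ hφ₁ tj (hφ₁ tj),
    red_congr W (hφ₁ tj) h1 (by rw [htj])]
  exact red_jInv_ne_zero W (M * q) h1

/-- **(h1), second branch**: every element of the special fibre of the cusp chart of level `M`
is `r₂ b / r₂ d` with `b, d ∈ B`, `d ∉ 𝔫`. -/
theorem h1_beta (hqM : ¬ q ∣ M) {ϖ : ↥W} (hϖ : Irreducible ϖ)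
    (halgM : ∀ p : (↥W)[X], algebraMap (CuspBase ↥W) (FF L M)
      (algebraMap (↥W)[X] (CuspBase ↥W) p) = evFinf W M p)
    (hwα : (w : FF L (M * q) →ₐ[L] FF L (M * q)).comp (heckeAlphaBar L M q) =
      heckeBetaBar L M q)
    (hwβ : (w : FF L (M * q) →ₐ[L] FF L (M * q)).comp (heckeBetaBar L M q) =
      heckeAlphaBar L M q)
    (hinj : Function.Injective φ)
    (hint : ∀ b, (evFinf W (M * q)).IsIntegralElem (φ b))
    (hsurj : ∀ x, (evFinf W (M * q)).IsIntegralElem x → ∃ b, φ b = x)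
    (hφ₂ : ∀ b, (((((w : FF L (M * q) →ₐ[L] FF L (M * q)) :
      FF L (M * q) →+* FF L (M * q)).comp φ) b : FF L (M * q)) : LaurentSeries L) ∈
      contentRing W)
    (𝔫 : Ideal B) [𝔫.IsMaximal] (tj : B) (htj : φ tj = (jBC L (M * q))⁻¹) (htj𝔫 : tj ∈ 𝔫)
    (e : BM ⧸ Ideal.span {algebraMap (CuspBase ↥W) BM (algebraMap ↥W (CuspBase ↥W) ϖ)}) :
    ∃ b d : B, d ∉ 𝔫 ∧
      res W (M * q) (((w : FF L (M * q) →ₐ[L] FF L (M * q)) :
        FF L (M * q) →+* FF L (M * q)).comp φ) hφ₂ b =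
      epsCusp W M q BM hqM hϖ halgM e *
        res W (M * q) (((w : FF L (M * q) →ₐ[L] FF L (M * q)) :
          FF L (M * q) →+* FF L (M * q)).comp φ) hφ₂ d := by
  obtain ⟨c, rfl⟩ := Ideal.Quotient.mk_surjective e
  have hcI : IsIntegral (CuspBase ↥W) (algebraMap BM (FF L M) c) :=
    IsIntegralClosure.isIntegral_iff (A := BM) |>.mpr ⟨c, rfl⟩
  obtain ⟨m, hm⟩ := (isIntegral_cuspBase_iff W M halgM _).mp hcI
  letI : Algebra B (FF L (M * q)) := φ.toAlgebra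
  have h𝔫 : ∀ b : B, algebraMap B (FF L (M * q)) b = (jBC L (M * q))⁻¹ → b ∈ 𝔫 := by
    intro b hb
    have h1 : b = tj := hinj (hb.trans htj.symm)
    rw [h1]
    exact htj𝔫
  obtain ⟨d, b, hd, hdb⟩ := CuspOver.exists_mul_beta W M q (Fact.out : q.Prime) w
    (fun x => w_alpha hwα x) (fun x => w_beta hwβ x) hinj
    (exists_of_isIntegral W (M * q) φ hint hsurj)
    (exists_evFinf W (M * q) φ hsurj) 𝔫 h𝔫 (algebraMap BM (FF L M) c) m hm
  have hdb' : φ b = φ d * heckeBetaBar L M q (algebraMap BM (FF L M) c) := hdb.symm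
  refine ⟨b, d, hd, ?_⟩
  rw [res_apply W (M * q) _ hφ₂ b (hφ₂ b), res_apply W (M * q) _ hφ₂ d (hφ₂ d),
    epsCusp_mk W M q BM hqM hϖ halgM c (GaussRed.mem_contentRing_cusp W M q BM hqM halgM c)]
  exact red_w_mul_beta W M q w hwβ hdb' (hφ₂ d) _ (hφ₂ b)

/-- **(h3), second branch**: `1/j ∈ 𝔫` has nonzero second reduction. -/
theorem h3_beta
    (hwα : (w : FF L (M * q) →ₐ[L] FF L (M * q)).comp (heckeAlphaBar L M q) =
      heckeBetaBar L M q)
    (hφ₂ : ∀ b, (((((w : FF L (M * q) →ₐ[L] FF L (M * q)) :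
      FF L (M * q) →+* FF L (M * q)).comp φ) b : FF L (M * q)) : LaurentSeries L) ∈
      contentRing W)
    (𝔫 : Ideal B) (tj : B) (htj : φ tj = (jBC L (M * q))⁻¹) (htj𝔫 : tj ∈ 𝔫) :
    ∃ b ∈ 𝔫, res W (M * q) (((w : FF L (M * q) →ₐ[L] FF L (M * q)) :
      FF L (M * q) →+* FF L (M * q)).comp φ) hφ₂ b ≠ 0 := by
  refine ⟨tj, htj𝔫, ?_⟩
  have h1 : ((w (jBC L (M * q))⁻¹ : FF L (M * q)) : LaurentSeries L) ∈ contentRing W := by
    have h2 := hφ₂ tj
    rw [RingHom.comp_apply, htj] at h2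
    exact h2
  rw [res_apply W (M * q) _ hφ₂ tj (hφ₂ tj),
    red_congr W (hφ₂ tj) h1 (by rw [RingHom.comp_apply, htj]; rfl)]
  exact red_w_jInv_ne_zero W M q w hwα h1

end Branch

/-! ### The cusps of level `M q` are smooth points of one component -/

section Glue

local notation "Qb" => AlgebraicClosure ℚ

open IsLocalRing

/-- **A cusp of level `M q` is a smooth point of one component**: `𝔪 (B_𝔫) = (ϖ, u)` at every
maximal ideal `𝔫 ∋ ϖ, 1/j` of a carrier `B` of the chart at infinity, from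

* `hV` : the contract (K-V3a);
* `hsep` : a separator at `𝔫`;
* `hfrac` : (h2), every reduction of a function with `W`-integral `q`-expansion is a fraction of
  reductions of the cusp chart of level `M`. -/
theorem cusp_point_of {L : Type} [Field L] [Algebra ℚ L] (ι : L →+* Qb) (W : ValuationSubring L)
    [IsDiscreteValuationRing ↥W] (M q : ℕ) [NeZero M] [NeZero q]
    [Fact q.Prime] [CharP (IsLocalRing.ResidueField ↥W) q]
    [IsAlgClosed (IsLocalRing.ResidueField ↥W)]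
    [Algebra (CuspBase ↥W) (FF L M)]
    (BM : Type*) [CommRing BM] [Algebra (CuspBase ↥W) BM] [Algebra BM (FF L M)]
    [IsScalarTower (CuspBase ↥W) BM (FF L M)] [IsIntegralClosure BM (CuspBase ↥W) (FF L M)]
    (w : FF L (M * q) ≃ₐ[L] FF L (M * q))
    {B : Type*} [CommRing B] (φ : B →+* FF L (M * q))
    (hqM : ¬ q ∣ M) {ϖ : ↥W} (hϖ : Irreducible ϖ)
    (hroots : ∀ x : Qb, (∃ n : ℕ, ¬ q ∣ n ∧ x ^ n = 1) → ∃ b : L, ι b = x)
    (halgM : ∀ p : (↥W)[X], algebraMap (CuspBase ↥W) (FF L M)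
      (algebraMap (↥W)[X] (CuspBase ↥W) p) = evFinf W M p)
    (hwα : (w : FF L (M * q) →ₐ[L] FF L (M * q)).comp (heckeAlphaBar L M q) =
      heckeBetaBar L M q)
    (hwβ : (w : FF L (M * q) →ₐ[L] FF L (M * q)).comp (heckeBetaBar L M q) =
      heckeAlphaBar L M q)
    (hV : ∀ x : FF L (M * q), (x : LaurentSeries L) ∈ contentRing W →
      ((w x : FF L (M * q)) : LaurentSeries L) ∈ contentRing W →
      ∃ S : (↥W)[X], S.map (IsLocalRing.residue ↥W) ≠ 0 ∧
        (evF W (M * q)).IsIntegralElem (evF W (M * q) S * x))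
    (hinj : Function.Injective φ)
    (hint : ∀ b, (evFinf W (M * q)).IsIntegralElem (φ b))
    (hsurj : ∀ x, (evFinf W (M * q)).IsIntegralElem x → ∃ b, φ b = x)
    (πB : B) (hπB : φ πB = algebraMap L (FF L (M * q)) ((ϖ : ↥W) : L))
    (𝔫 : Ideal B) [𝔫.IsMaximal] (hπ𝔫 : πB ∈ 𝔫)
    (tj : B) (htj : φ tj = (jBC L (M * q))⁻¹) (htj𝔫 : tj ∈ 𝔫)
    (hsep : ∀ (hφ₁ : ∀ b, ((φ b : FF L (M * q)) : LaurentSeries L) ∈ contentRing W)
      (hφ₂ : ∀ b, (((((w : FF L (M * q) →ₐ[L] FF L (M * q)) :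
        FF L (M * q) →+* FF L (M * q)).comp φ) b : FF L (M * q)) : LaurentSeries L) ∈
        contentRing W),
      ∃ (t z D : B) (k : ℕ), k ≠ 0 ∧ D ∉ 𝔫 ∧ z ∈ 𝔫 ∧ res W (M * q) φ hφ₁ t = 1 ∧
        res W (M * q) (((w : FF L (M * q) →ₐ[L] FF L (M * q)) :
          FF L (M * q) →+* FF L (M * q)).comp φ) hφ₂ (D ^ k * t - z ^ k) = 0)
    (hfrac : ∀ (x : FF L (M * q)) (hx : (x : LaurentSeries L) ∈ contentRing W),
      ∃ a c : BM ⧸ Ideal.span {algebraMap (CuspBase ↥W) BM (algebraMap ↥W (CuspBase ↥W) ϖ)},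
        c ≠ 0 ∧ red W ⟨x, hx⟩ * epsCusp W M q BM hqM hϖ halgM c =
          epsCusp W M q BM hqM hϖ halgM a) :
    ∃ u : Localization.AtPrime 𝔫,
      maximalIdeal (Localization.AtPrime 𝔫) =
        Ideal.span {algebraMap B (Localization.AtPrime 𝔫) πB, u} := by
  have hφ₁ : ∀ b, ((φ b : FF L (M * q)) : LaurentSeries L) ∈ contentRing W := fun b =>
    mem_contentRing_of_int_inf W (M * q) (hint b)
  have hφ₂ : ∀ b, (((((w : FF L (M * q) →ₐ[L] FF L (M * q)) :
      FF L (M * q) →+* FF L (M * q)).comp φ) b : FF L (M * q)) : LaurentSeries L) ∈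
      contentRing W := fun b => mem_contentRing_w_of_int_inf W M q w hwα (hint b)
  have hded : IsDedekindDomain
      (BM ⧸ Ideal.span {algebraMap (CuspBase ↥W) BM (algebraMap ↥W (CuspBase ↥W) ϖ)}) :=
    ChartInstSplit.cusp_chart_dedekind_of_closure M (Fact.out : q.Prime) hqM ι W hroots ϖ hϖ
      halgM BM
  obtain ⟨t, z, D, k, hk, hD, hz, ht₁, ht₂⟩ := hsep hφ₁ hφ₂
  exact CuspAbs.cusp_smooth (res W (M * q) φ hφ₁)
    (res W (M * q) (((w : FF L (M * q) →ₐ[L] FF L (M * q)) :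
      FF L (M * q) →+* FF L (M * q)).comp φ) hφ₂) πB
    (span_eq_ker_inf_ker ι W (M * q) hϖ w hV φ hinj hint hsurj hφ₁ hφ₂ πB hπB)
    𝔫 hπ𝔫 t z D k hk hD hz ht₁ ht₂
    (epsCusp W M q BM hqM hϖ halgM) (epsCusp_injective W M q BM hqM hϖ halgM)
    (epsCusp W M q BM hqM hϖ halgM) (epsCusp_injective W M q BM hqM hϖ halgM)
    (fun _ => ⟨h1_alpha W M q BM φ hqM hϖ halgM hinj hint hsurj hφ₁ 𝔫 tj htj htj𝔫,
      fun b => hfrac _ (hφ₁ b), h3_alpha W M q φ hφ₁ 𝔫 tj htj htj𝔫⟩)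
    (fun _ => ⟨h1_beta W M q BM w φ hqM hϖ halgM hwα hwβ hinj hint hsurj hφ₂ 𝔫 tj htj htj𝔫,
      fun b => hfrac _ (hφ₂ b), h3_beta W M q w φ hwα hφ₂ 𝔫 tj htj htj𝔫⟩)

end Glue

end Fermat.Agent.S34.CuspHyp
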