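import Mathlib
import Fermat.Agent.S34.CuspHyp
import Fermat.Agent.S34.ResFieldG
import Fermat.Agent.S18.GaussPrim

/-!
# S34, package B2: the fraction property (h2) at the cusps of level `M q`

`W` a discrete valuation ring of `L` with algebraically closed residue field `κ` of characteristic
`q ∤ M`; `E = BM ⧸ ϖ BM` the special fibre of the cusp chart of level `M` (any `S37` carrier),
`ε = CuspRes.epsCusp : E → κ((q))`.

* `exists_frac_of_mem_fullC` : every element `y` of the residue function field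
  `modularFunctionFieldFullC κ M` of level `M` is a fraction of elements of `E`:
  `y * ε c = ε a` with `c ≠ 0`.
* `hfrac`, `hfrac_w` : the same for the two reductions `red x`, `red (w x)` of an element of
  `S24.FF L (M * q)` (by (F1), `ResFieldG`); `hfrac` is the hypothesis `hfrac` of
  `CuspHyp.cusp_point_of` verbatim.
* `cusp_point` : **a cusp of level `M q` is a smooth point of one component**, with the
  separator at `𝔫` as the only remaining hypothesis.
-/

set_option autoImplicit false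
set_option linter.style.haveILetI false
set_option linter.unusedSectionVars false

noncomputable section

namespace Fermat.Agent.S34.CuspFracE

open Polynomial ModularCurve Fermat.Agent.S18 Fermat.Agent.S18.Gauss Fermat.Agent.S24
  Fermat.Agent.S37 Fermat.Agent.S37.GaussPrime Fermat.Agent.S18.Cusp Fermat.Agent.S34.CuspRes

section Frac

variable {L : Type*} [Field L] [Algebra ℚ L] (W : ValuationSubring L)
  [IsDiscreteValuationRing ↥W] (M q : ℕ) [NeZero M] [NeZero q]
  [Fact q.Prime] [CharP (IsLocalRing.ResidueField ↥W) q]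
  [IsAlgClosed (IsLocalRing.ResidueField ↥W)]
  [Algebra (CuspBase ↥W) (FF L M)]
  (BM : Type*) [CommRing BM] [Algebra (CuspBase ↥W) BM] [Algebra BM (FF L M)]
  [IsScalarTower (CuspBase ↥W) BM (FF L M)] [IsIntegralClosure BM (CuspBase ↥W) (FF L M)]

/-- an element integral over `W[1/j]` lies in the cusp chart of level `M` -/
theorem exists_algebraMap_eq_of_int
    (halgM : ∀ p : (↥W)[X], algebraMap (CuspBase ↥W) (FF L M)
      (algebraMap (↥W)[X] (CuspBase ↥W) p) = evFinf W M p)
    {x : FF L M} (hx : (evFinf W M).IsIntegralElem x) :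
    ∃ c : BM, algebraMap BM (FF L M) c = x := by
  have h1 : IntCusp W M x := ⟨0, by rw [pow_zero, one_mul]; exact hx⟩
  exact IsIntegralClosure.isIntegral_iff (A := BM) |>.mp
    ((isIntegral_cuspBase_iff W M halgM x).mpr h1)

/-- **(h2) at level `M`**: every element of the residue function field of level `M` is a
fraction of elements of the special fibre of the cusp chart. -/
theorem exists_frac_of_mem_fullC (hqM : ¬ q ∣ M) {ϖ : ↥W} (hϖ : Irreducible ϖ)
    (halgM : ∀ p : (↥W)[X], algebraMap (CuspBase ↥W) (FF L M)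
      (algebraMap (↥W)[X] (CuspBase ↥W) p) = evFinf W M p)
    {y : LaurentSeries (IsLocalRing.ResidueField ↥W)}
    (hy : y ∈ modularFunctionFieldFullC (IsLocalRing.ResidueField ↥W) M) :
    ∃ a c : BM ⧸ Ideal.span {algebraMap (CuspBase ↥W) BM (algebraMap ↥W (CuspBase ↥W) ϖ)},
      c ≠ 0 ∧ y * epsCusp W M q BM hqM hϖ halgM c = epsCusp W M q BM hqM hϖ halgM a := by
  -- lift `y` to a function with integral `q`-expansion
  obtain ⟨f, hf, hfy⟩ := exists_lift_goodRing W M hy
  set x : FF L M := ⟨f, goodRing_le_full W M hf⟩ with hxdef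
  have hx : (x : LaurentSeries L) ∈ contentRing W := goodRing_le_contentRing W M hf
  -- a denominator in `W[1/j]`
  obtain ⟨S, hS, hint⟩ := (isChartEv_inf W M q hqM).gauss_of_mem x hx
  obtain ⟨c, hc⟩ := exists_algebraMap_eq_of_int W M BM halgM
    (RingHom.isIntegralElem_map (f := evFinf W M) (x := S))
  obtain ⟨a, ha⟩ := exists_algebraMap_eq_of_int W M BM halgM hint
  have hcW := GaussRed.mem_contentRing_cusp W M q BM hqM halgM c
  have haW := GaussRed.mem_contentRing_cusp W M q BM hqM halgM a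
  have hSW : evG W (jqModC L)⁻¹ S ∈ contentRing W :=
    evG_mem_contentRing W (jInv_mem_contentRing W) S
  have hredS : red W ⟨evG W (jqModC L)⁻¹ S, hSW⟩ ≠ 0 := fun h0 =>
    hS (gJ_eq_zero W (jInv_mem_contentRing W) (htr_inf W) h0)
  have hcred : red W ⟨_, hcW⟩ = red W ⟨evG W (jqModC L)⁻¹ S, hSW⟩ :=
    red_congr W hcW hSW (by rw [hc]; rfl)
  refine ⟨Ideal.Quotient.mk _ a, Ideal.Quotient.mk _ c, ?_, ?_⟩
  · intro h0
    have h1 := epsCusp_mk W M q BM hqM hϖ halgM c hcW
    rw [h0, map_zero, hcred] at h1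
    exact hredS h1.symm
  · rw [epsCusp_mk W M q BM hqM hϖ halgM c hcW, epsCusp_mk W M q BM hqM hϖ halgM a haW,
      ← hfy]
    refine (red_mul_eq W (goodRing_le_contentRing W M hf) hcW haW ?_).symm
    rw [ha, hc, mul_comm]
    rfl

variable (w : FF L (M * q) ≃ₐ[L] FF L (M * q))

/-- **(h2) at level `M q`, first reduction** — the hypothesis `hfrac` of
`CuspHyp.cusp_point_of`. -/
theorem hfrac (hqM : ¬ q ∣ M) {ϖ : ↥W} (hϖ : Irreducible ϖ)
    (halgM : ∀ p : (↥W)[X], algebraMap (CuspBase ↥W) (FF L M)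
      (algebraMap (↥W)[X] (CuspBase ↥W) p) = evFinf W M p)
    (hwα : (w : FF L (M * q) →ₐ[L] FF L (M * q)).comp (heckeAlphaBar L M q) =
      heckeBetaBar L M q)
    (hwβ : (w : FF L (M * q) →ₐ[L] FF L (M * q)).comp (heckeBetaBar L M q) =
      heckeAlphaBar L M q)
    (x : FF L (M * q)) (hx : (x : LaurentSeries L) ∈ contentRing W) :
    ∃ a c : BM ⧸ Ideal.span {algebraMap (CuspBase ↥W) BM (algebraMap ↥W (CuspBase ↥W) ϖ)},
      c ≠ 0 ∧ red W ⟨x, hx⟩ * epsCusp W M q BM hqM hϖ halgM c =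
        epsCusp W M q BM hqM hϖ halgM a :=
  exists_frac_of_mem_fullC W M q BM hqM hϖ halgM
    (ResFieldG.red_mem_fullC_level W M q (w : FF L (M * q) →ₐ[L] FF L (M * q)) hqM hwα hwβ x hx)

/-- **(h2) at level `M q`, second reduction.** -/
theorem hfrac_w (hqM : ¬ q ∣ M) {ϖ : ↥W} (hϖ : Irreducible ϖ)
    (halgM : ∀ p : (↥W)[X], algebraMap (CuspBase ↥W) (FF L M)
      (algebraMap (↥W)[X] (CuspBase ↥W) p) = evFinf W M p)
    (hwα : (w : FF L (M * q) →ₐ[L] FF L (M * q)).comp (heckeAlphaBar L M q) =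
      heckeBetaBar L M q)
    (hwβ : (w : FF L (M * q) →ₐ[L] FF L (M * q)).comp (heckeBetaBar L M q) =
      heckeAlphaBar L M q)
    (x : FF L (M * q))
    (hx : ((w x : FF L (M * q)) : LaurentSeries L) ∈ contentRing W) :
    ∃ a c : BM ⧸ Ideal.span {algebraMap (CuspBase ↥W) BM (algebraMap ↥W (CuspBase ↥W) ϖ)},
      c ≠ 0 ∧ red W ⟨_, hx⟩ * epsCusp W M q BM hqM hϖ halgM c =
        epsCusp W M q BM hqM hϖ halgM a :=
  hfrac W M q BM w hqM hϖ halgM hwα hwβ (w x) hx

end Frac

/-! ### The cusps of level `M q`, with the separator as the only hypothesis -/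

section Point

local notation "Qb" => AlgebraicClosure ℚ

open IsLocalRing

/-- **A cusp of level `M q` is a smooth point of one component**: `𝔪 (B_𝔫) = (ϖ, u)` at every
maximal ideal `𝔫 ∋ ϖ, 1/j` of a carrier `B` of the chart at infinity, from the contract (K-V3a)
and a separator at `𝔫`. -/
theorem cusp_point {L : Type} [Field L] [Algebra ℚ L] (ι : L →+* Qb) (W : ValuationSubring L)
    [IsDiscreteValuationRing ↥W] (M q : ℕ) [NeZero M] [NeZero q]
    [Fact q.Prime] [CharP (IsLocalRing.ResidueField ↥W) q]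
    [IsAlgClosed (IsLocalRing.ResidueField ↥W)]
    (w : FF L (M * q) ≃ₐ[L] FF L (M * q))
    {B : Type*} [CommRing B] (φ : B →+* FF L (M * q))
    (hqM : ¬ q ∣ M) {ϖ : ↥W} (hϖ : Irreducible ϖ)
    (hroots : ∀ x : Qb, (∃ n : ℕ, ¬ q ∣ n ∧ x ^ n = 1) → ∃ b : L, ι b = x)
    (hwα : (w : FF L (M * q) →ₐ[L] FF L (M * q)).comp (heckeAlphaBar L M q) =
      heckeBetaBar L M q)
    (hwβ : (w : FF L (M * q) →ₐ[L] FF L (M * q)).comp (heckeBetaBar L M q) =
      heckeAlphaBar L M q)
    (hV : ∀ x : FF L (M * q), (x : LaurentSeries L) ∈ contentRing W →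
      ((w x : FF L (M * q)) : LaurentSeries L) ∈ contentRing W →
      ∃ S : (↥W)[X], S.map (IsLocalRing.residue ↥W) ≠ 0 ∧
        (evF W (M * q)).IsIntegralElem (evF W (M * q) S * x))
    (hinj : Function.Injective φ)
    (hint : ∀ b, (evFinf W (M * q)).IsIntegralElem (φ b))
    (hsurj : ∀ x, (evFinf W (M * q)).IsIntegralElem x → ∃ b, φ b = x)
    (πB : B) (hπB : φ πB = algebraMap L (FF L (M * q)) ((ϖ : ↥W) : L))
    (𝔫 : Ideal B) [𝔫.IsMaximal] (hπ𝔫 : πB ∈ 𝔫)
    (tj : B) (htj : φ tj = (jBC L (M * q))⁻¹) (htj𝔫 : tj ∈ 𝔫)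
    (hsep : ∀ (hφ₁ : ∀ b, ((φ b : FF L (M * q)) : LaurentSeries L) ∈ contentRing W)
      (hφ₂ : ∀ b, (((((w : FF L (M * q) →ₐ[L] FF L (M * q)) :
        FF L (M * q) →+* FF L (M * q)).comp φ) b : FF L (M * q)) : LaurentSeries L) ∈
        contentRing W),
      ∃ (t z D : B) (k : ℕ), k ≠ 0 ∧ D ∉ 𝔫 ∧ z ∈ 𝔫 ∧ res W (M * q) φ hφ₁ t = 1 ∧
        res W (M * q) (((w : FF L (M * q) →ₐ[L] FF L (M * q)) :
          FF L (M * q) →+* FF L (M * q)).comp φ) hφ₂ (D ^ k * t - z ^ k) = 0) :
    ∃ u : Localization.AtPrime 𝔫,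
      maximalIdeal (Localization.AtPrime 𝔫) =
        Ideal.span {algebraMap B (Localization.AtPrime 𝔫) πB, u} := by
  -- the cusp chart of level `M`: the integral closure of `CuspBase W` in `FF L M`
  letI algM : Algebra (CuspBase ↥W) (FF L M) :=
    (IsLocalization.Away.lift (cuspG ↥W) (g := evFinf W M) (by
      rw [cuspG_eq_cuspPoly, evFinf_cuspPoly]
      refine IsUnit.mk0 _ fun h0 => cuspU_ne_zero W M ?_
      rw [h0]
      rfl)).toAlgebra
  have halgM : ∀ p : (↥W)[X], algebraMap (CuspBase ↥W) (FF L M)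
      (algebraMap (↥W)[X] (CuspBase ↥W) p) = evFinf W M p := fun p =>
    IsLocalization.Away.lift_eq _ _ p
  exact CuspHyp.cusp_point_of ι W M q (integralClosure (CuspBase ↥W) (FF L M)) w φ hqM hϖ
    hroots halgM hwα hwβ hV hinj hint hsurj πB hπB 𝔫 hπ𝔫 tj htj htj𝔫 hsep
    (hfrac W M q (integralClosure (CuspBase ↥W) (FF L M)) w hqM hϖ halgM hwα hwβ)

end Point

end Fermat.Agent.S34.CuspFracE
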