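import Mathlib
import Fermat.Agent.S34.CuspFracE
import Fermat.Agent.S34.FinDich

/-!
# S34, (DICH₂): the cusps of level `M q` on an `S37`-style carrier and at a level

* `cusp_dich_carrier` : `CuspFracE.cusp_point` on a carrier `B` with
  `[IsIntegralClosure B W[X] F]`, `algebraMap W[X] F = evFinf W (M * q)`: at every maximal ideal
  `𝔫 ∋ ϖ, 1/j` the maximal ideal of `B_𝔫` is `(ϖ, u)`.
-/

set_option autoImplicit false
set_option linter.style.haveILetI false
set_option linter.unusedSectionVars false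

noncomputable section

namespace Fermat.Agent.S34.CuspPt

open Polynomial ModularCurve Fermat.Agent.S18 Fermat.Agent.S18.Gauss Fermat.Agent.S24
  Fermat.Agent.S34.CuspRes IsLocalRing

local notation "Qb" => AlgebraicClosure ℚ

section Carrier

variable {L : Type} [Field L] [Algebra ℚ L] (ι : L →+* Qb) (W : ValuationSubring L)
  [IsDiscreteValuationRing ↥W] (M q : ℕ) [NeZero M] [NeZero q]
  [Fact q.Prime] [CharP (IsLocalRing.ResidueField ↥W) q]
  [IsAlgClosed (IsLocalRing.ResidueField ↥W)]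
  (w : FF L (M * q) ≃ₐ[L] FF L (M * q))
  [Algebra (↥W)[X] (FF L (M * q))]
  (B : Type*) [CommRing B] [Algebra (↥W)[X] B] [Algebra B (FF L (M * q))]
  [IsScalarTower (↥W)[X] B (FF L (M * q))] [IsIntegralClosure B (↥W)[X] (FF L (M * q))]

include ι in
/-- **(DICH₂) on an `S37`-style carrier of the chart at infinity**, separator as hypothesis. -/
theorem cusp_dich_carrier_of (hqM : ¬ q ∣ M) {ϖ : ↥W} (hϖ : Irreducible ϖ)
    (hroots : ∀ x : Qb, (∃ n : ℕ, ¬ q ∣ n ∧ x ^ n = 1) → ∃ b : L, ι b = x)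
    (hwα : (w : FF L (M * q) →ₐ[L] FF L (M * q)).comp (heckeAlphaBar L M q) =
      heckeBetaBar L M q)
    (hwβ : (w : FF L (M * q) →ₐ[L] FF L (M * q)).comp (heckeBetaBar L M q) =
      heckeAlphaBar L M q)
    (halg : algebraMap (↥W)[X] (FF L (M * q)) = evFinf W (M * q))
    (𝔫 : Ideal B) [𝔫.IsMaximal] (hπ𝔫 : algebraMap (↥W)[X] B (C ϖ) ∈ 𝔫)
    (hX𝔫 : algebraMap (↥W)[X] B X ∈ 𝔫)
    (hsep : ∀ (hφ₁ : ∀ b, ((algebraMap B (FF L (M * q)) b : FF L (M * q)) : LaurentSeries L) ∈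
        contentRing W)
      (hφ₂ : ∀ b, (((((w : FF L (M * q) →ₐ[L] FF L (M * q)) :
        FF L (M * q) →+* FF L (M * q)).comp (algebraMap B (FF L (M * q)))) b : FF L (M * q)) :
        LaurentSeries L) ∈ contentRing W),
      ∃ (t z D : B) (k : ℕ), k ≠ 0 ∧ D ∉ 𝔫 ∧ z ∈ 𝔫 ∧
        res W (M * q) (algebraMap B (FF L (M * q))) hφ₁ t = 1 ∧
        res W (M * q) (((w : FF L (M * q) →ₐ[L] FF L (M * q)) :
          FF L (M * q) →+* FF L (M * q)).comp (algebraMap B (FF L (M * q)))) hφ₂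
            (D ^ k * t - z ^ k) = 0) :
    ∃ u : Localization.AtPrime 𝔫,
      maximalIdeal (Localization.AtPrime 𝔫) =
        Ideal.span {algebraMap B (Localization.AtPrime 𝔫) (algebraMap (↥W)[X] B (C ϖ)), u} := by
  have hinj : Function.Injective (algebraMap B (FF L (M * q))) :=
    IsIntegralClosure.algebraMap_injective B (↥W)[X] (FF L (M * q))
  have hint : ∀ b : B, (evFinf W (M * q)).IsIntegralElem (algebraMap B (FF L (M * q)) b) := by
    intro b
    have h : IsIntegral (↥W)[X] (algebraMap B (FF L (M * q)) b) :=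
      IsIntegralClosure.isIntegral_iff (A := B) |>.mpr ⟨b, rfl⟩
    have h' : (algebraMap (↥W)[X] (FF L (M * q))).IsIntegralElem
        (algebraMap B (FF L (M * q)) b) := h
    rwa [halg] at h'
  have hsurj : ∀ x : FF L (M * q), (evFinf W (M * q)).IsIntegralElem x →
      ∃ b : B, algebraMap B (FF L (M * q)) b = x := by
    intro x hx
    have h' : (algebraMap (↥W)[X] (FF L (M * q))).IsIntegralElem x := by
      rw [halg]; exact hx
    exact IsIntegralClosure.isIntegral_iff (A := B) |>.mp h'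
  have hπF : algebraMap B (FF L (M * q)) (algebraMap (↥W)[X] B (C ϖ)) =
      algebraMap L (FF L (M * q)) ((ϖ : ↥W) : L) := by
    rw [← IsScalarTower.algebraMap_apply, halg, evFinf_C]
  have hXF : algebraMap B (FF L (M * q)) (algebraMap (↥W)[X] B X) = (jBC L (M * q))⁻¹ := by
    rw [← IsScalarTower.algebraMap_apply, halg, evFinf_X]
  exact CuspFracE.cusp_point ι W M q w (algebraMap B (FF L (M * q))) hqM hϖ hroots hwα hwβ
    (fun x hx₁ hx₂ => FinDich.v3a W M q hqM w hwα hwβ x hx₁ hx₂)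
    hinj hint hsurj _ hπF 𝔫 hπ𝔫 _ hXF hX𝔫 hsep

include ι in
/-- the same, in the shape of the left disjunct of `hstruct` of `KLocRaw.kloc_chart` /
`KLoc.kloc`: the uniformiser as the image of `ϖ ∈ W` in the local ring, for any `W`-algebra
structure on `B` compatible with the `W[X]`-algebra structure. -/
theorem cusp_struct_carrier_of (hqM : ¬ q ∣ M) {ϖ : ↥W} (hϖ : Irreducible ϖ)
    (hroots : ∀ x : Qb, (∃ n : ℕ, ¬ q ∣ n ∧ x ^ n = 1) → ∃ b : L, ι b = x)
    (hwα : (w : FF L (M * q) →ₐ[L] FF L (M * q)).comp (heckeAlphaBar L M q) =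
      heckeBetaBar L M q)
    (hwβ : (w : FF L (M * q) →ₐ[L] FF L (M * q)).comp (heckeBetaBar L M q) =
      heckeAlphaBar L M q)
    (halg : algebraMap (↥W)[X] (FF L (M * q)) = evFinf W (M * q))
    [Algebra ↥W B] (hWB : ∀ c : ↥W, algebraMap ↥W B c = algebraMap (↥W)[X] B (C c))
    (𝔫 : Ideal B) [𝔫.IsMaximal] (hπ𝔫 : algebraMap ↥W B ϖ ∈ 𝔫)
    (hX𝔫 : algebraMap (↥W)[X] B X ∈ 𝔫)
    (hsep : ∀ (hφ₁ : ∀ b, ((algebraMap B (FF L (M * q)) b : FF L (M * q)) : LaurentSeries L) ∈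
        contentRing W)
      (hφ₂ : ∀ b, (((((w : FF L (M * q) →ₐ[L] FF L (M * q)) :
        FF L (M * q) →+* FF L (M * q)).comp (algebraMap B (FF L (M * q)))) b : FF L (M * q)) :
        LaurentSeries L) ∈ contentRing W),
      ∃ (t z D : B) (k : ℕ), k ≠ 0 ∧ D ∉ 𝔫 ∧ z ∈ 𝔫 ∧
        res W (M * q) (algebraMap B (FF L (M * q))) hφ₁ t = 1 ∧
        res W (M * q) (((w : FF L (M * q) →ₐ[L] FF L (M * q)) :
          FF L (M * q) →+* FF L (M * q)).comp (algebraMap B (FF L (M * q)))) hφ₂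
            (D ^ k * t - z ^ k) = 0) :
    ∃ u : Localization.AtPrime 𝔫,
      maximalIdeal (Localization.AtPrime 𝔫) =
        Ideal.span {algebraMap ↥W (Localization.AtPrime 𝔫) ϖ, u} := by
  rw [hWB] at hπ𝔫
  obtain ⟨u, hu⟩ := cusp_dich_carrier_of ι W M q w B hqM hϖ hroots hwα hwβ halg 𝔫 hπ𝔫 hX𝔫 hsep
  refine ⟨u, ?_⟩
  rw [hu, IsScalarTower.algebraMap_apply ↥W B (Localization.AtPrime 𝔫), hWB]

end Carrier

end Fermat.Agent.S34.CuspPt
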