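import Mathlib
import Fermat.Agent.S34.BetaInt
import Fermat.Agent.S37.ModPolyBounds

/-!
# S34: the modular equation at the cusps of the level `M ℓ` cusp chart

`x = 1/j`, `y = 1/β j = 1/j(q^ℓ)`, `F = S24.FF L (M * ℓ)`, `W` any valuation subring of `L`.

* `exists_monic_j` : `j(q)` is integral over `ℤ[j(q^ℓ)]` (over any coefficient ring).
* `exists_monic_t` : `t = j(q^ℓ) / j(q)^ℓ` is integral over `ℤ[1/j(q)]` (over any field of
  characteristic zero); this is where the degree bounds of the modular polynomial enter.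
* `isIntegralElem_j_beta` : `j` is integral over `W[β j]` in `F`.
* `isIntegralElem_t` : `t = β j · x^ℓ` is integral over `W[x]` in `F`.
* `inv_beta_j_mem_nonunits` : a valuation subring of `F` over `W` in which `x` is a non-unit
  contains `y` as a non-unit (the points over `j = ∞` are cusps for `β` as well).
* `exists_den_of_valuative` : valuative criterion at the cusps — an element of `F` lying in every
  valuation subring over `W` centred on `x = 0` becomes integral over `W[x]` after multiplication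
  by some `D(x)`, `D ∈ W[X]`, `D(0) = 1`.
* `exists_den_inv_beta_j`, `exists_den_alpha`, `exists_den_beta` : this applies to `y`, and to
  `α b`, `β b` for every `b` of level `M` integral on the cusp chart `W[1/j, 1/(1 - 1728/j)]`.
* `mem_of_valuative` : an element of a ring `B ⊆ F` lying in the maximal ideal of every valuation
  subring dominating `(B, 𝔫)` lies in the maximal ideal `𝔫`.
-/

set_option autoImplicit false
set_option linter.style.haveILetI false

noncomputable section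

namespace Fermat.Agent.S34.CuspEq

open Polynomial ModularCurve Fermat.Agent.S28

local notation "Qb" => AlgebraicClosure ℚ

/-! ### Generic valuative lemmas -/

section Generic

variable {R K : Type*} [CommRing R] [Field K]

/-- An element integral over a ring mapping into a valuation subring lies in it. -/
theorem mem_of_isIntegralElem (V : ValuationSubring K) (φ : R →+* K) (hφ : ∀ r, φ r ∈ V) {x : K}
    (hx : φ.IsIntegralElem x) : x ∈ V := by
  obtain ⟨p, hp, hpx⟩ := hx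
  let φ' : R →+* V := φ.codRestrict V.toSubring hφ
  have hcomp : (algebraMap V K).comp φ' = φ := RingHom.ext fun r => rfl
  have hint : IsIntegral V x := ⟨p.map φ', hp.map φ', by rw [eval₂_map, hcomp]; exact hpx⟩
  obtain ⟨y, hy⟩ := (IsIntegrallyClosed.isIntegral_iff (R := V) (K := K)).mp hint
  rw [← hy]
  exact y.2

/-- **Valuative criterion.**  If `x` lies in every valuation subring containing `ψ(R)` in which
`ψ(I)` consists of non-units, then `x` is a root of a polynomial over `R` whose leading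
coefficient is `≡ 1` modulo `I`. -/
theorem exists_poly_of_valuative (ψ : R →+* K) (I : Ideal R) (hI : I ≠ ⊤) (x : K)
    (h : ∀ V : ValuationSubring K, (∀ r, ψ r ∈ V) → (∀ r ∈ I, ψ r ∈ V.nonunits) → x ∈ V) :
    ∃ p : R[X], p.leadingCoeff - 1 ∈ I ∧ p.eval₂ ψ x = 0 := by
  by_cases hx : x = 0
  · exact ⟨X, by simp, by simp [hx]⟩
  letI : Algebra R K := ψ.toAlgebra
  letI : Invertible x⁻¹ := invertibleOfNonzero (inv_ne_zero hx)
  have hinv : ⅟(x⁻¹) = x := by rw [invOf_eq_inv, inv_inv]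
  suffices hJ : I.map (algebraMap R (Algebra.adjoin R {x⁻¹})) ⊔
      Ideal.span {⟨x⁻¹, Algebra.subset_adjoin rfl⟩} = ⊤ by
    obtain ⟨p, hp, hpx⟩ :=
      Algebra.exists_aeval_invOf_eq_zero_of_idealMap_adjoin_sup_span_eq_top x⁻¹ I hI hJ
    refine ⟨p, hp, ?_⟩
    rw [hinv] at hpx
    exact hpx
  by_contra hJ
  obtain ⟨V, hV1, hV2⟩ := Ideal.image_subset_nonunits_valuationSubring
    (A := (Algebra.adjoin R {x⁻¹}).toSubring) _ hJ
  have hxV : x ∈ V := h V (fun r => hV1 (Subalgebra.algebraMap_mem _ r))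
    (fun r hr => hV2 ⟨algebraMap R (Algebra.adjoin R {x⁻¹}) r,
      Ideal.mem_sup_left (Ideal.mem_map_of_mem _ hr), rfl⟩)
  have hxinv : x⁻¹ ∈ V.nonunits :=
    hV2 ⟨⟨x⁻¹, Algebra.subset_adjoin rfl⟩, Ideal.mem_sup_right (Ideal.subset_span rfl), rfl⟩
  rcases V.inv_mem_nonunits_iff.mp hxinv with h0 | h1
  · exact hx h0
  · exact h1 hxV

/-- An element of a ring `B ⊆ K` which is a non-unit of every valuation subring of `K` dominating
`(B, 𝔫)` lies in the maximal ideal `𝔫`. -/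
theorem mem_of_valuative {B : Type*} [CommRing B] (φ : B →+* K) (hφ : Function.Injective φ)
    (𝔫 : Ideal B) (h𝔫 : 𝔫.IsMaximal) (z : B)
    (h : ∀ V : ValuationSubring K, (∀ b : B, φ b ∈ V) → (∀ b ∈ 𝔫, φ b ∈ V.nonunits) →
      φ z ∈ V.nonunits) : z ∈ 𝔫 := by
  -- a valuation subring dominating `(B, 𝔫)`
  have hne : 𝔫.map φ.rangeRestrict ≠ ⊤ := by
    intro htop
    have h1 : (1 : φ.range) ∈ 𝔫.map φ.rangeRestrict := htop ▸ Submodule.mem_top
    rw [Ideal.mem_map_iff_of_surjective _ φ.rangeRestrict_surjective] at h1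
    obtain ⟨n, hn, hn1⟩ := h1
    have h2 : φ n = φ 1 := by
      have := congrArg (Subtype.val) hn1
      rw [map_one]
      exact this
    have h3 : n = 1 := hφ h2
    exact h𝔫.ne_top ((Ideal.eq_top_iff_one 𝔫).mpr (h3 ▸ hn))
  obtain ⟨V, hV1, hV2⟩ := Ideal.image_subset_nonunits_valuationSubring (A := φ.range) _ hne
  have hB : ∀ b : B, φ b ∈ V := fun b => hV1 ⟨b, rfl⟩
  have hn : ∀ b ∈ 𝔫, φ b ∈ V.nonunits := fun b hb =>
    hV2 ⟨φ.rangeRestrict b, Ideal.mem_map_of_mem _ hb, rfl⟩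
  have hz := h V hB hn
  by_contra hz𝔫
  obtain ⟨c, i, hi, hci⟩ := h𝔫.exists_inv hz𝔫
  have h1 : V.valuation (φ (c * z)) < 1 := by
    rw [map_mul, map_mul]
    exact lt_of_le_of_lt (mul_le_of_le_one_left' ((V.valuation_le_one_iff _).mpr (hB c)))
      (V.mem_nonunits_iff.mp hz)
  have h2 : V.valuation (φ i) < 1 := V.mem_nonunits_iff.mp (hn i hi)
  have h3 : V.valuation (φ (c * z) + φ i) < 1 := Valuation.map_add_lt _ h1 h2
  rw [← map_add, hci, map_one, map_one] at h3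
  exact lt_irrefl _ h3

end Generic

/-! ### The modular polynomial over the algebraic integers -/

section ModPoly

/-- the ring of algebraic integers -/
abbrev Zbar : Subalgebra ℤ Qb := integralClosure ℤ Qb

/-- the inclusion of the algebraic integers -/
def ιZ : ↥Zbar →+* Qb := Zbar.val.toRingHom

theorem ιZ_injective : Function.Injective ιZ := Subtype.val_injective

/-- constants of `ℚ̄((q))` coming from algebraic integers -/
def cZ : ↥Zbar →+* LaurentSeries Qb := (HahnSeries.C : Qb →+* LaurentSeries Qb).comp ιZ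

/-- `p ↦ p(g)`, from `ℤ̄[X]` to `ℚ̄((q))` -/
def evA (g : LaurentSeries Qb) : (↥Zbar)[X] →+* LaurentSeries Qb := eval₂RingHom cZ g

theorem evA_C (g : LaurentSeries Qb) (a : ↥Zbar) : evA g (C a) = HahnSeries.C (a : Qb) := by
  rw [evA, coe_eval₂RingHom, eval₂_C]
  rfl

theorem evA_X (g : LaurentSeries Qb) : evA g X = g := by
  rw [evA, coe_eval₂RingHom, eval₂_X]

theorem evA_eq (g : LaurentSeries Qb) : evA g = (evalAt g).comp (mapRingHom ιZ) := by
  apply Polynomial.ringHom_ext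
  · intro a
    rw [evA_C, RingHom.comp_apply, coe_mapRingHom, map_C, NewPrime.evalAt_C]
    rfl
  · rw [evA_X, RingHom.comp_apply, coe_mapRingHom, map_X, NewPrime.evalAt_X]

/-- `p ↦ p(g)`, from `ℤ[X]` to `R((q))` -/
def evZg {R : Type*} [CommRing R] (g : LaurentSeries R) : ℤ[X] →+* LaurentSeries R :=
  eval₂RingHom (Int.castRingHom (LaurentSeries R)) g

theorem evZg_C {R : Type*} [CommRing R] (g : LaurentSeries R) (n : ℤ) :
    evZg g (C n) = (n : LaurentSeries R) := by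
  rw [evZg, coe_eval₂RingHom, eval₂_C]
  rfl

theorem evZg_X {R : Type*} [CommRing R] (g : LaurentSeries R) : evZg g X = g := by
  rw [evZg, coe_eval₂RingHom, eval₂_X]

theorem coeffMap_comp_evZg {R S : Type*} [CommRing R] [CommRing S] (f : R →+* S)
    (g : LaurentSeries R) : (coeffMap f).comp (evZg g) = evZg (coeffMap f g) := by
  apply Polynomial.ringHom_ext
  · intro n
    rw [RingHom.comp_apply, evZg_C, evZg_C, map_intCast]
  · rw [RingHom.comp_apply, evZg_X, evZg_X]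

theorem coeffMap_eval₂_evZg {R S : Type*} [CommRing R] [CommRing S] (f : R →+* S)
    (g a : LaurentSeries R) (P : Polynomial (Polynomial ℤ)) :
    coeffMap f (P.eval₂ (evZg g) a) = P.eval₂ (evZg (coeffMap f g)) (coeffMap f a) := by
  rw [Polynomial.hom_eval₂, coeffMap_comp_evZg]

/-- **The modular polynomial over the algebraic integers.** -/
theorem exists_modPoly_int (ℓ : ℕ) [NeZero ℓ] (hℓ : ℓ.Prime) :
    ∃ (ΦA : Polynomial (Polynomial ↥Zbar)) (ζ : Qbˣ), ζ ^ ℓ = 1 ∧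
      (ΦA.map (mapRingHom ιZ)).map (evalAt (qExpand Qb ℓ (jS Qb))) =
        (X - C (qExpand Qb (ℓ * ℓ) (jS Qb))) *
          ∏ c ∈ Finset.range ℓ, (X - C (tw (ζ ^ c) (jS Qb))) := by
  haveI : NeZero ((ℓ : ℕ) : Qb) := ⟨Nat.cast_ne_zero.mpr hℓ.ne_zero⟩
  obtain ⟨ζ₀, hζ₀⟩ := HasEnoughRootsOfUnity.exists_primitiveRoot Qb ℓ
  have hmem : ζ₀ ∈ Zbar := by
    show IsIntegral ℤ ζ₀
    refine IsIntegral.of_pow hℓ.pos ?_
    rw [hζ₀.pow_eq_one]
    exact isIntegral_one
  have hmem' : ζ₀⁻¹ ∈ Zbar := by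
    show IsIntegral ℤ ζ₀⁻¹
    refine IsIntegral.of_pow hℓ.pos ?_
    rw [inv_pow, hζ₀.pow_eq_one, inv_one]
    exact isIntegral_one
  have hζ₀0 : ζ₀ ≠ 0 := hζ₀.ne_zero hℓ.ne_zero
  let u : (↥Zbar)ˣ := ⟨⟨ζ₀, hmem⟩, ⟨ζ₀⁻¹, hmem'⟩, Subtype.ext (mul_inv_cancel₀ hζ₀0),
    Subtype.ext (inv_mul_cancel₀ hζ₀0)⟩
  have hu : ((Units.map (ιZ : ↥Zbar →* Qb) u : Qbˣ) : Qb) = ζ₀ := rfl
  have hprim : IsPrimitiveRoot (Units.map (ιZ : ↥Zbar →* Qb) u) ℓ := by
    rw [← IsPrimitiveRoot.coe_units_iff, hu]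
    exact hζ₀
  obtain ⟨D⟩ := exists_modPolyData Qb ℓ hℓ (Units.map (ιZ : ↥Zbar →* Qb) u) hprim
  set xA : LaurentSeries ↥Zbar := qExpand ↥Zbar ℓ (jS ↥Zbar) with hxA
  have hxK : coeffMap ιZ xA = qExpand Qb ℓ (jS Qb) := by
    rw [hxA, Fermat.Agent.S28.coeffMap_qExpand, coeffMap_jS]
  have hr : 0 < ℓ := hℓ.pos
  have h1 : (coeffMap ιZ xA).coeff (-(ℓ : ℤ)) = 1 := by
    rw [hxK, show (-(ℓ : ℤ)) = (ℓ : ℤ) * (-1) by ring, qExpand_coeff_mul, jS_coeff_neg_one]
  have h0 : ∀ n : ℤ, n < -(ℓ : ℤ) → (coeffMap ιZ xA).coeff n = 0 := by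
    intro n hn
    rw [hxK]
    by_cases hdvd : (ℓ : ℤ) ∣ n
    · obtain ⟨m, rfl⟩ := hdvd
      rw [qExpand_coeff_mul]
      apply jS_coeff_of_lt
      have hr' : (0 : ℤ) < ℓ := by exact_mod_cast hr
      nlinarith
    · exact qExpand_coeff_of_not_dvd ℓ _ hdvd
  have hΦ : D.Φ.map (evalAt (coeffMap ιZ xA)) =
      (Descent.rhsΦ ↥Zbar ℓ u).map (coeffMap ιZ) := by
    rw [Descent.map_rhsΦ, hxK]; exact D.hΦ
  obtain ⟨ΦA, hΦA⟩ := Descent.exists_map_eq ιZ xA ℓ hr h1 h0 D.Φ _ hΦ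
  refine ⟨ΦA, Units.map (ιZ : ↥Zbar →* Qb) u, hprim.pow_eq_one, ?_⟩
  rw [hΦA]
  exact D.hΦ

/-- **The modular polynomial**: coefficient bounds and the two root relations
`Φ(j(q), j(q^ℓ)) = 0 = Φ(j(q^ℓ), j(q))`. -/
theorem exists_modPoly_core (ℓ : ℕ) [NeZero ℓ] (hℓ : ℓ.Prime) :
    ∃ ΦA : Polynomial (Polynomial ↥Zbar),
      (∀ k, (ΦA.coeff k).natDegree ≤ ℓ + 1) ∧ (∀ k, k ≠ 0 → (ΦA.coeff k).natDegree ≤ ℓ) ∧
      (ΦA.map (evA (qExpand Qb ℓ (jS Qb)))).Monic ∧
      (ΦA.map (evA (qExpand Qb ℓ (jS Qb)))).eval (jS Qb) = 0 ∧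
      (ΦA.map (evA (jS Qb))).Monic ∧ (ΦA.map (evA (jS Qb))).natDegree = ℓ + 1 ∧
      (ΦA.map (evA (jS Qb))).eval (qExpand Qb ℓ (jS Qb)) = 0 := by
  obtain ⟨ΦA, ζ, hζ, hΦ⟩ := exists_modPoly_int ℓ hℓ
  obtain ⟨hdeg, -, hzero⟩ :=
    Fermat.Agent.S37.ModPolyBounds.modPoly_bounds_gen ιZ ιZ_injective ℓ ΦA ζ hζ hΦ
  set y := qExpand Qb ℓ (jS Qb) with hy
  have hgy : ΦA.map (evA y) = (X - C (qExpand Qb (ℓ * ℓ) (jS Qb))) *
        ∏ c ∈ Finset.range ℓ, (X - C (tw (ζ ^ c) (jS Qb))) := by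
    rw [evA_eq, ← Polynomial.map_map]
    exact hΦ
  have hgj : (ΦA.map (evA (jS Qb))).map (qExpand Qb ℓ) = ΦA.map (evA y) := by
    rw [Polynomial.map_map, evA_eq, evA_eq, ← RingHom.comp_assoc, NewPrime.qExpand_comp_evalAt]
  have hprod : (∏ c ∈ Finset.range ℓ, (X - C (tw (ζ ^ c) (jS Qb)))).Monic :=
    monic_prod_of_monic _ _ fun c _ => monic_X_sub_C _
  have hmonic_y : (ΦA.map (evA y)).Monic := by
    rw [hgy]
    exact (monic_X_sub_C _).mul hprod
  have hnat_y : (ΦA.map (evA y)).natDegree = ℓ + 1 := by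
    rw [hgy, Monic.natDegree_mul (monic_X_sub_C _) hprod, natDegree_X_sub_C,
      natDegree_prod_of_monic _ _ (fun c _ => monic_X_sub_C _)]
    simp [add_comm]
  have hmonic_j : (ΦA.map (evA (jS Qb))).Monic := by
    apply Polynomial.monic_of_injective (qExpand_injective (R := Qb) ℓ)
    rw [hgj]
    exact hmonic_y
  refine ⟨ΦA, hdeg, ?_, hmonic_y, ?_, hmonic_j, ?_, ?_⟩
  · intro k hk
    have h1 := hdeg k
    have h2 := hzero k hk
    by_contra hlt
    have h3 : (ΦA.coeff k).natDegree = ℓ + 1 := by omega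
    have h4 : (ΦA.coeff k).leadingCoeff = 0 := by rw [leadingCoeff, h3]; exact h2
    rw [leadingCoeff_eq_zero] at h4
    rw [h4, natDegree_zero] at h3
    omega
  · rw [hgy, eval_mul, eval_prod]
    refine mul_eq_zero_of_right _ (Finset.prod_eq_zero (Finset.mem_range.mpr hℓ.pos) ?_)
    rw [pow_zero, tw_one, eval_sub, eval_X, eval_C, sub_self]
  · rw [← hnat_y, ← hgj, natDegree_map_eq_of_injective (qExpand_injective (R := Qb) ℓ)]
  · apply qExpand_injective (R := Qb) ℓ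
    rw [map_zero, ← Polynomial.eval₂_at_apply, ← eval_map, hgj, hgy, hy, qExpand_qExpand,
      eval_mul, eval_sub, eval_X, eval_C, sub_self, zero_mul]

/-- integrality over `ℤ̄[g]` implies integrality over `ℤ[g]` -/
theorem isIntegralElem_evZg_of_evA (g x : LaurentSeries Qb) (hx : (evA g).IsIntegralElem x) :
    (evZg g).IsIntegralElem x := by
  refine BetaInt.isIntegralElem_trans (evZg g) (evA g) ?_ x hx
  intro p
  induction p using Polynomial.induction_on with
  | C a =>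
    rw [evA_C]
    obtain ⟨Q, hQ, hQa⟩ := a.2
    refine ⟨Q.map C, hQ.map C, ?_⟩
    rw [eval₂_map]
    have hcomp : (evZg g).comp (C : ℤ →+* ℤ[X]) =
        (HahnSeries.C : Qb →+* LaurentSeries Qb).comp (algebraMap ℤ Qb) := RingHom.ext_int _ _
    rw [hcomp, ← Polynomial.hom_eval₂, hQa, map_zero]
  | add p q hp hq =>
    rw [map_add]
    exact RingHom.IsIntegralElem.add _ hp hq
  | monomial n a ih =>
    rw [pow_succ, ← mul_assoc, map_mul]
    refine RingHom.IsIntegralElem.mul _ ih ?_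
    have hgX : evA g X = evZg g X := by rw [evA_X, evZg_X]
    rw [hgX]
    exact (evZg g).isIntegralElem_map

/-- a root of a monic polynomial with coefficients in the image of `f` is integral along `f` -/
theorem isIntegralElem_of_lifts {R S : Type*} [CommRing R] [CommRing S] (f : R →+* S) (P : S[X])
    (hP : P.Monic) (hlift : P ∈ lifts f) (x : S) (hx : P.eval x = 0) : f.IsIntegralElem x := by
  obtain ⟨Q, hQ, -, hQm⟩ := lifts_and_natDegree_eq_and_monic hlift hP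
  exact ⟨Q, hQm, by rw [← eval_map, hQ]; exact hx⟩

/-- evaluation of a reflected polynomial at the inverse -/
theorem evA_inv_reflect (j : LaurentSeries Qb) (hj : j ≠ 0) (d : ℕ) (p : (↥Zbar)[X])
    (hp : p.natDegree ≤ d) : evA j⁻¹ (reflect d p) = evA j p * j⁻¹ ^ d := by
  letI : Invertible j := invertibleOfNonzero hj
  have h := Polynomial.eval₂_reflect_mul_pow cZ j d p hp
  rw [invOf_eq_inv] at h
  show eval₂ cZ j⁻¹ (reflect d p) = eval₂ cZ j p * j⁻¹ ^ d
  rw [← h, mul_assoc, inv_pow, mul_inv_cancel₀ (pow_ne_zero d hj), mul_one]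

theorem jS_ne_zero (K : Type*) [Field K] : jS K ≠ 0 := by
  rw [jS_eq_jqModC]
  exact jqModC_ne_zero_of_nontrivial K

/-- **`j(q)` is integral over `ℤ[j(q^ℓ)]`**, over `ℚ̄`. -/
theorem isIntegralElem_j_Qb (ℓ : ℕ) [NeZero ℓ] (hℓ : ℓ.Prime) :
    (evZg (qExpand Qb ℓ (jS Qb))).IsIntegralElem (jS Qb) := by
  obtain ⟨ΦA, -, -, hmon, hroot, -, -, -⟩ := exists_modPoly_core ℓ hℓ
  exact isIntegralElem_evZg_of_evA _ _
    (isIntegralElem_of_lifts _ _ hmon ((Polynomial.mem_lifts _).mpr ⟨ΦA, rfl⟩) _ hroot)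

/-- **`t = j(q^ℓ) / j(q)^ℓ` is integral over `ℤ[1/j(q)]`**, over `ℚ̄`. -/
theorem isIntegralElem_t_Qb (ℓ : ℕ) [NeZero ℓ] (hℓ : ℓ.Prime) :
    (evZg (jS Qb)⁻¹).IsIntegralElem ((jS Qb)⁻¹ ^ ℓ * qExpand Qb ℓ (jS Qb)) := by
  obtain ⟨ΦA, hdeg, hdeg', -, -, hmon, hnat, hroot⟩ := exists_modPoly_core ℓ hℓ
  have hj := jS_ne_zero Qb
  set j := jS Qb with hjdef
  set y := qExpand Qb ℓ j with hy
  set P := ΦA.map (evA j) with hP
  have hℓ1 : 1 ≤ ℓ := hℓ.pos
  refine isIntegralElem_evZg_of_evA _ _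
    (isIntegralElem_of_lifts (evA j⁻¹) (P.scaleRoots (j⁻¹ ^ ℓ))
      ((monic_scaleRoots_iff _).mpr hmon) ?_ _ ?_)
  · rw [Polynomial.lifts_iff_coeff_lifts]
    intro k
    rw [coeff_scaleRoots, hnat]
    rcases lt_trichotomy k (ℓ + 1) with hk | hk | hk
    · refine ⟨reflect (ℓ * (ℓ + 1 - k)) (ΦA.coeff k), ?_⟩
      have hb : (ΦA.coeff k).natDegree ≤ ℓ * (ℓ + 1 - k) := by
        rcases Nat.eq_zero_or_pos k with h0 | h0
        · subst h0
          refine (hdeg 0).trans ?_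
          rw [Nat.sub_zero]
          exact Nat.le_mul_of_pos_left _ hℓ.pos
        · refine (hdeg' k (by omega)).trans ?_
          exact Nat.le_mul_of_pos_right _ (by omega)
      rw [evA_inv_reflect j hj _ _ hb, hP, coeff_map, ← pow_mul]
    · subst hk
      refine ⟨1, ?_⟩
      have h1 : P.coeff (ℓ + 1) = 1 := by
        have := hmon.coeff_natDegree
        rwa [hnat] at this
      rw [h1, Nat.sub_self, pow_zero, mul_one]
      exact map_one _
    · refine ⟨0, ?_⟩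
      rw [coeff_eq_zero_of_natDegree_lt (by rw [hnat]; exact hk), zero_mul]
      exact map_zero _
  · have h := Polynomial.scaleRoots_eval₂_eq_zero (p := P) (RingHom.id (LaurentSeries Qb))
      (r := y) (s := j⁻¹ ^ ℓ) (by rw [eval₂_id]; exact hroot)
    rw [eval₂_id, RingHom.id_apply] at h
    exact h

end ModPoly

/-! ### Descent to `ℤ` and to arbitrary coefficients -/

section Descent

/-- **`j(q)` is integral over `ℤ[j(q^ℓ)]`.**  There is a monic `P ∈ ℤ[Y][T]` with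
`P(j(q^ℓ), j(q)) = 0` in `R((q))` for every commutative ring `R`. -/
theorem exists_monic_j.{u} (ℓ : ℕ) [NeZero ℓ] (hℓ : ℓ.Prime) :
    ∃ P : Polynomial (Polynomial ℤ), P.Monic ∧
      ∀ (R : Type u) [CommRing R], P.eval₂ (evZg (qExpand R ℓ (jS R))) (jS R) = 0 := by
  obtain ⟨P, hP, hPy⟩ := isIntegralElem_j_Qb ℓ hℓ
  have hZ : P.eval₂ (evZg (qExpand ℤ ℓ (jS ℤ))) (jS ℤ) = 0 := by
    apply Descent.coeffMap_injective (Int.castRingHom Qb) Int.cast_injective
    rw [coeffMap_eval₂_evZg, map_zero, Fermat.Agent.S28.coeffMap_qExpand, coeffMap_jS]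
    exact hPy
  refine ⟨P, hP, fun R _ => ?_⟩
  have h := congrArg (coeffMap (Int.castRingHom R)) hZ
  rw [coeffMap_eval₂_evZg, map_zero, Fermat.Agent.S28.coeffMap_qExpand, coeffMap_jS] at h
  exact h

/-- the relation for `t` commutes with change of the coefficient field -/
theorem coeffMap_eval₂_t {K₁ K₂ : Type*} [Field K₁] [Field K₂] (f : K₁ →+* K₂) (ℓ : ℕ)
    [NeZero ℓ] (P : Polynomial (Polynomial ℤ)) :
    coeffMap f (P.eval₂ (evZg (jS K₁)⁻¹) ((jS K₁)⁻¹ ^ ℓ * qExpand K₁ ℓ (jS K₁))) =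
      P.eval₂ (evZg (jS K₂)⁻¹) ((jS K₂)⁻¹ ^ ℓ * qExpand K₂ ℓ (jS K₂)) := by
  rw [coeffMap_eval₂_evZg, map_mul, map_pow, map_inv₀, coeffMap_jS,
    Fermat.Agent.S28.coeffMap_qExpand, coeffMap_jS]

/-- **`t = j(q^ℓ) / j(q)^ℓ` is integral over `ℤ[1/j(q)]`.**  There is a monic `P ∈ ℤ[X][T]`
with `P(1/j(q), t) = 0` in `K((q))` for every field `K` of characteristic zero. -/
theorem exists_monic_t.{u} (ℓ : ℕ) [NeZero ℓ] (hℓ : ℓ.Prime) :
    ∃ P : Polynomial (Polynomial ℤ), P.Monic ∧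
      ∀ (K : Type u) [Field K] [Algebra ℚ K],
        P.eval₂ (evZg (jS K)⁻¹) ((jS K)⁻¹ ^ ℓ * qExpand K ℓ (jS K)) = 0 := by
  obtain ⟨P, hP, hPy⟩ := isIntegralElem_t_Qb ℓ hℓ
  have hQ : P.eval₂ (evZg (jS ℚ)⁻¹) ((jS ℚ)⁻¹ ^ ℓ * qExpand ℚ ℓ (jS ℚ)) = 0 := by
    apply Descent.coeffMap_injective (algebraMap ℚ Qb) (algebraMap ℚ Qb).injective
    rw [coeffMap_eval₂_t, map_zero]
    exact hPy
  refine ⟨P, hP, fun K _ _ => ?_⟩
  rw [← coeffMap_eval₂_t (algebraMap ℚ K), hQ, map_zero]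

end Descent

/-! ### The level `(L, W)` -/

section Level

open Fermat.Agent.S18.Gauss

variable {L : Type*} [Field L] [Algebra ℚ L] (W : ValuationSubring L)

section OneLevel

variable (N : ℕ) [NeZero N]

theorem jBC_ne_zero : Fermat.Agent.S24.jBC L N ≠ 0 := by
  intro h
  have h1 := congrArg (fun z : Fermat.Agent.S24.FF L N => (z : LaurentSeries L)) h
  simp only [coe_jBC_eq, ZeroMemClass.coe_zero] at h1
  exact jqModC_ne_zero_of_nontrivial L h1

/-- `D(1/j) = 1 + (1/j) · D'(1/j)` when `D(0) = 1` -/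
theorem evFinf_eq_one_add (D : (↥W)[X]) (hD : D.coeff 0 = 1) :
    evFinf W N D = 1 + (Fermat.Agent.S24.jBC L N)⁻¹ * evFinf W N D.divX := by
  conv_lhs => rw [← Polynomial.divX_mul_X_add D, hD]
  rw [map_add, map_mul, evFinf_X, map_one, map_one]
  ring

/-- **Valuative criterion at the cusps.**  An element of `F` lying in every valuation subring
over `W` in which `1/j` is a non-unit becomes integral over `W[1/j]` after multiplication by
`D(1/j)` for some `D ∈ W[X]` with `D(0) = 1`. -/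
theorem exists_den_of_valuative (x' : Fermat.Agent.S24.FF L N)
    (h : ∀ V : ValuationSubring (Fermat.Agent.S24.FF L N),
      (∀ a : W, algebraMap L (Fermat.Agent.S24.FF L N) (a : L) ∈ V) →
      (Fermat.Agent.S24.jBC L N)⁻¹ ∈ V.nonunits → x' ∈ V) :
    ∃ D : (↥W)[X], D.coeff 0 = 1 ∧ (evFinf W N).IsIntegralElem (evFinf W N D * x') := by
  have hI : Ideal.span {(X : (↥W)[X])} ≠ ⊤ := by
    rw [Ne, Ideal.span_singleton_eq_top]
    exact Polynomial.not_isUnit_X
  obtain ⟨p, hp, hpx⟩ := exists_poly_of_valuative (evFinf W N) (Ideal.span {X}) hI x' (by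
    intro V hV1 hV2
    refine h V (fun a => ?_) ?_
    · rw [← evFinf_C]
      exact hV1 _
    · rw [← evFinf_X]
      exact hV2 X (Ideal.subset_span rfl))
  refine ⟨p.leadingCoeff, ?_, (evFinf W N).isIntegralElem_leadingCoeff_mul p x' hpx⟩
  obtain ⟨q, hq⟩ := Ideal.mem_span_singleton'.mp hp
  have h1 : p.leadingCoeff = q * X + 1 := by rw [hq]; ring
  rw [h1, coeff_add, coeff_mul_X_zero, coeff_one_zero, zero_add]

end OneLevel

variable (M ℓ : ℕ) [NeZero M] [NeZero ℓ]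

/-- the chart `W[β j]` of level `M ℓ`: `p ↦ p(β j)` -/
def evBeta : (↥W)[X] →+* Fermat.Agent.S24.FF L (M * ℓ) :=
  (heckeBetaBar L M ℓ).toRingHom.comp (evF W M)

theorem evBeta_C (a : W) :
    evBeta W M ℓ (C a) = algebraMap L (Fermat.Agent.S24.FF L (M * ℓ)) (a : L) := by
  rw [evBeta, RingHom.comp_apply, evF_C]
  exact AlgHom.commutes _ _

theorem evBeta_X : evBeta W M ℓ X = heckeBetaBar L M ℓ (Fermat.Agent.S24.jBC L M) := by
  rw [evBeta, RingHom.comp_apply, evF_X]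
  rfl

theorem alpha_jBC :
    heckeAlphaBar L M ℓ (Fermat.Agent.S24.jBC L M) = Fermat.Agent.S24.jBC L (M * ℓ) := by
  apply Subtype.ext
  rw [coe_heckeAlphaBar, coe_jBC_eq, coe_jBC_eq]

theorem coe_comp_evBeta_comp_map :
    ((algebraMap (Fermat.Agent.S24.FF L (M * ℓ)) (LaurentSeries L)).comp (evBeta W M ℓ)).comp
      (mapRingHom (Int.castRingHom ↥W)) = evZg (qExpand L ℓ (jS L)) := by
  apply Polynomial.ringHom_ext
  · intro n
    rw [RingHom.comp_apply, RingHom.comp_apply, coe_mapRingHom, map_C, evBeta_C, evZg_C,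
      ← IsScalarTower.algebraMap_apply]
    simp
  · rw [RingHom.comp_apply, RingHom.comp_apply, coe_mapRingHom, map_X, evBeta_X, evZg_X]
    show ((heckeBetaBar L M ℓ (Fermat.Agent.S24.jBC L M) : Fermat.Agent.S24.FF L (M * ℓ)) :
      LaurentSeries L) = _
    rw [coe_heckeBetaBar, coe_jBC_eq, jS_eq_jqModC]

/-- **`j` is integral over `W[β j]`** in the function field of level `M ℓ`. -/
theorem isIntegralElem_j_beta (hℓ : ℓ.Prime) :
    (evBeta W M ℓ).IsIntegralElem (Fermat.Agent.S24.jBC L (M * ℓ)) := by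
  obtain ⟨P, hP, hroot⟩ := exists_monic_j ℓ hℓ
  refine ⟨P.map (mapRingHom (Int.castRingHom ↥W)), hP.map _, ?_⟩
  apply Subtype.ext
  have h := Polynomial.hom_eval₂ P ((evBeta W M ℓ).comp (mapRingHom (Int.castRingHom ↥W)))
    (algebraMap (Fermat.Agent.S24.FF L (M * ℓ)) (LaurentSeries L))
    (Fermat.Agent.S24.jBC L (M * ℓ))
  have h2 : algebraMap (Fermat.Agent.S24.FF L (M * ℓ)) (LaurentSeries L)
      (Fermat.Agent.S24.jBC L (M * ℓ)) = jS L := by
    rw [jS_eq_jqModC]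
    exact coe_jBC_eq L (M * ℓ)
  rw [← RingHom.comp_assoc, coe_comp_evBeta_comp_map, h2, hroot L] at h
  rw [eval₂_map]
  exact h

omit [Algebra ℚ L] in
theorem evG_inv_comp_map :
    (evG W (jqModC L)⁻¹).comp (mapRingHom (Int.castRingHom ↥W)) = evZg (jS L)⁻¹ := by
  apply Polynomial.ringHom_ext
  · intro n
    rw [RingHom.comp_apply, coe_mapRingHom, map_C, evG_C, evZg_C]
    simp
  · rw [RingHom.comp_apply, coe_mapRingHom, map_X, evG_X, evZg_X, jS_eq_jqModC]

/-- **`t = β j / j^ℓ` is integral over `W[1/j]`** in the function field of level `M ℓ`. -/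
theorem isIntegralElem_t (hℓ : ℓ.Prime) :
    (evFinf W (M * ℓ)).IsIntegralElem
      ((Fermat.Agent.S24.jBC L (M * ℓ))⁻¹ ^ ℓ *
        heckeBetaBar L M ℓ (Fermat.Agent.S24.jBC L M)) := by
  obtain ⟨P, hP, hroot⟩ := exists_monic_t ℓ hℓ
  refine ⟨P.map (mapRingHom (Int.castRingHom ↥W)), hP.map _, ?_⟩
  apply Subtype.ext
  rw [evFinf, coe_eval₂_evGF, eval₂_map, evG_inv_comp_map]
  have h2 : (((Fermat.Agent.S24.jBC L (M * ℓ))⁻¹ ^ ℓ *
      heckeBetaBar L M ℓ (Fermat.Agent.S24.jBC L M) : Fermat.Agent.S24.FF L (M * ℓ)) :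
      LaurentSeries L) = (jS L)⁻¹ ^ ℓ * qExpand L ℓ (jS L) := by
    rw [jS_eq_jqModC]
    simp only [MulMemClass.coe_mul, SubmonoidClass.coe_pow, IntermediateField.coe_inv,
      coe_heckeBetaBar, coe_jBC_eq]
  rw [h2, hroot L]
  rfl

/-- the chart `W[β j]` maps into a valuation subring over `W` containing `β j` -/
theorem evBeta_mem (V : ValuationSubring (Fermat.Agent.S24.FF L (M * ℓ)))
    (hV : ∀ a : W, algebraMap L (Fermat.Agent.S24.FF L (M * ℓ)) (a : L) ∈ V)
    (hβ : heckeBetaBar L M ℓ (Fermat.Agent.S24.jBC L M) ∈ V) (p : (↥W)[X]) :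
    evBeta W M ℓ p ∈ V := by
  induction p using Polynomial.induction_on with
  | C a =>
    rw [evBeta_C]
    exact hV a
  | add p q hp hq =>
    rw [map_add]
    exact V.add_mem _ _ hp hq
  | monomial n a ih =>
    rw [pow_succ, ← mul_assoc, map_mul, evBeta_X]
    exact V.mul_mem _ _ ih hβ

/-- a valuation subring over `W` containing `β j` contains `j` -/
theorem jBC_mem_of_beta_mem (hℓ : ℓ.Prime)
    (V : ValuationSubring (Fermat.Agent.S24.FF L (M * ℓ)))
    (hV : ∀ a : W, algebraMap L (Fermat.Agent.S24.FF L (M * ℓ)) (a : L) ∈ V)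
    (hβ : heckeBetaBar L M ℓ (Fermat.Agent.S24.jBC L M) ∈ V) :
    Fermat.Agent.S24.jBC L (M * ℓ) ∈ V :=
  mem_of_isIntegralElem V (evBeta W M ℓ) (evBeta_mem W M ℓ V hV hβ)
    (isIntegralElem_j_beta W M ℓ hℓ)

/-- **The points over `j = ∞` are cusps for `β` as well**: a valuation subring of `F` over `W` in
which `1/j` is a non-unit contains `1/β j` as a non-unit. -/
theorem inv_beta_j_mem_nonunits (hℓ : ℓ.Prime)
    (V : ValuationSubring (Fermat.Agent.S24.FF L (M * ℓ)))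
    (hV : ∀ a : W, algebraMap L (Fermat.Agent.S24.FF L (M * ℓ)) (a : L) ∈ V)
    (hx : (Fermat.Agent.S24.jBC L (M * ℓ))⁻¹ ∈ V.nonunits) :
    (heckeBetaBar L M ℓ (Fermat.Agent.S24.jBC L M))⁻¹ ∈ V.nonunits := by
  rw [ValuationSubring.inv_mem_nonunits_iff] at hx ⊢
  rcases hx with h0 | h
  · exact absurd h0 (jBC_ne_zero (M * ℓ))
  · exact Or.inr fun hβ => h (jBC_mem_of_beta_mem W M ℓ hℓ V hV hβ)

/-- **`1/β j` at the cusps**: `D(1/j) · (1/β j)` is integral over `W[1/j]` for some `D ∈ W[X]`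
with `D(0) = 1`. -/
theorem exists_den_inv_beta_j (hℓ : ℓ.Prime) :
    ∃ D : (↥W)[X], D.coeff 0 = 1 ∧ (evFinf W (M * ℓ)).IsIntegralElem
      (evFinf W (M * ℓ) D * (heckeBetaBar L M ℓ (Fermat.Agent.S24.jBC L M))⁻¹) :=
  exists_den_of_valuative W (M * ℓ) _ fun V hV hx =>
    (V.valuation_le_one_iff _).mp
      (le_of_lt (V.mem_nonunits_iff.mp (inv_beta_j_mem_nonunits W M ℓ hℓ V hV hx)))

/-- an `L`-algebra map `γ : F_M → F'` sends the cusp chart of level `M` into every valuation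
subring over `W` in which `γ(1/j)` is a non-unit -/
theorem algHom_mem_of_cusp {F' : Type*} [Field F'] [Algebra L F']
    (γ : Fermat.Agent.S24.FF L M →ₐ[L] F') (V : ValuationSubring F')
    (hV : ∀ a : W, algebraMap L F' (a : L) ∈ V)
    (hγ : γ (Fermat.Agent.S24.jBC L M)⁻¹ ∈ V.nonunits) {b : Fermat.Agent.S24.FF L M} {m : ℕ}
    (hb : (evFinf W M).IsIntegralElem ((1 - 1728 * (Fermat.Agent.S24.jBC L M)⁻¹) ^ m * b)) :
    γ b ∈ V := by
  have hφ : ∀ p : (↥W)[X], (γ.toRingHom.comp (evFinf W M)) p ∈ V := by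
    intro p
    induction p using Polynomial.induction_on with
    | C a =>
      rw [RingHom.comp_apply, evFinf_C]
      show γ (algebraMap L _ (a : L)) ∈ V
      rw [AlgHom.commutes]
      exact hV a
    | add p q hp hq =>
      rw [map_add]
      exact V.add_mem _ _ hp hq
    | monomial n a ih =>
      rw [pow_succ, ← mul_assoc, map_mul]
      refine V.mul_mem _ _ ih ?_
      rw [RingHom.comp_apply, evFinf_X]
      exact (V.valuation_le_one_iff _).mp (le_of_lt (V.mem_nonunits_iff.mp hγ))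
  have h1 := mem_of_isIntegralElem V _ hφ
    (BetaInt.isIntegralElem_map_comp (evFinf W M) γ.toRingHom hb)
  have h2 : γ.toRingHom ((1 - 1728 * (Fermat.Agent.S24.jBC L M)⁻¹) ^ m * b) =
      (1 - 1728 * γ (Fermat.Agent.S24.jBC L M)⁻¹) ^ m * γ b := by
    show γ _ = _
    rw [map_mul, map_pow, map_sub, map_one, map_mul, map_ofNat]
  rw [h2] at h1
  have h3 : V.valuation (1728 * γ (Fermat.Agent.S24.jBC L M)⁻¹) < 1 := by
    rw [map_mul]
    have h4 : V.valuation (1728 : F') ≤ 1 := by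
      rw [V.valuation_le_one_iff]
      have : ((1728 : ℕ) : F') ∈ V := natCast_mem V 1728
      exact_mod_cast this
    exact lt_of_le_of_lt (mul_le_of_le_one_left' h4) (V.mem_nonunits_iff.mp hγ)
  have h5 : V.valuation (1 - 1728 * γ (Fermat.Agent.S24.jBC L M)⁻¹) = 1 :=
    Valuation.map_one_sub_of_lt _ h3
  rw [← V.valuation_le_one_iff, map_mul, map_pow, h5, one_pow, one_mul] at h1
  exact (V.valuation_le_one_iff _).mp h1

/-- **`α` maps the cusp chart of level `M` into the local rings at the cusps of level `M ℓ`**: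
`E(1/j) · α b` is integral over `W[1/j]` for some `E ∈ W[X]` with `E(0) = 1`. -/
theorem exists_den_alpha {b : Fermat.Agent.S24.FF L M} {m : ℕ}
    (hb : (evFinf W M).IsIntegralElem ((1 - 1728 * (Fermat.Agent.S24.jBC L M)⁻¹) ^ m * b)) :
    ∃ E : (↥W)[X], E.coeff 0 = 1 ∧ (evFinf W (M * ℓ)).IsIntegralElem
      (evFinf W (M * ℓ) E * heckeAlphaBar L M ℓ b) :=
  exists_den_of_valuative W (M * ℓ) _ fun V hV hx =>
    algHom_mem_of_cusp W M (heckeAlphaBar L M ℓ) V hV
      (by rw [map_inv₀, alpha_jBC]; exact hx) hb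

/-- **`β` maps the cusp chart of level `M` into the local rings at the cusps of level `M ℓ`**:
`E(1/j) · β b` is integral over `W[1/j]` for some `E ∈ W[X]` with `E(0) = 1`. -/
theorem exists_den_beta (hℓ : ℓ.Prime) {b : Fermat.Agent.S24.FF L M} {m : ℕ}
    (hb : (evFinf W M).IsIntegralElem ((1 - 1728 * (Fermat.Agent.S24.jBC L M)⁻¹) ^ m * b)) :
    ∃ E : (↥W)[X], E.coeff 0 = 1 ∧ (evFinf W (M * ℓ)).IsIntegralElem
      (evFinf W (M * ℓ) E * heckeBetaBar L M ℓ b) :=
  exists_den_of_valuative W (M * ℓ) _ fun V hV hx =>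
    algHom_mem_of_cusp W M (heckeBetaBar L M ℓ) V hV
      (by rw [map_inv₀]; exact inv_beta_j_mem_nonunits W M ℓ hℓ V hV hx) hb

end Level

end Fermat.Agent.S34.CuspEq
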