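import Mathlib
import Fermat.Agent.S34.CuspRes
import Fermat.Agent.S34.CuspEq
import Fermat.Agent.S37.Kronecker

/-!
# S34: the separator at the cusps of the chart at infinity of level `M q`, carrier form

`W` a valuation subring of `L` with residue characteristic `q`, `F = S24.FF L (M * q)`, `w` an
automorphism of `F` exchanging `α` and `β`, `x = 1/j`, `y = 1/β j`.  On any carrier `φ : B → F`
of the integral closure of `W[x]` and at any maximal ideal `𝔫` of `B` containing `x`, the elements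

* `t = x ^ q · β j`  (integral over `W[x]`, `CuspEq.isIntegralElem_t`),
* `z = D(x) · y`, `D ∈ W[X]`, `D(0) = 1` (`CuspEq.exists_den_inv_beta_j`), `z ∈ 𝔫`,
* `D = D(x) ∉ 𝔫`

satisfy `r₁ t = 1` and `r₂ (D ^ k · t - z ^ k) = 0`, `k = q² - 1`, for the two residue maps
`r₁ = red ∘ coe`, `r₂ = red ∘ coe ∘ w` (`CuspRes.res`): on the first vertical component
`β j = j ^ q`, on the second one `j = (β j) ^ q`.  These are the separator hypotheses of
`CuspAbs.cusp_smooth`: no maximal ideal containing `x` lies on both vertical components.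

* `red_first`, `red_second`, `red_mul_jInv` : the three reductions, on `q`-expansions.
* `exists_separator` : the statement above.
-/

set_option autoImplicit false
set_option linter.style.haveILetI false
set_option linter.unusedSectionVars false

noncomputable section

namespace Fermat.Agent.S34.CuspSep

open Polynomial ModularCurve Fermat.Agent.S18 Fermat.Agent.S18.Gauss Fermat.Agent.S24

/-- In characteristic `ℓ`, `j̄(q^ℓ) = j̄^ℓ`. -/
theorem qExpand_jqModC (κ : Type*) [Field κ] (ℓ : ℕ) [Fact ℓ.Prime] [CharP κ ℓ] [NeZero ℓ] :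
    qExpand κ ℓ (jqModC κ) = jqModC κ ^ ℓ := by
  rw [Fermat.Agent.S37.Kronecker.pow_char_eq ℓ (jqModC κ), coeffMap_jqModC]

section Red

variable {L : Type*} [Field L] [Algebra ℚ L] (W : ValuationSubring L) (q : ℕ) [NeZero q]
  [Fact q.Prime] [CharP (IsLocalRing.ResidueField ↥W) q]

/-- the reduction of `x ^ q` -/
theorem red_jInv_pow (k : ℕ) (h : (jqModC L)⁻¹ ^ k ∈ contentRing W) :
    red W ⟨(jqModC L)⁻¹ ^ k, h⟩ = (jqModC (IsLocalRing.ResidueField ↥W))⁻¹ ^ k := by
  rw [← red_jInv W, ← map_pow]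
  rfl

/-- **first component**: `t = x ^ q · j(q ^ q)` reduces to `1`. -/
theorem red_first {f : LaurentSeries L} (hf : f ∈ contentRing W)
    (e : f = (jqModC L)⁻¹ ^ q * qExpand L q (jqModC L)) : red W ⟨f, hf⟩ = 1 := by
  have h1 : (jqModC L)⁻¹ ^ q ∈ contentRing W := pow_mem (jInv_mem_contentRing W) q
  rw [CuspRes.red_mul_eq W h1 (jqd_mem_contentRing W q) hf e, red_jqd, qExpand_jqModC,
    red_jInv_pow W q h1, inv_pow, inv_mul_cancel₀]
  exact pow_ne_zero _ (jqModC_ne_zero_of_nontrivial _)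

/-- **second component**: `w t = y ^ q · j`, `y = x(q ^ q)`, reduces to `x̄ ^ (q² - 1)`. -/
theorem red_second {f : LaurentSeries L} (hf : f ∈ contentRing W)
    (e : f = qExpand L q (jqModC L)⁻¹ ^ q * jqModC L) :
    red W ⟨f, hf⟩ = (jqModC (IsLocalRing.ResidueField ↥W))⁻¹ ^ (q * q - 1) := by
  have hJ : jqModC (IsLocalRing.ResidueField ↥W) ≠ 0 := jqModC_ne_zero_of_nontrivial _
  have h0 : qExpand L q (jqModC L)⁻¹ ∈ contentRing W :=
    qExpand_mem_contentRing W q (jInv_mem_contentRing W)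
  have h1 : qExpand L q (jqModC L)⁻¹ ^ q ∈ contentRing W := pow_mem h0 q
  have h2 : red W ⟨qExpand L q (jqModC L)⁻¹ ^ q, h1⟩ =
      (jqModC (IsLocalRing.ResidueField ↥W))⁻¹ ^ (q * q) := by
    have h3 : (⟨qExpand L q (jqModC L)⁻¹ ^ q, h1⟩ : contentRing W) =
        ⟨qExpand L q (jqModC L)⁻¹, h0⟩ ^ q := rfl
    rw [h3, map_pow, red_qExpand W q (jInv_mem_contentRing W), red_jInv, map_inv₀,
      qExpand_jqModC, inv_pow, inv_pow, ← pow_mul]
  rw [CuspRes.red_mul_eq W h1 (jq_mem_contentRing W) hf e, h2, red_jq]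
  have hq : 1 ≤ q * q := Nat.mul_pos (NeZero.pos q) (NeZero.pos q)
  have h4 : q * q = (q * q - 1) + 1 := by omega
  conv_lhs => rw [h4, pow_succ]
  rw [mul_assoc, inv_mul_cancel₀ hJ, mul_one]

/-- a multiple of `x` reduces to the multiple of `x̄` -/
theorem red_mul_jInv {f d : LaurentSeries L} (hf : f ∈ contentRing W) (hd : d ∈ contentRing W)
    (e : f = d * (jqModC L)⁻¹) :
    red W ⟨f, hf⟩ = red W ⟨d, hd⟩ * (jqModC (IsLocalRing.ResidueField ↥W))⁻¹ := by
  rw [CuspRes.red_mul_eq W hd (jInv_mem_contentRing W) hf e, red_jInv]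

end Red

section Level

variable {L : Type*} [Field L] [Algebra ℚ L] (W : ValuationSubring L)
  (M q : ℕ) [NeZero M] [NeZero q] [Fact q.Prime] [CharP (IsLocalRing.ResidueField ↥W) q]
  (w : FF L (M * q) ≃ₐ[L] FF L (M * q))

/-- **The separator at the cusps of level `M q`** (the hypotheses `t z D k hk hD hz ht₁ ht₂` of
`CuspAbs.cusp_smooth`), on any carrier `φ : B → F` of the integral closure of `W[1/j]`, at any
maximal ideal containing `1/j`. -/
theorem exists_separator
    (hwα : (w : FF L (M * q) →ₐ[L] FF L (M * q)).comp (heckeAlphaBar L M q) =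
      heckeBetaBar L M q)
    (hwβ : (w : FF L (M * q) →ₐ[L] FF L (M * q)).comp (heckeBetaBar L M q) =
      heckeAlphaBar L M q)
    {B : Type*} [CommRing B] (φ : B →+* FF L (M * q)) (hinj : Function.Injective φ)
    (hsurj : ∀ x, (evFinf W (M * q)).IsIntegralElem x → ∃ b, φ b = x)
    (hφ₁ : ∀ b, ((φ b : FF L (M * q)) : LaurentSeries L) ∈ contentRing W)
    (hφ₂ : ∀ b, (((((w : FF L (M * q) →ₐ[L] FF L (M * q)) :
      FF L (M * q) →+* FF L (M * q)).comp φ) b : FF L (M * q)) : LaurentSeries L) ∈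
        contentRing W)
    (𝔫 : Ideal B) (h𝔫 : 𝔫.IsMaximal) {tj : B} (htj : φ tj = (jBC L (M * q))⁻¹)
    (htj𝔫 : tj ∈ 𝔫) :
    ∃ (t z D : B) (k : ℕ), k ≠ 0 ∧ D ∉ 𝔫 ∧ z ∈ 𝔫 ∧
      CuspRes.res W (M * q) φ hφ₁ t = 1 ∧
      CuspRes.res W (M * q)
        (((w : FF L (M * q) →ₐ[L] FF L (M * q)) : FF L (M * q) →+* FF L (M * q)).comp φ) hφ₂
        (D ^ k * t - z ^ k) = 0 := by
  have hq : q.Prime := Fact.out
  obtain ⟨Dp, hD0, hzI⟩ := CuspEq.exists_den_inv_beta_j W M q hq
  obtain ⟨t, ht⟩ := hsurj _ (CuspEq.isIntegralElem_t W M q hq)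
  obtain ⟨z, hz⟩ := hsurj _ hzI
  obtain ⟨D, hD⟩ := hsurj (evFinf W (M * q) Dp) (RingHom.isIntegralElem_map _)
  obtain ⟨c, hc⟩ := hsurj (evFinf W (M * q) Dp.divX) (RingHom.isIntegralElem_map _)
  have hαj : heckeAlphaBar L M q (jBC L M) = jBC L (M * q) := CuspEq.alpha_jBC M q
  refine ⟨t, z, D, q * q - 1, ?_, ?_, ?_, ?_, ?_⟩
  · have h2 := hq.two_le
    have h4 : 2 * 2 ≤ q * q := Nat.mul_le_mul h2 h2
    omega
  · intro hD𝔫
    have h1 : D = 1 + tj * c := by
      apply hinj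
      rw [map_add, map_one, map_mul, htj, hc, hD]
      exact CuspEq.evFinf_eq_one_add W (M * q) Dp hD0
    apply h𝔫.ne_top
    rw [Ideal.eq_top_iff_one]
    have h2 : (1 : B) = D - tj * c := by rw [h1]; ring
    rw [h2]
    exact 𝔫.sub_mem hD𝔫 (𝔫.mul_mem_right _ htj𝔫)
  · refine CuspEq.mem_of_valuative φ hinj 𝔫 h𝔫 z fun V hV1 hV2 => ?_
    have hW : ∀ a : W, algebraMap L (FF L (M * q)) (a : L) ∈ V := by
      intro a
      obtain ⟨b, hb⟩ := hsurj (evFinf W (M * q) (C a)) (RingHom.isIntegralElem_map _)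
      rw [evFinf_C] at hb
      rw [← hb]
      exact hV1 b
    have hx : (jBC L (M * q))⁻¹ ∈ V.nonunits := by
      rw [← htj]
      exact hV2 tj htj𝔫
    have hy := CuspEq.inv_beta_j_mem_nonunits W M q hq V hW hx
    rw [hz, ← hD]
    rw [V.mem_nonunits_iff] at hy ⊢
    rw [map_mul]
    exact lt_of_le_of_lt (mul_le_of_le_one_left' ((V.valuation_le_one_iff _).mpr (hV1 D))) hy
  · rw [CuspRes.res_apply W (M * q) φ hφ₁ t (hφ₁ t)]
    refine red_first W q _ ?_
    rw [ht]
    simp only [MulMemClass.coe_mul, SubmonoidClass.coe_pow, IntermediateField.coe_inv,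
      coe_heckeBetaBar, coe_jBC_eq]
  · have hwx : ((w (jBC L (M * q))⁻¹ : FF L (M * q)) : LaurentSeries L) =
        qExpand L q (jqModC L)⁻¹ := CuspRes.coe_w_jInv M q w hwα
    have hDm : ((w (φ D) : FF L (M * q)) : LaurentSeries L) ∈ contentRing W := hφ₂ D
    have htm : ((w (φ t) : FF L (M * q)) : LaurentSeries L) ∈ contentRing W := hφ₂ t
    have hzm : ((w (φ z) : FF L (M * q)) : LaurentSeries L) ∈ contentRing W := hφ₂ z
    have e1 : ((w (φ t) : FF L (M * q)) : LaurentSeries L) =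
        qExpand L q (jqModC L)⁻¹ ^ q * jqModC L := by
      rw [ht, map_mul, map_pow, CuspRes.w_beta hwβ, hαj]
      show ((w (jBC L (M * q))⁻¹ : FF L (M * q)) : LaurentSeries L) ^ q *
        ((jBC L (M * q) : FF L (M * q)) : LaurentSeries L) = _
      rw [hwx, coe_jBC_eq]
    have e2 : ((w (φ z) : FF L (M * q)) : LaurentSeries L) =
        ((w (φ D) : FF L (M * q)) : LaurentSeries L) * (jqModC L)⁻¹ := by
      rw [hz, hD, map_mul, map_inv₀, CuspRes.w_beta hwβ, hαj]
      show ((w (evFinf W (M * q) Dp) : FF L (M * q)) : LaurentSeries L) *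
        ((jBC L (M * q) : FF L (M * q)) : LaurentSeries L)⁻¹ = _
      rw [coe_jBC_eq]
    have r1 := red_second W q htm e1
    have r2 := red_mul_jInv W hzm hDm e2
    have a1 : CuspRes.res W (M * q)
        (((w : FF L (M * q) →ₐ[L] FF L (M * q)) : FF L (M * q) →+* FF L (M * q)).comp φ) hφ₂ t =
          red W ⟨_, htm⟩ := rfl
    have a2 : CuspRes.res W (M * q)
        (((w : FF L (M * q) →ₐ[L] FF L (M * q)) : FF L (M * q) →+* FF L (M * q)).comp φ) hφ₂ z =
          red W ⟨_, hzm⟩ := rfl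
    have a3 : CuspRes.res W (M * q)
        (((w : FF L (M * q) →ₐ[L] FF L (M * q)) : FF L (M * q) →+* FF L (M * q)).comp φ) hφ₂ D =
          red W ⟨_, hDm⟩ := rfl
    rw [map_sub, map_mul, map_pow, map_pow, a1, a2, a3, r1, r2, mul_pow, sub_self]

end Level

end Fermat.Agent.S34.CuspSep
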