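/-
S34 (wave 6, long shot), layer 2: the VERTICAL package of `KLoc.kloc_of_two` in raw currency,
chart-generic (used verbatim for the finite chart and for the cusp chart).

`F = FF L N`, `W ⊆ L` a discrete valuation ring with uniformiser `ϖ`, `w` an `L`-algebra
automorphism of `F` (Atkin–Lehner), `(B, φ : B →+* F)` a chart carrier with
* `hB₁` : every `φ y` has `W`-integral `q`-expansion,
* `hB₂` : every `w (φ y)` has `W`-integral `q`-expansion,
* `hS1` : `red (φ y) = 0` and `red (w (φ y)) = 0` imply `ϖ ∣ y` in `B`.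

Then `P1 = ker (red ∘ φ)`, `P2 = ker (red ∘ w ∘ φ)` are prime ideals of `B` containing `ϖ` with
`P1 ⊓ P2 ≤ (ϖ)`; they are cut out by the sets `M1`, `M2` of the functions with vanishing reduction
at the two Gauss valuations, stable under multiplication by the Gauss-integral functions `O1`, `O2`;
and every double difference `(τ - 1)² x` lies in `O1 ∩ O2` (`DDMem`).

`kloc_raw` : `KLoc.kloc_of_two` with its vertical hypotheses discharged.
-/
import Mathlib
import Fermat.Agent.S34.KLoc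
import Fermat.Agent.S34.DDMem

set_option autoImplicit false

noncomputable section

namespace Fermat.Agent.S34.KLocVert

open ModularCurve AlgebraicCurve Fermat.Agent.S18 Fermat.Agent.S18.Gauss Fermat.Agent.S24
  Fermat.Agent.S34.CoeffAut Fermat.Agent.S37.GaloisValue Fermat.Agent.S37.WChart

variable {L : Type*} [Field L] [Algebra ℚ L] (W : ValuationSubring L) (N : ℕ)

/-! ### The two Gauss valuation rings and their maximal ideals, as sets -/

/-- the functions with `W`-integral `q`-expansion -/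
def O1 : Set (FF L N) := {x | (x : LaurentSeries L) ∈ contentRing W}

/-- the functions with `W`-integral `q`-expansion and vanishing reduction -/
def M1 : Set (FF L N) := {x | ∃ h : (x : LaurentSeries L) ∈ contentRing W, red W ⟨_, h⟩ = 0}

/-- the translate of `O1` by `w` -/
def O2 (w : FF L N → FF L N) : Set (FF L N) := {x | w x ∈ O1 W N}

/-- the translate of `M1` by `w` -/
def M2 (w : FF L N → FF L N) : Set (FF L N) := {x | w x ∈ M1 W N}

theorem mem_O1 {x : FF L N} : x ∈ O1 W N ↔ (x : LaurentSeries L) ∈ contentRing W := Iff.rfl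

theorem mem_M1 {x : FF L N} :
    x ∈ M1 W N ↔ ∃ h : (x : LaurentSeries L) ∈ contentRing W, red W ⟨_, h⟩ = 0 := Iff.rfl

theorem mem_O2 {w : FF L N → FF L N} {x : FF L N} : x ∈ O2 W N w ↔ w x ∈ O1 W N := Iff.rfl

theorem mem_M2 {w : FF L N → FF L N} {x : FF L N} : x ∈ M2 W N w ↔ w x ∈ M1 W N := Iff.rfl

theorem mul_mem_M1 {m o : FF L N} (hm : m ∈ M1 W N) (ho : o ∈ O1 W N) : m * o ∈ M1 W N := by
  obtain ⟨hm1, hm2⟩ := hm
  refine ⟨mul_mem hm1 ho, ?_⟩
  have h1 : (⟨((m * o : FF L N) : LaurentSeries L), mul_mem hm1 ho⟩ : contentRing W) =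
      ⟨(m : LaurentSeries L), hm1⟩ * ⟨(o : LaurentSeries L), ho⟩ := rfl
  rw [h1, map_mul, hm2, zero_mul]

theorem mul_mem_M2 (w : FF L N →+* FF L N) {m o : FF L N} (hm : m ∈ M2 W N w)
    (ho : o ∈ O2 W N w) : m * o ∈ M2 W N w := by
  show w (m * o) ∈ M1 W N
  rw [map_mul]
  exact mul_mem_M1 W N hm ho

/-! ### The two vertical primes of a chart -/

section Chart

variable {B : Type*} [CommRing B] (φ : B →+* FF L N)

/-- the reduction of the chart functions at the first Gauss valuation -/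
def rho1 (hB₁ : ∀ y : B, ((φ y : FF L N) : LaurentSeries L) ∈ contentRing W) :
    B →+* LaurentSeries (IsLocalRing.ResidueField W) :=
  (red W).comp (((algebraMap (FF L N) (LaurentSeries L)).comp φ).codRestrict (contentRing W) hB₁)

theorem rho1_apply (hB₁ : ∀ y : B, ((φ y : FF L N) : LaurentSeries L) ∈ contentRing W) (y : B) :
    rho1 W N φ hB₁ y = red W ⟨_, hB₁ y⟩ := rfl

/-- the first vertical prime of the chart -/
def P1 (hB₁ : ∀ y : B, ((φ y : FF L N) : LaurentSeries L) ∈ contentRing W) : Ideal B :=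
  RingHom.ker (rho1 W N φ hB₁)

instance P1_isPrime (hB₁ : ∀ y : B, ((φ y : FF L N) : LaurentSeries L) ∈ contentRing W) :
    (P1 W N φ hB₁).IsPrime :=
  RingHom.ker_isPrime _

theorem mem_P1 (hB₁ : ∀ y : B, ((φ y : FF L N) : LaurentSeries L) ∈ contentRing W) (y : B) :
    y ∈ P1 W N φ hB₁ ↔ red W ⟨_, hB₁ y⟩ = 0 := Iff.rfl

theorem mem_M1_iff (hB₁ : ∀ y : B, ((φ y : FF L N) : LaurentSeries L) ∈ contentRing W) (y : B) :
    φ y ∈ M1 W N ↔ y ∈ P1 W N φ hB₁ := by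
  rw [mem_P1, mem_M1]
  exact ⟨fun ⟨_, h⟩ => h, fun h => ⟨hB₁ y, h⟩⟩

variable (w : FF L N ≃ₐ[L] FF L N)

/-- the second vertical prime of the chart: the first one for the chart map `w ∘ φ` -/
def P2 (hB₂ : ∀ y : B, ((w (φ y) : FF L N) : LaurentSeries L) ∈ contentRing W) : Ideal B :=
  P1 W N (((w : FF L N ≃+* FF L N) : FF L N →+* FF L N).comp φ) hB₂

instance P2_isPrime (hB₂ : ∀ y : B, ((w (φ y) : FF L N) : LaurentSeries L) ∈ contentRing W) :
    (P2 W N φ w hB₂).IsPrime :=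
  RingHom.ker_isPrime _

theorem mem_P2 (hB₂ : ∀ y : B, ((w (φ y) : FF L N) : LaurentSeries L) ∈ contentRing W) (y : B) :
    y ∈ P2 W N φ w hB₂ ↔ red W ⟨_, hB₂ y⟩ = 0 := Iff.rfl

theorem mem_M2_iff (hB₂ : ∀ y : B, ((w (φ y) : FF L N) : LaurentSeries L) ∈ contentRing W)
    (y : B) : φ y ∈ M2 W N w ↔ y ∈ P2 W N φ w hB₂ := by
  rw [mem_P2, mem_M2, mem_M1]
  exact ⟨fun ⟨_, h⟩ => h, fun h => ⟨hB₂ y, h⟩⟩

variable [IsDiscreteValuationRing W] [Algebra W B]

theorem coe_const (c : L) :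
    ((algebraMap L (FF L N) c : FF L N) : LaurentSeries L) = HahnSeries.C c := by
  show algebraMap L (LaurentSeries L) c = HahnSeries.C c
  rw [algebraMap_laurentSeries_eq_single]
  rfl

theorem unif_mem_P1 {ϖ : W} (hϖ : Irreducible ϖ)
    (hφW : ∀ c : W, φ (algebraMap W B c) = algebraMap L (FF L N) (c : L))
    (hB₁ : ∀ y : B, ((φ y : FF L N) : LaurentSeries L) ∈ contentRing W) :
    algebraMap W B ϖ ∈ P1 W N φ hB₁ := by
  rw [mem_P1]
  have h2 : ((φ (algebraMap W B ϖ) : FF L N) : LaurentSeries L) =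
      HahnSeries.C ((ϖ : W) : L) := by rw [hφW, coe_const]
  have h1 : (⟨((φ (algebraMap W B ϖ) : FF L N) : LaurentSeries L), hB₁ _⟩ : contentRing W) =
      ⟨HahnSeries.C ((ϖ : W) : L), C_mem_contentRing W ϖ⟩ := Subtype.ext h2
  rw [h1]
  exact red_C_unif W hϖ

theorem unif_mem_P2 {ϖ : W} (hϖ : Irreducible ϖ)
    (hφW : ∀ c : W, φ (algebraMap W B c) = algebraMap L (FF L N) (c : L))
    (hB₂ : ∀ y : B, ((w (φ y) : FF L N) : LaurentSeries L) ∈ contentRing W) :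
    algebraMap W B ϖ ∈ P2 W N φ w hB₂ := by
  rw [mem_P2]
  have h2 : ((w (φ (algebraMap W B ϖ)) : FF L N) : LaurentSeries L) =
      HahnSeries.C ((ϖ : W) : L) := by rw [hφW, w.commutes, coe_const]
  have h1 : (⟨((w (φ (algebraMap W B ϖ)) : FF L N) : LaurentSeries L), hB₂ _⟩ :
      contentRing W) = ⟨HahnSeries.C ((ϖ : W) : L), C_mem_contentRing W ϖ⟩ := Subtype.ext h2
  rw [h1]
  exact red_C_unif W hϖ

omit [IsDiscreteValuationRing ↥W] in
/-- `(S1)`: the intersection of the two vertical primes is generated by the uniformiser -/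
theorem inf_le_span (ϖ : W)
    (hB₁ : ∀ y : B, ((φ y : FF L N) : LaurentSeries L) ∈ contentRing W)
    (hB₂ : ∀ y : B, ((w (φ y) : FF L N) : LaurentSeries L) ∈ contentRing W)
    (hS1 : ∀ y : B, red W ⟨_, hB₁ y⟩ = 0 → red W ⟨_, hB₂ y⟩ = 0 →
      ∃ y' : B, y = algebraMap W B ϖ * y') :
    P1 W N φ hB₁ ⊓ P2 W N φ w hB₂ ≤ Ideal.span {algebraMap W B ϖ} := by
  rintro y ⟨h1, h2⟩
  obtain ⟨y', rfl⟩ := hS1 y ((mem_P1 W N φ hB₁ y).mp h1) ((mem_P2 W N φ w hB₂ y).mp h2)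
  exact Ideal.mul_mem_right _ _ (Ideal.subset_span rfl)

end Chart

/-! ### A discrete valuation ring: the two standing hypotheses on the uniformiser -/

section DVR

variable {W' : Type*} [CommRing W'] [IsDomain W'] [IsDiscreteValuationRing W']

theorem isUnit_or_dvd {ϖ : W'} (hϖ : Irreducible ϖ) (a : W') : IsUnit a ∨ ϖ ∣ a := by
  by_cases h : IsUnit a
  · exact Or.inl h
  · right
    have h1 : a ∈ IsLocalRing.maximalIdeal W' := h
    rw [hϖ.maximalIdeal_eq, Ideal.mem_span_singleton] at h1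
    exact h1

theorem exists_not_pow_dvd {ϖ : W'} (hϖ : Irreducible ϖ) (a : W') (ha : a ≠ 0) :
    ∃ n : ℕ, ¬ ϖ ^ n ∣ a := by
  obtain ⟨n, u, rfl⟩ := IsDiscreteValuationRing.eq_unit_mul_pow_irreducible ha hϖ
  refine ⟨n + 1, ?_⟩
  rintro ⟨c, hc⟩
  apply hϖ.not_isUnit
  have h1 : ϖ ^ n * (ϖ * c) = ϖ ^ n * (u : W') := by
    rw [← mul_assoc, ← pow_succ, ← hc, mul_comm]
  have h2 : ϖ * c = (u : W') := mul_left_cancel₀ (pow_ne_zero n hϖ.ne_zero) h1
  exact isUnit_of_mul_isUnit_left (h2 ▸ u.isUnit)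

end DVR

/-! ### `kloc_of_two` with the vertical hypotheses discharged -/

section Main

variable [IsDiscreteValuationRing W]
  {K F : Type*} [Field K] [Field F] [Algebra K F]
  (A : ValuationSubring K) (ι : L →+* K) (bcF : FF L N →+* F)
  {B : Type*} [CommRing B] [IsDomain B] [IsNoetherianRing B] [IsIntegrallyClosed B]
  [Algebra W B] (φ : B →+* FF L N)

/-- **(K-LOC) at one point of a chart, raw currency.**  `KLoc.kloc_of_two` for the level function
field `FF L N`, the coefficient action `act N s` of an automorphism `s` of `L` trivial modulo `ϖ`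
on `W`, with the vertical regularity coming from the two Gauss valuations (`hB₁`, `hB₂`, `hS1`,
`DDMem`). -/
theorem kloc_raw
    (hWA : ∀ x : L, x ∈ W ↔ ι x ∈ A)
    (hφ : Function.Injective φ)
    (hφW : ∀ c : W, φ (algebraMap W B c) = algebraMap L (FF L N) (c : L))
    (hbcW : ∀ c : L, bcF (algebraMap L (FF L N) c) = algebraMap K F (ι c))
    (hfrac : ∀ x : FF L N, ∃ y₁ y₂ : B, y₂ ≠ 0 ∧ x * φ y₂ = φ y₁)
    (ϖ : W) (hϖ : Irreducible ϖ)
    (hext : ∀ 𝔮 : Ideal B, 𝔮.IsPrime → 𝔮 ≠ ⊥ → algebraMap W B ϖ ∉ 𝔮 →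
      ∃ P : Place K F, ∀ y : B, bcF (φ y) ∈ P.toValuationSubring ∧
        (y ∈ 𝔮 ↔ IsValueAt P (bcF (φ y)) 0))
    (g : SemilinearAut K F) (s : L ≃+* L)
    (hsW : ∀ c : L, c ∈ W ↔ s c ∈ W)
    (hsI : ∀ c : L, c ∈ W → ∃ d : L, d ∈ W ∧ s c = c + (ϖ : L) * d)
    (hτ : ∀ x : FF L N, bcF (act N s x) = g • bcF x)
    (τB : B ≃+* B) (hτB : ∀ y : B, φ (τB y) = act N s (φ y))
    (𝔫 : Ideal B) [h𝔫max : 𝔫.IsMaximal] (hϖ𝔫 : algebraMap W B ϖ ∈ 𝔫)
    (hτ𝔫 : ∀ y : B, τB y ∈ 𝔫 ↔ y ∈ 𝔫)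
    (hstruct : (∃ u : Localization.AtPrime 𝔫,
        IsLocalRing.maximalIdeal (Localization.AtPrime 𝔫) =
          Ideal.span {algebraMap W (Localization.AtPrime 𝔫) ϖ, u}) ∨
      ∃ X Y : Localization.AtPrime 𝔫,
        IsLocalRing.maximalIdeal (Localization.AtPrime 𝔫) =
          Ideal.span {algebraMap W (Localization.AtPrime 𝔫) ϖ, X, Y} ∧
        algebraMap W (Localization.AtPrime 𝔫) ϖ ∣ X * Y)
    (D : Divisor K F)
    (hrat : ∀ P : Place K F, D P ≠ 0 → RatAt ι bcF P)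
    (hratg : ∀ P : Place K F, RatAt ι bcF P → RatAt ι bcF (g • P))
    (p n : ℕ) (f : FF L N) (hf0 : f ≠ 0)
    (hf : ∀ P : Place K F, P.ord (bcF f) = (p : ℤ) ^ n * D P)
    (w : FF L N ≃ₐ[L] FF L N) (hw : ∀ x : FF L N, act N s (w x) = w (act N s x))
    (hB₁ : ∀ y : B, ((φ y : FF L N) : LaurentSeries L) ∈ contentRing W)
    (hB₂ : ∀ y : B, ((w (φ y) : FF L N) : LaurentSeries L) ∈ contentRing W)
    (hS1 : ∀ y : B, red W ⟨_, hB₁ y⟩ = 0 → red W ⟨_, hB₂ y⟩ = 0 →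
      ∃ y' : B, y = algebraMap W B ϖ * y') :
    ∃ h : FF L N, h ≠ 0 ∧ ∃ d : B, d ∉ 𝔫 ∧ ∃ t : B,
      φ t = φ d * DDGauss.dd N s (f / h ^ (p ^ n)) :=
  KLoc.kloc_of_two A ι W bcF φ hWA hφ (fun c => by rw [hφW, hbcW]) hfrac ϖ hϖ.ne_zero
    (isUnit_or_dvd hϖ) (exists_not_pow_dvd hϖ) hext g (act N s) hτ τB hτB 𝔫 hϖ𝔫 hτ𝔫 hstruct D
    hrat hratg p n f hf0 hf
    (P1 W N φ hB₁) (P2 W N φ w hB₂)
    (unif_mem_P1 W N φ hϖ hφW hB₁) (unif_mem_P2 W N φ w hϖ hφW hB₂)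
    (inf_le_span W N φ w ϖ hB₁ hB₂ hS1)
    (O1 W N) (M1 W N) (O2 W N w) (M2 W N w)
    (fun m hm o ho => mul_mem_M1 W N hm ho) (mem_M1_iff W N φ hB₁)
    (fun m hm o ho => mul_mem_M2 W N ((w : FF L N ≃+* FF L N) : FF L N →+* FF L N) hm ho)
    (mem_M2_iff W N φ w hB₂)
    (fun x hx => DDMem.coe_dd_mem W ϖ hϖ N s hsW hsI hx)
    (fun x hx => DDMem.coe_map_dd_mem W ϖ hϖ N s hsW hsI w hw hx)

end Main

end Fermat.Agent.S34.KLocVert
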