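/-
S34 (wave 6), layer 2, (K-LOC₂): the local datum at a closed point of the special fibre of the
chart `W[1/j]` of level `M q`, at a level `(L, ι)`.

`B` is ANY carrier of the integral closure of `W[1/j]` in `F = FF L (M q)` (`W = A.comap ι`):
`[Algebra W[X] F] (halg : algebraMap W[X] F = evFinf W (M q))`, `[IsIntegralClosure B W[X] F]`.

* `isFractionRing_inf`, `isNoetherianRing_inf`, `isDomain_inf`, `isIntegrallyClosed_inf`,
  `frac_inf` : the ring-theoretic properties of such a carrier (any level `N`);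
* `kloc_inf_of_struct` : `KLocVert.kloc_raw` on the carrier at a maximal ideal `𝔪 ∋ ϖ`, for the
  restriction `s` of an inertia element `τ`, with every input discharged except the structure of
  the local ring `B_𝔪` (smooth point or node: (DICH));
* `kloc_cusp_of_dich` : the same from the smooth structure `𝔪 B_𝔪 = (ϖ, u)` (the cusps: (DICH₂)).

The conclusion is the (K-LOC) hypothesis of `GLoc.locContract₂_of_closure` verbatim.
-/
import Mathlib
import Fermat.Agent.S34.KLocVert
import Fermat.Agent.S34.ChartAct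
import Fermat.Agent.S34.CuspRes
import Fermat.Agent.S34.FinDich
import Fermat.Agent.S34.GRat
import Fermat.Agent.S34.FrobAct
import Fermat.Agent.S34.FrobPartner
import Fermat.Agent.S37.ExtPlace
import Fermat.Agent.S37.ChartFrac
import Fermat.Agent.S34.GLoc

set_option autoImplicit false
set_option linter.unusedSectionVars false
set_option linter.style.haveILetI false

noncomputable section

namespace Fermat.Agent.S34.KLocCusp

open Polynomial ModularCurve AlgebraicCurve Fermat.Agent.S18 Fermat.Agent.S18.Gauss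
  Fermat.Agent.S24 Fermat.Agent.S34.CoeffAut Fermat.Agent.S34.GDescent Fermat.Agent.S37

local notation "Qb" => AlgebraicClosure ℚ

/-! ### The carriers of the chart `W[1/j]` -/

section Carrier

variable {L : Type*} [Field L] [Algebra ℚ L] (W : ValuationSubring L)
  [IsDiscreteValuationRing W] (N : ℕ) [NeZero N]
  [Algebra (↥W)[X] (FF L N)] (halg : algebraMap (↥W)[X] (FF L N) = evFinf W N)
  (B : Type*) [CommRing B] [Algebra (↥W)[X] B] [Algebra B (FF L N)]
  [IsScalarTower (↥W)[X] B (FF L N)] [IsIntegralClosure B (↥W)[X] (FF L N)]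

include halg

/-- The elements of `L(j)` are quotients of polynomials in `1/j` with coefficients in `W`. -/
theorem exists_div_inf (s : FF L N)
    (hs : s ∈ (IntermediateField.adjoin L {jBC L N}).toSubfield) :
    ∃ a b : (↥W)[X], algebraMap (↥W)[X] (FF L N) b ≠ 0 ∧
      s = algebraMap (↥W)[X] (FF L N) a / algebraMap (↥W)[X] (FF L N) b := by
  have hs' : s ∈ IntermediateField.adjoin L {(jBC L N)⁻¹} := by
    have hle : IntermediateField.adjoin L {jBC L N} ≤
        IntermediateField.adjoin L {(jBC L N)⁻¹} := by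
      rw [IntermediateField.adjoin_le_iff, Set.singleton_subset_iff]
      have h1 := inv_mem (IntermediateField.mem_adjoin_simple_self L (jBC L N)⁻¹)
      rwa [inv_inv] at h1
    exact hle hs
  obtain ⟨a, b, hb, e⟩ := GaussNoeth.exists_div_of_mem_adjoin (W := ↥W) (jBC L N)⁻¹ s hs'
  refine ⟨a, b, ?_, ?_⟩
  · rw [halg, GaussNoeth.evFinf_eq_aeval]
    exact hb
  · rw [halg, GaussNoeth.evFinf_eq_aeval, GaussNoeth.evFinf_eq_aeval]
    exact e

/-- A carrier of the chart `W[1/j]` has fraction field `FF L N`. -/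
theorem isFractionRing_inf : IsFractionRing B (FF L N) := by
  haveI h := (Gauss.finrank_FF_le L N).1
  haveI hfin : Module.Finite (IntermediateField.adjoin L {jBC L N}).toSubfield (FF L N) := h
  exact ChartFrac.closure_isFractionRing (by rw [halg]; exact GaussNoeth.evFinf_injective' W N)
    (IntermediateField.adjoin L {jBC L N}).toSubfield (exists_div_inf W N halg) B

/-- A carrier of the chart `W[1/j]` is a noetherian ring. -/
theorem isNoetherianRing_inf : IsNoetherianRing B := by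
  haveI : CharZero L := algebraRat.charZero L
  haveI : CharZero (FF L N) :=
    charZero_of_injective_algebraMap (algebraMap L (FF L N)).injective
  haveI h := (Gauss.finrank_FF_le L N).1
  haveI hfin : Module.Finite (IntermediateField.adjoin L {jBC L N}).toSubfield (FF L N) := h
  exact (GaussNoeth.closure_noeth (by rw [halg]; exact GaussNoeth.evFinf_injective' W N)
    (IntermediateField.adjoin L {jBC L N}).toSubfield (exists_div_inf W N halg) B).1

omit halg in
include W N in
/-- A carrier is a domain. -/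
theorem isDomain_inf : IsDomain B :=
  (IsIntegralClosure.algebraMap_injective B (↥W)[X] (FF L N)).isDomain _

/-- A carrier of the chart `W[1/j]` is integrally closed. -/
theorem isIntegrallyClosed_inf : IsIntegrallyClosed B := by
  haveI := isFractionRing_inf W N halg B
  haveI : IsDomain B := isDomain_inf W N B
  refine (isIntegrallyClosed_iff (FF L N)).mpr fun {x} hx => ?_
  haveI : Algebra.IsIntegral (↥W)[X] B :=
    IsIntegralClosure.isIntegral_algebra (↥W)[X] (FF L N)
  have h1 : IsIntegral (↥W)[X] x :=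
    isIntegral_trans (A := B) x hx
  exact IsIntegralClosure.isIntegral_iff.mp h1

/-- Every element of `FF L N` is a quotient of two elements of the carrier. -/
theorem frac_inf (g : FF L N) :
    ∃ y₁ y₂ : B, y₂ ≠ 0 ∧ g * algebraMap B (FF L N) y₂ = algebraMap B (FF L N) y₁ := by
  haveI := isFractionRing_inf W N halg B
  haveI : IsDomain B := isDomain_inf W N B
  obtain ⟨⟨y₁, y₂⟩, h⟩ := IsLocalization.surj (nonZeroDivisors B) g
  exact ⟨y₁, y₂, nonZeroDivisors.ne_zero y₂.2, h⟩

end Carrier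

/-! ### (K-LOC) at a closed point of the special fibre of the chart `W[1/j]` -/

section Main

variable (A : ValuationSubring Qb) {L : Type} [Field L] [Algebra ℚ L] (ι : L →+* Qb)
  (M q : ℕ) [NeZero M] [NeZero q]

set_option maxHeartbeats 1600000 in
/-- **(K-LOC) on the chart `W[1/j]` of level `M q`, from the structure of the local ring.**
`(L, ι)` a level, `W = A.comap ι`, `s` the restriction of an inertia element `τ`, `B` a carrier
of the integral closure of `W[1/j]`, `𝔪 ∋ ϖ` a maximal ideal of `B` at which `B_𝔪` is a smooth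
point (`𝔪 B_𝔪 = (ϖ, u)`) or a node (`𝔪 B_𝔪 = (ϖ, X, Y)`, `ϖ ∣ X Y`).  If `div f = p ^ n • D` with
`D` supported at `L`-rational places, then `(τ - 1)² (f / h ^ (p ^ n))` is regular at `𝔪` for
some `h ≠ 0`. -/
theorem kloc_inf_of_struct (hq : q.Prime) (hqM : ¬ q ∣ M) (S : Finset Qb)
    (hlev : LevelChange.IsLevel A q S ι)
    {τ : Qb ≃ₐ[ℚ] Qb} (hτ : τ ∈ A.inertiaSubgroupIn ℚ)
    (s : L ≃+* L) (hs : ∀ c : L, ι (s c) = τ (ι c))
    (ϖ : ↥(A.comap ι)) (hϖ : Irreducible ϖ)
    [Algebra (↥(A.comap ι))[X] (FF L (M * q))]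
    (halg : algebraMap (↥(A.comap ι))[X] (FF L (M * q)) = evFinf (A.comap ι) (M * q))
    (B : Type*) [CommRing B] [Algebra (↥(A.comap ι))[X] B] [Algebra B (FF L (M * q))]
    [IsScalarTower (↥(A.comap ι))[X] B (FF L (M * q))]
    [IsIntegralClosure B (↥(A.comap ι))[X] (FF L (M * q))]
    (𝔪 : Ideal B) [𝔪.IsMaximal] (hϖ𝔪 : algebraMap (↥(A.comap ι))[X] B (C ϖ) ∈ 𝔪)
    (hstruct : (∃ u : Localization.AtPrime 𝔪,
        IsLocalRing.maximalIdeal (Localization.AtPrime 𝔪) =
          Ideal.span {algebraMap B (Localization.AtPrime 𝔪)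
            (algebraMap (↥(A.comap ι))[X] B (C ϖ)), u}) ∨
      ∃ X' Y' : Localization.AtPrime 𝔪,
        IsLocalRing.maximalIdeal (Localization.AtPrime 𝔪) =
          Ideal.span {algebraMap B (Localization.AtPrime 𝔪)
            (algebraMap (↥(A.comap ι))[X] B (C ϖ)), X', Y'} ∧
        algebraMap B (Localization.AtPrime 𝔪)
          (algebraMap (↥(A.comap ι))[X] B (C ϖ)) ∣ X' * Y')
    (p n : ℕ) (D : Divisor Qb (modularFunctionFieldBar (M * q)))
    (fL : FF L (M * q)) (hfL0 : fL ≠ 0)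
    (hf : ∀ P : Place Qb (modularFunctionFieldBar (M * q)),
      P.ord (S24.CoeffBC.bc ι (modularFunctionFieldFull (M * q)) fL) = (p : ℤ) ^ n * D P)
    (hrat : ∀ P : Place Qb (modularFunctionFieldBar (M * q)), D P ≠ 0 →
      RatAtLevel (M * q) ι P) :
    ∃ h : FF L (M * q), h ≠ 0 ∧ ∃ d : B, d ∉ 𝔪 ∧ ∃ t : B,
      algebraMap B (FF L (M * q)) t =
        algebraMap B (FF L (M * q)) d * DDGauss.dd (M * q) s (fL / h ^ (p ^ n)) := by
  classical
  obtain ⟨-, hroots, hdvr, halgc, -, hchar, -, -⟩ := hlev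
  haveI := hdvr
  haveI := halgc
  haveI := hchar
  haveI : Fact q.Prime := ⟨hq⟩
  obtain ⟨w, hwα, hwβ⟩ := FrobPartner.exists_atkinLehner_level ι M q hq hqM
  letI : Algebra ↥(A.comap ι) B := ((algebraMap (↥(A.comap ι))[X] B).comp C).toAlgebra
  haveI : IsDomain B := isDomain_inf (A.comap ι) (M * q) B
  haveI : IsNoetherianRing B := isNoetherianRing_inf (A.comap ι) (M * q) halg B
  haveI : IsIntegrallyClosed B := isIntegrallyClosed_inf (A.comap ι) (M * q) halg B
  have hinj : Function.Injective (algebraMap B (FF L (M * q))) :=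
    IsIntegralClosure.algebraMap_injective B (↥(A.comap ι))[X] (FF L (M * q))
  have hsW : ∀ c : L, c ∈ A.comap ι ↔ (s : L →+* L) c ∈ A.comap ι :=
    ChartAct.hW_of_mem_inertia A ι s hs hτ
  have hint : ∀ y : B, (evFinf (A.comap ι) (M * q)).IsIntegralElem
      (algebraMap B (FF L (M * q)) y) := fun y =>
    (ChartAct.exists_algebraMap_eq_iff_inf (A.comap ι) (M * q) halg B _).mp ⟨y, rfl⟩
  have hB₁ : ∀ y : B, ((algebraMap B (FF L (M * q)) y : FF L (M * q)) : LaurentSeries L) ∈
      contentRing (A.comap ι) := fun y =>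
    CuspRes.mem_contentRing_of_int_inf (A.comap ι) (M * q) (hint y)
  have hB₂ : ∀ y : B, ((w (algebraMap B (FF L (M * q)) y) : FF L (M * q)) : LaurentSeries L) ∈
      contentRing (A.comap ι) := fun y =>
    CuspRes.mem_contentRing_w_of_int_inf (A.comap ι) M q w hwα (hint y)
  have hφW : ∀ c : ↥(A.comap ι), algebraMap B (FF L (M * q)) (algebraMap ↥(A.comap ι) B c) =
      algebraMap L (FF L (M * q)) (c : L) := by
    intro c
    show algebraMap B (FF L (M * q)) (algebraMap (↥(A.comap ι))[X] B (C c)) = _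
    rw [← IsScalarTower.algebraMap_apply, halg, evFinf_C]
  have hact : ∀ x : FF L (M * q), act (M * q) s (w x) = w (act (M * q) s x) :=
    fun x => act_atkinLehner M q hq s w hwα hwβ x
  have hS1 : ∀ x : FF L (M * q), (evFinf (A.comap ι) (M * q)).IsIntegralElem x →
      ∀ (h1 : (x : LaurentSeries L) ∈ contentRing (A.comap ι))
        (h2 : ((w x : FF L (M * q)) : LaurentSeries L) ∈ contentRing (A.comap ι)),
        red (A.comap ι) ⟨_, h1⟩ = 0 → red (A.comap ι) ⟨_, h2⟩ = 0 →
        ∃ y : FF L (M * q), (evFinf (A.comap ι) (M * q)).IsIntegralElem y ∧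
          x = algebraMap L (FF L (M * q)) ((ϖ : ↥(A.comap ι)) : L) * y := by
    intro x hx h1 h2 hr1 hr2
    obtain ⟨y, hy, -, -, hxy⟩ :=
      FinDich.s1_inf_level ι (A.comap ι) M q hqM hϖ w hwα hwβ x hx h1 h2 hr1 hr2
    exact ⟨y, hy, hxy⟩
  refine KLocVert.kloc_raw (A.comap ι) (M * q) A ι
    (S24.CoeffBC.bc ι (modularFunctionFieldFull (M * q))) (algebraMap B (FF L (M * q)))
    (fun x => Iff.rfl) hinj hφW (fun c => S24.CoeffBC.bc_algebraMap ι _ c)
    (frac_inf (A.comap ι) (M * q) halg B) ϖ hϖ ?_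
    (arithmeticGalois (modularFunctionFieldFull (M * q)) τ) s hsW
    (fun c hc => FrobAct.exists_eq_add_mul_of_mem_inertia A ι s hs hτ hϖ c hc)
    (fun x => GRat.bc_bc_eq_smul (M * q) ι τ (s : L →+* L) hs x)
    (ChartAct.actInf (A.comap ι) (M * q) s hsW halg B)
    (ChartAct.algebraMap_actInf (A.comap ι) (M * q) s hsW halg B)
    𝔪 hϖ𝔪 ?_ ?_ D hrat (fun P hP => GRat.ratAtLevel_smul (M * q) ι τ s hs hP) p n fL hfL0 hf
    w hact hB₁ hB₂ ?_
  · -- (EXT)
    intro 𝔮 h𝔮 h0 hϖ𝔮
    haveI := h𝔮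
    refine ExtPlace.exists_place_of_prime_chart (M * q) ι (A.comap ι) hϖ
      (algebraMap B (FF L (M * q))) hinj (fun c => ⟨algebraMap ↥(A.comap ι) B c, hφW c⟩) 𝔮 h0 ?_
    intro b hb hb𝔮
    have hb' : b = algebraMap ↥(A.comap ι) B ϖ := hinj (by rw [hb, hφW])
    exact hϖ𝔮 (hb' ▸ hb𝔮)
  · -- the inertia element preserves `𝔪`
    intro y
    exact ChartAct.mem_iff_of_pred A ι s hs (M * q) hτ w (fun x y => map_sub w x y) hact
      (algebraMap B (FF L (M * q))) hinj
      (fun x => (evFinf (A.comap ι) (M * q)).IsIntegralElem x)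
      (ChartAct.exists_algebraMap_eq_iff_inf (A.comap ι) (M * q) halg B)
      (ChartAct.actInf (A.comap ι) (M * q) s hsW halg B)
      (ChartAct.algebraMap_actInf (A.comap ι) (M * q) s hsW halg B)
      (fun x hx => CuspRes.mem_contentRing_of_int_inf (A.comap ι) (M * q) hx)
      (fun x hx => CuspRes.mem_contentRing_w_of_int_inf (A.comap ι) M q w hwα hx)
      (algebraMap ↥(A.comap ι) B ϖ) ((ϖ : ↥(A.comap ι)) : L) (hφW ϖ) hS1 𝔪 hϖ𝔪 y
  · -- (DICH)
    have e : algebraMap ↥(A.comap ι) (Localization.AtPrime 𝔪) ϖ =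
        algebraMap B (Localization.AtPrime 𝔪) (algebraMap (↥(A.comap ι))[X] B (C ϖ)) :=
      IsScalarTower.algebraMap_apply ↥(A.comap ι) B (Localization.AtPrime 𝔪) ϖ
    rw [e]
    exact hstruct
  · -- (S1)
    intro y hr1 hr2
    obtain ⟨y0, hy0, hxy⟩ := hS1 _ (hint y) (hB₁ y) (hB₂ y) hr1 hr2
    obtain ⟨y', rfl⟩ :=
      (ChartAct.exists_algebraMap_eq_iff_inf (A.comap ι) (M * q) halg B y0).mpr hy0
    exact ⟨y', hinj (by rw [hxy, map_mul, hφW])⟩

/-- **(K-LOC₂)**: `kloc_inf_of_struct` at a smooth point of the chart `W[1/j]` — the shape of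
(DICH₂) at the cusps (`𝔪 ∋ ϖ, 1/j`): `𝔪 B_𝔪 = (ϖ, u)`. -/
theorem kloc_cusp_of_dich (hq : q.Prime) (hqM : ¬ q ∣ M) (S : Finset Qb)
    (hlev : LevelChange.IsLevel A q S ι)
    {τ : Qb ≃ₐ[ℚ] Qb} (hτ : τ ∈ A.inertiaSubgroupIn ℚ)
    (s : L ≃+* L) (hs : ∀ c : L, ι (s c) = τ (ι c))
    (ϖ : ↥(A.comap ι)) (hϖ : Irreducible ϖ)
    [Algebra (↥(A.comap ι))[X] (FF L (M * q))]
    (halg : algebraMap (↥(A.comap ι))[X] (FF L (M * q)) = evFinf (A.comap ι) (M * q))
    (B : Type*) [CommRing B] [Algebra (↥(A.comap ι))[X] B] [Algebra B (FF L (M * q))]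
    [IsScalarTower (↥(A.comap ι))[X] B (FF L (M * q))]
    [IsIntegralClosure B (↥(A.comap ι))[X] (FF L (M * q))]
    (𝔪 : Ideal B) [𝔪.IsMaximal] (hϖ𝔪 : algebraMap (↥(A.comap ι))[X] B (C ϖ) ∈ 𝔪)
    (hdich : ∃ u : Localization.AtPrime 𝔪,
        IsLocalRing.maximalIdeal (Localization.AtPrime 𝔪) =
          Ideal.span {algebraMap B (Localization.AtPrime 𝔪)
            (algebraMap (↥(A.comap ι))[X] B (C ϖ)), u})
    (p n : ℕ) (D : Divisor Qb (modularFunctionFieldBar (M * q)))
    (fL : FF L (M * q)) (hfL0 : fL ≠ 0)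
    (hf : ∀ P : Place Qb (modularFunctionFieldBar (M * q)),
      P.ord (S24.CoeffBC.bc ι (modularFunctionFieldFull (M * q)) fL) = (p : ℤ) ^ n * D P)
    (hrat : ∀ P : Place Qb (modularFunctionFieldBar (M * q)), D P ≠ 0 →
      RatAtLevel (M * q) ι P) :
    ∃ h : FF L (M * q), h ≠ 0 ∧ ∃ d : B, d ∉ 𝔪 ∧ ∃ t : B,
      algebraMap B (FF L (M * q)) t =
        algebraMap B (FF L (M * q)) d * DDGauss.dd (M * q) s (fL / h ^ (p ^ n)) :=
  kloc_inf_of_struct A ι M q hq hqM S hlev hτ s hs ϖ hϖ halg B 𝔪 hϖ𝔪 (Or.inl hdich) p n D fL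
    hfL0 hf hrat

end Main

/-! ### The contract `GAsm.LocContract₂` from (DICH₂) -/

section Contract

variable (M q p : ℕ) [NeZero M] [NeZero q]

set_option maxHeartbeats 1600000 in
/-- **`GAsm.LocContract₂` from (DICH₂)**: if at every level `(L, ι)` (large, Galois-stable) the
local ring of every carrier `B` of the chart `W[1/j]` of level `M q` at every maximal ideal
`𝔪 ∋ ϖ, 1/j` is a smooth point (`𝔪 B_𝔪 = (ϖ, u)`), then the cusp contract of `GAsm` holds for
every inertia element `τ`. -/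
theorem locContract₂_of_dich (hq : q.Prime) (hqM : ¬ q ∣ M) (A : ValuationSubring Qb)
    (τ : Qb ≃ₐ[ℚ] Qb) (hτ : τ ∈ A.inertiaSubgroupIn ℚ) (S₀ : Finset Qb)
    (hdich : ∀ (L : Type) [Field L] [Algebra ℚ L] (ι : L →+* Qb),
      LevelChange.IsLevel A q S₀ ι → GalLevel.IsStable ι →
      ∀ ϖ : ↥(A.comap ι), Irreducible ϖ →
      ∀ [Algebra (↥(A.comap ι))[X] (FF L (M * q))],
        algebraMap (↥(A.comap ι))[X] (FF L (M * q)) = evFinf (A.comap ι) (M * q) →
      ∀ (B : Type) [CommRing B] [Algebra (↥(A.comap ι))[X] B] [Algebra B (FF L (M * q))]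
        [IsScalarTower (↥(A.comap ι))[X] B (FF L (M * q))]
        [IsIntegralClosure B (↥(A.comap ι))[X] (FF L (M * q))]
        (𝔪 : Ideal B) [𝔪.IsMaximal], algebraMap (↥(A.comap ι))[X] B (C ϖ) ∈ 𝔪 →
        algebraMap (↥(A.comap ι))[X] B X ∈ 𝔪 →
        ∃ u : Localization.AtPrime 𝔪,
          IsLocalRing.maximalIdeal (Localization.AtPrime 𝔪) =
            Ideal.span {algebraMap B (Localization.AtPrime 𝔪)
              (algebraMap (↥(A.comap ι))[X] B (C ϖ)), u}) :
    GAsm.LocContract₂ M q p A τ := by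
  refine GLoc.locContract₂_of_closure M q p A τ ?_
  intro n D f hf hD
  refine ⟨S₀, ?_⟩
  intro L _ _ ι hlev hst fL hfL hrat ϖ hϖ s hs _ halg B _ _ _ _ _ 𝔪 h𝔪 hC hX
  haveI := h𝔪
  have hfL0 : fL ≠ 0 := by
    rintro rfl
    exact hf (by rw [← hfL, map_zero])
  exact kloc_cusp_of_dich A ι M q hq hqM S₀ hlev hτ s hs ϖ hϖ halg B 𝔪 hC
    (hdich L ι hlev hst ϖ hϖ halg B 𝔪 hC hX) p n D fL hfL0
    (fun P => by rw [hfL]; exact hD P) hrat

end Contract

end Fermat.Agent.S34.KLocCusp
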