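import Mathlib
import Fermat.Agent.S34.KLocCusp
import Fermat.Agent.S34.CuspPt
import Fermat.Agent.S34.CuspSep

/-!
# S34: contract (4) of `GAsm` — the local datum at the cusps of the chart `W[1/j]`

`locContract₂ : GAsm.LocContract₂ M q p A τ` for `q` prime, `q ∤ M`, `τ` in the inertia group of
`A`: at every level `(L, ι)` and every maximal ideal `𝔫 ∋ π, 1/j` of the chart ring
`integralClosure W[1/j]` of level `M q` there is `h ≠ 0` and `d ∉ 𝔫` with
`d * (τ - 1)² (fL / h ^ (p ^ n))` integral over `W[1/j]`.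

Assembly (no new mathematics): `KLocCusp.locContract₂_of_dich` ((K-LOC₂) on every carrier of the
chart from the smooth structure of the local rings at the cusps) with (DICH₂) =
`CuspPt.cusp_dich_carrier_of` (helper8, helper16) and the separator `CuspSep.exists_separator`
(helper28).
-/

set_option autoImplicit false
set_option linter.unusedSectionVars false
set_option linter.style.haveILetI false

noncomputable section

namespace Fermat.Agent.S34.LocCusp

open Polynomial ModularCurve AlgebraicCurve Fermat.Agent.S18 Fermat.Agent.S18.Gauss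
  Fermat.Agent.S24 Fermat.Agent.S37

local notation "Qb" => AlgebraicClosure ℚ

variable (M q p : ℕ) [NeZero M] [NeZero q]

set_option maxHeartbeats 1600000 in
/-- **(DICH₂) at a level**: on every carrier `B` of the chart `W[1/j]` of level `M q`, at every
maximal ideal `𝔪 ∋ ϖ, 1/j`, the maximal ideal of `B_𝔪` is `(ϖ, u)`. -/
theorem cusp_dich_level (hq : q.Prime) (hqM : ¬ q ∣ M) (A : ValuationSubring Qb)
    (S₀ : Finset Qb) {L : Type} [Field L] [Algebra ℚ L] (ι : L →+* Qb)
    (hlev : LevelChange.IsLevel A q S₀ ι) (ϖ : ↥(A.comap ι)) (hϖ : Irreducible ϖ)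
    [Algebra (↥(A.comap ι))[X] (FF L (M * q))]
    (halg : algebraMap (↥(A.comap ι))[X] (FF L (M * q)) = evFinf (A.comap ι) (M * q))
    (B : Type*) [CommRing B] [Algebra (↥(A.comap ι))[X] B] [Algebra B (FF L (M * q))]
    [IsScalarTower (↥(A.comap ι))[X] B (FF L (M * q))]
    [IsIntegralClosure B (↥(A.comap ι))[X] (FF L (M * q))]
    (𝔪 : Ideal B) [h𝔪 : 𝔪.IsMaximal] (hC : algebraMap (↥(A.comap ι))[X] B (C ϖ) ∈ 𝔪)
    (hX : algebraMap (↥(A.comap ι))[X] B X ∈ 𝔪) :
    ∃ u : Localization.AtPrime 𝔪,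
      IsLocalRing.maximalIdeal (Localization.AtPrime 𝔪) =
        Ideal.span {algebraMap B (Localization.AtPrime 𝔪)
          (algebraMap (↥(A.comap ι))[X] B (C ϖ)), u} := by
  obtain ⟨-, hroots, hdvr, hclosed, -, hchar, -, -⟩ := hlev
  haveI := hdvr
  haveI := hclosed
  haveI := hchar
  haveI : Fact q.Prime := ⟨hq⟩
  obtain ⟨w, hwα, hwβ⟩ := FrobPartner.exists_atkinLehner_level ι M q hq hqM
  have hinj : Function.Injective (algebraMap B (FF L (M * q))) :=
    IsIntegralClosure.algebraMap_injective B (↥(A.comap ι))[X] (FF L (M * q))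
  have hsurj : ∀ x : FF L (M * q), (evFinf (A.comap ι) (M * q)).IsIntegralElem x →
      ∃ b : B, algebraMap B (FF L (M * q)) b = x := fun x hx =>
    (ChartAct.exists_algebraMap_eq_iff_inf (A.comap ι) (M * q) halg B x).mpr hx
  have hXF : algebraMap B (FF L (M * q)) (algebraMap (↥(A.comap ι))[X] B X) =
      (jBC L (M * q))⁻¹ := by
    rw [← IsScalarTower.algebraMap_apply, halg, evFinf_X]
  exact CuspPt.cusp_dich_carrier_of ι (A.comap ι) M q w B hqM hϖ hroots hwα hwβ halg 𝔪 hC hX
    (fun hφ₁ hφ₂ => CuspSep.exists_separator (A.comap ι) M q w hwα hwβ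
      (algebraMap B (FF L (M * q))) hinj hsurj hφ₁ hφ₂ 𝔪 h𝔪 hXF hX)

/-- **Contract (4) of `GAsm`: the local datum at the cusps.**  (`hp`, `hpq`, `hA` are not used;
they are kept so that the signature is the twin of `GLoc1.locContract₁`.) -/
theorem locContract₂ (hq : q.Prime) (hqM : ¬ q ∣ M) (_hp : p.Prime) (_hpq : p ≠ q)
    (A : ValuationSubring Qb) (_hA : A.LiesOverPrime q) (τ : Qb ≃ₐ[ℚ] Qb)
    (hτ : τ ∈ A.inertiaSubgroupIn ℚ) : GAsm.LocContract₂ M q p A τ :=
  KLocCusp.locContract₂_of_dich M q p hq hqM A τ hτ ∅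
    (fun _ _ _ ι hlev _ ϖ hϖ _ halg B _ _ _ _ _ 𝔪 _ hC hX =>
      cusp_dich_level M q hq hqM A ∅ ι hlev ϖ hϖ halg B 𝔪 hC hX)

end Fermat.Agent.S34.LocCusp
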