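import Mathlib
import Fermat.Agent.S34.GAsm
import Fermat.Agent.S34.TwoGaussInst

/-!
# S34 (wave 6): the two B1 level contracts of `GAsm`

* `v3aContract`: `GAsm.V3aContract M q A` for `q` prime, `q ∤ M` — an element of
  `FF L (M q)` whose `q`-expansion and whose Atkin–Lehner transform have `W`-integral
  `q`-expansions is Gauss-integral over `W[j]` (`TwoGauss.inC_of_mem_both`).
* `ramContract`: `GAsm.RamContract M q p A` — a Gauss unit `π ^ k * y ^ p` has `p ∣ k`
  (`TwoGaussInst.hram`).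
-/

set_option autoImplicit false

namespace Fermat.Agent.S34.B1Contracts

open Polynomial ModularCurve Fermat.Agent.S18 Fermat.Agent.S37

local notation "Qb" => AlgebraicClosure ℚ

/-- **Contract (1) of `GAsm`: (V3a).** -/
theorem v3aContract (M q : ℕ) [NeZero M] [NeZero q] (hq : q.Prime) (hqM : ¬ q ∣ M)
    (A : ValuationSubring Qb) : GAsm.V3aContract M q A := by
  refine ⟨∅, ?_⟩
  intro L _ _ ι hlev _ ϖ hϖ w hwα hwβ x hx₁ hx₂
  obtain ⟨-, -, hdvr, -, -, hchar, -, -⟩ := hlev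
  have : Fact q.Prime := ⟨hq⟩
  have : IsScalarTower ↥(A.comap ι) L (Fermat.Agent.S24.FF L (M * q)) :=
    GAsm.isScalarTower_W _ _
  exact TwoGauss.inC_of_mem_both (A.comap ι) M q
    (w : Fermat.Agent.S24.FF L (M * q) →ₐ[L] Fermat.Agent.S24.FF L (M * q)) hqM hwα hwβ
    hϖ.not_isUnit x hx₁ hx₂

/-- **Contract (2) of `GAsm`: (RAM).** -/
theorem ramContract (M q p : ℕ) [NeZero M] [NeZero q] (A : ValuationSubring Qb) :
    GAsm.RamContract M q p A := by
  refine ⟨∅, ?_⟩
  intro L _ _ ι hlev _ ϖ hϖ k y hy h1 h2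
  obtain ⟨-, -, hdvr, -, -, -, -, -⟩ := hlev
  have : IsScalarTower ↥(A.comap ι) L (Fermat.Agent.S24.FF L (M * q)) :=
    GAsm.isScalarTower_W _ _
  exact TwoGaussInst.hram (A.comap ι) (M * q) hϖ p k y hy h1 h2

end Fermat.Agent.S34.B1Contracts
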