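/-
S34 (wave 6), package BR (helper10), part 2.

(1) INSTANCE-GENERIC form of the currency dictionary of `S34.Bridge`.  On `F = S24.FF L N` there
are two `Algebra ↥W F` structures in use: the automatic one (`Algebra.ofSubsemiring`, used by
`S34.ContentVal`, `S34.DDGauss`) and `Bridge.algW W N` (`RingHom.toAlgebra`, the one of
`S18.GeoEnd`).  They are propositionally equal but not definitionally.  Every lemma of this file
is stated for an ARBITRARY instance `[Algebra ↥W F] [IsScalarTower ↥W L F]`, so it applies to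
both (`isScalarTower_auto` provides the tower for the automatic instance, which typeclass
synthesis does not find by itself).

(2) The finite chart ring of the Kummer descent is an S37-style chart carrier.
`S34.KummerInd.kummer_descent` quantifies over the maximal ideals of
`integralClosure (Algebra.adjoin ↥W {j}) F`, while the instance packages
(`S34.CompInst.finite_chart_point`, `S37.ChartInstSplit.finite_chart_dedekind`, …) are stated
for an arbitrary carrier `B` of the finite chart:
  `[Algebra W[X] F] (halg : algebraMap W[X] F = evF W N) [Algebra W[X] B] [Algebra B F]`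
  `[IsScalarTower W[X] B F] [IsIntegralClosure B W[X] F]`.
`Chart₁ W N := ↥(integralClosure (Algebra.adjoin ↥W {j}) F)` gets that structure
(`algPoly`, `algChart₁`, `isScalarTower_chart₁`, `isIntegralClosure_chart₁`), and the same for
`Chart₂ W N := ↥(integralClosure (Algebra.adjoin ↥W {j⁻¹}) F)` over `W[X]`, `X ↦ 1/j`
(`algPolyInf`, `algChart₂`, `isScalarTower_chart₂`, `isIntegralClosure_chart₂`).
-/
import Mathlib
import Fermat.Agent.S34.Bridge

set_option autoImplicit false
set_option linter.style.haveILetI false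
set_option linter.unusedSectionVars false

noncomputable section

namespace Fermat.Agent.S34.BridgeChart

open Polynomial Fermat.Agent.S18 Fermat.Agent.S18.Contracts Fermat.Agent.S34.KummerStep

section Auto

variable {L : Type} [Field L] [Algebra ℚ L] (W : ValuationSubring L) (N : ℕ)

/-- The scalar tower `W → L → FF L N` for the automatic `Algebra ↥W (FF L N)` instance. -/
theorem isScalarTower_auto : IsScalarTower ↥W L (S24.FF L N) :=
  IsScalarTower.of_algebraMap_eq (fun _ => rfl)

/-- Typeclass synthesis does not find the tower `W → L → FF L N` by itself (it times out), so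
we register it. -/
instance instIsScalarTowerAuto : IsScalarTower ↥W L (S24.FF L N) := isScalarTower_auto W N

end Auto

section ChartDef

variable {L : Type} [Field L] [Algebra ℚ L] (W : ValuationSubring L) (N : ℕ) [NeZero N]
  [Algebra ↥W (S24.FF L N)]

/-- The finite chart ring of the Kummer descent: the integral closure of `W[j]` in `FF L N`,
in subalgebra currency. -/
abbrev Chart₁ : Type := ↥(integralClosure (Algebra.adjoin ↥W {S24.jBC L N}) (S24.FF L N))

/-- The cusp chart ring of the Kummer descent: the integral closure of `W[1/j]` in `FF L N`. -/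
abbrev Chart₂ : Type := ↥(integralClosure (Algebra.adjoin ↥W {(S24.jBC L N)⁻¹}) (S24.FF L N))

end ChartDef

section Generic

variable {L : Type} [Field L] [Algebra ℚ L] (W : ValuationSubring L) (N : ℕ) [NeZero N]
  [inst : Algebra ↥W (S24.FF L N)] [IsScalarTower ↥W L (S24.FF L N)]

/-- Any `W`-algebra structure on `FF L N` compatible with the `L`-algebra structure is
`Bridge.algW W N`. -/
theorem algebra_eq_algW : inst = Bridge.algW W N :=
  Algebra.algebra_ext _ _ (fun a => IsScalarTower.algebraMap_apply ↥W L (S24.FF L N) a)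

theorem algebraMap_eq (a : ↥W) :
    algebraMap ↥W (S24.FF L N) a = algebraMap L (S24.FF L N) (a : L) :=
  IsScalarTower.algebraMap_apply ↥W L (S24.FF L N) a

theorem ev_eq_evF : Endgame.ev ↥W (S24.jBC L N) = Gauss.evF W N := by
  obtain rfl : inst = Bridge.algW W N := algebra_eq_algW W N
  exact Bridge.ev_eq_evF W N

theorem ev_inv_eq_evFinf : Endgame.ev ↥W (S24.jBC L N)⁻¹ = Gauss.evFinf W N := by
  obtain rfl : inst = Bridge.algW W N := algebra_eq_algW W N
  exact Bridge.ev_inv_eq_evFinf W N

theorem isInt_iff (y : S24.FF L N) :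
    Endgame.IsInt ↥W (S24.jBC L N) y ↔ (Gauss.evF W N).IsIntegralElem y := by
  obtain rfl : inst = Bridge.algW W N := algebra_eq_algW W N
  exact Bridge.isInt_iff W N y

theorem isInt_inv_iff (y : S24.FF L N) :
    Endgame.IsInt ↥W (S24.jBC L N)⁻¹ y ↔ (Gauss.evFinf W N).IsIntegralElem y := by
  obtain rfl : inst = Bridge.algW W N := algebra_eq_algW W N
  exact Bridge.isInt_inv_iff W N y

/-- (b1) Integrality over the subalgebra `W[j]` is `(evF W N).IsIntegralElem`. -/
theorem isIntegral_adjoin_iff (y : S24.FF L N) :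
    IsIntegral (Algebra.adjoin ↥W {S24.jBC L N}) y ↔ (Gauss.evF W N).IsIntegralElem y := by
  obtain rfl : inst = Bridge.algW W N := algebra_eq_algW W N
  exact Bridge.isIntegral_adjoin_iff W N y

/-- (b2) Integrality over the subalgebra `W[1/j]` is `(evFinf W N).IsIntegralElem`. -/
theorem isIntegral_adjoin_inv_iff (y : S24.FF L N) :
    IsIntegral (Algebra.adjoin ↥W {(S24.jBC L N)⁻¹}) y ↔
      (Gauss.evFinf W N).IsIntegralElem y := by
  obtain rfl : inst = Bridge.algW W N := algebra_eq_algW W N
  exact Bridge.isIntegral_adjoin_inv_iff W N y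

theorem aeval_eq_evF (S : (↥W)[X]) : aeval (S24.jBC L N) S = Gauss.evF W N S := by
  obtain rfl : inst = Bridge.algW W N := algebra_eq_algW W N
  exact Bridge.aeval_eq_evF W N S

theorem aeval_inv_eq_evFinf (S : (↥W)[X]) :
    aeval (S24.jBC L N)⁻¹ S = Gauss.evFinf W N S := by
  obtain rfl : inst = Bridge.algW W N := algebra_eq_algW W N
  exact Bridge.aeval_inv_eq_evFinf W N S

/-- (b3) Gauss-integrality in raw currency. -/
theorem inC_iff (π : ↥W) (z : S24.FF L N) :
    Endgame.InC π (S24.jBC L N) z ↔
      ∃ S : (↥W)[X], ¬ C π ∣ S ∧ (Gauss.evF W N).IsIntegralElem (Gauss.evF W N S * z) := by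
  obtain rfl : inst = Bridge.algW W N := algebra_eq_algW W N
  exact Bridge.inC_iff W N π z

/-- (b4) `GaussOne` in raw currency. -/
theorem gaussOne_iff (π : ↥W) (g : S24.FF L N) :
    GaussOne π (S24.jBC L N) g ↔
      ∃ S : (↥W)[X], ¬ C π ∣ S ∧ ∃ ω : S24.FF L N, (Gauss.evF W N).IsIntegralElem ω ∧
        Gauss.evF W N S * (g - 1) = algebraMap L (S24.FF L N) (π : L) * ω := by
  obtain rfl : inst = Bridge.algW W N := algebra_eq_algW W N
  exact Bridge.gaussOne_iff W N π g

/-! ### The chart rings as carriers -/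

theorem mem_chart₁_iff (x : S24.FF L N) :
    x ∈ integralClosure (Algebra.adjoin ↥W {S24.jBC L N}) (S24.FF L N) ↔
      (Gauss.evF W N).IsIntegralElem x :=
  isIntegral_adjoin_iff W N x

theorem mem_chart₂_iff (x : S24.FF L N) :
    x ∈ integralClosure (Algebra.adjoin ↥W {(S24.jBC L N)⁻¹}) (S24.FF L N) ↔
      (Gauss.evFinf W N).IsIntegralElem x :=
  isIntegral_adjoin_inv_iff W N x

theorem evF_mem_chart₁ (p : (↥W)[X]) :
    Gauss.evF W N p ∈ integralClosure (Algebra.adjoin ↥W {S24.jBC L N}) (S24.FF L N) :=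
  (mem_chart₁_iff W N _).mpr ((Gauss.evF W N).isIntegralElem_map)

theorem evFinf_mem_chart₂ (p : (↥W)[X]) :
    Gauss.evFinf W N p ∈
      integralClosure (Algebra.adjoin ↥W {(S24.jBC L N)⁻¹}) (S24.FF L N) :=
  (mem_chart₂_iff W N _).mpr ((Gauss.evFinf W N).isIntegralElem_map)

/-- Evaluation at `j`, with values in the finite chart ring. -/
def evChart₁ : (↥W)[X] →+* Chart₁ W N :=
  (Gauss.evF W N).codRestrict
    (integralClosure (Algebra.adjoin ↥W {S24.jBC L N}) (S24.FF L N)) (evF_mem_chart₁ W N)

/-- Evaluation at `1/j`, with values in the cusp chart ring. -/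
def evChart₂ : (↥W)[X] →+* Chart₂ W N :=
  (Gauss.evFinf W N).codRestrict
    (integralClosure (Algebra.adjoin ↥W {(S24.jBC L N)⁻¹}) (S24.FF L N))
    (evFinf_mem_chart₂ W N)

theorem coe_evChart₁ (p : (↥W)[X]) : ((evChart₁ W N p : Chart₁ W N) : S24.FF L N) =
    Gauss.evF W N p := rfl

theorem coe_evChart₂ (p : (↥W)[X]) : ((evChart₂ W N p : Chart₂ W N) : S24.FF L N) =
    Gauss.evFinf W N p := rfl

end Generic

section Carrier

variable {L : Type} [Field L] [Algebra ℚ L] (W : ValuationSubring L) (N : ℕ) [NeZero N]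

/-- The `W[X]`-algebra structure on `FF L N` through `X ↦ j`. -/
@[reducible] def algPoly : Algebra (↥W)[X] (S24.FF L N) := (Gauss.evF W N).toAlgebra

/-- The `W[X]`-algebra structure on `FF L N` through `X ↦ 1/j`. -/
@[reducible] def algPolyInf : Algebra (↥W)[X] (S24.FF L N) := (Gauss.evFinf W N).toAlgebra

theorem algebraMap_algPoly :
    letI := algPoly W N
    algebraMap (↥W)[X] (S24.FF L N) = Gauss.evF W N := rfl

theorem algebraMap_algPolyInf :
    letI := algPolyInf W N
    algebraMap (↥W)[X] (S24.FF L N) = Gauss.evFinf W N := rfl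

variable [inst : Algebra ↥W (S24.FF L N)] [IsScalarTower ↥W L (S24.FF L N)]

/-- The `W[X]`-algebra structure of the finite chart ring. -/
@[reducible] def algChart₁ : Algebra (↥W)[X] (Chart₁ W N) := (evChart₁ W N).toAlgebra

/-- The `W[X]`-algebra structure of the cusp chart ring. -/
@[reducible] def algChart₂ : Algebra (↥W)[X] (Chart₂ W N) := (evChart₂ W N).toAlgebra

theorem isScalarTower_chart₁ :
    letI := algPoly W N
    letI := algChart₁ W N
    IsScalarTower (↥W)[X] (Chart₁ W N) (S24.FF L N) := by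
  letI := algPoly W N
  letI := algChart₁ W N
  exact IsScalarTower.of_algebraMap_eq (fun p => rfl)

theorem isScalarTower_chart₂ :
    letI := algPolyInf W N
    letI := algChart₂ W N
    IsScalarTower (↥W)[X] (Chart₂ W N) (S24.FF L N) := by
  letI := algPolyInf W N
  letI := algChart₂ W N
  exact IsScalarTower.of_algebraMap_eq (fun p => rfl)

/-- **The finite chart ring of the Kummer descent is a carrier of the finite chart.** -/
theorem isIntegralClosure_chart₁ :
    letI := algPoly W N
    letI := algChart₁ W N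
    IsIntegralClosure (Chart₁ W N) (↥W)[X] (S24.FF L N) := by
  letI := algPoly W N
  letI := algChart₁ W N
  refine ⟨Subtype.val_injective, fun {x} => ⟨fun h => ?_, ?_⟩⟩
  · exact ⟨⟨x, (mem_chart₁_iff W N x).mpr h⟩, rfl⟩
  · rintro ⟨y, rfl⟩
    exact (mem_chart₁_iff W N _).mp y.2

/-- The cusp chart ring of the Kummer descent is the integral closure of `W[X]`, `X ↦ 1/j`. -/
theorem isIntegralClosure_chart₂ :
    letI := algPolyInf W N
    letI := algChart₂ W N
    IsIntegralClosure (Chart₂ W N) (↥W)[X] (S24.FF L N) := by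
  letI := algPolyInf W N
  letI := algChart₂ W N
  refine ⟨Subtype.val_injective, fun {x} => ⟨fun h => ?_, ?_⟩⟩
  · exact ⟨⟨x, (mem_chart₂_iff W N x).mpr h⟩, rfl⟩
  · rintro ⟨y, rfl⟩
    exact (mem_chart₂_iff W N _).mp y.2

/-- The constant `a ∈ W` as an element of the finite chart ring. -/
def constChart₁ (a : ↥W) : Chart₁ W N := evChart₁ W N (C a)

/-- The constant `a ∈ W` as an element of the cusp chart ring. -/
def constChart₂ (a : ↥W) : Chart₂ W N := evChart₂ W N (C a)

theorem coe_constChart₁ (a : ↥W) :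
    ((constChart₁ W N a : Chart₁ W N) : S24.FF L N) = algebraMap ↥W (S24.FF L N) a := by
  rw [algebraMap_eq W N a]
  exact Gauss.evF_C W N a

theorem coe_constChart₂ (a : ↥W) :
    ((constChart₂ W N a : Chart₂ W N) : S24.FF L N) = algebraMap ↥W (S24.FF L N) a := by
  rw [algebraMap_eq W N a]
  exact Gauss.evFinf_C W N a

theorem algebraMap_C_eq₁ (a : ↥W) :
    letI := algChart₁ W N
    algebraMap (↥W)[X] (Chart₁ W N) (C a) = constChart₁ W N a := rfl

theorem algebraMap_C_eq₂ (a : ↥W) :
    letI := algChart₂ W N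
    algebraMap (↥W)[X] (Chart₂ W N) (C a) = constChart₂ W N a := rfl

/-- `π ∈ 𝔫` in the form used by `KummerInd.kummer_descent` is `constChart₁ π ∈ 𝔫`. -/
theorem const_mem_iff₁ (π : ↥W) (𝔫 : Ideal (Chart₁ W N)) :
    (∀ r : Chart₁ W N, (r : S24.FF L N) = algebraMap ↥W (S24.FF L N) π → r ∈ 𝔫) ↔
      constChart₁ W N π ∈ 𝔫 := by
  constructor
  · exact fun h => h _ (coe_constChart₁ W N π)
  · intro h r hr
    have : r = constChart₁ W N π := Subtype.ext (hr.trans (coe_constChart₁ W N π).symm)
    rw [this]; exact h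

theorem const_mem_iff₂ (π : ↥W) (𝔫 : Ideal (Chart₂ W N)) :
    (∀ r : Chart₂ W N, (r : S24.FF L N) = algebraMap ↥W (S24.FF L N) π → r ∈ 𝔫) ↔
      constChart₂ W N π ∈ 𝔫 := by
  constructor
  · exact fun h => h _ (coe_constChart₂ W N π)
  · intro h r hr
    have : r = constChart₂ W N π := Subtype.ext (hr.trans (coe_constChart₂ W N π).symm)
    rw [this]; exact h

/-- `1/j` as an element of the cusp chart ring. -/
def invJ₂ : Chart₂ W N := evChart₂ W N X

theorem coe_invJ₂ : ((invJ₂ W N : Chart₂ W N) : S24.FF L N) = (S24.jBC L N)⁻¹ :=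
  Gauss.evFinf_X W N

/-- `1/j ∈ 𝔫` in the form used by `KummerIndCusp.kummer_descent_cusp` is `invJ₂ ∈ 𝔫`. -/
theorem invJ_mem_iff₂ (𝔫 : Ideal (Chart₂ W N)) :
    (∀ r : Chart₂ W N, (r : S24.FF L N) = (S24.jBC L N)⁻¹ → r ∈ 𝔫) ↔ invJ₂ W N ∈ 𝔫 := by
  constructor
  · exact fun h => h _ (coe_invJ₂ W N)
  · intro h r hr
    have : r = invJ₂ W N := Subtype.ext (hr.trans (coe_invJ₂ W N).symm)
    rw [this]; exact h

end Carrier

section Transfer

variable {L : Type} [Field L] [Algebra ℚ L] (W : ValuationSubring L) (N : ℕ) [NeZero N]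

/-- `Bridge.algW W N` is (propositionally) the automatic `Algebra ↥W (FF L N)` instance:
`rw [algW_eq_auto] at h` moves a statement elaborated under `letI := Bridge.algW W N` to the
automatic instance, `rw [← algW_eq_auto]` moves it back. -/
theorem algW_eq_auto :
    Bridge.algW W N =
      (Algebra.ofSubsemiring W.toSubring.toSubsemiring : Algebra ↥W (S24.FF L N)) :=
  (algebra_eq_algW W N).symm

end Transfer

end Fermat.Agent.S34.BridgeChart
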