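import Mathlib
import Fermat.Agent.S34.ChartAct

/-!
# S34 (wave 6): the coefficient action on a chart carrier given by a predicate

Complement of `ChartAct.lean` for carriers presented as `(B, φ : B →+* FF L N)` with `φ` injective
and image described by a predicate `Int` (`hB : ∀ x, (∃ b, φ b = x) ↔ Int x`) — e.g.
`B = integralClosure (Algebra.adjoin W {j}) F` or `{j⁻¹}` with `Int = (evF W N).IsIntegralElem`
resp. `(evFinf W N).IsIntegralElem` through `Bridge.isIntegral_adjoin_iff / _inv_iff`.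

* `actPred`, `map_actPred` : the restricted automorphism for any `act`-stable predicate;
* `actEvF`, `actEvFinf` : the two chart predicates (stability is automatic);
* `actEvF_mem_iff`, `actEvFinf_mem_iff` : for the restriction of an inertia element they preserve
  every ideal containing (a preimage of) the uniformiser, given `(H_int)` on both branches and
  `(S1)` in the raw shape of `CuspS1.s1_fin / s1_inf`.
-/

set_option autoImplicit false

noncomputable section

namespace Fermat.Agent.S34.ChartActPred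

open Polynomial ModularCurve Fermat.Agent.S18 Fermat.Agent.S18.Gauss Fermat.Agent.S24
  Fermat.Agent.S34.CoeffAut Fermat.Agent.S34.ChartAct

section Pred

variable {L : Type*} [Field L] [Algebra ℚ L] (N : ℕ) (s : L ≃+* L)
  {B : Type*} [CommRing B] (φ : B →+* FF L N) (hφ : Function.Injective φ)
  (Int : FF L N → Prop) (hB : ∀ x : FF L N, (∃ b : B, φ b = x) ↔ Int x)
  (hact : ∀ x : FF L N, Int x → Int (act N s x))
  (hact' : ∀ x : FF L N, Int x → Int ((act N s).symm x))

/-- The coefficient action restricted to a carrier whose image is an `act`-stable predicate. -/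
def actPred : B ≃+* B :=
  restrictEquiv φ hφ (act N s)
    (fun b => (hB _).mpr (hact _ ((hB _).mp ⟨b, rfl⟩)))
    (fun b => (hB _).mpr (hact' _ ((hB _).mp ⟨b, rfl⟩)))

theorem map_actPred (b : B) : φ (actPred N s φ hφ Int hB hact hact' b) = act N s (φ b) :=
  map_restrictEquiv _ _ _ _ _ b

theorem map_actPred_symm (b : B) :
    φ ((actPred N s φ hφ Int hB hact hact').symm b) = (act N s).symm (φ b) :=
  map_restrictEquiv_symm _ _ _ _ _ b

end Pred

section Charts

variable {L : Type*} [Field L] [Algebra ℚ L] (W : ValuationSubring L) (N : ℕ) [NeZero N]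
  (s : L ≃+* L) (hW : ∀ c : L, c ∈ W ↔ (s : L →+* L) c ∈ W)
  {B : Type*} [CommRing B] (φ : B →+* FF L N) (hφ : Function.Injective φ)

/-- The coefficient action on a carrier of the finite chart (`Int = (evF W N).IsIntegralElem`). -/
def actEvF (hB : ∀ x : FF L N, (∃ b : B, φ b = x) ↔ (evF W N).IsIntegralElem x) : B ≃+* B :=
  actPred N s φ hφ (fun x => (evF W N).IsIntegralElem x) hB
    (fun _ hx => isIntegralElem_evF_act W N s hW hx)
    (fun _ hx => isIntegralElem_evF_act_symm W N s hW hx)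

theorem map_actEvF (hB : ∀ x : FF L N, (∃ b : B, φ b = x) ↔ (evF W N).IsIntegralElem x)
    (b : B) : φ (actEvF W N s hW φ hφ hB b) = act N s (φ b) :=
  map_actPred _ _ _ _ _ _ _ _ b

/-- The coefficient action on a carrier of the chart `W[1/j]`
(`Int = (evFinf W N).IsIntegralElem`). -/
def actEvFinf (hB : ∀ x : FF L N, (∃ b : B, φ b = x) ↔ (evFinf W N).IsIntegralElem x) :
    B ≃+* B :=
  actPred N s φ hφ (fun x => (evFinf W N).IsIntegralElem x) hB
    (fun _ hx => isIntegralElem_evFinf_act W N s hW hx)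
    (fun x hx => by
      rw [act_symm_apply]
      exact isIntegralElem_evFinf_act W N s.symm (symm_mem_iff W s hW) hx)

theorem map_actEvFinf (hB : ∀ x : FF L N, (∃ b : B, φ b = x) ↔ (evFinf W N).IsIntegralElem x)
    (b : B) : φ (actEvFinf W N s hW φ hφ hB b) = act N s (φ b) :=
  map_actPred _ _ _ _ _ _ _ _ b

end Charts

section Inertia

local notation "Qb" => AlgebraicClosure ℚ

variable (A : ValuationSubring Qb) {L : Type*} [Field L] [Algebra ℚ L] (ι : L →+* Qb)
  {σ : Qb ≃ₐ[ℚ] Qb} (s : L ≃+* L) (hs : ∀ c : L, ι (s c) = σ (ι c))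
  (N : ℕ) [NeZero N]

include hs

/-- **`hτ𝔫` on a carrier of the finite chart** given by the predicate
`(evF W N).IsIntegralElem`. -/
theorem actEvF_mem_iff (hσ : σ ∈ A.inertiaSubgroupIn ℚ)
    (w : FF L N → FF L N) (hwsub : ∀ x y : FF L N, w (x - y) = w x - w y)
    (hw : ∀ x : FF L N, act N s (w x) = w (act N s x))
    {B : Type*} [CommRing B] (φ : B →+* FF L N) (hφ : Function.Injective φ)
    (hB : ∀ x : FF L N, (∃ b : B, φ b = x) ↔ (evF (A.comap ι) N).IsIntegralElem x)
    (hc₁ : ∀ x : FF L N, (evF (A.comap ι) N).IsIntegralElem x →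
      (x : LaurentSeries L) ∈ contentRing (A.comap ι))
    (hc₂ : ∀ x : FF L N, (evF (A.comap ι) N).IsIntegralElem x →
      ((w x : FF L N) : LaurentSeries L) ∈ contentRing (A.comap ι))
    (ϖB : B) (ϖ : L) (hϖ : φ ϖB = algebraMap L (FF L N) ϖ)
    (hS1 : ∀ x : FF L N, (evF (A.comap ι) N).IsIntegralElem x →
      ∀ (h1 : (x : LaurentSeries L) ∈ contentRing (A.comap ι))
        (h2 : ((w x : FF L N) : LaurentSeries L) ∈ contentRing (A.comap ι)),
        red (A.comap ι) ⟨_, h1⟩ = 0 → red (A.comap ι) ⟨_, h2⟩ = 0 →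
        ∃ y : FF L N, (evF (A.comap ι) N).IsIntegralElem y ∧
          x = algebraMap L (FF L N) ϖ * y)
    (𝔫 : Ideal B) (h𝔫 : ϖB ∈ 𝔫) (y : B) :
    actEvF (A.comap ι) N s (hW_of_mem_inertia A ι s hs hσ) φ hφ hB y ∈ 𝔫 ↔ y ∈ 𝔫 :=
  mem_iff_of_pred A ι s hs N hσ w hwsub hw φ hφ
    (fun x => (evF (A.comap ι) N).IsIntegralElem x) hB
    (actEvF (A.comap ι) N s (hW_of_mem_inertia A ι s hs hσ) φ hφ hB)
    (map_actEvF (A.comap ι) N s (hW_of_mem_inertia A ι s hs hσ) φ hφ hB)
    hc₁ hc₂ ϖB ϖ hϖ hS1 𝔫 h𝔫 y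

/-- **`hτ𝔫` on a carrier of the chart `W[1/j]`** given by the predicate
`(evFinf W N).IsIntegralElem`. -/
theorem actEvFinf_mem_iff (hσ : σ ∈ A.inertiaSubgroupIn ℚ)
    (w : FF L N → FF L N) (hwsub : ∀ x y : FF L N, w (x - y) = w x - w y)
    (hw : ∀ x : FF L N, act N s (w x) = w (act N s x))
    {B : Type*} [CommRing B] (φ : B →+* FF L N) (hφ : Function.Injective φ)
    (hB : ∀ x : FF L N, (∃ b : B, φ b = x) ↔ (evFinf (A.comap ι) N).IsIntegralElem x)
    (hc₁ : ∀ x : FF L N, (evFinf (A.comap ι) N).IsIntegralElem x →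
      (x : LaurentSeries L) ∈ contentRing (A.comap ι))
    (hc₂ : ∀ x : FF L N, (evFinf (A.comap ι) N).IsIntegralElem x →
      ((w x : FF L N) : LaurentSeries L) ∈ contentRing (A.comap ι))
    (ϖB : B) (ϖ : L) (hϖ : φ ϖB = algebraMap L (FF L N) ϖ)
    (hS1 : ∀ x : FF L N, (evFinf (A.comap ι) N).IsIntegralElem x →
      ∀ (h1 : (x : LaurentSeries L) ∈ contentRing (A.comap ι))
        (h2 : ((w x : FF L N) : LaurentSeries L) ∈ contentRing (A.comap ι)),
        red (A.comap ι) ⟨_, h1⟩ = 0 → red (A.comap ι) ⟨_, h2⟩ = 0 →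
        ∃ y : FF L N, (evFinf (A.comap ι) N).IsIntegralElem y ∧
          x = algebraMap L (FF L N) ϖ * y)
    (𝔫 : Ideal B) (h𝔫 : ϖB ∈ 𝔫) (y : B) :
    actEvFinf (A.comap ι) N s (hW_of_mem_inertia A ι s hs hσ) φ hφ hB y ∈ 𝔫 ↔ y ∈ 𝔫 :=
  mem_iff_of_pred A ι s hs N hσ w hwsub hw φ hφ
    (fun x => (evFinf (A.comap ι) N).IsIntegralElem x) hB
    (actEvFinf (A.comap ι) N s (hW_of_mem_inertia A ι s hs hσ) φ hφ hB)
    (map_actEvFinf (A.comap ι) N s (hW_of_mem_inertia A ι s hs hσ) φ hφ hB)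
    hc₁ hc₂ ϖB ϖ hϖ hS1 𝔫 h𝔫 y

end Inertia

end Fermat.Agent.S34.ChartActPred
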