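/-
S34 (wave 6): the FINITE points of the second chart come from the first chart.

Currency of `KummerStep.kummer_step` / `KummerInd`: `B₁ = integralClosure W[j] F`,
`B₂ = integralClosure W[j⁻¹] F`.  A maximal ideal `𝔫` of `B₂` with `j⁻¹ ∉ 𝔫` at which `j⁻¹` is
congruent to a constant `a ∈ W` (residue field of `𝔫` = residue field of `W`) defines a maximal
ideal `𝔫₁ = {b ∈ B₁ | ∃ k, j⁻¹ ^ k * b ∈ 𝔫}` of `B₁`, and local data "`d * z` integral over the
chart with `d ∉ 𝔫`" transfer from `𝔫₁` to `𝔫` (multiply by a power of `j⁻¹`).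

* `isIntegral_inv_pow_mul`, `isIntegral_pow_mul` : change of chart for integral elements
  (`S18.Endgame.isInt_pow_mul_of_isInt_inv` in `IsIntegral` currency);
* `pullIdeal`, `pullIdeal_isMaximal` : the ideal `𝔫₁` and its maximality;
* `exists_local_of_finite` : the transfer of a local datum for one element `z`;
* `hloc₂_of_hloc₁` : the `hloc₂` clause of `kummer_step` at such an `𝔫` from the `hloc₁` clause.
-/
import Mathlib
import Fermat.Agent.S18.Endgame

set_option autoImplicit false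
set_option linter.unusedSectionVars false

namespace Fermat.Agent.S34.ChartSwap

open Fermat.Agent.S18.Endgame

variable {W F : Type*} [CommRing W] [IsDomain W] [Field F] [Algebra W F]

theorem isIntegral_iff_isInt (j y : F) : IsIntegral (Algebra.adjoin W {j}) y ↔ IsInt W j y := by
  have h := isInt_iff_isIntegral_adjoin (W := W) (F := F) (Y := F) j y
  rw [Algebra.algebraMap_self_apply] at h
  exact h.symm

/-- an element integral over `W[j]` becomes integral over `W[j⁻¹]` after multiplication by a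
power of `j⁻¹` -/
theorem isIntegral_inv_pow_mul {j : F} (hj : j ≠ 0) {y : F}
    (h : IsIntegral (Algebra.adjoin W {j}) y) :
    ∃ D : ℕ, IsIntegral (Algebra.adjoin W {j⁻¹}) (j⁻¹ ^ D * y) := by
  obtain ⟨D, hD⟩ := isInt_inv_pow_mul_of_isInt hj ((isIntegral_iff_isInt j y).mp h)
  exact ⟨D, (isIntegral_iff_isInt j⁻¹ _).mpr hD⟩

/-- an element integral over `W[j⁻¹]` becomes integral over `W[j]` after multiplication by a
power of `j` -/
theorem isIntegral_pow_mul {j : F} (hj : j ≠ 0) {y : F}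
    (h : IsIntegral (Algebra.adjoin W {j⁻¹}) y) :
    ∃ D : ℕ, IsIntegral (Algebra.adjoin W {j}) (j ^ D * y) := by
  obtain ⟨D, hD⟩ := isInt_pow_mul_of_isInt_inv hj ((isIntegral_iff_isInt j⁻¹ y).mp h)
  exact ⟨D, (isIntegral_iff_isInt j _).mpr hD⟩

theorem isIntegral_self (j : F) : IsIntegral (Algebra.adjoin W {j}) j :=
  (isIntegral_iff_isInt j j).mpr IsInt.self

theorem isIntegral_const (j : F) (a : W) : IsIntegral (Algebra.adjoin W {j}) (algebraMap W F a) :=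
  (isIntegral_iff_isInt j _).mpr (IsInt.const a)

section Pull

variable (j : F) (𝔫 : Ideal (integralClosure (Algebra.adjoin W {j⁻¹}) F))

/-- membership in the pulled-back ideal -/
def InPull (b : F) : Prop :=
  ∃ (k : ℕ) (c : integralClosure (Algebra.adjoin W {j⁻¹}) F), c ∈ 𝔫 ∧ (c : F) = j⁻¹ ^ k * b

/-- the element `j⁻¹` of the second chart -/
def tElt : integralClosure (Algebra.adjoin W {j⁻¹}) F := ⟨j⁻¹, isIntegral_self j⁻¹⟩

theorem coe_tElt : ((tElt (W := W) j : integralClosure (Algebra.adjoin W {j⁻¹}) F) : F) = j⁻¹ :=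
  rfl

variable {j 𝔫}

theorem InPull.add {b b' : F} (h : InPull j 𝔫 b) (h' : InPull j 𝔫 b') : InPull j 𝔫 (b + b') := by
  obtain ⟨k, c, hc, e⟩ := h
  obtain ⟨k', c', hc', e'⟩ := h'
  refine ⟨k + k', tElt j ^ k' * c + tElt j ^ k * c', 𝔫.add_mem (𝔫.mul_mem_left _ hc)
    (𝔫.mul_mem_left _ hc'), ?_⟩
  push_cast
  rw [coe_tElt, e, e']
  ring

theorem InPull.zero : InPull j 𝔫 (0 : F) := ⟨0, 0, 𝔫.zero_mem, by simp⟩

/-- multiplication by an element integral over `W[j]` -/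
theorem InPull.mul (hj : j ≠ 0) {r b : F} (hr : IsIntegral (Algebra.adjoin W {j}) r)
    (h : InPull j 𝔫 b) : InPull j 𝔫 (r * b) := by
  obtain ⟨k, c, hc, e⟩ := h
  obtain ⟨m, hm⟩ := isIntegral_inv_pow_mul hj hr
  refine ⟨m + k, ⟨j⁻¹ ^ m * r, hm⟩ * c, 𝔫.mul_mem_left _ hc, ?_⟩
  push_cast
  rw [e]
  ring

/-- the ideal of the first chart defined by a maximal ideal of the second chart -/
def pullIdeal (hj : j ≠ 0) (𝔫 : Ideal (integralClosure (Algebra.adjoin W {j⁻¹}) F)) :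
    Ideal (integralClosure (Algebra.adjoin W {j}) F) where
  carrier := {b | InPull j 𝔫 (b : F)}
  add_mem' := fun {a b} ha hb => by
    show InPull j 𝔫 ((a + b : integralClosure (Algebra.adjoin W {j}) F) : F)
    push_cast
    exact InPull.add ha hb
  zero_mem' := by
    show InPull j 𝔫 ((0 : integralClosure (Algebra.adjoin W {j}) F) : F)
    push_cast
    exact InPull.zero
  smul_mem' := fun r b hb => by
    show InPull j 𝔫 ((r • b : integralClosure (Algebra.adjoin W {j}) F) : F)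
    rw [smul_eq_mul]
    push_cast
    exact InPull.mul hj r.2 hb

theorem mem_pullIdeal (hj : j ≠ 0) (b : integralClosure (Algebra.adjoin W {j}) F) :
    b ∈ pullIdeal hj 𝔫 ↔ InPull j 𝔫 (b : F) := Iff.rfl

end Pull

section Main

variable {j : F} {𝔫 : Ideal (integralClosure (Algebra.adjoin W {j⁻¹}) F)}

/-- a power of `j⁻¹` is not in `𝔫` -/
theorem tElt_pow_notMem [𝔫.IsPrime] (ht : tElt j ∉ 𝔫) (k : ℕ) : tElt (W := W) j ^ k ∉ 𝔫 :=
  fun h => ht (Ideal.IsPrime.mem_of_pow_mem inferInstance k h)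

/-- `InPull` only depends on the element: cancel powers of `j⁻¹` -/
theorem InPull.mem_of_eq [𝔫.IsPrime] (ht : tElt j ∉ 𝔫) {b : F} (h : InPull j 𝔫 b) (m : ℕ)
    (c : integralClosure (Algebra.adjoin W {j⁻¹}) F) (hc : (c : F) = j⁻¹ ^ m * b) : c ∈ 𝔫 := by
  obtain ⟨k, c', hc', e⟩ := h
  have h1 : tElt j ^ k * c = tElt j ^ m * c' := by
    apply Subtype.ext
    push_cast
    rw [coe_tElt, hc, e]
    ring
  have h2 : tElt j ^ k * c ∈ 𝔫 := h1 ▸ 𝔫.mul_mem_left _ hc'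
  exact (Ideal.IsPrime.mem_or_mem inferInstance h2).resolve_left (tElt_pow_notMem ht k)

/-- **the pulled-back ideal is maximal** when `j⁻¹` is congruent to a constant at `𝔫` -/
theorem pullIdeal_isMaximal (hj : j ≠ 0) (h𝔫 : 𝔫.IsMaximal) (ht : tElt j ∉ 𝔫) (a : W)
    (ha : ∀ r : integralClosure (Algebra.adjoin W {j⁻¹}) F,
      (r : F) = j⁻¹ - algebraMap W F a → r ∈ 𝔫) :
    (pullIdeal hj 𝔫).IsMaximal := by
  have hprime : 𝔫.IsPrime := h𝔫.isPrime
  rw [Ideal.isMaximal_iff]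
  refine ⟨?_, ?_⟩
  · rw [mem_pullIdeal hj]
    intro h
    have := h.mem_of_eq ht 0 1 (by simp)
    exact h𝔫.ne_top ((Ideal.eq_top_iff_one _).mpr this)
  · intro J b hJ hb hbJ
    -- `b ∉ pullIdeal`; find `r` with `1 - r * b ∈ pullIdeal`
    obtain ⟨m, hm⟩ := isIntegral_inv_pow_mul hj b.2
    let c : integralClosure (Algebra.adjoin W {j⁻¹}) F := ⟨j⁻¹ ^ m * (b : F), hm⟩
    have hc : c ∉ 𝔫 := by
      intro hc
      exact hb ((mem_pullIdeal hj b).mpr ⟨m, c, hc, rfl⟩)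
    obtain ⟨c', i, hi, hc'⟩ := Ideal.IsMaximal.exists_inv h𝔫 hc
    obtain ⟨m', hm'⟩ := isIntegral_pow_mul hj c'.2
    let r₀ : integralClosure (Algebra.adjoin W {j}) F := ⟨j ^ m' * (c' : F), hm'⟩
    let aB : integralClosure (Algebra.adjoin W {j}) F := ⟨algebraMap W F a, isIntegral_const j a⟩
    let aB₂ : integralClosure (Algebra.adjoin W {j⁻¹}) F :=
      ⟨algebraMap W F a, isIntegral_const j⁻¹ a⟩
    have haB : tElt j - aB₂ ∈ 𝔫 := ha _ (by push_cast; rfl)
    have hpow : tElt j ^ (m + m') - aB₂ ^ (m + m') ∈ 𝔫 := by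
      obtain ⟨e, he⟩ := sub_dvd_pow_sub_pow (tElt (W := W) j) aB₂ (m + m')
      rw [he]
      exact 𝔫.mul_mem_right _ haB
    have h1 : 1 - c' * c ∈ 𝔫 := by
      have : 1 - c' * c = i := by rw [← hc']; ring
      rw [this]; exact hi
    -- the element `1 - r₀ * aB ^ (m + m') * b` lies in the pulled-back ideal
    have hkey : (1 - r₀ * aB ^ (m + m') * b : integralClosure (Algebra.adjoin W {j}) F) ∈
        pullIdeal hj 𝔫 := by
      rw [mem_pullIdeal hj]
      refine ⟨m + m', (tElt j ^ (m + m') - aB₂ ^ (m + m')) + aB₂ ^ (m + m') * (1 - c' * c),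
        𝔫.add_mem hpow (𝔫.mul_mem_left _ h1), ?_⟩
      push_cast
      show j⁻¹ ^ (m + m') - algebraMap W F a ^ (m + m') +
          algebraMap W F a ^ (m + m') * (1 - (c' : F) * (j⁻¹ ^ m * (b : F))) =
        j⁻¹ ^ (m + m') * (1 - j ^ m' * (c' : F) * algebraMap W F a ^ (m + m') * (b : F))
      have hjj : j⁻¹ ^ m' * j ^ m' = 1 := by
        rw [← mul_pow, inv_mul_cancel₀ hj, one_pow]
      rw [pow_add]
      linear_combination (j⁻¹ ^ m * (c' : F) * algebraMap W F a ^ m * algebraMap W F a ^ m'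
        * (b : F)) * hjj
    have h2 : (1 : integralClosure (Algebra.adjoin W {j}) F) =
        (1 - r₀ * aB ^ (m + m') * b) + r₀ * aB ^ (m + m') * b := by ring
    rw [h2]
    exact J.add_mem (hJ hkey) (J.mul_mem_left _ hbJ)

/-- **transfer of a local datum** from the pulled-back ideal to `𝔫` -/
theorem exists_local_of_finite (hj : j ≠ 0) [𝔫.IsPrime] (ht : tElt j ∉ 𝔫) (z : F)
    (d₁ : integralClosure (Algebra.adjoin W {j}) F) (hd₁ : d₁ ∉ pullIdeal hj 𝔫)
    (hz : IsIntegral (Algebra.adjoin W {j}) ((d₁ : F) * z)) :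
    ∃ d : integralClosure (Algebra.adjoin W {j⁻¹}) F, d ∉ 𝔫 ∧
      IsIntegral (Algebra.adjoin W {j⁻¹}) ((d : F) * z) := by
  obtain ⟨k, hk⟩ := isIntegral_inv_pow_mul hj d₁.2
  obtain ⟨k', hk'⟩ := isIntegral_inv_pow_mul hj hz
  let d₀ : integralClosure (Algebra.adjoin W {j⁻¹}) F := ⟨j⁻¹ ^ k * (d₁ : F), hk⟩
  have hd₀ : d₀ ∉ 𝔫 := fun h => hd₁ ((mem_pullIdeal hj d₁).mpr ⟨k, d₀, h, rfl⟩)
  refine ⟨tElt j ^ k' * d₀, ?_, ?_⟩
  · intro h
    rcases Ideal.IsPrime.mem_or_mem inferInstance h with h | h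
    · exact tElt_pow_notMem ht k' h
    · exact hd₀ h
  · have e : ((tElt j ^ k' * d₀ : integralClosure (Algebra.adjoin W {j⁻¹}) F) : F) * z =
        j⁻¹ ^ k * (j⁻¹ ^ k' * ((d₁ : F) * z)) := by
      push_cast
      rw [coe_tElt]
      show j⁻¹ ^ k' * (j⁻¹ ^ k * (d₁ : F)) * z = _
      ring
    rw [e]
    exact ((isIntegral_self (W := W) j⁻¹).pow k).mul hk'

/-- **The `hloc₂` clause of `kummer_step` at a finite point of the second chart from the
`hloc₁` clause.**  `G` is any predicate on the auxiliary function `g` (`GaussOne π j`). -/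
theorem hloc₂_of_hloc₁ (π : W) (hj : j ≠ 0) (G : F → Prop) (w : F) (s : ℕ)
    (hloc₁ : ∀ 𝔫₁ : Ideal (integralClosure (Algebra.adjoin W {j}) F), 𝔫₁.IsMaximal →
      (∀ r : integralClosure (Algebra.adjoin W {j}) F, (r : F) = algebraMap W F π → r ∈ 𝔫₁) →
      ∃ g : F, G g ∧ ∃ d : integralClosure (Algebra.adjoin W {j}) F, d ∉ 𝔫₁ ∧
        IsIntegral (Algebra.adjoin W {j}) ((d : F) * (w * g ^ s)))
    (h𝔫 : 𝔫.IsMaximal)
    (hπ : ∀ r : integralClosure (Algebra.adjoin W {j⁻¹}) F, (r : F) = algebraMap W F π → r ∈ 𝔫)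
    (ht : ∀ r : integralClosure (Algebra.adjoin W {j⁻¹}) F, (r : F) = j⁻¹ → r ∉ 𝔫)
    (a : W) (ha : ∀ r : integralClosure (Algebra.adjoin W {j⁻¹}) F,
      (r : F) = j⁻¹ - algebraMap W F a → r ∈ 𝔫) :
    ∃ g : F, G g ∧ ∃ d : integralClosure (Algebra.adjoin W {j⁻¹}) F, d ∉ 𝔫 ∧
      IsIntegral (Algebra.adjoin W {j⁻¹}) ((d : F) * (w * g ^ s)) := by
  have hprime : 𝔫.IsPrime := h𝔫.isPrime
  have ht' : tElt j ∉ 𝔫 := ht _ rfl
  obtain ⟨g, hg, d₁, hd₁, hz⟩ := hloc₁ (pullIdeal hj 𝔫) (pullIdeal_isMaximal hj h𝔫 ht' a ha)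
    (fun r hr => (mem_pullIdeal hj r).mpr
      ⟨0, ⟨algebraMap W F π, isIntegral_const j⁻¹ π⟩, hπ _ rfl, by rw [pow_zero, one_mul, hr]⟩)
  exact ⟨g, hg, exists_local_of_finite hj ht' _ d₁ hd₁ hz⟩

end Main

end Fermat.Agent.S34.ChartSwap
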