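import Mathlib
import Fermat.Agent.S34.LocPlace
import Fermat.Agent.S34.DDLocal

/-!
# S34, package B4 (end statement at one closed point): (DICH) ⇒ the horizontal part of (K-LOC)

`R` is the local ring `B_𝔫` of a chart at a closed point (noetherian, integrally closed, local),
`κ : R →+* FL` its inclusion in the level function field `FL`, `ψ : FL →+* F` the base change to
the function field over `K = ℚ̄`; `g` is a semilinear automorphism of `F / K` with a lift `τL` to
`FL`.  The class of the point is `C Q := ∀ r : R, ψ (κ r) ∈ O_Q` (the places through `B_𝔫`).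

* `exists_section_of_through` : a rational place through a LOCAL chart has a section (no integral
  model `A` needed: the values automatically lie in `W`).
* `hloc_of_struct` : from the local structure (smooth `(π, u)` or node `(π, X, Y)`, `π ∣ X * Y`)
  and rationality of the points of `D` and of their conjugates: every point `P` of the class in
  the support of `D` is `g`-fixed, or has a local equation, or `g • P` has one
  (the hypothesis `hloc` of `DDLocal.exists_local_dd`).
* `exists_local_datum_ord_of_struct` : hence `h ∈ FL` with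
  `ord_Q ((τ-1)² f) = ord_Q (((τ-1)² h) ^ (p ^ n))` at every place `Q` through `B_𝔫`, for
  `div f = p ^ n • D`.
-/

set_option autoImplicit false
set_option linter.unusedSectionVars false

namespace Fermat.Agent.S34.LocDD

open AlgebraicCurve IsLocalRing Fermat.Agent.S37.GaloisValue Fermat.Agent.S37.WChart
  Fermat.Agent.S34.Sections Fermat.Agent.S34.LocPlace

section Sec

variable {K F L : Type*} [Field K] [Field F] [Algebra K F] [Field L]
  {ι : L →+* K} {W : ValuationSubring L}
  {R : Type*} [CommRing R] [IsDomain R] [IsNoetherianRing R] [IsLocalRing R] [Algebra W R]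
  {ψ : R →+* F}

/-- **The section of a rational place through a local chart.**  If the chart `R` is local with
`π` in its maximal ideal, then a place through `R` which is rational on `R` has all its values in
`W`, hence a section. -/
theorem exists_section_of_through {π : W} (hW : ∀ w : W, IsUnit w ∨ π ∣ w)
    (hπ : algebraMap W R π ∈ maximalIdeal R)
    (hψW : ∀ w : W, ψ (algebraMap W R w) = algebraMap K F (ι w))
    {P : Place K F} (hthru : ∀ r : R, ψ r ∈ P.toValuationSubring) (hrat : RatOn ι ψ P) :
    ∃ s : R →ₐ[W] W, IsSectionOf ι W ψ P s := by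
  have hone : IsValueAt P (ψ 1) 1 := by
    have := isValueAt_algebraMap P (1 : K)
    rwa [map_one, ← map_one ψ] at this
  have hv : ∀ r : R, ∃ w : W, IsValueAt P (ψ r) (ι w) := by
    intro r
    obtain ⟨c, hc⟩ := hrat r (hthru r)
    by_cases hcW : c ∈ W
    · exact ⟨⟨c, hcW⟩, hc⟩
    exfalso
    have hc0 : c ≠ 0 := by
      rintro rfl
      exact hcW W.zero_mem
    have hinv : c⁻¹ ∈ W := (W.mem_or_inv_mem c).resolve_left hcW
    have hnu : ¬ IsUnit (⟨c⁻¹, hinv⟩ : W) := by
      intro hu
      obtain ⟨v, hv⟩ := hu.exists_right_inv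
      have h1 : c⁻¹ * (v : L) = 1 := congrArg Subtype.val hv
      have h2 : (v : L) = c := by
        field_simp at h1
        exact h1
      exact hcW (h2 ▸ v.2)
    obtain ⟨w'', hw''⟩ := (hW _).resolve_left hnu
    set x : R := r * algebraMap W R ⟨c⁻¹, hinv⟩ with hx
    have hxm : x ∈ maximalIdeal R := by
      rw [hx, hw'', map_mul]
      exact Ideal.mul_mem_left _ _ (Ideal.mul_mem_right _ _ hπ)
    have hxv : IsValueAt P (ψ x) 1 := by
      have h1 : IsValueAt P (ψ (algebraMap W R ⟨c⁻¹, hinv⟩)) (ι c⁻¹) := by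
        rw [hψW]
        exact isValueAt_algebraMap P _
      have h2 := hc.mul h1
      rw [← map_mul ψ, ← map_mul ι, mul_inv_cancel₀ hc0, map_one] at h2
      exact h2
    have hu : IsUnit (1 - x) :=
      IsLocalRing.isUnit_one_sub_self_of_mem_nonunits x ((mem_maximalIdeal x).mp hxm)
    obtain ⟨u', hu'⟩ := hu.exists_right_inv
    have hz : IsValueAt P (ψ (1 - x)) 0 := by
      have := hone.sub hxv
      rwa [← map_sub ψ, sub_self] at this
    have hz' : ψ (1 - x) ∈ P.toValuationSubring.nonunits :=
      (Fermat.Agent.S37.RatPlace.isValueAt_zero_iff P _).mp hz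
    have h3 : P.toValuationSubring.valuation (ψ (1 - x)) < 1 :=
      P.toValuationSubring.mem_nonunits_iff.mp hz'
    have h4 : P.toValuationSubring.valuation (ψ u') ≤ 1 :=
      (P.toValuationSubring.valuation_le_one_iff _).mpr (hthru u')
    have h5 : ψ (1 - x) * ψ u' = 1 := by rw [← map_mul, hu', map_one]
    have h6 := congrArg P.toValuationSubring.valuation h5
    rw [map_mul, map_one] at h6
    have h7 : P.toValuationSubring.valuation (ψ (1 - x)) * P.toValuationSubring.valuation (ψ u')
        < 1 := by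
      calc P.toValuationSubring.valuation (ψ (1 - x)) * P.toValuationSubring.valuation (ψ u')
          ≤ P.toValuationSubring.valuation (ψ (1 - x)) * 1 := by gcongr
        _ = P.toValuationSubring.valuation (ψ (1 - x)) := mul_one _
        _ < 1 := h3
    exact absurd h6 h7.ne
  choose s hs using hv
  have huniq : ∀ (y : R) (w : W), IsValueAt P (ψ y) (ι w) → s y = w := fun y w h =>
    Subtype.ext (ι.injective ((hs y).unique h))
  refine ⟨{ toFun := s
            map_one' := ?_
            map_mul' := ?_
            map_zero' := ?_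
            map_add' := ?_
            commutes' := ?_ }, hs⟩
  · apply huniq
    rw [OneMemClass.coe_one, map_one (ι : L →+* K)]
    exact hone
  · intro x y
    apply huniq
    rw [map_mul, MulMemClass.coe_mul, map_mul]
    exact (hs x).mul (hs y)
  · apply huniq
    rw [map_zero, ZeroMemClass.coe_zero, map_zero]
    simpa using isValueAt_algebraMap P (0 : K)
  · intro x y
    apply huniq
    rw [map_add, AddMemClass.coe_add, map_add]
    exact (hs x).add (hs y)
  · intro w
    apply huniq
    rw [hψW]
    exact isValueAt_algebraMap P _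

end Sec

section DD

variable {K F L FL : Type*} [Field K] [Field F] [Algebra K F] [Field L] [Field FL]
  (ι : L →+* K) (W : ValuationSubring L)
  {R : Type*} [CommRing R] [IsDomain R] [IsNoetherianRing R] [IsLocalRing R]
  [IsIntegrallyClosed R] [Algebra W R]
  (ψ : FL →+* F) (κ : R →+* FL)

/-- the class of a closed point: the places through its local ring -/
def Cl (Q : Place K F) : Prop := ∀ r : R, ψ (κ r) ∈ Q.toValuationSubring

/-- **(LOC) in the shape of `DDLocal`.**  At a smooth point or a node of the chart, every point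
`P` of the class in the support of `D` is `g`-fixed, or has a local equation at the level, or
`g • P` has one. -/
theorem hloc_of_struct (hκ : Function.Injective κ)
    (hψW : ∀ w : W, ψ (κ (algebraMap W R w)) = algebraMap K F (ι w))
    (π : W) (hW : ∀ w : W, IsUnit w ∨ π ∣ w) (hπ0 : π ≠ 0)
    (hsep : ∀ w : W, w ≠ 0 → ∃ n : ℕ, ¬ π ^ n ∣ w)
    (hstruct : (∃ u : R, maximalIdeal R = Ideal.span {algebraMap W R π, u}) ∨
      ∃ X Y : R, maximalIdeal R = Ideal.span {algebraMap W R π, X, Y} ∧
        algebraMap W R π ∣ X * Y)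
    (g : SemilinearAut K F)
    (hC : ∀ P : Place K F, Cl ψ κ (g • P) ↔ Cl ψ κ P) (D : Divisor K F)
    (hrat : ∀ P : Place K F, D P ≠ 0 → Cl ψ κ P →
      RatAtB ι (ψ.comp κ) P ∧ RatAtB ι (ψ.comp κ) (g • P)) :
    ∀ P : Place K F, Cl ψ κ P → D P ≠ 0 →
      g • P = P ∨ DDLocal.Good ψ (Cl ψ κ) P ∨ DDLocal.Good ψ (Cl ψ κ) (g • P) := by
  intro P hP hD
  by_cases hfix : g • P = P
  · exact Or.inl hfix
  right
  have hψ : Function.Injective (ψ.comp κ) := fun a b h => hκ (ψ.injective h)
  have hπm : algebraMap W R π ∈ maximalIdeal R := by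
    rcases hstruct with ⟨u, h𝔫⟩ | ⟨X, Y, h𝔫, -⟩
    · rw [h𝔫]; exact Ideal.subset_span (by simp)
    · rw [h𝔫]; exact Ideal.subset_span (by simp)
  obtain ⟨hR, hR'⟩ := hrat P hD hP
  have hP' : Cl ψ κ (g • P) := (hC P).mpr hP
  obtain ⟨s, hs⟩ := exists_section_of_through (ψ := ψ.comp κ) hW hπm hψW hP hR.1
  obtain ⟨s', hs'⟩ := exists_section_of_through (ψ := ψ.comp κ) hW hπm hψW hP' hR'.1
  have key : ∀ Q : Place K F, GoodAt (ψ.comp κ) Q → DDLocal.Good ψ (Cl ψ κ) Q := by
    rintro Q ⟨f, hf0, hf1, hf2⟩
    exact ⟨κ f, fun h => hf0 (hκ (by rw [h, map_zero])), hf1, fun Q' hQ' hne => hf2 Q' hQ' hne⟩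
  rcases loc_place hψ hψW π hW hπ0 hsep hstruct hs hs' hR hR' (fun h => hfix h.symm) with h | h
  · exact Or.inl (key P h)
  · exact Or.inr (key (g • P) h)

/-- **The horizontal part of (K-LOC) at one closed point.**  With `div f = p ^ n • D`, there is
`h` at the level such that `(τ-1)² f` and `((τ-1)² h) ^ (p ^ n)` have the same order at every
place through the local ring of the point. -/
theorem exists_local_datum_ord_of_struct (hκ : Function.Injective κ)
    (hψW : ∀ w : W, ψ (κ (algebraMap W R w)) = algebraMap K F (ι w))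
    (π : W) (hW : ∀ w : W, IsUnit w ∨ π ∣ w) (hπ0 : π ≠ 0)
    (hsep : ∀ w : W, w ≠ 0 → ∃ n : ℕ, ¬ π ^ n ∣ w)
    (hstruct : (∃ u : R, maximalIdeal R = Ideal.span {algebraMap W R π, u}) ∨
      ∃ X Y : R, maximalIdeal R = Ideal.span {algebraMap W R π, X, Y} ∧
        algebraMap W R π ∣ X * Y)
    (g : SemilinearAut K F) (τL : FL ≃+* FL) (hτ : ∀ x : FL, ψ (τL x) = g • ψ x)
    (hC : ∀ P : Place K F, Cl ψ κ (g • P) ↔ Cl ψ κ P) (D : Divisor K F)
    (hrat : ∀ P : Place K F, D P ≠ 0 → Cl ψ κ P →
      RatAtB ι (ψ.comp κ) P ∧ RatAtB ι (ψ.comp κ) (g • P))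
    (p n : ℕ) (f : FL) (hf0 : f ≠ 0) (hf : ∀ P : Place K F, P.ord (ψ f) = (p : ℤ) ^ n * D P) :
    ∃ h : FL, h ≠ 0 ∧ ∀ Q : Place K F, Cl ψ κ Q →
      Q.ord (ψ (τL (τL f) * f / (τL f) ^ 2)) =
        Q.ord (ψ ((τL (τL h) * h / (τL h) ^ 2) ^ (p ^ n))) :=
  DDLocal.exists_local_datum_ord g ψ τL hτ (Cl ψ κ) hC D
    (hloc_of_struct ι W ψ κ hκ hψW π hW hπ0 hsep hstruct g hC D hrat) p n f hf0 hf

end DD

end Fermat.Agent.S34.LocDD
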