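import Mathlib
import Fermat.Agent.S34.ClassStable
import Fermat.Agent.S34.SectionsLoc
import Fermat.Agent.S34.LocDD

/-!
# S34 (wave 6): stability of the classes `Through` / `Cl` under a semilinear automorphism

Complement of `ClassStable.lean` for the two other notions of "class of a point" used by the
layer-2 glue: `SectionsLoc.Through ψ 𝔫 Q` (chart currency) and `LocDD.Cl ψ κ Q` (local-ring
currency).  Both are stable under a semilinear automorphism `g` acting on the chart (resp. on the
local ring) through a ring automorphism preserving `𝔫`; with `ClassStable.locEquiv` this gives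
the hypothesis `hC` of `LocDD.hloc_of_struct` / `DDLocal.exists_local_dd` from the congruence
`τB y = y + π * z` on the chart ring alone.
-/

set_option autoImplicit false

namespace Fermat.Agent.S34.ClassThrough

open AlgebraicCurve Fermat.Agent.S37.GaloisValue

section Generic

variable {K F : Type*} [Field K] [Field F] [Algebra K F] {R : Type*} [CommRing R]
  (χ : R →+* F) (g : SemilinearAut K F) (τR : R ≃+* R) (hτ : ∀ r : R, χ (τR r) = g • χ r)

include hτ

/-- "All chart functions are regular" is stable under `g`. -/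
theorem forall_mem_smul_iff (P : Place K F) :
    (∀ r : R, χ r ∈ (g • P).toValuationSubring) ↔ ∀ r : R, χ r ∈ P.toValuationSubring := by
  constructor
  · intro h r
    have h1 := h (τR r)
    rwa [hτ, smul_mem_smul_place_iff] at h1
  · intro h r
    have h1 := (smul_mem_smul_place_iff g P _).mpr (h (τR.symm r))
    rwa [← hτ, RingEquiv.apply_symm_apply] at h1

theorem mem_nonunits_smul_iff (P : Place K F) (r : R) :
    χ (τR r) ∈ (g • P).toValuationSubring.nonunits ↔ χ r ∈ P.toValuationSubring.nonunits := by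
  rw [hτ, smul_mem_nonunits_smul_place_iff]

/-- **`Through` is stable under `g`** when the chart automorphism preserves `𝔫`. -/
theorem through_smul_iff (𝔫 : Ideal R) (h𝔫 : ∀ y : R, τR y ∈ 𝔫 ↔ y ∈ 𝔫) (P : Place K F) :
    SectionsLoc.Through χ 𝔫 (g • P) ↔ SectionsLoc.Through χ 𝔫 P := by
  constructor
  · rintro ⟨h1, h2⟩
    refine ⟨(forall_mem_smul_iff χ g τR hτ P).mp h1, fun y hy => ?_⟩
    exact (h𝔫 y).mp (h2 (τR y) ((mem_nonunits_smul_iff χ g τR hτ P y).mpr hy))
  · rintro ⟨h1, h2⟩
    refine ⟨(forall_mem_smul_iff χ g τR hτ P).mpr h1, fun y hy => ?_⟩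
    have hy' : χ (τR.symm y) ∈ P.toValuationSubring.nonunits := by
      rw [← mem_nonunits_smul_iff χ g τR hτ P, RingEquiv.apply_symm_apply]
      exact hy
    have h3 := h2 _ hy'
    rwa [← h𝔫, RingEquiv.apply_symm_apply] at h3

/-- `Through` is stable under `g` when the chart automorphism is trivial modulo `π ∈ 𝔫`. -/
theorem through_smul_iff_of_cong (π : R) (hcong : ∀ y : R, ∃ z : R, τR y = y + π * z)
    (𝔫 : Ideal R) (hπ : π ∈ 𝔫) (P : Place K F) :
    SectionsLoc.Through χ 𝔫 (g • P) ↔ SectionsLoc.Through χ 𝔫 P :=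
  through_smul_iff χ g τR hτ 𝔫 (ClassStable.map_mem_iff τR π hcong 𝔫 hπ) P

end Generic

section Local

variable {K F FL : Type*} [Field K] [Field F] [Algebra K F] [Field FL]
  {R : Type*} [CommRing R] (ψ : FL →+* F) (κ : R →+* FL) (g : SemilinearAut K F)

/-- **`LocDD.Cl` is stable under `g`** when `g` acts on the local ring through `τR`. -/
theorem cl_smul_iff (τR : R ≃+* R) (hτ : ∀ r : R, ψ (κ (τR r)) = g • ψ (κ r)) (P : Place K F) :
    LocDD.Cl ψ κ (g • P) ↔ LocDD.Cl ψ κ P :=
  forall_mem_smul_iff (ψ.comp κ) g τR hτ P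

/-- **`hC` of `LocDD.hloc_of_struct` from the chart**: if `g` acts on the chart ring `B` through
an automorphism `τB` trivial modulo `π`, then for every prime `𝔫 ∋ π` and every localisation `R`
of `B` at `𝔫` (with its map `κ` to the level function field) the class `Cl ψ κ` is `g`-stable. -/
theorem cl_smul_iff_of_chart {B : Type*} [CommRing B] [Algebra B R] (τB : B ≃+* B) (π : B)
    (hcong : ∀ y : B, ∃ z : B, τB y = y + π * z) (𝔫 : Ideal B) [𝔫.IsPrime] (hπ : π ∈ 𝔫)
    [IsLocalization.AtPrime R 𝔫]
    (hτψ : ∀ y : B, ψ (κ (algebraMap B R (τB y))) = g • ψ (κ (algebraMap B R y)))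
    (P : Place K F) : LocDD.Cl ψ κ (g • P) ↔ LocDD.Cl ψ κ P :=
  cl_smul_iff ψ κ g (ClassStable.locEquiv τB π hcong 𝔫 hπ R)
    (fun r => ClassStable.map_locEquiv_smul τB π hcong 𝔫 hπ R g
      ((ψ.comp κ).comp (algebraMap B R)) (ψ.comp κ) (fun _ => rfl) hτψ r) P

end Local

end Fermat.Agent.S34.ClassThrough
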