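import Mathlib
import Fermat.Agent.S34.BaseLift
import Fermat.Agent.S34.BetaInt
import Fermat.Agent.S34.FrobPartner

/-!
# S34, B2 finite chart: the reductions of the level-`M ℓ` chart land in the level-`M` chart

Raw S18/S37 currency (`W` a discrete valuation ring of the level field `L`, algebraically closed
residue field of characteristic `ℓ ∤ M`).

* `red_isIntegralElem` : at every level, the reduction of a function integral over `W[j]` is
  integral over `κ[j̄]`;
* `isIntegralElem_atkinLehner` : an Atkin–Lehner automorphism (`w ∘ α = β`) preserves the finite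
  chart `W[j]` of level `M ℓ`;
* `exists_red_eq_of_F1` : **(H_f1) from (F1)** — if the reductions of the Gauss-integral
  functions of level `M ℓ` lie in `F_κ(M)` (`f(v₁|v_M) = 1`), then the reduction of every function
  of level `M ℓ` integral over `W[j]` is the reduction of a function of level `M` integral over
  `W[j]`: `res₁ (B_N) ⊆ red (B_M)`;
* `exists_red_eq_of_F1_w` : the same for the second branch `res₂ = res₁ ∘ w`.
-/

set_option autoImplicit false
set_option linter.unusedSectionVars false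

namespace Fermat.Agent.S34.CompF1

open ModularCurve Polynomial Fermat.Agent.S18 Fermat.Agent.S18.Gauss Fermat.Agent.S24

local notation "Qb" => AlgebraicClosure ℚ

section AnyLevel

variable {L : Type*} [Field L] [Algebra ℚ L] (W : ValuationSubring L) (N : ℕ) [NeZero N]

/-- At every level, the reduction of a function integral over `W[j]` (with `W`-integral
`q`-expansion) is integral over `κ[j̄]`. -/
theorem red_isIntegralElem {x : FF L N} (hxW : (x : LaurentSeries L) ∈ contentRing W)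
    (hx : (evF W N).IsIntegralElem x) : (redJ W).IsIntegralElem (red W ⟨x, hxW⟩) := by
  obtain ⟨P, hP, hroot⟩ := hx
  refine ⟨P, hP, ?_⟩
  have h1 : P.eval₂ (evC W) (⟨x, hxW⟩ : contentRing W) = 0 := by
    apply Subtype.val_injective
    have h := Polynomial.hom_eval₂ P (evC W) (contentRing W).subtype (⟨x, hxW⟩ : contentRing W)
    rw [subtype_comp_evC] at h
    have h2 : P.eval₂ (evL W) (x : LaurentSeries L) = 0 := by
      rw [← coe_eval₂_evF, hroot]
      rfl
    exact h.trans h2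
  have h3 := congrArg (red W) h1
  rw [Polynomial.hom_eval₂, map_zero] at h3
  exact h3

end AnyLevel

section Level

variable {L : Type*} [Field L] [Algebra ℚ L] (W : ValuationSubring L)
  (M ℓ : ℕ) [NeZero M] [NeZero ℓ]

theorem alpha_jBC : heckeAlphaBar L M ℓ (jBC L M) = jBC L (M * ℓ) := by
  apply Subtype.ext
  rw [coe_heckeAlphaBar]
  rfl

/-- **An Atkin–Lehner automorphism preserves the finite chart** `W[j]` of level `M ℓ`. -/
theorem isIntegralElem_atkinLehner (hℓ : ℓ.Prime) (w : FF L (M * ℓ) ≃ₐ[L] FF L (M * ℓ))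
    (hα : (w : FF L (M * ℓ) →ₐ[L] FF L (M * ℓ)).comp (heckeAlphaBar L M ℓ) = heckeBetaBar L M ℓ)
    {x : FF L (M * ℓ)} (hx : (evF W (M * ℓ)).IsIntegralElem x) :
    (evF W (M * ℓ)).IsIntegralElem (w x) := by
  have h := Fermat.Agent.S34.BetaInt.isIntegralElem_map_comp (evF W (M * ℓ))
    (w : FF L (M * ℓ) →ₐ[L] FF L (M * ℓ)).toRingHom hx
  refine Fermat.Agent.S34.BetaInt.isIntegralElem_trans _ _ ?_ _ h
  intro p
  induction p using Polynomial.induction_on with
  | C a =>
    have e : ((w : FF L (M * ℓ) →ₐ[L] FF L (M * ℓ)).toRingHom.comp (evF W (M * ℓ))) (C a) =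
        evF W (M * ℓ) (C a) := by
      rw [RingHom.comp_apply, evF_C]
      exact AlgHom.commutes _ _
    rw [e]
    exact RingHom.isIntegralElem_map _
  | add p q hp hq =>
    rw [map_add]
    exact RingHom.IsIntegralElem.add _ hp hq
  | monomial n a ih =>
    rw [pow_succ, ← mul_assoc, map_mul]
    refine RingHom.IsIntegralElem.mul _ ih ?_
    rw [RingHom.comp_apply, evF_X]
    have e : (w : FF L (M * ℓ) →ₐ[L] FF L (M * ℓ)).toRingHom (jBC L (M * ℓ)) =
        heckeBetaBar L M ℓ (jBC L M) := by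
      rw [← alpha_jBC M ℓ, ← hα]
      rfl
    rw [e]
    exact Fermat.Agent.S34.BetaInt.isIntegralElem_beta_j W M ℓ hℓ

end Level

section F1

variable {L : Type} [Field L] [Algebra ℚ L] (ι : L →+* Qb) (W : ValuationSubring L)
  [IsDiscreteValuationRing ↥W] [IsAlgClosed (IsLocalRing.ResidueField ↥W)]
  (M ℓ : ℕ) [NeZero M] [NeZero ℓ] [CharP (IsLocalRing.ResidueField ↥W) ℓ]

/-- **(H_f1) from (F1)**: `res₁ (B_N) ⊆ red (B_M)`, `N = M ℓ`. -/
theorem exists_red_eq_of_F1 (hℓ : ℓ.Prime) (hℓM : ¬ ℓ ∣ M)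
    (hroots : ∀ x : Qb, (∃ n : ℕ, ¬ ℓ ∣ n ∧ x ^ n = 1) → ∃ b : L, ι b = x)
    (hF1 : ∀ (x : FF L (M * ℓ)) (hx : (x : LaurentSeries L) ∈ contentRing W),
      red W ⟨x, hx⟩ ∈ modularFunctionFieldFullC (IsLocalRing.ResidueField ↥W) M)
    (x : FF L (M * ℓ)) (hx : (evF W (M * ℓ)).IsIntegralElem x) :
    ∃ y : FF L M, (evF W M).IsIntegralElem y ∧
      ∃ (hxW : (x : LaurentSeries L) ∈ contentRing W)
        (hyW : (y : LaurentSeries L) ∈ contentRing W), red W ⟨x, hxW⟩ = red W ⟨y, hyW⟩ := by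
  have hxW := Fermat.Agent.S34.FrobPartner.mem_contentRing_of_int W (M * ℓ) hx
  have hint := red_isIntegralElem W (M * ℓ) hxW hx
  obtain ⟨y, hy, hyW, hyr⟩ := Fermat.Agent.S34.BaseLift.exists_int_of_mem_fullC M ι W hℓ hℓM
    hroots (hF1 x hxW) hint
  exact ⟨y, hy, hxW, hyW, hyr.symm⟩

/-- **(H_f1) from (F1), second branch**: `res₂ (B_N) ⊆ red (B_M)`, `res₂ = res₁ ∘ w`. -/
theorem exists_red_eq_of_F1_w (hℓ : ℓ.Prime) (hℓM : ¬ ℓ ∣ M)
    (hroots : ∀ x : Qb, (∃ n : ℕ, ¬ ℓ ∣ n ∧ x ^ n = 1) → ∃ b : L, ι b = x)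
    (hF1 : ∀ (x : FF L (M * ℓ)) (hx : (x : LaurentSeries L) ∈ contentRing W),
      red W ⟨x, hx⟩ ∈ modularFunctionFieldFullC (IsLocalRing.ResidueField ↥W) M)
    (w : FF L (M * ℓ) ≃ₐ[L] FF L (M * ℓ))
    (hα : (w : FF L (M * ℓ) →ₐ[L] FF L (M * ℓ)).comp (heckeAlphaBar L M ℓ) = heckeBetaBar L M ℓ)
    (x : FF L (M * ℓ)) (hx : (evF W (M * ℓ)).IsIntegralElem x) :
    ∃ y : FF L M, (evF W M).IsIntegralElem y ∧
      ∃ (hxW : ((w x : FF L (M * ℓ)) : LaurentSeries L) ∈ contentRing W)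
        (hyW : (y : LaurentSeries L) ∈ contentRing W), red W ⟨_, hxW⟩ = red W ⟨y, hyW⟩ :=
  exists_red_eq_of_F1 ι W M ℓ hℓ hℓM hroots hF1 (w x)
    (isIntegralElem_atkinLehner W M ℓ hℓ w hα hx)

end F1

end Fermat.Agent.S34.CompF1
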