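/-
S34 (wave 6), B2 helpers in abstract currency.  Mathlib only.

* `smooth_pt` : (S3) a local ring `R` with `(π) = ker φ` for a surjection `φ : R → D` onto a
  discrete valuation ring and `u` mapping to a uniformiser has maximal ideal `(π, u)`.
* `residue_onto` : the residue field at a closed point of the special fibre of a chart is the
  residue field of the base: `B` integral over `W[j]`, `W ⧸ (ϖ)` an algebraically closed field,
  `𝔫 ∋ ϖ` a maximal ideal of `B`; then every `b : B` is congruent modulo `𝔫` to a constant.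
* `residue_onto_localization` : the same for the local ring `B_𝔫`.
-/
import Mathlib

set_option autoImplicit false

namespace Fermat.Agent.S34.CompLocal

open IsLocalRing

section Smooth

variable {R D : Type*} [CommRing R] [IsLocalRing R] [CommRing D] [IsDomain D]
  [IsDiscreteValuationRing D]

/-- **(S3), smooth point.** -/
theorem smooth_pt (φ : R →+* D) (hφ : Function.Surjective φ) (π u : R)
    (hπ : Ideal.span {π} = RingHom.ker φ) (hu : Irreducible (φ u)) :
    maximalIdeal R = Ideal.span {π, u} := by
  have hker_le : RingHom.ker φ ≤ maximalIdeal R :=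
    IsLocalRing.le_maximalIdeal (RingHom.ker_ne_top φ)
  have hπm : π ∈ maximalIdeal R := hker_le (hπ ▸ Ideal.mem_span_singleton_self π)
  have hum : u ∈ maximalIdeal R := by
    rw [IsLocalRing.mem_maximalIdeal]
    intro hunit
    exact hu.not_isUnit (hunit.map φ)
  apply le_antisymm
  · intro z hz
    -- `φ z` is a non-unit of `D`, hence a multiple of `φ u`
    have hnu : φ z ∈ maximalIdeal D := by
      rw [IsLocalRing.mem_maximalIdeal]
      intro hunit
      obtain ⟨d, hd⟩ := hunit.exists_right_inv
      obtain ⟨w, rfl⟩ := hφ d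
      have hk : z * w - 1 ∈ RingHom.ker φ := by
        rw [RingHom.mem_ker, map_sub, map_mul, hd, map_one, sub_self]
      have h1 : z * w - 1 ∈ maximalIdeal R := hker_le hk
      have h2 : z * w ∈ maximalIdeal R := Ideal.mul_mem_right _ _ hz
      have h3 : (1 : R) ∈ maximalIdeal R := by
        have h4 := Ideal.sub_mem _ h2 h1
        have e : z * w - (z * w - 1) = 1 := by ring
        rwa [e] at h4
      exact (maximalIdeal.isMaximal R).ne_top ((Ideal.eq_top_iff_one _).mpr h3)
    have hmax : maximalIdeal D = Ideal.span {φ u} :=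
      (IsDiscreteValuationRing.irreducible_iff_uniformizer _).mp hu
    rw [hmax, Ideal.mem_span_singleton] at hnu
    obtain ⟨d, hd⟩ := hnu
    obtain ⟨w, rfl⟩ := hφ d
    have hk : z - u * w ∈ RingHom.ker φ := by
      rw [RingHom.mem_ker, map_sub, map_mul, hd, sub_self]
    rw [← hπ, Ideal.mem_span_singleton] at hk
    obtain ⟨c, hc⟩ := hk
    rw [Ideal.mem_span_pair]
    exact ⟨c, w, by linear_combination -hc⟩
  · rw [Ideal.span_le]
    intro z hz
    rcases hz with rfl | rfl
    · exact hπm
    · exact hum

end Smooth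

section Residue

/-- A field which is integral over a subalgebra `k[x]`, `k` algebraically closed, is `k`. -/
theorem surjective_of_integral_adjoin {k K : Type*} [Field k] [IsAlgClosed k] [Field K]
    [Algebra k K] (x : K) (hint : ∀ y : K, IsIntegral (Algebra.adjoin k {x}) y) :
    Function.Surjective (algebraMap k K) := by
  -- `k[x]` is a field
  have hI : Algebra.IsIntegral (Algebra.adjoin k {x}) K := ⟨hint⟩
  have hfield : IsField (Algebra.adjoin k {x}) :=
    isField_of_isIntegral_of_isField (R := Algebra.adjoin k {x}) (S := K)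
      Subtype.val_injective (Field.toIsField K)
  -- hence `x` is algebraic over `k`
  have hx : IsIntegral k x := by
    by_cases hx0 : x = 0
    · rw [hx0]; exact isIntegral_zero
    · have hx'0 : (⟨x, Algebra.subset_adjoin (Set.mem_singleton x)⟩ : Algebra.adjoin k {x}) ≠ 0 :=
        fun h => hx0 (congrArg Subtype.val h)
      obtain ⟨y, hy⟩ := hfield.mul_inv_cancel hx'0
      have hymem : (y : K) ∈ (Polynomial.aeval (R := k) x).range := by
        rw [← Algebra.adjoin_singleton_eq_range_aeval]
        exact y.2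
      obtain ⟨P, hP⟩ := hymem
      have hxy : x * (y : K) = 1 := by
        have := congrArg Subtype.val hy
        simpa using this
      rw [← isAlgebraic_iff_isIntegral]
      refine ⟨Polynomial.X * P - 1, ?_, ?_⟩
      · intro h0
        have := congrArg (Polynomial.eval 0) h0
        simp at this
      · have hP' : Polynomial.aeval x P = (y : K) := hP
        rw [map_sub, map_mul, Polynomial.aeval_X, hP', hxy, map_one, sub_self]
  -- so `K` is integral over `k`
  have hK : Algebra.IsIntegral k K := by
    refine ⟨fun y => ?_⟩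
    have h1 : Algebra.IsIntegral k (Algebra.adjoin k {x}) := by
      refine ⟨fun z => ?_⟩
      have hz : (z : K) ∈ Algebra.adjoin k {x} := z.2
      have : IsIntegral k (z : K) := by
        refine Algebra.adjoin_induction (p := fun w _ => IsIntegral k w) ?_ ?_ ?_ ?_ hz
        · intro w hw
          rw [Set.mem_singleton_iff.mp hw]; exact hx
        · intro r; exact isIntegral_algebraMap
        · intro a b _ _ ha hb; exact ha.add hb
        · intro a b _ _ ha hb; exact ha.mul hb
      exact (isIntegral_algebraMap_iff (Subtype.val_injective)).mp this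
    exact isIntegral_trans (A := Algebra.adjoin k {x}) y (hint y)
  exact (IsAlgClosed.algebraMap_bijective_of_isIntegral (k := k) (K := K)).2

/-- **Residue field of a chart at a closed point of the special fibre.**  `B` integral over
`W[j]`, `W` local with algebraically closed residue field, `𝔫` a maximal ideal of `B`
containing the image of the maximal ideal of `W`: every element of `B` is congruent to a
constant modulo `𝔫`. -/
theorem residue_onto {W B : Type*} [CommRing W] [IsLocalRing W]
    [IsAlgClosed (ResidueField W)] [CommRing B] [Algebra W B] (j : B)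
    (hint : ∀ b : B, IsIntegral (Algebra.adjoin W {j}) b)
    (𝔫 : Ideal B) [h𝔫 : 𝔫.IsMaximal] (hW : ∀ a ∈ maximalIdeal W, algebraMap W B a ∈ 𝔫) (b : B) :
    ∃ w : W, b - algebraMap W B w ∈ 𝔫 := by
  letI : Field (B ⧸ 𝔫) := Ideal.Quotient.field 𝔫
  let g : ResidueField W →+* B ⧸ 𝔫 :=
    Ideal.Quotient.lift (maximalIdeal W) ((Ideal.Quotient.mk 𝔫).comp (algebraMap W B))
      (fun a ha => Ideal.Quotient.eq_zero_iff_mem.mpr (hW a ha))
  letI : Algebra (ResidueField W) (B ⧸ 𝔫) := g.toAlgebra
  have hg : ∀ w : W, algebraMap (ResidueField W) (B ⧸ 𝔫) (IsLocalRing.residue W w)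
      = Ideal.Quotient.mk 𝔫 (algebraMap W B w) := fun w => rfl
  set x : B ⧸ 𝔫 := Ideal.Quotient.mk 𝔫 j with hx
  -- the image of `W[j]` lies in `k[x]`
  have hmem : ∀ z : Algebra.adjoin W {j},
      Ideal.Quotient.mk 𝔫 (z : B) ∈ Algebra.adjoin (ResidueField W) {x} := by
    rintro ⟨z, hz⟩
    refine Algebra.adjoin_induction
      (p := fun w _ => Ideal.Quotient.mk 𝔫 w ∈ Algebra.adjoin (ResidueField W) {x}) ?_ ?_ ?_ ?_ hz
    · intro w hw
      rw [Set.mem_singleton_iff.mp hw]
      exact Algebra.subset_adjoin (Set.mem_singleton x)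
    · intro r
      rw [← hg r]
      exact Subalgebra.algebraMap_mem _ _
    · intro a c _ _ ha hc
      rw [map_add]; exact Subalgebra.add_mem _ ha hc
    · intro a c _ _ ha hc
      rw [map_mul]; exact Subalgebra.mul_mem _ ha hc
  let φ : Algebra.adjoin W {j} →+* Algebra.adjoin (ResidueField W) {x} :=
    ((Ideal.Quotient.mk 𝔫).comp (Algebra.adjoin W {j}).val.toRingHom).codRestrict
      (Algebra.adjoin (ResidueField W) {x}) hmem
  have hcomp : (algebraMap (Algebra.adjoin (ResidueField W) {x}) (B ⧸ 𝔫)).comp φ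
      = (Ideal.Quotient.mk 𝔫).comp (algebraMap (Algebra.adjoin W {j}) B) := by
    ext z
    rfl
  have hint' : ∀ y : B ⧸ 𝔫, IsIntegral (Algebra.adjoin (ResidueField W) {x}) y := by
    intro y
    obtain ⟨c, rfl⟩ := Ideal.Quotient.mk_surjective y
    exact IsIntegral.map_of_comp_eq φ (Ideal.Quotient.mk 𝔫) hcomp (hint c)
  obtain ⟨c, hc⟩ := surjective_of_integral_adjoin x hint' (Ideal.Quotient.mk 𝔫 b)
  obtain ⟨w, rfl⟩ := IsLocalRing.residue_surjective c
  refine ⟨w, ?_⟩
  rw [hg w] at hc
  rw [← Ideal.Quotient.eq]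
  exact hc.symm

/-- The same for the local ring `B_𝔫`. -/
theorem residue_onto_localization {W B R : Type*} [CommRing W] [IsLocalRing W]
    [IsAlgClosed (ResidueField W)] [CommRing B] [Algebra W B] (j : B)
    (hint : ∀ b : B, IsIntegral (Algebra.adjoin W {j}) b)
    (𝔫 : Ideal B) [h𝔫 : 𝔫.IsMaximal] (hW : ∀ a ∈ maximalIdeal W, algebraMap W B a ∈ 𝔫)
    [CommRing R] [Algebra B R] [Algebra W R] [IsScalarTower W B R]
    [IsLocalization.AtPrime R 𝔫] [IsLocalRing R] (r : R) :
    ∃ w : W, r - algebraMap W R w ∈ maximalIdeal R := by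
  obtain ⟨⟨c, t⟩, hct⟩ := IsLocalization.surj 𝔫.primeCompl r
  simp only at hct
  obtain ⟨w₁, hw₁⟩ := residue_onto j hint 𝔫 hW c
  obtain ⟨w₂, hw₂⟩ := residue_onto j hint 𝔫 hW (t : B)
  have hw₂u : IsUnit w₂ := by
    by_contra hnu
    have hmem : algebraMap W B w₂ ∈ 𝔫 := hW w₂ ((IsLocalRing.mem_maximalIdeal w₂).mpr hnu)
    have : (t : B) ∈ 𝔫 := by
      have e : (t : B) = ((t : B) - algebraMap W B w₂) + algebraMap W B w₂ := by ring
      rw [e]
      exact 𝔫.add_mem hw₂ hmem
    exact t.2 this
  obtain ⟨v₂, hv₂⟩ := hw₂u.exists_left_inv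
  refine ⟨v₂ * w₁, ?_⟩
  -- `t * (r - v) ∈ 𝔪_R` and `t` is a unit of `R`
  have ht : IsUnit (algebraMap B R (t : B)) := IsLocalization.map_units R t
  have hB : c - (t : B) * algebraMap W B (v₂ * w₁) ∈ 𝔫 := by
    have e : c - (t : B) * algebraMap W B (v₂ * w₁)
        = (c - algebraMap W B w₁)
          - algebraMap W B (v₂ * w₁) * ((t : B) - algebraMap W B w₂) := by
      have h1 : algebraMap W B (v₂ * w₁) * algebraMap W B w₂ = algebraMap W B w₁ := by
        rw [← map_mul]
        congr 1
        calc v₂ * w₁ * w₂ = (v₂ * w₂) * w₁ := by ring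
          _ = w₁ := by rw [hv₂, one_mul]
      linear_combination -h1
    rw [e]
    exact 𝔫.sub_mem hw₁ (𝔫.mul_mem_left _ hw₂)
  have hR : algebraMap B R (c - (t : B) * algebraMap W B (v₂ * w₁)) ∈ maximalIdeal R :=
    (IsLocalization.AtPrime.to_map_mem_maximal_iff R 𝔫 _).mpr hB
  have hprod : algebraMap B R (t : B) * (r - algebraMap W R (v₂ * w₁))
      = algebraMap B R (c - (t : B) * algebraMap W B (v₂ * w₁)) := by
    have e1 : algebraMap B R (algebraMap W B (v₂ * w₁)) = algebraMap W R (v₂ * w₁) :=
      (IsScalarTower.algebraMap_apply W B R _).symm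
    rw [map_sub (algebraMap B R), map_mul (algebraMap B R), e1, ← hct]
    ring
  obtain ⟨ti, hti⟩ := ht.exists_left_inv
  have : r - algebraMap W R (v₂ * w₁)
      = ti * (algebraMap B R (t : B) * (r - algebraMap W R (v₂ * w₁))) := by
    rw [← mul_assoc, hti, one_mul]
  rw [this, hprod]
  exact Ideal.mul_mem_left _ _ hR

end Residue

end Fermat.Agent.S34.CompLocal
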