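/-
S34 (wave 6, long shot): the `q`-expansion Gauss valuation at an ARBITRARY level `N` (the residue
characteristic may divide `N`), in the `IsInt` / `InC` currency of `S18.Endgame` and in the raw
`evF` currency of `S18.Gauss`.

`W ⊆ L` a discrete valuation ring, `F = FF L N`, `j = jBC L N`.

* `mem_contentRing_of_isInt` : an element integral over `W[x]`, `x` of `W`-integral `q`-expansion,
  has `W`-integral `q`-expansion (`x = j`, `x = j⁻¹`, `x = j(q^ℓ)`, ...);
* `mem_contentRing_of_isIntegralElem` **(H_int)** : integral over `W[j]` (raw `evF` currency) implies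
  `W`-integral `q`-expansion;
* `mem_contentRing_of_mul_isIntegralElem`, `mem_contentRing_of_inC` **(V3b at `O₁`)** :
  Gauss-integral elements have `W`-integral `q`-expansion;
* `mem_contentRing_of_inC_beta`, `mem_both_of_inC` **(V3b)** : for an Atkin–Lehner automorphism `w`
  of `FF L (M * ℓ)`, a Gauss-integral `y` has `y` and `w y` of `W`-integral `q`-expansion;
* `hram` **(K-RAM)** : `InC (π ^ k * y ^ s)` and `InC (π ^ k * y ^ s)⁻¹` imply `s ∣ k` — the
  hypothesis `hram` of `KummerInd.kummer_descent`.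
-/
import Mathlib
import Fermat.Agent.S18.GaussVal
import Fermat.Agent.S18.Endgame
import Fermat.Agent.S34.DDGauss

set_option autoImplicit false

noncomputable section

namespace Fermat.Agent.S34.ContentVal

open ModularCurve Polynomial Fermat.Agent.S18 Fermat.Agent.S18.Gauss Fermat.Agent.S24
  Fermat.Agent.S18.Endgame

variable {L : Type*} [Field L] [Algebra ℚ L] (W : ValuationSubring L)

/-! ### Evaluation at a point with integral `q`-expansion -/

section Point

variable (N : ℕ)

theorem coe_algebraMap_W (a : W) :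
    ((algebraMap (↥W) (FF L N) a : FF L N) : LaurentSeries L) = HahnSeries.C (a : L) := by
  show algebraMap L (LaurentSeries L) (a : L) = HahnSeries.C (a : L)
  rw [algebraMap_laurentSeries_eq_single]
  rfl

/-- evaluation of a polynomial over `W` at a point with `W`-integral `q`-expansion has
`W`-integral `q`-expansion -/
theorem coe_ev_mem {x : FF L N} (hx : (x : LaurentSeries L) ∈ contentRing W) (p : (↥W)[X]) :
    ((algebraMap (FF L N) (LaurentSeries L)).comp (ev (↥W) x)) p ∈ contentRing W := by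
  induction p using Polynomial.induction_on with
  | C a =>
    rw [RingHom.comp_apply, ev_C]
    show ((algebraMap (↥W) (FF L N) a : FF L N) : LaurentSeries L) ∈ contentRing W
    rw [coe_algebraMap_W]
    exact C_mem_contentRing W a
  | add p q hp hq =>
    rw [map_add]
    exact add_mem hp hq
  | monomial n a ih =>
    rw [pow_succ, ← mul_assoc, map_mul]
    refine mul_mem ih ?_
    rw [RingHom.comp_apply, ev_X]
    exact hx

/-- evaluation at a point with `W`-integral `q`-expansion, as a map to the content ring -/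
def evIn {x : FF L N} (hx : (x : LaurentSeries L) ∈ contentRing W) :
    (↥W)[X] →+* contentRing W :=
  ((algebraMap (FF L N) (LaurentSeries L)).comp (ev (↥W) x)).codRestrict (contentRing W)
    (coe_ev_mem W N hx)

theorem subtype_comp_evIn {x : FF L N} (hx : (x : LaurentSeries L) ∈ contentRing W) :
    (contentRing W).subtype.comp (evIn W N hx) =
      (algebraMap (FF L N) (LaurentSeries L)).comp (ev (↥W) x) := rfl

variable [IsDiscreteValuationRing W]

/-- **Integral over `W[x]` implies `W`-integral `q`-expansion**, for every point `x` with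
`W`-integral `q`-expansion (any level). -/
theorem mem_contentRing_of_isInt {x y : FF L N} (hx : (x : LaurentSeries L) ∈ contentRing W)
    (h : IsInt (↥W) x y) : (y : LaurentSeries L) ∈ contentRing W := by
  obtain ⟨P, hP, hroot⟩ := h
  refine mem_contentRing_of_monic_root W (DDGauss.coe_mem_fracInt W N y)
    (P.map (evIn W N hx)) (hP.map _) ?_
  rw [Polynomial.eval₂_map, subtype_comp_evIn]
  have h1 := Polynomial.hom_eval₂ P (ev (↥W) x) (algebraMap (FF L N) (LaurentSeries L)) y
  rw [hroot, map_zero] at h1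
  exact h1.symm

/-- **Gauss-integral with respect to `W[x]` implies `W`-integral `q`-expansion**, provided the
evaluations at `x` of the polynomials not divisible by `π` are units of the content ring. -/
theorem mem_contentRing_of_inC_at {ϖ : W} {x y : FF L N}
    (hx : (x : LaurentSeries L) ∈ contentRing W)
    (hunit : ∀ p : (↥W)[X], ¬ C ϖ ∣ p → ∃ u : LaurentSeries L, u ∈ contentRing W ∧
      u * ((aeval x p : FF L N) : LaurentSeries L) = 1)
    (h : InC ϖ x y) : (y : LaurentSeries L) ∈ contentRing W := by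
  obtain ⟨p, hp, hint⟩ := h
  obtain ⟨u, hu, hu1⟩ := hunit p hp
  have h1 := mem_contentRing_of_isInt W N hx hint
  have h2 : (y : LaurentSeries L) =
      u * ((aeval x p * y : FF L N) : LaurentSeries L) := by
    have h3 : ((aeval x p * y : FF L N) : LaurentSeries L) =
        ((aeval x p : FF L N) : LaurentSeries L) * (y : LaurentSeries L) := rfl
    rw [h3, ← mul_assoc, hu1, one_mul]
  rw [h2]
  exact mul_mem hu h1

end Point

/-! ### The point `j` -/

section J

variable (N : ℕ) [NeZero N]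

/-- the two evaluation maps at `j` agree -/
theorem ev_eq_evF : ev (↥W) (jBC L N) = evF W N := by
  apply Polynomial.ringHom_ext
  · intro a
    rw [ev_C, evF_C]
    rfl
  · rw [ev_X, evF_X]

theorem isInt_iff (y : FF L N) : IsInt (↥W) (jBC L N) y ↔ (evF W N).IsIntegralElem y := by
  rw [IsInt, ev_eq_evF]

theorem coe_jBC_mem : ((jBC L N : FF L N) : LaurentSeries L) ∈ contentRing W := by
  rw [coe_jBC_eq]
  exact jq_mem_contentRing W

variable [IsDiscreteValuationRing W]

omit [Algebra ℚ L] in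
/-- for a uniformiser `π`, a polynomial not divisible by `π` is nonzero modulo the maximal
ideal -/
theorem map_residue_ne_zero {ϖ : W} (hϖ : Irreducible ϖ) {S : (↥W)[X]} (hS : ¬ C ϖ ∣ S) :
    S.map (IsLocalRing.residue W) ≠ 0 := by
  intro h0
  apply hS
  rw [Polynomial.C_dvd_iff_dvd_coeff]
  intro i
  have h1 : IsLocalRing.residue W (S.coeff i) = 0 := by
    rw [← Polynomial.coeff_map, h0, Polynomial.coeff_zero]
  obtain ⟨y, hy⟩ := (residue_eq_zero_iff_unif W hϖ _).mp h1
  exact ⟨y, hy⟩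

/-- **(H_int)** at every level: an element integral over `W[j]` has `W`-integral
`q`-expansion. -/
theorem mem_contentRing_of_isIntegralElem (x : FF L N) (hint : (evF W N).IsIntegralElem x) :
    (x : LaurentSeries L) ∈ contentRing W :=
  mem_contentRing_of_isInt W N (coe_jBC_mem W N) ((isInt_iff W N x).mpr hint)

omit [Algebra ℚ L] [IsDiscreteValuationRing ↥W] in
/-- the value at `j` of a polynomial nonzero modulo the maximal ideal is a unit of the content
ring -/
theorem exists_inv_evL {S : (↥W)[X]} (hS : S.map (IsLocalRing.residue W) ≠ 0) :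
    ∃ u : LaurentSeries L, u ∈ contentRing W ∧ u * evL W S = 1 := by
  have hred : red W ⟨evL W S, evL_mem_contentRing W S⟩ ≠ 0 := by
    rw [red_evL]
    exact fun h => hS ((redJ_eq_zero_iff W S).mp h)
  have hS0 : evL W S ≠ 0 := by
    intro h0
    apply hred
    have h1 : (⟨evL W S, evL_mem_contentRing W S⟩ : contentRing W) = 0 := Subtype.ext h0
    rw [h1, map_zero]
  exact ⟨(evL W S)⁻¹, inv_mem_contentRing W (evL_mem_contentRing W S) hred,
    inv_mul_cancel₀ hS0⟩

/-- **(V3b at `O₁`), raw form**: a Gauss-integral element has `W`-integral `q`-expansion. -/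
theorem mem_contentRing_of_mul_isIntegralElem (x : FF L N) (S : (↥W)[X])
    (hS : S.map (IsLocalRing.residue W) ≠ 0)
    (hint : (evF W N).IsIntegralElem (evF W N S * x)) :
    (x : LaurentSeries L) ∈ contentRing W := by
  have hy := mem_contentRing_of_isIntegralElem W N _ hint
  obtain ⟨u, hu, hu1⟩ := exists_inv_evL W hS
  have h1 : (x : LaurentSeries L) = u * ((evF W N S * x : FF L N) : LaurentSeries L) := by
    have h2 : ((evF W N S * x : FF L N) : LaurentSeries L) =
        evL W S * (x : LaurentSeries L) := rfl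
    rw [h2, ← mul_assoc, hu1, one_mul]
  rw [h1]
  exact mul_mem hu hy

/-- **(V3b at `O₁`), `InC` form**: a Gauss-integral element has `W`-integral `q`-expansion. -/
theorem mem_contentRing_of_inC {ϖ : W} (hϖ : Irreducible ϖ) (x : FF L N)
    (h : InC ϖ (jBC L N) x) : (x : LaurentSeries L) ∈ contentRing W := by
  obtain ⟨p, hp, hint⟩ := h
  refine mem_contentRing_of_mul_isIntegralElem W N x p (map_residue_ne_zero W hϖ hp) ?_
  rw [IsInt, ev_eq_evF, ← ev_apply, ev_eq_evF] at hint
  exact hint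

/-- **(K-RAM)**: the hypothesis `hram` of `KummerInd.kummer_descent` at every level: the
`q`-expansion Gauss valuation is `ℤ`-valued with uniformiser `π`. -/
theorem hram {ϖ : W} (hϖ : Irreducible ϖ) (s : ℕ) :
    ∀ (k : ℕ) (y : FF L N), y ≠ 0 →
      InC ϖ (jBC L N) (algebraMap (↥W) (FF L N) ϖ ^ k * y ^ s) →
      InC ϖ (jBC L N) (algebraMap (↥W) (FF L N) ϖ ^ k * y ^ s)⁻¹ → s ∣ k := by
  intro k y hy h1 h2
  have hy0 : (y : LaurentSeries L) ≠ 0 := fun h => hy (Subtype.ext h)
  obtain ⟨n, u, hu, hured, hyu⟩ :=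
    fracInt_exists_zpow_mul_unit W hϖ (DDGauss.coe_mem_fracInt W N y) hy0
  have hC0 : (HahnSeries.C ((ϖ : W) : L) : LaurentSeries L) ≠ 0 := C_unif_ne_zero W hϖ
  have hu0 : u ≠ 0 := by
    intro h0
    apply hured
    have h1 : (⟨u, hu⟩ : contentRing W) = 0 := Subtype.ext h0
    rw [h1, map_zero]
  have huinv : u⁻¹ ∈ contentRing W := inv_mem_contentRing W hu hured
  -- the element `z = π ^ k * y ^ s`
  have hz1 := mem_contentRing_of_inC W N hϖ _ h1
  have hz2 := mem_contentRing_of_inC W N hϖ _ h2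
  have hcoe : ((algebraMap (↥W) (FF L N) ϖ ^ k * y ^ s : FF L N) : LaurentSeries L) =
      HahnSeries.C ((ϖ : W) : L) ^ ((k : ℤ) + (s : ℤ) * n) * u ^ s := by
    have h3 : ((algebraMap (↥W) (FF L N) ϖ ^ k * y ^ s : FF L N) : LaurentSeries L) =
        ((algebraMap (↥W) (FF L N) ϖ : FF L N) : LaurentSeries L) ^ k *
          (y : LaurentSeries L) ^ s := rfl
    have e1 : (HahnSeries.C ((ϖ : W) : L) ^ n : LaurentSeries L) ^ s =
        HahnSeries.C ((ϖ : W) : L) ^ ((s : ℤ) * n) := by
      rw [← zpow_natCast, ← zpow_mul, mul_comm]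
    have e2 : (HahnSeries.C ((ϖ : W) : L) : LaurentSeries L) ^ ((k : ℤ) + (s : ℤ) * n) =
        HahnSeries.C ((ϖ : W) : L) ^ k * HahnSeries.C ((ϖ : W) : L) ^ ((s : ℤ) * n) := by
      rw [zpow_add₀ hC0, zpow_natCast]
    rw [h3, coe_algebraMap_W, hyu, mul_pow, e1, e2, mul_assoc]
  have hcoe' : (((algebraMap (↥W) (FF L N) ϖ ^ k * y ^ s)⁻¹ : FF L N) : LaurentSeries L) =
      (HahnSeries.C ((ϖ : W) : L) ^ ((k : ℤ) + (s : ℤ) * n) * u ^ s)⁻¹ := by
    rw [← hcoe]
    rfl
  rw [hcoe] at hz1
  rw [hcoe'] at hz2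
  set m : ℤ := (k : ℤ) + (s : ℤ) * n with hm
  have hus0 : u ^ s ≠ 0 := pow_ne_zero _ hu0
  -- `C π ^ m` and its inverse are in the content ring
  have hp1 : HahnSeries.C ((ϖ : W) : L) ^ m ∈ contentRing W := by
    have h3 : HahnSeries.C ((ϖ : W) : L) ^ m =
        HahnSeries.C ((ϖ : W) : L) ^ m * u ^ s * u⁻¹ ^ s := by
      rw [mul_assoc, ← mul_pow, mul_inv_cancel₀ hu0, one_pow, mul_one]
    rw [h3]
    exact mul_mem hz1 (pow_mem huinv s)
  have hp2 : (HahnSeries.C ((ϖ : W) : L) ^ m)⁻¹ ∈ contentRing W := by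
    have h3 : (HahnSeries.C ((ϖ : W) : L) ^ m)⁻¹ =
        (HahnSeries.C ((ϖ : W) : L) ^ m * u ^ s)⁻¹ * u ^ s := by
      rw [mul_inv, mul_assoc, inv_mul_cancel₀ hus0, mul_one]
    rw [h3]
    exact mul_mem hz2 (pow_mem hu s)
  have hCm : ∀ t : ℤ, HahnSeries.C ((ϖ : W) : L) ^ t =
      (HahnSeries.C (((ϖ : W) : L) ^ t) : LaurentSeries L) := fun t =>
    (map_zpow₀ (HahnSeries.C : L →+* LaurentSeries L) _ t).symm
  rw [hCm, C_mem_contentRing_iff] at hp1
  rw [hCm, ← map_inv₀, C_mem_contentRing_iff] at hp2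
  have hϖL : ((ϖ : W) : L) ≠ 0 := fun h => hϖ.ne_zero (Subtype.ext h)
  -- a positive power of `π` has no inverse in `W`
  have key : ∀ t : ℕ, (((ϖ : W) : L) ^ (t + 1))⁻¹ ∉ W := by
    intro t hmem
    apply hϖ.not_isUnit
    refine IsUnit.of_mul_eq_one (ϖ ^ t * ⟨_, hmem⟩) (Subtype.ext ?_)
    show ((ϖ : W) : L) * (((ϖ : W) : L) ^ t * (((ϖ : W) : L) ^ (t + 1))⁻¹) = 1
    rw [← mul_assoc, ← pow_succ', mul_inv_cancel₀ (pow_ne_zero _ hϖL)]
  have hm0 : m = 0 := by
    rcases lt_trichotomy m 0 with hlt | heq | hgt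
    · exfalso
      obtain ⟨t, ht⟩ : ∃ t : ℕ, m = -((t : ℤ) + 1) := ⟨(-m).toNat - 1, by omega⟩
      apply key t
      have h3 : (((ϖ : W) : L) ^ (t + 1))⁻¹ = ((ϖ : W) : L) ^ m := by
        rw [ht, zpow_neg, ← zpow_natCast]
        push_cast
        rfl
      rw [h3]
      exact hp1
    · exact heq
    · exfalso
      obtain ⟨t, ht⟩ : ∃ t : ℕ, m = (t : ℤ) + 1 := ⟨m.toNat - 1, by omega⟩
      apply key t
      have h3 : (((ϖ : W) : L) ^ (t + 1))⁻¹ = (((ϖ : W) : L) ^ m)⁻¹ := by
        rw [ht, ← zpow_natCast]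
        push_cast
        rfl
      rw [h3]
      exact hp2
  have h4 : (s : ℤ) ∣ (k : ℤ) := ⟨-n, by rw [hm] at hm0; linarith⟩
  exact Int.natCast_dvd_natCast.mp h4

end J

/-! ### The point `j(q^ℓ)` and the Atkin–Lehner side -/

section AL

variable (M ℓ : ℕ) [NeZero M] [NeZero ℓ]

theorem coe_beta_jBC :
    ((heckeBetaBar L M ℓ (jBC L M) : FF L (M * ℓ)) : LaurentSeries L) =
      qExpand L ℓ (jqModC L) := by
  rw [coe_heckeBetaBar, coe_jBC_eq]

theorem coe_aeval_beta_jBC (p : (↥W)[X]) :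
    ((aeval (heckeBetaBar L M ℓ (jBC L M)) p : FF L (M * ℓ)) : LaurentSeries L) =
      qExpand L ℓ (evL W p) := by
  have h1 : aeval (heckeBetaBar L M ℓ (jBC L M)) p =
      heckeBetaBar L M ℓ (aeval (jBC L M) p) :=
    Polynomial.aeval_algHom_apply ((heckeBetaBar L M ℓ).restrictScalars (↥W)) (jBC L M) p
  rw [h1, coe_heckeBetaBar, ← ev_apply, ev_eq_evF, coe_evF]

theorem alpha_jBC : heckeAlphaBar L M ℓ (jBC L M) = jBC L (M * ℓ) := by
  apply Subtype.ext
  rw [coe_heckeAlphaBar, coe_jBC, coe_jBC]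

variable [IsDiscreteValuationRing W]

/-- **(V3b at the twisted point)**: an element Gauss-integral with respect to `W[j(q^ℓ)]` has
`W`-integral `q`-expansion. -/
theorem mem_contentRing_of_inC_beta {ϖ : W} (hϖ : Irreducible ϖ) (y : FF L (M * ℓ))
    (h : InC ϖ (heckeBetaBar L M ℓ (jBC L M)) y) : (y : LaurentSeries L) ∈ contentRing W := by
  have hx : ((heckeBetaBar L M ℓ (jBC L M) : FF L (M * ℓ)) : LaurentSeries L) ∈ contentRing W := by
    rw [coe_beta_jBC]
    exact jqd_mem_contentRing W ℓ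
  refine mem_contentRing_of_inC_at W (M * ℓ) hx ?_ h
  intro p hp
  have hmem : qExpand L ℓ (evL W p) ∈ contentRing W :=
    qExpand_mem_contentRing W ℓ (evL_mem_contentRing W p)
  have hred : red W ⟨qExpand L ℓ (evL W p), hmem⟩ ≠ 0 := by
    rw [red_qExpand W ℓ (evL_mem_contentRing W p), red_evL]
    intro h0
    have h1 : redJ W p = 0 := qExpand_injective ℓ (by rw [h0, map_zero])
    exact map_residue_ne_zero W hϖ hp ((redJ_eq_zero_iff W p).mp h1)
  have h0 : qExpand L ℓ (evL W p) ≠ 0 := by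
    intro h0
    apply hred
    have h1 : (⟨qExpand L ℓ (evL W p), hmem⟩ : contentRing W) = 0 := Subtype.ext h0
    rw [h1, map_zero]
  refine ⟨(qExpand L ℓ (evL W p))⁻¹, inv_mem_contentRing W hmem hred, ?_⟩
  rw [coe_aeval_beta_jBC, inv_mul_cancel₀ h0]

omit [IsDiscreteValuationRing ↥W] in
/-- Gauss-integrality is transported by `L`-algebra automorphisms. -/
theorem inC_map_algEquiv (N : ℕ) (w : FF L N ≃ₐ[L] FF L N) {ϖ : W} {x y : FF L N}
    (h : InC ϖ x y) : InC ϖ (w x) (w y) := by
  have hcomp : ((w : FF L N ≃+* FF L N) : FF L N →+* FF L N).comp (ev (↥W) x) =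
      ev (↥W) (w x) := by
    apply Polynomial.ringHom_ext
    · intro a
      rw [RingHom.comp_apply, ev_C, ev_C]
      show w (algebraMap L (FF L N) (a : L)) = algebraMap L (FF L N) (a : L)
      exact w.commutes _
    · rw [RingHom.comp_apply, ev_X, ev_X]
      rfl
  obtain ⟨p, hp, P, hP, hroot⟩ := h
  refine ⟨p, hp, P, hP, ?_⟩
  have h1 : aeval (w x) p * w y = w (aeval x p * y) := by
    rw [map_mul, ← ev_apply, ← ev_apply, ← hcomp]
    rfl
  rw [h1, ← hcomp]
  have h2 := Polynomial.hom_eval₂ P (ev (↥W) x)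
    ((w : FF L N ≃+* FF L N) : FF L N →+* FF L N) (aeval x p * y)
  rw [hroot, map_zero] at h2
  exact h2.symm

/-- **(V3b)**: a Gauss-integral element of `FF L (M * ℓ)` is integral at both Gauss valuations:
`y` and `w y` have `W`-integral `q`-expansions, for every `L`-algebra automorphism `w` with
`w ∘ α = β` (Atkin–Lehner). -/
theorem mem_both_of_inC {ϖ : W} (hϖ : Irreducible ϖ)
    (w : FF L (M * ℓ) ≃ₐ[L] FF L (M * ℓ))
    (hα : (w : FF L (M * ℓ) →ₐ[L] FF L (M * ℓ)).comp (heckeAlphaBar L M ℓ) = heckeBetaBar L M ℓ)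
    (y : FF L (M * ℓ)) (h : InC ϖ (jBC L (M * ℓ)) y) :
    (y : LaurentSeries L) ∈ contentRing W ∧
      ((w y : FF L (M * ℓ)) : LaurentSeries L) ∈ contentRing W := by
  refine ⟨mem_contentRing_of_inC W (M * ℓ) hϖ y h, ?_⟩
  have h1 := inC_map_algEquiv W (M * ℓ) w h
  have h2 : w (jBC L (M * ℓ)) = heckeBetaBar L M ℓ (jBC L M) := by
    rw [← alpha_jBC M ℓ, ← hα]
    rfl
  rw [h2] at h1
  exact mem_contentRing_of_inC_beta W M ℓ hϖ _ h1

end AL

end Fermat.Agent.S34.ContentVal
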