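import Mathlib
import Fermat.Agent.S34.CuspPt
import Fermat.Agent.S34.CuspSep

/-!
# S34, (DICH₂), unconditional: the cusps of level `M q` are smooth points of one component

`W` a discrete valuation ring of a level `L` with algebraically closed residue field of
characteristic `q ∤ M`; `F = S24.FF L (M * q)`.  At every maximal ideal `𝔫 ∋ ϖ, 1/j` of the
integral closure of `W[1/j]` in `F` the maximal ideal of the local ring is `(ϖ, u)`.

* `cusp_point` : on any carrier `φ : B →+* F` (`hinj`, `hint`, `hsurj`), for any Atkin–Lehner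
  automorphism `w`;
* `cusp_dich_carrier`, `cusp_struct_carrier` : on an `S37`-style carrier
  (`[IsIntegralClosure B W[X] F]`, `algebraMap W[X] F = evFinf W (M * q)`);
* `cusp_dich_level`, `cusp_struct_level` : **at a level** `IsLevel A q S ι`, `W = A.comap ι`
  (no further hypothesis) — `cusp_struct_level` is the left disjunct of the hypothesis `hstruct`
  of `KLocRaw.kloc_chart` / `KLoc.kloc` at the cusps.

Inputs: `CuspFracE.cusp_point` (`CuspAbs.cusp_smooth` with (S1), (h1), (h2), (h3) discharged),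
`CuspSep.exists_separator` (the separator), `FinDich.v3a` ((K-V3a)),
`FrobPartner.exists_atkinLehner_level`.
-/

set_option autoImplicit false
set_option linter.style.haveILetI false
set_option linter.unusedSectionVars false

noncomputable section

namespace Fermat.Agent.S34.CuspDich

open Polynomial ModularCurve Fermat.Agent.S18 Fermat.Agent.S18.Gauss Fermat.Agent.S24
  Fermat.Agent.S34.CuspRes IsLocalRing

local notation "Qb" => AlgebraicClosure ℚ

section Carrier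

variable {L : Type} [Field L] [Algebra ℚ L] (ι : L →+* Qb) (W : ValuationSubring L)
  [IsDiscreteValuationRing ↥W] (M q : ℕ) [NeZero M] [NeZero q]
  [Fact q.Prime] [CharP (IsLocalRing.ResidueField ↥W) q]
  [IsAlgClosed (IsLocalRing.ResidueField ↥W)]
  (w : FF L (M * q) ≃ₐ[L] FF L (M * q))

include ι in
/-- **(DICH₂) on any carrier of the chart at infinity of level `M q`.** -/
theorem cusp_point {B : Type*} [CommRing B] (φ : B →+* FF L (M * q))
    (hqM : ¬ q ∣ M) {ϖ : ↥W} (hϖ : Irreducible ϖ)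
    (hroots : ∀ x : Qb, (∃ n : ℕ, ¬ q ∣ n ∧ x ^ n = 1) → ∃ b : L, ι b = x)
    (hwα : (w : FF L (M * q) →ₐ[L] FF L (M * q)).comp (heckeAlphaBar L M q) =
      heckeBetaBar L M q)
    (hwβ : (w : FF L (M * q) →ₐ[L] FF L (M * q)).comp (heckeBetaBar L M q) =
      heckeAlphaBar L M q)
    (hinj : Function.Injective φ)
    (hint : ∀ b, (evFinf W (M * q)).IsIntegralElem (φ b))
    (hsurj : ∀ x, (evFinf W (M * q)).IsIntegralElem x → ∃ b, φ b = x)
    (πB : B) (hπB : φ πB = algebraMap L (FF L (M * q)) ((ϖ : ↥W) : L))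
    (𝔫 : Ideal B) [h𝔫 : 𝔫.IsMaximal] (hπ𝔫 : πB ∈ 𝔫)
    (tj : B) (htj : φ tj = (jBC L (M * q))⁻¹) (htj𝔫 : tj ∈ 𝔫) :
    ∃ u : Localization.AtPrime 𝔫,
      maximalIdeal (Localization.AtPrime 𝔫) =
        Ideal.span {algebraMap B (Localization.AtPrime 𝔫) πB, u} :=
  CuspFracE.cusp_point ι W M q w φ hqM hϖ hroots hwα hwβ
    (fun x hx₁ hx₂ => FinDich.v3a W M q hqM w hwα hwβ x hx₁ hx₂)
    hinj hint hsurj πB hπB 𝔫 hπ𝔫 tj htj htj𝔫
    (fun hφ₁ hφ₂ => CuspSep.exists_separator W M q w hwα hwβ φ hinj hsurj hφ₁ hφ₂ 𝔫 h𝔫 htj htj𝔫)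

variable [Algebra (↥W)[X] (FF L (M * q))]
  (B : Type*) [CommRing B] [Algebra (↥W)[X] B] [Algebra B (FF L (M * q))]
  [IsScalarTower (↥W)[X] B (FF L (M * q))] [IsIntegralClosure B (↥W)[X] (FF L (M * q))]

include ι in
/-- **(DICH₂) on an `S37`-style carrier of the chart at infinity.** -/
theorem cusp_dich_carrier (hqM : ¬ q ∣ M) {ϖ : ↥W} (hϖ : Irreducible ϖ)
    (hroots : ∀ x : Qb, (∃ n : ℕ, ¬ q ∣ n ∧ x ^ n = 1) → ∃ b : L, ι b = x)
    (hwα : (w : FF L (M * q) →ₐ[L] FF L (M * q)).comp (heckeAlphaBar L M q) =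
      heckeBetaBar L M q)
    (hwβ : (w : FF L (M * q) →ₐ[L] FF L (M * q)).comp (heckeBetaBar L M q) =
      heckeAlphaBar L M q)
    (halg : algebraMap (↥W)[X] (FF L (M * q)) = evFinf W (M * q))
    (𝔫 : Ideal B) [h𝔫 : 𝔫.IsMaximal] (hπ𝔫 : algebraMap (↥W)[X] B (C ϖ) ∈ 𝔫)
    (hX𝔫 : algebraMap (↥W)[X] B X ∈ 𝔫) :
    ∃ u : Localization.AtPrime 𝔫,
      maximalIdeal (Localization.AtPrime 𝔫) =
        Ideal.span {algebraMap B (Localization.AtPrime 𝔫) (algebraMap (↥W)[X] B (C ϖ)), u} := by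
  have hinj : Function.Injective (algebraMap B (FF L (M * q))) :=
    IsIntegralClosure.algebraMap_injective B (↥W)[X] (FF L (M * q))
  have hsurj : ∀ x : FF L (M * q), (evFinf W (M * q)).IsIntegralElem x →
      ∃ b : B, algebraMap B (FF L (M * q)) b = x := by
    intro x hx
    have h' : (algebraMap (↥W)[X] (FF L (M * q))).IsIntegralElem x := by
      rw [halg]; exact hx
    exact IsIntegralClosure.isIntegral_iff (A := B) |>.mp h'
  have hXF : algebraMap B (FF L (M * q)) (algebraMap (↥W)[X] B X) = (jBC L (M * q))⁻¹ := by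
    rw [← IsScalarTower.algebraMap_apply, halg, evFinf_X]
  exact CuspPt.cusp_dich_carrier_of ι W M q w B hqM hϖ hroots hwα hwβ halg 𝔫 hπ𝔫 hX𝔫
    (fun hφ₁ hφ₂ => CuspSep.exists_separator W M q w hwα hwβ (algebraMap B (FF L (M * q)))
      hinj hsurj hφ₁ hφ₂ 𝔫 h𝔫 hXF hX𝔫)

include ι in
/-- **(DICH₂) on an `S37`-style carrier, `hstruct` shape**: the uniformiser as the image of
`ϖ ∈ W` in the local ring, for any `W`-algebra structure on `B` compatible with the
`W[X]`-algebra structure. -/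
theorem cusp_struct_carrier (hqM : ¬ q ∣ M) {ϖ : ↥W} (hϖ : Irreducible ϖ)
    (hroots : ∀ x : Qb, (∃ n : ℕ, ¬ q ∣ n ∧ x ^ n = 1) → ∃ b : L, ι b = x)
    (hwα : (w : FF L (M * q) →ₐ[L] FF L (M * q)).comp (heckeAlphaBar L M q) =
      heckeBetaBar L M q)
    (hwβ : (w : FF L (M * q) →ₐ[L] FF L (M * q)).comp (heckeBetaBar L M q) =
      heckeAlphaBar L M q)
    (halg : algebraMap (↥W)[X] (FF L (M * q)) = evFinf W (M * q))
    [Algebra ↥W B] (hWB : ∀ c : ↥W, algebraMap ↥W B c = algebraMap (↥W)[X] B (C c))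
    (𝔫 : Ideal B) [h𝔫 : 𝔫.IsMaximal] (hπ𝔫 : algebraMap ↥W B ϖ ∈ 𝔫)
    (hX𝔫 : algebraMap (↥W)[X] B X ∈ 𝔫) :
    ∃ u : Localization.AtPrime 𝔫,
      maximalIdeal (Localization.AtPrime 𝔫) =
        Ideal.span {algebraMap ↥W (Localization.AtPrime 𝔫) ϖ, u} := by
  rw [hWB] at hπ𝔫
  obtain ⟨u, hu⟩ := cusp_dich_carrier ι W M q w B hqM hϖ hroots hwα hwβ halg 𝔫 hπ𝔫 hX𝔫
  refine ⟨u, ?_⟩
  rw [hu, IsScalarTower.algebraMap_apply ↥W B (Localization.AtPrime 𝔫), hWB]

end Carrier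

/-! ### At a level -/

section Level

variable (A : ValuationSubring Qb) {L : Type} [Field L] [Algebra ℚ L] (ι : L →+* Qb)
  (M q : ℕ) [NeZero M] [NeZero q]
  [Algebra (↥(A.comap ι))[X] (FF L (M * q))]
  (B : Type*) [CommRing B] [Algebra (↥(A.comap ι))[X] B] [Algebra B (FF L (M * q))]
  [IsScalarTower (↥(A.comap ι))[X] B (FF L (M * q))]
  [IsIntegralClosure B (↥(A.comap ι))[X] (FF L (M * q))]

/-- **(DICH₂) at a level.**  For every carrier `B` of the chart at infinity of level `M q` over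
`W = A.comap ι` and every maximal ideal `𝔫 ∋ ϖ, 1/j` of `B`, the maximal ideal of `B_𝔫` is
`(ϖ, u)`. -/
theorem cusp_dich_level (hq : q.Prime) (hqM : ¬ q ∣ M) (S : Finset Qb)
    (hlev : Fermat.Agent.S37.LevelChange.IsLevel A q S ι)
    (π : ↥(A.comap ι)) (hπ : Irreducible π)
    (halg : algebraMap (↥(A.comap ι))[X] (FF L (M * q)) = evFinf (A.comap ι) (M * q))
    (𝔫 : Ideal B) [𝔫.IsMaximal] (hπ𝔫 : algebraMap (↥(A.comap ι))[X] B (C π) ∈ 𝔫)
    (hX𝔫 : algebraMap (↥(A.comap ι))[X] B X ∈ 𝔫) :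
    ∃ u : Localization.AtPrime 𝔫,
      maximalIdeal (Localization.AtPrime 𝔫) =
        Ideal.span {algebraMap B (Localization.AtPrime 𝔫)
          (algebraMap (↥(A.comap ι))[X] B (C π)), u} := by
  obtain ⟨-, hroots, hdvr, halgc, -, hchar, -, -⟩ := hlev
  have := hdvr
  have := halgc
  have := hchar
  have : Fact q.Prime := ⟨hq⟩
  obtain ⟨w, hwα, hwβ⟩ := Fermat.Agent.S34.FrobPartner.exists_atkinLehner_level ι M q hq hqM
  exact cusp_dich_carrier ι (A.comap ι) M q w B hqM hπ hroots hwα hwβ halg 𝔫 hπ𝔫 hX𝔫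

/-- **(DICH₂) at a level, `hstruct` shape** (left disjunct of the hypothesis `hstruct` of
`KLocRaw.kloc_chart`). -/
theorem cusp_struct_level (hq : q.Prime) (hqM : ¬ q ∣ M) (S : Finset Qb)
    (hlev : Fermat.Agent.S37.LevelChange.IsLevel A q S ι)
    (π : ↥(A.comap ι)) (hπ : Irreducible π)
    (halg : algebraMap (↥(A.comap ι))[X] (FF L (M * q)) = evFinf (A.comap ι) (M * q))
    [Algebra ↥(A.comap ι) B]
    (hWB : ∀ c : ↥(A.comap ι), algebraMap ↥(A.comap ι) B c =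
      algebraMap (↥(A.comap ι))[X] B (C c))
    (𝔫 : Ideal B) [𝔫.IsMaximal] (hπ𝔫 : algebraMap ↥(A.comap ι) B π ∈ 𝔫)
    (hX𝔫 : algebraMap (↥(A.comap ι))[X] B X ∈ 𝔫) :
    ∃ u : Localization.AtPrime 𝔫,
      maximalIdeal (Localization.AtPrime 𝔫) =
        Ideal.span {algebraMap ↥(A.comap ι) (Localization.AtPrime 𝔫) π, u} := by
  obtain ⟨-, hroots, hdvr, halgc, -, hchar, -, -⟩ := hlev
  have := hdvr
  have := halgc
  have := hchar
  have : Fact q.Prime := ⟨hq⟩
  obtain ⟨w, hwα, hwβ⟩ := Fermat.Agent.S34.FrobPartner.exists_atkinLehner_level ι M q hq hqM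
  exact cusp_struct_carrier ι (A.comap ι) M q w B hqM hπ hroots hwα hwβ halg hWB 𝔫 hπ𝔫 hX𝔫

end Level

end Fermat.Agent.S34.CuspDich
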