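import Mathlib
import Fermat.Agent.S34.CuspRes
import Fermat.Agent.S34.ResFieldG
import Fermat.Agent.S18.GaussPrim

/-!
# S34, package B2: the fraction property (h2) of the cusp chart

`W` a discrete valuation ring of `L` with algebraically closed residue field `κ` of
characteristic `q ∤ M`; `BM` any `S37` carrier of the cusp chart of level `M`,
`E = BM ⧸ ϖ BM` its special fibre, embedded in `κ((q))` by `ε = CuspRes.epsCusp`.

* `frac_of_mem_fullC` : every element of the function field `modularFunctionFieldFullC κ M` of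
  level `M` over `κ` is a fraction `ε a / ε c` with `a, c ∈ E`, `c ≠ 0`;
* `hfrac_alpha` : **(h2)**, the reduction of every `x ∈ FF L (M * q)` with `W`-integral
  `q`-expansion is such a fraction (the hypothesis `hfrac` of `CuspHyp.cusp_point_of`, verbatim);
* `hfrac_w` : the same for the reduction of the `q`-expansion of `w x`.
-/

set_option autoImplicit false
set_option linter.style.haveILetI false
set_option linter.unusedSectionVars false

noncomputable section

namespace Fermat.Agent.S34.CuspFrac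

open Polynomial ModularCurve Fermat.Agent.S18 Fermat.Agent.S18.Gauss Fermat.Agent.S24
  Fermat.Agent.S37 Fermat.Agent.S37.GaussPrime Fermat.Agent.S18.Cusp Fermat.Agent.S34.CuspRes

variable {L : Type*} [Field L] [Algebra ℚ L] (W : ValuationSubring L)
  [IsDiscreteValuationRing ↥W] (M q : ℕ) [NeZero M] [NeZero q]
  [Fact q.Prime] [CharP (IsLocalRing.ResidueField ↥W) q]
  [IsAlgClosed (IsLocalRing.ResidueField ↥W)]
  [Algebra (CuspBase ↥W) (FF L M)]
  (BM : Type*) [CommRing BM] [Algebra (CuspBase ↥W) BM] [Algebra BM (FF L M)]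
  [IsScalarTower (CuspBase ↥W) BM (FF L M)] [IsIntegralClosure BM (CuspBase ↥W) (FF L M)]

/-- Every element of the function field of level `M` over `κ` is a fraction of reductions of
elements of the cusp chart of level `M`. -/
theorem frac_of_mem_fullC (hqM : ¬ q ∣ M) {ϖ : ↥W} (hϖ : Irreducible ϖ)
    (halgM : ∀ p : (↥W)[X], algebraMap (CuspBase ↥W) (FF L M)
      (algebraMap (↥W)[X] (CuspBase ↥W) p) = evFinf W M p)
    {y : LaurentSeries (IsLocalRing.ResidueField ↥W)}
    (hy : y ∈ modularFunctionFieldFullC (IsLocalRing.ResidueField ↥W) M) :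
    ∃ a c : BM ⧸ Ideal.span {algebraMap (CuspBase ↥W) BM (algebraMap ↥W (CuspBase ↥W) ϖ)},
      c ≠ 0 ∧ y * epsCusp W M q BM hqM hϖ halgM c = epsCusp W M q BM hqM hϖ halgM a := by
  rcases eq_or_ne y 0 with rfl | hy0
  · refine ⟨0, 1, ?_, by rw [zero_mul, map_zero]⟩
    intro h
    have h1 := congrArg (epsCusp W M q BM hqM hϖ halgM) h
    rw [map_one, map_zero] at h1
    exact one_ne_zero h1
  · obtain ⟨f, hf, hfy⟩ := exists_lift_goodRing W M hy
    have hgu : red W ⟨((⟨f, goodRing_le_full W M hf⟩ : FF L M) : LaurentSeries L),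
        goodRing_le_contentRing W M hf⟩ ≠ 0 := by
      rw [hfy]; exact hy0
    obtain ⟨a, b, ha, -, hab⟩ := GaussNormal.exists_fraction_closure_cusp W M q hqM hϖ halgM BM
      ⟨f, goodRing_le_full W M hf⟩ (goodRing_le_contentRing W M hf) hgu
    refine ⟨Ideal.Quotient.mk _ b, Ideal.Quotient.mk _ a, ?_, ?_⟩
    · intro h
      exact ha (Ideal.mem_span_singleton.mp (Ideal.Quotient.eq_zero_iff_mem.mp h))
    · rw [epsCusp_mk W M q BM hqM hϖ halgM a (GaussRed.mem_contentRing_cusp W M q BM hqM halgM a),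
        epsCusp_mk W M q BM hqM hϖ halgM b (GaussRed.mem_contentRing_cusp W M q BM hqM halgM b),
        ← hfy, mul_comm]
      refine (red_mul_eq W (GaussRed.mem_contentRing_cusp W M q BM hqM halgM a)
        (goodRing_le_contentRing W M hf) (GaussRed.mem_contentRing_cusp W M q BM hqM halgM b)
        ?_).symm
      rw [hab]
      rfl

/-- **(h2)**: the reduction of every function of level `M q` with `W`-integral `q`-expansion is
a fraction of reductions of elements of the cusp chart of level `M`.  This is the hypothesis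
`hfrac` of `CuspHyp.cusp_point_of`. -/
theorem hfrac_alpha (w : FF L (M * q) ≃ₐ[L] FF L (M * q))
    (hqM : ¬ q ∣ M) {ϖ : ↥W} (hϖ : Irreducible ϖ)
    (halgM : ∀ p : (↥W)[X], algebraMap (CuspBase ↥W) (FF L M)
      (algebraMap (↥W)[X] (CuspBase ↥W) p) = evFinf W M p)
    (hwα : (w : FF L (M * q) →ₐ[L] FF L (M * q)).comp (heckeAlphaBar L M q) =
      heckeBetaBar L M q)
    (hwβ : (w : FF L (M * q) →ₐ[L] FF L (M * q)).comp (heckeBetaBar L M q) =
      heckeAlphaBar L M q) :
    ∀ (x : FF L (M * q)) (hx : (x : LaurentSeries L) ∈ contentRing W),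
      ∃ a c : BM ⧸ Ideal.span {algebraMap (CuspBase ↥W) BM (algebraMap ↥W (CuspBase ↥W) ϖ)},
        c ≠ 0 ∧ red W ⟨x, hx⟩ * epsCusp W M q BM hqM hϖ halgM c =
          epsCusp W M q BM hqM hϖ halgM a := fun x hx =>
  frac_of_mem_fullC W M q BM hqM hϖ halgM
    (ResFieldG.red_mem_fullC_level W M q (w : FF L (M * q) →ₐ[L] FF L (M * q)) hqM hwα hwβ x hx)

/-- (h2) on the second branch: the reduction of the `q`-expansion of `w x` is a fraction of
reductions of elements of the cusp chart of level `M`. -/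
theorem hfrac_w (w : FF L (M * q) ≃ₐ[L] FF L (M * q))
    (hqM : ¬ q ∣ M) {ϖ : ↥W} (hϖ : Irreducible ϖ)
    (halgM : ∀ p : (↥W)[X], algebraMap (CuspBase ↥W) (FF L M)
      (algebraMap (↥W)[X] (CuspBase ↥W) p) = evFinf W M p)
    (hwα : (w : FF L (M * q) →ₐ[L] FF L (M * q)).comp (heckeAlphaBar L M q) =
      heckeBetaBar L M q)
    (hwβ : (w : FF L (M * q) →ₐ[L] FF L (M * q)).comp (heckeBetaBar L M q) =
      heckeAlphaBar L M q) :
    ∀ (x : FF L (M * q)) (hx : ((w x : FF L (M * q)) : LaurentSeries L) ∈ contentRing W),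
      ∃ a c : BM ⧸ Ideal.span {algebraMap (CuspBase ↥W) BM (algebraMap ↥W (CuspBase ↥W) ϖ)},
        c ≠ 0 ∧ red W ⟨((w x : FF L (M * q)) : LaurentSeries L), hx⟩ *
          epsCusp W M q BM hqM hϖ halgM c = epsCusp W M q BM hqM hϖ halgM a := fun x hx =>
  frac_of_mem_fullC W M q BM hqM hϖ halgM
    (ResFieldG.red_mem_fullC_level W M q (w : FF L (M * q) →ₐ[L] FF L (M * q)) hqM hwα hwβ
      (w x) hx)

end Fermat.Agent.S34.CuspFrac
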