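import Mathlib
import Fermat.Agent.S34.CuspAbs
import Fermat.Agent.S34.CuspEq
import Fermat.Agent.S34.CuspRes
import Fermat.Agent.S37.ChartInstSplit
import Fermat.Agent.S37.ChartInstCuspClosure
import Fermat.Agent.S37.GaussNormal
import Fermat.Agent.S18.GaussPrim

/-!
# S34, (DICH₂): the cusps of the chart at infinity of level `M q` are smooth points

`W` is a discrete valuation ring of a level `L` with algebraically closed residue field `κ` of
characteristic `q ∤ M`; `F = S24.FF L (M * q)`, `w` an Atkin–Lehner automorphism of `F`.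
`φ : B → F` is any carrier of the integral closure of `W[1/j]` in `F` (`hinj`, `hint`, `hsurj`,
the currency of `CuspRes`), with the two residue maps `r₁ = red ∘ coe ∘ φ`,
`r₂ = red ∘ coe ∘ w ∘ φ` (`CuspRes.res`).

`cusp_point` : at every maximal ideal `𝔫` of `B` containing `ϖ` and `1/j`, the maximal ideal of
`B_𝔫` is `(ϖ, u)` — from the raw inputs (K-V3a) (`hV`), (F1) (`hF1`) and a separator
(`hsep`, the shape of `CuspAbs.cusp_smooth`).

Branch data (`CuspAbs.cusp_smooth`): `E` = special fibre of the cusp chart of level `M`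
(Dedekind, `S37.ChartInstSplit.cusp_chart_dedekind_of_closure`), `ε = CuspRes.epsCusp`;
(h1) from `CuspRes.exists_alpha_lift` / `CuspEq.exists_den_beta`; (h2) from (F1) and
`S37.GaussNormal.exists_fraction_closure_cusp`; (h3) with `1/j`.
-/

set_option autoImplicit false
set_option linter.unusedSectionVars false
set_option linter.style.haveILetI false

noncomputable section

namespace Fermat.Agent.S34.CuspInst

open Polynomial ModularCurve Fermat.Agent.S18 Fermat.Agent.S18.Gauss Fermat.Agent.S24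
  Fermat.Agent.S37 Fermat.Agent.S37.GaussPrime Fermat.Agent.S18.Cusp IsLocalRing

local notation "Qb" => AlgebraicClosure ℚ

/-! ### Denominators `D(1/j)` with `D(0) = 1` lie outside the cusps -/

section Den

variable {L : Type*} [Field L] [Algebra ℚ L] (W : ValuationSubring L) (N : ℕ) [NeZero N]

/-- an element `D(1/j)` with `D(0) = 1` lies outside every proper ideal containing `1/j`, on any
carrier of the chart at infinity -/
theorem not_mem_of_coeff_zero {B : Type*} [CommRing B] (φ : B →+* FF L N)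
    (hinj : Function.Injective φ)
    (hsurj : ∀ x, (evFinf W N).IsIntegralElem x → ∃ b, φ b = x)
    (𝔫 : Ideal B) (h𝔫 : 𝔫 ≠ ⊤) {t : B} (ht : φ t = (jBC L N)⁻¹) (ht𝔫 : t ∈ 𝔫)
    (D : (↥W)[X]) (hD : D.coeff 0 = 1) {d : B} (hd : φ d = evFinf W N D) : d ∉ 𝔫 := by
  intro hd𝔫
  obtain ⟨c, hc⟩ := hsurj (evFinf W N D.divX) (RingHom.isIntegralElem_map _)
  have h1 : d = 1 + t * c := by
    apply hinj
    rw [map_add, map_one, map_mul, ht, hc, hd]
    exact CuspEq.evFinf_eq_one_add W N D hD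
  apply h𝔫
  rw [Ideal.eq_top_iff_one]
  have h2 : (1 : B) = d - t * c := by rw [h1]; ring
  rw [h2]
  exact 𝔫.sub_mem hd𝔫 (𝔫.mul_mem_right _ ht𝔫)

end Den

/-! ### The cusps of level `M q` -/

section Main

variable (M q : ℕ) [NeZero M] [NeZero q] {L : Type} [Field L] [Algebra ℚ L] (ι : L →+* Qb)
  (W : ValuationSubring L) [IsDiscreteValuationRing ↥W]
  [IsAlgClosed (IsLocalRing.ResidueField ↥W)] [CharP (IsLocalRing.ResidueField ↥W) q]

/-- **(h2) engine**: every element of the residue function field of level `M` is a quotient of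
reductions of elements of the cusp chart of level `M`. -/
theorem exists_fraction_eps [Fact q.Prime] (hqM : ¬ q ∣ M) {ϖ : ↥W} (hϖ : Irreducible ϖ)
    [Algebra (CuspBase ↥W) (FF L M)]
    (halgM : ∀ p : (↥W)[X], algebraMap (CuspBase ↥W) (FF L M)
      (algebraMap (↥W)[X] (CuspBase ↥W) p) = evFinf W M p)
    (BM : Type*) [CommRing BM] [Algebra (CuspBase ↥W) BM] [Algebra BM (FF L M)]
    [IsScalarTower (CuspBase ↥W) BM (FF L M)] [IsIntegralClosure BM (CuspBase ↥W) (FF L M)]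
    [Nontrivial (BM ⧸ Ideal.span {algebraMap (CuspBase ↥W) BM (algebraMap ↥W (CuspBase ↥W) ϖ)})]
    {y : LaurentSeries (IsLocalRing.ResidueField ↥W)}
    (hy : y ∈ modularFunctionFieldFullC (IsLocalRing.ResidueField ↥W) M) :
    ∃ a c : BM ⧸ Ideal.span {algebraMap (CuspBase ↥W) BM (algebraMap ↥W (CuspBase ↥W) ϖ)},
      c ≠ 0 ∧ y * CuspRes.epsCusp W M q BM hqM hϖ halgM c =
        CuspRes.epsCusp W M q BM hqM hϖ halgM a := by
  have hmemM : ∀ c : BM, ((algebraMap BM (FF L M) c : FF L M) : LaurentSeries L) ∈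
      contentRing W := GaussRed.mem_contentRing_cusp W M q BM hqM halgM
  by_cases hy0 : y = 0
  · exact ⟨0, 1, one_ne_zero, by rw [hy0, zero_mul, map_zero]⟩
  · obtain ⟨f, hf, hfy⟩ := exists_lift_goodRing W M hy
    have hg : (((⟨f, goodRing_le_full W M hf⟩ : FF L M) : FF L M) : LaurentSeries L) ∈
        contentRing W := goodRing_le_contentRing W M hf
    have hgu : red W ⟨((⟨f, goodRing_le_full W M hf⟩ : FF L M) : LaurentSeries L), hg⟩ ≠ 0 := by
      intro h0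
      exact hy0 (hfy.symm.trans h0)
    obtain ⟨a, b, ha, -, hab⟩ := GaussNormal.exists_fraction_closure_cusp W M q hqM hϖ halgM BM
      (⟨f, goodRing_le_full W M hf⟩ : FF L M) hg hgu
    refine ⟨Ideal.Quotient.mk _ b, Ideal.Quotient.mk _ a, ?_, ?_⟩
    · intro h0
      exact ha (Ideal.mem_span_singleton.mp (Ideal.Quotient.eq_zero_iff_mem.mp h0))
    · rw [CuspRes.epsCusp_mk W M q BM hqM hϖ halgM a (hmemM a),
        CuspRes.epsCusp_mk W M q BM hqM hϖ halgM b (hmemM b), ← hfy]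
      symm
      refine CuspRes.red_mul_eq W (goodRing_le_contentRing W M hf) (hmemM a) (hmemM b) ?_
      have h1 := congrArg (fun z : FF L M => (z : LaurentSeries L)) hab
      have h2 : ((algebraMap BM (FF L M) b : FF L M) : LaurentSeries L) =
          ((algebraMap BM (FF L M) a : FF L M) : LaurentSeries L) * f := h1
      rw [h2, mul_comm]

/-- **(DICH₂), with an arbitrary carrier `BM` of the cusp chart of level `M`.** -/
theorem cusp_point_aux (hq : q.Prime) (hqM : ¬ q ∣ M)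
    (hroots : ∀ x : Qb, (∃ n : ℕ, ¬ q ∣ n ∧ x ^ n = 1) → ∃ b : L, ι b = x)
    (ϖ : ↥W) (hϖ : Irreducible ϖ)
    (w : FF L (M * q) ≃ₐ[L] FF L (M * q))
    (hwα : (w : FF L (M * q) →ₐ[L] FF L (M * q)).comp (heckeAlphaBar L M q) =
      heckeBetaBar L M q)
    (hwβ : (w : FF L (M * q) →ₐ[L] FF L (M * q)).comp (heckeBetaBar L M q) =
      heckeAlphaBar L M q)
    (hV : ∀ x : FF L (M * q), (x : LaurentSeries L) ∈ contentRing W →
      ((w x : FF L (M * q)) : LaurentSeries L) ∈ contentRing W →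
      ∃ S : (↥W)[X], S.map (IsLocalRing.residue ↥W) ≠ 0 ∧
        (evF W (M * q)).IsIntegralElem (evF W (M * q) S * x))
    (hF1 : ∀ (x : FF L (M * q)) (hx : (x : LaurentSeries L) ∈ contentRing W),
      red W ⟨x, hx⟩ ∈ modularFunctionFieldFullC (IsLocalRing.ResidueField ↥W) M)
    [Algebra (CuspBase ↥W) (FF L M)]
    (halgM : ∀ p : (↥W)[X], algebraMap (CuspBase ↥W) (FF L M)
      (algebraMap (↥W)[X] (CuspBase ↥W) p) = evFinf W M p)
    (BM : Type) [CommRing BM] [Algebra (CuspBase ↥W) BM] [Algebra BM (FF L M)]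
    [IsScalarTower (CuspBase ↥W) BM (FF L M)] [IsIntegralClosure BM (CuspBase ↥W) (FF L M)]
    {B : Type*} [CommRing B] (φ : B →+* FF L (M * q)) (hinj : Function.Injective φ)
    (hint : ∀ b, (evFinf W (M * q)).IsIntegralElem (φ b))
    (hsurj : ∀ x, (evFinf W (M * q)).IsIntegralElem x → ∃ b, φ b = x)
    (πB : B) (hπB : φ πB = algebraMap L (FF L (M * q)) ((ϖ : ↥W) : L))
    (𝔫 : Ideal B) [h𝔫 : 𝔫.IsMaximal] (hπ𝔫 : πB ∈ 𝔫)
    (tj : B) (htj : φ tj = (jBC L (M * q))⁻¹) (htj𝔫 : tj ∈ 𝔫)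
    (hsep : ∃ (t z D : B) (k : ℕ), k ≠ 0 ∧ D ∉ 𝔫 ∧ z ∈ 𝔫 ∧
      CuspRes.res W (M * q) φ
        (fun b => CuspRes.mem_contentRing_of_int_inf W (M * q) (hint b)) t = 1 ∧
      CuspRes.res W (M * q)
        (((w : FF L (M * q) →ₐ[L] FF L (M * q)) : FF L (M * q) →+* FF L (M * q)).comp φ)
        (fun b => CuspRes.mem_contentRing_w_of_int_inf W M q w hwα (hint b))
        (D ^ k * t - z ^ k) = 0) :
    ∃ u : Localization.AtPrime 𝔫, maximalIdeal (Localization.AtPrime 𝔫) =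
      Ideal.span {algebraMap B (Localization.AtPrime 𝔫) πB, u} := by
  classical
  haveI : Fact q.Prime := ⟨hq⟩
  have hφ₁ : ∀ b, ((φ b : FF L (M * q)) : LaurentSeries L) ∈ contentRing W :=
    fun b => CuspRes.mem_contentRing_of_int_inf W (M * q) (hint b)
  have hφ₂ : ∀ b, (((((w : FF L (M * q) →ₐ[L] FF L (M * q)) :
      FF L (M * q) →+* FF L (M * q)).comp φ) b : FF L (M * q)) : LaurentSeries L) ∈
      contentRing W :=
    fun b => CuspRes.mem_contentRing_w_of_int_inf W M q w hwα (hint b)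
  obtain ⟨t, z, D, k, hk, hD, hz, ht₁, ht₂⟩ := hsep
  have hspan := CuspRes.span_eq_ker_inf_ker ι W (M * q) hϖ w hV φ hinj hint hsurj hφ₁ hφ₂ πB hπB
  haveI hDed : IsDedekindDomain
      (BM ⧸ Ideal.span {algebraMap (CuspBase ↥W) BM (algebraMap ↥W (CuspBase ↥W) ϖ)}) :=
    ChartInstSplit.cusp_chart_dedekind_of_closure M hq hqM ι W hroots ϖ hϖ halgM BM
  have hε : Function.Injective (CuspRes.epsCusp W M q BM hqM hϖ halgM) :=
    CuspRes.epsCusp_injective W M q BM hqM hϖ halgM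
  have hmemM : ∀ c : BM, ((algebraMap BM (FF L M) c : FF L M) : LaurentSeries L) ∈
      contentRing W := GaussRed.mem_contentRing_cusp W M q BM hqM halgM
  have hIntCusp : ∀ c : BM, IntCusp W M (algebraMap BM (FF L M) c) := fun c =>
    (isIntegral_cuspBase_iff W M halgM _).mp
      (IsIntegralClosure.isIntegral_iff (A := BM) |>.mpr ⟨c, rfl⟩)
  -- (h3): `1/j` lies in `𝔫` and has nonzero residues
  have hj₁ : (((jBC L (M * q))⁻¹ : FF L (M * q)) : LaurentSeries L) ∈ contentRing W := by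
    rw [← htj]; exact hφ₁ tj
  have hj₂ : ((w (jBC L (M * q))⁻¹ : FF L (M * q)) : LaurentSeries L) ∈ contentRing W := by
    rw [← htj]; exact hφ₂ tj
  have h3₁ : ∃ b ∈ 𝔫, CuspRes.res W (M * q) φ hφ₁ b ≠ 0 := by
    refine ⟨tj, htj𝔫, ?_⟩
    rw [CuspRes.res_apply W (M * q) φ hφ₁ tj (hφ₁ tj),
      CuspRes.red_congr W (hφ₁ tj) hj₁ (by rw [htj])]
    exact CuspRes.red_jInv_ne_zero W (M * q) hj₁
  have h3₂ : ∃ b ∈ 𝔫, CuspRes.res W (M * q)
      (((w : FF L (M * q) →ₐ[L] FF L (M * q)) : FF L (M * q) →+* FF L (M * q)).comp φ)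
      hφ₂ b ≠ 0 := by
    refine ⟨tj, htj𝔫, ?_⟩
    rw [CuspRes.res_apply W (M * q) _ hφ₂ tj (hφ₂ tj),
      CuspRes.red_congr W (hφ₂ tj) hj₂ (by
        show ((w (φ tj) : FF L (M * q)) : LaurentSeries L) = _
        rw [htj])]
    exact CuspRes.red_w_jInv_ne_zero W M q w hwα hj₂
  -- (h2): both residue maps take values in quotients of `ε(E)`
  have h2₁ : ∀ b : B, ∃ a c : BM ⧸ Ideal.span
      {algebraMap (CuspBase ↥W) BM (algebraMap ↥W (CuspBase ↥W) ϖ)}, c ≠ 0 ∧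
      CuspRes.res W (M * q) φ hφ₁ b * CuspRes.epsCusp W M q BM hqM hϖ halgM c =
        CuspRes.epsCusp W M q BM hqM hϖ halgM a := fun b =>
    exists_fraction_eps M q W hqM hϖ halgM BM (hF1 (φ b) (hφ₁ b))
  have h2₂ : ∀ b : B, ∃ a c : BM ⧸ Ideal.span
      {algebraMap (CuspBase ↥W) BM (algebraMap ↥W (CuspBase ↥W) ϖ)}, c ≠ 0 ∧
      CuspRes.res W (M * q)
        (((w : FF L (M * q) →ₐ[L] FF L (M * q)) : FF L (M * q) →+* FF L (M * q)).comp φ)
        hφ₂ b * CuspRes.epsCusp W M q BM hqM hϖ halgM c =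
        CuspRes.epsCusp W M q BM hqM hϖ halgM a := fun b =>
    exists_fraction_eps M q W hqM hϖ halgM BM (hF1 (w (φ b)) (hφ₂ b))
  -- (h1), first branch
  have h1₁ : ∀ e : BM ⧸ Ideal.span
      {algebraMap (CuspBase ↥W) BM (algebraMap ↥W (CuspBase ↥W) ϖ)}, ∃ b d : B, d ∉ 𝔫 ∧
      CuspRes.res W (M * q) φ hφ₁ b =
        CuspRes.epsCusp W M q BM hqM hϖ halgM e * CuspRes.res W (M * q) φ hφ₁ d := by
    intro e
    obtain ⟨c, rfl⟩ := Ideal.Quotient.mk_surjective e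
    obtain ⟨m, hm⟩ := CuspRes.exists_alpha_lift W M q _ (hIntCusp c)
    obtain ⟨b, hb⟩ := hsurj _ hm
    obtain ⟨d, hd⟩ := hsurj (evFinf W (M * q) (cuspPoly W ^ m)) (RingHom.isIntegralElem_map _)
    refine ⟨b, d, CuspRes.not_mem_of_cuspPoly_pow W (M * q) φ hinj hsurj 𝔫 h𝔫.ne_top htj htj𝔫 m
      hd, ?_⟩
    rw [CuspRes.res_apply W (M * q) φ hφ₁ b (hφ₁ b), CuspRes.res_apply W (M * q) φ hφ₁ d (hφ₁ d),
      CuspRes.epsCusp_mk W M q BM hqM hϖ halgM c (hmemM c)]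
    exact CuspRes.red_mul_alpha W M q (by rw [hb, hd]) (hφ₁ d) (hmemM c) (hφ₁ b)
  -- (h1), second branch
  have h1₂ : ∀ e : BM ⧸ Ideal.span
      {algebraMap (CuspBase ↥W) BM (algebraMap ↥W (CuspBase ↥W) ϖ)}, ∃ b d : B, d ∉ 𝔫 ∧
      CuspRes.res W (M * q)
        (((w : FF L (M * q) →ₐ[L] FF L (M * q)) : FF L (M * q) →+* FF L (M * q)).comp φ)
        hφ₂ b =
        CuspRes.epsCusp W M q BM hqM hϖ halgM e * CuspRes.res W (M * q)
          (((w : FF L (M * q) →ₐ[L] FF L (M * q)) : FF L (M * q) →+* FF L (M * q)).comp φ)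
          hφ₂ d := by
    intro e
    obtain ⟨c, rfl⟩ := Ideal.Quotient.mk_surjective e
    obtain ⟨m, hm⟩ := hIntCusp c
    obtain ⟨E', hE0, hE⟩ := CuspEq.exists_den_beta W M q hq hm
    obtain ⟨b, hb⟩ := hsurj _ hE
    obtain ⟨d, hd⟩ := hsurj (evFinf W (M * q) E') (RingHom.isIntegralElem_map _)
    refine ⟨b, d, not_mem_of_coeff_zero W (M * q) φ hinj hsurj 𝔫 h𝔫.ne_top htj htj𝔫 E' hE0 hd,
      ?_⟩
    rw [CuspRes.res_apply W (M * q) _ hφ₂ b (hφ₂ b), CuspRes.res_apply W (M * q) _ hφ₂ d (hφ₂ d),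
      CuspRes.epsCusp_mk W M q BM hqM hϖ halgM c (hmemM c)]
    exact CuspRes.red_w_mul_beta W M q w hwβ (by rw [hb, hd]) (hφ₂ d) (hmemM c) (hφ₂ b)
  exact CuspAbs.cusp_smooth (CuspRes.res W (M * q) φ hφ₁)
    (CuspRes.res W (M * q)
      (((w : FF L (M * q) →ₐ[L] FF L (M * q)) : FF L (M * q) →+* FF L (M * q)).comp φ) hφ₂)
    πB hspan 𝔫 hπ𝔫 t z D k hk hD hz ht₁ ht₂
    (CuspRes.epsCusp W M q BM hqM hϖ halgM) hε (CuspRes.epsCusp W M q BM hqM hϖ halgM) hε
    (fun _ => ⟨h1₁, h2₁, h3₁⟩) (fun _ => ⟨h1₂, h2₂, h3₂⟩)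

/-- **(DICH₂): the cusps of the chart at infinity of level `M q` are smooth points.**  For any
carrier `φ : B → F` of the integral closure of `W[1/j]` in `F = FF L (M q)` and any maximal ideal
`𝔫` of `B` containing `ϖ` and `1/j`, the maximal ideal of `B_𝔫` is `(ϖ, u)`. -/
theorem cusp_point (hq : q.Prime) (hqM : ¬ q ∣ M)
    (hroots : ∀ x : Qb, (∃ n : ℕ, ¬ q ∣ n ∧ x ^ n = 1) → ∃ b : L, ι b = x)
    (ϖ : ↥W) (hϖ : Irreducible ϖ)
    (w : FF L (M * q) ≃ₐ[L] FF L (M * q))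
    (hwα : (w : FF L (M * q) →ₐ[L] FF L (M * q)).comp (heckeAlphaBar L M q) =
      heckeBetaBar L M q)
    (hwβ : (w : FF L (M * q) →ₐ[L] FF L (M * q)).comp (heckeBetaBar L M q) =
      heckeAlphaBar L M q)
    (hV : ∀ x : FF L (M * q), (x : LaurentSeries L) ∈ contentRing W →
      ((w x : FF L (M * q)) : LaurentSeries L) ∈ contentRing W →
      ∃ S : (↥W)[X], S.map (IsLocalRing.residue ↥W) ≠ 0 ∧
        (evF W (M * q)).IsIntegralElem (evF W (M * q) S * x))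
    (hF1 : ∀ (x : FF L (M * q)) (hx : (x : LaurentSeries L) ∈ contentRing W),
      red W ⟨x, hx⟩ ∈ modularFunctionFieldFullC (IsLocalRing.ResidueField ↥W) M)
    {B : Type*} [CommRing B] (φ : B →+* FF L (M * q)) (hinj : Function.Injective φ)
    (hint : ∀ b, (evFinf W (M * q)).IsIntegralElem (φ b))
    (hsurj : ∀ x, (evFinf W (M * q)).IsIntegralElem x → ∃ b, φ b = x)
    (πB : B) (hπB : φ πB = algebraMap L (FF L (M * q)) ((ϖ : ↥W) : L))
    (𝔫 : Ideal B) [h𝔫 : 𝔫.IsMaximal] (hπ𝔫 : πB ∈ 𝔫)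
    (tj : B) (htj : φ tj = (jBC L (M * q))⁻¹) (htj𝔫 : tj ∈ 𝔫)
    (hsep : ∃ (t z D : B) (k : ℕ), k ≠ 0 ∧ D ∉ 𝔫 ∧ z ∈ 𝔫 ∧
      CuspRes.res W (M * q) φ
        (fun b => CuspRes.mem_contentRing_of_int_inf W (M * q) (hint b)) t = 1 ∧
      CuspRes.res W (M * q)
        (((w : FF L (M * q) →ₐ[L] FF L (M * q)) : FF L (M * q) →+* FF L (M * q)).comp φ)
        (fun b => CuspRes.mem_contentRing_w_of_int_inf W M q w hwα (hint b))
        (D ^ k * t - z ^ k) = 0) :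
    ∃ u : Localization.AtPrime 𝔫, maximalIdeal (Localization.AtPrime 𝔫) =
      Ideal.span {algebraMap B (Localization.AtPrime 𝔫) πB, u} := by
  letI algM : Algebra (CuspBase ↥W) (FF L M) :=
    (Cusp.baseLift ↥W (jBC L M)⁻¹ (FFKit.one_sub_jBC_inv_ne_zero ι M)).toRingHom.toAlgebra
  exact cusp_point_aux M q ι W hq hqM hroots ϖ hϖ w hwα hwβ hV hF1
    (fun p => ChartInstCuspClosure.baseLift_halg M ι W p)
    (integralClosure (CuspBase ↥W) (FF L M)) φ hinj hint hsurj πB hπB 𝔫 hπ𝔫 tj htj htj𝔫 hsep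

/-- **(DICH₂) in the `hstruct` shape** of `KLoc.kloc` / `LocDD.hloc_of_struct`: `B` a
`W`-algebra (`φ ∘ algebraMap W B` = the constants), `R = Localization.AtPrime 𝔫` with its
canonical `W`-algebra structure. -/
theorem cusp_point_struct (hq : q.Prime) (hqM : ¬ q ∣ M)
    (hroots : ∀ x : Qb, (∃ n : ℕ, ¬ q ∣ n ∧ x ^ n = 1) → ∃ b : L, ι b = x)
    (ϖ : ↥W) (hϖ : Irreducible ϖ)
    (w : FF L (M * q) ≃ₐ[L] FF L (M * q))
    (hwα : (w : FF L (M * q) →ₐ[L] FF L (M * q)).comp (heckeAlphaBar L M q) =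
      heckeBetaBar L M q)
    (hwβ : (w : FF L (M * q) →ₐ[L] FF L (M * q)).comp (heckeBetaBar L M q) =
      heckeAlphaBar L M q)
    (hV : ∀ x : FF L (M * q), (x : LaurentSeries L) ∈ contentRing W →
      ((w x : FF L (M * q)) : LaurentSeries L) ∈ contentRing W →
      ∃ S : (↥W)[X], S.map (IsLocalRing.residue ↥W) ≠ 0 ∧
        (evF W (M * q)).IsIntegralElem (evF W (M * q) S * x))
    (hF1 : ∀ (x : FF L (M * q)) (hx : (x : LaurentSeries L) ∈ contentRing W),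
      red W ⟨x, hx⟩ ∈ modularFunctionFieldFullC (IsLocalRing.ResidueField ↥W) M)
    {B : Type*} [CommRing B] [Algebra ↥W B] (φ : B →+* FF L (M * q))
    (hinj : Function.Injective φ)
    (hφW : ∀ a : ↥W, φ (algebraMap ↥W B a) = algebraMap L (FF L (M * q)) ((a : ↥W) : L))
    (hint : ∀ b, (evFinf W (M * q)).IsIntegralElem (φ b))
    (hsurj : ∀ x, (evFinf W (M * q)).IsIntegralElem x → ∃ b, φ b = x)
    (𝔫 : Ideal B) [h𝔫 : 𝔫.IsMaximal] (hπ𝔫 : algebraMap ↥W B ϖ ∈ 𝔫)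
    (hj𝔫 : ∀ b : B, φ b = (jBC L (M * q))⁻¹ → b ∈ 𝔫)
    (hsep : ∃ (t z D : B) (k : ℕ), k ≠ 0 ∧ D ∉ 𝔫 ∧ z ∈ 𝔫 ∧
      CuspRes.res W (M * q) φ
        (fun b => CuspRes.mem_contentRing_of_int_inf W (M * q) (hint b)) t = 1 ∧
      CuspRes.res W (M * q)
        (((w : FF L (M * q) →ₐ[L] FF L (M * q)) : FF L (M * q) →+* FF L (M * q)).comp φ)
        (fun b => CuspRes.mem_contentRing_w_of_int_inf W M q w hwα (hint b))
        (D ^ k * t - z ^ k) = 0) :
    (∃ u : Localization.AtPrime 𝔫, maximalIdeal (Localization.AtPrime 𝔫) =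
      Ideal.span {algebraMap ↥W (Localization.AtPrime 𝔫) ϖ, u}) ∨
    ∃ X Y : Localization.AtPrime 𝔫, maximalIdeal (Localization.AtPrime 𝔫) =
      Ideal.span {algebraMap ↥W (Localization.AtPrime 𝔫) ϖ, X, Y} ∧
      algebraMap ↥W (Localization.AtPrime 𝔫) ϖ ∣ X * Y := by
  obtain ⟨tj, htj⟩ := hsurj ((jBC L (M * q))⁻¹) (by
    rw [← evFinf_X W (M * q)]
    exact RingHom.isIntegralElem_map _)
  obtain ⟨u, hu⟩ := cusp_point M q ι W hq hqM hroots ϖ hϖ w hwα hwβ hV hF1 φ hinj hint hsurj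
    (algebraMap ↥W B ϖ) (hφW ϖ) 𝔫 hπ𝔫 tj htj (hj𝔫 tj htj) hsep
  left
  refine ⟨u, ?_⟩
  rw [IsScalarTower.algebraMap_apply ↥W B (Localization.AtPrime 𝔫)]
  exact hu

end Main

end Fermat.Agent.S34.CuspInst
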