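/-
S34 (wave 6): the double difference `(τ - 1)² h = τ(τ h) * h / (τ h)²` of ANY nonzero function is
`≡ 1` at every valuation ring on which `τ` acts trivially modulo the uniformiser.

Setting (abstract, Mathlib-only): `F` a field, `O` a subring of `F` (a Gauss valuation ring),
`𝔪` an ideal of `O` (in practice `ϖ O`), `τ : F ≃+* F` with `τ u - u ∈ 𝔪` for all `u ∈ O`
(`τ` is an inertia element: it acts trivially on residues).  If `h = c * u` with `u` a unit of `O`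
and `c` a "constant" (`τ c = ξ * c` with `ξ` a unit of `O`), then

  `τ (τ h) * h = (1 + m) * (τ h) ^ 2`   for some `m ∈ 𝔪`.

Consequence for the blueprint: the local generators `g_𝔫` of `E = (τ - 1)² D` can be taken to be
`(τ - 1)² h_𝔫` for ANY local equation `h_𝔫` of `D` at `𝔫`; their residues at the two branches are
automatically `1`, so no `τ`-fixed node coordinates and no residue computation in node coordinates
are needed.
-/
import Mathlib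

set_option autoImplicit false

namespace Fermat.Agent.S34.DoubleDiff

variable {F : Type*} [Field F]

/-- `τ` acts trivially modulo `𝔪` on the subring `O`: for `u ∈ O`, `τ u = u + m` with `m ∈ 𝔪`. -/
def TrivMod (O : Subring F) (𝔪 : Ideal O) (τ : F ≃+* F) : Prop :=
  ∀ u : O, ∃ m : O, m ∈ 𝔪 ∧ τ (u : F) = (u : F) + (m : F)

/-- units of `O` are moved by `τ` to `(1 + m) * u` with `m ∈ 𝔪` -/
theorem TrivMod.unit_mul {O : Subring F} {𝔪 : Ideal O} {τ : F ≃+* F} (hτ : TrivMod O 𝔪 τ)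
    (u : Oˣ) : ∃ m : O, m ∈ 𝔪 ∧ τ ((u : O) : F) = (1 + (m : F)) * ((u : O) : F) := by
  obtain ⟨m, hm, h⟩ := hτ (u : O)
  refine ⟨m * ((u⁻¹ : Oˣ) : O), 𝔪.mul_mem_right _ hm, ?_⟩
  have hu : (((u : O) : F)) * (((u⁻¹ : Oˣ) : O) : F) = 1 := by
    rw [← Subring.coe_mul, Units.mul_inv, Subring.coe_one]
  rw [h, Subring.coe_mul]
  linear_combination (-(m : F)) * hu

/-- `τ` of an element `1 + m`, `m ∈ 𝔪`, is again of this form -/
theorem TrivMod.one_add {O : Subring F} {𝔪 : Ideal O} {τ : F ≃+* F} (hτ : TrivMod O 𝔪 τ)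
    (m : O) (hm : m ∈ 𝔪) : ∃ m' : O, m' ∈ 𝔪 ∧ τ (1 + (m : F)) = 1 + (m' : F) := by
  obtain ⟨m₁, hm₁, h⟩ := hτ m
  refine ⟨m + m₁, 𝔪.add_mem hm hm₁, ?_⟩
  rw [map_add, map_one, h, Subring.coe_add]

/-- **The double difference is `≡ 1`.**  `h = c * u`, `u ∈ Oˣ`, `τ c = ξ * c` with `ξ ∈ Oˣ`:
then `τ (τ h) * h = (1 + m) * (τ h) ^ 2` with `m ∈ 𝔪`. -/
theorem doubleDiff_eq {O : Subring F} {𝔪 : Ideal O} {τ : F ≃+* F} (hτ : TrivMod O 𝔪 τ)
    (c : F) (ξ u : Oˣ) (hc : τ c = ((ξ : O) : F) * c) :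
    ∃ m : O, m ∈ 𝔪 ∧
      τ (τ (c * ((u : O) : F))) * (c * ((u : O) : F)) =
        (1 + (m : F)) * (τ (c * ((u : O) : F))) ^ 2 := by
  -- τ u = (1 + a) u, τ ξ = (1 + b) ξ, τ (1 + a) = 1 + a'
  obtain ⟨a, ha, hau⟩ := hτ.unit_mul u
  obtain ⟨b, hb, hbξ⟩ := hτ.unit_mul ξ
  obtain ⟨a', ha', haa⟩ := hτ.one_add a ha
  -- `1 + a = τ u / u` has the inverse `1 + a₂ = τ u⁻¹ / u⁻¹`
  obtain ⟨a₂, ha₂, hau₂⟩ := hτ.unit_mul u⁻¹
  have huu : (((u : O) : F)) * (((u⁻¹ : Oˣ) : O) : F) = 1 := by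
    rw [← Subring.coe_mul, Units.mul_inv, Subring.coe_one]
  have hu0 : (((u : O) : F)) ≠ 0 := left_ne_zero_of_mul_eq_one huu
  -- (1 + a)(1 + a₂) = 1
  have hinv : (1 + (a : F)) * (1 + (a₂ : F)) = 1 := by
    have h1 : τ (((u : O) : F)) * τ ((((u⁻¹ : Oˣ) : O) : F)) = 1 := by
      rw [← map_mul, huu, map_one]
    rw [hau, hau₂] at h1
    have h2 : (1 + (a : F)) * (1 + (a₂ : F)) * ((((u : O) : F)) * (((u⁻¹ : Oˣ) : O) : F)) = 1 := by
      linear_combination h1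
    rwa [huu, mul_one] at h2
  -- m := (1 + b)(1 + a')(1 + a₂) - 1
  refine ⟨b + a' + a₂ + b * a' + b * a₂ + a' * a₂ + b * a' * a₂, ?_, ?_⟩
  · exact 𝔪.add_mem (𝔪.add_mem (𝔪.add_mem (𝔪.add_mem (𝔪.add_mem (𝔪.add_mem hb ha') ha₂)
      (𝔪.mul_mem_left _ ha')) (𝔪.mul_mem_left _ ha₂)) (𝔪.mul_mem_left _ ha₂))
      (𝔪.mul_mem_left _ ha₂)
  · have e1 : τ (c * ((u : O) : F)) = ((ξ : O) : F) * c * ((1 + (a : F)) * ((u : O) : F)) := by
      rw [map_mul, hc, hau]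
    have e2 : τ (τ (c * ((u : O) : F))) =
        ((1 + (b : F)) * ((ξ : O) : F)) * (((ξ : O) : F) * c) *
          ((1 + (a' : F)) * ((1 + (a : F)) * ((u : O) : F))) := by
      rw [e1, map_mul, map_mul, map_mul, hbξ, hc, haa, hau]
    rw [e2, e1]
    simp only [Subring.coe_add, Subring.coe_mul]
    linear_combination
      (-((1 + (b : F)) * (1 + (a' : F)) * ((ξ : O) : F) ^ 2 * c ^ 2 * ((u : O) : F) ^ 2 *
        (1 + (a : F)))) * hinv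

/-- The inverse form: `(τ h) ^ 2 = (1 + m) * (τ (τ h) * h)` with `m ∈ 𝔪`. -/
theorem doubleDiff_eq_inv {O : Subring F} {𝔪 : Ideal O} {τ : F ≃+* F} (hτ : TrivMod O 𝔪 τ)
    (c : F) (ξ u : Oˣ) (hc : τ c = ((ξ : O) : F) * c) :
    ∃ m : O, m ∈ 𝔪 ∧
      (τ (c * ((u : O) : F))) ^ 2 =
        (1 + (m : F)) * (τ (τ (c * ((u : O) : F))) * (c * ((u : O) : F))) := by
  obtain ⟨a, ha, hau⟩ := hτ.unit_mul u
  obtain ⟨b, hb, hbξ⟩ := hτ.unit_mul ξ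
  obtain ⟨a', ha', haa⟩ := hτ.one_add a ha
  obtain ⟨a₂, ha₂, hau₂⟩ := hτ.unit_mul u⁻¹
  obtain ⟨b₂, hb₂, hbξ₂⟩ := hτ.unit_mul ξ⁻¹
  obtain ⟨a₂', ha₂', haa₂⟩ := hτ.one_add a₂ ha₂
  have huu : (((u : O) : F)) * (((u⁻¹ : Oˣ) : O) : F) = 1 := by
    rw [← Subring.coe_mul, Units.mul_inv, Subring.coe_one]
  have hξξ : (((ξ : O) : F)) * (((ξ⁻¹ : Oˣ) : O) : F) = 1 := by
    rw [← Subring.coe_mul, Units.mul_inv, Subring.coe_one]
  have hinv : (1 + (a : F)) * (1 + (a₂ : F)) = 1 := by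
    have h1 : τ (((u : O) : F)) * τ ((((u⁻¹ : Oˣ) : O) : F)) = 1 := by
      rw [← map_mul, huu, map_one]
    rw [hau, hau₂] at h1
    have h2 : (1 + (a : F)) * (1 + (a₂ : F)) * ((((u : O) : F)) * (((u⁻¹ : Oˣ) : O) : F)) = 1 := by
      linear_combination h1
    rwa [huu, mul_one] at h2
  have hinvb : (1 + (b : F)) * (1 + (b₂ : F)) = 1 := by
    have h1 : τ (((ξ : O) : F)) * τ ((((ξ⁻¹ : Oˣ) : O) : F)) = 1 := by
      rw [← map_mul, hξξ, map_one]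
    rw [hbξ, hbξ₂] at h1
    have h2 : (1 + (b : F)) * (1 + (b₂ : F)) * ((((ξ : O) : F)) * (((ξ⁻¹ : Oˣ) : O) : F)) = 1 := by
      linear_combination h1
    rwa [hξξ, mul_one] at h2
  have hinva : (1 + (a' : F)) * (1 + (a₂' : F)) = 1 := by
    rw [← haa, ← haa₂, ← map_mul, hinv, map_one]
  refine ⟨b₂ + a₂' + a + b₂ * a₂' + b₂ * a + a₂' * a + b₂ * a₂' * a, ?_, ?_⟩
  · exact 𝔪.add_mem (𝔪.add_mem (𝔪.add_mem (𝔪.add_mem (𝔪.add_mem (𝔪.add_mem hb₂ ha₂') ha)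
      (𝔪.mul_mem_left _ ha₂')) (𝔪.mul_mem_left _ ha)) (𝔪.mul_mem_left _ ha))
      (𝔪.mul_mem_left _ ha)
  · have e1 : τ (c * ((u : O) : F)) = ((ξ : O) : F) * c * ((1 + (a : F)) * ((u : O) : F)) := by
      rw [map_mul, hc, hau]
    have e2 : τ (τ (c * ((u : O) : F))) =
        ((1 + (b : F)) * ((ξ : O) : F)) * (((ξ : O) : F) * c) *
          ((1 + (a' : F)) * ((1 + (a : F)) * ((u : O) : F))) := by
      rw [e1, map_mul, map_mul, map_mul, hbξ, hc, haa, hau]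
    rw [e2, e1]
    simp only [Subring.coe_add, Subring.coe_mul]
    linear_combination
      (-(((ξ : O) : F) ^ 2 * c ^ 2 * ((u : O) : F) ^ 2 * (1 + (a : F)) ^ 2)) * hinvb +
      (-(((ξ : O) : F) ^ 2 * c ^ 2 * ((u : O) : F) ^ 2 * (1 + (a : F)) ^ 2 *
        (1 + (b : F)) * (1 + (b₂ : F)))) * hinva

/-- Quotient form: `τ (τ h) * h / (τ h) ^ 2 = 1 + m` and its inverse `= 1 + m'`,
with `m, m' ∈ 𝔪`, for `h = c * u ≠ 0`. -/
theorem doubleDiff_div {O : Subring F} {𝔪 : Ideal O} {τ : F ≃+* F} (hτ : TrivMod O 𝔪 τ)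
    (c : F) (hc0 : c ≠ 0) (ξ u : Oˣ) (hc : τ c = ((ξ : O) : F) * c) :
    (∃ m : O, m ∈ 𝔪 ∧
      τ (τ (c * ((u : O) : F))) * (c * ((u : O) : F)) / (τ (c * ((u : O) : F))) ^ 2 =
        1 + (m : F)) ∧
    (∃ m : O, m ∈ 𝔪 ∧
      (τ (c * ((u : O) : F))) ^ 2 / (τ (τ (c * ((u : O) : F))) * (c * ((u : O) : F))) =
        1 + (m : F)) := by
  have huu : (((u : O) : F)) * (((u⁻¹ : Oˣ) : O) : F) = 1 := by
    rw [← Subring.coe_mul, Units.mul_inv, Subring.coe_one]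
  have hu0 : (((u : O) : F)) ≠ 0 := left_ne_zero_of_mul_eq_one huu
  have hh : c * ((u : O) : F) ≠ 0 := mul_ne_zero hc0 hu0
  have hτh : τ (c * ((u : O) : F)) ≠ 0 := by
    rwa [Ne, map_eq_zero_iff τ τ.injective]
  have hττh : τ (τ (c * ((u : O) : F))) ≠ 0 := by
    rwa [Ne, map_eq_zero_iff τ τ.injective]
  constructor
  · obtain ⟨m, hm, h⟩ := doubleDiff_eq hτ c ξ u hc
    exact ⟨m, hm, by rw [h, mul_div_assoc, div_self (pow_ne_zero 2 hτh), mul_one]⟩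
  · obtain ⟨m, hm, h⟩ := doubleDiff_eq_inv hτ c ξ u hc
    exact ⟨m, hm, by rw [h, mul_div_assoc, div_self (mul_ne_zero hττh hh), mul_one]⟩

end Fermat.Agent.S34.DoubleDiff
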