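/-
S34 (wave 6): the double difference in the `q`-expansion (content ring) currency of S18.

`W ⊆ L` a discrete valuation ring with uniformiser `ϖ`, `s : L ≃+* L` an automorphism preserving
`W` and acting trivially modulo `ϖ` (the restriction of an inertia element), `τ := coeffMap s` the
coefficientwise action on `L((q))`.  Then for EVERY nonzero `f` in `S18.Gauss.fracInt W`
(in particular for every nonzero element of a modular function field `FF L N`):

  `τ (τ f) * f / (τ f) ^ 2 = 1 + C ϖ * m`  with `m ∈ contentRing W`,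

and the same for the inverse quotient: the double difference `(τ - 1)² f` is `≡ 1` at the
`q`-expansion Gauss valuation.
-/
import Mathlib
import Fermat.Agent.S18.GaussContent
import Fermat.Agent.S34.DoubleDiff

set_option autoImplicit false

namespace Fermat.Agent.S34.DoubleDiffSeries

open ModularCurve Fermat.Agent.S18.Gauss Fermat.Agent.S34.DoubleDiff

variable {L : Type*} [Field L]

theorem coeffMap_coeff {R S : Type*} [CommRing R] [CommRing S] (f : R →+* S)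
    (x : LaurentSeries R) (k : ℤ) : (coeffMap f x).coeff k = f (x.coeff k) := rfl

/-- the coefficientwise ring automorphism of `L((q))` attached to an automorphism of `L` -/
noncomputable def coeffEquiv (s : L ≃+* L) : LaurentSeries L ≃+* LaurentSeries L :=
  RingEquiv.ofRingHom (coeffMap (s : L →+* L)) (coeffMap (s.symm : L →+* L))
    (by
      apply RingHom.ext
      intro x
      ext k
      simp)
    (by
      apply RingHom.ext
      intro x
      ext k
      simp)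

theorem coeffEquiv_apply (s : L ≃+* L) (x : LaurentSeries L) :
    coeffEquiv s x = coeffMap (s : L →+* L) x := rfl

theorem coeffEquiv_C (s : L ≃+* L) (c : L) :
    coeffEquiv s (HahnSeries.C c) = HahnSeries.C (s c) := by
  rw [coeffEquiv_apply]
  exact Fermat.Agent.S28.Content.coeffMap_C _ c

variable (W : ValuationSubring L)

/-- the restriction of `s` to `W` -/
def resW (s : L ≃+* L) (hsW : ∀ c : L, c ∈ W → s c ∈ W) : ↥W →+* ↥W :=
  ((s : L →+* L).comp W.subtype).codRestrict W (fun c => hsW c c.2)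

theorem coe_resW (s : L ≃+* L) (hsW : ∀ c : L, c ∈ W → s c ∈ W) (c : W) :
    ((resW W s hsW c : W) : L) = s c := rfl

theorem toL_coeffMap_resW (s : L ≃+* L) (hsW : ∀ c : L, c ∈ W → s c ∈ W) (x : LaurentSeries W) :
    toL W (coeffMap (resW W s hsW) x) = coeffEquiv s (toL W x) := by
  ext k
  rfl

/-- coefficientwise: `s x = x + ϖ x'` -/
theorem exists_coeffMap_resW_eq (ϖ : W) (hϖ0 : ϖ ≠ 0) (s : L ≃+* L)
    (hsW : ∀ c : L, c ∈ W → s c ∈ W)
    (hsI : ∀ c : L, c ∈ W → ∃ d : L, d ∈ W ∧ s c = c + (ϖ : L) * d) (x : LaurentSeries W) :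
    ∃ x' : LaurentSeries W, coeffMap (resW W s hsW) x = x + HahnSeries.C ϖ * x' := by
  classical
  have hex : ∀ c : W, ∃ d : W, resW W s hsW c = c + ϖ * d := by
    intro c
    obtain ⟨d, hd, h⟩ := hsI c c.2
    exact ⟨⟨d, hd⟩, Subtype.ext h⟩
  choose d hd using hex
  have hd0 : d 0 = 0 := by
    have h := hd 0
    rw [map_zero, zero_add] at h
    rcases mul_eq_zero.mp h.symm with h1 | h1
    · exact absurd h1 hϖ0
    · exact h1
  refine ⟨x.map (⟨d, hd0⟩ : ZeroHom W W), ?_⟩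
  ext k
  rw [coeffMap_coeff, HahnSeries.coeff_add, C_mul_coeff, hd]
  rfl

variable [IsDiscreteValuationRing W]

/-- `τ = coeffMap s` acts trivially modulo `ϖ` on the content ring. -/
theorem trivMod (ϖ : W) (hϖ : Irreducible ϖ) (s : L ≃+* L)
    (hsW : ∀ c : L, c ∈ W → s c ∈ W)
    (hsI : ∀ c : L, c ∈ W → ∃ d : L, d ∈ W ∧ s c = c + (ϖ : L) * d) :
    TrivMod (contentRing W)
      (Ideal.span {(⟨HahnSeries.C ((ϖ : W) : L), C_mem_contentRing W ϖ⟩ : contentRing W)})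
      (coeffEquiv s) := by
  rintro ⟨u, hu⟩
  obtain ⟨x, y, hy, h⟩ := id hu
  obtain ⟨x', hx'⟩ := exists_coeffMap_resW_eq W ϖ hϖ.ne_zero s hsW hsI x
  obtain ⟨y', hy'⟩ := exists_coeffMap_resW_eq W ϖ hϖ.ne_zero s hsW hsI y
  -- the new denominator
  set z : LaurentSeries W := y + HahnSeries.C ϖ * y' with hz
  have hzK : toK W z ≠ 0 := by
    rw [hz, map_add, map_mul, toK_C_unif W hϖ, zero_mul, add_zero]
    exact hy
  have hz0 : toL W z ≠ 0 := fun h0 => hzK (by rw [(toL_eq_zero_iff W z).mp h0, map_zero])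
  have hzmem : toL W z ∈ contentRing W := toL_mem_contentRing W z
  have hzinv : (toL W z)⁻¹ ∈ contentRing W := by
    apply inv_mem_contentRing W hzmem
    rw [red_toL]
    exact hzK
  -- τ u * toL z = toL (x + ϖ x')
  have hτ : coeffEquiv s u * toL W z = toL W (x + HahnSeries.C ϖ * x') := by
    rw [← hy', ← hx', toL_coeffMap_resW, toL_coeffMap_resW, ← map_mul, h]
  let m : LaurentSeries L := (toL W x' - u * toL W y') * (toL W z)⁻¹
  have hm : m ∈ contentRing W :=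
    mul_mem (sub_mem (toL_mem_contentRing W x') (mul_mem hu (toL_mem_contentRing W y'))) hzinv
  refine ⟨⟨HahnSeries.C ((ϖ : W) : L), C_mem_contentRing W ϖ⟩ * ⟨m, hm⟩,
    Ideal.mul_mem_right _ _ (Ideal.mem_span_singleton_self _), ?_⟩
  show coeffEquiv s u = u + HahnSeries.C ((ϖ : W) : L) * m
  have hτ' : coeffEquiv s u * toL W z =
      (u + HahnSeries.C ((ϖ : W) : L) * m) * toL W z := by
    rw [hτ]
    have e1 : (u + HahnSeries.C ((ϖ : W) : L) * m) * toL W z =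
        u * toL W z + HahnSeries.C ((ϖ : W) : L) * (toL W x' - u * toL W y') := by
      simp only [m]
      field_simp
    rw [e1, hz, map_add, map_add, map_mul, map_mul, toL_C, ← h]
    ring
  exact mul_right_cancel₀ hz0 hτ'

omit [IsDiscreteValuationRing ↥W] in
/-- `s ϖ = υ * ϖ` with `υ` a unit of `W`. -/
theorem exists_unit_mul (ϖ : W) (hϖ : Irreducible ϖ) (s : L ≃+* L)
    (hsW : ∀ c : L, c ∈ W ↔ s c ∈ W)
    (hsI : ∀ c : L, c ∈ W → ∃ d : L, d ∈ W ∧ s c = c + (ϖ : L) * d) :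
    ∃ υ : L, υ ∈ W ∧ υ⁻¹ ∈ W ∧ υ ≠ 0 ∧ s (ϖ : L) = υ * (ϖ : L) := by
  have hϖ0 : ((ϖ : W) : L) ≠ 0 := fun h0 => hϖ.ne_zero (Subtype.ext h0)
  obtain ⟨d, hd, h⟩ := hsI ϖ ϖ.2
  have ht : s.symm (ϖ : L) ∈ W := (hsW _).2 (by rw [RingEquiv.apply_symm_apply]; exact ϖ.2)
  obtain ⟨d', hd', h'⟩ := hsI _ ht
  rw [RingEquiv.apply_symm_apply] at h'
  -- s.symm ϖ = ϖ * (1 - d')
  have ht' : s.symm (ϖ : L) = (ϖ : L) * (1 - d') := by linear_combination -h'
  have hb : (1 - d') ∈ W := sub_mem (one_mem _) hd'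
  have hsb : s (1 - d') ∈ W := (hsW _).1 hb
  have hυ : (1 + d) ∈ W := add_mem (one_mem _) hd
  have hsϖ : s (ϖ : L) = (1 + d) * (ϖ : L) := by rw [h]; ring
  -- ϖ = s (s.symm ϖ) = s ϖ * s (1 - d') = (1 + d) ϖ s(1 - d')
  have h1 : (ϖ : L) = (1 + d) * (ϖ : L) * s (1 - d') := by
    have h2 := congrArg s ht'
    rw [RingEquiv.apply_symm_apply, map_mul, hsϖ] at h2
    exact h2
  have h3 : (1 + d) * s (1 - d') = 1 := by
    have : (ϖ : L) * ((1 + d) * s (1 - d')) = (ϖ : L) * 1 := by linear_combination -h1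
    exact mul_left_cancel₀ hϖ0 this
  have hυ0 : (1 + d) ≠ 0 := left_ne_zero_of_mul_eq_one h3
  refine ⟨1 + d, hυ, ?_, hυ0, hsϖ⟩
  rw [show (1 + d)⁻¹ = s (1 - d') from (eq_inv_of_mul_eq_one_right h3).symm]
  exact hsb

theorem coe_units_zpow {F : Type*} [Field F] (O : Subring F) (a : Oˣ) (n : ℤ) :
    (((a ^ n : Oˣ) : O) : F) = (((a : O) : F)) ^ n := by
  have h := map_zpow (Units.map (O.subtype : O →* F)) a n
  have h2 : ((Units.map (O.subtype : O →* F) (a ^ n) : Fˣ) : F) =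
      ((Units.map (O.subtype : O →* F) a ^ n : Fˣ) : F) := by rw [h]
  rw [Units.val_zpow_eq_zpow_val] at h2
  exact h2

/-- **The double difference of any nonzero element of `fracInt W` is `≡ 1` modulo `ϖ` in the
content ring** (both the quotient and its inverse). -/
theorem doubleDiff_series (ϖ : W) (hϖ : Irreducible ϖ) (s : L ≃+* L)
    (hsW : ∀ c : L, c ∈ W ↔ s c ∈ W)
    (hsI : ∀ c : L, c ∈ W → ∃ d : L, d ∈ W ∧ s c = c + (ϖ : L) * d)
    {f : LaurentSeries L} (hf : f ∈ fracInt W) (hf0 : f ≠ 0) :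
    (∃ m : LaurentSeries L, m ∈ contentRing W ∧
      coeffEquiv s (coeffEquiv s f) * f / (coeffEquiv s f) ^ 2 =
        1 + HahnSeries.C ((ϖ : W) : L) * m) ∧
    (∃ m : LaurentSeries L, m ∈ contentRing W ∧
      (coeffEquiv s f) ^ 2 / (coeffEquiv s (coeffEquiv s f) * f) =
        1 + HahnSeries.C ((ϖ : W) : L) * m) := by
  have hsW1 : ∀ c : L, c ∈ W → s c ∈ W := fun c hc => (hsW c).1 hc
  obtain ⟨n, u, hu, hured, rfl⟩ := fracInt_exists_zpow_mul_unit W hϖ hf hf0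
  have hu0 : u ≠ 0 := right_ne_zero_of_mul hf0
  have hc0 : HahnSeries.C ((ϖ : W) : L) ^ n ≠ 0 := left_ne_zero_of_mul hf0
  have huinv : u⁻¹ ∈ contentRing W := inv_mem_contentRing W hu hured
  let uO : (contentRing W)ˣ :=
    ⟨⟨u, hu⟩, ⟨u⁻¹, huinv⟩, Subtype.ext (mul_inv_cancel₀ hu0), Subtype.ext (inv_mul_cancel₀ hu0)⟩
  obtain ⟨υ, hυ, hυ', hυ0, hsϖ⟩ := exists_unit_mul W ϖ hϖ s hsW hsI
  have hCυ : HahnSeries.C υ * HahnSeries.C υ⁻¹ = (1 : LaurentSeries L) := by
    rw [← map_mul, mul_inv_cancel₀ hυ0, map_one]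
  let ξ₀ : (contentRing W)ˣ :=
    ⟨⟨HahnSeries.C υ, C_mem_contentRing W ⟨υ, hυ⟩⟩, ⟨HahnSeries.C υ⁻¹, C_mem_contentRing W ⟨υ⁻¹, hυ'⟩⟩,
      Subtype.ext hCυ, Subtype.ext (by rw [mul_comm]; exact hCυ)⟩
  have hc : coeffEquiv s (HahnSeries.C ((ϖ : W) : L) ^ n) =
      (((ξ₀ ^ n : (contentRing W)ˣ) : contentRing W) : LaurentSeries L) *
        HahnSeries.C ((ϖ : W) : L) ^ n := by
    rw [coe_units_zpow, map_zpow₀, coeffEquiv_C, hsϖ, map_mul, mul_zpow]
  obtain ⟨⟨m₁, hm₁, e₁⟩, ⟨m₂, hm₂, e₂⟩⟩ :=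
    doubleDiff_div (trivMod W ϖ hϖ s hsW1 hsI) (HahnSeries.C ((ϖ : W) : L) ^ n) hc0
      (ξ₀ ^ n) uO hc
  obtain ⟨m₁', rfl⟩ := Ideal.mem_span_singleton'.1 hm₁
  obtain ⟨m₂', rfl⟩ := Ideal.mem_span_singleton'.1 hm₂
  refine ⟨⟨(m₁' : LaurentSeries L), m₁'.2, ?_⟩, ⟨(m₂' : LaurentSeries L), m₂'.2, ?_⟩⟩
  · rw [show ((uO : contentRing W) : LaurentSeries L) = u from rfl] at e₁
    rw [e₁, Subring.coe_mul, mul_comm (m₁' : LaurentSeries L)]
  · rw [show ((uO : contentRing W) : LaurentSeries L) = u from rfl] at e₂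
    rw [e₂, Subring.coe_mul, mul_comm (m₂' : LaurentSeries L)]

end Fermat.Agent.S34.DoubleDiffSeries
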