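import Mathlib
import Fermat.Agent.S34.FinDich
import Fermat.Agent.S34.ResFieldG

/-!
# S34, (DICH₁) at a stable level, unconditional

`FinDich.finite_dich_of_F1` with its last input (F1) discharged by `ResFieldG.red_mem_fullC_level`.

* `f1_level` : (F1) at a level `(L, ι)`, `W` a discrete valuation ring with residue characteristic
  `q ∤ M`: the reduction of a function of level `M q` with `W`-integral `q`-expansion lies in
  `F_κ(M)`;
* `finite_dich` : **for every carrier `B` of the finite chart of level `M q` over `W = A.comap ι`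
  at a Galois-stable level and every maximal ideal `𝔫 ∋ ϖ` of `B`, the maximal ideal of `B_𝔫` is
  `(ϖ, u)` or `(ϖ, X, Y)` with `ϖ ∣ X Y`** (`u, X, Y ∈ 𝔫`).
-/

set_option autoImplicit false
set_option linter.unusedSectionVars false

namespace Fermat.Agent.S34.FinDichLevel

open ModularCurve Polynomial Fermat.Agent.S18 Fermat.Agent.S18.Gauss Fermat.Agent.S24 IsLocalRing

local notation "Qb" => AlgebraicClosure ℚ

/-- **(F1) at a level**: `f(v₁|v_M) = 1`. -/
theorem f1_level {L : Type*} [Field L] [Algebra ℚ L] (ι : L →+* Qb) (W : ValuationSubring L)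
    [IsDiscreteValuationRing W] (M q : ℕ) [NeZero M] [NeZero q]
    [CharP (IsLocalRing.ResidueField W) q] (hq : q.Prime) (hqM : ¬ q ∣ M)
    (x : FF L (M * q)) (hx : (x : LaurentSeries L) ∈ contentRing W) :
    red W ⟨x, hx⟩ ∈ modularFunctionFieldFullC (IsLocalRing.ResidueField W) M := by
  have : Fact q.Prime := ⟨hq⟩
  obtain ⟨w, hwα, hwβ⟩ := Fermat.Agent.S34.FrobPartner.exists_atkinLehner_level ι M q hq hqM
  exact Fermat.Agent.S34.ResFieldG.red_mem_fullC_level W M q
    (w : FF L (M * q) →ₐ[L] FF L (M * q)) hqM hwα hwβ x hx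

/-- **(DICH₁) at a stable level.**  For every carrier `B` of the finite chart of level `M q` over
`W = A.comap ι` and every maximal ideal `𝔫 ∋ ϖ` of `B`, the maximal ideal of `B_𝔫` is `(ϖ, u)`
(smooth point) or `(ϖ, X, Y)` with `ϖ ∣ X Y` (node), `u, X, Y ∈ 𝔫`. -/
theorem finite_dich (A : ValuationSubring Qb) {L : Type} [Field L] [Algebra ℚ L] (ι : L →+* Qb)
    (M q : ℕ) [NeZero M] [NeZero q] (hq : q.Prime) (hqM : ¬ q ∣ M) (S : Finset Qb)
    (hlev : Fermat.Agent.S37.LevelChange.IsLevel A q S ι)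
    (hstab : Fermat.Agent.S34.GalLevel.IsStable ι) (hA : A.LiesOverPrime q)
    (π : ↥(A.comap ι)) (hπ : Irreducible π)
    [Algebra (↥(A.comap ι))[X] (FF L (M * q))]
    (halg : algebraMap (↥(A.comap ι))[X] (FF L (M * q)) = evF (A.comap ι) (M * q))
    (B : Type*) [CommRing B] [Algebra (↥(A.comap ι))[X] B] [Algebra B (FF L (M * q))]
    [IsScalarTower (↥(A.comap ι))[X] B (FF L (M * q))]
    [IsIntegralClosure B (↥(A.comap ι))[X] (FF L (M * q))]
    (𝔫 : Ideal B) [𝔫.IsMaximal] (hπ𝔫 : algebraMap (↥(A.comap ι))[X] B (C π) ∈ 𝔫)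
    (R : Type*) [CommRing R] [Algebra B R] [IsLocalization.AtPrime R 𝔫] [IsLocalRing R] :
    (∃ u ∈ 𝔫, maximalIdeal R =
        Ideal.span {algebraMap B R (algebraMap (↥(A.comap ι))[X] B (C π)), algebraMap B R u}) ∨
    (∃ X ∈ 𝔫, ∃ Y ∈ 𝔫, algebraMap (↥(A.comap ι))[X] B (C π) ∣ X * Y ∧ maximalIdeal R =
        Ideal.span {algebraMap B R (algebraMap (↥(A.comap ι))[X] B (C π)), algebraMap B R X,
          algebraMap B R Y}) := by
  have hdvr : IsDiscreteValuationRing ↥(A.comap ι) := hlev.2.2.1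
  have hchar : CharP (IsLocalRing.ResidueField ↥(A.comap ι)) q := hlev.2.2.2.2.2.1
  exact Fermat.Agent.S34.FinDich.finite_dich_of_F1 A ι M q hq hqM S hlev hstab hA
    (fun x hx => f1_level ι (A.comap ι) M q hq hqM x hx) π hπ halg B 𝔫 hπ𝔫 R

end Fermat.Agent.S34.FinDichLevel
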