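import Mathlib
import Fermat.Agent.S34.GAsm
import Fermat.Agent.S34.TwoGauss
import Fermat.Agent.S34.ContentVal

/-!
# S34: the two valuation contracts of `GAsm` at every level

* `v3aContract` : `GAsm.V3aContract M q A` (`q` prime, `q ∤ M`) — from
  `TwoGauss.inC_of_mem_both` (helper27);
* `ramContract` : `GAsm.RamContract M q p A` — from `ContentVal.hram` (helper20).

Both hold at every level (`S₀ = ∅`).
-/

set_option autoImplicit false
set_option linter.unusedSectionVars false
set_option linter.style.haveILetI false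

noncomputable section

namespace Fermat.Agent.S34.GContractVR

open ModularCurve AlgebraicCurve Polynomial Fermat.Agent.S37 Fermat.Agent.S18
open Fermat.Agent.S18.Endgame

local notation "Qb" => AlgebraicClosure ℚ

variable (M q : ℕ) [NeZero M] [NeZero q]

set_option maxHeartbeats 800000 in
/-- **(V3a)** as a contract of `GAsm`: at every level, a function of level `M q` whose
`q`-expansion and whose Atkin–Lehner transform have `W`-integral `q`-expansions is
Gauss-integral over `W[j]`. -/
theorem v3aContract (hq : q.Prime) (hqM : ¬ q ∣ M) (A : ValuationSubring Qb) :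
    GAsm.V3aContract M q A := by
  refine ⟨∅, ?_⟩
  intro L _ _ ι hlev _ ϖ hϖ w hα hβ x hx₁ hx₂
  obtain ⟨-, -, hdvr, -, -, hchar, -, -⟩ := hlev
  haveI := hdvr
  haveI := hchar
  haveI : Fact q.Prime := ⟨hq⟩
  haveI : IsScalarTower ↥(A.comap ι) L (S24.FF L (M * q)) :=
    IsScalarTower.of_algebraMap_eq (fun _ => rfl)
  exact TwoGauss.inC_of_mem_both (A.comap ι) M q
    (w : S24.FF L (M * q) →ₐ[L] S24.FF L (M * q)) hqM hα hβ hϖ.not_isUnit x hx₁ hx₂

set_option maxHeartbeats 800000 in
/-- **(RAM)** as a contract of `GAsm`: at every level, `π` is a uniformiser of the Gauss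
ring. -/
theorem ramContract (p : ℕ) (A : ValuationSubring Qb) : GAsm.RamContract M q p A := by
  refine ⟨∅, ?_⟩
  intro L _ _ ι hlev _ ϖ hϖ k y hy h1 h2
  obtain ⟨-, -, hdvr, -, -, -, -, -⟩ := hlev
  haveI := hdvr
  exact ContentVal.hram (A.comap ι) (M * q) hϖ p k y hy h1 h2

end Fermat.Agent.S34.GContractVR
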