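/-
S34 (wave 6), package B6 part (2): the geometric input (G) = `S34Of.UnipG N p q` from its divisor
form over `ℚ̄`.

`unipG_of_divisor`: if for every place `A` of `ℚ̄` over `q`, every `τ` in the inertia group of `A`
and every degree-zero divisor `D` of the function field of `X₀(N)` over `ℚ̄` with `p ^ n • D`
principal, the divisor `τ²D + D - 2τD` is principal, then `UnipG N p q` holds
(`τ • τ • x + x = 2 • τ • x` on the `p`-power torsion of `J₀(N)(ℚ̄)`).
-/
import Mathlib
import Fermat.Agent.S34.S34Of
import Fermat.Agent.S37.DivisorForm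

set_option autoImplicit false

namespace Fermat.Agent.S34.GDiv

open ModularCurve AlgebraicCurve Fermat.Agent.S30

noncomputable section

/-- Divisor form of the relation `g²x + x = 2gx` in the class group. -/
theorem smul_smul_add_eq_of_principal {K F : Type*} [Field K] [Field F] [Algebra K F]
    (g : SemilinearAut K F) (D : Divisor.degZero (K := K) (F := F))
    (h : g • g • (D : Divisor K F) + (D : Divisor K F) - 2 • g • (D : Divisor K F)
      ∈ Divisor.principal (K := K) (F := F)) :
    g • g • Pic0.mk D + Pic0.mk D = 2 • g • Pic0.mk D := by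
  rw [SemilinearAut.pic0_smul_mk, SemilinearAut.pic0_smul_mk]
  rw [← sub_eq_zero]
  have e : Pic0.mk (SemilinearAut.degZeroSMulHom g (SemilinearAut.degZeroSMulHom g D)) + Pic0.mk D
      - 2 • Pic0.mk (SemilinearAut.degZeroSMulHom g D)
      = Pic0.mk (SemilinearAut.degZeroSMulHom g (SemilinearAut.degZeroSMulHom g D) + D
        - 2 • SemilinearAut.degZeroSMulHom g D) := rfl
  rw [e]
  refine (QuotientAddGroup.eq_zero_iff _).mpr (AddSubgroup.mem_addSubgroupOf.mpr ?_)
  rw [AddSubgroupClass.coe_sub, AddMemClass.coe_add, AddSubgroupClass.coe_nsmul,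
    SemilinearAut.coe_degZeroSMulHom, SemilinearAut.coe_degZeroSMulHom]
  exact h

/-- **(G) from its divisor form over `ℚ̄`.** -/
theorem unipG_of_divisor (N p q : ℕ) [NeZero N]
    (h : ∀ A : ValuationSubring Qb, A.LiesOverPrime q → ∀ τ ∈ A.inertiaSubgroupIn ℚ,
      ∀ (n : ℕ) (D : Divisor Qb (modularFunctionFieldBar N)), Divisor.degree D = 0 →
        p ^ n • D ∈ Divisor.principal (K := Qb) (F := modularFunctionFieldBar N) →
        arithmeticGalois (modularFunctionFieldFull N) τ •
            arithmeticGalois (modularFunctionFieldFull N) τ • D + D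
          - 2 • arithmeticGalois (modularFunctionFieldFull N) τ • D
          ∈ Divisor.principal (K := Qb) (F := modularFunctionFieldBar N)) :
    S34Of.UnipG N p q := by
  intro A hA τ hτ n x hx
  obtain ⟨D, rfl⟩ := Pic0.mk_surjective x
  have h1 : Pic0.mk ((p ^ n) • D) = 0 := hx
  have h2 : ((p ^ n) • D : Divisor.degZero (K := Qb) (F := modularFunctionFieldBar N)) ∈
      (Divisor.principal (K := Qb) (F := modularFunctionFieldBar N)).addSubgroupOf
        (Divisor.degZero (K := Qb) (F := modularFunctionFieldBar N)) :=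
    (QuotientAddGroup.eq_zero_iff _).mp h1
  rw [AddSubgroup.mem_addSubgroupOf, AddSubgroupClass.coe_nsmul] at h2
  have h3 := h A hA τ hτ n (D : Divisor Qb (modularFunctionFieldBar N))
    (Divisor.mem_degZero.mp D.2) h2
  rw [galois_smul_pic0_def, galois_smul_pic0_def]
  exact smul_smul_add_eq_of_principal _ D h3

end

end Fermat.Agent.S34.GDiv
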