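import Mathlib
import Fermat.Agent.S34.GRat
import Fermat.Agent.S34.CoeffAut
import Fermat.Agent.S37.WChart

/-!
# S34, end of the DVR-level core: from the Kummer factorisation to `(τ - 1)² D` principal

For a semilinear automorphism `g` of `F / K` put `ddf g f = g(g f) · f / (g f)²` (the double
difference of a function).  If `div f = m • D` then `div (ddf g f) = m • dd g D`, so a
factorisation `ddf g f = a · h ^ m` with a nonzero constant `a` gives `dd g D = div h`.

At a level `(L, ι)` with `s : L ≃+* L` over `τ` this reads: if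
`(τ - 1)² fL = a · h ^ (p ^ n)` in `F_{N,L}` (the output of the Kummer descent for
`w = (τ - 1)² fL`), then `dd τ D` is principal — the conclusion of `GDescent.DvrCoreG`.
-/

set_option autoImplicit false
set_option linter.unusedSectionVars false

noncomputable section

namespace Fermat.Agent.S34.GEnd

open ModularCurve AlgebraicCurve Fermat.Agent.S37 Fermat.Agent.S37.GaloisValue
open Fermat.Agent.S34.GTop Fermat.Agent.S34.GDescent

local notation "Qb" => AlgebraicClosure ℚ

section General

variable {K F : Type*} [Field K] [Field F] [Algebra K F]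

/-- The double difference `(g - 1)² f = g(g f) · f / (g f)²` of a function. -/
def ddf (g : SemilinearAut K F) (f : F) : F := g • g • f * f / (g • f) ^ 2

theorem ord_smul_eq (g : SemilinearAut K F) (P : Place K F) (f : F) :
    P.ord (g • f) = (g⁻¹ • P).ord f := by
  have h := SemilinearAut.ord_smul g (g⁻¹ • P) f
  rwa [smul_inv_smul] at h

theorem smul_ne_zero' (g : SemilinearAut K F) {f : F} (hf : f ≠ 0) : g • f ≠ 0 := by
  intro h
  apply hf
  have := congrArg (fun z => g⁻¹ • z) h
  simpa using this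

theorem ddf_ne_zero (g : SemilinearAut K F) {f : F} (hf : f ≠ 0) : ddf g f ≠ 0 := by
  unfold ddf
  exact div_ne_zero (mul_ne_zero (smul_ne_zero' g (smul_ne_zero' g hf)) hf)
    (pow_ne_zero 2 (smul_ne_zero' g hf))

/-- `div ((g - 1)² f) = m • (g - 1)² D` when `div f = m • D`. -/
theorem ord_ddf (g : SemilinearAut K F) {f : F} (hf : f ≠ 0) {m : ℤ} {D : Divisor K F}
    (hD : ∀ P : Place K F, P.ord f = m * D P) (P : Place K F) :
    P.ord (ddf g f) = m * dd g D P := by
  have h1 : g • f ≠ 0 := smul_ne_zero' g hf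
  have h2 : g • g • f ≠ 0 := smul_ne_zero' g h1
  unfold ddf
  rw [div_eq_mul_inv, P.ord_mul (mul_ne_zero h2 hf) (inv_ne_zero (pow_ne_zero 2 h1)),
    P.ord_mul h2 hf, P.ord_inv, WChart.ord_pow, ord_smul_eq g P (g • f),
    ord_smul_eq g (g⁻¹ • P) f, ord_smul_eq g P f, hD, hD, hD, GRat.dd_apply]
  push_cast
  ring

/-- **End of the core, general form.**  If `div f = m • D` (`m ≠ 0`) and
`(g - 1)² f = a · h ^ m` with a nonzero constant `a`, then `(g - 1)² D = div h`. -/
theorem dd_mem_principal_of_ddf_eq (g : SemilinearAut K F) {f : F} (hf : f ≠ 0) {m : ℕ}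
    (hm : m ≠ 0) {D : Divisor K F} (hD : ∀ P : Place K F, P.ord f = (m : ℤ) * D P)
    (a : K) (ha : a ≠ 0) (h : F) (hw : ddf g f = algebraMap K F a * h ^ m) :
    dd g D ∈ Divisor.principal (K := K) (F := F) := by
  have hw0 : ddf g f ≠ 0 := ddf_ne_zero g hf
  have ha' : algebraMap K F a ≠ 0 := fun h0 =>
    ha ((map_eq_zero (algebraMap K F)).mp h0)
  have hh : h ≠ 0 := by
    rintro rfl
    rw [zero_pow hm, mul_zero] at hw
    exact hw0 hw
  refine ⟨h, hh, fun P => ?_⟩
  have e1 := ord_ddf g hf hD P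
  rw [hw, P.ord_mul ha' (pow_ne_zero m hh),
    WChart.ord_eq_zero_of_isValueAt (isValueAt_algebraMap P a) ha, zero_add, WChart.ord_pow] at e1
  have hm' : (m : ℤ) ≠ 0 := Nat.cast_ne_zero.mpr hm
  exact (mul_left_cancel₀ hm' e1).symm

end General

section Level

variable (N : ℕ) [NeZero N] {L : Type} [Field L] [Algebra ℚ L] (ι : L →+* Qb)

/-- The base change of the double difference at the level is the double difference over
`ℚ̄`. -/
theorem bc_ddf (σ : Qb ≃ₐ[ℚ] Qb) (s : L ≃+* L) (hs : ∀ c : L, ι (s c) = σ (ι c))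
    (x : S24.FF L N) :
    S24.CoeffBC.bc ι (modularFunctionFieldFull N)
        (CoeffAut.act N s (CoeffAut.act N s x) * x / (CoeffAut.act N s x) ^ 2) =
      ddf (arithmeticGalois (modularFunctionFieldFull N) σ)
        (S24.CoeffBC.bc ι (modularFunctionFieldFull N) x) := by
  have e : ∀ y : S24.FF L N, S24.CoeffBC.bc ι (modularFunctionFieldFull N) (CoeffAut.act N s y) =
      arithmeticGalois (modularFunctionFieldFull N) σ •
        S24.CoeffBC.bc ι (modularFunctionFieldFull N) y :=
    fun y => GRat.bc_bc_eq_smul N ι σ (s : L →+* L) hs y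
  have e2 : S24.CoeffBC.bc ι (modularFunctionFieldFull N)
        (CoeffAut.act N s (CoeffAut.act N s x)) =
      arithmeticGalois (modularFunctionFieldFull N) σ •
        arithmeticGalois (modularFunctionFieldFull N) σ •
          S24.CoeffBC.bc ι (modularFunctionFieldFull N) x := by
    rw [e, e]
  unfold ddf
  rw [← e2, ← e x]
  exact (map_div₀ (S24.CoeffBC.bc ι (modularFunctionFieldFull N)) _ _).trans
    (by rw [map_mul, map_pow])

/-- **End of the DVR-level core.**  At a level `(L, ι)` with `s` over `τ`: if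
`div (bc fL) = p ^ n • D` and `(τ - 1)² fL = a · h ^ (p ^ n)` in `F_{N,L}` with a nonzero
constant `a`, then `(τ - 1)² D` is principal. -/
theorem dd_mem_principal_of_level (τ : Qb ≃ₐ[ℚ] Qb) (s : L ≃+* L)
    (hs : ∀ c : L, ι (s c) = τ (ι c)) {p : ℕ} (hp : p ≠ 0) (n : ℕ)
    (D : Divisor Qb (modularFunctionFieldBar N)) (fL : S24.FF L N) (hfL : fL ≠ 0)
    (hD : ∀ P : Place Qb (modularFunctionFieldBar N),
      P.ord (S24.CoeffBC.bc ι (modularFunctionFieldFull N) fL) = (p : ℤ) ^ n * D P)
    (a : L) (ha : a ≠ 0) (h : S24.FF L N)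
    (hw : CoeffAut.act N s (CoeffAut.act N s fL) * fL / (CoeffAut.act N s fL) ^ 2 =
      algebraMap L (S24.FF L N) a * h ^ (p ^ n)) :
    dd (arithmeticGalois (modularFunctionFieldFull N) τ) D ∈
      Divisor.principal (K := Qb) (F := modularFunctionFieldBar N) := by
  have hf : S24.CoeffBC.bc ι (modularFunctionFieldFull N) fL ≠ 0 := fun h0 =>
    hfL ((map_eq_zero (S24.CoeffBC.bc ι (modularFunctionFieldFull N))).mp h0)
  have hD' : ∀ P : Place Qb (modularFunctionFieldBar N),
      P.ord (S24.CoeffBC.bc ι (modularFunctionFieldFull N) fL) = ((p ^ n : ℕ) : ℤ) * D P := by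
    intro P
    rw [hD P]
    push_cast
    rfl
  have hw' := congrArg (S24.CoeffBC.bc ι (modularFunctionFieldFull N)) hw
  rw [bc_ddf N ι τ s hs, map_mul, map_pow, S24.CoeffBC.bc_algebraMap] at hw'
  exact dd_mem_principal_of_ddf_eq (arithmeticGalois (modularFunctionFieldFull N) τ) hf
    (pow_ne_zero n hp) hD' (ι a) (fun h0 => ha ((map_eq_zero ι).mp h0))
    (S24.CoeffBC.bc ι (modularFunctionFieldFull N) h) hw'

/-- The same with the factorisation in division-free form. -/
theorem dd_mem_principal_of_level' (τ : Qb ≃ₐ[ℚ] Qb) (s : L ≃+* L)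
    (hs : ∀ c : L, ι (s c) = τ (ι c)) {p : ℕ} (hp : p ≠ 0) (n : ℕ)
    (D : Divisor Qb (modularFunctionFieldBar N)) (fL : S24.FF L N) (hfL : fL ≠ 0)
    (hD : ∀ P : Place Qb (modularFunctionFieldBar N),
      P.ord (S24.CoeffBC.bc ι (modularFunctionFieldFull N) fL) = (p : ℤ) ^ n * D P)
    (a : L) (ha : a ≠ 0) (h : S24.FF L N)
    (hw : CoeffAut.act N s (CoeffAut.act N s fL) * fL =
      algebraMap L (S24.FF L N) a * h ^ (p ^ n) * (CoeffAut.act N s fL) ^ 2) :
    dd (arithmeticGalois (modularFunctionFieldFull N) τ) D ∈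
      Divisor.principal (K := Qb) (F := modularFunctionFieldBar N) := by
  refine dd_mem_principal_of_level N ι τ s hs hp n D fL hfL hD a ha h ?_
  have h1 : CoeffAut.act N s fL ≠ 0 := fun h0 =>
    hfL ((map_eq_zero (CoeffAut.act N s)).mp h0)
  rw [hw, mul_div_assoc, div_self (pow_ne_zero 2 h1), mul_one]

end Level

end Fermat.Agent.S34.GEnd
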