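import Mathlib
import Fermat.Agent.S34.GEnd
import Fermat.Agent.S34.GCoreContract
import Fermat.Agent.S34.DDLocal

/-!
# S34: instantiation of the outer Kummer core at a level — `DvrCoreG` from named obligations

At a Galois-stable level `(L, ι)` put `W = A.comap ι`, `F = S24.FF L N`, `j = jBC L N`,
`ψ = bc ι : F → F_N / ℚ̄`, `g = arithmeticGalois τ`, `s : L ≃+* L` the restriction of `τ`,
`ddL s x = s(s x) · x / (s x)²` (the double difference at the level).

* `TowerAt W N` : the statement of the outer Kummer core (`GCore.kummer_tower`) at `F`;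
* `CentredAt` : the places of `F_N / ℚ̄` centred at a maximal ideal `𝔫` of a chart ring;
* `PointOb` : the obligations at a closed point `𝔫` of a chart: the class of `𝔫` is `τ`-stable,
  every rational point of the class is fixed, or has a local equation, or its translate has one
  (LOC), and the Hartogs criterion (a Gauss-integral function with non-negative order at all
  places of the class is integral at `𝔫`);
* `LevelOb` : the obligations at the level: two Gauss valuation rings (`GCore.TwoGauss`) at which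
  every double difference is `≡ 1`, and `PointOb` at every closed point of the special fibre of
  the finite chart and at every cuspidal closed point of the second chart;
* `level_identity` : `TowerAt` + `LevelOb` give the Kummer identity
  `(τ - 1)² fL = a · h ^ (p ^ n)` at the level;
* `dvrCoreG_of_levelOb` : hence `GDescent.DvrCoreG`.
-/

set_option autoImplicit false
set_option linter.unusedSectionVars false
set_option linter.style.haveILetI false

noncomputable section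

namespace Fermat.Agent.S34.GInst

open ModularCurve AlgebraicCurve Polynomial Fermat.Agent.S37 Fermat.Agent.S37.GaloisValue
open Fermat.Agent.S34.GTop Fermat.Agent.S34.GDescent Fermat.Agent.S18.Endgame

local notation "Qb" => AlgebraicClosure ℚ

/-! ### Elements congruent to `1` at a valuation ring -/

section One

variable {F : Type*} [Field F] (O : ValuationSubring F)

theorem val_eq_one_of_sub {x : F} (h : O.valuation (x - 1) < 1) : O.valuation x = 1 := by
  have h1 := Valuation.map_one_add_of_lt (v := O.valuation) h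
  rwa [add_sub_cancel] at h1

theorem ne_zero_of_sub {x : F} (h : O.valuation (x - 1) < 1) : x ≠ 0 := by
  rintro rfl
  have := val_eq_one_of_sub O h
  rw [map_zero] at this
  exact zero_ne_one this

theorem mem_of_sub {x : F} (h : O.valuation (x - 1) < 1) : x ∈ O :=
  (O.valuation_le_one_iff x).mp (val_eq_one_of_sub O h).le

theorem inv_sub_one {x : F} (h : O.valuation (x - 1) < 1) : O.valuation (x⁻¹ - 1) < 1 := by
  have hx0 : x ≠ 0 := ne_zero_of_sub O h
  have e : x⁻¹ - 1 = -(x - 1) * x⁻¹ := by field_simp; ring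
  rw [e, map_mul, map_inv₀, val_eq_one_of_sub O h, inv_one, mul_one, Valuation.map_neg]
  exact h

theorem mul_sub_one {x y : F} (hx : O.valuation (x - 1) < 1) (hy : O.valuation (y - 1) < 1) :
    O.valuation (x * y - 1) < 1 := by
  have e : x * y - 1 = (x - 1) * y + (y - 1) := by ring
  rw [e]
  refine lt_of_le_of_lt (Valuation.map_add _ _ _) (max_lt ?_ hy)
  rw [map_mul, val_eq_one_of_sub O hy, mul_one]
  exact hx

theorem pow_sub_one {x : F} (hx : O.valuation (x - 1) < 1) (k : ℕ) :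
    O.valuation (x ^ k - 1) < 1 := by
  induction k with
  | zero => simp
  | succ k ih =>
    rw [pow_succ]
    exact mul_sub_one O ih hx

end One

/-! ### The vocabulary at a level -/

section Defs

variable (N : ℕ) [NeZero N] {L : Type} [Field L] [Algebra ℚ L]

/-- The double difference `(s - 1)² x = s(s x) · x / (s x)²` at the level. -/
def ddL (s : L ≃+* L) (x : S24.FF L N) : S24.FF L N :=
  CoeffAut.act N s (CoeffAut.act N s x) * x / (CoeffAut.act N s x) ^ 2

theorem ddL_ne_zero (s : L ≃+* L) {x : S24.FF L N} (hx : x ≠ 0) : ddL N s x ≠ 0 := by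
  have h1 : CoeffAut.act N s x ≠ 0 := (_root_.map_ne_zero (CoeffAut.act N s)).mpr hx
  have h2 : CoeffAut.act N s (CoeffAut.act N s x) ≠ 0 :=
    (_root_.map_ne_zero (CoeffAut.act N s)).mpr h1
  exact div_ne_zero (mul_ne_zero h2 hx) (pow_ne_zero 2 h1)

/-- **The outer Kummer core at `F = S24.FF L N`** (the statement of `GCore.kummer_tower` with
its instance arguments discharged). -/
def TowerAt (W : ValuationSubring L) : Prop :=
  ∀ (π : ↥W), Irreducible π → ∀ (O₁ O₂ : ValuationSubring (S24.FF L N)),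
    GCore.TwoGauss π (S24.jBC L N) O₁ O₂ →
    ∀ (s : ℕ), s.Prime → IsUnit (s : ↥W) → ∀ (ζ : ↥W), IsPrimitiveRoot ζ s →
    ∀ (n : ℕ) (w : S24.FF L N), KummerStep.GaussOne π (S24.jBC L N) w →
    (∀ 𝔫 : Ideal (integralClosure (Algebra.adjoin ↥W {S24.jBC L N}) (S24.FF L N)),
      𝔫.IsMaximal →
      (∀ r : integralClosure (Algebra.adjoin ↥W {S24.jBC L N}) (S24.FF L N),
        (r : S24.FF L N) = algebraMap ↥W (S24.FF L N) π → r ∈ 𝔫) →
      ∃ g : S24.FF L N, KummerStep.GaussOne π (S24.jBC L N) g ∧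
        ∃ d : integralClosure (Algebra.adjoin ↥W {S24.jBC L N}) (S24.FF L N), d ∉ 𝔫 ∧
          IsIntegral (Algebra.adjoin ↥W {S24.jBC L N}) ((d : S24.FF L N) * (w * g ^ (s ^ n)))) →
    (∀ 𝔫 : Ideal (integralClosure (Algebra.adjoin ↥W {(S24.jBC L N)⁻¹}) (S24.FF L N)),
      𝔫.IsMaximal →
      (∀ r : integralClosure (Algebra.adjoin ↥W {(S24.jBC L N)⁻¹}) (S24.FF L N),
        (r : S24.FF L N) = algebraMap ↥W (S24.FF L N) π → r ∈ 𝔫) →
      (∀ r : integralClosure (Algebra.adjoin ↥W {(S24.jBC L N)⁻¹}) (S24.FF L N),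
        (r : S24.FF L N) = (S24.jBC L N)⁻¹ → r ∈ 𝔫) →
      ∃ g : S24.FF L N, KummerStep.GaussOne π (S24.jBC L N) g ∧
        ∃ d : integralClosure (Algebra.adjoin ↥W {(S24.jBC L N)⁻¹}) (S24.FF L N), d ∉ 𝔫 ∧
          IsIntegral (Algebra.adjoin ↥W {(S24.jBC L N)⁻¹})
            ((d : S24.FF L N) * (w * g ^ (s ^ n)))) →
    ∃ (b : (↥W)ˣ) (h : S24.FF L N), w = algebraMap ↥W (S24.FF L N) (b : ↥W) * h ^ (s ^ n)

variable (ι : L →+* Qb) (W : ValuationSubring L)

/-- The places of `F_N / ℚ̄` **centred at** the maximal ideal `𝔫` of the chart ring over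
`W[x₀]`: every chart function is regular at `Q`, and the chart functions vanishing at `Q` lie
in `𝔫`. -/
def CentredAt (x₀ : S24.FF L N)
    (𝔫 : Ideal (integralClosure (Algebra.adjoin ↥W {x₀}) (S24.FF L N)))
    (Q : Place Qb (modularFunctionFieldBar N)) : Prop :=
  (∀ y : integralClosure (Algebra.adjoin ↥W {x₀}) (S24.FF L N),
    S24.CoeffBC.bc ι (modularFunctionFieldFull N) (y : S24.FF L N) ∈ Q.toValuationSubring) ∧
  (∀ y : integralClosure (Algebra.adjoin ↥W {x₀}) (S24.FF L N),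
    S24.CoeffBC.bc ι (modularFunctionFieldFull N) (y : S24.FF L N) ∈
      Q.toValuationSubring.nonunits → y ∈ 𝔫)

/-- **The obligations at a closed point `𝔫` of the chart over `W[x₀]`.** -/
def PointOb (τ : Qb ≃ₐ[ℚ] Qb) (O₁ O₂ : ValuationSubring (S24.FF L N)) (x₀ : S24.FF L N)
    (𝔫 : Ideal (integralClosure (Algebra.adjoin ↥W {x₀}) (S24.FF L N))) : Prop :=
  -- (STAB) the class of `𝔫` is stable under `τ`
  (∀ P : Place Qb (modularFunctionFieldBar N),
    CentredAt N ι W x₀ 𝔫 (arithmeticGalois (modularFunctionFieldFull N) τ • P) ↔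
      CentredAt N ι W x₀ 𝔫 P) ∧
  -- (LOC) a rational point of the class is fixed, or good, or has a good translate
  (∀ P : Place Qb (modularFunctionFieldBar N), CentredAt N ι W x₀ 𝔫 P → RatAtLevel N ι P →
    arithmeticGalois (modularFunctionFieldFull N) τ • P = P ∨
    DDLocal.Good (S24.CoeffBC.bc ι (modularFunctionFieldFull N)) (CentredAt N ι W x₀ 𝔫) P ∨
    DDLocal.Good (S24.CoeffBC.bc ι (modularFunctionFieldFull N)) (CentredAt N ι W x₀ 𝔫)
      (arithmeticGalois (modularFunctionFieldFull N) τ • P)) ∧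
  -- (HART) Gauss-integral + non-negative order on the class ⟹ integral at `𝔫`
  (∀ z : S24.FF L N, z ≠ 0 → z ∈ O₁ → z ∈ O₂ →
    (∀ Q : Place Qb (modularFunctionFieldBar N), CentredAt N ι W x₀ 𝔫 Q →
      0 ≤ Q.ord (S24.CoeffBC.bc ι (modularFunctionFieldFull N) z)) →
    ∃ d : integralClosure (Algebra.adjoin ↥W {x₀}) (S24.FF L N), d ∉ 𝔫 ∧
      IsIntegral (Algebra.adjoin ↥W {x₀}) ((d : S24.FF L N) * z))

/-- **The obligations at a level** for the restriction `s` of `τ` and the uniformiser `π`. -/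
def LevelOb (τ : Qb ≃ₐ[ℚ] Qb) (s : L ≃+* L) (π : ↥W) : Prop :=
  ∃ O₁ O₂ : ValuationSubring (S24.FF L N),
    GCore.TwoGauss π (S24.jBC L N) O₁ O₂ ∧
    (∀ x : S24.FF L N, x ≠ 0 →
      O₁.valuation (ddL N s x - 1) < 1 ∧ O₂.valuation (ddL N s x - 1) < 1) ∧
    (∀ 𝔫 : Ideal (integralClosure (Algebra.adjoin ↥W {S24.jBC L N}) (S24.FF L N)),
      𝔫.IsMaximal →
      (∀ r : integralClosure (Algebra.adjoin ↥W {S24.jBC L N}) (S24.FF L N),
        (r : S24.FF L N) = algebraMap ↥W (S24.FF L N) π → r ∈ 𝔫) →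
      PointOb N ι W τ O₁ O₂ (S24.jBC L N) 𝔫) ∧
    (∀ 𝔫 : Ideal (integralClosure (Algebra.adjoin ↥W {(S24.jBC L N)⁻¹}) (S24.FF L N)),
      𝔫.IsMaximal →
      (∀ r : integralClosure (Algebra.adjoin ↥W {(S24.jBC L N)⁻¹}) (S24.FF L N),
        (r : S24.FF L N) = algebraMap ↥W (S24.FF L N) π → r ∈ 𝔫) →
      (∀ r : integralClosure (Algebra.adjoin ↥W {(S24.jBC L N)⁻¹}) (S24.FF L N),
        (r : S24.FF L N) = (S24.jBC L N)⁻¹ → r ∈ 𝔫) →
      PointOb N ι W τ O₁ O₂ (S24.jBC L N)⁻¹ 𝔫)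

end Defs

/-! ### The local datum at a closed point -/

section Main

variable (N : ℕ) [NeZero N] {L : Type} [Field L] [Algebra ℚ L] (ι : L →+* Qb)
  (W : ValuationSubring L)

/-- **The local datum of the Kummer core at a closed point** from the obligations at the
point: `g = ((τ - 1)² h)⁻¹` for the local function `h` of `DDLocal.exists_local_datum_ord`. -/
theorem exists_datum (τ : Qb ≃ₐ[ℚ] Qb) (s : L ≃+* L) (hs : ∀ c : L, ι (s c) = τ (ι c))
    (π : ↥W) (hπF : algebraMap ↥W (S24.FF L N) π ≠ 0)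
    (O₁ O₂ : ValuationSubring (S24.FF L N)) (hO : GCore.TwoGauss π (S24.jBC L N) O₁ O₂)
    (hdd : ∀ x : S24.FF L N, x ≠ 0 →
      O₁.valuation (ddL N s x - 1) < 1 ∧ O₂.valuation (ddL N s x - 1) < 1)
    (p n : ℕ) (D : Divisor Qb (modularFunctionFieldBar N)) (fL : S24.FF L N) (hfL : fL ≠ 0)
    (hD : ∀ P : Place Qb (modularFunctionFieldBar N),
      P.ord (S24.CoeffBC.bc ι (modularFunctionFieldFull N) fL) = (p : ℤ) ^ n * D P)
    (hrat : ∀ P : Place Qb (modularFunctionFieldBar N), D P ≠ 0 → RatAtLevel N ι P)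
    (x₀ : S24.FF L N) (𝔫 : Ideal (integralClosure (Algebra.adjoin ↥W {x₀}) (S24.FF L N)))
    (hpt : PointOb N ι W τ O₁ O₂ x₀ 𝔫) :
    ∃ g : S24.FF L N, KummerStep.GaussOne π (S24.jBC L N) g ∧
      ∃ d : integralClosure (Algebra.adjoin ↥W {x₀}) (S24.FF L N), d ∉ 𝔫 ∧
        IsIntegral (Algebra.adjoin ↥W {x₀}) ((d : S24.FF L N) * (ddL N s fL * g ^ (p ^ n))) := by
  obtain ⟨hstab, hloc, hhart⟩ := hpt
  have hτ : ∀ x : S24.FF L N, S24.CoeffBC.bc ι (modularFunctionFieldFull N) (CoeffAut.act N s x) =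
      arithmeticGalois (modularFunctionFieldFull N) τ •
        S24.CoeffBC.bc ι (modularFunctionFieldFull N) x :=
    fun x => GRat.bc_bc_eq_smul N ι τ (s : L →+* L) hs x
  obtain ⟨h, hh0, hh⟩ := DDLocal.exists_local_datum_ord
    (arithmeticGalois (modularFunctionFieldFull N) τ)
    (S24.CoeffBC.bc ι (modularFunctionFieldFull N)) (CoeffAut.act N s) hτ
    (CentredAt N ι W x₀ 𝔫) hstab D (fun P hP hDP => hloc P hP (hrat P hDP)) p n fL hfL hD
  have hG1 := (hdd h hh0).1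
  have hG2 := (hdd h hh0).2
  have hG0 : ddL N s h ≠ 0 := ddL_ne_zero N s hh0
  refine ⟨(ddL N s h)⁻¹, hO.gaussOne_of_val hπF (inv_sub_one O₁ hG1) (inv_sub_one O₂ hG2), ?_⟩
  have hz0 : ddL N s fL * (ddL N s h)⁻¹ ^ (p ^ n) ≠ 0 :=
    mul_ne_zero (ddL_ne_zero N s hfL) (pow_ne_zero _ (inv_ne_zero hG0))
  refine hhart _ hz0
    (mem_of_sub O₁ (mul_sub_one O₁ (hdd fL hfL).1 (pow_sub_one O₁ (inv_sub_one O₁ hG1) _)))
    (mem_of_sub O₂ (mul_sub_one O₂ (hdd fL hfL).2 (pow_sub_one O₂ (inv_sub_one O₂ hG2) _)))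
    (fun Q hQ => ?_)
  have e := hh Q hQ
  have hψ1 : S24.CoeffBC.bc ι (modularFunctionFieldFull N) (ddL N s fL) ≠ 0 :=
    (_root_.map_ne_zero _).mpr (ddL_ne_zero N s hfL)
  have hψ2 : S24.CoeffBC.bc ι (modularFunctionFieldFull N) (ddL N s h ^ (p ^ n)) ≠ 0 :=
    (_root_.map_ne_zero _).mpr (pow_ne_zero _ hG0)
  have e2 : ddL N s fL * (ddL N s h)⁻¹ ^ (p ^ n) = ddL N s fL * (ddL N s h ^ (p ^ n))⁻¹ := by
    rw [inv_pow]
  rw [e2, map_mul, map_inv₀, Q.ord_mul hψ1 (inv_ne_zero hψ2), Q.ord_inv]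
  have e' : Q.ord (S24.CoeffBC.bc ι (modularFunctionFieldFull N) (ddL N s fL)) =
      Q.ord (S24.CoeffBC.bc ι (modularFunctionFieldFull N) (ddL N s h ^ (p ^ n))) := e
  rw [e']
  exact le_of_eq (add_neg_cancel _).symm

/-- **The Kummer identity at a level** from the outer core and the obligations. -/
theorem level_identity (hT : TowerAt N W) (τ : Qb ≃ₐ[ℚ] Qb) (s : L ≃+* L)
    (hs : ∀ c : L, ι (s c) = τ (ι c)) (π : ↥W) (hπ : Irreducible π)
    (hOb : LevelOb N ι W τ s π) {p : ℕ} (hp : p.Prime) (hpW : IsUnit (p : ↥W)) (ζ : ↥W)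
    (hζ : IsPrimitiveRoot ζ p) (n : ℕ) (D : Divisor Qb (modularFunctionFieldBar N))
    (fL : S24.FF L N) (hfL : fL ≠ 0)
    (hD : ∀ P : Place Qb (modularFunctionFieldBar N),
      P.ord (S24.CoeffBC.bc ι (modularFunctionFieldFull N) fL) = (p : ℤ) ^ n * D P)
    (hrat : ∀ P : Place Qb (modularFunctionFieldBar N), D P ≠ 0 → RatAtLevel N ι P) :
    ∃ (a : L) (h : S24.FF L N), a ≠ 0 ∧
      ddL N s fL = algebraMap L (S24.FF L N) a * h ^ (p ^ n) := by
  obtain ⟨O₁, O₂, hO, hdd, hpt₁, hpt₂⟩ := hOb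
  have hπL : (π : L) ≠ 0 := fun h0 => hπ.ne_zero (Subtype.ext h0)
  have hπF : algebraMap ↥W (S24.FF L N) π ≠ 0 := by
    show algebraMap L (S24.FF L N) (π : L) ≠ 0
    exact (_root_.map_ne_zero _).mpr hπL
  have hw : KummerStep.GaussOne π (S24.jBC L N) (ddL N s fL) :=
    hO.gaussOne_of_val hπF (hdd fL hfL).1 (hdd fL hfL).2
  obtain ⟨b, h, hbh⟩ := hT π hπ O₁ O₂ hO p hp hpW ζ hζ n (ddL N s fL) hw
    (fun 𝔫 h𝔫 hπ𝔫 => exists_datum N ι W τ s hs π hπF O₁ O₂ hO hdd p n D fL hfL hD hrat _ 𝔫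
      (hpt₁ 𝔫 h𝔫 hπ𝔫))
    (fun 𝔫 h𝔫 hπ𝔫 hj𝔫 => exists_datum N ι W τ s hs π hπF O₁ O₂ hO hdd p n D fL hfL hD hrat _ 𝔫
      (hpt₂ 𝔫 h𝔫 hπ𝔫 hj𝔫))
  refine ⟨((b : ↥W) : L), h, ?_, hbh⟩
  intro h0
  exact b.ne_zero (Subtype.ext h0)

end Main

/-! ### Level facts -/

section Level

variable {A : ValuationSubring Qb} {q : ℕ} {S₀ : Finset Qb} {L : Type} [Field L] [Algebra ℚ L]
  {ι : L →+* Qb}

/-- A prime different from the residue characteristic is a unit of `W = A ∩ L`. -/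
theorem isUnit_natCast_of_isLevel (hlev : LevelChange.IsLevel A q S₀ ι) (hq : q.Prime) {p : ℕ}
    (hp : p.Prime) (hqp : q ≠ p) : IsUnit ((p : ℕ) : ↥(A.comap ι)) := by
  haveI := hlev.2.2.1
  haveI := hlev.2.2.2.2.2.1
  have hne : (IsLocalRing.residue ↥(A.comap ι)) (p : ↥(A.comap ι)) ≠ 0 := by
    rw [map_natCast]
    intro h0
    have hdvd := (CharP.cast_eq_zero_iff (IsLocalRing.ResidueField ↥(A.comap ι)) q p).mp h0
    exact hqp ((Nat.prime_dvd_prime_iff_eq hq hp).mp hdvd)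
  by_contra hnu
  exact hne ((IsLocalRing.residue_eq_zero_iff _).mpr ((IsLocalRing.mem_maximalIdeal _).mpr hnu))

/-- `W = A ∩ L` contains a primitive `n`-th root of unity for `n` prime to the residue
characteristic. -/
theorem exists_primitiveRoot_of_isLevel (hlev : LevelChange.IsLevel A q S₀ ι) (n : ℕ)
    (hn0 : n ≠ 0) (hn : ¬ q ∣ n) : ∃ ζ : ↥(A.comap ι), IsPrimitiveRoot ζ n := by
  haveI : NeZero n := ⟨hn0⟩
  obtain ⟨ζ₀, hζ₀⟩ := HasEnoughRootsOfUnity.exists_primitiveRoot Qb n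
  obtain ⟨b, hb⟩ := hlev.2.1 ζ₀ ⟨n, hn, hζ₀.pow_eq_one⟩
  have hbp : IsPrimitiveRoot b n := by
    rw [← hb] at hζ₀
    exact IsPrimitiveRoot.of_map_of_injective (f := ι) hζ₀ ι.injective
  have hbW : b ∈ A.comap ι := by
    rcases (A.comap ι).mem_or_inv_mem b with hb' | hb'
    · exact hb'
    · have hb0 : b ≠ 0 := hbp.ne_zero hn0
      have h2 : b ^ (n - 1) * b = 1 := by
        rw [← pow_succ, Nat.sub_add_cancel (Nat.pos_of_ne_zero hn0), hbp.pow_eq_one]
      have h1 : b = b⁻¹ ^ (n - 1) := by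
        rw [inv_pow]
        exact eq_inv_of_mul_eq_one_right h2
      rw [h1]
      exact pow_mem hb' _
  exact ⟨⟨b, hbW⟩, IsPrimitiveRoot.of_map_of_injective (f := (A.comap ι).subtype) hbp
    (A.comap ι).subtype_injective⟩

end Level

/-! ### `DvrCoreG` from the obligations -/

/-- **`DvrCoreG` from the outer Kummer core and the obligations at all large Galois-stable
levels.** -/
theorem dvrCoreG_of_levelOb (N : ℕ) [NeZero N] {p q : ℕ} (hp : p.Prime) (hq : q.Prime)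
    (hqp : q ≠ p) (A : ValuationSubring Qb) (τ : Qb ≃ₐ[ℚ] Qb)
    (h : ∃ S₀ : Finset Qb, ∀ (L : Type) [Field L] [Algebra ℚ L] (ι : L →+* Qb),
      LevelChange.IsLevel A q S₀ ι →
      (∀ σ : Qb ≃ₐ[ℚ] Qb, ∃ s : L ≃+* L, ∀ c : L, ι (s c) = σ (ι c)) →
      TowerAt N (A.comap ι) ∧
      ∀ s : L ≃+* L, (∀ c : L, ι (s c) = τ (ι c)) → ∀ π : ↥(A.comap ι), Irreducible π →
        LevelOb N ι (A.comap ι) τ s π) :
    DvrCoreG N p q A τ := by
  intro n D f hf hD
  obtain ⟨S₀, hS₀⟩ := h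
  refine ⟨S₀, fun L _ _ ι hlev hst fL hfL hrat => ?_⟩
  obtain ⟨s, hs⟩ := hst τ
  obtain ⟨hT, hOb⟩ := hS₀ L ι hlev hst
  haveI := hlev.2.2.1
  obtain ⟨π, hπ⟩ := IsDiscreteValuationRing.exists_irreducible ↥(A.comap ι)
  have hpW : IsUnit ((p : ℕ) : ↥(A.comap ι)) := isUnit_natCast_of_isLevel hlev hq hp hqp
  obtain ⟨ζ, hζ⟩ := exists_primitiveRoot_of_isLevel hlev p hp.ne_zero
    (fun hd => hqp ((Nat.prime_dvd_prime_iff_eq hq hp).mp hd))
  have hfL0 : fL ≠ 0 := by
    rintro rfl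
    rw [map_zero] at hfL
    exact hf hfL.symm
  have hD' : ∀ P : Place Qb (modularFunctionFieldBar N),
      P.ord (S24.CoeffBC.bc ι (modularFunctionFieldFull N) fL) = (p : ℤ) ^ n * D P := by
    intro P
    rw [hfL]
    exact hD P
  obtain ⟨a, hh, ha, hw⟩ := level_identity N ι (A.comap ι) hT τ s hs π hπ (hOb s hs π hπ) hp hpW
    ζ hζ n D fL hfL0 hD' hrat
  exact GEnd.dd_mem_principal_of_level N ι τ s hs hp.ne_zero n D fL hfL0 hD' a ha hh hw

end Fermat.Agent.S34.GInst
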