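import Mathlib
import Fermat.Agent.S34.KummerInd
import Fermat.Agent.S34.ChartTransfer

/-
S34 (blueprint findings 202), package B5: the Kummer descent `KummerInd.kummer_descent` in the
shape consumed by the level assembly:

* `W` a discrete valuation ring with algebraically closed residue field, `π` irreducible;
* local data on the second chart (the integral closure of `W[1/j]`) ONLY at the cusps, i.e. at the
  maximal ideals containing `π` and `1/j` (`ChartTransfer.exists_of_chart₁` transports the data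
  of the first chart to the other points);
* conclusion with a nonzero constant of `L` (`kummer_descent_cusp`) or of `W`
  (`kummer_descent_cusp_W`).
-/

set_option autoImplicit false

namespace Fermat.Agent.S34.KummerIndCusp

open Polynomial Fermat.Agent.S18 Fermat.Agent.S18.Endgame Fermat.Agent.S34.KummerStep

variable {W L F : Type*} [CommRing W] [IsDomain W] [IsDiscreteValuationRing W]
  [IsAlgClosed (IsLocalRing.ResidueField W)]
  [Field L] [Algebra W L] [IsFractionRing W L] [CharZero L]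
  [Field F] [Algebra L F] [Algebra W F] [IsScalarTower W L F]

/-- `KummerInd.kummer_descent` for a discrete valuation ring with algebraically closed residue
field, local data on the second chart only at the cusps. -/
theorem kummer_descent_cusp_W (π : W) (hπ : Irreducible π) (j : F) (hj : Transcendental L j)
    [FiniteDimensional (IntermediateField.adjoin L {j}) F]
    (s : ℕ) (hs : s.Prime) (hsW : IsUnit (s : W)) (ζ : W) (hζ : IsPrimitiveRoot ζ s)
    (hconst : ∀ c : F, IsAlgebraic L c → ∃ a : L, algebraMap L F a = c)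
    (hram : ∀ (k : ℕ) (y : F), y ≠ 0 → InC π j (algebraMap W F π ^ k * y ^ s) →
      InC π j (algebraMap W F π ^ k * y ^ s)⁻¹ → s ∣ k)
    (n : ℕ) (w : F) (hw : GaussOne π j w)
    (hloc₁ : ∀ 𝔫 : Ideal (integralClosure (Algebra.adjoin W {j}) F), 𝔫.IsMaximal →
      (∀ r : integralClosure (Algebra.adjoin W {j}) F, (r : F) = algebraMap W F π → r ∈ 𝔫) →
      ∃ g : F, GaussOne π j g ∧ ∃ d : integralClosure (Algebra.adjoin W {j}) F, d ∉ 𝔫 ∧
        IsIntegral (Algebra.adjoin W {j}) ((d : F) * (w * g ^ (s ^ n))))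
    (hloc₂ : ∀ 𝔫 : Ideal (integralClosure (Algebra.adjoin W {j⁻¹}) F), 𝔫.IsMaximal →
      (∀ r : integralClosure (Algebra.adjoin W {j⁻¹}) F, (r : F) = algebraMap W F π → r ∈ 𝔫) →
      (∀ r : integralClosure (Algebra.adjoin W {j⁻¹}) F, (r : F) = j⁻¹ → r ∈ 𝔫) →
      ∃ g : F, GaussOne π j g ∧ ∃ d : integralClosure (Algebra.adjoin W {j⁻¹}) F, d ∉ 𝔫 ∧
        IsIntegral (Algebra.adjoin W {j⁻¹}) ((d : F) * (w * g ^ (s ^ n)))) :
    ∃ (a : W) (h : F), a ≠ 0 ∧ w = algebraMap W F a * h ^ (s ^ n) := by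
  classical
  have hj0 : j ≠ 0 := ne_zero_of_transcendental (KummerInd.transcendental_W (W := W) hj)
  refine KummerInd.kummer_descent π hπ.prime j hj s hs hsW ζ hζ
    (fun a ha => KummerInd.isUnit_of_not_dvd_dvr hπ a ha) hconst
    (fun a _ => KummerInd.hroot_of_isAlgClosed π hπ.maximalIdeal_eq s hs.pos a)
    hram n w hw hloc₁ ?_
  intro 𝔫 h𝔫 hπ𝔫
  by_cases hcusp : ∀ r : integralClosure (Algebra.adjoin W {j⁻¹}) F, (r : F) = j⁻¹ → r ∈ 𝔫
  · exact hloc₂ 𝔫 h𝔫 hπ𝔫 hcusp
  · have hj𝔫 : ∀ r : integralClosure (Algebra.adjoin W {j⁻¹}) F, (r : F) = j⁻¹ → r ∉ 𝔫 := by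
      intro r hr hmem
      apply hcusp
      intro r' hr'
      have : r' = r := Subtype.ext (hr'.trans hr.symm)
      rw [this]; exact hmem
    exact ChartTransfer.exists_of_chart₁ π hj0 (GaussOne π j) (fun g => w * g ^ (s ^ n))
      hloc₁ 𝔫 h𝔫 hπ𝔫 hj𝔫

/-- The same with the constant in `L`. -/
theorem kummer_descent_cusp (π : W) (hπ : Irreducible π) (j : F) (hj : Transcendental L j)
    [FiniteDimensional (IntermediateField.adjoin L {j}) F]
    (s : ℕ) (hs : s.Prime) (hsW : IsUnit (s : W)) (ζ : W) (hζ : IsPrimitiveRoot ζ s)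
    (hconst : ∀ c : F, IsAlgebraic L c → ∃ a : L, algebraMap L F a = c)
    (hram : ∀ (k : ℕ) (y : F), y ≠ 0 → InC π j (algebraMap W F π ^ k * y ^ s) →
      InC π j (algebraMap W F π ^ k * y ^ s)⁻¹ → s ∣ k)
    (n : ℕ) (w : F) (hw : GaussOne π j w)
    (hloc₁ : ∀ 𝔫 : Ideal (integralClosure (Algebra.adjoin W {j}) F), 𝔫.IsMaximal →
      (∀ r : integralClosure (Algebra.adjoin W {j}) F, (r : F) = algebraMap W F π → r ∈ 𝔫) →
      ∃ g : F, GaussOne π j g ∧ ∃ d : integralClosure (Algebra.adjoin W {j}) F, d ∉ 𝔫 ∧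
        IsIntegral (Algebra.adjoin W {j}) ((d : F) * (w * g ^ (s ^ n))))
    (hloc₂ : ∀ 𝔫 : Ideal (integralClosure (Algebra.adjoin W {j⁻¹}) F), 𝔫.IsMaximal →
      (∀ r : integralClosure (Algebra.adjoin W {j⁻¹}) F, (r : F) = algebraMap W F π → r ∈ 𝔫) →
      (∀ r : integralClosure (Algebra.adjoin W {j⁻¹}) F, (r : F) = j⁻¹ → r ∈ 𝔫) →
      ∃ g : F, GaussOne π j g ∧ ∃ d : integralClosure (Algebra.adjoin W {j⁻¹}) F, d ∉ 𝔫 ∧
        IsIntegral (Algebra.adjoin W {j⁻¹}) ((d : F) * (w * g ^ (s ^ n)))) :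
    ∃ (a : L) (h : F), a ≠ 0 ∧ w = algebraMap L F a * h ^ (s ^ n) := by
  obtain ⟨a, h, ha, hw'⟩ := kummer_descent_cusp_W π hπ j hj s hs hsW ζ hζ hconst hram n w hw
    hloc₁ hloc₂
  refine ⟨algebraMap W L a, h, ?_, ?_⟩
  · rw [Ne, ← map_zero (algebraMap W L)]
    exact fun h0 => ha (IsFractionRing.injective W L h0)
  · rw [← IsScalarTower.algebraMap_apply W L F]; exact hw'

end Fermat.Agent.S34.KummerIndCusp
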