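import Mathlib
import Fermat.Agent.S34.GInst
import Fermat.Agent.S34.KummerIndCusp
import Fermat.Agent.S34.ContentVal
import Fermat.Agent.S34.ConstClosed
import Fermat.Agent.S18.RamJIdeal
import Fermat.Agent.S18.GaussDegree

/-!
# S34: the Kummer descent at a level, all instance plumbing discharged

`kummer_at_level` : `KummerIndCusp.kummer_descent_cusp` at `W = A.comap ι`, `F = S24.FF L N`,
`j = jBC L N`, `s = p`, for a level `(L, ι)` (`LevelChange.IsLevel A q S₀ ι`) and a prime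
`p ≠ q` — the only remaining hypotheses are `hw : GaussOne π j w` and the local data
`hloc₁` (all closed points of the special fibre of the finite chart), `hloc₂` (cuspidal closed
points of the chart at infinity).  The `W`-algebra structure on `S24.FF L N` is the automatic
instance.

`dvrCoreG_of_levelOb'` : `GDescent.DvrCoreG` from the obligations `GInst.LevelOb` at all large
Galois-stable levels (no further hypothesis).
-/

set_option autoImplicit false
set_option linter.unusedSectionVars false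
set_option linter.style.haveILetI false

noncomputable section

namespace Fermat.Agent.S34.GLevel

open ModularCurve AlgebraicCurve Polynomial Fermat.Agent.S37 Fermat.Agent.S18
open Fermat.Agent.S34.GTop Fermat.Agent.S34.GDescent Fermat.Agent.S18.Endgame
open Fermat.Agent.S34.KummerStep

local notation "Qb" => AlgebraicClosure ℚ

variable (N : ℕ) [NeZero N] {L : Type} [Field L] [Algebra ℚ L]

/-- `W → L → S24.FF L N` is a scalar tower (automatic algebra instances). -/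
theorem isScalarTower_FF (W : ValuationSubring L) : IsScalarTower ↥W L (S24.FF L N) :=
  IsScalarTower.of_algebraMap_eq (fun _ => rfl)

variable {A : ValuationSubring Qb} {q : ℕ} {S₀ : Finset Qb} {ι : L →+* Qb}

/-- **The Kummer descent at a level.** -/
theorem kummer_at_level (hlev : LevelChange.IsLevel A q S₀ ι) (hq : q.Prime) {p : ℕ}
    (hp : p.Prime) (hqp : q ≠ p) (π : ↥(A.comap ι)) (hπ : Irreducible π)
    (n : ℕ) (w : S24.FF L N) (hw : GaussOne π (S24.jBC L N) w)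
    (hloc₁ : ∀ 𝔫 : Ideal (integralClosure (Algebra.adjoin ↥(A.comap ι) {S24.jBC L N})
        (S24.FF L N)), 𝔫.IsMaximal →
      (∀ r : integralClosure (Algebra.adjoin ↥(A.comap ι) {S24.jBC L N}) (S24.FF L N),
        (r : S24.FF L N) = algebraMap ↥(A.comap ι) (S24.FF L N) π → r ∈ 𝔫) →
      ∃ g : S24.FF L N, GaussOne π (S24.jBC L N) g ∧
        ∃ d : integralClosure (Algebra.adjoin ↥(A.comap ι) {S24.jBC L N}) (S24.FF L N),
          d ∉ 𝔫 ∧ IsIntegral (Algebra.adjoin ↥(A.comap ι) {S24.jBC L N})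
            ((d : S24.FF L N) * (w * g ^ (p ^ n))))
    (hloc₂ : ∀ 𝔫 : Ideal (integralClosure (Algebra.adjoin ↥(A.comap ι) {(S24.jBC L N)⁻¹})
        (S24.FF L N)), 𝔫.IsMaximal →
      (∀ r : integralClosure (Algebra.adjoin ↥(A.comap ι) {(S24.jBC L N)⁻¹}) (S24.FF L N),
        (r : S24.FF L N) = algebraMap ↥(A.comap ι) (S24.FF L N) π → r ∈ 𝔫) →
      (∀ r : integralClosure (Algebra.adjoin ↥(A.comap ι) {(S24.jBC L N)⁻¹}) (S24.FF L N),
        (r : S24.FF L N) = (S24.jBC L N)⁻¹ → r ∈ 𝔫) →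
      ∃ g : S24.FF L N, GaussOne π (S24.jBC L N) g ∧
        ∃ d : integralClosure (Algebra.adjoin ↥(A.comap ι) {(S24.jBC L N)⁻¹}) (S24.FF L N),
          d ∉ 𝔫 ∧ IsIntegral (Algebra.adjoin ↥(A.comap ι) {(S24.jBC L N)⁻¹})
            ((d : S24.FF L N) * (w * g ^ (p ^ n)))) :
    ∃ (a : L) (h : S24.FF L N), a ≠ 0 ∧ w = algebraMap L (S24.FF L N) a * h ^ (p ^ n) := by
  haveI := hlev.2.2.1
  haveI := hlev.2.2.2.1
  haveI : CharZero L := algebraRat.charZero L
  haveI := isScalarTower_FF N (A.comap ι)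
  haveI : FiniteDimensional (IntermediateField.adjoin L {S24.jBC L N}) (S24.FF L N) :=
    (Gauss.finrank_FF_le L N).1
  have hpW : IsUnit ((p : ℕ) : ↥(A.comap ι)) := GInst.isUnit_natCast_of_isLevel hlev hq hp hqp
  obtain ⟨ζ, hζ⟩ := GInst.exists_primitiveRoot_of_isLevel hlev p hp.ne_zero
    (fun hd => hqp ((Nat.prime_dvd_prime_iff_eq hq hp).mp hd))
  exact KummerIndCusp.kummer_descent_cusp π hπ (S24.jBC L N) (RamJ.transcendental_jBC ι N)
    p hp hpW ζ hζ (ConstClosed.hconst_FF N) (ContentVal.hram (A.comap ι) N hπ p) n w hw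
    hloc₁ hloc₂

/-- **The Kummer identity at a level** from the obligations `GInst.LevelOb` alone. -/
theorem level_identity' (hlev : LevelChange.IsLevel A q S₀ ι) (hq : q.Prime) {p : ℕ}
    (hp : p.Prime) (hqp : q ≠ p) (τ : Qb ≃ₐ[ℚ] Qb) (s : L ≃+* L)
    (hs : ∀ c : L, ι (s c) = τ (ι c)) (π : ↥(A.comap ι)) (hπ : Irreducible π)
    (hOb : GInst.LevelOb N ι (A.comap ι) τ s π) (n : ℕ)
    (D : Divisor Qb (modularFunctionFieldBar N)) (fL : S24.FF L N) (hfL : fL ≠ 0)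
    (hD : ∀ P : Place Qb (modularFunctionFieldBar N),
      P.ord (S24.CoeffBC.bc ι (modularFunctionFieldFull N) fL) = (p : ℤ) ^ n * D P)
    (hrat : ∀ P : Place Qb (modularFunctionFieldBar N), D P ≠ 0 → RatAtLevel N ι P) :
    ∃ (a : L) (h : S24.FF L N), a ≠ 0 ∧
      GInst.ddL N s fL = algebraMap L (S24.FF L N) a * h ^ (p ^ n) := by
  obtain ⟨O₁, O₂, hO, hdd, hpt₁, hpt₂⟩ := hOb
  have hπL : (π : L) ≠ 0 := fun h0 => hπ.ne_zero (Subtype.ext h0)
  have hπF : algebraMap ↥(A.comap ι) (S24.FF L N) π ≠ 0 := by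
    show algebraMap L (S24.FF L N) (π : L) ≠ 0
    exact (_root_.map_ne_zero _).mpr hπL
  have hw : GaussOne π (S24.jBC L N) (GInst.ddL N s fL) :=
    hO.gaussOne_of_val hπF (hdd fL hfL).1 (hdd fL hfL).2
  exact kummer_at_level N hlev hq hp hqp π hπ n (GInst.ddL N s fL) hw
    (fun 𝔫 h𝔫 hπ𝔫 => GInst.exists_datum N ι (A.comap ι) τ s hs π hπF O₁ O₂ hO hdd p n D fL hfL
      hD hrat _ 𝔫 (hpt₁ 𝔫 h𝔫 hπ𝔫))
    (fun 𝔫 h𝔫 hπ𝔫 hj𝔫 => GInst.exists_datum N ι (A.comap ι) τ s hs π hπF O₁ O₂ hO hdd p n D fL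
      hfL hD hrat _ 𝔫 (hpt₂ 𝔫 h𝔫 hπ𝔫 hj𝔫))

end Fermat.Agent.S34.GLevel

namespace Fermat.Agent.S34.GLevel

open ModularCurve AlgebraicCurve Fermat.Agent.S37 Fermat.Agent.S34.GTop Fermat.Agent.S34.GDescent

local notation "Qb" => AlgebraicClosure ℚ

/-- **`DvrCoreG` from the obligations `GInst.LevelOb` at all large Galois-stable levels.** -/
theorem dvrCoreG_of_levelOb' (N : ℕ) [NeZero N] {p q : ℕ} (hp : p.Prime) (hq : q.Prime)
    (hqp : q ≠ p) (A : ValuationSubring Qb) (τ : Qb ≃ₐ[ℚ] Qb)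
    (h : ∃ S₀ : Finset Qb, ∀ (L : Type) [Field L] [Algebra ℚ L] (ι : L →+* Qb),
      LevelChange.IsLevel A q S₀ ι →
      (∀ σ : Qb ≃ₐ[ℚ] Qb, ∃ s : L ≃+* L, ∀ c : L, ι (s c) = σ (ι c)) →
      ∀ s : L ≃+* L, (∀ c : L, ι (s c) = τ (ι c)) → ∀ π : ↥(A.comap ι), Irreducible π →
        GInst.LevelOb N ι (A.comap ι) τ s π) :
    DvrCoreG N p q A τ := by
  intro n D f hf hD
  obtain ⟨S₀, hS₀⟩ := h
  refine ⟨S₀, fun L _ _ ι hlev hst fL hfL hrat => ?_⟩
  obtain ⟨s, hs⟩ := hst τ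
  haveI := hlev.2.2.1
  obtain ⟨π, hπ⟩ := IsDiscreteValuationRing.exists_irreducible ↥(A.comap ι)
  have hfL0 : fL ≠ 0 := by
    rintro rfl
    rw [map_zero] at hfL
    exact hf hfL.symm
  have hD' : ∀ P : Place Qb (modularFunctionFieldBar N),
      P.ord (S24.CoeffBC.bc ι (modularFunctionFieldFull N) fL) = (p : ℤ) ^ n * D P := by
    intro P
    rw [hfL]
    exact hD P
  obtain ⟨a, hh, ha, hw⟩ := level_identity' N hlev hq hp hqp τ s hs π hπ
    (hS₀ L ι hlev hst s hs π hπ) n D fL hfL0 hD' hrat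
  exact GEnd.dd_mem_principal_of_level N ι τ s hs hp.ne_zero n D fL hfL0 hD' a ha hh hw

end Fermat.Agent.S34.GLevel
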