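import Mathlib
import Fermat.Prelude.Def_AlgebraicCurve_BaseChangeGalois

/-!
# S34, package B4 (assembly): the local equation of a double difference

`g` a semilinear automorphism of a function field `F / K`, `C` a `g`-stable set of places (the
places centred at a closed point `𝔫` of a chart), `D` a divisor.  Suppose every place `P ∈ C` of
the support of `D` is either fixed by `g` or has a *local equation* `h_P` (`ord_P h_P = 1`,
`ord_Q h_P = 0` for the other places `Q ∈ C`), the `h_P` lying in a subfield `S` (the function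
field of a finite level).  Then there is `h ∈ S` whose double difference
`g (g h) * h / (g h) ^ 2` has, at every place of `C`, the order prescribed by the divisor
`g • g • D + D - 2 • g • D`.

* `ord_prod_zpow` : order of a finite product of integer powers.
* `exists_local_eq` : `h` with `ord_Q h = D Q` at the places `Q ∈ C` not fixed by `g`, and
  `ord_Q h = 0` at the fixed ones.
* `exists_doubleDiff` : the statement above.
-/

set_option autoImplicit false

namespace Fermat.Agent.S34.GenAsm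

open AlgebraicCurve

variable {K F : Type*} [Field K] [Field F] [Algebra K F]

/-- order of a finite product of integer powers of nonzero functions -/
theorem ord_prod_zpow (Q : Place K F) {ι : Type*} (T : Finset ι) (h : ι → F) (n : ι → ℤ)
    (h0 : ∀ i ∈ T, h i ≠ 0) :
    Q.ord (∏ i ∈ T, h i ^ n i) = ∑ i ∈ T, n i * Q.ord (h i) := by
  classical
  induction T using Finset.induction_on with
  | empty => simp
  | insert a T ha ih =>
    have h0a : h a ≠ 0 := h0 a (Finset.mem_insert_self a T)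
    have h0T : ∀ i ∈ T, h i ≠ 0 := fun i hi => h0 i (Finset.mem_insert_of_mem hi)
    have hprod : ∏ i ∈ T, h i ^ n i ≠ 0 :=
      Finset.prod_ne_zero_iff.mpr fun i hi => zpow_ne_zero _ (h0T i hi)
    rw [Finset.prod_insert ha, Finset.sum_insert ha, Q.ord_mul (zpow_ne_zero _ h0a) hprod,
      Q.ord_zpow, ih h0T]

/-- **The local equation of the non-fixed part of a divisor.** -/
theorem exists_local_eq (g : SemilinearAut K F) (S : Subfield F) (C : Set (Place K F))
    (D : Divisor K F)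
    (hloc : ∀ P ∈ C, D P ≠ 0 → g • P = P ∨
      ∃ h ∈ S, h ≠ 0 ∧ P.ord h = 1 ∧ ∀ Q ∈ C, Q ≠ P → Q.ord h = 0) :
    ∃ h ∈ S, h ≠ 0 ∧ ∀ Q ∈ C, (g • Q = Q → Q.ord h = 0) ∧ (g • Q ≠ Q → Q.ord h = D Q) := by
  classical
  set T : Finset (Place K F) := D.support.filter (fun P => P ∈ C ∧ g • P ≠ P) with hT
  have hex : ∀ P : Place K F, ∃ h ∈ S, h ≠ 0 ∧
      (P ∈ T → P.ord h = 1 ∧ ∀ Q ∈ C, Q ≠ P → Q.ord h = 0) := by
    intro P
    by_cases hP : P ∈ T
    · rw [hT, Finset.mem_filter, Finsupp.mem_support_iff] at hP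
      rcases hloc P hP.2.1 hP.1 with hfix | ⟨h, hS, h0, h1, h2⟩
      · exact absurd hfix hP.2.2
      · exact ⟨h, hS, h0, fun _ => ⟨h1, h2⟩⟩
    · exact ⟨1, S.one_mem, one_ne_zero, fun h => absurd h hP⟩
  choose hh hhS hh0 hhord using hex
  refine ⟨∏ P ∈ T, hh P ^ D P, ?_, ?_, ?_⟩
  · exact Subfield.prod_mem S fun P _ => Subfield.zpow_mem S (hhS P) (D P)
  · exact Finset.prod_ne_zero_iff.mpr fun P _ => zpow_ne_zero _ (hh0 P)
  · intro Q hQ
    rw [ord_prod_zpow Q T hh (fun P => D P) (fun P _ => hh0 P)]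
    have hterm : ∀ P ∈ T, D P * Q.ord (hh P) = if P = Q then D Q else 0 := by
      intro P hP
      by_cases hPQ : P = Q
      · subst hPQ
        rw [(hhord P hP).1, mul_one, if_pos rfl]
      · rw [(hhord P hP).2 Q hQ (fun h => hPQ h.symm), mul_zero, if_neg hPQ]
    rw [Finset.sum_congr rfl hterm, Finset.sum_ite_eq' T Q (fun _ => D Q)]
    constructor
    · intro hfix
      rw [if_neg]
      rw [hT, Finset.mem_filter]
      exact fun h => h.2.2 hfix
    · intro hfix
      by_cases hD : D Q = 0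
      · rw [hD]; simp
      · rw [if_pos]
        rw [hT, Finset.mem_filter, Finsupp.mem_support_iff]
        exact ⟨hD, hQ, hfix⟩

/-- **The local generator of the double difference** `g²D + D - 2gD` on a `g`-stable class `C`
of places: `γ := g (g h) * h / (g h) ^ 2` for the local equation `h` of the non-fixed part of
`D`. -/
theorem exists_doubleDiff (g : SemilinearAut K F) (S : Subfield F) (C : Set (Place K F))
    (hC : ∀ Q : Place K F, g • Q ∈ C ↔ Q ∈ C) (D : Divisor K F)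
    (hloc : ∀ P ∈ C, D P ≠ 0 → g • P = P ∨
      ∃ h ∈ S, h ≠ 0 ∧ P.ord h = 1 ∧ ∀ Q ∈ C, Q ≠ P → Q.ord h = 0) :
    ∃ h ∈ S, h ≠ 0 ∧ ∀ Q ∈ C,
      Q.ord (g • (g • h) * h / (g • h) ^ 2) = (g • g • D + D - 2 • g • D) Q := by
  obtain ⟨h, hS, h0, hord⟩ := exists_local_eq g S C D hloc
  refine ⟨h, hS, h0, fun Q hQ => ?_⟩
  have hgh0 : g • h ≠ 0 := by simpa using h0
  have hggh0 : g • (g • h) ≠ 0 := by simpa using hgh0
  -- orders of the translates
  have hC' : ∀ Q : Place K F, Q ∈ C → g⁻¹ • Q ∈ C := fun Q hQ => by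
    rw [← hC (g⁻¹ • Q), smul_inv_smul]; exact hQ
  have hfix' : ∀ Q : Place K F, g • (g⁻¹ • Q) = g⁻¹ • Q ↔ g • Q = Q := by
    intro Q
    rw [smul_inv_smul]
    constructor
    · intro h
      calc g • Q = g • (g⁻¹ • Q) := by rw [← h]
        _ = Q := smul_inv_smul g Q
    · intro h
      calc Q = g⁻¹ • (g • Q) := (inv_smul_smul g Q).symm
        _ = g⁻¹ • Q := by rw [h]
  have h1 : ∀ (f : F) (Q : Place K F), Q.ord (g • f) = (g⁻¹ • Q).ord f := by
    intro f Q
    have := SemilinearAut.ord_smul g (g⁻¹ • Q) f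
    rwa [smul_inv_smul] at this
  have hQ1 : g⁻¹ • Q ∈ C := hC' Q hQ
  have hQ2 : g⁻¹ • (g⁻¹ • Q) ∈ C := hC' _ hQ1
  have hordQ : Q.ord (g • (g • h) * h / (g • h) ^ 2)
      = (g⁻¹ • (g⁻¹ • Q)).ord h + Q.ord h - 2 * (g⁻¹ • Q).ord h := by
    rw [div_eq_mul_inv, Q.ord_mul (mul_ne_zero hggh0 h0) (inv_ne_zero (pow_ne_zero 2 hgh0)),
      Q.ord_mul hggh0 h0, Q.ord_inv, pow_two, Q.ord_mul hgh0 hgh0, h1, h1, h1]
    ring
  have hD : (g • g • D + D - 2 • g • D) Q
      = D (g⁻¹ • (g⁻¹ • Q)) + D Q - 2 * D (g⁻¹ • Q) := by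
    rw [Finsupp.sub_apply, Finsupp.add_apply, Finsupp.smul_apply,
      SemilinearAut.divisor_smul_apply, SemilinearAut.divisor_smul_apply,
      SemilinearAut.divisor_smul_apply]
    simp
  rw [hordQ, hD]
  by_cases hfix : g • Q = Q
  · have hinv : g⁻¹ • Q = Q := by
      calc g⁻¹ • Q = g⁻¹ • (g • Q) := by rw [hfix]
        _ = Q := inv_smul_smul g Q
    rw [hinv, hinv, (hord Q hQ).1 hfix]
    ring
  · have hfix1 : g • (g⁻¹ • Q) ≠ g⁻¹ • Q := fun h => hfix ((hfix' Q).mp h)
    have hfix2 : g • (g⁻¹ • (g⁻¹ • Q)) ≠ g⁻¹ • (g⁻¹ • Q) :=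
      fun h => hfix1 ((hfix' _).mp h)
    rw [(hord Q hQ).2 hfix, (hord _ hQ1).2 hfix1, (hord _ hQ2).2 hfix2]

end Fermat.Agent.S34.GenAsm
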