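import Mathlib
import Fermat.Agent.S34.KLocRaw
import Fermat.Agent.S34.CompLevel
import Fermat.Agent.S34.ChartAct
import Fermat.Agent.S34.FinDich
import Fermat.Agent.S34.GLoc
import Fermat.Agent.S37.GaussNoeth
import Fermat.Agent.S37.ChartFrac

/-!
# S34, layer 2: (K-LOC₁) — the local Kummer datum at every closed point of the finite chart

`kloc_fin`: `A` a valuation subring of `ℚ̄` over `q`, `(L, ι)` a Galois-stable level,
`W = A.comap ι` a discrete valuation ring with algebraically closed residue field of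
characteristic `q ∤ M`, `s` the restriction to `L` of an inertia element of `A`.  For EVERY
carrier `B` of the finite chart of level `M q` (integral closure of `W[X]`, `X ↦ j`, in
`S24.FF L (M * q)`), every maximal ideal `𝔫 ∋ π` and every `fL ≠ 0` whose divisor over `ℚ̄` is
`p ^ n • D` with `D` supported on places rational at the level:

  `∃ h ≠ 0, ∃ d ∉ 𝔫, d * (s - 1)² (fL / h ^ (p ^ n)) ∈ B`.

This is `KLocRaw.kloc_chart` on the finite carrier: noetherian (`S37.GaussNoeth`), fraction field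
(`S37.ChartFrac`), stable under the coefficient action (`ChartAct`), (H_int) on both branches
(`FrobPartner`, `CompInst`), (S1) (`FinDich.s1_fin_level`) and (DICH₁)
(`CompLevel.dich_fin_struct_level`).

`locContract₁`: the contract (3) of `GAsm` (`GAsm.LocContract₁`), through
`GLoc.locContract₁_of_closure`.
-/

set_option autoImplicit false
set_option linter.unusedSectionVars false
set_option linter.unusedVariables false
set_option linter.style.haveILetI false

noncomputable section

namespace Fermat.Agent.S34.KLocFin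

open Polynomial ModularCurve AlgebraicCurve Fermat.Agent.S18 Fermat.Agent.S18.Gauss
  Fermat.Agent.S24 IsLocalRing
open Fermat.Agent.S34.CoeffAut

local notation "Qb" => AlgebraicClosure ℚ

section Carrier

/-- a carrier of an integral closure in a field is a domain -/
theorem isDomain_carrier (R F : Type*) [CommRing R] [Field F] [Algebra R F]
    (B : Type*) [CommRing B] [Algebra R B] [Algebra B F] [IsScalarTower R B F]
    [IsIntegralClosure B R F] : IsDomain B :=
  (IsIntegralClosure.algebraMap_injective B R F).isDomain _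

/-- a carrier of an integral closure in its fraction field is integrally closed -/
theorem isIntegrallyClosed_carrier (R F : Type*) [CommRing R] [Field F] [Algebra R F]
    (B : Type*) [CommRing B] [Algebra R B] [Algebra B F] [IsScalarTower R B F]
    [IsIntegralClosure B R F] [IsFractionRing B F] : IsIntegrallyClosed B := by
  rw [isIntegrallyClosed_iff F]
  intro x hx
  haveI : Algebra.IsIntegral R B := IsIntegralClosure.isIntegral_algebra R F
  have h1 : IsIntegral R x := isIntegral_trans x hx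
  exact IsIntegralClosure.isIntegral_iff.mp h1

end Carrier

/-- **(K-LOC₁): the local Kummer datum at a closed point of the finite chart of level `M q`.** -/
theorem kloc_fin (A : ValuationSubring Qb) {L : Type} [Field L] [Algebra ℚ L] (ι : L →+* Qb)
    (M q : ℕ) [NeZero M] [NeZero q]
    [IsDiscreteValuationRing ↥(A.comap ι)]
    [IsAlgClosed (IsLocalRing.ResidueField ↥(A.comap ι))]
    [CharP (IsLocalRing.ResidueField ↥(A.comap ι)) q]
    (hq : q.Prime) (hqM : ¬ q ∣ M) (hA : A.LiesOverPrime q)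
    (hstab : Fermat.Agent.S34.GalLevel.IsStable ι)
    (hroots : ∀ x : Qb, (∃ n : ℕ, ¬ q ∣ n ∧ x ^ n = 1) → ∃ b : L, ι b = x)
    {τ : Qb ≃ₐ[ℚ] Qb} (hτ : τ ∈ A.inertiaSubgroupIn ℚ) (s : L ≃+* L)
    (hs : ∀ c : L, ι (s c) = τ (ι c))
    (π : ↥(A.comap ι)) (hπ : Irreducible π)
    [Algebra (↥(A.comap ι))[X] (FF L (M * q))]
    (halg : algebraMap (↥(A.comap ι))[X] (FF L (M * q)) = evF (A.comap ι) (M * q))
    (B : Type*) [CommRing B] [Algebra (↥(A.comap ι))[X] B] [Algebra B (FF L (M * q))]
    [IsScalarTower (↥(A.comap ι))[X] B (FF L (M * q))]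
    [IsIntegralClosure B (↥(A.comap ι))[X] (FF L (M * q))]
    (𝔫 : Ideal B) [𝔫.IsMaximal] (hπ𝔫 : algebraMap (↥(A.comap ι))[X] B (C π) ∈ 𝔫)
    (D : Divisor Qb (modularFunctionFieldBar (M * q)))
    (hrat : ∀ P : Place Qb (modularFunctionFieldBar (M * q)), D P ≠ 0 →
      GDescent.RatAtLevel (M * q) ι P)
    (p n : ℕ) (fL : FF L (M * q)) (hfL : fL ≠ 0)
    (hD : ∀ P : Place Qb (modularFunctionFieldBar (M * q)),
      P.ord (CoeffBC.bc ι (modularFunctionFieldFull (M * q)) fL) = (p : ℤ) ^ n * D P) :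
    ∃ h : FF L (M * q), h ≠ 0 ∧ ∃ d : B, d ∉ 𝔫 ∧ ∃ t : B,
      algebraMap B (FF L (M * q)) t =
        algebraMap B (FF L (M * q)) d * DDGauss.dd (M * q) s (fL / h ^ (p ^ n)) := by
  classical
  haveI : Fact q.Prime := ⟨hq⟩
  obtain ⟨w, hwα, hwβ⟩ := FrobPartner.exists_atkinLehner_level ι M q hq hqM
  letI algWB : Algebra ↥(A.comap ι) B :=
    ((algebraMap (↥(A.comap ι))[X] B).comp C).toAlgebra
  haveI : IsScalarTower ↥(A.comap ι) (↥(A.comap ι))[X] B :=
    IsScalarTower.of_algebraMap_eq (fun x => rfl)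
  haveI hdom : IsDomain B :=
    isDomain_carrier (↥(A.comap ι))[X] (FF L (M * q)) B
  haveI hnoeth : IsNoetherianRing B :=
    (Fermat.Agent.S37.GaussNoeth.noeth_fin (A.comap ι) (M * q) halg B).1
  haveI hfrac : IsFractionRing B (FF L (M * q)) :=
    Fermat.Agent.S37.ChartFrac.isFractionRing_fin (A.comap ι) (M * q) halg B
  haveI hic : IsIntegrallyClosed B :=
    isIntegrallyClosed_carrier (↥(A.comap ι))[X] (FF L (M * q)) B
  have hW := ChartAct.hW_of_mem_inertia A ι s hs hτ
  have hint : ∀ y : B, (evF (A.comap ι) (M * q)).IsIntegralElem (algebraMap B (FF L (M * q)) y) :=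
    fun y => (ChartAct.exists_algebraMap_eq_iff_fin (A.comap ι) (M * q) halg B _).mp ⟨y, rfl⟩
  have hB₁ : ∀ y : B, ((algebraMap B (FF L (M * q)) y : FF L (M * q)) : LaurentSeries L) ∈
      contentRing (A.comap ι) :=
    fun y => FrobPartner.mem_contentRing_of_int (A.comap ι) (M * q) (hint y)
  have hB₂ : ∀ y : B, ((w (algebraMap B (FF L (M * q)) y) : FF L (M * q)) : LaurentSeries L) ∈
      contentRing (A.comap ι) :=
    fun y => FrobPartner.mem_contentRing_of_int (A.comap ι) (M * q)
      (CompInst.isIntegralElem_atkin (A.comap ι) M q hq w hwα (hint y))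
  refine KLocRaw.kloc_chart (M * q) A ι hτ s hs hπ w
    (CoeffAut.act_atkinLehner M q hq s w hwα hwβ) B ?_
    (ChartAct.exists_act_fin (A.comap ι) (M * q) s hW halg B)
    (ChartAct.exists_act_symm_fin (A.comap ι) (M * q) s hW halg B) hB₁ hB₂ ?_ 𝔫 hπ𝔫 ?_ D hrat
    p n fL hfL hD
  · intro c
    show algebraMap B (FF L (M * q)) (algebraMap (↥(A.comap ι))[X] B (C c)) = _
    rw [← IsScalarTower.algebraMap_apply, halg, evF_C]
  · intro y hr1 hr2
    obtain ⟨y₀, hy₀, hxy⟩ := FinDich.s1_fin_level ι (A.comap ι) M q hqM hπ w hwα hwβ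
      (algebraMap B (FF L (M * q)) y) (hint y) (hB₁ y) (hB₂ y) hr1 hr2
    obtain ⟨y', hy'⟩ := (ChartAct.exists_algebraMap_eq_iff_fin (A.comap ι) (M * q) halg B y₀).mpr
      hy₀
    exact ⟨y', by rw [hy']; exact hxy⟩
  · exact CompLevel.dich_fin_struct_level A ι M q hq hqM hA hstab hroots π hπ halg B 𝔫 hπ𝔫
      (Localization.AtPrime 𝔫)

/-- **Contract (3) of `GAsm`: the local datum on the finite chart** (`GAsm.LocContract₁`), with
`S₀ = ∅`. -/
theorem locContract₁ (M q p : ℕ) [NeZero M] [NeZero q] (hq : q.Prime) (hqM : ¬ q ∣ M)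
    (A : ValuationSubring Qb) (hA : A.LiesOverPrime q) (τ : Qb ≃ₐ[ℚ] Qb)
    (hτ : τ ∈ A.inertiaSubgroupIn ℚ) : GAsm.LocContract₁ M q p A τ := by
  refine GLoc.locContract₁_of_closure M q p A τ ?_
  intro n D f hf hD
  refine ⟨∅, ?_⟩
  intro L _ _ ι hlev hst fL hfL hrat ϖ hϖ s hs _ halg B _ _ _ _ _ 𝔪 h𝔪 hC
  obtain ⟨-, hroots, hdvr, hclosed, -, hchar, -, -⟩ := hlev
  haveI := hdvr
  haveI := hclosed
  haveI := hchar
  haveI := h𝔪
  have hfL0 : fL ≠ 0 := by
    rintro rfl
    exact hf (by rw [← hfL, map_zero])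
  exact kloc_fin A ι M q hq hqM hA hst hroots hτ s hs ϖ hϖ halg B 𝔪 hC D hrat p n fL hfL0
    (fun P => by rw [hfL]; exact hD P)

end Fermat.Agent.S34.KLocFin
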