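import Mathlib
import Fermat.Agent.S34.GenAt
import Fermat.Agent.S34.ApproxNode

/-!
# S34, package B4: the abstract statement (LOC) at a closed point

`W` a domain whose nonunits are the multiples of `ϖ ≠ 0`, `R` a noetherian local domain over `W`
(the local ring `B_𝔫` of a chart at a closed point), `s : R →ₐ[W] W` the section of a rational
place `P` centred at `𝔫`.

* `IsLocalGen.of_ringEquiv` : local generators are transported by semilinear automorphisms
  (`τ_R`, `τ_W`) with `s' ∘ τ_R = τ_W ∘ s`  (so "`P` has a local equation" is `τ`-invariant).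
* `loc_smooth` : at a smooth point `𝔫 = (ϖ, u)` every section has a local generator.
* `loc_node` : at a node `𝔫 = (ϖ, X, Y)`, `ϖ ∣ X * Y`, with NO further hypothesis on the
  coordinates: if `s'` is the section of the conjugate `τ P` then `s = s'` or `s` has a local
  generator.  (Approximate coordinates from `ApproxNode.exists_approx`; a section whose
  coordinates are divisible by arbitrarily high powers of `ϖ` is unique.)
-/

set_option autoImplicit false
set_option linter.unusedSectionVars false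

namespace Fermat.Agent.S34.LocAt

open IsLocalRing Fermat.Agent.S34.GenAt

variable {W R : Type*} [CommRing W] [IsDomain W] [CommRing R] [IsDomain R] [Algebra W R]
  {ϖ : W}

/-- a ring automorphism of `W` multiplies the generator `ϖ` of the nonunits by a unit -/
theorem exists_unit_of_ringEquiv (hW : ∀ w : W, IsUnit w ∨ ϖ ∣ w) (hϖ0 : ϖ ≠ 0)
    (hϖ : ¬ IsUnit ϖ) (σ : W ≃+* W) : ∃ η : W, IsUnit η ∧ σ ϖ = ϖ * η := by
  have h1 : ¬ IsUnit (σ ϖ) := fun h => hϖ (by simpa using h.map σ.symm)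
  have h2 : ¬ IsUnit (σ.symm ϖ) := fun h => hϖ (by simpa using h.map σ)
  obtain ⟨a, ha⟩ := (hW _).resolve_left h1
  obtain ⟨b, hb⟩ := (hW _).resolve_left h2
  refine ⟨a, ?_, ha⟩
  have h3 : ϖ = ϖ * (a * σ b) := by
    calc ϖ = σ (σ.symm ϖ) := (RingEquiv.apply_symm_apply σ ϖ).symm
      _ = σ ϖ * σ b := by rw [hb, map_mul]
      _ = ϖ * (a * σ b) := by rw [ha]; ring
  have h4 : a * σ b = 1 := by
    have h5 : ϖ * (a * σ b) = ϖ * 1 := by rw [mul_one]; exact h3.symm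
    exact mul_left_cancel₀ hϖ0 h5
  exact IsUnit.of_mul_eq_one _ h4

/-- **Transport of local generators.**  If `s' ∘ τ_R = τ_W ∘ s` (i.e. `s'` is the section of the
conjugate point) and `f` is a local generator for `s'`, then `τ_R⁻¹ f` is a local generator for
`s`. -/
theorem IsLocalGen.of_ringEquiv (hW : ∀ w : W, IsUnit w ∨ ϖ ∣ w) (hϖ0 : ϖ ≠ 0)
    (τR : R ≃+* R) (τW : W ≃+* W)
    (hτ : ∀ w : W, τR (algebraMap W R w) = algebraMap W R (τW w))
    {s s' : R →ₐ[W] W} (hs : ∀ a : R, s' (τR a) = τW (s a)) {f : R}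
    (hf : IsLocalGen ϖ s' f) : IsLocalGen ϖ s (τR.symm f) := by
  obtain ⟨hf1, hf2, hf3⟩ := hf
  have hker : ∀ a : R, a ∈ RingHom.ker (s : R →+* W) ↔ τR a ∈ RingHom.ker (s' : R →+* W) := by
    intro a
    rw [RingHom.mem_ker, RingHom.mem_ker]
    show s a = 0 ↔ s' (τR a) = 0
    rw [hs a, map_eq_zero_iff τW τW.injective]
  refine ⟨?_, ?_, ?_⟩
  · rw [hker, RingEquiv.apply_symm_apply]
    exact hf1
  · intro y hy
    obtain ⟨t, ht, z, hz⟩ := hf2 (τR y) ((hker y).mp hy)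
    refine ⟨τR.symm t, ?_, τR.symm z, ?_⟩
    · rw [hker, RingEquiv.apply_symm_apply]
      exact ht
    · rw [← map_mul, ← hz, map_mul, RingEquiv.symm_apply_apply]
  · intro 𝔮 h𝔮 hf𝔮 hϖ𝔮
    -- the prime `τ_R 𝔮`
    have hprime : (𝔮.comap (τR.symm : R →+* R)).IsPrime := Ideal.comap_isPrime _ 𝔮
    have hmem : f ∈ 𝔮.comap (τR.symm : R →+* R) := hf𝔮
    have hϖ' : algebraMap W R ϖ ∉ 𝔮.comap (τR.symm : R →+* R) := by
      intro h
      have h1 : τR.symm (algebraMap W R ϖ) ∈ 𝔮 := h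
      have h2 : τR.symm (algebraMap W R ϖ) = algebraMap W R (τW.symm ϖ) := by
        apply τR.injective
        rw [RingEquiv.apply_symm_apply, hτ, RingEquiv.apply_symm_apply]
      rw [h2] at h1
      by_cases hu : IsUnit ϖ
      · exact h𝔮.ne_top (Ideal.eq_top_of_isUnit_mem _ h1
          ((hu.map τW.symm).map (algebraMap W R)))
      · obtain ⟨η, hη, hηeq⟩ := exists_unit_of_ringEquiv hW hϖ0 hu τW.symm
        rw [hηeq, map_mul] at h1
        rcases h𝔮.mem_or_mem h1 with h3 | h3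
        · exact hϖ𝔮 h3
        · exact h𝔮.ne_top (Ideal.eq_top_of_isUnit_mem _ h3 (hη.map (algebraMap W R)))
    have heq := hf3 _ hprime hmem hϖ'
    ext a
    rw [hker a, ← heq]
    show a ∈ 𝔮 ↔ τR.symm (τR a) ∈ 𝔮
    rw [RingEquiv.symm_apply_apply]

variable [IsLocalRing R] [IsNoetherianRing R]

/-- **(LOC) at a smooth point** `𝔫 = (ϖ, u)`: every section has the local generator
`u - s u`. -/
theorem loc_smooth (hW : ∀ w : W, IsUnit w ∨ ϖ ∣ w) (hϖ0 : ϖ ≠ 0)
    (hsep : ∀ w : W, w ≠ 0 → ∃ n : ℕ, ¬ ϖ ^ n ∣ w) (u : R)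
    (h𝔫 : maximalIdeal R = Ideal.span {algebraMap W R ϖ, u}) (s : R →ₐ[W] W) :
    IsLocalGen ϖ s (u - algebraMap W R (s u)) :=
  ((exists_gen_smooth hW hϖ0 hsep u h𝔫 s s s).1 s).2

/-- **(LOC) at a node** `𝔫 = (ϖ, X, Y)`, `ϖ ∣ X * Y`, for a section `s` and the section `s'` of
the conjugate point (`s' ∘ τ_R = τ_W ∘ s`): either `s = s'` or `s` has a local generator. -/
theorem loc_node (hW : ∀ w : W, IsUnit w ∨ ϖ ∣ w) (hϖ0 : ϖ ≠ 0)
    (hsep : ∀ w : W, w ≠ 0 → ∃ n : ℕ, ¬ ϖ ^ n ∣ w) (X Y : R)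
    (h𝔫 : maximalIdeal R = Ideal.span {algebraMap W R ϖ, X, Y})
    (hXY : algebraMap W R ϖ ∣ X * Y)
    (τR : R ≃+* R) (τW : W ≃+* W)
    (hτ : ∀ w : W, τR (algebraMap W R w) = algebraMap W R (τW w))
    (s s' : R →ₐ[W] W) (hs : ∀ a : R, s' (τR a) = τW (s a)) :
    s = s' ∨ ∃ f : R, IsLocalGen ϖ s f := by
  have hsurj : ∀ r : R, ∃ w : W,
      r - algebraMap W R w ∈ Ideal.span {algebraMap W R ϖ, X, Y} := by
    intro r
    refine ⟨s r, ?_⟩
    rw [← h𝔫]
    exact ker_le_maximalIdeal s (sub_algebraMap_mem_ker s r)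
  obtain ⟨Xs, Ys, cs, rs, -, -, hprod, -, -, hspan⟩ :=
    ApproxNode.exists_approx (algebraMap W R) ϖ X Y hsurj hXY
  rcases exists_gen_or_eq hW hϖ0 hsep Xs Ys cs rs (fun n => n + 1)
      (fun k => ⟨k, Nat.le_succ k⟩) (fun n => by rw [h𝔫, hspan n]) hprod s s' with h | h | h
  · exact Or.inl h
  · exact Or.inr h
  · obtain ⟨f, hf⟩ := h
    exact Or.inr ⟨τR.symm f, IsLocalGen.of_ringEquiv hW hϖ0 τR τW hτ hs hf⟩

end Fermat.Agent.S34.LocAt
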