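import Mathlib
import Fermat.Agent.S34.LocDD
import Fermat.Agent.S34.SectionsLoc

/-!
# S34, package B4 / layer 2: (LOC) at a closed point of ANY chart, in `DDLocal.Good` currency

A chart `B` of the level function field `FL` (`φ : B →+* FL` injective, `FL = Frac B`), noetherian
and integrally closed, over `W`; `ψ : FL →+* F` the base change; `𝔫` a maximal ideal of `B`
containing `π` whose local ring `B_𝔫` is a smooth point or a node (the dichotomy (DICH), stated
on `Localization.AtPrime 𝔫` with coordinates from `B`).  The class of `𝔫` is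
`SectionsLoc.Through (ψ.comp φ) 𝔫`.

`loc_chart` : a point `P` of the class which is rational at the level (`WChart.RatAt`), as well
as its translate `g • P`, is `g`-fixed, or has a local equation at the level, or `g • P` has
one.  This is the (LOC) clause of `GInst.PointOb` and the `hloc` of `DDLocal.exists_local_dd`.
-/

set_option autoImplicit false
set_option linter.unusedSectionVars false

namespace Fermat.Agent.S34.LocChart

open AlgebraicCurve IsLocalRing Fermat.Agent.S37.GaloisValue Fermat.Agent.S37.WChart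
  Fermat.Agent.S34.Sections Fermat.Agent.S34.SectionsLoc

variable {K F L FL : Type*} [Field K] [Field F] [Algebra K F] [Field L] [Field FL]
  [Algebra L FL] (ι : L →+* K) (W : ValuationSubring L)
  {B : Type*} [CommRing B] [IsDomain B] [IsNoetherianRing B] [IsIntegrallyClosed B]
  [Algebra W B]
  (ψ : FL →+* F) (φ : B →+* FL)

/-- the inclusion of the local ring `B_𝔫` in the function field -/
noncomputable def locMap (hφ : Function.Injective φ) (𝔫 : Ideal B) [𝔫.IsPrime] :
    Localization.AtPrime 𝔫 →+* FL :=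
  IsLocalization.lift (M := 𝔫.primeCompl) (g := φ) (fun y => by
    have hy : (y : B) ≠ 0 := fun h => y.2 (h ▸ 𝔫.zero_mem)
    exact IsUnit.mk0 _ (fun h => hy (hφ (by rw [h, map_zero]))))

theorem locMap_algebraMap (hφ : Function.Injective φ) (𝔫 : Ideal B) [𝔫.IsPrime] (y : B) :
    locMap φ hφ 𝔫 (algebraMap B (Localization.AtPrime 𝔫) y) = φ y :=
  IsLocalization.lift_eq _ y

theorem locMap_injective (hφ : Function.Injective φ) (𝔫 : Ideal B) [𝔫.IsPrime] :
    Function.Injective (locMap φ hφ 𝔫) := by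
  rw [injective_iff_map_eq_zero]
  intro r hr
  obtain ⟨⟨y, d⟩, h⟩ := IsLocalization.surj 𝔫.primeCompl r
  have h1 : locMap φ hφ 𝔫 r * φ d = φ y := by
    rw [← locMap_algebraMap φ hφ 𝔫 d, ← map_mul, h, locMap_algebraMap]
  rw [hr, zero_mul] at h1
  have hy : y = 0 := hφ (by rw [← h1, map_zero])
  rw [hy, map_zero] at h
  have hd : algebraMap B (Localization.AtPrime 𝔫) (d : B) ≠ 0 :=
    (IsLocalization.map_units (Localization.AtPrime 𝔫) d).ne_zero
  rcases mul_eq_zero.mp h with h2 | h2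
  · exact h2
  · exact absurd h2 hd

/-- **(LOC) at a closed point of a chart.** -/
theorem loc_chart (hφ : Function.Injective φ)
    (hfrac : ∀ x : FL, ∃ y₁ y₂ : B, y₂ ≠ 0 ∧ x * φ y₂ = φ y₁)
    (hψW : ∀ w : W, ψ (φ (algebraMap W B w)) = algebraMap K F (ι w))
    (π : W) (hW : ∀ w : W, IsUnit w ∨ π ∣ w) (hπ0 : π ≠ 0)
    (hsep : ∀ w : W, w ≠ 0 → ∃ n : ℕ, ¬ π ^ n ∣ w)
    (𝔫 : Ideal B) [h𝔫 : 𝔫.IsMaximal]
    (hdich : (∃ u : B, maximalIdeal (Localization.AtPrime 𝔫) =
        Ideal.span {algebraMap B (Localization.AtPrime 𝔫) (algebraMap W B π),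
          algebraMap B (Localization.AtPrime 𝔫) u}) ∨
      ∃ X Y : B, algebraMap W B π ∣ X * Y ∧ maximalIdeal (Localization.AtPrime 𝔫) =
        Ideal.span {algebraMap B (Localization.AtPrime 𝔫) (algebraMap W B π),
          algebraMap B (Localization.AtPrime 𝔫) X, algebraMap B (Localization.AtPrime 𝔫) Y})
    (g : SemilinearAut K F)
    (hC : ∀ P : Place K F, Through (ψ.comp φ) 𝔫 (g • P) ↔ Through (ψ.comp φ) 𝔫 P)
    {P : Place K F} (hP : Through (ψ.comp φ) 𝔫 P) (hR : RatAt ι ψ P)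
    (hR' : RatAt ι ψ (g • P)) :
    g • P = P ∨ DDLocal.Good ψ (Through (ψ.comp φ) 𝔫) P ∨
      DDLocal.Good ψ (Through (ψ.comp φ) 𝔫) (g • P) := by
  classical
  set R := Localization.AtPrime 𝔫 with hRdef
  have hic : IsIntegrallyClosed R :=
    isIntegrallyClosed_of_isLocalization R 𝔫.primeCompl 𝔫.primeCompl_le_nonZeroDivisors
  set κ : R →+* FL := locMap φ hφ 𝔫 with hκdef
  have hκ : Function.Injective κ := locMap_injective φ hφ 𝔫
  have hκB : ∀ y : B, κ (algebraMap B R y) = φ y := locMap_algebraMap φ hφ 𝔫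
  have hψR : ∀ y : B, (ψ.comp κ) (algebraMap B R y) = (ψ.comp φ) y := fun y => by
    rw [RingHom.comp_apply, hκB, RingHom.comp_apply]
  have hψWR : ∀ w : W, ψ (κ (algebraMap W R w)) = algebraMap K F (ι w) := fun w => by
    rw [IsScalarTower.algebraMap_apply W B R, hκB, hψW]
  have hfracR : ∀ x : FL, ∃ y₁ y₂ : R, y₂ ≠ 0 ∧ x * κ y₂ = κ y₁ := by
    intro x
    obtain ⟨y₁, y₂, hy₂, h⟩ := hfrac x
    refine ⟨algebraMap B R y₁, algebraMap B R y₂, ?_, by rw [hκB, hκB, h]⟩
    intro h0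
    have : φ y₂ = 0 := by rw [← hκB, h0, map_zero]
    exact hy₂ (hφ (by rw [this, map_zero]))
  have hcl : ∀ Q : Place K F, LocDD.Cl ψ κ Q ↔ Through (ψ.comp φ) 𝔫 Q := fun Q =>
    through_iff_localization W (ψ.comp φ) (ψ.comp κ) 𝔫 hψR Q
  have hstruct : (∃ u : R, maximalIdeal R = Ideal.span {algebraMap W R π, u}) ∨
      ∃ X Y : R, maximalIdeal R = Ideal.span {algebraMap W R π, X, Y} ∧
        algebraMap W R π ∣ X * Y := by
    rcases hdich with ⟨u, hu⟩ | ⟨X, Y, hXY, hm⟩
    · exact Or.inl ⟨algebraMap B R u, by rw [IsScalarTower.algebraMap_apply W B R]; exact hu⟩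
    · refine Or.inr ⟨algebraMap B R X, algebraMap B R Y, by
        rw [IsScalarTower.algebraMap_apply W B R]; exact hm, ?_⟩
      rw [IsScalarTower.algebraMap_apply W B R, ← map_mul]
      exact map_dvd (algebraMap B R) hXY
  have hCcl : ∀ Q : Place K F, LocDD.Cl ψ κ (g • Q) ↔ LocDD.Cl ψ κ Q := fun Q => by
    rw [hcl, hcl]; exact hC Q
  have hRB : RatAtB ι (ψ.comp κ) P := ratAtB_of_ratAt ι ψ κ hκ hfracR hR
  have hRB' : RatAtB ι (ψ.comp κ) (g • P) := ratAtB_of_ratAt ι ψ κ hκ hfracR hR'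
  have hmain := LocDD.hloc_of_struct ι W ψ κ hκ hψWR π hW hπ0 hsep hstruct g hCcl
    (Finsupp.single P 1)
    (fun P' hD _ => by
      have hPP : P' = P := by
        by_contra hne
        exact hD (Finsupp.single_eq_of_ne (fun h => hne h))
      rw [hPP]
      exact ⟨hRB, hRB'⟩)
    P ((hcl P).mpr hP) (by rw [Finsupp.single_eq_same]; exact one_ne_zero)
  have hconv : ∀ Q : Place K F, DDLocal.Good ψ (LocDD.Cl ψ κ) Q →
      DDLocal.Good ψ (Through (ψ.comp φ) 𝔫) Q := by
    rintro Q ⟨h, h0, h1, h2⟩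
    exact ⟨h, h0, h1, fun Q' hQ' hne => h2 Q' ((hcl Q').mpr hQ') hne⟩
  rcases hmain with h | h | h
  · exact Or.inl h
  · exact Or.inr (Or.inl (hconv P h))
  · exact Or.inr (Or.inr (hconv (g • P) h))

end Fermat.Agent.S34.LocChart
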