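/-
S34 (wave 6), contract (L1): `GAsm.LocContract₁ M q p A τ` is a THEOREM.

`kloc_fin_level` : (K-LOC) at every closed point of the special fibre of the finite chart of level
`M q`, at a Galois-stable level `(L, ι)`, on ANY carrier `B` of the chart (integral closure of
`W[X]`, `X ↦ j`, in `FF L (M q)`): `KLocVert.kloc_raw` with every remaining input discharged —

* carrier facts: `S37.GaussNoeth.noeth_fin`, `S37.ChartFrac.isFractionRing_fin` / `frac_fin`;
* the Atkin–Lehner involution `FrobPartner.exists_atkinLehner_level`, commuting with the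
  coefficient action (`CoeffAut.act_atkinLehner`);
* `hB₁`, `hB₂` : `FrobPartner.mem_contentRing_of_int`, `CuspRes.mem_contentRing_w_of_int_fin`;
* (S1) : `FinDich.s1_fin_level`;
* the horizontal primes : `S37.ExtPlace.exists_place_of_prime_chart`;
* the inertia element : `ChartAct.hW_of_mem_inertia`, `FrobAct.exists_eq_add_mul_of_mem_inertia`,
  `ChartActPred.actEvF` (+ `map_actEvF`, `actEvF_mem_iff`), `GRat.bc_bc_eq_smul`,
  `GRat.ratAtLevel_smul`;
* (DICH₁) : `CompLevel.dich_fin_struct_level`.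

`locContract₁` : the contract, through `GLoc.locContract₁_of_closure` (`S₀ = ∅`).
-/
import Mathlib
import Fermat.Agent.S34.GLoc
import Fermat.Agent.S34.KLocVert
import Fermat.Agent.S34.CompLevel
import Fermat.Agent.S34.FinDich
import Fermat.Agent.S34.ChartActPred
import Fermat.Agent.S34.ChartAct
import Fermat.Agent.S34.GRat
import Fermat.Agent.S34.CuspRes
import Fermat.Agent.S37.ChartFrac
import Fermat.Agent.S37.GaussNoeth
import Fermat.Agent.S37.ExtPlace

set_option autoImplicit false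
set_option linter.style.haveILetI false
set_option linter.unusedSectionVars false

noncomputable section

namespace Fermat.Agent.S34.LocFin

open Polynomial ModularCurve AlgebraicCurve Fermat.Agent.S18 Fermat.Agent.S37
open Fermat.Agent.S34.GDescent

local notation "Qb" => AlgebraicClosure ℚ

set_option maxHeartbeats 1600000 in
/-- **(K-LOC) on the finite chart of level `M q`, at a stable level**, on any carrier of the
chart, at every maximal ideal containing the uniformiser. -/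
theorem kloc_fin_level (M q p : ℕ) [NeZero M] [NeZero q] (hq : q.Prime) (hqM : ¬ q ∣ M)
    (A : ValuationSubring Qb) (hA : A.LiesOverPrime q) (τ : Qb ≃ₐ[ℚ] Qb)
    (hτ : τ ∈ A.inertiaSubgroupIn ℚ)
    {L : Type} [Field L] [Algebra ℚ L] (ι : L →+* Qb) (S₀ : Finset Qb)
    (hlev : LevelChange.IsLevel A q S₀ ι) (hst : GalLevel.IsStable ι)
    (n : ℕ) (D : Divisor Qb (modularFunctionFieldBar (M * q)))
    (fL : S24.FF L (M * q)) (hfL0 : fL ≠ 0)
    (hD : ∀ P : Place Qb (modularFunctionFieldBar (M * q)),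
      P.ord (S24.CoeffBC.bc ι (modularFunctionFieldFull (M * q)) fL) = (p : ℤ) ^ n * D P)
    (hrat : ∀ P : Place Qb (modularFunctionFieldBar (M * q)), D P ≠ 0 →
      RatAtLevel (M * q) ι P)
    (ϖ : ↥(A.comap ι)) (hϖ : Irreducible ϖ) (s : L ≃+* L) (hs : ∀ c : L, ι (s c) = τ (ι c))
    [Algebra (↥(A.comap ι))[X] (S24.FF L (M * q))]
    (halg : algebraMap (↥(A.comap ι))[X] (S24.FF L (M * q)) = Gauss.evF (A.comap ι) (M * q))
    (B : Type) [CommRing B] [Algebra (↥(A.comap ι))[X] B] [Algebra B (S24.FF L (M * q))]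
    [IsScalarTower (↥(A.comap ι))[X] B (S24.FF L (M * q))]
    [IsIntegralClosure B (↥(A.comap ι))[X] (S24.FF L (M * q))]
    (𝔪 : Ideal B) (h𝔪 : 𝔪.IsMaximal) (hC : algebraMap (↥(A.comap ι))[X] B (C ϖ) ∈ 𝔪) :
    ∃ h : S24.FF L (M * q), h ≠ 0 ∧ ∃ d : B, d ∉ 𝔪 ∧ ∃ t : B,
      algebraMap B (S24.FF L (M * q)) t =
        algebraMap B (S24.FF L (M * q)) d * DDGauss.dd (M * q) s (fL / h ^ (p ^ n)) := by
  classical
  obtain ⟨-, hroots, hdvr, hclosed, -, hchar, -, -⟩ := hlev
  haveI := hdvr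
  haveI := hclosed
  haveI := hchar
  haveI : Fact q.Prime := ⟨hq⟩
  haveI := h𝔪
  -- the carrier
  have hinj : Function.Injective (algebraMap B (S24.FF L (M * q))) :=
    IsIntegralClosure.algebraMap_injective B (↥(A.comap ι))[X] (S24.FF L (M * q))
  haveI : IsDomain B := hinj.isDomain _
  haveI : IsNoetherianRing B := (GaussNoeth.noeth_fin (A.comap ι) (M * q) halg B).1
  haveI hfr : IsFractionRing B (S24.FF L (M * q)) :=
    ChartFrac.isFractionRing_fin (A.comap ι) (M * q) halg B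
  haveI : Algebra.IsIntegral (↥(A.comap ι))[X] B :=
    IsIntegralClosure.isIntegral_algebra (↥(A.comap ι))[X] (S24.FF L (M * q))
  haveI : IsIntegrallyClosed B := by
    rw [isIntegrallyClosed_iff (S24.FF L (M * q))]
    intro x hx
    exact IsIntegralClosure.isIntegral_iff.mp (isIntegral_trans (R := (↥(A.comap ι))[X]) x hx)
  have hrange : ∀ x : S24.FF L (M * q), (∃ b : B, algebraMap B (S24.FF L (M * q)) b = x) ↔
      (Gauss.evF (A.comap ι) (M * q)).IsIntegralElem x := by
    intro x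
    rw [← halg]
    exact (IsIntegralClosure.isIntegral_iff (A := B) (R := (↥(A.comap ι))[X])
      (B := S24.FF L (M * q))).symm
  letI : Algebra ↥(A.comap ι) B := ((algebraMap (↥(A.comap ι))[X] B).comp C).toAlgebra
  haveI : IsScalarTower ↥(A.comap ι) (↥(A.comap ι))[X] B :=
    IsScalarTower.of_algebraMap_eq (fun _ => rfl)
  have hφW : ∀ c : ↥(A.comap ι), algebraMap B (S24.FF L (M * q)) (algebraMap ↥(A.comap ι) B c) =
      algebraMap L (S24.FF L (M * q)) (c : L) := by
    intro c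
    show algebraMap B (S24.FF L (M * q)) (algebraMap (↥(A.comap ι))[X] B (C c)) = _
    rw [← IsScalarTower.algebraMap_apply, halg, Gauss.evF_C]
  -- the Atkin–Lehner involution
  obtain ⟨w, hwα, hwβ⟩ := FrobPartner.exists_atkinLehner_level ι M q hq hqM
  have hw : ∀ x : S24.FF L (M * q), CoeffAut.act (M * q) s (w x) = w (CoeffAut.act (M * q) s x) :=
    fun x => CoeffAut.act_atkinLehner M q hq s w hwα hwβ x
  have hsW : ∀ c : L, c ∈ A.comap ι ↔ s c ∈ A.comap ι := ChartAct.hW_of_mem_inertia A ι s hs hτ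
  have hint : ∀ y : B, (Gauss.evF (A.comap ι) (M * q)).IsIntegralElem
      (algebraMap B (S24.FF L (M * q)) y) := fun y => (hrange _).mp ⟨y, rfl⟩
  have hc₁ : ∀ x : S24.FF L (M * q), (Gauss.evF (A.comap ι) (M * q)).IsIntegralElem x →
      (x : LaurentSeries L) ∈ Gauss.contentRing (A.comap ι) :=
    fun x hx => FrobPartner.mem_contentRing_of_int (A.comap ι) (M * q) hx
  have hc₂ : ∀ x : S24.FF L (M * q), (Gauss.evF (A.comap ι) (M * q)).IsIntegralElem x →
      ((w x : S24.FF L (M * q)) : LaurentSeries L) ∈ Gauss.contentRing (A.comap ι) :=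
    fun x hx => CuspRes.mem_contentRing_w_of_int_fin (A.comap ι) M q w hwα hx
  have hS1raw : ∀ x : S24.FF L (M * q), (Gauss.evF (A.comap ι) (M * q)).IsIntegralElem x →
      ∀ (h1 : (x : LaurentSeries L) ∈ Gauss.contentRing (A.comap ι))
        (h2 : ((w x : S24.FF L (M * q)) : LaurentSeries L) ∈ Gauss.contentRing (A.comap ι)),
        Gauss.red (A.comap ι) ⟨_, h1⟩ = 0 → Gauss.red (A.comap ι) ⟨_, h2⟩ = 0 →
        ∃ y, (Gauss.evF (A.comap ι) (M * q)).IsIntegralElem y ∧
          x = algebraMap L (S24.FF L (M * q)) ((ϖ : ↥(A.comap ι)) : L) * y :=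
    fun x hx h1 h2 hr1 hr2 =>
      FinDich.s1_fin_level ι (A.comap ι) M q hqM hϖ w hwα hwβ x hx h1 h2 hr1 hr2
  have hϖ𝔪 : algebraMap ↥(A.comap ι) B ϖ ∈ 𝔪 := hC
  refine KLocVert.kloc_raw (A.comap ι) (M * q) A ι
    (S24.CoeffBC.bc ι (modularFunctionFieldFull (M * q))) (algebraMap B (S24.FF L (M * q)))
    (fun x => Iff.rfl) hinj hφW
    (fun c => S24.CoeffBC.bc_algebraMap ι (modularFunctionFieldFull (M * q)) c)
    (fun x => ChartFrac.frac_fin (A.comap ι) (M * q) halg B x) ϖ hϖ ?_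
    (arithmeticGalois (modularFunctionFieldFull (M * q)) τ) s hsW
    (fun c hc => FrobAct.exists_eq_add_mul_of_mem_inertia A ι s hs hτ hϖ c hc)
    (fun x => by
      rw [CoeffAut.act_eq_bc]
      exact GRat.bc_bc_eq_smul (M * q) ι τ (s : L →+* L) hs x)
    (ChartActPred.actEvF (A.comap ι) (M * q) s hsW (algebraMap B (S24.FF L (M * q))) hinj hrange)
    (ChartActPred.map_actEvF (A.comap ι) (M * q) s hsW (algebraMap B (S24.FF L (M * q))) hinj
      hrange)
    𝔪 hϖ𝔪
    (fun y => ChartActPred.actEvF_mem_iff A ι s hs (M * q) hτ w (fun x y => map_sub w x y) hw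
      (algebraMap B (S24.FF L (M * q))) hinj hrange hc₁ hc₂ (algebraMap ↥(A.comap ι) B ϖ)
      ((ϖ : ↥(A.comap ι)) : L) (hφW ϖ) hS1raw 𝔪 hϖ𝔪 y)
    (CompLevel.dich_fin_struct_level A ι M q hq hqM hA hst hroots ϖ hϖ halg B 𝔪 hϖ𝔪
      (Localization.AtPrime 𝔪))
    D (fun P hP => hrat P hP)
    (fun P hP => GRat.ratAtLevel_smul (M * q) ι τ s hs hP)
    p n fL hfL0 hD w hw (fun y => hc₁ _ (hint y)) (fun y => hc₂ _ (hint y)) ?_
  · -- hext
    intro 𝔮 h𝔮 h0 hπ𝔮
    haveI := h𝔮
    refine ExtPlace.exists_place_of_prime_chart (M * q) ι (A.comap ι) hϖ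
      (algebraMap B (S24.FF L (M * q))) hinj (fun c => ⟨algebraMap ↥(A.comap ι) B c, hφW c⟩)
      𝔮 h0 ?_
    intro b hb hmem
    have : b = algebraMap ↥(A.comap ι) B ϖ := hinj (by rw [hb, hφW])
    exact hπ𝔮 (this ▸ hmem)
  · -- hS1
    intro y hr1 hr2
    obtain ⟨y0, hy0, hxy⟩ := hS1raw _ (hint y) _ _ hr1 hr2
    obtain ⟨y', rfl⟩ := (hrange y0).mpr hy0
    exact ⟨y', hinj (by rw [map_mul, hφW, hxy])⟩

set_option linter.unusedVariables false in
set_option maxHeartbeats 1600000 in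
/-- **Contract (L1) of `GAsm`**: the local datum at every closed point of the special fibre of
the finite chart. -/
theorem locContract₁ (M q p : ℕ) [NeZero M] [NeZero q] (hq : q.Prime) (hqM : ¬ q ∣ M)
    (hp : p.Prime) (hpq : p ≠ q) (A : ValuationSubring Qb) (hA : A.LiesOverPrime q)
    (τ : Qb ≃ₐ[ℚ] Qb) (hτ : τ ∈ A.inertiaSubgroupIn ℚ) : GAsm.LocContract₁ M q p A τ := by
  refine GLoc.locContract₁_of_closure M q p A τ ?_
  intro n D f hf hD
  refine ⟨∅, ?_⟩
  intro L _ _ ι hlev hst fL hfL hrat ϖ hϖ s hs _ halg B _ _ _ _ _ 𝔪 h𝔪 hC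
  have hfL0 : fL ≠ 0 := by
    rintro rfl
    exact hf (by rw [← hfL, map_zero])
  exact kloc_fin_level M q p hq hqM A hA τ hτ ι ∅ hlev hst n D fL hfL0
    (fun P => by rw [hfL]; exact hD P) hrat ϖ hϖ s hs halg B 𝔪 h𝔪 hC

end Fermat.Agent.S34.LocFin
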