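import Mathlib
import Fermat.Agent.S34.NodeStruct

/-!
# Node coordinates from the Kronecker congruences (package (S4) of the S34 blueprint)

`R` a local ring (the local ring of the level-`N = M q` chart at a crossing point of the two
components of the special fibre), `φ₁ : R → D₁`, `φ₂ : R → D₂` the two branch maps onto discrete
valuation rings, `E` a ring (the level-`M` chart ring at the base level) with the two degeneracy
maps `α β : E → R` and an endomorphism `ς` (the inverse of a Frobenius lift), such that the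
Kronecker congruences hold in ring-homomorphism form:

* `φ₁ (β b) = φ₁ (α (ς b)) ^ q`,
* `φ₂ (α b) = φ₂ (β (ς b)) ^ q`.

If `t, t' ∈ E` are such that `φ₁ (α t)` and `φ₂ (β t')` are uniformisers, then
`Y := α t - β (ς t) ^ q` vanishes on the second branch and is a uniformiser of the first, and
`X := β t' - α (ς t') ^ q` vanishes on the first branch and is a uniformiser of the second.
With `(π) = ker φ₁ ⊓ ker φ₂` this gives the node structure
`ker φ₁ = (π, X)`, `ker φ₂ = (π, Y)`, `𝔪 = (π, X, Y)`, `X Y ∈ (π)`.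
-/

set_option autoImplicit false

namespace Fermat.Agent.S34.NodeCoords

open IsLocalRing

section DVR

variable {D : Type*} [CommRing D] [IsDomain D] [IsDiscreteValuationRing D]

/-- in a discrete valuation ring, a uniformiser minus an `n`-th power (`n ≥ 2`) of a non-unit is
a uniformiser -/
theorem irreducible_sub_pow {ϖ z : D} (hϖ : Irreducible ϖ) (hz : ¬ IsUnit z) {n : ℕ}
    (hn : 2 ≤ n) : Irreducible (ϖ - z ^ n) := by
  have hmax : maximalIdeal D = Ideal.span {ϖ} :=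
    (IsDiscreteValuationRing.irreducible_iff_uniformizer _).mp hϖ
  have hzm : z ∈ maximalIdeal D := (IsLocalRing.mem_maximalIdeal z).mpr hz
  rw [hmax, Ideal.mem_span_singleton] at hzm
  obtain ⟨c, rfl⟩ := hzm
  obtain ⟨m, rfl⟩ := Nat.exists_eq_add_of_le hn
  have heq : ϖ - (ϖ * c) ^ (2 + m) = ϖ * (1 - ϖ * (c ^ 2 * (ϖ * c) ^ m)) := by ring
  rw [heq]
  have hu : IsUnit (1 - ϖ * (c ^ 2 * (ϖ * c) ^ m)) := by
    by_contra hnu
    have h1 : 1 - ϖ * (c ^ 2 * (ϖ * c) ^ m) ∈ maximalIdeal D :=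
      (IsLocalRing.mem_maximalIdeal _).mpr hnu
    have h2 : ϖ * (c ^ 2 * (ϖ * c) ^ m) ∈ maximalIdeal D := by
      rw [hmax]; exact Ideal.mul_mem_right _ _ (Ideal.mem_span_singleton_self ϖ)
    have h3 : (1 : D) ∈ maximalIdeal D := by
      have := Ideal.add_mem _ h1 h2
      simpa using this
    exact (maximalIdeal.isMaximal D).ne_top ((Ideal.eq_top_iff_one _).mpr h3)
  exact (irreducible_mul_isUnit hu).mpr hϖ

end DVR

section Coords

variable {R D₁ D₂ E : Type*} [CommRing R] [IsLocalRing R]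
  [CommRing D₁] [IsDomain D₁] [IsDiscreteValuationRing D₁]
  [CommRing D₂] [IsDomain D₂] [IsDiscreteValuationRing D₂]
  [CommRing E]

/-- **One node coordinate.**  `Y := α t - β (ς t) ^ q` vanishes on the second branch and is a
uniformiser of the first. -/
theorem node_coord (φ₁ : R →+* D₁) (φ₂ : R →+* D₂) (hφ₁ : Function.Surjective φ₁)
    (α β : E →+* R) (ς : E →+* E) (q : ℕ) (hq : 2 ≤ q)
    (h1 : ∀ b : E, φ₁ (β b) = φ₁ (α (ς b)) ^ q)
    (h2 : ∀ b : E, φ₂ (α b) = φ₂ (β (ς b)) ^ q)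
    (t : E) (ht : Irreducible (φ₁ (α t))) :
    φ₂ (α t - β (ς t) ^ q) = 0 ∧ Irreducible (φ₁ (α t - β (ς t) ^ q)) := by
  have hY2 : φ₂ (α t - β (ς t) ^ q) = 0 := by
    rw [map_sub, map_pow, h2 t, sub_self]
  refine ⟨hY2, ?_⟩
  have hY1 : φ₁ (α t - β (ς t) ^ q) = φ₁ (α t) - φ₁ (α (ς (ς t))) ^ (q * q) := by
    rw [map_sub, map_pow, h1 (ς t), ← pow_mul]
  have hk₂ : RingHom.ker φ₂ ≤ maximalIdeal R := IsLocalRing.le_maximalIdeal (RingHom.ker_ne_top φ₂)
  have hYm : ¬ IsUnit (φ₁ (α t - β (ς t) ^ q)) :=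
    Fermat.Agent.S34.NodeStruct.map_mem_nonunits φ₁ hφ₁ (hk₂ hY2)
  have hq0 : q * q ≠ 0 := by positivity
  have hz : ¬ IsUnit (φ₁ (α (ς (ς t)))) := by
    intro hu
    have hpow : IsUnit (φ₁ (α (ς (ς t))) ^ (q * q)) := hu.pow _
    have hsum : φ₁ (α t) = φ₁ (α t - β (ς t) ^ q) + φ₁ (α (ς (ς t))) ^ (q * q) := by
      rw [hY1]; ring
    have hmem : φ₁ (α t - β (ς t) ^ q) ∈ maximalIdeal D₁ :=
      (IsLocalRing.mem_maximalIdeal _).mpr hYm
    have htm : φ₁ (α t) ∈ maximalIdeal D₁ := (IsLocalRing.mem_maximalIdeal _).mpr ht.not_isUnit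
    have hpm : φ₁ (α (ς (ς t))) ^ (q * q) ∈ maximalIdeal D₁ := by
      have := Ideal.sub_mem _ htm hmem
      rw [hsum] at this
      simpa using this
    exact (IsLocalRing.mem_maximalIdeal _).mp hpm hpow
  rw [hY1]
  exact irreducible_sub_pow ht hz (by nlinarith)

/-- **Node coordinates and node structure from the Kronecker congruences.** -/
theorem node_coords (φ₁ : R →+* D₁) (φ₂ : R →+* D₂)
    (hφ₁ : Function.Surjective φ₁) (hφ₂ : Function.Surjective φ₂)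
    (α β : E →+* R) (ς : E →+* E) (q : ℕ) (hq : 2 ≤ q)
    (h1 : ∀ b : E, φ₁ (β b) = φ₁ (α (ς b)) ^ q)
    (h2 : ∀ b : E, φ₂ (α b) = φ₂ (β (ς b)) ^ q)
    (π : R) (hπ : Ideal.span {π} = RingHom.ker φ₁ ⊓ RingHom.ker φ₂)
    (t t' : E) (ht : Irreducible (φ₁ (α t))) (ht' : Irreducible (φ₂ (β t'))) :
    φ₁ (β t' - α (ς t') ^ q) = 0 ∧ φ₂ (α t - β (ς t) ^ q) = 0 ∧
    Irreducible (φ₂ (β t' - α (ς t') ^ q)) ∧ Irreducible (φ₁ (α t - β (ς t) ^ q)) ∧
    RingHom.ker φ₁ = Ideal.span {π, β t' - α (ς t') ^ q} ∧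
    RingHom.ker φ₂ = Ideal.span {π, α t - β (ς t) ^ q} ∧
    maximalIdeal R = Ideal.span {π, β t' - α (ς t') ^ q, α t - β (ς t) ^ q} ∧
    (β t' - α (ς t') ^ q) * (α t - β (ς t) ^ q) ∈ Ideal.span {π} ∧
    β t' - α (ς t') ^ q ∉ RingHom.ker φ₂ ∧ α t - β (ς t) ^ q ∉ RingHom.ker φ₁ := by
  obtain ⟨hY, hY'⟩ := node_coord φ₁ φ₂ hφ₁ α β ς q hq h1 h2 t ht
  obtain ⟨hX, hX'⟩ := node_coord φ₂ φ₁ hφ₂ β α ς q hq h2 h1 t' ht'
  obtain ⟨e1, e2, e3, e4, e5, e6⟩ := Fermat.Agent.S34.NodeStruct.nodeStruct φ₁ φ₂ hφ₁ hφ₂ π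
    (β t' - α (ς t') ^ q) (α t - β (ς t) ^ q) hπ hX hY hX' hY'
  exact ⟨hX, hY, hX', hY', e1, e2, e3, e4, e5, e6⟩

end Coords

end Fermat.Agent.S34.NodeCoords
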