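import Mathlib
import Fermat.Agent.S34.BranchDVR
import Fermat.Agent.S34.NodeCoords

/-!
# S34, (S2) + (S4) combined: the local ring at a crossing point is a node

`R` is a local ring (the local ring `B_𝔫` of a chart of level `N = M q` at a closed point of the
special fibre lying on both components), `ρ₁ : R → κ₁`, `ρ₂ : R → κ₂` the two reductions (to
fields), `π ∈ R` with `(π) = ker ρ₁ ⊓ ker ρ₂` (the localised form of (S1)).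

Each branch is controlled by a Dedekind domain `E_i` (the special fibre of a chart of level `M`)
with an injective `ε_i : E_i → κ_i` satisfying the hypotheses `h1`, `h2`, `h3` of
`BranchDVR.exists_branch`.  `B'` is a ring (the chart ring of level `M`) with the two degeneracy
maps `α β : B' → R`, surjections `p_i : B' → E_i` compatible with the reductions
(`ρ₁ ∘ α = ε₁ ∘ p₁`, `ρ₂ ∘ β = ε₂ ∘ p₂`), and an endomorphism `ς` (the inverse of a Frobenius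
lift) such that the Kronecker congruences hold:

* `ρ₁ (β b) = ρ₁ (α (ς b)) ^ q`,
* `ρ₂ (α b) = ρ₂ (β (ς b)) ^ q`.

Then there are `X, Y ∈ R` with `ker ρ₁ = (π, X)`, `ker ρ₂ = (π, Y)`, `𝔪_R = (π, X, Y)`,
`X Y ∈ (π)`, `ρ₂ X ≠ 0`, `ρ₁ Y ≠ 0`.
-/

set_option autoImplicit false

namespace Fermat.Agent.S34.NodeBranch

open IsLocalRing Fermat.Agent.S34.BranchDVR

/-- **The local ring at a crossing point is a node** ((S2) + (S4), abstract form). -/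
theorem node_of_branches {R κ₁ κ₂ E₁ E₂ B' : Type*} [CommRing R] [IsLocalRing R]
    [Field κ₁] [Field κ₂] [CommRing E₁] [IsDedekindDomain E₁] [CommRing E₂] [IsDedekindDomain E₂]
    [CommRing B']
    (ρ₁ : R →+* κ₁) (ρ₂ : R →+* κ₂)
    (ε₁ : E₁ →+* κ₁) (ε₂ : E₂ →+* κ₂)
    (hε₁ : Function.Injective ε₁) (hε₂ : Function.Injective ε₂)
    (h11 : ∀ e : E₁, ∃ r : R, ρ₁ r = ε₁ e)
    (h12 : ∀ r : R, ∃ a b : E₁, b ≠ 0 ∧ ρ₁ r * ε₁ b = ε₁ a)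
    (h13 : ∃ r : R, ¬ IsUnit r ∧ ρ₁ r ≠ 0)
    (h21 : ∀ e : E₂, ∃ r : R, ρ₂ r = ε₂ e)
    (h22 : ∀ r : R, ∃ a b : E₂, b ≠ 0 ∧ ρ₂ r * ε₂ b = ε₂ a)
    (h23 : ∃ r : R, ¬ IsUnit r ∧ ρ₂ r ≠ 0)
    (π : R) (hπ : Ideal.span {π} = RingHom.ker ρ₁ ⊓ RingHom.ker ρ₂)
    (α β : B' →+* R) (p₁ : B' →+* E₁) (p₂ : B' →+* E₂)
    (hp₁ : Function.Surjective p₁) (hp₂ : Function.Surjective p₂)
    (hα : ∀ b : B', ρ₁ (α b) = ε₁ (p₁ b)) (hβ : ∀ b : B', ρ₂ (β b) = ε₂ (p₂ b))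
    (ς : B' →+* B') (q : ℕ) (hq : 2 ≤ q)
    (hK1 : ∀ b : B', ρ₁ (β b) = ρ₁ (α (ς b)) ^ q)
    (hK2 : ∀ b : B', ρ₂ (α b) = ρ₂ (β (ς b)) ^ q) :
    ∃ X Y : R, ρ₁ X = 0 ∧ ρ₂ Y = 0 ∧ ρ₂ X ≠ 0 ∧ ρ₁ Y ≠ 0 ∧
      RingHom.ker ρ₁ = Ideal.span {π, X} ∧ RingHom.ker ρ₂ = Ideal.span {π, Y} ∧
      maximalIdeal R = Ideal.span {π, X, Y} ∧ X * Y ∈ Ideal.span {π} := by
  haveI := isDiscreteValuationRing_centre ρ₁ ε₁ hε₁ h11 h12 h13
  haveI := isDiscreteValuationRing_centre ρ₂ ε₂ hε₂ h21 h22 h23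
  have hs₁ := branchMap_surjective ρ₁ ε₁ hε₁ h11 h12 h13
  have hs₂ := branchMap_surjective ρ₂ ε₂ hε₂ h21 h22 h23
  have hk₁ := ker_branchMap ρ₁ ε₁ hε₁ h11 h12 h13
  have hk₂ := ker_branchMap ρ₂ ε₂ hε₂ h21 h22 h23
  obtain ⟨t₁, -, ht₁⟩ := exists_irreducible_algebraMap ρ₁ ε₁ hε₁ h11 h12 h13
  obtain ⟨t₂, -, ht₂⟩ := exists_irreducible_algebraMap ρ₂ ε₂ hε₂ h21 h22 h23
  obtain ⟨t, rfl⟩ := hp₁ t₁
  obtain ⟨t', rfl⟩ := hp₂ t₂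
  have ht : Irreducible (branchMap ρ₁ ε₁ hε₁ h11 h12 h13 (α t)) := by
    rw [branchMap_eq_algebraMap ρ₁ ε₁ hε₁ h11 h12 h13 (hα t)]
    exact ht₁
  have ht' : Irreducible (branchMap ρ₂ ε₂ hε₂ h21 h22 h23 (β t')) := by
    rw [branchMap_eq_algebraMap ρ₂ ε₂ hε₂ h21 h22 h23 (hβ t')]
    exact ht₂
  have hK1' : ∀ b : B', branchMap ρ₁ ε₁ hε₁ h11 h12 h13 (β b) =
      branchMap ρ₁ ε₁ hε₁ h11 h12 h13 (α (ς b)) ^ q := by
    intro b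
    have hmem : β b - α (ς b) ^ q ∈ RingHom.ker (branchMap ρ₁ ε₁ hε₁ h11 h12 h13) := by
      rw [hk₁, RingHom.mem_ker, map_sub, map_pow, hK1 b, sub_self]
    rw [RingHom.mem_ker, map_sub, map_pow, sub_eq_zero] at hmem
    exact hmem
  have hK2' : ∀ b : B', branchMap ρ₂ ε₂ hε₂ h21 h22 h23 (α b) =
      branchMap ρ₂ ε₂ hε₂ h21 h22 h23 (β (ς b)) ^ q := by
    intro b
    have hmem : α b - β (ς b) ^ q ∈ RingHom.ker (branchMap ρ₂ ε₂ hε₂ h21 h22 h23) := by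
      rw [hk₂, RingHom.mem_ker, map_sub, map_pow, hK2 b, sub_self]
    rw [RingHom.mem_ker, map_sub, map_pow, sub_eq_zero] at hmem
    exact hmem
  have hπ' : Ideal.span {π} = RingHom.ker (branchMap ρ₁ ε₁ hε₁ h11 h12 h13) ⊓
      RingHom.ker (branchMap ρ₂ ε₂ hε₂ h21 h22 h23) := by
    rw [hk₁, hk₂]
    exact hπ
  obtain ⟨hX, hY, -, -, e1, e2, e3, e4, e5, e6⟩ := Fermat.Agent.S34.NodeCoords.node_coords
    (branchMap ρ₁ ε₁ hε₁ h11 h12 h13) (branchMap ρ₂ ε₂ hε₂ h21 h22 h23) hs₁ hs₂ α β ς q hq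
    hK1' hK2' π hπ' t t' ht ht'
  refine ⟨β t' - α (ς t') ^ q, α t - β (ς t) ^ q, ?_, ?_, ?_, ?_, ?_, ?_, e3, e4⟩
  · have : β t' - α (ς t') ^ q ∈ RingHom.ker ρ₁ := by rw [← hk₁]; exact hX
    exact this
  · have : α t - β (ς t) ^ q ∈ RingHom.ker ρ₂ := by rw [← hk₂]; exact hY
    exact this
  · intro h
    apply e5
    rw [hk₂]
    exact h
  · intro h
    apply e6
    rw [hk₁]
    exact h
  · rw [← hk₁]
    exact e1
  · rw [← hk₂]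
    exact e2

end Fermat.Agent.S34.NodeBranch
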