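import Mathlib
import Fermat.Agent.S34.NodeBranch

/-!
# S34, (S3) + (S4) from the chart: local structure of `B_𝔫` at a closed point of the special fibre

`B` is a commutative ring (a chart of the arithmetic surface at level `N = M q`) with two ring
homomorphisms `r₁ : B → κ₁`, `r₂ : B → κ₂` to fields (the two reductions `res₁`, `res₂`), an
element `π` with `r₁ b = 0 → r₂ b = 0 → π ∣ b` (`(S1)`), and for each branch a Dedekind domain
`E_i` with an injective `ε_i : E_i → κ_i` (the special fibre of a chart of level `M`), such that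

* the values of `r_i` lie in a subfield `F_i` of `κ_i` all of whose elements are fractions of
  elements of `ε_i (E_i)` (`f = 1`);
* `α, β : B' → B` (the degeneracy maps on the chart ring of level `M`) with `r₁ ∘ α = ε₁ ∘ p₁`,
  `r₂ ∘ β = ε₂ ∘ p₂` for surjections `p_i : B' → E_i`.

For a prime `𝔫` of `B` and `R` the localisation of `B` at `𝔫`:

* `smooth_of_chart` : if `ker r₁ ≤ 𝔫` and some `g ∈ ker r₂` is not in `𝔫` (only the first
  component passes through `𝔫`), then `𝔪_R = (π, u)` and `(π) = ker ρ₁`;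
* `node_of_chart` : if `ker r₁ ≤ 𝔫` and `ker r₂ ≤ 𝔫` and the Kronecker congruences
  `r₁ (β b) = r₁ (α (ς b)) ^ q`, `r₂ (α b) = r₂ (β (ς b)) ^ q` hold, then `𝔪_R = (π, X, Y)` with
  `X Y ∈ (π)`.

Everything is Mathlib + the abstract files `BranchDVR`, `NodeCoords`, `NodeBranch`.
-/

set_option autoImplicit false

namespace Fermat.Agent.S34.NodeChart

open IsLocalRing Fermat.Agent.S34.BranchDVR

/-! ### One branch, local form -/

/-- **Smooth point, local form**: a local ring `R` with one reduction `ρ` whose kernel is `(π)`,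
controlled by a Dedekind domain `E` as in `BranchDVR`, has maximal ideal `(π, α t)`. -/
theorem smooth_of_branch {R κ E B' : Type*} [CommRing R] [IsLocalRing R] [Field κ]
    [CommRing E] [IsDedekindDomain E] [CommRing B']
    (ρ : R →+* κ) (ε : E →+* κ) (hε : Function.Injective ε)
    (h1 : ∀ e : E, ∃ r : R, ρ r = ε e)
    (h2 : ∀ r : R, ∃ a b : E, b ≠ 0 ∧ ρ r * ε b = ε a)
    (h3 : ∃ r : R, ¬ IsUnit r ∧ ρ r ≠ 0)
    (π : R) (hπ : Ideal.span {π} = RingHom.ker ρ)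
    (α : B' →+* R) (p : B' →+* E) (hp : Function.Surjective p)
    (hα : ∀ b : B', ρ (α b) = ε (p b)) :
    ∃ t : B', ρ (α t) ≠ 0 ∧ maximalIdeal R = Ideal.span {π, α t} := by
  haveI := isDiscreteValuationRing_centre ρ ε hε h1 h2 h3
  have hs := branchMap_surjective ρ ε hε h1 h2 h3
  have hk := ker_branchMap ρ ε hε h1 h2 h3
  obtain ⟨t₁, -, ht₁⟩ := exists_irreducible_algebraMap ρ ε hε h1 h2 h3
  obtain ⟨t, rfl⟩ := hp t₁
  have ht : Irreducible (branchMap ρ ε hε h1 h2 h3 (α t)) := by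
    rw [branchMap_eq_algebraMap ρ ε hε h1 h2 h3 (hα t)]
    exact ht₁
  refine ⟨t, ?_, ?_⟩
  · intro h0
    have hmem : α t ∈ RingHom.ker (branchMap ρ ε hε h1 h2 h3) := by rw [hk]; exact h0
    rw [RingHom.mem_ker] at hmem
    rw [hmem] at ht
    exact not_irreducible_zero ht
  · apply le_antisymm
    · intro z hz
      have hz' : branchMap ρ ε hε h1 h2 h3 z ∈
          maximalIdeal (Localization.AtPrime (centreIdeal ρ ε h1)) :=
        (branchMap_mem_maximalIdeal_iff ρ ε hε h1 h2 h3 z).mpr hz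
      rw [(IsDiscreteValuationRing.irreducible_iff_uniformizer _).mp ht,
        Ideal.mem_span_singleton] at hz'
      obtain ⟨c, hc⟩ := hz'
      obtain ⟨w, rfl⟩ := hs c
      have hmem : z - α t * w ∈ RingHom.ker ρ := by
        rw [← hk, RingHom.mem_ker, map_sub, map_mul, hc, sub_self]
      rw [← hπ, Ideal.mem_span_singleton] at hmem
      obtain ⟨d, hd⟩ := hmem
      have hz2 : z = π * d + α t * w := by linear_combination hd
      rw [hz2]
      exact Ideal.add_mem _ (Ideal.mul_mem_right _ _ (Ideal.subset_span (by simp)))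
        (Ideal.mul_mem_right _ _ (Ideal.subset_span (by simp)))
    · rw [Ideal.span_le]
      intro z hz
      rcases hz with rfl | rfl
      · rw [SetLike.mem_coe, ← branchMap_mem_maximalIdeal_iff ρ ε hε h1 h2 h3]
        have hmem : z ∈ RingHom.ker (branchMap ρ ε hε h1 h2 h3) := by
          rw [hk, ← hπ]; exact Ideal.mem_span_singleton_self _
        rw [RingHom.mem_ker] at hmem
        rw [hmem]
        exact zero_mem _
      · rw [SetLike.mem_coe, ← branchMap_mem_maximalIdeal_iff ρ ε hε h1 h2 h3,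
          mem_maximalIdeal, mem_nonunits_iff]
        exact ht.not_isUnit

/-! ### The localisation of a chart at a prime -/

section Loc

variable {B κ : Type*} [CommRing B] [Field κ] (r : B →+* κ)
  (𝔫 : Ideal B) [𝔫.IsPrime] (h𝔫 : RingHom.ker r ≤ 𝔫)
  (R : Type*) [CommRing R] [Algebra B R] [IsLocalization.AtPrime R 𝔫]

/-- the reduction `r`, extended to the localisation at a prime containing its kernel -/
noncomputable def locRed : R →+* κ :=
  IsLocalization.lift (M := 𝔫.primeCompl) (g := r) (fun s =>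
    isUnit_iff_ne_zero.mpr fun h0 => s.2 (h𝔫 h0))

theorem locRed_algebraMap (b : B) : locRed r 𝔫 h𝔫 R (algebraMap B R b) = r b :=
  IsLocalization.lift_eq _ b

variable {r 𝔫 R}

theorem exists_mul_algebraMap (x : R) :
    ∃ (b s : B), s ∉ 𝔫 ∧ x * algebraMap B R s = algebraMap B R b := by
  obtain ⟨⟨b, s⟩, h⟩ := IsLocalization.surj 𝔫.primeCompl x
  exact ⟨b, s, s.2, h⟩

include h𝔫 in
theorem locRed_mul (x : R) {b s : B} (h : x * algebraMap B R s = algebraMap B R b) :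
    locRed r 𝔫 h𝔫 R x * r s = r b := by
  rw [← locRed_algebraMap r 𝔫 h𝔫 R s, ← map_mul, h, locRed_algebraMap]

theorem map_ne_zero_of_notMem (h𝔫 : RingHom.ker r ≤ 𝔫) {s : B} (hs : s ∉ 𝔫) : r s ≠ 0 :=
  fun h0 => hs (h𝔫 h0)

/-- the values of the extended reduction lie in any subfield containing the values of `r` -/
theorem locRed_mem (F : Subfield κ) (hF : ∀ b : B, r b ∈ F) (x : R) :
    locRed r 𝔫 h𝔫 R x ∈ F := by
  obtain ⟨b, s, hs, h⟩ := exists_mul_algebraMap (𝔫 := 𝔫) x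
  have h1 := locRed_mul h𝔫 x h
  have hs0 : r s ≠ 0 := map_ne_zero_of_notMem h𝔫 hs
  have h2 : locRed r 𝔫 h𝔫 R x = r b / r s := by
    rw [eq_div_iff hs0]
    exact h1
  rw [h2]
  exact F.div_mem (hF b) (hF s)

theorem not_isUnit_algebraMap {u : B} (hu : u ∈ 𝔫) : ¬ IsUnit (algebraMap B R u) := by
  intro h
  have h2 := (IsLocalization.AtPrime.isUnit_to_map_iff R 𝔫 u).mp h
  exact h2 hu

theorem isUnit_algebraMap_of_notMem {s : B} (hs : s ∉ 𝔫) : IsUnit (algebraMap B R s) :=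
  IsLocalization.map_units R (⟨s, hs⟩ : 𝔫.primeCompl)

end Loc

/-! ### Smooth points of a chart -/

/-- **Smooth point of a chart** (only the first component passes through `𝔫`). -/
theorem smooth_of_chart {B κ₁ κ₂ E₁ B' : Type*} [CommRing B] [Field κ₁] [Field κ₂]
    [CommRing E₁] [IsDedekindDomain E₁] [CommRing B']
    (r₁ : B →+* κ₁) (r₂ : B →+* κ₂) (ε₁ : E₁ →+* κ₁) (hε₁ : Function.Injective ε₁)
    (F₁ : Subfield κ₁) (hF₁ : ∀ b : B, r₁ b ∈ F₁)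
    (hfrac₁ : ∀ y ∈ F₁, ∃ a b : E₁, b ≠ 0 ∧ y * ε₁ b = ε₁ a)
    (π : B) (hπ : ∀ b : B, r₁ b = 0 → r₂ b = 0 → π ∣ b) (hπ₁ : r₁ π = 0)
    (α : B' →+* B) (p₁ : B' →+* E₁) (hp₁ : Function.Surjective p₁)
    (hα : ∀ b : B', r₁ (α b) = ε₁ (p₁ b))
    (𝔫 : Ideal B) [𝔫.IsPrime] (h₁ : RingHom.ker r₁ ≤ 𝔫)
    (g : B) (hg : r₂ g = 0) (hg𝔫 : g ∉ 𝔫)
    (u₁ : B) (hu₁ : u₁ ∈ 𝔫) (hu₁' : r₁ u₁ ≠ 0)
    (R : Type*) [CommRing R] [Algebra B R] [IsLocalization.AtPrime R 𝔫] [IsLocalRing R] :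
    RingHom.ker (locRed r₁ 𝔫 h₁ R) = Ideal.span {algebraMap B R π} ∧
    ∃ t : B', r₁ (α t) ≠ 0 ∧
      maximalIdeal R = Ideal.span {algebraMap B R π, algebraMap B R (α t)} := by
  have hker : Ideal.span {algebraMap B R π} = RingHom.ker (locRed r₁ 𝔫 h₁ R) := by
    apply le_antisymm
    · rw [Ideal.span_le]
      intro x hx
      rw [Set.mem_singleton_iff.mp hx, SetLike.mem_coe, RingHom.mem_ker, locRed_algebraMap, hπ₁]
    · intro x hx
      rw [RingHom.mem_ker] at hx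
      obtain ⟨b, s, hs, h⟩ := exists_mul_algebraMap (𝔫 := 𝔫) x
      have h1 := locRed_mul h₁ x h
      rw [hx, zero_mul] at h1
      have hgb : π ∣ g * b := by
        apply hπ
        · rw [map_mul, ← h1, mul_zero]
        · rw [map_mul, hg, zero_mul]
      obtain ⟨c, hc⟩ := hgb
      obtain ⟨v, hv⟩ := isUnit_algebraMap_of_notMem (R := R) hs
      obtain ⟨v', hv'⟩ := isUnit_algebraMap_of_notMem (R := R) hg𝔫
      rw [Ideal.mem_span_singleton]
      refine ⟨algebraMap B R c * (v⁻¹ : Rˣ) * (v'⁻¹ : Rˣ), ?_⟩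
      have e1 : x = algebraMap B R b * (v⁻¹ : Rˣ) := by
        rw [← h, ← hv, mul_assoc, Units.mul_inv, mul_one]
      have e2 : algebraMap B R g * algebraMap B R b = algebraMap B R π * algebraMap B R c := by
        rw [← map_mul, hc, map_mul]
      have e3 : algebraMap B R b = algebraMap B R π * algebraMap B R c * (v'⁻¹ : Rˣ) := by
        rw [← e2, ← hv', mul_comm (v' : R), mul_assoc, Units.mul_inv, mul_one]
      rw [e1, e3]
      ring
  refine ⟨hker.symm, ?_⟩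
  have h11 : ∀ e : E₁, ∃ x : R, locRed r₁ 𝔫 h₁ R x = ε₁ e := by
    intro e
    obtain ⟨b', rfl⟩ := hp₁ e
    exact ⟨algebraMap B R (α b'), by rw [locRed_algebraMap, hα]⟩
  have h12 : ∀ x : R, ∃ a b : E₁, b ≠ 0 ∧ locRed r₁ 𝔫 h₁ R x * ε₁ b = ε₁ a := fun x =>
    hfrac₁ _ (locRed_mem (h𝔫 := h₁) F₁ hF₁ x)
  have h13 : ∃ x : R, ¬ IsUnit x ∧ locRed r₁ 𝔫 h₁ R x ≠ 0 :=
    ⟨algebraMap B R u₁, not_isUnit_algebraMap hu₁, by rw [locRed_algebraMap]; exact hu₁'⟩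
  obtain ⟨t, ht0, ht⟩ := smooth_of_branch (locRed r₁ 𝔫 h₁ R) ε₁ hε₁ h11 h12 h13
    (algebraMap B R π) hker ((algebraMap B R).comp α) p₁ hp₁
    (fun b => by rw [RingHom.comp_apply, locRed_algebraMap, hα])
  refine ⟨t, ?_, ht⟩
  rw [RingHom.comp_apply, locRed_algebraMap] at ht0
  exact ht0

/-! ### Crossing points of a chart -/

/-- **Crossing point of a chart** (both components pass through `𝔫`): `B_𝔫` is a node. -/
theorem node_of_chart {B κ₁ κ₂ E₁ E₂ B' : Type*} [CommRing B] [Field κ₁] [Field κ₂]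
    [CommRing E₁] [IsDedekindDomain E₁] [CommRing E₂] [IsDedekindDomain E₂] [CommRing B']
    (r₁ : B →+* κ₁) (r₂ : B →+* κ₂) (ε₁ : E₁ →+* κ₁) (ε₂ : E₂ →+* κ₂)
    (hε₁ : Function.Injective ε₁) (hε₂ : Function.Injective ε₂)
    (F₁ : Subfield κ₁) (hF₁ : ∀ b : B, r₁ b ∈ F₁)
    (hfrac₁ : ∀ y ∈ F₁, ∃ a b : E₁, b ≠ 0 ∧ y * ε₁ b = ε₁ a)
    (F₂ : Subfield κ₂) (hF₂ : ∀ b : B, r₂ b ∈ F₂)
    (hfrac₂ : ∀ y ∈ F₂, ∃ a b : E₂, b ≠ 0 ∧ y * ε₂ b = ε₂ a)
    (π : B) (hπ : ∀ b : B, r₁ b = 0 → r₂ b = 0 → π ∣ b) (hπ₁ : r₁ π = 0) (hπ₂ : r₂ π = 0)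
    (α β : B' →+* B) (p₁ : B' →+* E₁) (p₂ : B' →+* E₂)
    (hp₁ : Function.Surjective p₁) (hp₂ : Function.Surjective p₂)
    (hα : ∀ b : B', r₁ (α b) = ε₁ (p₁ b)) (hβ : ∀ b : B', r₂ (β b) = ε₂ (p₂ b))
    (ς : B' →+* B') (q : ℕ) (hq : 2 ≤ q)
    (hK1 : ∀ b : B', r₁ (β b) = r₁ (α (ς b)) ^ q)
    (hK2 : ∀ b : B', r₂ (α b) = r₂ (β (ς b)) ^ q)
    (𝔫 : Ideal B) [𝔫.IsPrime] (h₁ : RingHom.ker r₁ ≤ 𝔫) (h₂ : RingHom.ker r₂ ≤ 𝔫)
    (u₁ : B) (hu₁ : u₁ ∈ 𝔫) (hu₁' : r₁ u₁ ≠ 0) (u₂ : B) (hu₂ : u₂ ∈ 𝔫) (hu₂' : r₂ u₂ ≠ 0)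
    (R : Type*) [CommRing R] [Algebra B R] [IsLocalization.AtPrime R 𝔫] [IsLocalRing R] :
    ∃ X Y : R, locRed r₁ 𝔫 h₁ R X = 0 ∧ locRed r₂ 𝔫 h₂ R Y = 0 ∧
      locRed r₂ 𝔫 h₂ R X ≠ 0 ∧ locRed r₁ 𝔫 h₁ R Y ≠ 0 ∧
      RingHom.ker (locRed r₁ 𝔫 h₁ R) = Ideal.span {algebraMap B R π, X} ∧
      RingHom.ker (locRed r₂ 𝔫 h₂ R) = Ideal.span {algebraMap B R π, Y} ∧
      maximalIdeal R = Ideal.span {algebraMap B R π, X, Y} ∧
      X * Y ∈ Ideal.span {algebraMap B R π} := by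
  have hker : Ideal.span {algebraMap B R π} =
      RingHom.ker (locRed r₁ 𝔫 h₁ R) ⊓ RingHom.ker (locRed r₂ 𝔫 h₂ R) := by
    apply le_antisymm
    · rw [Ideal.span_le]
      intro x hx
      rw [Set.mem_singleton_iff.mp hx]
      refine Ideal.mem_inf.mpr ⟨?_, ?_⟩
      · rw [RingHom.mem_ker, locRed_algebraMap, hπ₁]
      · rw [RingHom.mem_ker, locRed_algebraMap, hπ₂]
    · intro x hx
      obtain ⟨hx1, hx2⟩ := Ideal.mem_inf.mp hx
      rw [RingHom.mem_ker] at hx1 hx2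
      obtain ⟨b, s, hs, h⟩ := exists_mul_algebraMap (𝔫 := 𝔫) x
      have e1 := locRed_mul h₁ x h
      have e2 := locRed_mul h₂ x h
      rw [hx1, zero_mul] at e1
      rw [hx2, zero_mul] at e2
      obtain ⟨c, hc⟩ := hπ b e1.symm e2.symm
      obtain ⟨v, hv⟩ := isUnit_algebraMap_of_notMem (R := R) hs
      rw [Ideal.mem_span_singleton]
      refine ⟨algebraMap B R c * (v⁻¹ : Rˣ), ?_⟩
      have e3 : x = algebraMap B R b * (v⁻¹ : Rˣ) := by
        rw [← h, ← hv, mul_assoc, Units.mul_inv, mul_one]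
      rw [e3, hc, map_mul]
      ring
  have h11 : ∀ e : E₁, ∃ x : R, locRed r₁ 𝔫 h₁ R x = ε₁ e := by
    intro e
    obtain ⟨b', rfl⟩ := hp₁ e
    exact ⟨algebraMap B R (α b'), by rw [locRed_algebraMap, hα]⟩
  have h12 : ∀ x : R, ∃ a b : E₁, b ≠ 0 ∧ locRed r₁ 𝔫 h₁ R x * ε₁ b = ε₁ a := fun x =>
    hfrac₁ _ (locRed_mem (h𝔫 := h₁) F₁ hF₁ x)
  have h13 : ∃ x : R, ¬ IsUnit x ∧ locRed r₁ 𝔫 h₁ R x ≠ 0 :=
    ⟨algebraMap B R u₁, not_isUnit_algebraMap hu₁, by rw [locRed_algebraMap]; exact hu₁'⟩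
  have h21 : ∀ e : E₂, ∃ x : R, locRed r₂ 𝔫 h₂ R x = ε₂ e := by
    intro e
    obtain ⟨b', rfl⟩ := hp₂ e
    exact ⟨algebraMap B R (β b'), by rw [locRed_algebraMap, hβ]⟩
  have h22 : ∀ x : R, ∃ a b : E₂, b ≠ 0 ∧ locRed r₂ 𝔫 h₂ R x * ε₂ b = ε₂ a := fun x =>
    hfrac₂ _ (locRed_mem (h𝔫 := h₂) F₂ hF₂ x)
  have h23 : ∃ x : R, ¬ IsUnit x ∧ locRed r₂ 𝔫 h₂ R x ≠ 0 :=
    ⟨algebraMap B R u₂, not_isUnit_algebraMap hu₂, by rw [locRed_algebraMap]; exact hu₂'⟩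
  exact Fermat.Agent.S34.NodeBranch.node_of_branches (locRed r₁ 𝔫 h₁ R) (locRed r₂ 𝔫 h₂ R)
    ε₁ ε₂ hε₁ hε₂ h11 h12 h13 h21 h22 h23 (algebraMap B R π) hker
    ((algebraMap B R).comp α) ((algebraMap B R).comp β) p₁ p₂ hp₁ hp₂
    (fun b => by rw [RingHom.comp_apply, locRed_algebraMap, hα])
    (fun b => by rw [RingHom.comp_apply, locRed_algebraMap, hβ])
    ς q hq
    (fun b => by
      rw [RingHom.comp_apply, RingHom.comp_apply, locRed_algebraMap, locRed_algebraMap, hK1])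
    (fun b => by
      rw [RingHom.comp_apply, RingHom.comp_apply, locRed_algebraMap, locRed_algebraMap, hK2])

end Fermat.Agent.S34.NodeChart
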