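import Mathlib
import Fermat.Agent.S18.TwoChartsC

/-!
# S34 (wave 6): the special fibre with two components is connected ("a node exists")

`no_split` (polynomial-multiplier currency `IsInt` / `InC` of `S18.Endgame`): let `F` be a field
over a noetherian UFD `W` with prime element `π`, `j ∈ F` transcendental, `W` integrally closed in
`F`, and let `m₁`, `m₂` be the sets of Gauss-integral elements of `F` of positive valuation at the
two "vertical" valuations (`m₁ ∩ m₂ ⊆ π C`, `C` the integral closure of the Gauss ring `W[j]_(π)`).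
Then the two charts of the `j`-line cannot both carry a splitting idempotent (an element of the
chart ring which is `≡ 1` at the first valuation and `≡ 0` at the second one): by
`S18.TwoChartsC.two_chart_hom` such an idempotent would be congruent to a constant of `W`, and a
constant has the same residue at both valuations.

`exists_mem_of_no_split` is the contrapositive in ideal form: if the elements of positive valuation
form ideals `P₁`, `P₂` of the chart rings `B₁`, `B₂`, then on one of the two charts `P₁ ⊔ P₂ ≠ ⊤`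
(so some maximal ideal contains both: a crossing point of the two components).
-/

set_option autoImplicit false
set_option linter.unusedSectionVars false

namespace Fermat.Agent.S34.NodeExists

open Polynomial
open Fermat.Agent.S18.Endgame (IsInt InC)

variable {W F : Type*} [CommRing W] [IsDomain W] [IsNoetherianRing W]
  [UniqueFactorizationMonoid W] [Field F] [Algebra W F]

/-- **No splitting idempotent on both charts.** -/
theorem no_split {π : W} (hπ : Prime π) {j : F} (hj : Transcendental W j)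
    {n : ℕ} (b : Fin n → F) (hb : ∀ i, IsInt W j (b i))
    (hspan : ∀ y, IsInt W j y → ∃ p : Fin n → W[X], y = ∑ i, aeval j (p i) * b i)
    (hconst : ∀ c : F, IsIntegral W c → ∃ a : W, algebraMap W F a = c)
    (m₁ m₂ : Set F)
    (hsub₁ : ∀ z ∈ m₁, ∀ z' ∈ m₁, z - z' ∈ m₁) (hsub₂ : ∀ z ∈ m₂, ∀ z' ∈ m₂, z - z' ∈ m₂)
    (hmul₁ : ∀ z ∈ m₁, ∀ g, InC π j g → g * z ∈ m₁)
    (hmul₂ : ∀ z ∈ m₂, ∀ g, InC π j g → g * z ∈ m₂)
    (hπ₁ : algebraMap W F π ∈ m₁) (hπ₂ : algebraMap W F π ∈ m₂)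
    (h1 : (1 : F) ∉ m₁)
    (hW : ∀ a : W, algebraMap W F a ∈ m₂ → π ∣ a)
    (hm : ∀ z, z ∈ m₁ → z ∈ m₂ → ∃ d, InC π j d ∧ z = algebraMap W F π * d)
    (e₁ : F) (he₁ : IsInt W j e₁) (h11 : e₁ - 1 ∈ m₁) (h12 : e₁ ∈ m₂)
    (e₂ : F) (he₂ : ∃ m : ℕ, IsInt W j⁻¹ ((1 - 1728 * j⁻¹) ^ m * e₂))
    (h21 : e₂ - 1 ∈ m₁) (h22 : e₂ ∈ m₂) : False := by
  have hC1 : InC π j e₁ := InC.of_isInt hπ he₁
  have hC1' : InC π j (e₁ - 1) := hC1.sub hπ (InC.one hπ)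
  -- `ε := e₁` is idempotent modulo `π C`
  have hε : ∃ c, InC π j c ∧ e₁ ^ 2 - e₁ = algebraMap W F π * c := by
    have a1 : e₁ ^ 2 - e₁ ∈ m₁ := by
      have := hmul₁ _ h11 e₁ hC1
      have e : e₁ ^ 2 - e₁ = e₁ * (e₁ - 1) := by ring
      rw [e]; exact this
    have a2 : e₁ ^ 2 - e₁ ∈ m₂ := by
      have := hmul₂ _ h12 (e₁ - 1) hC1'
      have e : e₁ ^ 2 - e₁ = (e₁ - 1) * e₁ := by ring
      rw [e]; exact this
    exact hm _ a1 a2
  have h₁ : ∃ c, InC π j c ∧ e₁ - e₁ = algebraMap W F π * c :=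
    ⟨0, InC.zero hπ, by rw [sub_self, mul_zero]⟩
  have h₂ : ∃ c, InC π j c ∧ e₂ - e₁ = algebraMap W F π * c := by
    have a1 : e₂ - e₁ ∈ m₁ := by
      have := hsub₁ _ h21 _ h11
      have e : e₂ - e₁ = e₂ - 1 - (e₁ - 1) := by ring
      rw [e]; exact this
    have a2 : e₂ - e₁ ∈ m₂ := hsub₂ _ h22 _ h12
    exact hm _ a1 a2
  obtain ⟨c, hcW, -, -, d, hd, hcd⟩ :=
    Fermat.Agent.S18.TwoChartsC.two_chart_hom hπ hj b hb hspan e₁ e₁ e₂ hε he₁ he₂ h₁ h₂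
  obtain ⟨a, rfl⟩ := hconst c hcW
  -- `π d ∈ m₁ ∩ m₂`
  have d1 : algebraMap W F π * d ∈ m₁ := by
    have := hmul₁ _ hπ₁ d hd
    rwa [mul_comm] at this
  have d2 : algebraMap W F π * d ∈ m₂ := by
    have := hmul₂ _ hπ₂ d hd
    rwa [mul_comm] at this
  -- the constant lies in `m₂`
  have c2 : algebraMap W F a ∈ m₂ := by
    have e : algebraMap W F a = e₁ - (0 - algebraMap W F π * d) := by
      linear_combination hcd
    have z2 : (0 : F) ∈ m₂ := by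
      have := hsub₂ _ h12 _ h12
      rwa [sub_self] at this
    rw [e]
    exact hsub₂ _ h12 _ (hsub₂ _ z2 _ d2)
  obtain ⟨a', rfl⟩ := hW a c2
  -- hence in `m₁`, and so does `1`
  have c1 : algebraMap W F (π * a') ∈ m₁ := by
    have := hmul₁ _ hπ₁ (algebraMap W F a') (InC.const hπ a')
    rwa [mul_comm, ← map_mul] at this
  have c1' : algebraMap W F (π * a') - 1 ∈ m₁ := by
    have z1 : (0 : F) ∈ m₁ := by
      have := hsub₁ _ h11 _ h11
      rwa [sub_self] at this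
    have e : algebraMap W F (π * a') - 1 = e₁ - 1 - (0 - algebraMap W F π * d) := by
      linear_combination hcd
    rw [e]
    exact hsub₁ _ h11 _ (hsub₁ _ z1 _ d1)
  apply h1
  have := hsub₁ _ c1 _ c1'
  have e : algebraMap W F (π * a') - (algebraMap W F (π * a') - 1) = 1 := by ring
  rwa [e] at this

/-- On a chart without crossing point there is a splitting idempotent. -/
theorem exists_split_of_no_crossing (m₁ m₂ : Set F)
    (hsub₁ : ∀ z ∈ m₁, ∀ z' ∈ m₁, z - z' ∈ m₁)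
    {B : Type*} [CommRing B] (ι : B →+* F) (P P' : Ideal B)
    (hP : ∀ y ∈ P, ι y ∈ m₁) (hP' : ∀ y ∈ P', ι y ∈ m₂)
    (hno : ¬ ∃ 𝔫 : Ideal B, 𝔫.IsMaximal ∧ P ≤ 𝔫 ∧ P' ≤ 𝔫) :
    ∃ e : B, ι e - 1 ∈ m₁ ∧ ι e ∈ m₂ := by
  have hneg₁ : ∀ z ∈ m₁, -z ∈ m₁ := by
    intro z hz
    have z0 : (0 : F) ∈ m₁ := by
      have := hsub₁ _ hz _ hz
      rwa [sub_self] at this
    have := hsub₁ _ z0 _ hz
    rwa [zero_sub] at this
  have htop : P ⊔ P' = ⊤ := by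
    by_contra hne
    obtain ⟨𝔫, h𝔫, hle⟩ := Ideal.exists_le_maximal _ hne
    exact hno ⟨𝔫, h𝔫, le_trans le_sup_left hle, le_trans le_sup_right hle⟩
  have h1mem : (1 : B) ∈ P ⊔ P' := by
    rw [htop]; exact Submodule.mem_top
  obtain ⟨a, ha, e, he, hae⟩ := Submodule.mem_sup.mp h1mem
  refine ⟨e, ?_, hP' e he⟩
  have : ι e - 1 = -ι a := by
    rw [← map_one ι, ← hae, map_add]; ring
  rw [this]
  exact hneg₁ _ (hP a ha)

/-- **A crossing point exists** (ideal form of `no_split`).  `B₁`, `B₂` are the two chart rings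
(any rings mapping to `F` with image integral over `W[j]`, resp. over the cusp chart
`W[1/j, 1/(1 - 1728/j)]`), `P₁`, `P₂` (resp. `Q₁`, `Q₂`) ideals of elements of positive valuation
at the first, resp. second vertical valuation.  Then on one of the two charts some maximal ideal
contains both vertical ideals. -/
theorem exists_crossing {π : W} (hπ : Prime π) {j : F} (hj : Transcendental W j)
    {n : ℕ} (b : Fin n → F) (hb : ∀ i, IsInt W j (b i))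
    (hspan : ∀ y, IsInt W j y → ∃ p : Fin n → W[X], y = ∑ i, aeval j (p i) * b i)
    (hconst : ∀ c : F, IsIntegral W c → ∃ a : W, algebraMap W F a = c)
    (m₁ m₂ : Set F)
    (hsub₁ : ∀ z ∈ m₁, ∀ z' ∈ m₁, z - z' ∈ m₁) (hsub₂ : ∀ z ∈ m₂, ∀ z' ∈ m₂, z - z' ∈ m₂)
    (hmul₁ : ∀ z ∈ m₁, ∀ g, InC π j g → g * z ∈ m₁)
    (hmul₂ : ∀ z ∈ m₂, ∀ g, InC π j g → g * z ∈ m₂)
    (hπ₁ : algebraMap W F π ∈ m₁) (hπ₂ : algebraMap W F π ∈ m₂)
    (h1 : (1 : F) ∉ m₁)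
    (hW : ∀ a : W, algebraMap W F a ∈ m₂ → π ∣ a)
    (hm : ∀ z, z ∈ m₁ → z ∈ m₂ → ∃ d, InC π j d ∧ z = algebraMap W F π * d)
    {B₁ B₂ : Type*} [CommRing B₁] [CommRing B₂] (ι₁ : B₁ →+* F) (ι₂ : B₂ →+* F)
    (hB₁ : ∀ y : B₁, IsInt W j (ι₁ y))
    (hB₂ : ∀ y : B₂, ∃ m : ℕ, IsInt W j⁻¹ ((1 - 1728 * j⁻¹) ^ m * ι₂ y))
    (P₁ P₂ : Ideal B₁) (Q₁ Q₂ : Ideal B₂)
    (hP₁ : ∀ y ∈ P₁, ι₁ y ∈ m₁) (hP₂ : ∀ y ∈ P₂, ι₁ y ∈ m₂)
    (hQ₁ : ∀ y ∈ Q₁, ι₂ y ∈ m₁) (hQ₂ : ∀ y ∈ Q₂, ι₂ y ∈ m₂) :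
    (∃ 𝔫 : Ideal B₁, 𝔫.IsMaximal ∧ P₁ ≤ 𝔫 ∧ P₂ ≤ 𝔫) ∨
      (∃ 𝔫 : Ideal B₂, 𝔫.IsMaximal ∧ Q₁ ≤ 𝔫 ∧ Q₂ ≤ 𝔫) := by
  by_contra hcon
  rw [not_or] at hcon
  obtain ⟨hc1, hc2⟩ := hcon
  obtain ⟨e₁, h11, h12⟩ := exists_split_of_no_crossing m₁ m₂ hsub₁ ι₁ P₁ P₂ hP₁ hP₂ hc1
  obtain ⟨e₂, h21, h22⟩ := exists_split_of_no_crossing m₁ m₂ hsub₁ ι₂ Q₁ Q₂ hQ₁ hQ₂ hc2
  exact no_split hπ hj b hb hspan hconst m₁ m₂ hsub₁ hsub₂ hmul₁ hmul₂ hπ₁ hπ₂ h1 hW hm
    (ι₁ e₁) (hB₁ e₁) h11 h12 (ι₂ e₂) (hB₂ e₂) h21 h22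

end Fermat.Agent.S34.NodeExists
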