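/-
S34 ("toric core"), package N5: the NODE LEMMA, part 1 (units).  Mathlib only.

`O` is a domain, `π x y : O` with `x * y = π ^ e`, `P1 ∋ π`, `P2 ∋ π` two prime ideals with
`P1 ∩ P2 = (π)`, `x ∉ P2`, `y ∉ P1`, and `O ⧸ P1` is a discrete valuation ring in which the class
of `y` is a uniformiser.  (Geometrically: `O` is the local ring of an arithmetic surface at an
ordinary double point `x y = π ^ e` of the special fibre, `P1 = (π, x)` and `P2 = (π, y)` are
the two branches.)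

* `sat` : saturation, `T s ∈ (π ^ c)`, `T s' ∈ (π ^ c)`, `s ∉ P1`, `s' ∉ P2` imply `π ^ c ∣ T`;
* `assoc_of_mul_eq_pow` : two divisors of `π ^ N` not in `P1` whose cofactors are not in `P2`
  are associated;
* `eq_unit_mul_pow_y` : a divisor `h` of `π ^ n`, `h ∉ P1`, with cofactor not in `P2`, is
  `u * y ^ j` with `n = e * j`;
* `dvd_pow_structure` : every divisor of a power of `π` is `u * π ^ i * y ^ j` or
  `u * π ^ i * x ^ j`, `u` a unit;
* `unit_structure` : every unit `h` of `O[1/π]` (inside the fraction field) is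
  `u * π ^ I * y ^ J` with `u ∈ Oˣ`, `I J : ℤ`.

This replaces the computation of the local class group `ℤ/e` of the double point.
-/
import Mathlib

set_option autoImplicit false

namespace Fermat.Agent.S34.NodeLemma

section Units

variable {O : Type*} [CommRing O] [IsDomain O]

/-- Saturation of the powers of `π` with respect to the two branches. -/
theorem sat (π : O) (hπ0 : π ≠ 0) (P1 P2 : Ideal O) [hP1 : P1.IsPrime] [hP2 : P2.IsPrime]
    (hπ1 : π ∈ P1) (hπ2 : π ∈ P2) (hP : ∀ a, a ∈ P1 → a ∈ P2 → π ∣ a) :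
    ∀ (c : ℕ) (T s s' : O), s ∉ P1 → s' ∉ P2 → π ^ c ∣ T * s → π ^ c ∣ T * s' → π ^ c ∣ T := by
  intro c
  induction c with
  | zero => intro T s s' _ _ _ _; simp
  | succ c ih =>
    intro T s s' hs hs' h1 h2
    have hT1 : T ∈ P1 := by
      have : T * s ∈ P1 := by
        obtain ⟨d, hd⟩ := h1
        rw [hd, pow_succ]
        exact P1.mul_mem_right _ (P1.mul_mem_left _ hπ1)
      exact (hP1.mem_or_mem this).resolve_right hs
    have hT2 : T ∈ P2 := by
      have : T * s' ∈ P2 := by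
        obtain ⟨d, hd⟩ := h2
        rw [hd, pow_succ]
        exact P2.mul_mem_right _ (P2.mul_mem_left _ hπ2)
      exact (hP2.mem_or_mem this).resolve_right hs'
    obtain ⟨T1, rfl⟩ := hP T hT1 hT2
    have h1' : π ^ c ∣ T1 * s := by
      obtain ⟨d, hd⟩ := h1
      refine ⟨d, ?_⟩
      have : π * (T1 * s) = π * (π ^ c * d) := by rw [← mul_assoc, hd, pow_succ]; ring
      exact mul_left_cancel₀ hπ0 this
    have h2' : π ^ c ∣ T1 * s' := by
      obtain ⟨d, hd⟩ := h2
      refine ⟨d, ?_⟩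
      have : π * (T1 * s') = π * (π ^ c * d) := by rw [← mul_assoc, hd, pow_succ]; ring
      exact mul_left_cancel₀ hπ0 this
    obtain ⟨d, hd⟩ := ih T1 s s' hs hs' h1' h2'
    exact ⟨d, by rw [hd, pow_succ]; ring⟩

/-- Two divisors `A`, `B` of `π ^ N`, not in `P1`, whose cofactors are not in `P2`, are
associated. -/
theorem assoc_of_mul_eq_pow (π : O) (hπ0 : π ≠ 0) (P1 P2 : Ideal O) [hP1 : P1.IsPrime]
    [hP2 : P2.IsPrime] (hπ1 : π ∈ P1) (hπ2 : π ∈ P2) (hP : ∀ a, a ∈ P1 → a ∈ P2 → π ∣ a)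
    (N : ℕ) (A A' B B' : O) (hA : A * A' = π ^ N) (hB : B * B' = π ^ N)
    (hA1 : A ∉ P1) (hB1 : B ∉ P1) (hA2 : A' ∉ P2) (hB2 : B' ∉ P2) :
    ∃ u : Oˣ, A = u * B := by
  have hN0 : π ^ N ≠ 0 := pow_ne_zero _ hπ0
  have hA0 : A ≠ 0 := fun h => hN0 (by rw [← hA, h, zero_mul])
  have hA'0 : A' ≠ 0 := fun h => hN0 (by rw [← hA, h, mul_zero])
  have hB'0 : B' ≠ 0 := fun h => hN0 (by rw [← hB, h, mul_zero])
  -- `B = A * c₀`
  obtain ⟨c₀, hc₀⟩ : π ^ N ∣ B * A' := by
    refine sat π hπ0 P1 P2 hπ1 hπ2 hP N (B * A') A B' hA1 hB2 ⟨B, ?_⟩ ⟨A', ?_⟩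
    · rw [← hA]; ring
    · rw [← hB]; ring
  have hBA : B = A * c₀ := by
    have : A' * B = A' * (A * c₀) := by
      calc A' * B = B * A' := by ring
        _ = π ^ N * c₀ := hc₀
        _ = A * A' * c₀ := by rw [hA]
        _ = A' * (A * c₀) := by ring
    exact mul_left_cancel₀ hA'0 this
  -- `A = B * c₁`
  obtain ⟨c₁, hc₁⟩ : π ^ N ∣ A * B' := by
    refine sat π hπ0 P1 P2 hπ1 hπ2 hP N (A * B') B A' hB1 hA2 ⟨A, ?_⟩ ⟨B', ?_⟩
    · rw [← hB]; ring
    · rw [← hA]; ring
  have hAB : A = B * c₁ := by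
    have : B' * A = B' * (B * c₁) := by
      calc B' * A = A * B' := by ring
        _ = π ^ N * c₁ := hc₁
        _ = B * B' * c₁ := by rw [hB]
        _ = B' * (B * c₁) := by ring
    exact mul_left_cancel₀ hB'0 this
  have hcc : c₁ * c₀ = 1 := by
    have : A * (c₁ * c₀) = A * 1 := by
      calc A * (c₁ * c₀) = (A * c₀) * c₁ := by ring
        _ = B * c₁ := by rw [← hBA]
        _ = A * 1 := by rw [← hAB, mul_one]
    exact mul_left_cancel₀ hA0 this
  refine ⟨⟨c₁, c₀, hcc, by rw [mul_comm]; exact hcc⟩, ?_⟩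
  rw [hAB]
  simp [mul_comm]

/-- In a discrete valuation ring with uniformiser `ϖ`: `a ^ k = c * ϖ ^ n` with `c` a unit and
`a ≠ 0` forces `a = v * ϖ ^ j` with `j * k = n`. -/
theorem dvr_pow_eq {V : Type*} [CommRing V] [IsDomain V] [IsDiscreteValuationRing V] (ϖ : V)
    (hϖ : Irreducible ϖ) (a c : V) (hc : IsUnit c) (ha : a ≠ 0) (k n : ℕ)
    (h : a ^ k = c * ϖ ^ n) : ∃ j : ℕ, j * k = n ∧ ∃ v : Vˣ, a = v * ϖ ^ j := by
  obtain ⟨j, v, hv⟩ := IsDiscreteValuationRing.eq_unit_mul_pow_irreducible ha hϖ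
  refine ⟨j, ?_, v, hv⟩
  obtain ⟨c', rfl⟩ := hc
  have h' : ((v ^ k : Vˣ) : V) * ϖ ^ (j * k) = (c' : V) * ϖ ^ n := by
    rw [← h, hv, mul_pow, ← pow_mul, Units.val_pow_eq_pow_val]
  exact IsDiscreteValuationRing.unit_mul_pow_congr_pow hϖ hϖ (v ^ k) c' (j * k) n h'

variable (π x y : O) (e : ℕ) (he : 1 ≤ e) (hπ0 : π ≠ 0) (P1 P2 : Ideal O) [hP1 : P1.IsPrime]
  [hP2 : P2.IsPrime] (hπ1 : π ∈ P1) (hπ2 : π ∈ P2) (hP : ∀ a, a ∈ P1 → a ∈ P2 → π ∣ a)
  (hxy : x * y = π ^ e) (hx2 : x ∉ P2)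
  [IsDiscreteValuationRing (O ⧸ P1)]
  (hy : Irreducible (Ideal.Quotient.mk P1 y))

include hπ0 hπ1 hπ2 hP hxy hx2 hy in
/-- A divisor `h` of `π ^ n` which does not vanish on the first branch and whose cofactor does
not vanish on the second branch is a unit times a power of `y`. -/
theorem eq_unit_mul_pow_y (n : ℕ) (h h' : O) (hh : h * h' = π ^ n) (h1 : h ∉ P1)
    (h2 : h' ∉ P2) : ∃ (u : Oˣ) (j : ℕ), h = u * y ^ j ∧ n = e * j ∧ h' * u = x ^ j := by
  have hy1 : y ∉ P1 := by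
    intro hmem
    have : Ideal.Quotient.mk P1 y = 0 := Ideal.Quotient.eq_zero_iff_mem.mpr hmem
    exact hy.ne_zero this
  -- step 1: `h ^ e` is associated to `y ^ n`
  obtain ⟨c, hc⟩ := assoc_of_mul_eq_pow π hπ0 P1 P2 hπ1 hπ2 hP (e * n) (h ^ e) (h' ^ e)
    (y ^ n) (x ^ n) (by rw [← mul_pow, hh, ← pow_mul, mul_comm])
    (by rw [← mul_pow, mul_comm y x, hxy, ← pow_mul])
    (fun hm => h1 (hP1.mem_of_pow_mem _ hm)) (fun hm => hy1 (hP1.mem_of_pow_mem _ hm))
    (fun hm => h2 (hP2.mem_of_pow_mem _ hm)) (fun hm => hx2 (hP2.mem_of_pow_mem _ hm))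
  -- reduce to the first branch
  have hred : (Ideal.Quotient.mk P1 h) ^ e
      = Ideal.Quotient.mk P1 (c : O) * (Ideal.Quotient.mk P1 y) ^ n := by
    rw [← map_pow, ← map_pow, ← map_mul, hc]
  have hh0 : Ideal.Quotient.mk P1 h ≠ 0 := fun h0 => h1 (Ideal.Quotient.eq_zero_iff_mem.mp h0)
  obtain ⟨j, hj, -⟩ := dvr_pow_eq (Ideal.Quotient.mk P1 y) hy (Ideal.Quotient.mk P1 h)
    (Ideal.Quotient.mk P1 (c : O)) (c.isUnit.map _) hh0 e n hred
  have hn : n = e * j := by rw [← hj, mul_comm]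
  -- step 2: `h` is associated to `y ^ j`
  obtain ⟨u, hu⟩ := assoc_of_mul_eq_pow π hπ0 P1 P2 hπ1 hπ2 hP n h h' (y ^ j) (x ^ j) hh
    (by rw [← mul_pow, mul_comm y x, hxy, ← pow_mul, hn])
    h1 (fun hm => hy1 (hP1.mem_of_pow_mem _ hm)) h2 (fun hm => hx2 (hP2.mem_of_pow_mem _ hm))
  refine ⟨u, j, hu, hn, ?_⟩
  have hyj0 : y ^ j ≠ 0 := by
    intro h0
    have : y = 0 := pow_eq_zero_iff (n := j) (by
      intro hj0
      rw [hj0, pow_zero] at h0
      exact one_ne_zero h0) |>.mp h0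
    exact hy1 (this ▸ P1.zero_mem)
  have : y ^ j * (h' * u) = y ^ j * x ^ j := by
    calc y ^ j * (h' * u) = (u * y ^ j) * h' := by ring
      _ = π ^ n := by rw [← hu, hh]
      _ = y ^ j * x ^ j := by rw [← mul_pow, mul_comm y x, hxy, ← pow_mul, hn]
  exact mul_left_cancel₀ hyj0 this

include hπ0 hπ1 hπ2 hP hxy hx2 hy in
/-- **Node lemma, integral form.**  Every divisor of a power of `π` is a unit times a monomial
`π ^ i * y ^ j` or `π ^ i * x ^ j`. -/
theorem dvd_pow_structure : ∀ (n : ℕ) (h h' : O), h * h' = π ^ n →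
    ∃ (u : Oˣ) (i j : ℕ), h = u * π ^ i * y ^ j ∨ h = u * π ^ i * x ^ j := by
  intro n
  induction n with
  | zero =>
    intro h h' hh
    rw [pow_zero] at hh
    exact ⟨⟨h, h', hh, by rw [mul_comm]; exact hh⟩, 0, 0, Or.inl (by simp)⟩
  | succ n ih =>
    intro h h' hh
    have hmem1 : h * h' ∈ P1 := by rw [hh, pow_succ]; exact P1.mul_mem_left _ hπ1
    have hmem2 : h * h' ∈ P2 := by rw [hh, pow_succ]; exact P2.mul_mem_left _ hπ2
    -- if `π ∣ h` or `π ∣ h'` we descend
    have descend_left : π ∣ h → ∃ (u : Oˣ) (i j : ℕ), h = u * π ^ i * y ^ j ∨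
        h = u * π ^ i * x ^ j := by
      rintro ⟨h₁, rfl⟩
      have hh1 : h₁ * h' = π ^ n := by
        have : π * (h₁ * h') = π * π ^ n := by rw [← mul_assoc, hh, pow_succ]; ring
        exact mul_left_cancel₀ hπ0 this
      obtain ⟨u, i, j, hij⟩ := ih h₁ h' hh1
      refine ⟨u, i + 1, j, ?_⟩
      rcases hij with hij | hij
      · left; rw [hij]; ring
      · right; rw [hij]; ring
    have descend_right : π ∣ h' → ∃ (u : Oˣ) (i j : ℕ), h = u * π ^ i * y ^ j ∨
        h = u * π ^ i * x ^ j := by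
      rintro ⟨h₁, rfl⟩
      have hh1 : h * h₁ = π ^ n := by
        have : π * (h * h₁) = π * π ^ n := by
          calc π * (h * h₁) = h * (π * h₁) := by ring
            _ = π ^ (n + 1) := hh
            _ = π * π ^ n := by rw [pow_succ]; ring
        exact mul_left_cancel₀ hπ0 this
      exact ih h h₁ hh1
    by_cases h1 : h ∈ P1
    · by_cases h2 : h ∈ P2
      · exact descend_left (hP h h1 h2)
      · have h2' : h' ∈ P2 := (hP2.mem_or_mem hmem2).resolve_left h2
        by_cases h1' : h' ∈ P1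
        · exact descend_right (hP h' h1' h2')
        · -- `h' = u * y ^ j`, `h * u = x ^ j`
          obtain ⟨u, j, -, -, hu⟩ := eq_unit_mul_pow_y π x y e hπ0 P1 P2 hπ1 hπ2 hP hxy hx2 hy
            (n + 1) h' h (by rw [mul_comm]; exact hh) h1' h2
          refine ⟨u⁻¹, 0, j, Or.inr ?_⟩
          rw [pow_zero, mul_one, ← hu]
          simp [mul_comm, mul_assoc]
    · have h1' : h' ∈ P1 := (hP1.mem_or_mem hmem1).resolve_left h1
      by_cases h2' : h' ∈ P2
      · exact descend_right (hP h' h1' h2')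
      · obtain ⟨u, j, hu, -, -⟩ := eq_unit_mul_pow_y π x y e hπ0 P1 P2 hπ1 hπ2 hP hxy hx2 hy
          (n + 1) h h' hh h1 h2'
        exact ⟨u, 0, j, Or.inl (by rw [hu]; ring)⟩

/-- Splitting an integer into a difference of two natural numbers, one of which vanishes. -/
theorem int_split (I : ℤ) : ∃ a b : ℕ, I = (a : ℤ) - b ∧ (a = 0 ∨ b = 0) := by
  rcases le_total 0 I with h | h
  · exact ⟨I.toNat, 0, by simp [Int.toNat_of_nonneg h], Or.inr rfl⟩
  · exact ⟨0, (-I).toNat, by simp [Int.toNat_of_nonneg (neg_nonneg.mpr h)], Or.inl rfl⟩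

include hπ0 hπ1 hπ2 hP hxy hx2 hy in
/-- **Node lemma, units of `O[1/π]`.**  If `h` and `h⁻¹` both become integral after
multiplication by a power of `π`, then `h = u * π ^ I * y ^ J` with `u ∈ Oˣ`. -/
theorem unit_structure {K : Type*} [Field K] [Algebra O K] [IsFractionRing O K]
    (h : K) (hh : h ≠ 0) (N : ℕ) (a b : O) (ha : algebraMap O K a = h * algebraMap O K π ^ N)
    (hb : algebraMap O K b = h⁻¹ * algebraMap O K π ^ N) :
    ∃ (u : Oˣ) (I J : ℤ),
      h = algebraMap O K u * algebraMap O K π ^ I * algebraMap O K y ^ J := by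
  have hinj : Function.Injective (algebraMap O K) := IsFractionRing.injective O K
  have hπK : algebraMap O K π ≠ 0 := fun h0 => hπ0 (hinj (by rw [h0, map_zero]))
  have hy1 : y ∉ P1 := by
    intro hmem
    have : Ideal.Quotient.mk P1 y = 0 := Ideal.Quotient.eq_zero_iff_mem.mpr hmem
    exact hy.ne_zero this
  have hyK : algebraMap O K y ≠ 0 := by
    intro h0
    have : y = 0 := hinj (by rw [h0, map_zero])
    exact hy1 (this ▸ P1.zero_mem)
  have hab : a * b = π ^ (N + N) := by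
    apply hinj
    rw [map_mul, ha, hb, map_pow, pow_add]
    field_simp
  have hhK : h = algebraMap O K a * algebraMap O K π ^ (-(N : ℤ)) := by
    rw [ha, zpow_neg, zpow_natCast]
    field_simp
  obtain ⟨u, i, j, hij | hij⟩ :=
    dvd_pow_structure π x y e hπ0 P1 P2 hπ1 hπ2 hP hxy hx2 hy (N + N) a b hab
  · refine ⟨u, (i : ℤ) - N, j, ?_⟩
    rw [hhK, hij, map_mul, map_mul, map_pow, map_pow, zpow_sub₀ hπK, zpow_natCast, zpow_natCast,
      zpow_natCast, zpow_neg, zpow_natCast]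
    field_simp
  · have hxK : algebraMap O K x = algebraMap O K π ^ e / algebraMap O K y := by
      rw [eq_div_iff hyK, ← map_mul, hxy, map_pow]
    refine ⟨u, (i : ℤ) - N + (e * j : ℕ), -(j : ℤ), ?_⟩
    rw [hhK, hij, map_mul, map_mul, map_pow, map_pow, hxK, zpow_add₀ hπK, zpow_sub₀ hπK,
      zpow_natCast, zpow_natCast, zpow_natCast, zpow_neg, zpow_natCast, zpow_neg, zpow_natCast,
      div_pow, ← pow_mul]
    field_simp

include hπ0 hπ1 hπ2 hP hxy hx2 hy in
/-- **Node lemma, factorisation.**  Let `f = h * ∏ (y - η i) ^ (m * (kp i - kn i))` with `h` a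
unit of `O[1/π]` and `η i ∈ P1` (the `y - η i` are local equations of sections through the
double point).  If `f ≡ 1` on the first branch (`f = c / d`, `c ≡ d ≢ 0 mod P1`), then
`f = u * G ^ m` with `u ∈ Oˣ` and `G = ∏ ((y - η i) / y) ^ (kp i - kn i)`. -/
theorem node_factor {K : Type*} [Field K] [Algebra O K] [IsFractionRing O K]
    {ι : Type*} (s : Finset ι) (η : ι → O) (hη : ∀ i ∈ s, η i ∈ P1) (kp kn : ι → ℕ) (m : ℕ)
    (f h : K) (hh : h ≠ 0) (N : ℕ) (a b : O)
    (ha : algebraMap O K a = h * algebraMap O K π ^ N)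
    (hb : algebraMap O K b = h⁻¹ * algebraMap O K π ^ N)
    (hf : f * algebraMap O K (∏ i ∈ s, (y - η i) ^ (m * kn i))
      = h * algebraMap O K (∏ i ∈ s, (y - η i) ^ (m * kp i)))
    (c d : O) (hc : c ∉ P1) (hcd : c - d ∈ P1)
    (hfcd : f * algebraMap O K d = algebraMap O K c) :
    ∃ u : Oˣ,
      f * (algebraMap O K (∏ i ∈ s, (y - η i) ^ kn i) * algebraMap O K y ^ (∑ i ∈ s, kp i)) ^ m
        = algebraMap O K u *
          (algebraMap O K (∏ i ∈ s, (y - η i) ^ kp i) * algebraMap O K y ^ (∑ i ∈ s, kn i)) ^ m := by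
  classical
  have hinj : Function.Injective (algebraMap O K) := IsFractionRing.injective O K
  have hπK : algebraMap O K π ≠ 0 := fun h0 => hπ0 (hinj (by rw [h0, map_zero]))
  have hy1 : y ∉ P1 := by
    intro hmem
    have : Ideal.Quotient.mk P1 y = 0 := Ideal.Quotient.eq_zero_iff_mem.mpr hmem
    exact hy.ne_zero this
  have hyK : algebraMap O K y ≠ 0 := by
    intro h0
    have : y = 0 := hinj (by rw [h0, map_zero])
    exact hy1 (this ▸ P1.zero_mem)
  have hd : d ∉ P1 := by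
    intro hd
    apply hc
    have : c = (c - d) + d := by ring
    rw [this]
    exact P1.add_mem hcd hd
  -- the products
  have hprod : ∀ k : ι → ℕ, ∏ i ∈ s, (y - η i) ^ (m * k i) = (∏ i ∈ s, (y - η i) ^ k i) ^ m := by
    intro k
    rw [← Finset.prod_pow]
    exact Finset.prod_congr rfl fun i _ => by rw [mul_comm, pow_mul]
  have hmk : ∀ k : ι → ℕ, Ideal.Quotient.mk P1 (∏ i ∈ s, (y - η i) ^ k i)
      = Ideal.Quotient.mk P1 y ^ (∑ i ∈ s, k i) := by
    intro k
    rw [map_prod, ← Finset.prod_pow_eq_pow_sum]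
    refine Finset.prod_congr rfl fun i hi => ?_
    rw [map_pow, map_sub, Ideal.Quotient.eq_zero_iff_mem.mpr (hη i hi), sub_zero]
  have hnot : ∀ k : ι → ℕ, ∏ i ∈ s, (y - η i) ^ k i ∉ P1 := by
    intro k hmem
    have h0 : Ideal.Quotient.mk P1 (∏ i ∈ s, (y - η i) ^ k i) = 0 :=
      Ideal.Quotient.eq_zero_iff_mem.mpr hmem
    rw [hmk k] at h0
    exact hy.ne_zero (pow_eq_zero_iff (n := (∑ i ∈ s, k i) + 1) (Nat.succ_ne_zero _) |>.mp
      (by rw [pow_succ, h0, zero_mul]))
  set Gp := ∏ i ∈ s, (y - η i) ^ kp i with hGp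
  set Gn := ∏ i ∈ s, (y - η i) ^ kn i with hGn
  rw [hprod kn] at hf
  rw [hprod kp] at hf
  -- the unit
  obtain ⟨u, I, J, hu⟩ := unit_structure π x y e hπ0 P1 P2 hπ1 hπ2 hP hxy hx2 hy h hh N a b ha hb
  obtain ⟨Ip, In, rfl, hI⟩ := int_split I
  obtain ⟨Jp, Jn, rfl, hJ⟩ := int_split J
  -- the identity in `O`
  have hE : c * Gn ^ m * π ^ In * y ^ Jn = d * u * π ^ Ip * y ^ Jp * Gp ^ m := by
    apply hinj
    have h1 : algebraMap O K c * algebraMap O K (Gn ^ m)
        = algebraMap O K d * h * algebraMap O K (Gp ^ m) := by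
      rw [← hfcd]
      calc f * algebraMap O K d * algebraMap O K (Gn ^ m)
          = (f * algebraMap O K (Gn ^ m)) * algebraMap O K d := by ring
        _ = h * algebraMap O K (Gp ^ m) * algebraMap O K d := by rw [hf]
        _ = algebraMap O K d * h * algebraMap O K (Gp ^ m) := by ring
    have h2 : h * (algebraMap O K π ^ In * algebraMap O K y ^ Jn)
        = algebraMap O K u * algebraMap O K π ^ Ip * algebraMap O K y ^ Jp := by
      rw [hu, zpow_sub₀ hπK, zpow_sub₀ hyK, zpow_natCast, zpow_natCast, zpow_natCast,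
        zpow_natCast]
      field_simp
    simp only [map_mul, map_pow]
    simp only [map_pow] at h1
    calc algebraMap O K c * algebraMap O K Gn ^ m * algebraMap O K π ^ In * algebraMap O K y ^ Jn
        = (algebraMap O K c * algebraMap O K Gn ^ m)
            * (algebraMap O K π ^ In * algebraMap O K y ^ Jn) := by ring
      _ = algebraMap O K d * h * algebraMap O K Gp ^ m
            * (algebraMap O K π ^ In * algebraMap O K y ^ Jn) := by rw [h1]
      _ = algebraMap O K d * (h * (algebraMap O K π ^ In * algebraMap O K y ^ Jn))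
            * algebraMap O K Gp ^ m := by ring
      _ = algebraMap O K d * (algebraMap O K u * algebraMap O K π ^ Ip * algebraMap O K y ^ Jp)
            * algebraMap O K Gp ^ m := by rw [h2]
      _ = algebraMap O K d * algebraMap O K u * algebraMap O K π ^ Ip * algebraMap O K y ^ Jp
            * algebraMap O K Gp ^ m := by ring
  have hu1 : (u : O) ∉ P1 := fun hm => hP1.ne_top (Ideal.eq_top_of_isUnit_mem _ hm u.isUnit)
  have hpow1 : ∀ (z : O) (n : ℕ), z ∉ P1 → z ^ n ∉ P1 := fun z n hz hm =>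
    hz (hP1.mem_of_pow_mem _ hm)
  have hmul1 : ∀ z w : O, z ∉ P1 → w ∉ P1 → z * w ∉ P1 := fun z w hz hw hm =>
    (hP1.mem_or_mem hm).elim hz hw
  -- `In = 0`
  have hIn : In = 0 := by
    by_contra hne
    have hIp : Ip = 0 := hI.resolve_right hne
    have hL : c * Gn ^ m * π ^ In * y ^ Jn ∈ P1 := by
      refine P1.mul_mem_right _ (P1.mul_mem_left _ ?_)
      obtain ⟨n', rfl⟩ := Nat.exists_eq_succ_of_ne_zero hne
      rw [pow_succ]
      exact P1.mul_mem_left _ hπ1
    rw [hE, hIp, pow_zero, mul_one] at hL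
    exact hmul1 _ _ (hmul1 _ _ (hmul1 _ _ hd hu1) (hpow1 _ _ hy1)) (hpow1 _ _ (hnot kp)) hL
  have hIp : Ip = 0 := by
    by_contra hne
    have hR : d * u * π ^ Ip * y ^ Jp * Gp ^ m ∈ P1 := by
      refine P1.mul_mem_right _ (P1.mul_mem_right _ (P1.mul_mem_left _ ?_))
      obtain ⟨n', rfl⟩ := Nat.exists_eq_succ_of_ne_zero hne
      rw [pow_succ]
      exact P1.mul_mem_left _ hπ1
    rw [← hE, hIn, pow_zero, mul_one] at hR
    exact hmul1 _ _ (hmul1 _ _ hc (hpow1 _ _ (hnot kn))) (hpow1 _ _ hy1) hR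
  -- reduction to the first branch
  have hcd' : Ideal.Quotient.mk P1 c = Ideal.Quotient.mk P1 d :=
    Ideal.Quotient.eq.mpr hcd
  have hd0 : Ideal.Quotient.mk P1 d ≠ 0 := fun h0 => hd (Ideal.Quotient.eq_zero_iff_mem.mp h0)
  have hred := congrArg (Ideal.Quotient.mk P1) hE
  rw [hIn, hIp] at hred
  have hGp' : Ideal.Quotient.mk P1 Gp = Ideal.Quotient.mk P1 y ^ (∑ i ∈ s, kp i) := hmk kp
  have hGn' : Ideal.Quotient.mk P1 Gn = Ideal.Quotient.mk P1 y ^ (∑ i ∈ s, kn i) := hmk kn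
  simp only [pow_zero, mul_one, map_mul, map_pow, hGp', hGn', hcd'] at hred
  have hred' : ((Units.map (Ideal.Quotient.mk P1 : O →* O ⧸ P1) u : (O ⧸ P1)ˣ) : O ⧸ P1)
        * Ideal.Quotient.mk P1 y ^ (Jp + m * ∑ i ∈ s, kp i)
      = ((1 : (O ⧸ P1)ˣ) : O ⧸ P1) * Ideal.Quotient.mk P1 y ^ (Jn + m * ∑ i ∈ s, kn i) := by
    apply mul_left_cancel₀ hd0
    rw [Units.val_one, one_mul, Units.coe_map, MonoidHom.coe_coe, pow_add, pow_add, pow_mul',
      pow_mul']
    linear_combination -hred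
  have hexp : Jp + m * ∑ i ∈ s, kp i = Jn + m * ∑ i ∈ s, kn i :=
    IsDiscreteValuationRing.unit_mul_pow_congr_pow hy hy _ _ _ _ hred'
  -- conclusion
  refine ⟨u, ?_⟩
  have hu' : h = algebraMap O K u * algebraMap O K y ^ ((Jp : ℤ) - Jn) := by
    rw [hu, hIn, hIp]
    simp
  have e1 : (algebraMap O K Gn * algebraMap O K y ^ (∑ i ∈ s, kp i)) ^ m
      = algebraMap O K (Gn ^ m) * algebraMap O K y ^ ((∑ i ∈ s, kp i) * m) := by
    rw [mul_pow, ← pow_mul, map_pow]
  have e2 : (algebraMap O K Gp * algebraMap O K y ^ (∑ i ∈ s, kn i)) ^ m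
      = algebraMap O K (Gp ^ m) * algebraMap O K y ^ ((∑ i ∈ s, kn i) * m) := by
    rw [mul_pow, ← pow_mul, map_pow]
  rw [e1, e2]
  calc f * (algebraMap O K (Gn ^ m) * algebraMap O K y ^ ((∑ i ∈ s, kp i) * m))
      = (f * algebraMap O K (Gn ^ m)) * algebraMap O K y ^ ((∑ i ∈ s, kp i) * m) := by ring
    _ = h * algebraMap O K (Gp ^ m) * algebraMap O K y ^ ((∑ i ∈ s, kp i) * m) := by rw [hf]
    _ = algebraMap O K u * (algebraMap O K (Gp ^ m)
          * (algebraMap O K y ^ ((Jp : ℤ) - Jn) * algebraMap O K y ^ ((∑ i ∈ s, kp i) * m))) := by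
        rw [hu']; ring
    _ = algebraMap O K u * (algebraMap O K (Gp ^ m)
          * algebraMap O K y ^ ((∑ i ∈ s, kn i) * m)) := by
        congr 2
        rw [← zpow_natCast, ← zpow_natCast, ← zpow_add₀ hyK]
        congr 1
        push_cast
        have := congrArg (Nat.cast : ℕ → ℤ) hexp
        push_cast at this
        linarith

end Units

section Sections

variable {O : Type*} [CommRing O] [IsLocalRing O] [IsNoetherianRing O]

/-- **Sections through the double point.**  A prime `Q ∌ π` of the local ring `O` with maximal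
ideal `(π, x, y)` which contains `y - η` and `x - η'`, `η, η' ∈ (π)`, is generated by these two
elements (Nakayama). -/
theorem section_eq_span (π x y : O) (hm : IsLocalRing.maximalIdeal O = Ideal.span {π, x, y})
    (Q : Ideal O) [hQ : Q.IsPrime] (hπQ : π ∉ Q) (η η' : O) (hη : π ∣ η) (hη' : π ∣ η')
    (h1 : y - η ∈ Q) (h2 : x - η' ∈ Q) : Q = Ideal.span {y - η, x - η'} := by
  have hπm : π ∈ IsLocalRing.maximalIdeal O := by
    rw [hm]
    exact Ideal.subset_span (by simp)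
  apply le_antisymm
  · refine Submodule.le_of_le_smul_of_le_jacobson_bot (I := Ideal.span {π}) (N' := Q)
      (N := Ideal.span {y - η, x - η'}) (IsNoetherian.noetherian Q) ?_ ?_
    · rw [IsLocalRing.jacobson_eq_maximalIdeal ⊥ bot_ne_top, Ideal.span_le]
      intro z hz
      rw [Set.mem_singleton_iff.mp hz]
      exact hπm
    · intro b hb
      have hbm : b ∈ IsLocalRing.maximalIdeal O := IsLocalRing.le_maximalIdeal hQ.ne_top hb
      rw [hm, Ideal.mem_span_insert] at hbm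
      obtain ⟨b1, z, hz, rfl⟩ := hbm
      rw [Ideal.mem_span_pair] at hz
      obtain ⟨b2, b3, rfl⟩ := hz
      obtain ⟨η₁, rfl⟩ := hη
      obtain ⟨η₁', rfl⟩ := hη'
      set b' := b1 + b2 * η₁' + b3 * η₁ with hb'
      have hsplit : b1 * π + (b2 * x + b3 * y)
          = (b3 * (y - π * η₁) + b2 * (x - π * η₁')) + π * b' := by
        rw [hb']; ring
      have hb'Q : b' ∈ Q := by
        have hπb : π * b' ∈ Q := by
          have : π * b' = (b1 * π + (b2 * x + b3 * y))
              - (b3 * (y - π * η₁) + b2 * (x - π * η₁')) := by rw [hsplit]; ring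
          rw [this]
          exact Q.sub_mem hb (Q.add_mem (Q.mul_mem_left _ h1) (Q.mul_mem_left _ h2))
        exact (hQ.mem_or_mem hπb).resolve_left hπQ
      rw [hsplit]
      refine Submodule.add_mem_sup ?_ ?_
      · exact Ideal.mem_span_pair.mpr ⟨b3, b2, rfl⟩
      · exact Submodule.smul_mem_smul (Ideal.mem_span_singleton_self π) hb'Q
  · rw [Ideal.span_le]
    intro z hz
    rcases hz with rfl | rfl
    · exact h1
    · exact h2

/-- In the situation of `section_eq_span`, with `x * y = π ^ e = η * η'`: the single element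
`y - η` generates `Q` after inverting `π`. -/
theorem section_dvd (π x y : O) (e : ℕ) (hm : IsLocalRing.maximalIdeal O = Ideal.span {π, x, y})
    (hxy : x * y = π ^ e)
    (Q : Ideal O) [hQ : Q.IsPrime] (hπQ : π ∉ Q) (η η' : O) (hη : π ∣ η) (hη' : π ∣ η')
    (hηη' : η * η' = π ^ e) (h1 : y - η ∈ Q) (h2 : x - η' ∈ Q) (b : O) (hb : b ∈ Q) :
    (y - η) ∣ π ^ e * b := by
  rw [section_eq_span π x y hm Q hπQ η η' hη hη' h1 h2, Ideal.mem_span_pair] at hb
  obtain ⟨c1, c2, rfl⟩ := hb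
  refine ⟨π ^ e * c1 - c2 * η' * x, ?_⟩
  have h3 : η * (x - η') = -(x * (y - η)) := by
    have : η * (x - η') = η * x - η * η' := by ring
    rw [this, hηη', ← hxy]; ring
  calc π ^ e * (c1 * (y - η) + c2 * (x - η'))
      = π ^ e * c1 * (y - η) + c2 * η' * (η * (x - η')) := by rw [← hηη']; ring
    _ = (y - η) * (π ^ e * c1 - c2 * η' * x) := by rw [h3]; ring

end Sections

end Fermat.Agent.S34.NodeLemma
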