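import Mathlib

/-!
# S34: residue constants

`exists_const_of_pow` : `W` a discrete valuation ring with algebraically closed residue field,
`F` a field over `W` with a valuation `v` which is `≤ 1` on `W` and `< 1` at a uniformiser.
If `z ^ m` is congruent to a constant `c₀ ∈ W` modulo the maximal ideal of `v` (`m > 0`), then
`z` itself is congruent to a constant `c ∈ W`.

Proof: `X ^ m - c̄₀` splits over the residue field of `W`; lift its roots `ρ_i` to `W`; then
`X ^ m - c₀ - ∏ (X - ρ_i)` is divisible by the uniformiser, so `∏ (z - ρ_i)` has valuation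
`< 1` and one of the factors has valuation `< 1`.
-/

set_option autoImplicit false

namespace Fermat.Agent.S34.ResConst

open Polynomial

/-- A polynomial with coefficients in `W` takes values of valuation `≤ 1` at points of
valuation `≤ 1`. -/
theorem val_aeval_le_one {W F : Type*} [CommRing W] [Field F] [Algebra W F] {Γ : Type*}
    [LinearOrderedCommGroupWithZero Γ] (v : Valuation F Γ)
    (hv : ∀ a : W, v (algebraMap W F a) ≤ 1) (z : F) (hz : v z ≤ 1) (Q : W[X]) :
    v (aeval z Q) ≤ 1 := by
  rw [aeval_eq_sum_range]
  refine v.map_sum_le fun i _ => ?_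
  rw [Algebra.smul_def, map_mul, map_pow]
  exact mul_le_one' (hv _) (pow_le_one' hz i)

/-- If a product has valuation `< 1`, one of its factors has valuation `< 1`. -/
theorem exists_val_lt_one_of_prod {F : Type*} [Field F] {Γ : Type*}
    [LinearOrderedCommGroupWithZero Γ] (v : Valuation F Γ) (s : Multiset F)
    (h : v s.prod < 1) : ∃ x ∈ s, v x < 1 := by
  induction s using Multiset.induction_on with
  | empty =>
    rw [Multiset.prod_zero, map_one] at h
    exact absurd h (lt_irrefl _)
  | cons a s ih =>
    rw [Multiset.prod_cons, map_mul] at h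
    by_cases ha : v a < 1
    · exact ⟨a, Multiset.mem_cons_self a s, ha⟩
    · by_cases hs : v s.prod < 1
      · obtain ⟨x, hx, hx1⟩ := ih hs
        exact ⟨x, Multiset.mem_cons_of_mem hx, hx1⟩
      · exact absurd h (not_lt.mpr (one_le_mul_of_one_le_of_one_le (not_lt.mp ha) (not_lt.mp hs)))

/-- **Residue constants.**  If `z ^ m ≡ c₀` modulo the maximal ideal of `v` with `c₀ ∈ W` and
`m > 0`, then `z ≡ c` for some `c ∈ W` (the residue field of `W` is algebraically closed). -/
theorem exists_const_of_pow {W F : Type*} [CommRing W] [IsDomain W] [IsDiscreteValuationRing W]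
    [IsAlgClosed (IsLocalRing.ResidueField W)] [Field F] [Algebra W F] {Γ : Type*}
    [LinearOrderedCommGroupWithZero Γ] (v : Valuation F Γ) (π : W) (hπ : Irreducible π)
    (hv : ∀ a : W, v (algebraMap W F a) ≤ 1) (hvπ : v (algebraMap W F π) < 1) (m : ℕ)
    (hm : 0 < m) (z : F) (c₀ : W) (h : v (z ^ m - algebraMap W F c₀) < 1) :
    ∃ c : W, v (z - algebraMap W F c) < 1 := by
  classical
  -- `v z ≤ 1`
  have hz : v z ≤ 1 := by
    by_contra hlt
    rw [not_le] at hlt
    have h1 : 1 < v (z ^ m) := by
      rw [map_pow]
      exact one_lt_pow₀ hlt hm.ne'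
    have h2 : v (algebraMap W F c₀) < v (z ^ m) := lt_of_le_of_lt (hv c₀) h1
    have h3 : v (z ^ m - algebraMap W F c₀) = v (z ^ m) := Valuation.map_sub_eq_of_lt_left v h2
    rw [h3] at h
    exact absurd h (not_lt.mpr h1.le)
  -- the residue polynomial splits
  have hres : Function.Surjective (IsLocalRing.residue W) := IsLocalRing.residue_surjective
  set pbar : (IsLocalRing.ResidueField W)[X] := X ^ m - C (IsLocalRing.residue W c₀) with hpbar
  have hmonic : pbar.Monic := monic_X_pow_sub_C _ hm.ne'
  have hprod := (IsAlgClosed.splits pbar).eq_prod_roots_of_monic hmonic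
  -- lift the roots
  choose lift hlift using hres
  set rts : Multiset W := pbar.roots.map lift with hrts
  set P : W[X] := X ^ m - C c₀ - (rts.map fun ρ => X - C ρ).prod with hP
  have hPmap : P.map (IsLocalRing.residue W) = 0 := by
    have e : ((rts.map fun ρ => X - C ρ).prod).map (IsLocalRing.residue W) =
        (pbar.roots.map fun a => X - C a).prod := by
      rw [Polynomial.map_multiset_prod, hrts, Multiset.map_map, Multiset.map_map]
      congr 1
      refine Multiset.map_congr rfl fun a _ => ?_
      simp only [Function.comp_apply, Polynomial.map_sub, Polynomial.map_X, Polynomial.map_C,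
        hlift]
    rw [hP, Polynomial.map_sub, e, ← hprod, hpbar, Polynomial.map_sub, Polynomial.map_pow,
      Polynomial.map_X, Polynomial.map_C, sub_self]
  -- so the uniformiser divides `P`
  have hdiv : C π ∣ P := by
    rw [Polynomial.C_dvd_iff_dvd_coeff]
    intro i
    have h0 : IsLocalRing.residue W (P.coeff i) = 0 := by
      rw [← Polynomial.coeff_map, hPmap, Polynomial.coeff_zero]
    have hmem := (IsLocalRing.residue_eq_zero_iff _).mp h0
    rw [hπ.maximalIdeal_eq, Ideal.mem_span_singleton] at hmem
    exact hmem
  obtain ⟨Q, hQ⟩ := hdiv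
  -- evaluate at `z`
  have heval : aeval z P = algebraMap W F π * aeval z Q := by
    rw [hQ, map_mul, aeval_C]
  have hev : aeval z ((rts.map fun ρ => X - C ρ).prod) =
      (rts.map fun ρ => z - algebraMap W F ρ).prod := by
    rw [map_multiset_prod, Multiset.map_map]
    congr 1
    refine Multiset.map_congr rfl fun ρ _ => ?_
    simp only [Function.comp_apply, map_sub, aeval_X, aeval_C]
  have hprodz : (rts.map fun ρ => z - algebraMap W F ρ).prod =
      (z ^ m - algebraMap W F c₀) - algebraMap W F π * aeval z Q := by
    rw [← heval, hP, map_sub, map_sub, map_pow, aeval_X, aeval_C, hev]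
    ring
  have hlt : v ((rts.map fun ρ => z - algebraMap W F ρ).prod) < 1 := by
    rw [hprodz]
    refine lt_of_le_of_lt (v.map_sub _ _) (max_lt h ?_)
    rw [map_mul]
    exact mul_lt_one_of_lt_of_le hvπ (val_aeval_le_one v hv z hz Q)
  obtain ⟨x, hx, hx1⟩ := exists_val_lt_one_of_prod v _ hlt
  obtain ⟨ρ, -, rfl⟩ := Multiset.mem_map.mp hx
  exact ⟨ρ, hx1⟩

end Fermat.Agent.S34.ResConst
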