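import Mathlib

/-!
# S34 package A5 (TwoExt): two extensions of a discrete valuation

`O` a discrete valuation ring with fraction field `K` and uniformiser `π`, `E / K` a finite
separable extension, `V₁ ≠ V₂` valuation subrings of `E` containing `O` in which `π` is not
invertible, with residually independent families of sizes `m₁`, `m₂`, `[E : K] ≤ m₁ + m₂`.
Then `e₁ = e₂ = 1`, `fᵢ = mᵢ`, there is no third extension, and the integral closure of `O`
in `E` is `V₁ ∩ V₂`.
-/

set_option autoImplicit false

namespace Fermat.Agent.S34.TwoExt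

open IsLocalRing

section Centre

variable {C E : Type*} [CommRing C] [Field E] [Algebra C E]

/-- The inclusion of `C` into a valuation subring containing its image. -/
def toV (V : ValuationSubring E) (hV : ∀ c : C, algebraMap C E c ∈ V) : C →+* V :=
  (algebraMap C E).codRestrict V.toSubring hV

@[simp] lemma coe_toV (V : ValuationSubring E) (hV : ∀ c : C, algebraMap C E c ∈ V) (c : C) :
    ((toV V hV c : V) : E) = algebraMap C E c := rfl

/-- The centre on `C` of a valuation subring containing the image of `C`. -/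
def centre (V : ValuationSubring E) (hV : ∀ c : C, algebraMap C E c ∈ V) : Ideal C :=
  (maximalIdeal V).comap (toV V hV)

instance centre_isPrime (V : ValuationSubring E) (hV : ∀ c : C, algebraMap C E c ∈ V) :
    (centre V hV).IsPrime :=
  Ideal.comap_isPrime _ _

lemma mem_centre_iff (V : ValuationSubring E) (hV : ∀ c : C, algebraMap C E c ∈ V) (c : C) :
    c ∈ centre V hV ↔ V.valuation (algebraMap C E c) < 1 := by
  rw [centre, Ideal.mem_comap, ValuationSubring.valuation_lt_one_iff, coe_toV]

lemma valuation_eq_one_of_notMem (V : ValuationSubring E) (hV : ∀ c : C, algebraMap C E c ∈ V)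
    {c : C} (hc : c ∉ centre V hV) : V.valuation (algebraMap C E c) = 1 := by
  rw [mem_centre_iff, not_lt] at hc
  exact le_antisymm ((V.valuation_le_one_iff _).2 (hV c)) hc

/-- Elements `a / s` with `s` outside the centre lie in `V`. -/
lemma mem_of_mul_eq (V : ValuationSubring E) (hV : ∀ c : C, algebraMap C E c ∈ V)
    {x : E} {a s : C} (hs : s ∉ centre V hV) (h : x * algebraMap C E s = algebraMap C E a) :
    x ∈ V := by
  rw [← V.valuation_le_one_iff]
  have h1 := valuation_eq_one_of_notMem V hV hs
  have h2 : V.valuation (x * algebraMap C E s) ≤ 1 := by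
    rw [h]; exact (V.valuation_le_one_iff _).2 (hV a)
  rwa [map_mul, h1, mul_one] at h2

/-- Elements `a / s` with `a` in the centre and `s` outside are non-units of `V`. -/
lemma mem_nonunits_of_mul_eq (V : ValuationSubring E) (hV : ∀ c : C, algebraMap C E c ∈ V)
    {x : E} {a s : C} (ha : a ∈ centre V hV) (hs : s ∉ centre V hV)
    (h : x * algebraMap C E s = algebraMap C E a) : x ∈ V.nonunits := by
  rw [ValuationSubring.mem_nonunits_iff]
  have h1 := valuation_eq_one_of_notMem V hV hs
  have h2 : V.valuation (x * algebraMap C E s) < 1 := by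
    rw [h]; exact (mem_centre_iff V hV a).1 ha
  rwa [map_mul, h1, mul_one] at h2

variable [IsDedekindDomain C] [IsFractionRing C E]

/-- **Key lemma**: a valuation subring containing a Dedekind domain `C` (with fraction field `E`)
whose centre is nonzero is the localisation of `C` at its centre. -/
theorem exists_mul_eq (V : ValuationSubring E) (hV : ∀ c : C, algebraMap C E c ∈ V)
    (hP : centre V hV ≠ ⊥) {x : E} (hx : x ∈ V) :
    ∃ a s : C, s ∉ centre V hV ∧ x * algebraMap C E s = algebraMap C E a := by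
  set P := centre V hV with hPdef
  have hdvr : IsDiscreteValuationRing (Localization.AtPrime P) :=
    IsLocalization.AtPrime.isDiscreteValuationRing_of_dedekind_domain C hP _
  obtain ⟨a₀, b₀, hb₀, rfl⟩ := IsFractionRing.div_surjective (A := C) x
  have hb₀' : b₀ ≠ 0 := nonZeroDivisors.ne_zero hb₀
  have hb₀E : algebraMap C E b₀ ≠ 0 := by
    simpa using (IsFractionRing.injective C E).ne hb₀'
  have hinj : Function.Injective (algebraMap C (Localization.AtPrime P)) :=
    IsLocalization.injective _ P.primeCompl_le_nonZeroDivisors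
  obtain ⟨c, hc⟩ := ValuationRing.cond (algebraMap C (Localization.AtPrime P) a₀)
    (algebraMap C (Localization.AtPrime P) b₀)
  obtain ⟨c₁, s₁, rfl⟩ := IsLocalization.exists_mk'_eq P.primeCompl c
  have hs₁ : (s₁ : C) ∉ P := s₁.2
  rcases hc with hc | hc
  · -- a₀ * (c₁ / s₁) = b₀, i.e. a₀ c₁ = b₀ s₁
    have hC : a₀ * c₁ = b₀ * s₁ := by
      apply hinj
      rw [map_mul, map_mul, ← hc, mul_assoc, IsLocalization.mk'_spec]
    have hE : algebraMap C E a₀ / algebraMap C E b₀ * algebraMap C E c₁ = algebraMap C E s₁ := by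
      rw [div_mul_eq_mul_div, ← map_mul, hC, map_mul, mul_div_cancel_left₀ _ hb₀E]
    by_cases hc₁ : c₁ ∈ P
    · exfalso
      have hlt : V.valuation (algebraMap C E c₁) < 1 := (mem_centre_iff V hV c₁).1 hc₁
      have hle : V.valuation (algebraMap C E a₀ / algebraMap C E b₀) ≤ 1 :=
        (V.valuation_le_one_iff _).2 hx
      have h1 := valuation_eq_one_of_notMem V hV hs₁
      rw [← hE, map_mul] at h1
      have : V.valuation (algebraMap C E a₀ / algebraMap C E b₀) *
          V.valuation (algebraMap C E c₁) < 1 := by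
        calc _ ≤ 1 * V.valuation (algebraMap C E c₁) := mul_le_mul_left hle _
          _ = V.valuation (algebraMap C E c₁) := one_mul _
          _ < 1 := hlt
      exact absurd h1 this.ne
    · exact ⟨s₁, c₁, hc₁, hE⟩
  · -- b₀ * (c₁ / s₁) = a₀, i.e. b₀ c₁ = a₀ s₁
    have hC : b₀ * c₁ = a₀ * s₁ := by
      apply hinj
      rw [map_mul, map_mul, ← hc, mul_assoc, IsLocalization.mk'_spec]
    refine ⟨c₁, s₁, hs₁, ?_⟩
    rw [div_mul_eq_mul_div, ← map_mul, ← hC, map_mul, mul_div_cancel_left₀ _ hb₀E]

end Centre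


section Main

variable {O : Type*} (K : Type*) {E : Type*} [CommRing O] [IsDomain O] [IsDiscreteValuationRing O]
  [Field K] [Field E] [Algebra O K] [IsFractionRing O K] [Algebra K E] [Algebra O E]
  [IsScalarTower O K E]

omit [IsDomain O] [IsDiscreteValuationRing O] in
/-- A valuation subring containing the image of `O` contains every element integral over `O`. -/
lemma mem_of_isIntegral (V : ValuationSubring E) (hV : ∀ a : O, algebraMap O E a ∈ V) {x : E}
    (hx : IsIntegral O x) : x ∈ V := by
  let _ : Algebra O V := ((algebraMap O E).codRestrict V.toSubring hV).toAlgebra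
  have : IsScalarTower O V E := IsScalarTower.of_algebraMap_eq (fun _ => rfl)
  have h1 : IsIntegral V x := hx.tower_top
  obtain ⟨y, rfl⟩ := IsIntegrallyClosed.isIntegral_iff.mp h1
  exact y.2

/-- The standing hypotheses of the two-extension count. `O` is a discrete valuation ring with
fraction field `K` and uniformiser `π`, `E / K` a finite separable extension, `V₁ ≠ V₂` two
valuation subrings of `E` containing `O` in which `π` is not invertible, `b₁` a family of
`m₁` elements of `V₁` and `b₂` a family of `m₂` elements of `V₂` whose residues are linearly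
independent over the residue field of `O`, where `[E : K] ≤ m₁ + m₂`. -/
structure Hyp (π : O) (V₁ V₂ : ValuationSubring E) {m₁ m₂ : ℕ} (b₁ : Fin m₁ → E)
    (b₂ : Fin m₂ → E) : Prop where
  irreducible : Irreducible π
  le₁ : ∀ a : O, algebraMap O E a ∈ V₁
  le₂ : ∀ a : O, algebraMap O E a ∈ V₂
  inv_notMem₁ : (algebraMap O E π)⁻¹ ∉ V₁
  inv_notMem₂ : (algebraMap O E π)⁻¹ ∉ V₂
  ne : V₁ ≠ V₂
  mem₁ : ∀ i, b₁ i ∈ V₁
  indep₁ : ∀ c : Fin m₁ → O, (∑ i, algebraMap O E (c i) * b₁ i) ∈ V₁.nonunits →
    ∀ i, c i ∈ maximalIdeal O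
  mem₂ : ∀ i, b₂ i ∈ V₂
  indep₂ : ∀ c : Fin m₂ → O, (∑ i, algebraMap O E (c i) * b₂ i) ∈ V₂.nonunits →
    ∀ i, c i ∈ maximalIdeal O
  finrank_le : Module.finrank K E ≤ m₁ + m₂

variable {K}

omit [IsDomain O] [IsDiscreteValuationRing O] in
/-- The integral closure of `O` in `E` lies in every valuation subring containing `O`. -/
lemma closure_le (V : ValuationSubring E) (hV : ∀ a : O, algebraMap O E a ∈ V)
    (c : integralClosure O E) : algebraMap (integralClosure O E) E c ∈ V :=
  mem_of_isIntegral V hV c.2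

omit [IsDomain O] [IsDiscreteValuationRing O] in
lemma valuation_pi_lt_one {π : O} (V : ValuationSubring E)
    (hinv : (algebraMap O E π)⁻¹ ∉ V) : V.valuation (algebraMap O E π) < 1 := by
  by_contra h
  rw [not_lt] at h
  apply hinv
  rw [← V.valuation_le_one_iff, map_inv₀]
  exact inv_le_one_of_one_le₀ h

/-- The centre of `V` on the integral closure lies over the maximal ideal of `O`. -/
lemma centre_under {π : O} (hπ : Irreducible π) (V : ValuationSubring E)
    (hV : ∀ a : O, algebraMap O E a ∈ V) (hinv : (algebraMap O E π)⁻¹ ∉ V) :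
    (centre V (closure_le V hV)).under O = maximalIdeal O := by
  have hlt := valuation_pi_lt_one V hinv
  ext a
  rw [Ideal.mem_comap, mem_centre_iff]
  have hmap : algebraMap (integralClosure O E) E (algebraMap O (integralClosure O E) a) =
      algebraMap O E a := rfl
  rw [hmap]
  constructor
  · intro h
    by_contra ha
    have hu : IsUnit a := by
      by_contra hu
      exact ha ((IsLocalRing.mem_maximalIdeal a).2 hu)
    obtain ⟨u, rfl⟩ := hu
    have h1 : V.valuation (algebraMap O E (u : O)) * V.valuation (algebraMap O E ((u⁻¹ : Oˣ) : O))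
        = 1 := by
      rw [← map_mul, ← map_mul, Units.mul_inv, map_one, map_one]
    have h2 : V.valuation (algebraMap O E ((u⁻¹ : Oˣ) : O)) ≤ 1 :=
      (V.valuation_le_one_iff _).2 (hV _)
    have h3 : V.valuation (algebraMap O E (u : O)) * V.valuation (algebraMap O E ((u⁻¹ : Oˣ) : O))
        < 1 := by
      calc _ ≤ V.valuation (algebraMap O E (u : O)) * 1 := mul_le_mul_right h2 _
        _ = V.valuation (algebraMap O E (u : O)) := mul_one _
        _ < 1 := h
    exact absurd h1 h3.ne
  · intro ha
    rw [hπ.maximalIdeal_eq, Ideal.mem_span_singleton'] at ha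
    obtain ⟨r, rfl⟩ := ha
    rw [map_mul, map_mul]
    calc _ ≤ 1 * V.valuation (algebraMap O E π) :=
          mul_le_mul_left ((V.valuation_le_one_iff _).2 (hV r)) _
      _ = V.valuation (algebraMap O E π) := one_mul _
      _ < 1 := hlt


lemma algebraMap_pi_mem_centre {π : O} (hπ : Irreducible π) (V : ValuationSubring E)
    (hV : ∀ a : O, algebraMap O E a ∈ V) (hinv : (algebraMap O E π)⁻¹ ∉ V) :
    algebraMap O (integralClosure O E) π ∈ centre V (closure_le V hV) := by
  have : π ∈ (centre V (closure_le V hV)).under O := by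
    rw [centre_under hπ V hV hinv, hπ.maximalIdeal_eq]
    exact Ideal.mem_span_singleton_self π
  exact this

lemma centre_ne_bot {π : O} (hπ : Irreducible π) (V : ValuationSubring E)
    (hV : ∀ a : O, algebraMap O E a ∈ V) (hinv : (algebraMap O E π)⁻¹ ∉ V) :
    centre V (closure_le V hV) ≠ ⊥ := by
  have hπP := algebraMap_pi_mem_centre hπ V hV hinv
  have hπ0 : algebraMap O (integralClosure O E) π ≠ 0 := by
    intro h0
    have h1 : algebraMap O E π = 0 := by
      have := congrArg (algebraMap (integralClosure O E) E) h0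
      simpa using this
    exact hinv (by rw [h1, inv_zero]; exact V.zero_mem)
  exact fun hb => hπ0 (by simpa [hb] using hπP)

omit [Algebra O K] [IsFractionRing O K] [IsScalarTower O K E] in
/-- Constructor for the case `m₁ = 1` (the original shape: `[E : K] ≤ m + 1`). -/
theorem Hyp.of_one {π : O} {V₁ V₂ : ValuationSubring E} {m : ℕ} {b : Fin m → E}
    (irreducible : Irreducible π)
    (le₁ : ∀ a : O, algebraMap O E a ∈ V₁) (le₂ : ∀ a : O, algebraMap O E a ∈ V₂)
    (inv_notMem₁ : (algebraMap O E π)⁻¹ ∉ V₁) (inv_notMem₂ : (algebraMap O E π)⁻¹ ∉ V₂)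
    (ne : V₁ ≠ V₂) (mem : ∀ i, b i ∈ V₂)
    (indep : ∀ c : Fin m → O, (∑ i, algebraMap O E (c i) * b i) ∈ V₂.nonunits →
      ∀ i, c i ∈ maximalIdeal O)
    (finrank_le : Module.finrank K E ≤ m + 1) :
    Hyp K π V₁ V₂ (fun _ : Fin 1 => (1 : E)) b where
  irreducible := irreducible
  le₁ := le₁
  le₂ := le₂
  inv_notMem₁ := inv_notMem₁
  inv_notMem₂ := inv_notMem₂
  ne := ne
  mem₁ := fun _ => V₁.one_mem
  indep₁ := by
    intro c hc i
    rw [Fin.sum_univ_one, mul_one] at hc
    have h0 : c 0 ∈ (centre V₁ (closure_le V₁ le₁)).under O := by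
      rw [Ideal.mem_comap, mem_centre_iff]
      exact (V₁.mem_nonunits_iff).1 hc
    rw [centre_under irreducible V₁ le₁ inv_notMem₁] at h0
    rwa [Subsingleton.elim i 0]
  mem₂ := mem
  indep₂ := indep
  finrank_le := by omega

section Count

variable (K) [FiniteDimensional K E] [Algebra.IsSeparable K E]
include K

/-- Every element of `V` is congruent, modulo the non-units of `V`, to an element of the
integral closure. -/
lemma exists_closure_sub_mem_nonunits {π : O} (hπ : Irreducible π) (V : ValuationSubring E)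
    (hV : ∀ a : O, algebraMap O E a ∈ V) (hinv : (algebraMap O E π)⁻¹ ∉ V) {x : E} (hx : x ∈ V) :
    ∃ c : integralClosure O E, x - algebraMap (integralClosure O E) E c ∈ V.nonunits := by
  have : IsDedekindDomain (integralClosure O E) := integralClosure.isDedekindDomain O K E
  have : IsFractionRing (integralClosure O E) E :=
    IsIntegralClosure.isFractionRing_of_finite_extension O K E (integralClosure O E)
  set P := centre V (closure_le V hV) with hP
  have hπP : algebraMap O (integralClosure O E) π ∈ P := by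
    have : π ∈ P.under O := by
      rw [hP, centre_under hπ V hV hinv, hπ.maximalIdeal_eq]
      exact Ideal.mem_span_singleton_self π
    exact this
  have hπ0 : algebraMap O (integralClosure O E) π ≠ 0 := by
    intro h0
    have h1 : algebraMap O E π = 0 := by
      have := congrArg (algebraMap (integralClosure O E) E) h0
      simpa using this
    exact hinv (by rw [h1, inv_zero]; exact V.zero_mem)
  have hPbot : P ≠ ⊥ := fun hb => hπ0 (by simpa [hb] using hπP)
  have hPmax : P.IsMaximal := Ideal.IsPrime.isMaximal inferInstance hPbot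
  obtain ⟨a, s, hs, hxs⟩ := exists_mul_eq V (closure_le V hV) hPbot hx
  obtain ⟨t, i, hi, hti⟩ := hPmax.exists_inv hs
  refine ⟨a * t, ?_⟩
  have hx1 : x - algebraMap (integralClosure O E) E (a * t) =
      x * algebraMap (integralClosure O E) E i := by
    have hi' : i = 1 - t * s := by rw [← hti]; ring
    rw [hi', map_sub, map_one, map_mul, map_mul, ← hxs]; ring
  rw [hx1, ValuationSubring.mem_nonunits_iff, map_mul]
  calc _ ≤ 1 * V.valuation (algebraMap (integralClosure O E) E i) :=
        mul_le_mul_left ((V.valuation_le_one_iff _).2 hx) _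
    _ = V.valuation (algebraMap (integralClosure O E) E i) := one_mul _
    _ < 1 := (mem_centre_iff V _ i).1 hi

/-- Two valuation subrings over `O` with the same centre on the integral closure coincide. -/
lemma eq_of_centre_eq {π : O} (hπ : Irreducible π) (V V' : ValuationSubring E)
    (hV : ∀ a : O, algebraMap O E a ∈ V) (hinv : (algebraMap O E π)⁻¹ ∉ V)
    (hV' : ∀ a : O, algebraMap O E a ∈ V') (hinv' : (algebraMap O E π)⁻¹ ∉ V')
    (heq : centre V (closure_le V hV) = centre V' (closure_le V' hV')) : V = V' := by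
  have : IsDedekindDomain (integralClosure O E) := integralClosure.isDedekindDomain O K E
  have : IsFractionRing (integralClosure O E) E :=
    IsIntegralClosure.isFractionRing_of_finite_extension O K E (integralClosure O E)
  ext x
  constructor
  · intro hx
    obtain ⟨a, s, hs, hxs⟩ := exists_mul_eq V (closure_le V hV) (centre_ne_bot hπ V hV hinv) hx
    exact mem_of_mul_eq V' (closure_le V' hV') (heq ▸ hs) hxs
  · intro hx
    obtain ⟨a, s, hs, hxs⟩ :=
      exists_mul_eq V' (closure_le V' hV') (centre_ne_bot hπ V' hV' hinv') hx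
    exact mem_of_mul_eq V (closure_le V hV) (heq ▸ hs) hxs


/-- Lifts of a family of `V` to the integral closure, with linearly independent residues. -/
theorem exists_lifts {π : O} (hπ : Irreducible π) (V : ValuationSubring E)
    (hV : ∀ a : O, algebraMap O E a ∈ V) (hinv : (algebraMap O E π)⁻¹ ∉ V) {m : ℕ}
    {b : Fin m → E} (hb : ∀ i, b i ∈ V)
    (hind : ∀ c : Fin m → O, (∑ i, algebraMap O E (c i) * b i) ∈ V.nonunits →
      ∀ i, c i ∈ maximalIdeal O) :
    ∃ c : Fin m → integralClosure O E,
      (∀ i, b i - algebraMap (integralClosure O E) E (c i) ∈ V.nonunits) ∧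
      haveI : (centre V (closure_le V hV)).LiesOver (maximalIdeal O) :=
        ⟨(centre_under hπ V hV hinv).symm⟩
      LinearIndependent (O ⧸ maximalIdeal O)
        (fun i => Ideal.Quotient.mk (centre V (closure_le V hV)) (c i)) := by
  classical
  set p := maximalIdeal O with hp
  set P := centre V (closure_le V hV) with hP
  have hl : P.LiesOver p := ⟨(centre_under hπ V hV hinv).symm⟩
  choose c hc using fun i => exists_closure_sub_mem_nonunits K hπ V hV hinv (hb i)
  refine ⟨c, hc, ?_⟩
  rw [Fintype.linearIndependent_iff]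
  intro g hg i
  choose a ha using fun i => Ideal.Quotient.mk_surjective (g i)
  have hsum : ∑ i, algebraMap O (integralClosure O E) (a i) * c i ∈ P := by
    rw [← Ideal.Quotient.eq_zero_iff_mem, map_sum, ← hg]
    refine Finset.sum_congr rfl fun i _ => ?_
    rw [map_mul, ← ha i, Algebra.smul_def, Ideal.Quotient.algebraMap_mk_of_liesOver]
  have hnon : ∑ i, algebraMap O E (a i) * b i ∈ V.nonunits := by
    have e : ∑ i, algebraMap O E (a i) * b i =
        algebraMap (integralClosure O E) E
          (∑ i, algebraMap O (integralClosure O E) (a i) * c i) +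
        ∑ i, algebraMap O E (a i) * (b i - algebraMap (integralClosure O E) E (c i)) := by
      rw [map_sum, ← Finset.sum_add_distrib]
      refine Finset.sum_congr rfl fun i _ => ?_
      rw [map_mul]
      have : algebraMap (integralClosure O E) E (algebraMap O (integralClosure O E) (a i)) =
          algebraMap O E (a i) := rfl
      rw [this]; ring
    rw [e]
    refine add_mem ((V.mem_nonunits_iff).2 ((mem_centre_iff V _ _).1 hsum))
      (sum_mem fun i _ => ?_)
    rw [ValuationSubring.mem_nonunits_iff, map_mul]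
    calc _ ≤ 1 * V.valuation (b i - algebraMap (integralClosure O E) E (c i)) :=
          mul_le_mul_left ((V.valuation_le_one_iff _).2 (hV (a i))) _
      _ = V.valuation (b i - algebraMap (integralClosure O E) E (c i)) := one_mul _
      _ < 1 := (V.mem_nonunits_iff).1 (hc i)
  have := hind a hnon i
  rw [← ha i]
  exact Ideal.Quotient.eq_zero_iff_mem.2 this

/-- The residue degree of the centre is at least the size of a residually independent family. -/
theorem le_inertiaDeg {π : O} (hπ : Irreducible π) (V : ValuationSubring E)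
    (hV : ∀ a : O, algebraMap O E a ∈ V) (hinv : (algebraMap O E π)⁻¹ ∉ V) {m : ℕ}
    {b : Fin m → E} (hb : ∀ i, b i ∈ V)
    (hind : ∀ c : Fin m → O, (∑ i, algebraMap O E (c i) * b i) ∈ V.nonunits →
      ∀ i, c i ∈ maximalIdeal O) :
    m ≤ (centre V (closure_le V hV)).inertiaDeg O := by
  have hfin : Module.Finite O (integralClosure O E) :=
    IsIntegralClosure.finite O K E (integralClosure O E)
  have hD : IsDedekindDomain (integralClosure O E) := integralClosure.isDedekindDomain O K E
  have hl : (centre V (closure_le V hV)).LiesOver (maximalIdeal O) :=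
    ⟨(centre_under hπ V hV hinv).symm⟩
  have hm : (centre V (closure_le V hV)).IsMaximal :=
    Ideal.IsPrime.isMaximal inferInstance (centre_ne_bot hπ V hV hinv)
  rw [Ideal.inertiaDeg_eq_of_isMaximal (maximalIdeal O) (centre V (closure_le V hV))]
  obtain ⟨c, -, hli⟩ := exists_lifts K hπ V hV hinv hb hind
  simpa using hli.fintype_card_le_finrank

/-- **The two-extension count.** -/
theorem Hyp.core {π : O} {V₁ V₂ : ValuationSubring E} {m₁ m₂ : ℕ} {b₁ : Fin m₁ → E}
    {b₂ : Fin m₂ → E} (h : Hyp K π V₁ V₂ b₁ b₂) :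
    (centre V₁ (closure_le V₁ h.le₁)).ramificationIdx O = 1 ∧
    (centre V₁ (closure_le V₁ h.le₁)).inertiaDeg O = m₁ ∧
    (centre V₂ (closure_le V₂ h.le₂)).ramificationIdx O = 1 ∧
    (centre V₂ (closure_le V₂ h.le₂)).inertiaDeg O = m₂ ∧
    Module.finrank K E = m₁ + m₂ ∧
    ∀ Q : Ideal (integralClosure O E), Q.IsPrime → Q.under O = maximalIdeal O →
      Q = centre V₁ (closure_le V₁ h.le₁) ∨ Q = centre V₂ (closure_le V₂ h.le₂) := by
  classical
  have hD : IsDedekindDomain (integralClosure O E) := integralClosure.isDedekindDomain O K E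
  have hF : IsFractionRing (integralClosure O E) E :=
    IsIntegralClosure.isFractionRing_of_finite_extension O K E (integralClosure O E)
  have hfin : Module.Finite O (integralClosure O E) :=
    IsIntegralClosure.finite O K E (integralClosure O E)
  have hfaith : FaithfulSMul O E := by
    rw [faithfulSMul_iff_algebraMap_injective, IsScalarTower.algebraMap_eq O K E]
    exact (algebraMap K E).injective.comp (IsFractionRing.injective O K)
  have htf : Module.IsTorsionFree O E := inferInstance
  have htfC : Module.IsTorsionFree O (integralClosure O E) := IsIntegralClosure.isTorsionFree O E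
  have hfree : Module.Free O (integralClosure O E) :=
    IsIntegralClosure.module_free O K E (integralClosure O E)
  have hrank : Module.finrank O (integralClosure O E) = Module.finrank K E :=
    IsIntegralClosure.rank O K E (integralClosure O E)
  set p := maximalIdeal O with hp
  set P₁ := centre V₁ (closure_le V₁ h.le₁) with hP₁
  set P₂ := centre V₂ (closure_le V₂ h.le₂) with hP₂
  have hl₁ : P₁.LiesOver p := ⟨(centre_under h.irreducible V₁ h.le₁ h.inv_notMem₁).symm⟩
  have hl₂ : P₂.LiesOver p := ⟨(centre_under h.irreducible V₂ h.le₂ h.inv_notMem₂).symm⟩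
  have hb₁ : P₁ ≠ ⊥ := centre_ne_bot h.irreducible V₁ h.le₁ h.inv_notMem₁
  have hb₂ : P₂ ≠ ⊥ := centre_ne_bot h.irreducible V₂ h.le₂ h.inv_notMem₂
  have hm₁ : P₁.IsMaximal := Ideal.IsPrime.isMaximal inferInstance hb₁
  have hm₂ : P₂.IsMaximal := Ideal.IsPrime.isMaximal inferInstance hb₂
  have hne : P₁ ≠ P₂ := fun heq => h.ne
    (eq_of_centre_eq K h.irreducible V₁ V₂ h.le₁ h.inv_notMem₁ h.le₂ h.inv_notMem₂ heq)
  -- the residue degrees are at least `m₁`, `m₂`
  have hf₁ : m₁ ≤ P₁.inertiaDeg O :=
    le_inertiaDeg K h.irreducible V₁ h.le₁ h.inv_notMem₁ h.mem₁ h.indep₁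
  have hf₂ : m₂ ≤ P₂.inertiaDeg O :=
    le_inertiaDeg K h.irreducible V₂ h.le₂ h.inv_notMem₂ h.mem₂ h.indep₂
  -- the sum formula
  have hsum := Ideal.sum_ramification_inertia_eq_finrank p (integralClosure O E)
  rw [hrank] at hsum
  let Q₁ : p.primesOver (integralClosure O E) := ⟨P₁, inferInstance, hl₁⟩
  let Q₂ : p.primesOver (integralClosure O E) := ⟨P₂, inferInstance, hl₂⟩
  have hQne : Q₁ ≠ Q₂ := fun hh => hne (congrArg Subtype.val hh)
  have hpos : ∀ q : p.primesOver (integralClosure O E),
      1 ≤ q.1.ramificationIdx O ∧ 1 ≤ q.1.inertiaDeg O := by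
    intro q
    have : q.1.IsPrime := q.2.1
    exact ⟨Ideal.ramificationIdx_pos q.1 O, Ideal.inertiaDeg_pos q.1 O⟩
  have h2 : P₁.ramificationIdx O * P₁.inertiaDeg O + P₂.ramificationIdx O * P₂.inertiaDeg O ≤
      Module.finrank K E := by
    rw [← hsum]
    have := Finset.sum_le_sum_of_subset (f := fun q : p.primesOver (integralClosure O E) =>
      q.1.ramificationIdx O * q.1.inertiaDeg O) (Finset.subset_univ {Q₁, Q₂})
    rwa [Finset.sum_pair hQne] at this
  obtain ⟨he₁, hf₁'⟩ := hpos Q₁
  obtain ⟨he₂, hf₂'⟩ := hpos Q₂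
  have hE1 : P₁.inertiaDeg O ≤ P₁.ramificationIdx O * P₁.inertiaDeg O :=
    Nat.le_mul_of_pos_left _ he₁
  have hE2 : P₂.inertiaDeg O ≤ P₂.ramificationIdx O * P₂.inertiaDeg O :=
    Nat.le_mul_of_pos_left _ he₂
  have hle := h.finrank_le
  have hf₁m : P₁.inertiaDeg O = m₁ := by omega
  have hf₂m : P₂.inertiaDeg O = m₂ := by omega
  have hE1' : P₁.ramificationIdx O * P₁.inertiaDeg O = m₁ := by omega
  have hE2' : P₂.ramificationIdx O * P₂.inertiaDeg O = m₂ := by omega
  have hn : Module.finrank K E = m₁ + m₂ := by omega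
  have he₁1 : P₁.ramificationIdx O = 1 := by
    have h1 : P₁.ramificationIdx O * P₁.inertiaDeg O = 1 * P₁.inertiaDeg O := by
      rw [hE1', hf₁m, one_mul]
    exact Nat.eq_of_mul_eq_mul_right hf₁' h1
  have he₂1 : P₂.ramificationIdx O = 1 := by
    have h1 : P₂.ramificationIdx O * P₂.inertiaDeg O = 1 * P₂.inertiaDeg O := by
      rw [hE2', hf₂m, one_mul]
    exact Nat.eq_of_mul_eq_mul_right hf₂' h1
  refine ⟨he₁1, hf₁m, he₂1, hf₂m, hn, ?_⟩
  intro Q hQ hQp
  have hlQ : Q.LiesOver p := ⟨hQp.symm⟩
  let Q₃ : p.primesOver (integralClosure O E) := ⟨Q, hQ, hlQ⟩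
  by_contra hcon
  rw [not_or] at hcon
  have hQ31 : Q₃ ≠ Q₁ := fun hh => hcon.1 (congrArg Subtype.val hh)
  have hQ32 : Q₃ ≠ Q₂ := fun hh => hcon.2 (congrArg Subtype.val hh)
  have h3 := Finset.sum_le_sum_of_subset (f := fun q : p.primesOver (integralClosure O E) =>
      q.1.ramificationIdx O * q.1.inertiaDeg O) (Finset.subset_univ {Q₃, Q₁, Q₂})
  rw [Finset.sum_insert (by simp [hQ31, hQ32]), Finset.sum_pair hQne, hsum] at h3
  obtain ⟨he₃, hf₃⟩ := hpos Q₃
  have hE3 : 1 ≤ Q.ramificationIdx O * Q.inertiaDeg O := Nat.mul_pos he₃ hf₃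
  have h3' : Q.ramificationIdx O * Q.inertiaDeg O +
      (P₁.ramificationIdx O * P₁.inertiaDeg O + P₂.ramificationIdx O * P₂.inertiaDeg O) ≤
      Module.finrank K E := h3
  omega

/-- If the centre of `V` is unramified over `O`, then `π` generates the non-units of `V`. -/
theorem exists_eq_pi_mul {π : O} (hπ : Irreducible π) (V : ValuationSubring E)
    (hV : ∀ a : O, algebraMap O E a ∈ V) (hinv : (algebraMap O E π)⁻¹ ∉ V)
    (he : (centre V (closure_le V hV)).ramificationIdx O = 1) {x : E} (hx : x ∈ V.nonunits) :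
    ∃ y ∈ V, x = algebraMap O E π * y := by
  have hD : IsDedekindDomain (integralClosure O E) := integralClosure.isDedekindDomain O K E
  have hF : IsFractionRing (integralClosure O E) E :=
    IsIntegralClosure.isFractionRing_of_finite_extension O K E (integralClosure O E)
  set P := centre V (closure_le V hV) with hP
  have hl : P.LiesOver (maximalIdeal O) := ⟨(centre_under hπ V hV hinv).symm⟩
  have hb : P ≠ ⊥ := centre_ne_bot hπ V hV hinv
  rw [Ideal.ramificationIdx_eq (maximalIdeal O) P, ENat.toNat_eq_iff_eq_natCast, Nat.cast_one,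
    Module.length_eq_one_iff, isSimpleModule_iff_isCoatom, ← Ideal.isMaximal_def,
    IsLocalRing.isMaximal_iff] at he
  have hxV : x ∈ V := by
    rw [← V.valuation_le_one_iff]; exact ((V.mem_nonunits_iff).1 hx).le
  obtain ⟨a, s, hs, hxs⟩ := exists_mul_eq V (closure_le V hV) hb hxV
  have haP : a ∈ P := by
    rw [hP, mem_centre_iff, ← hxs, map_mul, valuation_eq_one_of_notMem V _ hs, mul_one]
    exact (V.mem_nonunits_iff).1 hx
  have h1 : algebraMap (integralClosure O E) (Localization.AtPrime P) a ∈
      maximalIdeal (Localization.AtPrime P) :=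
    (IsLocalization.AtPrime.to_map_mem_maximal_iff _ P a).2 haP
  rw [← he, hπ.maximalIdeal_eq, Ideal.map_span, Set.image_singleton,
    Ideal.mem_span_singleton'] at h1
  obtain ⟨z, hz⟩ := h1
  obtain ⟨c, t, rfl⟩ := IsLocalization.exists_mk'_eq P.primeCompl z
  have ht : (t : integralClosure O E) ∉ P := t.2
  have hC : c * algebraMap O (integralClosure O E) π = a * t := by
    apply IsLocalization.injective (Localization.AtPrime P) P.primeCompl_le_nonZeroDivisors
    rw [map_mul, map_mul, ← hz, ← IsScalarTower.algebraMap_apply, mul_right_comm,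
      IsLocalization.mk'_spec]
  have hst : s * (t : integralClosure O E) ∉ P := fun hmem =>
    (Ideal.IsPrime.mem_or_mem inferInstance hmem).elim hs ht
  have hsE : algebraMap (integralClosure O E) E (s * t) ≠ 0 := by
    intro h0
    have h1 := valuation_eq_one_of_notMem V (closure_le V hV) hst
    rw [h0, map_zero] at h1
    exact zero_ne_one h1
  refine ⟨algebraMap (integralClosure O E) E c / algebraMap (integralClosure O E) E (s * t),
    mem_of_mul_eq V (closure_le V hV) hst (div_mul_cancel₀ _ hsE), ?_⟩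
  have hE : x * algebraMap (integralClosure O E) E (s * t) =
      algebraMap O E π * algebraMap (integralClosure O E) E c := by
    have := congrArg (algebraMap (integralClosure O E) E) hC
    rw [map_mul, map_mul] at this
    have h2 : algebraMap (integralClosure O E) E (algebraMap O (integralClosure O E) π) =
        algebraMap O E π := rfl
    rw [h2] at this
    rw [map_mul, ← mul_assoc, hxs, ← this, mul_comm]
  rw [mul_div_assoc', ← hE, mul_div_cancel_right₀ _ hsE]

/-- If the residue degree of the centre of `V` equals the size of a residually independent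
family, then that family spans the residue field of `V` over that of `O`. -/
theorem exists_sub_sum_mem_nonunits {π : O} (hπ : Irreducible π) (V : ValuationSubring E)
    (hV : ∀ a : O, algebraMap O E a ∈ V) (hinv : (algebraMap O E π)⁻¹ ∉ V) {m : ℕ}
    {b : Fin m → E} (hb : ∀ i, b i ∈ V)
    (hind : ∀ c : Fin m → O, (∑ i, algebraMap O E (c i) * b i) ∈ V.nonunits →
      ∀ i, c i ∈ maximalIdeal O)
    (hf : (centre V (closure_le V hV)).inertiaDeg O = m) {x : E} (hx : x ∈ V) :
    ∃ c : Fin m → O, x - ∑ i, algebraMap O E (c i) * b i ∈ V.nonunits := by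
  classical
  have hfin : Module.Finite O (integralClosure O E) :=
    IsIntegralClosure.finite O K E (integralClosure O E)
  set p := maximalIdeal O with hp
  set P := centre V (closure_le V hV) with hP
  have hl : P.LiesOver p := ⟨(centre_under hπ V hV hinv).symm⟩
  have hD : IsDedekindDomain (integralClosure O E) := integralClosure.isDedekindDomain O K E
  have hm : P.IsMaximal := Ideal.IsPrime.isMaximal inferInstance (centre_ne_bot hπ V hV hinv)
  obtain ⟨c, hc, hli⟩ := exists_lifts K hπ V hV hinv hb hind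
  rw [Ideal.inertiaDeg_eq_of_isMaximal p P] at hf
  have hpm : p.IsMaximal := IsLocalRing.maximalIdeal.isMaximal O
  let _ : Field (O ⧸ p) := Ideal.Quotient.field p
  have hfd : FiniteDimensional (O ⧸ p) (integralClosure O E ⧸ P) := inferInstance
  have hcard : Fintype.card (Fin m) = Module.finrank (O ⧸ p) (integralClosure O E ⧸ P) := by
    rw [Fintype.card_fin]; exact hf.symm
  have hspan : Submodule.span (O ⧸ p) (Set.range fun i => Ideal.Quotient.mk P (c i)) = ⊤ :=
    LinearIndependent.span_eq_top_of_card_eq_finrank' hli hcard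
  obtain ⟨x₀, hx₀⟩ := exists_closure_sub_mem_nonunits K hπ V hV hinv hx
  have hmem : Ideal.Quotient.mk P x₀ ∈ Submodule.span (O ⧸ p)
      (Set.range fun i => Ideal.Quotient.mk P (c i)) := by
    rw [hspan]; exact Submodule.mem_top
  obtain ⟨g, hg⟩ := (Submodule.mem_span_range_iff_exists_fun _).1 hmem
  choose a ha using fun i => Ideal.Quotient.mk_surjective (g i)
  refine ⟨a, ?_⟩
  have hsum : x₀ - ∑ i, algebraMap O (integralClosure O E) (a i) * c i ∈ P := by
    rw [← Ideal.Quotient.eq_zero_iff_mem, map_sub, map_sum, ← hg, sub_eq_zero]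
    refine Finset.sum_congr rfl fun i _ => ?_
    rw [map_mul, ← ha i, Algebra.smul_def, Ideal.Quotient.algebraMap_mk_of_liesOver]
  have e : x - ∑ i, algebraMap O E (a i) * b i =
      (x - algebraMap (integralClosure O E) E x₀) +
      (algebraMap (integralClosure O E) E
          (x₀ - ∑ i, algebraMap O (integralClosure O E) (a i) * c i) -
        ∑ i, algebraMap O E (a i) * (b i - algebraMap (integralClosure O E) E (c i))) := by
    rw [map_sub, map_sum]
    have : ∀ i, algebraMap (integralClosure O E) E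
        (algebraMap O (integralClosure O E) (a i) * c i) =
        algebraMap O E (a i) * algebraMap (integralClosure O E) E (c i) := fun i => by
      rw [map_mul]; rfl
    simp only [this, mul_sub, Finset.sum_sub_distrib]
    ring
  rw [e]
  refine add_mem hx₀ (sub_mem ((V.mem_nonunits_iff).2 ((mem_centre_iff V _ _).1 hsum))
    (sum_mem fun i _ => ?_))
  rw [ValuationSubring.mem_nonunits_iff, map_mul]
  calc _ ≤ 1 * V.valuation (b i - algebraMap (integralClosure O E) E (c i)) :=
        mul_le_mul_left ((V.valuation_le_one_iff _).2 (hV (a i))) _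
    _ = V.valuation (b i - algebraMap (integralClosure O E) E (c i)) := one_mul _
    _ < 1 := (V.mem_nonunits_iff).1 (hc i)

section Consequences

variable {π : O} {V₁ V₂ : ValuationSubring E} {m₁ m₂ : ℕ} {b₁ : Fin m₁ → E} {b₂ : Fin m₂ → E}

/-- `[E : K] = m₁ + m₂`. -/
theorem Hyp.finrank_eq (h : Hyp K π V₁ V₂ b₁ b₂) : Module.finrank K E = m₁ + m₂ :=
  h.core.2.2.2.2.1

/-- `V₁` and `V₂` are the only valuation subrings of `E` containing `O` in which `π` is not
invertible. -/
theorem Hyp.eq_or_eq (h : Hyp K π V₁ V₂ b₁ b₂) (V : ValuationSubring E)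
    (hV : ∀ a : O, algebraMap O E a ∈ V) (hinv : (algebraMap O E π)⁻¹ ∉ V) :
    V = V₁ ∨ V = V₂ := by
  rcases h.core.2.2.2.2.2 (centre V (closure_le V hV)) inferInstance
    (centre_under h.irreducible V hV hinv) with h1 | h1
  · exact Or.inl (eq_of_centre_eq K h.irreducible V V₁ hV hinv h.le₁ h.inv_notMem₁ h1)
  · exact Or.inr (eq_of_centre_eq K h.irreducible V V₂ hV hinv h.le₂ h.inv_notMem₂ h1)

/-- **The integral closure of `O` in `E` is `V₁ ∩ V₂`.** -/
theorem Hyp.isIntegral_iff (h : Hyp K π V₁ V₂ b₁ b₂) (x : E) :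
    IsIntegral O x ↔ x ∈ V₁ ∧ x ∈ V₂ := by
  refine ⟨fun hx => ⟨mem_of_isIntegral V₁ h.le₁ hx, mem_of_isIntegral V₂ h.le₂ hx⟩, ?_⟩
  rintro ⟨hx₁, hx₂⟩
  have hD : IsDedekindDomain (integralClosure O E) := integralClosure.isDedekindDomain O K E
  have hF : IsFractionRing (integralClosure O E) E :=
    IsIntegralClosure.isFractionRing_of_finite_extension O K E (integralClosure O E)
  -- the denominator ideal of `x`
  let I : Ideal (integralClosure O E) :=
    { carrier := {c | ∃ a : integralClosure O E,
        x * algebraMap (integralClosure O E) E c = algebraMap (integralClosure O E) E a}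
      add_mem' := by
        rintro c c' ⟨a, ha⟩ ⟨a', ha'⟩
        exact ⟨a + a', by rw [map_add, map_add, mul_add, ha, ha']⟩
      zero_mem' := ⟨0, by simp⟩
      smul_mem' := by
        rintro r c ⟨a, ha⟩
        exact ⟨r * a, by rw [smul_eq_mul, map_mul, map_mul, mul_left_comm, ha]⟩ }
  by_cases hI : I = ⊤
  · have h1 : (1 : integralClosure O E) ∈ I := by rw [hI]; exact Submodule.mem_top
    obtain ⟨a, ha⟩ := h1
    rw [map_one, mul_one] at ha
    rw [ha]
    exact a.2
  · exfalso
    obtain ⟨M, hM, hIM⟩ := Ideal.exists_le_maximal I hI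
    have hMu : (M.under O).IsMaximal :=
      Ideal.isMaximal_comap_of_isIntegral_of_isMaximal (R := O) M
    have hMp : M.under O = maximalIdeal O := IsLocalRing.eq_maximalIdeal hMu
    rcases h.core.2.2.2.2.2 M hM.isPrime hMp with h1 | h1
    · obtain ⟨a, s, hs, hxs⟩ := exists_mul_eq V₁ (closure_le V₁ h.le₁)
        (centre_ne_bot h.irreducible V₁ h.le₁ h.inv_notMem₁) hx₁
      exact hs (h1 ▸ hIM ⟨a, hxs⟩)
    · obtain ⟨a, s, hs, hxs⟩ := exists_mul_eq V₂ (closure_le V₂ h.le₂)
        (centre_ne_bot h.irreducible V₂ h.le₂ h.inv_notMem₂) hx₂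
      exact hs (h1 ▸ hIM ⟨a, hxs⟩)

/-- `π` is a uniformiser of `V₁`. -/
theorem Hyp.exists_eq_pi_mul₁ (h : Hyp K π V₁ V₂ b₁ b₂) {x : E} (hx : x ∈ V₁.nonunits) :
    ∃ y ∈ V₁, x = algebraMap O E π * y :=
  exists_eq_pi_mul K h.irreducible V₁ h.le₁ h.inv_notMem₁ h.core.1 hx

/-- `π` is a uniformiser of `V₂`. -/
theorem Hyp.exists_eq_pi_mul₂ (h : Hyp K π V₁ V₂ b₁ b₂) {x : E} (hx : x ∈ V₂.nonunits) :
    ∃ y ∈ V₂, x = algebraMap O E π * y :=
  exists_eq_pi_mul K h.irreducible V₂ h.le₂ h.inv_notMem₂ h.core.2.2.1 hx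

/-- The family `b₁` spans the residue field of `V₁` over the residue field of `O`. -/
theorem Hyp.exists_sub_sum_mem_nonunits₁ (h : Hyp K π V₁ V₂ b₁ b₂) {x : E} (hx : x ∈ V₁) :
    ∃ c : Fin m₁ → O, x - ∑ i, algebraMap O E (c i) * b₁ i ∈ V₁.nonunits :=
  exists_sub_sum_mem_nonunits K h.irreducible V₁ h.le₁ h.inv_notMem₁ h.mem₁ h.indep₁
    h.core.2.1 hx

/-- The family `b₂` spans the residue field of `V₂` over the residue field of `O`. -/
theorem Hyp.exists_sub_sum_mem_nonunits₂ (h : Hyp K π V₁ V₂ b₁ b₂) {x : E} (hx : x ∈ V₂) :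
    ∃ c : Fin m₂ → O, x - ∑ i, algebraMap O E (c i) * b₂ i ∈ V₂.nonunits :=
  exists_sub_sum_mem_nonunits K h.irreducible V₂ h.le₂ h.inv_notMem₂ h.mem₂ h.indep₂
    h.core.2.2.2.1 hx

/-- Weak approximation: prescribed residues at `V₁` and `V₂` are realised by an integral
element. -/
theorem Hyp.exists_isIntegral_approx (h : Hyp K π V₁ V₂ b₁ b₂) {x₁ x₂ : E} (hx₁ : x₁ ∈ V₁)
    (hx₂ : x₂ ∈ V₂) :
    ∃ z : E, IsIntegral O z ∧ z - x₁ ∈ V₁.nonunits ∧ z - x₂ ∈ V₂.nonunits := by
  have hD : IsDedekindDomain (integralClosure O E) := integralClosure.isDedekindDomain O K E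
  set P₁ := centre V₁ (closure_le V₁ h.le₁) with hP₁
  set P₂ := centre V₂ (closure_le V₂ h.le₂) with hP₂
  have hb₁ : P₁ ≠ ⊥ := centre_ne_bot h.irreducible V₁ h.le₁ h.inv_notMem₁
  have hb₂ : P₂ ≠ ⊥ := centre_ne_bot h.irreducible V₂ h.le₂ h.inv_notMem₂
  have hm₁ : P₁.IsMaximal := Ideal.IsPrime.isMaximal inferInstance hb₁
  have hm₂ : P₂.IsMaximal := Ideal.IsPrime.isMaximal inferInstance hb₂
  have hne : P₁ ≠ P₂ := fun heq => h.ne
    (eq_of_centre_eq K h.irreducible V₁ V₂ h.le₁ h.inv_notMem₁ h.le₂ h.inv_notMem₂ heq)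
  obtain ⟨c₁, hc₁⟩ := exists_closure_sub_mem_nonunits K h.irreducible V₁ h.le₁ h.inv_notMem₁ hx₁
  obtain ⟨c₂, hc₂⟩ := exists_closure_sub_mem_nonunits K h.irreducible V₂ h.le₂ h.inv_notMem₂ hx₂
  have hsup : P₁ ⊔ P₂ = ⊤ := Ideal.IsMaximal.coprime_of_ne hm₁ hm₂ hne
  obtain ⟨e₁, he₁, e₂, he₂, he⟩ := Submodule.mem_sup.1 (hsup ▸ Submodule.mem_top : (1 : _) ∈ P₁ ⊔ P₂)
  -- `e₁ ∈ P₁`, `e₂ ∈ P₂`, `e₁ + e₂ = 1`; take `z = c₁ e₂ + c₂ e₁`
  refine ⟨algebraMap (integralClosure O E) E (c₁ * e₂ + c₂ * e₁), (c₁ * e₂ + c₂ * e₁).2, ?_, ?_⟩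
  · have e : algebraMap (integralClosure O E) E (c₁ * e₂ + c₂ * e₁) - x₁ =
        algebraMap (integralClosure O E) E ((c₂ - c₁) * e₁) -
          (x₁ - algebraMap (integralClosure O E) E c₁) := by
      have : e₂ = 1 - e₁ := by rw [← he]; ring
      rw [this]; simp only [map_add, map_mul, map_sub, map_one]; ring
    rw [e]
    exact sub_mem ((V₁.mem_nonunits_iff).2 ((mem_centre_iff V₁ _ _).1
      (P₁.mul_mem_left _ he₁))) hc₁
  · have e : algebraMap (integralClosure O E) E (c₁ * e₂ + c₂ * e₁) - x₂ =
        algebraMap (integralClosure O E) E ((c₁ - c₂) * e₂) -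
          (x₂ - algebraMap (integralClosure O E) E c₂) := by
      have : e₁ = 1 - e₂ := by rw [← he]; ring
      rw [this]; simp only [map_add, map_mul, map_sub, map_one]; ring
    rw [e]
    exact sub_mem ((V₂.mem_nonunits_iff).2 ((mem_centre_iff V₂ _ _).1
      (P₂.mul_mem_left _ he₂))) hc₂

end Consequences

end Count

end Main

end Fermat.Agent.S34.TwoExt
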