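/-
S34 (wave 6, long shot), obligation (F1) of the B2 instance: **the residue field of the
`q`-expansion Gauss valuation of level `M * ℓ` is the function field of level `M` over the residue
field** (`f(v₁ | v_M) = 1`), via the two-extension count `S34.TwoExt` (helper15) and the degree
`[FF L (M * ℓ) : α(FF L M)] = ℓ + 1` (`S34.DegreeL`).  Raw S18 currency (`contentRing`, `red`).

* `gaussVS W N` : the Gauss valuation subring of `FF L N` (ANY level `N`), with
  `mem_nonunits_gaussVS` (non-units = zero reduction), `maximalIdeal_gaussVS` (`ϖ` generates the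
  maximal ideal), `exists_associated_pow` (every nonzero element is `ϖ ^ n * unit`) and the
  instance `isDVR_gaussVS`;
* `gaussVS_ne_comap` : `O₁ ≠ O₂ := w⁻¹ O₁` at level `M * ℓ` (`w` an Atkin–Lehner automorphism);
* `hyp_level` : the hypotheses `TwoExt.Hyp` for `FF L (M * ℓ)` over `FF L M` (through `α`) with
  the Gauss valuation ring of level `M`, `O₁`, `O₂` and the family `(β j) ^ r`, `r < ℓ`;
* `exists_red_eq` : every Gauss-integral function of level `M * ℓ` has the reduction of a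
  Gauss-integral function of level `M`;
* `red_mem_fullC_level` : **(F1)** `red x ∈ modularFunctionFieldFullC κ M` for every `x` of level
  `M * ℓ` with `q`-expansion in `contentRing W` (apply it to `w x` for the second valuation);
* `exists_red_eq_of_bar`, `red_mem_fullC_of_bar` : the same for a level `ι : L →+* ℚ̄`.
-/
import Mathlib
import Fermat.Agent.S34.TwoExt
import Fermat.Agent.S34.DegreeL
import Fermat.Agent.S34.DDGauss
import Fermat.Agent.S18.GaussFull
import Fermat.Agent.S37.AtkinLehner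
import Fermat.Agent.S28.FormalPts
import Fermat.Agent.S28.NotRational
import Fermat.Agent.S28.Tower

set_option autoImplicit false
set_option linter.style.haveILetI false

noncomputable section

namespace Fermat.Agent.S34.ResField

open ModularCurve AlgebraicCurve Fermat.Agent.S18 Fermat.Agent.S18.Gauss Fermat.Agent.S24

variable {L : Type*} [Field L] [Algebra ℚ L] (W : ValuationSubring L) [IsDiscreteValuationRing W]

/-! ### The Gauss valuation ring of `FF L N` (any level) -/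

/-- The Gauss valuation subring of `FF L N`: functions whose `q`-expansion lies in the content
ring. -/
def gaussVS (N : ℕ) : ValuationSubring (FF L N) where
  carrier := {x | (x : LaurentSeries L) ∈ contentRing W}
  mul_mem' := fun {a b} ha hb => by
    show ((a * b : FF L N) : LaurentSeries L) ∈ contentRing W
    exact mul_mem ha hb
  one_mem' := by
    show ((1 : FF L N) : LaurentSeries L) ∈ contentRing W
    exact one_mem _
  add_mem' := fun {a b} ha hb => by
    show ((a + b : FF L N) : LaurentSeries L) ∈ contentRing W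
    exact add_mem ha hb
  zero_mem' := by
    show ((0 : FF L N) : LaurentSeries L) ∈ contentRing W
    exact zero_mem _
  neg_mem' := fun {a} ha => by
    show ((-a : FF L N) : LaurentSeries L) ∈ contentRing W
    exact neg_mem ha
  mem_or_inv_mem' := fun x => by
    rcases mem_contentRing_or_inv_mem W (DDGauss.coe_mem_fracInt W N x) with h | h
    · exact Or.inl h
    · exact Or.inr h

theorem mem_gaussVS {N : ℕ} {x : FF L N} :
    x ∈ gaussVS W N ↔ (x : LaurentSeries L) ∈ contentRing W := Iff.rfl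

/-- In a valuation subring, a nonzero element is a non-unit iff its inverse is not a member. -/
theorem mem_nonunits_iff_inv_notMem {K : Type*} [Field K] (A : ValuationSubring K) {x : K}
    (hx : x ≠ 0) : x ∈ A.nonunits ↔ x⁻¹ ∉ A := by
  rw [ValuationSubring.mem_nonunits_iff, ← A.valuation_le_one_iff, map_inv₀, not_le]
  have h0 : A.valuation x ≠ 0 := (Valuation.ne_zero_iff _).2 hx
  constructor
  · intro h
    exact (one_lt_inv₀ (zero_lt_iff.2 h0)).2 h
  · intro h
    exact (one_lt_inv₀ (zero_lt_iff.2 h0)).1 h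

/-- Non-units of a pulled-back valuation subring. -/
theorem mem_nonunits_comap {K K' : Type*} [Field K] [Field K'] (A : ValuationSubring K')
    (f : K →+* K') (x : K) : x ∈ (A.comap f).nonunits ↔ f x ∈ A.nonunits := by
  rcases eq_or_ne x 0 with rfl | hx
  · rw [map_zero]
    exact ⟨fun _ => by rw [ValuationSubring.mem_nonunits_iff, map_zero]; exact zero_lt_one,
      fun _ => by rw [ValuationSubring.mem_nonunits_iff, map_zero]; exact zero_lt_one⟩
  · have hfx : f x ≠ 0 := (map_ne_zero f).2 hx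
    rw [mem_nonunits_iff_inv_notMem _ hx, mem_nonunits_iff_inv_notMem _ hfx,
      ValuationSubring.mem_comap, map_inv₀]

/-- Non-units of the Gauss valuation ring are the functions with zero reduction. -/
theorem mem_nonunits_gaussVS {N : ℕ} {x : FF L N} (hx : (x : LaurentSeries L) ∈ contentRing W) :
    x ∈ (gaussVS W N).nonunits ↔ red W ⟨x, hx⟩ = 0 := by
  rcases eq_or_ne x 0 with rfl | hx0
  · constructor
    · intro _
      have : (⟨((0 : FF L N) : LaurentSeries L), hx⟩ : contentRing W) = 0 := rfl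
      rw [this, map_zero]
    · intro _
      rw [ValuationSubring.mem_nonunits_iff, map_zero]; exact zero_lt_one
  · have hx0' : (x : LaurentSeries L) ≠ 0 := fun h => hx0 (Subtype.ext h)
    rw [mem_nonunits_iff_inv_notMem _ hx0]
    constructor
    · intro h
      by_contra hred
      exact h (inv_mem_contentRing W hx hred)
    · intro hred hinv
      have hinv' : (x : LaurentSeries L)⁻¹ ∈ contentRing W := hinv
      have h1 := red_inv W hx hinv'
      have hmul : (⟨(x : LaurentSeries L)⁻¹, hinv'⟩ : contentRing W) * ⟨x, hx⟩ = 1 :=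
        Subtype.ext (inv_mul_cancel₀ hx0')
      have h2 := congrArg (red W) hmul
      rw [map_mul, map_one, hred, mul_zero] at h2
      exact zero_ne_one h2

/-! ### The Gauss valuation ring is a discrete valuation ring with uniformiser `ϖ` -/

theorem coe_algebraMap (N : ℕ) (c : L) :
    ((algebraMap L (FF L N) c : FF L N) : LaurentSeries L) = HahnSeries.C c := by
  show algebraMap L (LaurentSeries L) c = HahnSeries.C c
  rw [algebraMap_laurentSeries_eq_single]
  rfl

variable {W}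

/-- a constant of `W` as an element of the Gauss valuation ring -/
def const (N : ℕ) (c : W) : gaussVS W N :=
  ⟨algebraMap L (FF L N) (c : L), by
    show ((algebraMap L (FF L N) (c : L) : FF L N) : LaurentSeries L) ∈ contentRing W
    rw [coe_algebraMap]; exact C_mem_contentRing W c⟩

theorem coe_const (N : ℕ) (c : W) :
    ((const N c : gaussVS W N) : FF L N) = algebraMap L (FF L N) (c : L) := rfl

omit [IsDiscreteValuationRing W] in
theorem algebraMap_unif_ne_zero (N : ℕ) {ϖ : W} (hϖ : Irreducible ϖ) :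
    algebraMap L (FF L N) ((ϖ : W) : L) ≠ 0 := by
  rw [Ne, map_eq_zero_iff _ (algebraMap L (FF L N)).injective]
  exact fun h => hϖ.ne_zero (Subtype.ext h)

theorem maximalIdeal_gaussVS (N : ℕ) {ϖ : W} (hϖ : Irreducible ϖ) :
    IsLocalRing.maximalIdeal (gaussVS W N) = Ideal.span {const N ϖ} := by
  have h0 := algebraMap_unif_ne_zero (L := L) N hϖ
  ext a
  rw [Ideal.mem_span_singleton', ValuationSubring.valuation_lt_one_iff,
    ← ValuationSubring.mem_nonunits_iff, mem_nonunits_gaussVS W a.2, red_eq_zero_iff W hϖ]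
  constructor
  · rintro ⟨g, hg⟩
    have hg' : (((a : FF L N) * (algebraMap L (FF L N) ((ϖ : W) : L))⁻¹ : FF L N) :
        LaurentSeries L) = g := by
      show ((a : FF L N) : LaurentSeries L) *
        ((algebraMap L (FF L N) ((ϖ : W) : L) : FF L N) : LaurentSeries L)⁻¹ = g
      rw [coe_algebraMap]
      have hg2 : ((a : FF L N) : LaurentSeries L) =
          HahnSeries.C ((ϖ : W) : L) * (g : LaurentSeries L) := hg
      rw [hg2, mul_comm, ← mul_assoc, inv_mul_cancel₀ (C_unif_ne_zero W hϖ), one_mul]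
    refine ⟨⟨(a : FF L N) * (algebraMap L (FF L N) ((ϖ : W) : L))⁻¹, ?_⟩, ?_⟩
    · show (((a : FF L N) * (algebraMap L (FF L N) ((ϖ : W) : L))⁻¹ : FF L N) :
        LaurentSeries L) ∈ contentRing W
      rw [hg']; exact g.2
    · apply Subtype.ext
      show (a : FF L N) * (algebraMap L (FF L N) ((ϖ : W) : L))⁻¹ *
        algebraMap L (FF L N) ((ϖ : W) : L) = a
      rw [mul_assoc, inv_mul_cancel₀ h0, mul_one]
  · rintro ⟨b, rfl⟩
    refine ⟨⟨((b : FF L N) : LaurentSeries L), b.2⟩, ?_⟩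
    show ((b : FF L N) : LaurentSeries L) *
      ((algebraMap L (FF L N) ((ϖ : W) : L) : FF L N) : LaurentSeries L) = _
    rw [coe_algebraMap, mul_comm]

theorem const_ne_zero (N : ℕ) {ϖ : W} (hϖ : Irreducible ϖ) : (const N ϖ : gaussVS W N) ≠ 0 :=
  fun h => algebraMap_unif_ne_zero (L := L) N hϖ (congrArg Subtype.val h)

theorem irreducible_const (N : ℕ) {ϖ : W} (hϖ : Irreducible ϖ) :
    Irreducible (const N ϖ : gaussVS W N) := by
  have hmax : (Ideal.span {(const N ϖ : gaussVS W N)}).IsMaximal := by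
    rw [← maximalIdeal_gaussVS N hϖ]; infer_instance
  exact ((Ideal.span_singleton_prime (const_ne_zero N hϖ)).1 hmax.isPrime).irreducible

theorem exists_associated_pow (N : ℕ) {ϖ : W} (hϖ : Irreducible ϖ) {x : gaussVS W N}
    (hx : x ≠ 0) : ∃ n : ℕ, Associated (const N ϖ ^ n) x := by
  have hx0 : ((x : FF L N) : LaurentSeries L) ≠ 0 := fun h => hx (Subtype.ext (Subtype.ext h))
  obtain ⟨n, u, hu, hured, hxu⟩ :=
    fracInt_exists_zpow_mul_unit W hϖ (DDGauss.coe_mem_fracInt W N x) hx0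
  have hC0 := C_unif_ne_zero W hϖ
  have h0 := algebraMap_unif_ne_zero (L := L) N hϖ
  obtain ⟨k, rfl⟩ : ∃ k : ℕ, n = k := by
    by_contra hcon
    have hn : n < 0 := by
      by_contra h
      rw [not_lt] at h
      exact hcon ⟨n.toNat, (Int.toNat_of_nonneg h).symm⟩
    obtain ⟨m, rfl⟩ : ∃ m : ℕ, n = -((m : ℤ) + 1) := ⟨(-n).toNat - 1, by omega⟩
    apply hured
    have hu' : u = HahnSeries.C ((ϖ : W) : L) *
        (HahnSeries.C ((ϖ : W) : L) ^ m * ((x : FF L N) : LaurentSeries L)) := by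
      rw [hxu, zpow_neg, zpow_add₀ hC0, zpow_natCast, zpow_one]
      field_simp
    rw [red_eq_zero_iff W hϖ]
    exact ⟨⟨_, mul_mem (pow_mem (C_mem_contentRing W ϖ) m) x.2⟩, hu'⟩
  rw [zpow_natCast] at hxu
  have hinv : u⁻¹ ∈ contentRing W := inv_mem_contentRing W hu hured
  set y : FF L N := (x : FF L N) * (algebraMap L (FF L N) ((ϖ : W) : L) ^ k)⁻¹ with hy
  have hyu : (y : LaurentSeries L) = u := by
    show ((x : FF L N) : LaurentSeries L) *
      (((algebraMap L (FF L N) ((ϖ : W) : L) : FF L N) : LaurentSeries L) ^ k)⁻¹ = u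
    rw [coe_algebraMap, hxu, mul_comm, ← mul_assoc, inv_mul_cancel₀ (pow_ne_zero _ hC0), one_mul]
  have hy0 : y ≠ 0 := by
    rw [hy]
    exact mul_ne_zero (fun h => hx (Subtype.ext h)) (inv_ne_zero (pow_ne_zero _ h0))
  have hyinv : ((y⁻¹ : FF L N) : LaurentSeries L) = u⁻¹ := by
    rw [← hyu]; rfl
  refine ⟨k, ⟨⟨⟨y, by show (y : LaurentSeries L) ∈ contentRing W; rw [hyu]; exact hu⟩,
    ⟨y⁻¹, by show ((y⁻¹ : FF L N) : LaurentSeries L) ∈ contentRing W; rw [hyinv]; exact hinv⟩,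
    Subtype.ext (mul_inv_cancel₀ hy0), Subtype.ext (inv_mul_cancel₀ hy0)⟩, ?_⟩⟩
  apply Subtype.ext
  show algebraMap L (FF L N) ((ϖ : W) : L) ^ k * y = x
  rw [hy, mul_comm, mul_assoc, inv_mul_cancel₀ (pow_ne_zero _ h0), mul_one]

variable (W) in
/-- The Gauss valuation ring of `FF L N` is a discrete valuation ring (any level `N`). -/
instance isDVR_gaussVS (N : ℕ) : IsDiscreteValuationRing (gaussVS W N) := by
  obtain ⟨ϖ, hϖ⟩ := IsDiscreteValuationRing.exists_irreducible W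
  exact IsDiscreteValuationRing.ofHasUnitMulPowIrreducibleFactorization
    ⟨const N ϖ, irreducible_const N hϖ, fun hx => exists_associated_pow N hϖ hx⟩


/-! ### Independence of `1, j̄, …, j̄^(ℓ-1)` over the image of `q ↦ q ^ ℓ` -/

theorem order_jqModC (κ : Type*) [Field κ] : (jqModC κ).order = -1 := by
  rw [← Fermat.Agent.S28.Tower.jS_eq_jqModC' κ]
  exact Fermat.Agent.S28.NotRational.order_jS

theorem eq_zero_of_sum_qExpand_mul_pow {κ : Type*} [Field κ] (ℓ : ℕ) [NeZero ℓ]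
    (ρ : Fin ℓ → LaurentSeries κ)
    (h : ∑ r : Fin ℓ, qExpand κ ℓ (ρ r) * jqModC κ ^ (r : ℕ) = 0) : ∀ r, ρ r = 0 := by
  classical
  set Q : Polynomial (LaurentSeries κ) := ∑ r : Fin ℓ, Polynomial.monomial (r : ℕ) (ρ r) with hQ
  have hcoeff : ∀ i : Fin ℓ, Q.coeff (i : ℕ) = ρ i := by
    intro i
    rw [hQ, Polynomial.finsetSum_coeff, Finset.sum_eq_single i]
    · rw [Polynomial.coeff_monomial, if_pos rfl]
    · intro b _ hb
      rw [Polynomial.coeff_monomial, if_neg]
      exact fun hh => hb (Fin.ext hh)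
    · exact fun hh => absurd (Finset.mem_univ i) hh
  have heval : Q.eval₂ (qExpand κ ℓ) (jqModC κ) = 0 := by
    rw [hQ, Polynomial.eval₂_finsetSum, ← h]
    exact Finset.sum_congr rfl fun r _ => by rw [Polynomial.eval₂_monomial]
  have hQ0 : Q = 0 := by
    by_contra hne
    refine Fermat.Agent.S28.Tower.eval₂_ne_zero_of_order (qExpand κ ℓ) ℓ
      (fun x => Fermat.Agent.S28.Tower.dvd_order_qExpand ℓ x) (jqModC κ) ?_ Q hne ?_ heval
    · rw [order_jqModC]
      exact isCoprime_one_left.neg_left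
    · rw [Polynomial.natDegree_lt_iff_degree_lt hne, Polynomial.degree_lt_iff_coeff_zero]
      intro m hm
      rw [hQ, Polynomial.finsetSum_coeff]
      refine Finset.sum_eq_zero fun r _ => ?_
      rw [Polynomial.coeff_monomial, if_neg]
      have := r.2
      omega
  intro r
  rw [← hcoeff r, hQ0, Polynomial.coeff_zero]

/-- In characteristic `ℓ`, `j̄(q^ℓ) = j̄^ℓ`. -/
theorem qExpand_jqModC_eq_pow (κ : Type*) [Field κ] (ℓ : ℕ) [Fact ℓ.Prime] [CharP κ ℓ]
    [NeZero ℓ] : qExpand κ ℓ (jqModC κ) = jqModC κ ^ ℓ := by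
  rw [Fermat.Agent.S37.Kronecker.pow_char_eq ℓ (jqModC κ), coeffMap_jqModC]

/-- `j̄ ≠ j̄(q^ℓ)^ℓ` (orders `-1` and `-ℓ²`). -/
theorem jqModC_ne_qExpand_pow (κ : Type*) [Field κ] (ℓ : ℕ) [NeZero ℓ] (hℓ : 2 ≤ ℓ) :
    jqModC κ ≠ qExpand κ ℓ (jqModC κ) ^ ℓ := by
  intro h
  have ho := congrArg HahnSeries.order h
  rw [HahnSeries.order_pow, Fermat.Agent.S28.Tower.order_qExpand, order_jqModC κ] at ho
  have h2 : (2 : ℤ) ≤ ℓ := by exact_mod_cast hℓ
  simp only [nsmul_eq_mul] at ho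
  nlinarith [ho, h2]

/-! ### The two-extension hypotheses at level `M * ℓ` over the level-`M` Gauss valuation -/

section Inst

variable (M ℓ : ℕ) [NeZero M] [NeZero ℓ]

theorem algebraMap_inv_notMem (N : ℕ) {ϖ : W} (hϖ : Irreducible ϖ) :
    (algebraMap L (FF L N) ((ϖ : W) : L))⁻¹ ∉ gaussVS W N := by
  intro hmem
  have h1 : (((algebraMap L (FF L N) ((ϖ : W) : L))⁻¹ : FF L N) : LaurentSeries L) ∈
      contentRing W := hmem
  have h2 : (((algebraMap L (FF L N) ((ϖ : W) : L))⁻¹ : FF L N) : LaurentSeries L) =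
      HahnSeries.C (((ϖ : W) : L)⁻¹) := by
    show ((algebraMap L (FF L N) ((ϖ : W) : L) : FF L N) : LaurentSeries L)⁻¹ = _
    rw [coe_algebraMap, map_inv₀]
  rw [h2, C_mem_contentRing_iff] at h1
  have hϖ0 : ((ϖ : W) : L) ≠ 0 := fun h => hϖ.ne_zero (Subtype.ext h)
  exact hϖ.not_isUnit ⟨⟨ϖ, ⟨_, h1⟩, Subtype.ext (mul_inv_cancel₀ hϖ0),
    Subtype.ext (inv_mul_cancel₀ hϖ0)⟩, rfl⟩

variable (W)

/-- The two Gauss valuation rings of level `M * ℓ` are distinct. -/
theorem gaussVS_ne_comap [hℓ : Fact ℓ.Prime] [CharP (IsLocalRing.ResidueField W) ℓ]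
    (w : FF L (M * ℓ) ≃ₐ[L] FF L (M * ℓ))
    (hwα : ∀ y : FF L M, w (heckeAlphaBar L M ℓ y) = heckeBetaBar L M ℓ y)
    (hwβ : ∀ y : FF L M, w (heckeBetaBar L M ℓ y) = heckeAlphaBar L M ℓ y) :
    gaussVS W (M * ℓ) ≠
      (gaussVS W (M * ℓ)).comap (w : FF L (M * ℓ) →ₐ[L] FF L (M * ℓ)).toRingHom := by
  intro heq
  have hj : ((jBC L M : FF L M) : LaurentSeries L) = jqModC L := coe_jBC_eq L M
  have hjmem : jqModC L ∈ contentRing W := jq_mem_contentRing W
  have hjdmem : qExpand L ℓ (jqModC L) ∈ contentRing W := jqd_mem_contentRing W ℓ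
  have hxc : ((heckeBetaBar L M ℓ (jBC L M) - heckeAlphaBar L M ℓ (jBC L M) ^ ℓ :
      FF L (M * ℓ)) : LaurentSeries L) = qExpand L ℓ (jqModC L) - jqModC L ^ ℓ := by
    show ((heckeBetaBar L M ℓ (jBC L M) : FF L (M * ℓ)) : LaurentSeries L) -
      ((heckeAlphaBar L M ℓ (jBC L M) : FF L (M * ℓ)) : LaurentSeries L) ^ ℓ = _
    rw [coe_heckeBetaBar, coe_heckeAlphaBar, hj]
  have hxmem : ((heckeBetaBar L M ℓ (jBC L M) - heckeAlphaBar L M ℓ (jBC L M) ^ ℓ :
      FF L (M * ℓ)) : LaurentSeries L) ∈ contentRing W := by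
    rw [hxc]; exact sub_mem hjdmem (pow_mem hjmem ℓ)
  have hxred : red W ⟨_, hxmem⟩ = 0 := by
    have e : (⟨_, hxmem⟩ : contentRing W) =
        ⟨qExpand L ℓ (jqModC L), hjdmem⟩ - ⟨jqModC L, hjmem⟩ ^ ℓ := Subtype.ext hxc
    rw [e, map_sub, map_pow, red_jqd, red_jq, qExpand_jqModC_eq_pow, sub_self]
  have hx1 := (mem_nonunits_gaussVS W hxmem).2 hxred
  rw [heq, mem_nonunits_comap] at hx1
  have hwx : (w : FF L (M * ℓ) →ₐ[L] FF L (M * ℓ)).toRingHom
      (heckeBetaBar L M ℓ (jBC L M) - heckeAlphaBar L M ℓ (jBC L M) ^ ℓ) =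
      heckeAlphaBar L M ℓ (jBC L M) - heckeBetaBar L M ℓ (jBC L M) ^ ℓ := by
    show w _ = _
    rw [map_sub, map_pow, hwβ, hwα]
  rw [hwx] at hx1
  have hyc : ((heckeAlphaBar L M ℓ (jBC L M) - heckeBetaBar L M ℓ (jBC L M) ^ ℓ :
      FF L (M * ℓ)) : LaurentSeries L) = jqModC L - qExpand L ℓ (jqModC L) ^ ℓ := by
    show ((heckeAlphaBar L M ℓ (jBC L M) : FF L (M * ℓ)) : LaurentSeries L) -
      ((heckeBetaBar L M ℓ (jBC L M) : FF L (M * ℓ)) : LaurentSeries L) ^ ℓ = _
    rw [coe_heckeBetaBar, coe_heckeAlphaBar, hj]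
  have hymem : ((heckeAlphaBar L M ℓ (jBC L M) - heckeBetaBar L M ℓ (jBC L M) ^ ℓ :
      FF L (M * ℓ)) : LaurentSeries L) ∈ contentRing W := by
    rw [hyc]; exact sub_mem hjmem (pow_mem hjdmem ℓ)
  have hyred := (mem_nonunits_gaussVS W hymem).1 hx1
  have e : (⟨_, hymem⟩ : contentRing W) =
      ⟨jqModC L, hjmem⟩ - ⟨qExpand L ℓ (jqModC L), hjdmem⟩ ^ ℓ := Subtype.ext hyc
  rw [e, map_sub, map_pow, red_jqd, red_jq, sub_eq_zero] at hyred
  exact jqModC_ne_qExpand_pow _ ℓ hℓ.out.two_le hyred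

/-- Residual independence of `1, β j, …, (β j)^(ℓ-1)` at the second Gauss valuation over the
level-`M` Gauss valuation ring (acting through `α`). -/
theorem indep_comap (w : FF L (M * ℓ) ≃ₐ[L] FF L (M * ℓ))
    (hwα : ∀ y : FF L M, w (heckeAlphaBar L M ℓ y) = heckeBetaBar L M ℓ y)
    (hwβ : ∀ y : FF L M, w (heckeBetaBar L M ℓ y) = heckeAlphaBar L M ℓ y)
    (c : Fin ℓ → gaussVS W M)
    (hc : (∑ i, heckeAlphaBar L M ℓ (c i : FF L M) * heckeBetaBar L M ℓ (jBC L M) ^ (i : ℕ)) ∈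
      ((gaussVS W (M * ℓ)).comap (w : FF L (M * ℓ) →ₐ[L] FF L (M * ℓ)).toRingHom).nonunits)
    (i : Fin ℓ) : c i ∈ IsLocalRing.maximalIdeal (gaussVS W M) := by
  have hj : ((jBC L M : FF L M) : LaurentSeries L) = jqModC L := coe_jBC_eq L M
  have hjmem : jqModC L ∈ contentRing W := jq_mem_contentRing W
  rw [mem_nonunits_comap] at hc
  have hwsum : (w : FF L (M * ℓ) →ₐ[L] FF L (M * ℓ)).toRingHom
      (∑ i, heckeAlphaBar L M ℓ (c i : FF L M) * heckeBetaBar L M ℓ (jBC L M) ^ (i : ℕ)) =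
      ∑ i, heckeBetaBar L M ℓ (c i : FF L M) * heckeAlphaBar L M ℓ (jBC L M) ^ (i : ℕ) := by
    show w _ = _
    rw [map_sum]
    refine Finset.sum_congr rfl fun i _ => ?_
    rw [map_mul, map_pow, hwα, hwβ]
  rw [hwsum] at hc
  have hsc : ((∑ i, heckeBetaBar L M ℓ (c i : FF L M) *
      heckeAlphaBar L M ℓ (jBC L M) ^ (i : ℕ) : FF L (M * ℓ)) : LaurentSeries L) =
      ∑ i, qExpand L ℓ ((c i : FF L M) : LaurentSeries L) * jqModC L ^ (i : ℕ) := by
    rw [← hj]
    simp only [AddSubmonoidClass.coe_finsetSum, MulMemClass.coe_mul,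
      SubmonoidClass.coe_pow, coe_heckeBetaBar, coe_heckeAlphaBar]
  have hterm : ∀ i : Fin ℓ, qExpand L ℓ ((c i : FF L M) : LaurentSeries L) ∈ contentRing W :=
    fun i => qExpand_mem_contentRing W ℓ (c i).2
  have hsmem : ((∑ i, heckeBetaBar L M ℓ (c i : FF L M) *
      heckeAlphaBar L M ℓ (jBC L M) ^ (i : ℕ) : FF L (M * ℓ)) : LaurentSeries L) ∈
      contentRing W := by
    rw [hsc]
    exact sum_mem fun i _ => mul_mem (hterm i) (pow_mem hjmem _)
  have hred := (mem_nonunits_gaussVS W hsmem).1 hc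
  have e : (⟨_, hsmem⟩ : contentRing W) =
      ∑ i, (⟨qExpand L ℓ ((c i : FF L M) : LaurentSeries L), hterm i⟩ : contentRing W) *
        ⟨jqModC L, hjmem⟩ ^ (i : ℕ) := by
    apply Subtype.ext
    rw [hsc]
    simp only [AddSubmonoidClass.coe_finsetSum, MulMemClass.coe_mul, SubmonoidClass.coe_pow]
  rw [e, map_sum] at hred
  have hred' : ∑ i : Fin ℓ, qExpand (IsLocalRing.ResidueField W) ℓ
      (red W ⟨((c i : FF L M) : LaurentSeries L), (c i).2⟩) *
      jqModC (IsLocalRing.ResidueField W) ^ (i : ℕ) = 0 := by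
    rw [← hred]
    refine Finset.sum_congr rfl fun i _ => ?_
    rw [map_mul, map_pow, red_jq, red_qExpand W ℓ (c i).2]
  have hzero := eq_zero_of_sum_qExpand_mul_pow ℓ _ hred'
  rw [ValuationSubring.valuation_lt_one_iff, ← ValuationSubring.mem_nonunits_iff,
    mem_nonunits_gaussVS W (c i).2]
  exact hzero i

/-- **The two-extension hypotheses** (`TwoExt.Hyp`) for `FF L (M * ℓ)` over `FF L M` (through
`α`), the Gauss valuation ring of level `M`, the two Gauss valuation rings `O₁` and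
`O₂ = w⁻¹ O₁` of level `M * ℓ`, and the family `1, β j, …, (β j)^(ℓ-1)` in `O₂`. -/
theorem hyp_level (ι₀ : L →+* ℂ) [hℓ : Fact ℓ.Prime] (hℓM : ¬ ℓ ∣ M)
    [CharP (IsLocalRing.ResidueField W) ℓ] {ϖ : W} (hϖ : Irreducible ϖ)
    (w : FF L (M * ℓ) ≃ₐ[L] FF L (M * ℓ))
    (hwα : ∀ y : FF L M, w (heckeAlphaBar L M ℓ y) = heckeBetaBar L M ℓ y)
    (hwβ : ∀ y : FF L M, w (heckeBetaBar L M ℓ y) = heckeAlphaBar L M ℓ y) :
    letI := algebraAlong (heckeAlphaBar L M ℓ)
    letI : Algebra (gaussVS W M) (FF L (M * ℓ)) :=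
      ((algebraMap (FF L M) (FF L (M * ℓ))).comp (algebraMap (gaussVS W M) (FF L M))).toAlgebra
    TwoExt.Hyp (FF L M) (const M ϖ : gaussVS W M) (gaussVS W (M * ℓ))
      ((gaussVS W (M * ℓ)).comap (w : FF L (M * ℓ) →ₐ[L] FF L (M * ℓ)).toRingHom)
      (fun _ : Fin 1 => (1 : FF L (M * ℓ)))
      (fun r : Fin ℓ => heckeBetaBar L M ℓ (jBC L M) ^ (r : ℕ)) := by
  letI := algebraAlong (heckeAlphaBar L M ℓ)
  letI : Algebra (gaussVS W M) (FF L (M * ℓ)) :=
    ((algebraMap (FF L M) (FF L (M * ℓ))).comp (algebraMap (gaussVS W M) (FF L M))).toAlgebra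
  have hmap : ∀ a : gaussVS W M, algebraMap (gaussVS W M) (FF L (M * ℓ)) a =
      heckeAlphaBar L M ℓ (a : FF L M) := fun a => rfl
  have hπ : algebraMap (gaussVS W M) (FF L (M * ℓ)) (const M ϖ) =
      algebraMap L (FF L (M * ℓ)) ((ϖ : W) : L) := by
    rw [hmap, coe_const]; exact (heckeAlphaBar L M ℓ).commutes _
  have hcomap : ∀ x : FF L (M * ℓ),
      x ∈ (gaussVS W (M * ℓ)).comap (w : FF L (M * ℓ) →ₐ[L] FF L (M * ℓ)).toRingHom ↔
        ((w x : FF L (M * ℓ)) : LaurentSeries L) ∈ contentRing W := fun x => Iff.rfl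
  have hj : ((jBC L M : FF L M) : LaurentSeries L) = jqModC L := coe_jBC_eq L M
  have hjmem : jqModC L ∈ contentRing W := jq_mem_contentRing W
  refine TwoExt.Hyp.of_one (irreducible_const M hϖ) ?_ ?_ ?_ ?_
    (gaussVS_ne_comap W M ℓ w hwα hwβ) ?_ ?_ ?_
  · -- le₁
    intro a
    rw [hmap, mem_gaussVS, coe_heckeAlphaBar]
    exact a.2
  · -- le₂
    intro a
    rw [hmap, hcomap, hwα, coe_heckeBetaBar]
    exact qExpand_mem_contentRing W ℓ a.2
  · -- inv_notMem₁
    rw [hπ]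
    exact algebraMap_inv_notMem (M * ℓ) hϖ
  · -- inv_notMem₂
    rw [hπ]
    intro hmem
    rw [ValuationSubring.mem_comap] at hmem
    have : (w : FF L (M * ℓ) →ₐ[L] FF L (M * ℓ)).toRingHom
        (algebraMap L (FF L (M * ℓ)) ((ϖ : W) : L))⁻¹ =
        (algebraMap L (FF L (M * ℓ)) ((ϖ : W) : L))⁻¹ := by
      rw [map_inv₀]
      congr 1
      exact w.commutes _
    rw [this] at hmem
    exact algebraMap_inv_notMem (M * ℓ) hϖ hmem
  · -- mem
    intro r
    rw [hcomap, map_pow, hwβ]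
    show ((heckeAlphaBar L M ℓ (jBC L M) : FF L (M * ℓ)) : LaurentSeries L) ^ (r : ℕ) ∈
      contentRing W
    rw [coe_heckeAlphaBar, hj]
    exact pow_mem hjmem _
  · -- indep
    intro c hc i
    exact indep_comap W M ℓ w hwα hwβ c hc i
  · -- finrank_le
    exact (Fermat.Agent.S34.DegreeL.finrank_alpha_level L ι₀ M ℓ hℓ.out hℓM).2.le

end Inst

/-! ### (F1): the residue field of the Gauss valuation of level `M * ℓ` is that of level `M` -/

section F1

variable (W) (M ℓ : ℕ) [NeZero M] [NeZero ℓ]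

/-- **`f(v₁ | v_M) = 1`.** Every Gauss-integral function of level `M * ℓ` has the same reduction
as a Gauss-integral function of level `M`. -/
theorem exists_red_eq (ι₀ : L →+* ℂ) [hℓ : Fact ℓ.Prime] (hℓM : ¬ ℓ ∣ M)
    [CharP (IsLocalRing.ResidueField W) ℓ] (x : FF L (M * ℓ))
    (hx : (x : LaurentSeries L) ∈ contentRing W) :
    ∃ (y : FF L M) (hy : (y : LaurentSeries L) ∈ contentRing W),
      red W ⟨x, hx⟩ = red W ⟨y, hy⟩ := by
  obtain ⟨ϖ, hϖ⟩ := IsDiscreteValuationRing.exists_irreducible W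
  obtain ⟨w, hwα, hwβ⟩ :=
    Fermat.Agent.S37.AtkinLehner.exists_atkinLehner_of_emb ι₀ M ℓ hℓ.out hℓM
  have H := hyp_level W M ℓ ι₀ hℓM hϖ w (fun y => AlgHom.congr_fun hwα y)
    (fun y => AlgHom.congr_fun hwβ y)
  letI := algebraAlong (heckeAlphaBar L M ℓ)
  letI : Algebra (gaussVS W M) (FF L (M * ℓ)) :=
    ((algebraMap (FF L M) (FF L (M * ℓ))).comp (algebraMap (gaussVS W M) (FF L M))).toAlgebra
  haveI : IsScalarTower (gaussVS W M) (FF L M) (FF L (M * ℓ)) :=
    IsScalarTower.of_algebraMap_eq (fun _ => rfl)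
  haveI : FiniteDimensional (FF L M) (FF L (M * ℓ)) :=
    (Fermat.Agent.S34.DegreeL.finrank_alpha_level L ι₀ M ℓ hℓ.out hℓM).1
  haveI : CharZero L := charZero_of_injective_algebraMap (algebraMap ℚ L).injective
  haveI : CharZero (FF L M) := charZero_of_injective_algebraMap (algebraMap L (FF L M)).injective
  haveI : Algebra.IsSeparable (FF L M) (FF L (M * ℓ)) := inferInstance
  obtain ⟨c, hc⟩ := H.exists_sub_sum_mem_nonunits₁ (FF L M) (x := x) hx
  rw [Fin.sum_univ_one, mul_one] at hc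
  have hcmem : ((algebraMap (gaussVS W M) (FF L (M * ℓ)) (c 0) : FF L (M * ℓ)) :
      LaurentSeries L) = ((c 0 : FF L M) : LaurentSeries L) := coe_heckeAlphaBar M ℓ _
  refine ⟨(c 0 : FF L M), (c 0).2, ?_⟩
  have hsub : ((x - algebraMap (gaussVS W M) (FF L (M * ℓ)) (c 0) : FF L (M * ℓ)) :
      LaurentSeries L) ∈ contentRing W := by
    show (x : LaurentSeries L) - ((algebraMap (gaussVS W M) (FF L (M * ℓ)) (c 0) :
      FF L (M * ℓ)) : LaurentSeries L) ∈ contentRing W
    rw [hcmem]; exact sub_mem hx (c 0).2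
  have hred := (mem_nonunits_gaussVS W hsub).1 hc
  have e : (⟨_, hsub⟩ : contentRing W) =
      ⟨(x : LaurentSeries L), hx⟩ - ⟨((c 0 : FF L M) : LaurentSeries L), (c 0).2⟩ := by
    apply Subtype.ext
    show (x : LaurentSeries L) - ((algebraMap (gaussVS W M) (FF L (M * ℓ)) (c 0) :
      FF L (M * ℓ)) : LaurentSeries L) = _
    rw [hcmem]
    rfl
  rw [e, map_sub, sub_eq_zero] at hred
  exact hred

/-- **(F1)**: the reduction of a Gauss-integral function of level `M * ℓ` lies in the function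
field `F_κ(M)` of level `M` over the residue field. -/
theorem red_mem_fullC_level (ι₀ : L →+* ℂ) [hℓ : Fact ℓ.Prime] (hℓM : ¬ ℓ ∣ M)
    [CharP (IsLocalRing.ResidueField W) ℓ] (x : FF L (M * ℓ))
    (hx : (x : LaurentSeries L) ∈ contentRing W) :
    red W ⟨x, hx⟩ ∈ modularFunctionFieldFullC (IsLocalRing.ResidueField W) M := by
  obtain ⟨y, hy, h⟩ := exists_red_eq W M ℓ ι₀ hℓM x hx
  rw [h]
  exact red_mem_fullC W M ℓ hℓM y.2 hy

/-- `exists_red_eq` at a level `ι : L →+* ℚ̄`. -/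
theorem exists_red_eq_of_bar (ι : L →+* AlgebraicClosure ℚ) [hℓ : Fact ℓ.Prime] (hℓM : ¬ ℓ ∣ M)
    [CharP (IsLocalRing.ResidueField W) ℓ] (x : FF L (M * ℓ))
    (hx : (x : LaurentSeries L) ∈ contentRing W) :
    ∃ (y : FF L M) (hy : (y : LaurentSeries L) ∈ contentRing W),
      red W ⟨x, hx⟩ = red W ⟨y, hy⟩ :=
  exists_red_eq W M ℓ (Fermat.Agent.S34.DegreeL.toComplex L ι) hℓM x hx

/-- **(F1)** at a level `ι : L →+* ℚ̄`. -/
theorem red_mem_fullC_of_bar (ι : L →+* AlgebraicClosure ℚ) [hℓ : Fact ℓ.Prime] (hℓM : ¬ ℓ ∣ M)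
    [CharP (IsLocalRing.ResidueField W) ℓ] (x : FF L (M * ℓ))
    (hx : (x : LaurentSeries L) ∈ contentRing W) :
    red W ⟨x, hx⟩ ∈ modularFunctionFieldFullC (IsLocalRing.ResidueField W) M :=
  red_mem_fullC_level W M ℓ (Fermat.Agent.S34.DegreeL.toComplex L ι) hℓM x hx

end F1

end Fermat.Agent.S34.ResField
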