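import Mathlib
import Fermat.Agent.S34.Sections

/-!
# S34, package B3/B4 glue: a place with a section is determined by its section

Currency of `S34.Sections` / `S37.WChart`: `K` a field, `F` a function field over `K`, `L ⊆ K`
(`ι : L →+* K`) with a valuation ring `W`, `B` a noetherian integrally closed chart ring over `W`
(the chart ring itself or one of its local rings `B_𝔫`) mapping to `F` by `ψ`.

`eq_of_isSectionOf` : if two places `P`, `P'` have the SAME section `s : B →ₐ[W] W` and `P` is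
rational and unramified over the chart (`RatAtB`), then `P' = P`.

This is the step "`s_P = s_{τ P}` implies `τ P = P`" of the contract (LOC) in the degenerate case
at a node, where no local generator of `ker s` is available.  Proof: `ker s` is a minimal nonzero
prime (a nonzero prime `𝔮 ⊊ ker s` is the zero ideal of a place `Q`; the value at `Q` of an
element `z ∈ ker s ∖ 𝔮` is algebraic over `W`, which gives `a₀ + a₁ z + ⋯ ∈ 𝔮 ⊆ ker s` with
`a₀ ≠ 0`, absurd); hence the localisation of `B` at `ker s` is a discrete valuation ring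
(`HeightOne.exists_uniformizer`), the orders at `P` and at `P'` of the chart functions are
proportional, and the uniqueness clause of `RatAtB` applies.
-/

set_option autoImplicit false
set_option linter.unusedSectionVars false

namespace Fermat.Agent.S34.SecPlace

open AlgebraicCurve Polynomial Fermat.Agent.S37.GaloisValue Fermat.Agent.S37.WChart
  Fermat.Agent.S34.Sections

variable {K F L : Type*} [Field K] [Field F] [Algebra K F] [Field L]
  {ι : L →+* K} {W : ValuationSubring L}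
  {B : Type*} [CommRing B] [IsDomain B] [IsNoetherianRing B] [Algebra W B]
  {ψ : B →+* F}

/-- the section of a place is the identity on constants -/
theorem section_algebraMap (s : B →ₐ[W] W) (w : W) : s (algebraMap W B w) = w := by
  rw [AlgHom.commutes]; rfl

/-- the kernel of the section of a place which is unramified over the chart is nonzero -/
theorem exists_ne_zero_section_eq_zero {P : Place K F} {s : B →ₐ[W] W}
    (hs : IsSectionOf ι W ψ P s)
    (hram : ∃ y₁ y₂ : B, y₁ ≠ 0 ∧ y₂ ≠ 0 ∧ P.ord (ψ y₁) - P.ord (ψ y₂) = 1) :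
    ∃ t : B, t ≠ 0 ∧ s t = 0 := by
  by_contra hcon
  push Not at hcon
  obtain ⟨y₁, y₂, h1, h2, hord⟩ := hram
  have hz : ∀ y : B, y ≠ 0 → P.ord (ψ y) = 0 := by
    intro y hy
    refine ord_eq_zero_of_isValueAt (hs y) ?_
    intro h0
    have h3 : ((s y : W) : L) = 0 := (map_eq_zero ι).mp h0
    exact hcon y hy (Subtype.ext h3)
  rw [hz y₁ h1, hz y₂ h2] at hord
  norm_num at hord

/-- the value at a place of a polynomial expression in a chart function -/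
theorem isValueAt_aeval (hψW : ∀ w : W, ψ (algebraMap W B w) = algebraMap K F (ι w))
    (Q : Place K F) {z : B} {c : K} (hc : IsValueAt Q (ψ z) c) (p : W[X]) :
    IsValueAt Q (ψ (aeval z p)) (p.eval₂ (ι.comp W.subtype) c) := by
  induction p using Polynomial.induction_on' with
  | add p q hp hq =>
    rw [map_add, map_add, eval₂_add]
    exact hp.add hq
  | monomial n a =>
    rw [aeval_monomial, map_mul, map_pow, hψW, eval₂_monomial]
    exact (isValueAt_algebraMap Q _).mul (hc.pow n)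

/-- **The kernel of a section is a minimal nonzero prime.** -/
theorem eq_ker_of_le (hψW : ∀ w : W, ψ (algebraMap W B w) = algebraMap K F (ι w))
    (π : W) (hπ0 : π ≠ 0)
    (hext : ∀ 𝔮 : Ideal B, 𝔮.IsPrime → 𝔮 ≠ ⊥ → algebraMap W B π ∉ 𝔮 →
      ∃ Q : Place K F, ∀ y : B, ψ y ∈ Q.toValuationSubring ∧ (y ∈ 𝔮 ↔ IsValueAt Q (ψ y) 0))
    (hval : ∀ (Q : Place K F) (y : B), ψ y ∈ Q.toValuationSubring → ∃ c : K, IsValueAt Q (ψ y) c)
    (halg : ∀ c : K, ∃ p : W[X], p ≠ 0 ∧ p.eval₂ (ι.comp W.subtype) c = 0)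
    (s : B →ₐ[W] W) (𝔮 : Ideal B) (h𝔮 : 𝔮.IsPrime) (h𝔮0 : 𝔮 ≠ ⊥)
    (hle : 𝔮 ≤ RingHom.ker (s : B →+* W)) : 𝔮 = RingHom.ker (s : B →+* W) := by
  have hπ𝔮 : algebraMap W B π ∉ 𝔮 := by
    intro h
    have h1 : s (algebraMap W B π) = 0 := hle h
    rw [section_algebraMap] at h1
    exact hπ0 h1
  obtain ⟨Q, hQ⟩ := hext 𝔮 h𝔮 h𝔮0 hπ𝔮
  refine le_antisymm hle ?_
  intro z hz
  have hsz : s z = 0 := hz
  by_contra hz𝔮
  obtain ⟨c, hc⟩ := hval Q z (hQ z).1
  obtain ⟨p, hp0, hpc⟩ := halg c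
  obtain ⟨q, hpq, hq⟩ := exists_eq_pow_rootMultiplicity_mul_and_not_dvd p hp0 0
  rw [C_0, sub_zero] at hpq hq
  have h1 : aeval z p ∈ 𝔮 := by
    rw [(hQ _).2]
    have := isValueAt_aeval hψW Q hc p
    rwa [hpc] at this
  have h2 : aeval z q ∈ 𝔮 := by
    rw [hpq, map_mul, map_pow, aeval_X] at h1
    rcases h𝔮.mem_or_mem h1 with h | h
    · exact absurd (h𝔮.mem_of_pow_mem _ h) hz𝔮
    · exact h
  have h3 : s (aeval z q) = 0 := hle h2
  have h4 : s (aeval z q) = q.coeff 0 := by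
    rw [← aeval_algHom_apply, hsz, ← coeff_zero_eq_aeval_zero]
  apply hq
  rw [X_dvd_iff, ← h4, h3]

variable [IsIntegrallyClosed B]

/-- **A place with a section is determined by its section**: two places with the same section,
one of which is rational and unramified over the chart, are equal. -/
theorem eq_of_isSectionOf (hψ : Function.Injective ψ)
    (hψW : ∀ w : W, ψ (algebraMap W B w) = algebraMap K F (ι w))
    (π : W) (hπ0 : π ≠ 0)
    (hext : ∀ 𝔮 : Ideal B, 𝔮.IsPrime → 𝔮 ≠ ⊥ → algebraMap W B π ∉ 𝔮 →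
      ∃ Q : Place K F, ∀ y : B, ψ y ∈ Q.toValuationSubring ∧ (y ∈ 𝔮 ↔ IsValueAt Q (ψ y) 0))
    (hval : ∀ (Q : Place K F) (y : B), ψ y ∈ Q.toValuationSubring → ∃ c : K, IsValueAt Q (ψ y) c)
    (halg : ∀ c : K, ∃ p : W[X], p ≠ 0 ∧ p.eval₂ (ι.comp W.subtype) c = 0)
    {P P' : Place K F} {s : B →ₐ[W] W} (hs : IsSectionOf ι W ψ P s)
    (hs' : IsSectionOf ι W ψ P' s) (hR : RatAtB ι ψ P) : P' = P := by
  obtain ⟨-, hram, huniq⟩ := hR
  have hψ0 : ∀ y : B, y ≠ 0 → ψ y ≠ 0 := fun y hy h => hy (hψ (by rw [h, map_zero]))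
  obtain ⟨t₀, ht₀, hst₀⟩ := exists_ne_zero_section_eq_zero hs hram
  set 𝔭 : Ideal B := RingHom.ker (s : B →+* W) with h𝔭def
  have h𝔭p : 𝔭.IsPrime := RingHom.ker_isPrime _
  have hmem𝔭 : ∀ y : B, y ∈ 𝔭 ↔ s y = 0 := fun y => Iff.rfl
  have h𝔭 : 𝔭 ∈ (Ideal.span {t₀} : Ideal B).minimalPrimes := by
    refine ⟨⟨h𝔭p, ?_⟩, ?_⟩
    · rw [Ideal.span_singleton_le_iff_mem]
      exact hst₀
    · rintro 𝔮 ⟨h𝔮p, h𝔮le⟩ h𝔮𝔭
      have h𝔮0 : 𝔮 ≠ ⊥ := by
        intro h0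
        have : t₀ ∈ 𝔮 := h𝔮le (Ideal.subset_span rfl)
        rw [h0, Ideal.mem_bot] at this
        exact ht₀ this
      exact (eq_ker_of_le hψW π hπ0 hext hval halg s 𝔮 h𝔮p h𝔮0 h𝔮𝔭).ge
  obtain ⟨t, ht𝔭, ht0, hfac⟩ := HeightOne.exists_uniformizer t₀ ht₀ 𝔭 h𝔭
  -- orders at any place with section `s`
  have hkey : ∀ Q : Place K F, IsSectionOf ι W ψ Q s →
      0 < Q.ord (ψ t) ∧ ∀ y : B, y ≠ 0 → ∀ (k : ℕ) (s₁ d : B), s₁ ∉ 𝔭 → d ∉ 𝔭 →
        s₁ * y = t ^ k * d → Q.ord (ψ y) = k * Q.ord (ψ t) := by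
    intro Q hsQ
    have hunit : ∀ x : B, x ∉ 𝔭 → Q.ord (ψ x) = 0 := by
      intro x hx
      refine ord_eq_zero_of_isValueAt (hsQ x) ?_
      intro h0
      have h3 : ((s x : W) : L) = 0 := (map_eq_zero ι).mp h0
      exact hx ((hmem𝔭 x).mpr (Subtype.ext h3))
    have hpos : 0 < Q.ord (ψ t) :=
      ord_pos_of_isValueAt_zero ((hsQ.eq_zero_iff t).mp ((hmem𝔭 t).mp ht𝔭)) (hψ0 t ht0)
    refine ⟨hpos, ?_⟩
    intro y hy k s₁ d hs₁ hd h
    have hs₁0 : s₁ ≠ 0 := by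
      rintro rfl
      exact hs₁ (zero_mem _)
    have hd0 : d ≠ 0 := by
      rintro rfl
      exact hd (zero_mem _)
    have e1 : ψ s₁ * ψ y = ψ t ^ k * ψ d := by rw [← map_mul, h, map_mul, map_pow]
    have h1 := congrArg Q.ord e1
    rw [Q.ord_mul (hψ0 s₁ hs₁0) (hψ0 y hy), Q.ord_mul (pow_ne_zero k (hψ0 t ht0)) (hψ0 d hd0),
      ord_pow, hunit s₁ hs₁, hunit d hd] at h1
    linarith
  obtain ⟨hP, hPk⟩ := hkey P hs
  obtain ⟨hP', hP'k⟩ := hkey P' hs'
  apply huniq P'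
  intro y₁ y₂ hy₁ hy₂
  obtain ⟨k₁, a₁, d₁, ha₁, hd₁, he₁⟩ := hfac y₁ hy₁
  obtain ⟨k₂, a₂, d₂, ha₂, hd₂, he₂⟩ := hfac y₂ hy₂
  rw [hPk y₁ hy₁ k₁ a₁ d₁ ha₁ hd₁ he₁, hPk y₂ hy₂ k₂ a₂ d₂ ha₂ hd₂ he₂,
    hP'k y₁ hy₁ k₁ a₁ d₁ ha₁ hd₁ he₁, hP'k y₂ hy₂ k₂ a₂ d₂ ha₂ hd₂ he₂]
  constructor
  · intro h
    have h5 : (k₂ : ℤ) ≤ k₁ := le_of_mul_le_mul_right h hP'
    exact mul_le_mul_of_nonneg_right h5 hP.le
  · intro h
    have h5 : (k₂ : ℤ) ≤ k₁ := le_of_mul_le_mul_right h hP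
    exact mul_le_mul_of_nonneg_right h5 hP'.le

end Fermat.Agent.S34.SecPlace
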