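import Mathlib
import Fermat.Agent.S18.GaussVal
import Fermat.Agent.S37.AtkinLehner
import Fermat.Agent.S37.Kronecker

/-!
# S34 (wave 6), package B1: the two Gauss valuations of `FF L (M * q)`

`L` is a field of characteristic zero with a valuation subring `W`; `κ` is the residue field.

* `int1 W N` : the elements of `FF L N` whose `q`-expansion lies in the content ring
  (the first Gauss valuation ring, any level `N`), with residue map `res1 W N` to `κ((q))`.
* for an `L`-automorphism `w` of `FF L N`: `int2 W N w := w⁻¹ (int1 W N)`,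
  `res2 W N w := res1 ∘ w` (the second Gauss valuation ring when `w` is the Atkin-Lehner
  involution of `FF L (M * q)`).
* the four congruences for the two degeneracy maps `α = heckeAlphaBar`, `β = heckeBetaBar`.
-/

set_option autoImplicit false

noncomputable section

namespace Fermat.Agent.S34.TwoVal

open ModularCurve Polynomial Fermat.Agent.S24 Fermat.Agent.S18.Gauss

variable {L : Type*} [Field L] [Algebra ℚ L] (W : ValuationSubring L)

/-! ### `FF L N` lies in the field of quotients of integral series, for every level -/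

theorem algebraMap_mem_fracInt (a : L) : algebraMap L (LaurentSeries L) a ∈ fracInt W := by
  rw [Fermat.Agent.S28.Content.algebraMap_eq_C_of_field]
  exact C_mem_fracInt W a

theorem coeffEmb_mem_fracInt (N : ℕ) {z : LaurentSeries ℚ}
    (hz : z ∈ modularFunctionFieldFull N) : coeffEmb L z ∈ fracInt W := by
  have hz' : z ∈ Subfield.closure
      (Set.range (algebraMap ℚ (LaurentSeries ℚ)) ∪ divisorExpansions N) := hz
  have hle : Subfield.closure
      (Set.range (algebraMap ℚ (LaurentSeries ℚ)) ∪ divisorExpansions N)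
        ≤ (fracInt W).comap (coeffEmb L) := by
    rw [Subfield.closure_le]
    rintro y (⟨a, rfl⟩ | ⟨d, hne, hd, rfl⟩)
    · show coeffEmb L (algebraMap ℚ (LaurentSeries ℚ) a) ∈ fracInt W
      have : coeffEmb L (algebraMap ℚ (LaurentSeries ℚ) a)
          = algebraMap L (LaurentSeries L) (algebraMap ℚ L a) := by
        rw [algebraMap_apply_eq_single, algebraMap_laurentSeries_eq_single, coeffEmb,
          coeffMap_single]
      rw [this]
      exact algebraMap_mem_fracInt W _
    · show coeffEmb L (qExpand ℚ d jq) ∈ fracInt W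
      have h1 : coeffEmb L (qExpand ℚ d jq) = qExpand L d (jqModC L) := by
        rw [coeffEmb, ModularCurve.coeffMap_qExpand]
        exact congrArg _ (coeffEmb_jq L)
      rw [h1]
      exact contentRing_le_fracInt W (jqd_mem_contentRing W d)
  exact hle hz'

/-- **Every element of `FF L N` is a quotient of `W`-integral series** (no condition on `N`). -/
theorem mem_fracInt_of_mem_FF (N : ℕ) {x : LaurentSeries L}
    (hx : x ∈ laurentBaseChange L (modularFunctionFieldFull N)) : x ∈ fracInt W := by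
  rw [mem_laurentBaseChange_iff] at hx
  have hle : Subfield.closure
      (Set.range (algebraMap L (LaurentSeries L)) ∪
        (⇑(coeffEmb L) '' ((modularFunctionFieldFull N : IntermediateField ℚ (LaurentSeries ℚ)) :
          Set (LaurentSeries ℚ)))) ≤ fracInt W := by
    rw [Subfield.closure_le]
    rintro y (⟨a, rfl⟩ | ⟨z, hz, rfl⟩)
    · exact algebraMap_mem_fracInt W a
    · exact coeffEmb_mem_fracInt W N hz
  exact hle hx

/-! ### The first Gauss valuation ring (any level) -/

section First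

variable (N : ℕ)

/-- The first Gauss valuation ring: elements of `FF L N` with `q`-expansion in the content
ring. -/
def int1 : Subring (FF L N) :=
  (contentRing W).comap (algebraMap (FF L N) (LaurentSeries L))

theorem mem_int1_iff {x : FF L N} :
    x ∈ int1 W N ↔ (x : LaurentSeries L) ∈ contentRing W := Iff.rfl

/-- The residue map of the first Gauss valuation, with values in `κ((q))`. -/
def res1 : int1 W N →+* LaurentSeries (IsLocalRing.ResidueField W) :=
  (red W).comp ((algebraMap (FF L N) (LaurentSeries L)).restrict (int1 W N) (contentRing W)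
    (fun _ hx => hx))

theorem res1_apply (x : int1 W N) :
    res1 W N x = red W ⟨((x : FF L N) : LaurentSeries L), x.2⟩ := rfl

theorem res1_mk {x : FF L N} (hx : x ∈ int1 W N) :
    res1 W N ⟨x, hx⟩ = red W ⟨(x : LaurentSeries L), hx⟩ := rfl

theorem algebraMap_mem_int1 (c : W) : algebraMap L (FF L N) (c : L) ∈ int1 W N := by
  rw [mem_int1_iff]
  have : ((algebraMap L (FF L N) (c : L) : FF L N) : LaurentSeries L) = HahnSeries.C (c : L) := by
    rw [← Fermat.Agent.S28.Content.algebraMap_eq_C_of_field]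
    rfl
  rw [this]
  exact C_mem_contentRing W c

theorem coe_algebraMap_FF (c : L) :
    ((algebraMap L (FF L N) c : FF L N) : LaurentSeries L) = HahnSeries.C c := by
  rw [← Fermat.Agent.S28.Content.algebraMap_eq_C_of_field]
  rfl

theorem res1_algebraMap (c : W) :
    res1 W N ⟨algebraMap L (FF L N) (c : L), algebraMap_mem_int1 W N c⟩ =
      HahnSeries.C (IsLocalRing.residue W c) := by
  rw [res1_mk, ← red_C]
  congr 1
  exact Subtype.ext (coe_algebraMap_FF N (c : L))

section DVR

variable [IsDiscreteValuationRing W]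

/-- `int1` is a valuation ring of `FF L N`. -/
theorem mem_int1_or_inv_mem (x : FF L N) : x ∈ int1 W N ∨ x⁻¹ ∈ int1 W N := by
  have h := mem_contentRing_or_inv_mem W (mem_fracInt_of_mem_FF W N x.2)
  rcases h with h | h
  · exact Or.inl h
  · right
    rw [mem_int1_iff]
    have : ((x⁻¹ : FF L N) : LaurentSeries L) = (x : LaurentSeries L)⁻¹ := rfl
    rw [this]
    exact h

/-- The kernel of `res1` is generated by the uniformiser. -/
theorem res1_eq_zero_iff {ϖ : W} (hϖ : Irreducible ϖ) (x : int1 W N) :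
    res1 W N x = 0 ↔
      ∃ y : int1 W N, (x : FF L N) = algebraMap L (FF L N) ((ϖ : W) : L) * (y : FF L N) := by
  rw [res1_apply, red_eq_zero_iff W hϖ]
  have hϖ0 : algebraMap L (FF L N) ((ϖ : W) : L) ≠ 0 := by
    rw [Ne, map_eq_zero]
    intro h
    exact hϖ.ne_zero (Subtype.ext h)
  constructor
  · rintro ⟨g, hg⟩
    have hy : ((algebraMap L (FF L N) ((ϖ : W) : L))⁻¹ * (x : FF L N) : FF L N) ∈ int1 W N := by
      rw [mem_int1_iff]
      have h1 : (((algebraMap L (FF L N) ((ϖ : W) : L))⁻¹ * (x : FF L N) : FF L N) :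
          LaurentSeries L) = (g : LaurentSeries L) := by
        have h2 : (((algebraMap L (FF L N) ((ϖ : W) : L))⁻¹ * (x : FF L N) : FF L N) :
          LaurentSeries L) = (HahnSeries.C ((ϖ : W) : L))⁻¹ * ((x : FF L N) : LaurentSeries L) := by
          rw [← coe_algebraMap_FF N]
          rfl
        rw [h2]
        show (HahnSeries.C ((ϖ : W) : L))⁻¹ * ((x : FF L N) : LaurentSeries L) = _
        have h3 : ((x : FF L N) : LaurentSeries L)
            = HahnSeries.C ((ϖ : W) : L) * (g : LaurentSeries L) := hg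
        rw [h3, ← mul_assoc, inv_mul_cancel₀ (C_unif_ne_zero W hϖ), one_mul]
      rw [h1]
      exact g.2
    refine ⟨⟨_, hy⟩, ?_⟩
    show (x : FF L N) = algebraMap L (FF L N) ((ϖ : W) : L) *
      ((algebraMap L (FF L N) ((ϖ : W) : L))⁻¹ * (x : FF L N))
    rw [← mul_assoc, mul_inv_cancel₀ hϖ0, one_mul]
  · rintro ⟨y, hy⟩
    refine ⟨⟨((y : FF L N) : LaurentSeries L), y.2⟩, ?_⟩
    show ((x : FF L N) : LaurentSeries L) = HahnSeries.C ((ϖ : W) : L) * ((y : FF L N) : LaurentSeries L)
    rw [hy, ← coe_algebraMap_FF N]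
    rfl

/-- Every nonzero element of `FF L N` is a power of the uniformiser times a unit of `int1`. -/
theorem exists_zpow_mul_unit1 {ϖ : W} (hϖ : Irreducible ϖ) (x : FF L N) (hx : x ≠ 0) :
    ∃ (n : ℤ) (u : FF L N) (hu : u ∈ int1 W N), res1 W N ⟨u, hu⟩ ≠ 0 ∧ u⁻¹ ∈ int1 W N ∧
      x = algebraMap L (FF L N) ((ϖ : W) : L) ^ n * u := by
  have hx0 : (x : LaurentSeries L) ≠ 0 := fun h => hx (Subtype.ext h)
  obtain ⟨n, u, hu, hured, hxu⟩ :=
    fracInt_exists_zpow_mul_unit W hϖ (mem_fracInt_of_mem_FF W N x.2) hx0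
  have hϖ0 : algebraMap L (FF L N) ((ϖ : W) : L) ≠ 0 := by
    rw [Ne, map_eq_zero]
    intro h
    exact hϖ.ne_zero (Subtype.ext h)
  have hcoe : ((algebraMap L (FF L N) ((ϖ : W) : L) ^ (-n) * x : FF L N) : LaurentSeries L) = u := by
    have h1 : ((algebraMap L (FF L N) ((ϖ : W) : L) ^ (-n) * x : FF L N) : LaurentSeries L)
        = (HahnSeries.C ((ϖ : W) : L)) ^ (-n) * (x : LaurentSeries L) := by
      rw [← coe_algebraMap_FF N]
      rfl
    rw [h1, hxu, ← mul_assoc, ← zpow_add₀ (C_unif_ne_zero W hϖ)]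
    simp
  have hu' : (algebraMap L (FF L N) ((ϖ : W) : L) ^ (-n) * x : FF L N) ∈ int1 W N := by
    rw [mem_int1_iff, hcoe]
    exact hu
  refine ⟨n, _, hu', ?_, ?_, ?_⟩
  · rw [res1_mk]
    have : (⟨((algebraMap L (FF L N) ((ϖ : W) : L) ^ (-n) * x : FF L N) : LaurentSeries L), hu'⟩ :
        contentRing W) = ⟨u, hu⟩ := Subtype.ext hcoe
    rw [this]
    exact hured
  · rw [mem_int1_iff]
    have : (((algebraMap L (FF L N) ((ϖ : W) : L) ^ (-n) * x)⁻¹ : FF L N) : LaurentSeries L)
        = u⁻¹ := by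
      rw [← hcoe]
      rfl
    rw [this]
    exact inv_mem_contentRing W hu hured
  · rw [← mul_assoc, ← zpow_add₀ hϖ0]
    simp

end DVR

end First

/-! ### The second Gauss valuation ring, through an automorphism -/

section Second

variable (N : ℕ) (w : FF L N ≃ₐ[L] FF L N)

/-- The second Gauss valuation ring `w⁻¹ (int1)`. -/
def int2 : Subring (FF L N) := (int1 W N).comap (w : FF L N →+* FF L N)

theorem mem_int2_iff {x : FF L N} : x ∈ int2 W N w ↔ w x ∈ int1 W N := Iff.rfl

/-- The residue map of the second Gauss valuation: `res1 ∘ w`. -/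
def res2 : int2 W N w →+* LaurentSeries (IsLocalRing.ResidueField W) :=
  (res1 W N).comp ((w : FF L N →+* FF L N).restrict (int2 W N w) (int1 W N) (fun _ hx => hx))

theorem res2_apply (x : int2 W N w) : res2 W N w x = res1 W N ⟨w (x : FF L N), x.2⟩ := rfl

theorem res2_mk {x : FF L N} (hx : x ∈ int2 W N w) :
    res2 W N w ⟨x, hx⟩ = res1 W N ⟨w x, hx⟩ := rfl

theorem algebraMap_mem_int2 (c : W) : algebraMap L (FF L N) (c : L) ∈ int2 W N w := by
  rw [mem_int2_iff, AlgEquiv.commutes]
  exact algebraMap_mem_int1 W N c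

theorem res2_algebraMap (c : W) :
    res2 W N w ⟨algebraMap L (FF L N) (c : L), algebraMap_mem_int2 W N w c⟩ =
      HahnSeries.C (IsLocalRing.residue W c) := by
  rw [res2_mk, ← res1_algebraMap W N c]
  congr 1
  exact Subtype.ext (AlgEquiv.commutes w _)

section DVR

variable [IsDiscreteValuationRing W]

/-- `int2` is a valuation ring of `FF L N`. -/
theorem mem_int2_or_inv_mem (x : FF L N) : x ∈ int2 W N w ∨ x⁻¹ ∈ int2 W N w := by
  rcases mem_int1_or_inv_mem W N (w x) with h | h
  · exact Or.inl h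
  · right
    rw [mem_int2_iff, map_inv₀]
    exact h

/-- The kernel of `res2` is generated by the uniformiser. -/
theorem res2_eq_zero_iff {ϖ : W} (hϖ : Irreducible ϖ) (x : int2 W N w) :
    res2 W N w x = 0 ↔
      ∃ y : int2 W N w, (x : FF L N) = algebraMap L (FF L N) ((ϖ : W) : L) * (y : FF L N) := by
  rw [res2_apply, res1_eq_zero_iff W N hϖ]
  constructor
  · rintro ⟨y, hy⟩
    have hy' : w.symm (y : FF L N) ∈ int2 W N w := by
      rw [mem_int2_iff, AlgEquiv.apply_symm_apply]
      exact y.2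
    refine ⟨⟨_, hy'⟩, ?_⟩
    apply w.injective
    show w (x : FF L N) = w (algebraMap L (FF L N) ((ϖ : W) : L) * w.symm (y : FF L N))
    rw [map_mul, AlgEquiv.commutes, AlgEquiv.apply_symm_apply]
    exact hy
  · rintro ⟨y, hy⟩
    refine ⟨⟨w (y : FF L N), y.2⟩, ?_⟩
    show w (x : FF L N) = algebraMap L (FF L N) ((ϖ : W) : L) * w (y : FF L N)
    rw [hy, map_mul, AlgEquiv.commutes]

/-- Every nonzero element of `FF L N` is a power of the uniformiser times a unit of `int2`. -/
theorem exists_zpow_mul_unit2 {ϖ : W} (hϖ : Irreducible ϖ) (x : FF L N) (hx : x ≠ 0) :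
    ∃ (n : ℤ) (u : FF L N) (hu : u ∈ int2 W N w), res2 W N w ⟨u, hu⟩ ≠ 0 ∧ u⁻¹ ∈ int2 W N w ∧
      x = algebraMap L (FF L N) ((ϖ : W) : L) ^ n * u := by
  have hwx : w x ≠ 0 := fun h => hx (by simpa using h)
  obtain ⟨n, u, hu, hured, huinv, hxu⟩ := exists_zpow_mul_unit1 W N hϖ (w x) hwx
  have hu' : w.symm u ∈ int2 W N w := by
    rw [mem_int2_iff, AlgEquiv.apply_symm_apply]
    exact hu
  refine ⟨n, w.symm u, hu', ?_, ?_, ?_⟩
  · rw [res2_mk]
    have : (⟨w (w.symm u), hu'⟩ : int1 W N) = ⟨u, hu⟩ :=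
      Subtype.ext (AlgEquiv.apply_symm_apply w u)
    rw [this]
    exact hured
  · rw [mem_int2_iff, map_inv₀, AlgEquiv.apply_symm_apply]
    exact huinv
  · apply w.injective
    rw [map_mul, map_zpow₀, AlgEquiv.commutes, AlgEquiv.apply_symm_apply]
    exact hxu

end DVR

end Second

/-! ### The four congruences for the degeneracy maps -/

section Congruences

variable (M q : ℕ) [NeZero M] [NeZero q]

theorem alpha_mem_int1_iff (x : FF L M) :
    heckeAlphaBar L M q x ∈ int1 W (M * q) ↔ x ∈ int1 W M := by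
  rw [mem_int1_iff, mem_int1_iff, coe_heckeAlphaBar]

/-- `res₁ (α x) = res x`. -/
theorem res1_alpha {x : FF L M} (hx : x ∈ int1 W M) :
    res1 W (M * q) ⟨heckeAlphaBar L M q x, (alpha_mem_int1_iff W M q x).mpr hx⟩ =
      res1 W M ⟨x, hx⟩ := by
  have e : (⟨((heckeAlphaBar L M q x : FF L (M * q)) : LaurentSeries L),
      (alpha_mem_int1_iff W M q x).mpr hx⟩ : contentRing W) = ⟨(x : LaurentSeries L), hx⟩ :=
    Subtype.ext (coe_heckeAlphaBar M q x)
  rw [res1_mk, res1_mk, e]

theorem beta_mem_int1 {x : FF L M} (hx : x ∈ int1 W M) :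
    heckeBetaBar L M q x ∈ int1 W (M * q) := by
  rw [mem_int1_iff, coe_heckeBetaBar]
  exact qExpand_mem_contentRing W q hx

/-- `res₁ (β x) = (res x)(q^q)`. -/
theorem res1_beta {x : FF L M} (hx : x ∈ int1 W M) :
    res1 W (M * q) ⟨heckeBetaBar L M q x, beta_mem_int1 W M q hx⟩ =
      qExpand (IsLocalRing.ResidueField W) q (res1 W M ⟨x, hx⟩) := by
  have e : (⟨((heckeBetaBar L M q x : FF L (M * q)) : LaurentSeries L),
      beta_mem_int1 W M q hx⟩ : contentRing W) =
        ⟨qExpand L q (x : LaurentSeries L), qExpand_mem_contentRing W q hx⟩ :=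
    Subtype.ext (coe_heckeBetaBar M q x)
  rw [res1_mk, res1_mk, e]
  exact red_qExpand W q hx

variable (w : FF L (M * q) ≃ₐ[L] FF L (M * q))
  (hwα : (w : FF L (M * q) →ₐ[L] FF L (M * q)).comp (heckeAlphaBar L M q) = heckeBetaBar L M q)
  (hwβ : (w : FF L (M * q) →ₐ[L] FF L (M * q)).comp (heckeBetaBar L M q) = heckeAlphaBar L M q)

include hwα in
theorem w_alpha (x : FF L M) : w (heckeAlphaBar L M q x) = heckeBetaBar L M q x :=
  congrArg (fun f : FF L M →ₐ[L] FF L (M * q) => f x) hwα

include hwβ in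
theorem w_beta (x : FF L M) : w (heckeBetaBar L M q x) = heckeAlphaBar L M q x :=
  congrArg (fun f : FF L M →ₐ[L] FF L (M * q) => f x) hwβ

include hwα in
theorem alpha_mem_int2 {x : FF L M} (hx : x ∈ int1 W M) :
    heckeAlphaBar L M q x ∈ int2 W (M * q) w := by
  rw [mem_int2_iff, w_alpha M q w hwα]
  exact beta_mem_int1 W M q hx

include hwα in
/-- `res₂ (α x) = (res x)(q^q)`. -/
theorem res2_alpha {x : FF L M} (hx : x ∈ int1 W M) :
    res2 W (M * q) w ⟨heckeAlphaBar L M q x, alpha_mem_int2 W M q w hwα hx⟩ =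
      qExpand (IsLocalRing.ResidueField W) q (res1 W M ⟨x, hx⟩) := by
  have e : (⟨w (heckeAlphaBar L M q x), alpha_mem_int2 W M q w hwα hx⟩ : int1 W (M * q)) =
      ⟨heckeBetaBar L M q x, beta_mem_int1 W M q hx⟩ :=
    Subtype.ext (w_alpha M q w hwα x)
  rw [res2_mk, e]
  exact res1_beta W M q hx

include hwβ in
theorem beta_mem_int2_iff (x : FF L M) :
    heckeBetaBar L M q x ∈ int2 W (M * q) w ↔ x ∈ int1 W M := by
  rw [mem_int2_iff, w_beta M q w hwβ, alpha_mem_int1_iff]

include hwβ in
/-- `res₂ (β x) = res x`. -/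
theorem res2_beta {x : FF L M} (hx : x ∈ int1 W M) :
    res2 W (M * q) w ⟨heckeBetaBar L M q x, (beta_mem_int2_iff W M q w hwβ x).mpr hx⟩ =
      res1 W M ⟨x, hx⟩ := by
  have e : (⟨w (heckeBetaBar L M q x), (beta_mem_int2_iff W M q w hwβ x).mpr hx⟩ :
      int1 W (M * q)) = ⟨heckeAlphaBar L M q x, (alpha_mem_int1_iff W M q x).mpr hx⟩ :=
    Subtype.ext (w_beta M q w hwβ x)
  rw [res2_mk, e]
  exact res1_alpha W M q hx

end Congruences

end Fermat.Agent.S34.TwoVal
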