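import Mathlib

/-!
# S34: a uniformiser argument for valuations

`dvd_of_unif`: if `ϖ` is a uniformiser of the valuation `v` (every element of valuation `< 1`
has valuation `≤ v ϖ`) and `ϖ ^ t * h ^ s` is a unit for `v` with `s` prime, then `s ∣ t`.

Proof: otherwise choose `x s + y t = 1`; the element `z = ϖ ^ x * h ^ (-y)` satisfies
`v z ^ s = v ϖ < 1`, hence `v z < 1`, hence `v z ≤ v ϖ = v z ^ s < v z`.
-/

set_option autoImplicit false

namespace Fermat.Agent.S34.UnifDvd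

/-- In a linearly ordered commutative group with zero: `a ^ t * b ^ s = 1` and
`x * s + y * t = 1` give `(a ^ x * b ^ (-y)) ^ s = a`. -/
theorem zpow_bezout {Γ : Type*} [LinearOrderedCommGroupWithZero Γ] {a b : Γ} (ha0 : a ≠ 0)
    {s t : ℕ} (hab : a ^ t * b ^ s = 1) {x y : ℤ} (hxy : x * s + y * t = 1) :
    (a ^ x * b ^ (-y)) ^ s = a := by
  have hbs : b ^ (s : ℤ) = (a ^ (t : ℤ))⁻¹ := by
    rw [zpow_natCast, zpow_natCast]
    exact eq_inv_of_mul_eq_one_right hab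
  have e1 : (a ^ x) ^ s = a ^ (x * (s : ℤ)) := by
    rw [← zpow_natCast (a ^ x) s, ← zpow_mul]
  have e2 : (b ^ (-y)) ^ s = a ^ ((t : ℤ) * y) := by
    rw [← zpow_natCast (b ^ (-y)) s, ← zpow_mul, mul_comm (-y) (s : ℤ), zpow_mul, hbs, inv_zpow,
      zpow_neg, inv_inv, ← zpow_mul]
  rw [mul_pow, e1, e2, ← zpow_add₀ ha0]
  have e3 : x * (s : ℤ) + (t : ℤ) * y = 1 := by linarith
  rw [e3, zpow_one]

/-- **Uniformiser divisibility.** -/
theorem dvd_of_unif {F : Type*} [Field F] {Γ : Type*} [LinearOrderedCommGroupWithZero Γ]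
    (v : Valuation F Γ) (ϖ : F) (hϖ0 : ϖ ≠ 0) (hϖ : v ϖ < 1)
    (hunif : ∀ z : F, v z < 1 → v z ≤ v ϖ) (s : ℕ) (hs : s.Prime) (t : ℕ) (h : F)
    (hv : v (ϖ ^ t * h ^ s) = 1) : s ∣ t := by
  by_contra hst
  have hcop : Nat.Coprime s t := (Nat.Prime.coprime_iff_not_dvd hs).mpr hst
  obtain ⟨x, y, hxy⟩ : ∃ x y : ℤ, x * s + y * t = 1 := by
    have h1 := Int.gcd_eq_gcd_ab (s : ℤ) (t : ℤ)
    have h2 : Int.gcd (s : ℤ) (t : ℤ) = 1 := by
      rw [Int.gcd_natCast_natCast]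
      exact hcop
    rw [h2] at h1
    exact ⟨Int.gcdA s t, Int.gcdB s t, by push_cast at h1; linarith⟩
  have ha0 : v ϖ ≠ 0 := (Valuation.ne_zero_iff v).mpr hϖ0
  have hab : v ϖ ^ t * v h ^ s = 1 := by
    rw [← map_pow, ← map_pow, ← map_mul]
    exact hv
  have hvz : v (ϖ ^ x * h ^ (-y)) = v ϖ ^ x * v h ^ (-y) := by
    rw [map_mul, map_zpow₀, map_zpow₀]
  have hpow : v (ϖ ^ x * h ^ (-y)) ^ s = v ϖ := by
    rw [hvz]
    exact zpow_bezout ha0 hab hxy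
  have hz0 : v (ϖ ^ x * h ^ (-y)) ≠ 0 := by
    intro h0
    rw [h0, zero_pow hs.ne_zero] at hpow
    exact ha0 hpow.symm
  have hzlt : v (ϖ ^ x * h ^ (-y)) < 1 := by
    by_contra hge
    rw [not_lt] at hge
    have h1 : 1 ≤ v (ϖ ^ x * h ^ (-y)) ^ s := one_le_pow_of_one_le' hge s
    rw [hpow] at h1
    exact absurd hϖ (not_lt.mpr h1)
  have hle : v (ϖ ^ x * h ^ (-y)) ≤ v (ϖ ^ x * h ^ (-y)) ^ s := by
    rw [hpow]
    exact hunif _ hzlt
  have hlt : v (ϖ ^ x * h ^ (-y)) ^ s < v (ϖ ^ x * h ^ (-y)) :=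
    pow_lt_self_of_lt_one₀ (zero_lt_iff.mpr hz0) hzlt hs.one_lt
  exact absurd hle (not_le.mpr hlt)

end Fermat.Agent.S34.UnifDvd
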